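/-
S40 / S44 (row 38), block [M1]/T6′, static route (R4), leaf **(ALPHA)** (helper22, dispatch #3192):
**the two degeneracy maps in the node coordinates.**

Abstract form (Mathlib + `P3G/Crossing` only).  `R` = the chart of level `N ℓ` at the UNRAMIFIED level
(regular at the crossing point `𝔫`: `𝔫 R_𝔫 = (u, v)`, `ker θ₂ · R_𝔫 = u R_𝔫`, `ker θ₁ · R_𝔫 = v R_𝔫` —
the output of `S36/R1/Unconditional.regular_fin`), `θ₁ θ₂ : R → R̄` the two branch reductions onto the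
Dedekind special fibre of level `N`, `α β : R_M → R` the degeneracy maps with
`θ₁ ∘ α = θ`, `θ₂ ∘ α = (ψ θ) ^ ℓ`, `θ₂ ∘ β = θ`, `θ₁ ∘ β = (ψ θ) ^ ℓ` (`Crossing.CrossingData`).

* `exists_eq_mul_add_pow_mul` : if `θ₁ T` is a local parameter at `θ₁(𝔫)` and `θ₂ T = π' ^ ℓ` with
  `π'` a local parameter at `θ₂(𝔫)`, then `s · T = u · A + v ^ ℓ · E` with `s, A, E ∉ 𝔫`;
* ★ `alpha_eq` : for `z : R_M` with `θ z` a local parameter at the point `α(s) = θ₁(𝔫)` of the special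
  fibre of level `N` :  `s · α z = u · A + v ^ ℓ · E`,  `s, A, E ∉ 𝔫`   — **(ALPHA)**, the `hz` of
  `S40/M1/NodeAlg` (in `R_𝔫`: `α^* z = u · A' + v ^ ℓ · E'`, `A'`, `E'` units);
* ★ `beta_eq` : the mirror, for `z'` with `θ z'` a local parameter at `β(s) = θ₂(𝔫)` :
  `s · β z' = v · A + u ^ ℓ · E`.

The elements `s, A, E, u, v` are then moved to any bigger level by the level inclusion (which maps the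
complement of `𝔫₀` into the complement of `𝔫`), see `S40/M1/AlphaNodeLevel`.
-/
import Mathlib
import Fermat.Agent.P3G.Crossing

set_option autoImplicit false
set_option linter.unusedSectionVars false
set_option linter.style.longLine false
set_option linter.style.haveILetI false

namespace Fermat.Agent.S40.M1.AlphaNode

open Fermat.Agent.P3G.Crossing

/-! ### Two facts about squares of maximal ideals -/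

/-- `𝔪 ^ 2` is `𝔪`-primary: a multiple of `x ∉ 𝔪 ^ 2` by `c ∉ 𝔪` is not in `𝔪 ^ 2`. -/
theorem mul_notMem_sq {B : Type*} [CommRing B] {𝔪 : Ideal B} [h𝔪 : 𝔪.IsMaximal] {c x : B}
    (hc : c ∉ 𝔪) (hx : x ∉ 𝔪 ^ 2) : c * x ∉ 𝔪 ^ 2 := by
  have hrad : (𝔪 ^ 2).radical = 𝔪 := by
    rw [Ideal.radical_pow 𝔪 two_ne_zero]
    exact h𝔪.isPrime.radical
  have hprim : (𝔪 ^ 2).IsPrimary :=
    Ideal.isPrimary_of_isMaximal_radical (by rw [hrad]; exact h𝔪)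
  intro h
  rw [mul_comm] at h
  rcases (Ideal.isPrimary_iff.1 hprim).2 h with h1 | h1
  · exact hx h1
  · rw [hrad] at h1
    exact hc h1

/-- A ring automorphism `ψ` with `ψ(P) = Q` maps `P ^ 2` onto `Q ^ 2`: `ψ y ∈ Q ^ 2 → y ∈ P ^ 2`. -/
theorem mem_sq_of_map_mem_sq {B : Type*} [CommRing B] (ψ : B ≃+* B) {P Q : Ideal B}
    (hPQ : P.map (ψ : B →+* B) = Q) {y : B} (hy : ψ y ∈ Q ^ 2) : y ∈ P ^ 2 := by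
  rw [← hPQ, ← Ideal.map_pow] at hy
  obtain ⟨x, hx, hxy⟩ := (Ideal.mem_map_iff_of_surjective (ψ : B →+* B) ψ.surjective).1 hy
  have : x = y := ψ.injective hxy
  rwa [← this]

/-! ### The abstract computation -/

section Abstract

variable {R Rb : Type*} [CommRing R] [CommRing Rb] [IsDedekindDomain Rb]
  (θ₁ θ₂ : R →+* Rb) (hθ₁ : Function.Surjective θ₁) (hθ₂ : Function.Surjective θ₂)
  (𝔫 : Ideal R) [h𝔫 : 𝔫.IsMaximal] (hk1 : RingHom.ker θ₁ ≤ 𝔫) (hk2 : RingHom.ker θ₂ ≤ 𝔫)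

include hθ₁ hθ₂ hk1 hk2 in
/-- **The node shape of a function with prescribed orders on the two branches.**  `𝔫 R_𝔫 = (u, v)`,
`u` generates the branch `ker θ₂` at `𝔫`; `θ₁ T` is a local parameter on the first branch and
`θ₂ T` is the `ℓ`-th power of a local parameter on the second one.  Then, locally at `𝔫`,
`T = u · (unit) + v ^ ℓ · (unit)`. -/
theorem exists_eq_mul_add_pow_mul {u v T : R} {ℓ : ℕ} (hℓ : 1 ≤ ℓ)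
    (hu𝔫 : u ∈ 𝔫) (hv𝔫 : v ∈ 𝔫) (hu₂ : θ₂ u = 0) (hv₁ : θ₁ v = 0)
    (hgen : ∀ x ∈ 𝔫, ∃ s a b : R, s ∉ 𝔫 ∧ s * x = a * u + b * v)
    (hp₂ : ∀ r : R, θ₂ r = 0 → ∃ s c' : R, s ∉ 𝔫 ∧ s * r = c' * u)
    (hT₁ : θ₁ T ∈ 𝔫.map θ₁) (hT₁' : θ₁ T ∉ (𝔫.map θ₁) ^ 2)
    {π' : Rb} (hπ' : π' ∈ 𝔫.map θ₂) (hπ'2 : π' ∉ (𝔫.map θ₂) ^ 2) (hT₂ : θ₂ T = π' ^ ℓ) :
    ∃ s A E : R, s ∉ 𝔫 ∧ A ∉ 𝔫 ∧ E ∉ 𝔫 ∧ s * T = u * A + v ^ ℓ * E := by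
  haveI : 𝔫.IsPrime := h𝔫.isPrime
  haveI hmx : (𝔫.map θ₁).IsMaximal := isMaximal_map θ₁ hθ₁ 𝔫 hk1
  haveI hmy : (𝔫.map θ₂).IsMaximal := isMaximal_map θ₂ hθ₂ 𝔫 hk2
  have hnot₁ : ∀ {s : R}, s ∉ 𝔫 → θ₁ s ∉ 𝔫.map θ₁ := fun hs h =>
    hs ((map_mem_map_iff θ₁ hθ₁ 𝔫 hk1 _).1 h)
  have hnot₂ : ∀ {s : R}, s ∉ 𝔫 → θ₂ s ∉ 𝔫.map θ₂ := fun hs h =>
    hs ((map_mem_map_iff θ₂ hθ₂ 𝔫 hk2 _).1 h)
  have hT𝔫 : T ∈ 𝔫 := (map_mem_map_iff θ₁ hθ₁ 𝔫 hk1 T).1 hT₁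
  -- `s₁ T = a u + b v`
  obtain ⟨s₁, a, b, hs₁, h1⟩ := hgen T hT𝔫
  -- `a` is a unit at `𝔫` (first branch)
  have ha : a ∉ 𝔫 := by
    intro ha
    have e1 : θ₁ s₁ * θ₁ T = θ₁ a * θ₁ u := by
      rw [← map_mul, h1, map_add, map_mul, map_mul, hv₁, mul_zero, add_zero]
    have hR : θ₁ a * θ₁ u ∈ (𝔫.map θ₁) ^ 2 := by
      rw [pow_two]
      exact Ideal.mul_mem_mul (Ideal.mem_map_of_mem θ₁ ha) (Ideal.mem_map_of_mem θ₁ hu𝔫)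
    rw [← e1] at hR
    exact mul_notMem_sq (hnot₁ hs₁) hT₁' hR
  -- `π'` in terms of `θ₂ v`
  obtain ⟨x, hx, hxπ⟩ := (Ideal.mem_map_iff_of_surjective θ₂ hθ₂).1 hπ'
  obtain ⟨s', a', b', hs', h2⟩ := hgen x hx
  have e2 : θ₂ s' * π' = θ₂ b' * θ₂ v := by
    rw [← hxπ, ← map_mul, h2, map_add, map_mul, map_mul, hu₂, mul_zero, zero_add]
  have hb' : b' ∉ 𝔫 := by
    intro hb'
    have hR : θ₂ b' * θ₂ v ∈ (𝔫.map θ₂) ^ 2 := by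
      rw [pow_two]
      exact Ideal.mul_mem_mul (Ideal.mem_map_of_mem θ₂ hb') (Ideal.mem_map_of_mem θ₂ hv𝔫)
    rw [← e2] at hR
    exact mul_notMem_sq (hnot₂ hs') hπ'2 hR
  have hv0 : θ₂ v ≠ 0 := by
    intro h0
    rw [h0, mul_zero] at e2
    have : θ₂ s' * π' ∈ (𝔫.map θ₂) ^ 2 := by rw [e2]; exact Ideal.zero_mem _
    exact mul_notMem_sq (hnot₂ hs') hπ'2 this
  -- the second branch
  have e3 : θ₂ s₁ * π' ^ ℓ = θ₂ b * θ₂ v := by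
    rw [← hT₂, ← map_mul, h1, map_add, map_mul, map_mul, hu₂, mul_zero, zero_add]
  obtain ⟨k, rfl⟩ : ∃ k, ℓ = k + 1 := ⟨ℓ - 1, by omega⟩
  have e4 : θ₂ s' ^ (k + 1) * θ₂ b = θ₂ s₁ * θ₂ b' ^ (k + 1) * θ₂ v ^ k := by
    apply mul_right_cancel₀ hv0
    calc θ₂ s' ^ (k + 1) * θ₂ b * θ₂ v = θ₂ s' ^ (k + 1) * (θ₂ b * θ₂ v) := by ring
      _ = θ₂ s' ^ (k + 1) * (θ₂ s₁ * π' ^ (k + 1)) := by rw [e3]
      _ = θ₂ s₁ * (θ₂ s' * π') ^ (k + 1) := by ring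
      _ = θ₂ s₁ * (θ₂ b' * θ₂ v) ^ (k + 1) := by rw [e2]
      _ = θ₂ s₁ * θ₂ b' ^ (k + 1) * θ₂ v ^ k * θ₂ v := by ring
  have hw : θ₂ (s' ^ (k + 1) * b - s₁ * b' ^ (k + 1) * v ^ k) = 0 := by
    rw [map_sub, map_mul, map_mul, map_mul, map_pow, map_pow, map_pow, e4, sub_self]
  obtain ⟨s₃, c', hs₃, h3⟩ := hp₂ _ hw
  have hpow : s' ^ (k + 1) ∉ 𝔫 := fun h => hs' (Ideal.IsPrime.mem_of_pow_mem inferInstance _ h)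
  have hpowb : b' ^ (k + 1) ∉ 𝔫 := fun h => hb' (Ideal.IsPrime.mem_of_pow_mem inferInstance _ h)
  have hmul : ∀ {x y : R}, x ∉ 𝔫 → y ∉ 𝔫 → x * y ∉ 𝔫 := fun hx hy h =>
    (Ideal.IsPrime.mem_or_mem inferInstance h).elim hx hy
  refine ⟨s' ^ (k + 1) * s₃ * s₁, s' ^ (k + 1) * s₃ * a + c' * v, s₃ * s₁ * b' ^ (k + 1),
    hmul (hmul hpow hs₃) hs₁, ?_, hmul (hmul hs₃ hs₁) hpowb, ?_⟩
  · intro hA
    have : s' ^ (k + 1) * s₃ * a ∈ 𝔫 := by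
      have := 𝔫.sub_mem hA (𝔫.mul_mem_left c' hv𝔫)
      rwa [add_sub_cancel_right] at this
    exact hmul (hmul hpow hs₃) ha this
  · linear_combination (s' ^ (k + 1) * s₃) * h1 + v * h3

end Abstract

/-! ### The two degeneracy maps -/

section Crossing

variable {RM R Rb : Type*} [CommRing RM] [CommRing R] [CommRing Rb] [IsDedekindDomain Rb]
  {ℓ : ℕ} {α β : RM → R} {θ : RM →+* Rb} {θ₁ θ₂ : R →+* Rb} {ψ : Rb ≃+* Rb}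
  (D : CrossingData ℓ α β θ θ₁ θ₂ ψ)
  (𝔫 : Ideal R) [h𝔫 : 𝔫.IsMaximal] (hk1 : RingHom.ker θ₁ ≤ 𝔫) (hk2 : RingHom.ker θ₂ ≤ 𝔫)

include D hk1 hk2 in
/-- **(ALPHA)**: `s · α z = u · A + v ^ ℓ · E` with `s, A, E ∉ 𝔫`, for `z` a local parameter of the
level-`N` chart at the point `α(s) = θ₁(𝔫)`. -/
theorem alpha_eq {u v : R} (hu𝔫 : u ∈ 𝔫) (hv𝔫 : v ∈ 𝔫) (hu₂ : θ₂ u = 0) (hv₁ : θ₁ v = 0)
    (hgen : ∀ x ∈ 𝔫, ∃ s a b : R, s ∉ 𝔫 ∧ s * x = a * u + b * v)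
    (hp₂ : ∀ r : R, θ₂ r = 0 → ∃ s c' : R, s ∉ 𝔫 ∧ s * r = c' * u)
    {z : RM} (hz : θ z ∈ 𝔫.map θ₁) (hz2 : θ z ∉ (𝔫.map θ₁) ^ 2) :
    ∃ s A E : R, s ∉ 𝔫 ∧ A ∉ 𝔫 ∧ E ∉ 𝔫 ∧ s * α z = u * A + v ^ ℓ * E := by
  refine exists_eq_mul_add_pow_mul θ₁ θ₂ D.surj₁ D.surj₂ 𝔫 hk1 hk2
    (by have := D.two_le; omega) hu𝔫 hv𝔫 hu₂ hv₁ hgen hp₂
    (by rw [D.h1]; exact hz) (by rw [D.h1]; exact hz2)
    (π' := ψ (θ z)) ((D.mem_mx_iff 𝔫 hk1 hk2 _).1 hz) ?_ (D.h4 z)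
  intro h
  exact hz2 (mem_sq_of_map_mem_sq ψ (D.map_psi_mx 𝔫 hk1 hk2) h)

include D hk1 hk2 in
/-- **(ALPHA), mirror**: `s · β z' = v · A + u ^ ℓ · E` with `s, A, E ∉ 𝔫`, for `z'` a local parameter
of the level-`N` chart at the point `β(s) = θ₂(𝔫)`. -/
theorem beta_eq {u v : R} (hu𝔫 : u ∈ 𝔫) (hv𝔫 : v ∈ 𝔫) (hu₂ : θ₂ u = 0) (hv₁ : θ₁ v = 0)
    (hgen : ∀ x ∈ 𝔫, ∃ s a b : R, s ∉ 𝔫 ∧ s * x = a * u + b * v)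
    (hp₁ : ∀ r : R, θ₁ r = 0 → ∃ s c' : R, s ∉ 𝔫 ∧ s * r = c' * v)
    {z' : RM} (hz : θ z' ∈ 𝔫.map θ₂) (hz2 : θ z' ∉ (𝔫.map θ₂) ^ 2) :
    ∃ s A E : R, s ∉ 𝔫 ∧ A ∉ 𝔫 ∧ E ∉ 𝔫 ∧ s * β z' = v * A + u ^ ℓ * E := by
  have hgen' : ∀ x ∈ 𝔫, ∃ s a b : R, s ∉ 𝔫 ∧ s * x = a * v + b * u := by
    intro x hx
    obtain ⟨s, a, b, hs, h⟩ := hgen x hx
    exact ⟨s, b, a, hs, by rw [h, add_comm]⟩
  refine exists_eq_mul_add_pow_mul θ₂ θ₁ D.surj₂ D.surj₁ 𝔫 hk2 hk1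
    (by have := D.two_le; omega) hv𝔫 hu𝔫 hv₁ hu₂ hgen' hp₁
    (by rw [D.h2]; exact hz) (by rw [D.h2]; exact hz2)
    (π' := ψ (θ z')) ((D.mem_my_iff 𝔫 hk1 hk2 _).1 hz) ?_ (D.h3 z')
  intro h
  exact hz2 (mem_sq_of_map_mem_sq ψ (D.map_psi_my 𝔫 hk1 hk2) h)

end Crossing

end Fermat.Agent.S40.M1.AlphaNode
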