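/-
S40 / S44 (row 38), block [M1]/T6′, static route (R4), leaf **(ALPHA)** (helper22, dispatch #3192):
**level instance of `S40/M1/AlphaNode`** for the finite chart of level `N ℓ` at a level `(K, O)`
(binder block of `S36/R1/Unconditional.regular_fin` / `P3G/TwoComponentsFinal.crossingData_fin`).

`θ := res (thetaFin K N O)`, `θ₁ := res (thetaFin K (N ℓ) O)`, `θ₂ := res (theta2S K N ℓ O S₂)`
(values in the Dedekind special fibre `RbarFin K N O`), `α := alphaR`, `β := betaR`.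

* `map_comap_alphaR`, `map_comap_betaR` : `θ(𝔫 ∩ α) = θ₁(𝔫)`, `θ(𝔫 ∩ β) = θ₂(𝔫)` — the points
  `α(s)`, `β(s)` of the special fibre of level `N` below a crossing point `𝔫`;
* `exists_local_parameter_alpha/_beta` : local parameters `z`, `z'` at `α(s)`, `β(s)` exist in `Rfin K N O`;
* ★ `alpha_eq_fin`, `beta_eq_fin` : **(ALPHA)** for crossing coordinates `u v` in the shape of the output
  of `regular_fin` (θ-language): `s · alphaR z = u · A + v ^ ℓ · E`, `s · betaR z' = v · A + u ^ ℓ · E`,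
  `s, A, E ∉ 𝔫`;
* ★ `alpha_eq_fin_val`, `beta_eq_fin_val` : the same in the language of the two vertical valuation rings
  (shape of the output of `regular_fin_val`).
-/
import Mathlib
import Fermat.Agent.S40.M1.AlphaNode
import Fermat.Agent.S36.R1.CrossingRegular

set_option autoImplicit false
set_option linter.unusedSectionVars false
set_option linter.style.haveILetI false
set_option linter.style.longLine false

open ModularCurve Fermat.Agent.S28.Gauss Fermat.Agent.N4.Setting Fermat.Agent.N4.FibreEmbedding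
open Fermat.Agent.N4.Chart
open Fermat.Agent.N4F.E.DegreeLevelRaise Fermat.Agent.N4F.E.GaussDVR AlgebraicCurve Polynomial
open Fermat.Agent.N4F.E IsLocalRing Fermat.Agent.P3G.RbarFin Fermat.Agent.P3G.TwoComponents
open Fermat.Agent.P3G.TwoComponentsFinal Fermat.Agent.P3G
open Fermat.Agent.S36.R1.CrossingRegular

noncomputable section

namespace Fermat.Agent.S40.M1.AlphaNodeLevel

/-! ### Abstract: the points below a crossing point -/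

section Abstract

open Fermat.Agent.P3G.Crossing

variable {RM R Rb : Type*} [CommRing RM] [CommRing R] [CommRing Rb]
  {ℓ : ℕ} {α β : RM →+* R} {θ : RM →+* Rb} {θ₁ θ₂ : R →+* Rb} {ψ : Rb ≃+* Rb}

/-- `θ(α⁻¹ 𝔫) = θ₁(𝔫)`: the point `α(s)`. -/
theorem map_comap_alpha (D : CrossingData ℓ (⇑α) (⇑β) θ θ₁ θ₂ ψ) (𝔫 : Ideal R)
    (hk1 : RingHom.ker θ₁ ≤ 𝔫) : (𝔫.comap α).map θ = 𝔫.map θ₁ := by
  apply le_antisymm
  · rw [Ideal.map_le_iff_le_comap]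
    intro x hx
    rw [Ideal.mem_comap] at hx ⊢
    rw [← D.h1 x]
    exact Ideal.mem_map_of_mem θ₁ hx
  · intro y hy
    obtain ⟨r, hr, rfl⟩ := (Ideal.mem_map_iff_of_surjective θ₁ D.surj₁).1 hy
    obtain ⟨x, hx⟩ := D.surj (θ₁ r)
    have hmem : α x ∈ 𝔫 := by
      have h1 : α x - r ∈ 𝔫 := hk1 (by rw [RingHom.mem_ker, map_sub, D.h1, hx, sub_self])
      have := 𝔫.add_mem h1 hr
      rwa [sub_add_cancel] at this
    rw [← hx]
    exact Ideal.mem_map_of_mem θ (Ideal.mem_comap.2 hmem)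

/-- `θ(β⁻¹ 𝔫) = θ₂(𝔫)`: the point `β(s)`. -/
theorem map_comap_beta (D : CrossingData ℓ (⇑α) (⇑β) θ θ₁ θ₂ ψ) (𝔫 : Ideal R)
    (hk2 : RingHom.ker θ₂ ≤ 𝔫) : (𝔫.comap β).map θ = 𝔫.map θ₂ := by
  apply le_antisymm
  · rw [Ideal.map_le_iff_le_comap]
    intro x hx
    rw [Ideal.mem_comap] at hx ⊢
    rw [← D.h2 x]
    exact Ideal.mem_map_of_mem θ₂ hx
  · intro y hy
    obtain ⟨r, hr, rfl⟩ := (Ideal.mem_map_iff_of_surjective θ₂ D.surj₂).1 hy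
    obtain ⟨x, hx⟩ := D.surj (θ₂ r)
    have hmem : β x ∈ 𝔫 := by
      have h1 : β x - r ∈ 𝔫 := hk2 (by rw [RingHom.mem_ker, map_sub, D.h2, hx, sub_self])
      have := 𝔫.add_mem h1 hr
      rwa [sub_add_cancel] at this
    rw [← hx]
    exact Ideal.mem_map_of_mem θ (Ideal.mem_comap.2 hmem)

end Abstract

/-! ### The level -/

variable (K : Type) [Field K] [CharZero K] (N : ℕ) [NeZero N] (ℓ : ℕ) [Fact ℓ.Prime]
  (O : Subring K) [IsDiscreteValuationRing ↥O] [IsFractionRing ↥O K]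
  [CharP (IsLocalRing.ResidueField ↥O) ℓ] [PerfectRing (IsLocalRing.ResidueField ↥O) ℓ]

set_option quotPrecheck false in
local notation "κ" => IsLocalRing.ResidueField ↥O

attribute [local instance] AlphaSide.algFL AlphaSide.algGL AlphaSide.isScalarTower_GFL

set_option synthInstance.maxHeartbeats 400000

variable (hN : IsUnit ((N : ℕ) : ↥O)) (ι : K →+* ℂ) (hℓN : ¬ ℓ ∣ N)
  (hprime : (fibreIdeal K N O (Rfin K N O)).IsPrime)
  (hsmooth : IsDedekindDomain (↥(Rfin K N O) ⧸ fibreIdeal K N O (Rfin K N O)))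
  (hA2 : ∀ x : ↥(gaussSubalgebra K N O),
    theta K N O x ∈ modularFunctionFieldFullC (IsLocalRing.ResidueField ↥O) N)
  (S₂ : FibreTwo.SecondVal K N ℓ O)

/-- The reduction of the chart of level `N`, with values in `RbarFin K N O`. -/
abbrev th : ↥(Rfin K N O) →+* ↥(RbarFin K N O) :=
  CrossingLaurent.res (RbarFin K N O) (thetaFin K N O) (thetaFin_mem K N O)

include hN ι hℓN hprime hsmooth hA2 in
/-- The first (Gauss) reduction of the chart of level `N ℓ`, with values in `RbarFin K N O`. -/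
abbrev th₁ : ↥(Rfin K (N * ℓ) O) →+* ↥(RbarFin K N O) :=
  CrossingLaurent.res (RbarFin K N O) (thetaFin K (N * ℓ) O)
    (thetaFin_mem_rbar K N ℓ O hN ι hℓN hprime hsmooth hA2 S₂)

include hN hprime hsmooth hA2 in
/-- The second reduction of the chart of level `N ℓ`, with values in `RbarFin K N O`. -/
abbrev th₂ : ↥(Rfin K (N * ℓ) O) →+* ↥(RbarFin K N O) :=
  CrossingLaurent.res (RbarFin K N O) (theta2S K N ℓ O S₂)
    (theta2S_mem_rbar K N ℓ O hN hprime hsmooth hA2 S₂)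

theorem th₁_eq_zero_iff (r : ↥(Rfin K (N * ℓ) O)) :
    th₁ K N ℓ O hN ι hℓN hprime hsmooth hA2 S₂ r = 0 ↔ thetaFin K (N * ℓ) O r = 0 := by
  rw [← RingHom.mem_ker, CrossingLaurent.ker_res, RingHom.mem_ker]

theorem th₂_eq_zero_iff (r : ↥(Rfin K (N * ℓ) O)) :
    th₂ K N ℓ O hN hprime hsmooth hA2 S₂ r = 0 ↔ theta2S K N ℓ O S₂ r = 0 := by
  rw [← RingHom.mem_ker, CrossingLaurent.ker_res, RingHom.mem_ker]

variable (𝔫 : Ideal ↥(Rfin K (N * ℓ) O)) [h𝔫 : 𝔫.IsMaximal]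

include hN ι hℓN hprime hsmooth hA2 in
/-- The point `α(s)` of the special fibre of level `N` below the crossing point `𝔫`. -/
theorem map_comap_alphaR (hk1 : RingHom.ker (thetaFin K (N * ℓ) O) ≤ 𝔫) :
    (𝔫.comap (LevelIntegrality.alphaR K N ℓ O).toRingHom).map (th K N O) =
      𝔫.map (th₁ K N ℓ O hN ι hℓN hprime hsmooth hA2 S₂) :=
  map_comap_alpha (crossingData_fin K N ℓ O hN ι hℓN hprime hsmooth hA2 S₂) 𝔫
    (by rw [CrossingLaurent.ker_res]; exact hk1)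

include hN ι hℓN hprime hsmooth hA2 in
/-- The point `β(s)` of the special fibre of level `N` below the crossing point `𝔫`. -/
theorem map_comap_betaR (hk2 : RingHom.ker (theta2S K N ℓ O S₂) ≤ 𝔫) :
    (𝔫.comap (LevelIntegrality.betaR K N ℓ O).toRingHom).map (th K N O) =
      𝔫.map (th₂ K N ℓ O hN hprime hsmooth hA2 S₂) :=
  map_comap_beta (crossingData_fin K N ℓ O hN ι hℓN hprime hsmooth hA2 S₂) 𝔫
    (by rw [CrossingLaurent.ker_res]; exact hk2)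

include hN ι hℓN hprime hsmooth hA2 in
/-- A local parameter at `α(s)` exists in `Rfin K N O`. -/
theorem exists_local_parameter_alpha (hk1 : RingHom.ker (thetaFin K (N * ℓ) O) ≤ 𝔫) :
    ∃ z : ↥(Rfin K N O),
      th K N O z ∈ 𝔫.map (th₁ K N ℓ O hN ι hℓN hprime hsmooth hA2 S₂) ∧
      th K N O z ∉ (𝔫.map (th₁ K N ℓ O hN ι hℓN hprime hsmooth hA2 S₂)) ^ 2 := by
  haveI := isDedekindDomain_RbarFin K N O hprime hsmooth
  have hD := crossingData_fin K N ℓ O hN ι hℓN hprime hsmooth hA2 S₂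
  have hk1' : RingHom.ker (th₁ K N ℓ O hN ι hℓN hprime hsmooth hA2 S₂) ≤ 𝔫 := by
    rw [CrossingLaurent.ker_res]; exact hk1
  haveI := Crossing.isMaximal_map _ hD.surj₁ 𝔫 hk1'
  have hbot : 𝔫.map (th₁ K N ℓ O hN ι hℓN hprime hsmooth hA2 S₂) ≠ ⊥ :=
    Ring.ne_bot_of_isMaximal_of_not_isField inferInstance (not_isField_RbarFin K N O hprime)
  obtain ⟨y, hy, hy2⟩ := Ideal.exists_mem_pow_notMem_pow_succ _ hbot
    (Ideal.IsMaximal.ne_top inferInstance) 1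
  rw [pow_one] at hy
  obtain ⟨z, hz⟩ := hD.surj y
  exact ⟨z, by rw [hz]; exact hy, by rw [hz]; exact hy2⟩

include hN ι hℓN hprime hsmooth hA2 in
/-- A local parameter at `β(s)` exists in `Rfin K N O`. -/
theorem exists_local_parameter_beta (hk2 : RingHom.ker (theta2S K N ℓ O S₂) ≤ 𝔫) :
    ∃ z' : ↥(Rfin K N O),
      th K N O z' ∈ 𝔫.map (th₂ K N ℓ O hN hprime hsmooth hA2 S₂) ∧
      th K N O z' ∉ (𝔫.map (th₂ K N ℓ O hN hprime hsmooth hA2 S₂)) ^ 2 := by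
  haveI := isDedekindDomain_RbarFin K N O hprime hsmooth
  have hD := crossingData_fin K N ℓ O hN ι hℓN hprime hsmooth hA2 S₂
  have hk2' : RingHom.ker (th₂ K N ℓ O hN hprime hsmooth hA2 S₂) ≤ 𝔫 := by
    rw [CrossingLaurent.ker_res]; exact hk2
  haveI := Crossing.isMaximal_map _ hD.surj₂ 𝔫 hk2'
  have hbot : 𝔫.map (th₂ K N ℓ O hN hprime hsmooth hA2 S₂) ≠ ⊥ :=
    Ring.ne_bot_of_isMaximal_of_not_isField inferInstance (not_isField_RbarFin K N O hprime)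
  obtain ⟨y, hy, hy2⟩ := Ideal.exists_mem_pow_notMem_pow_succ _ hbot
    (Ideal.IsMaximal.ne_top inferInstance) 1
  rw [pow_one] at hy
  obtain ⟨z, hz⟩ := hD.surj y
  exact ⟨z, by rw [hz]; exact hy, by rw [hz]; exact hy2⟩

include hN ι hℓN hprime hsmooth hA2 in
/-- **(ALPHA) at a level, θ-language** (`u v` as in the output of `S36/R1/Unconditional.regular_fin`). -/
theorem alpha_eq_fin (hk1 : RingHom.ker (thetaFin K (N * ℓ) O) ≤ 𝔫)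
    (hk2 : RingHom.ker (theta2S K N ℓ O S₂) ≤ 𝔫)
    {u v : ↥(Rfin K (N * ℓ) O)} (hu𝔫 : u ∈ 𝔫) (hv𝔫 : v ∈ 𝔫)
    (hu2 : theta2S K N ℓ O S₂ u = 0) (hv1 : thetaFin K (N * ℓ) O v = 0)
    (hp2 : ∀ r : ↥(Rfin K (N * ℓ) O), theta2S K N ℓ O S₂ r = 0 →
      ∃ s c' : ↥(Rfin K (N * ℓ) O), s ∉ 𝔫 ∧ s * r = c' * u)
    (hgen : ∀ x ∈ 𝔫, ∃ s a b : ↥(Rfin K (N * ℓ) O), s ∉ 𝔫 ∧ s * x = a * u + b * v)
    {z : ↥(Rfin K N O)}
    (hz : th K N O z ∈ 𝔫.map (th₁ K N ℓ O hN ι hℓN hprime hsmooth hA2 S₂))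
    (hz2 : th K N O z ∉ (𝔫.map (th₁ K N ℓ O hN ι hℓN hprime hsmooth hA2 S₂)) ^ 2) :
    ∃ s A E : ↥(Rfin K (N * ℓ) O), s ∉ 𝔫 ∧ A ∉ 𝔫 ∧ E ∉ 𝔫 ∧
      s * LevelIntegrality.alphaR K N ℓ O z = u * A + v ^ ℓ * E := by
  haveI := isDedekindDomain_RbarFin K N O hprime hsmooth
  exact AlphaNode.alpha_eq (crossingData_fin K N ℓ O hN ι hℓN hprime hsmooth hA2 S₂) 𝔫
    (by rw [CrossingLaurent.ker_res]; exact hk1) (by rw [CrossingLaurent.ker_res]; exact hk2)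
    hu𝔫 hv𝔫 ((th₂_eq_zero_iff K N ℓ O hN hprime hsmooth hA2 S₂ u).2 hu2)
    ((th₁_eq_zero_iff K N ℓ O hN ι hℓN hprime hsmooth hA2 S₂ v).2 hv1) hgen
    (fun r hr => hp2 r ((th₂_eq_zero_iff K N ℓ O hN hprime hsmooth hA2 S₂ r).1 hr)) hz hz2

include hN ι hℓN hprime hsmooth hA2 in
/-- **(ALPHA), mirror, at a level, θ-language.** -/
theorem beta_eq_fin (hk1 : RingHom.ker (thetaFin K (N * ℓ) O) ≤ 𝔫)
    (hk2 : RingHom.ker (theta2S K N ℓ O S₂) ≤ 𝔫)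
    {u v : ↥(Rfin K (N * ℓ) O)} (hu𝔫 : u ∈ 𝔫) (hv𝔫 : v ∈ 𝔫)
    (hu2 : theta2S K N ℓ O S₂ u = 0) (hv1 : thetaFin K (N * ℓ) O v = 0)
    (hp1 : ∀ r : ↥(Rfin K (N * ℓ) O), thetaFin K (N * ℓ) O r = 0 →
      ∃ s c' : ↥(Rfin K (N * ℓ) O), s ∉ 𝔫 ∧ s * r = c' * v)
    (hgen : ∀ x ∈ 𝔫, ∃ s a b : ↥(Rfin K (N * ℓ) O), s ∉ 𝔫 ∧ s * x = a * u + b * v)
    {z' : ↥(Rfin K N O)}
    (hz : th K N O z' ∈ 𝔫.map (th₂ K N ℓ O hN hprime hsmooth hA2 S₂))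
    (hz2 : th K N O z' ∉ (𝔫.map (th₂ K N ℓ O hN hprime hsmooth hA2 S₂)) ^ 2) :
    ∃ s A E : ↥(Rfin K (N * ℓ) O), s ∉ 𝔫 ∧ A ∉ 𝔫 ∧ E ∉ 𝔫 ∧
      s * LevelIntegrality.betaR K N ℓ O z' = v * A + u ^ ℓ * E := by
  haveI := isDedekindDomain_RbarFin K N O hprime hsmooth
  exact AlphaNode.beta_eq (crossingData_fin K N ℓ O hN ι hℓN hprime hsmooth hA2 S₂) 𝔫
    (by rw [CrossingLaurent.ker_res]; exact hk1) (by rw [CrossingLaurent.ker_res]; exact hk2)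
    hu𝔫 hv𝔫 ((th₂_eq_zero_iff K N ℓ O hN hprime hsmooth hA2 S₂ u).2 hu2)
    ((th₁_eq_zero_iff K N ℓ O hN ι hℓN hprime hsmooth hA2 S₂ v).2 hv1) hgen
    (fun r hr => hp1 r ((th₁_eq_zero_iff K N ℓ O hN ι hℓN hprime hsmooth hA2 S₂ r).1 hr)) hz hz2

include hN ι hℓN hprime hsmooth hA2 in
/-- **(ALPHA) at a level, valuation language** (`u v` as in the output of `regular_fin_val`). -/
theorem alpha_eq_fin_val
    (h1le : ∀ r : ↥(Rfin K (N * ℓ) O),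
      (r : FF K (N * ℓ)) ∈ (gaussVS K (N * ℓ) O).nonunits → r ∈ 𝔫)
    (h2le : ∀ r : ↥(Rfin K (N * ℓ) O), (r : FF K (N * ℓ)) ∈ S₂.V.nonunits → r ∈ 𝔫)
    {u v : ↥(Rfin K (N * ℓ) O)} (hu𝔫 : u ∈ 𝔫) (hv𝔫 : v ∈ 𝔫)
    (hu2 : (u : FF K (N * ℓ)) ∈ S₂.V.nonunits)
    (hv1 : (v : FF K (N * ℓ)) ∈ (gaussVS K (N * ℓ) O).nonunits)
    (hp2 : ∀ r : ↥(Rfin K (N * ℓ) O), (r : FF K (N * ℓ)) ∈ S₂.V.nonunits →
      ∃ s c' : ↥(Rfin K (N * ℓ) O), s ∉ 𝔫 ∧ s * r = c' * u)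
    (hgen : ∀ x ∈ 𝔫, ∃ s a b : ↥(Rfin K (N * ℓ) O), s ∉ 𝔫 ∧ s * x = a * u + b * v)
    {z : ↥(Rfin K N O)}
    (hz : th K N O z ∈ 𝔫.map (th₁ K N ℓ O hN ι hℓN hprime hsmooth hA2 S₂))
    (hz2 : th K N O z ∉ (𝔫.map (th₁ K N ℓ O hN ι hℓN hprime hsmooth hA2 S₂)) ^ 2) :
    ∃ s A E : ↥(Rfin K (N * ℓ) O), s ∉ 𝔫 ∧ A ∉ 𝔫 ∧ E ∉ 𝔫 ∧
      s * LevelIntegrality.alphaR K N ℓ O z = u * A + v ^ ℓ * E :=
  alpha_eq_fin K N ℓ O hN ι hℓN hprime hsmooth hA2 S₂ 𝔫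
    (fun r hr => h1le r ((mem_nonunits_gaussVS_iff_thetaFin K N ℓ O r).2 hr))
    (fun r hr => h2le r ((mem_nonunits_secondVal_iff_theta2S K N ℓ O S₂ r).2 hr))
    hu𝔫 hv𝔫 ((mem_nonunits_secondVal_iff_theta2S K N ℓ O S₂ u).1 hu2)
    ((mem_nonunits_gaussVS_iff_thetaFin K N ℓ O v).1 hv1)
    (fun r hr => hp2 r ((mem_nonunits_secondVal_iff_theta2S K N ℓ O S₂ r).2 hr)) hgen hz hz2

include hN ι hℓN hprime hsmooth hA2 in
/-- **(ALPHA), mirror, at a level, valuation language.** -/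
theorem beta_eq_fin_val
    (h1le : ∀ r : ↥(Rfin K (N * ℓ) O),
      (r : FF K (N * ℓ)) ∈ (gaussVS K (N * ℓ) O).nonunits → r ∈ 𝔫)
    (h2le : ∀ r : ↥(Rfin K (N * ℓ) O), (r : FF K (N * ℓ)) ∈ S₂.V.nonunits → r ∈ 𝔫)
    {u v : ↥(Rfin K (N * ℓ) O)} (hu𝔫 : u ∈ 𝔫) (hv𝔫 : v ∈ 𝔫)
    (hu2 : (u : FF K (N * ℓ)) ∈ S₂.V.nonunits)
    (hv1 : (v : FF K (N * ℓ)) ∈ (gaussVS K (N * ℓ) O).nonunits)
    (hp1 : ∀ r : ↥(Rfin K (N * ℓ) O), (r : FF K (N * ℓ)) ∈ (gaussVS K (N * ℓ) O).nonunits →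
      ∃ s c' : ↥(Rfin K (N * ℓ) O), s ∉ 𝔫 ∧ s * r = c' * v)
    (hgen : ∀ x ∈ 𝔫, ∃ s a b : ↥(Rfin K (N * ℓ) O), s ∉ 𝔫 ∧ s * x = a * u + b * v)
    {z' : ↥(Rfin K N O)}
    (hz : th K N O z' ∈ 𝔫.map (th₂ K N ℓ O hN hprime hsmooth hA2 S₂))
    (hz2 : th K N O z' ∉ (𝔫.map (th₂ K N ℓ O hN hprime hsmooth hA2 S₂)) ^ 2) :
    ∃ s A E : ↥(Rfin K (N * ℓ) O), s ∉ 𝔫 ∧ A ∉ 𝔫 ∧ E ∉ 𝔫 ∧
      s * LevelIntegrality.betaR K N ℓ O z' = v * A + u ^ ℓ * E :=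
  beta_eq_fin K N ℓ O hN ι hℓN hprime hsmooth hA2 S₂ 𝔫
    (fun r hr => h1le r ((mem_nonunits_gaussVS_iff_thetaFin K N ℓ O r).2 hr))
    (fun r hr => h2le r ((mem_nonunits_secondVal_iff_theta2S K N ℓ O S₂ r).2 hr))
    hu𝔫 hv𝔫 ((mem_nonunits_secondVal_iff_theta2S K N ℓ O S₂ u).1 hu2)
    ((mem_nonunits_gaussVS_iff_thetaFin K N ℓ O v).1 hv1)
    (fun r hr => hp1 r ((mem_nonunits_gaussVS_iff_thetaFin K N ℓ O r).2 hr)) hgen hz hz2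

end Fermat.Agent.S40.M1.AlphaNodeLevel
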