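/-
S44 / S40 (row 38), T6′ / M1-THICK part (2) (helper9; split of helper25, board #3139):
**the Gauss reduction and a change of level.**

Generic two-level setting: fields `K`, `K'` of characteristic `0`, `f : K →+* K'`, discrete valuation
rings `O ⊆ K`, `O' ⊆ K'` with fraction fields `K`, `K'`, `f O ⊆ O'`, `O → O'` local; `ρ := ResidueField.map
(O → O') : κ →+* κ'`.

* (C1) `ffMap_mem_gaussSubalgebra`, `theta_ffMap` : the Gauss reduction commutes with the coefficientwise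
  base change `ffMap f M : FF K M → FF K' M`: `θ' (ffMap f M x) = coeffMap ρ (θ x)`;
  `redG_ffMap`, `redFinL_finMap`, `redInfL_infMap` : the same in the vocabulary of `S40/W/F4Level`
  (level `N ℓ`, values in `FF κ N`): `redFinL' (finMap r₀) = ffMap ρ N (redFinL r₀)`;
* (C2) `exists_redFinL_finMap_eq` : if `ρ` is bijective (both residue fields are `κ(A)`), every reduction
  `redFinL' r` of an element of the finite chart of the big level is the reduction of an element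
  coming from the small level; same at infinity;
* (C3) `exists_ord_eq_one` (generic Dedekind form) and `exists_mem_SigmaFin_ord_eq_one` : a place `s` of
  `FF κ N` at which `j̄` is integral has a local parameter in `SigmaFin κ N`.
* levels `K₁ ≤ L` of `Q̄` (`S19/Cech/LevelBasis` vocabulary): `isLocalHom_baseMapIncl`.
-/
import Mathlib
import Fermat.Agent.S40.W.F4Level
import Fermat.Agent.S19.Cech.LevelBasis
import Fermat.Agent.S24.PlaceDict
import Fermat.Agent.N4F.C.GaussBar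
import Fermat.Agent.N4F.C.SigmaTransport

set_option autoImplicit false
set_option linter.unusedSectionVars false
set_option linter.style.haveILetI false
set_option synthInstance.maxHeartbeats 400000
set_option maxHeartbeats 800000

open ModularCurve AlgebraicCurve

noncomputable section

namespace Fermat.Agent.S40.M1.FibreLevel

open Fermat.Agent.N4.Chart Fermat.Agent.N4.Setting Fermat.Agent.N4.FibreEmbedding
  Fermat.Agent.N4.BaseDescent Fermat.Agent.N4F.C Fermat.Agent.S28.Gauss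

/-! ### (C1) generic: the Gauss reduction commutes with a change of level -/

section Generic

variable {K K' : Type} [Field K] [CharZero K] [Field K'] [CharZero K'] (f : K →+* K')
  (M : ℕ) [NeZero M]
  (O : Subring K) [IsDiscreteValuationRing ↥O] [IsFractionRing ↥O K]
  (O' : Subring K') [IsDiscreteValuationRing ↥O'] [IsFractionRing ↥O' K']

theorem hcomp_oMap (hOO' : ∀ a ∈ O, f a ∈ O') :
    f.comp (algebraMap ↥O K) = (algebraMap ↥O' K').comp (oMap f O O' hOO') :=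
  RingHom.ext fun _ => rfl

/-- The Gauss reductions of `S28/GaussRing` and of `N4F/C/GaussBar` agree (no auxiliary algebra
structures). -/
theorem gaussRed_eq_thetaBar' (x : LaurentSeries K)
    (h : x ∈ gaussRing ↥O K) (h' : x ∈ GaussBar.gaussBar ↥O K) :
    gaussRed (⟨x, h⟩ : gaussRing ↥O K) =
      GaussBar.thetaBar (⟨x, h'⟩ : GaussBar.gaussBar ↥O K) := by
  obtain ⟨a, b, hb, hab⟩ : ∃ a b : LaurentSeries ↥O, GaussBar.redBar ↥O b ≠ 0 ∧
    x * GaussBar.embBar ↥O K b = GaussBar.embBar ↥O K a := id h'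
  have h1 := gaussRed_eq (⟨x, h⟩ : gaussRing ↥O K) (a := a) (b := b) hb hab
  have h2 := GaussBar.thetaBar_eq (⟨x, h'⟩ : GaussBar.gaussBar ↥O K) hb hab
  rw [h1, h2]; rfl

theorem theta_eq_thetaBar' {x : FF K M} (hx : x ∈ gaussSubalgebra K M O) :
    theta K M O ⟨x, hx⟩ =
      GaussBar.thetaBar (⟨(x : LaurentSeries K), hx⟩ : GaussBar.gaussBar ↥O K) :=
  gaussRed_eq_thetaBar' O (x : LaurentSeries K) hx hx

/-- (C1) The coefficientwise base change maps the Gauss ring of the small level into the Gauss ring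
of the big level. -/
theorem ffMap_mem_gaussSubalgebra (hOO' : ∀ a ∈ O, f a ∈ O')
    [IsLocalHom (oMap f O O' hOO')] {x : FF K M} (hx : x ∈ gaussSubalgebra K M O) :
    ffMap f M x ∈ gaussSubalgebra K' M O' := by
  show coeffMap f (x : LaurentSeries K) ∈ GaussBar.gaussBar ↥O' K'
  exact GaussBar.coeffMap_mem_gaussBar (oMap f O O' hOO') f (hcomp_oMap f O O' hOO') hx

/-- **(C1) The Gauss reduction commutes with the change of level**:
`θ' (ffMap f M x) = coeffMap ρ (θ x)`, `ρ = ResidueField.map (O → O')`. -/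
theorem theta_ffMap (hOO' : ∀ a ∈ O, f a ∈ O')
    [IsLocalHom (oMap f O O' hOO')] {x : FF K M} (hx : x ∈ gaussSubalgebra K M O) :
    theta K' M O' ⟨ffMap f M x, ffMap_mem_gaussSubalgebra f M O O' hOO' hx⟩ =
      coeffMap (IsLocalRing.ResidueField.map (oMap f O O' hOO')) (theta K M O ⟨x, hx⟩) := by
  rw [theta_eq_thetaBar' M O' (ffMap_mem_gaussSubalgebra f M O O' hOO' hx),
    theta_eq_thetaBar' M O hx]
  exact GaussBar.thetaBar_coeffMap (oMap f O O' hOO') f (hcomp_oMap f O O' hOO')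
    (⟨(x : LaurentSeries K), hx⟩ : GaussBar.gaussBar ↥O K)

end Generic

/-! ### (C1), (C2) in the vocabulary of `S40/W/F4Level` (level `N ℓ`, values in `FF κ N`) -/

section Level

open Fermat.Agent.S40.W.F4Level Fermat.Agent.P3G Fermat.Agent.N4F.C.ChartFibre
  Fermat.Agent.S19.Cech.LevelBasis Fermat.Agent.P3G.RbarFin Fermat.Agent.P3G.RbarInf

variable (K : Type) [Field K] [CharZero K] (K' : Type) [Field K'] [CharZero K'] (f : K →+* K')
  (N : ℕ) [NeZero N] (ℓ : ℕ) [Fact ℓ.Prime]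
  (O : Subring K) [IsDiscreteValuationRing ↥O] [IsFractionRing ↥O K]
  [CharP (IsLocalRing.ResidueField ↥O) ℓ] [PerfectRing (IsLocalRing.ResidueField ↥O) ℓ]
  (O' : Subring K') [IsDiscreteValuationRing ↥O'] [IsFractionRing ↥O' K']
  [CharP (IsLocalRing.ResidueField ↥O') ℓ] [PerfectRing (IsLocalRing.ResidueField ↥O') ℓ]
  (ι : K →+* ℂ) (ι' : K' →+* ℂ) (hℓN : ¬ ℓ ∣ N)
  (hA2 : ∀ x : ↥(gaussSubalgebra K N O),
    theta K N O x ∈ modularFunctionFieldFullC (IsLocalRing.ResidueField ↥O) N)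
  (hA2' : ∀ x : ↥(gaussSubalgebra K' N O'),
    theta K' N O' x ∈ modularFunctionFieldFullC (IsLocalRing.ResidueField ↥O') N)
  (S₂ : FibreTwo.SecondVal K N ℓ O) (S₂' : FibreTwo.SecondVal K' N ℓ O')

/-- (C1), `redG` form: `redG' (ffMap f (N ℓ) x) = ffMap ρ N (redG x)`. -/
theorem redG_ffMap (hOO' : ∀ a ∈ O, f a ∈ O') [IsLocalHom (oMap f O O' hOO')]
    {x : FF K (N * ℓ)} (hx : x ∈ gaussSubalgebra K (N * ℓ) O) :
    redG K' N ℓ O' ι' hℓN hA2' S₂'
        ⟨ffMap f (N * ℓ) x, ffMap_mem_gaussSubalgebra f (N * ℓ) O O' hOO' hx⟩ =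
      ffMap (IsLocalRing.ResidueField.map (oMap f O O' hOO')) N
        (redG K N ℓ O ι hℓN hA2 S₂ ⟨x, hx⟩) := by
  apply Subtype.ext
  rw [coe_redG, coe_ffMap, coe_redG]
  exact theta_ffMap f (N * ℓ) O O' hOO' hx

/-- (C1), finite chart: `redFinL' (finMap r₀) = ffMap ρ N (redFinL r₀)`. -/
theorem redFinL_finMap (hOO' : ∀ a ∈ O, f a ∈ O') [IsLocalHom (oMap f O O' hOO')]
    (r₀ : ↥(Rfin K (N * ℓ) O)) :
    redFinL K' N ℓ O' ι' hℓN hA2' S₂' (finMap f (N * ℓ) O O' hOO' r₀) =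
      ffMap (IsLocalRing.ResidueField.map (oMap f O O' hOO')) N
        (redFinL K N ℓ O ι hℓN hA2 S₂ r₀) :=
  redG_ffMap K K' f N ℓ O O' ι ι' hℓN hA2 hA2' S₂ S₂' hOO'
    (chartAlg_le_gaussSubalgebra K (N * ℓ) O (sFin_le_gauss K (N * ℓ) O) r₀.2)

/-- (C1), chart at infinity: `redInfL' (infMap r₀) = ffMap ρ N (redInfL r₀)`. -/
theorem redInfL_infMap (hOO' : ∀ a ∈ O, f a ∈ O') [IsLocalHom (oMap f O O' hOO')]
    (r₀ : ↥(Rinf K (N * ℓ) O)) :
    redInfL K' N ℓ O' ι' hℓN hA2' S₂' (infMap f (N * ℓ) O O' hOO' r₀) =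
      ffMap (IsLocalRing.ResidueField.map (oMap f O O' hOO')) N
        (redInfL K N ℓ O ι hℓN hA2 S₂ r₀) :=
  redG_ffMap K K' f N ℓ O O' ι ι' hℓN hA2 hA2' S₂ S₂' hOO'
    (chartAlg_le_gaussSubalgebra K (N * ℓ) O (sInf_le_gauss K (N * ℓ) O) r₀.2)

/-- (C2), finite chart: if `ρ : κ → κ'` is bijective, every reduction of an element of the finite
chart of the big level is the reduction of an element coming from the small level. -/
theorem exists_redFinL_finMap_eq (hOO' : ∀ a ∈ O, f a ∈ O') [IsLocalHom (oMap f O O' hOO')]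
    (hρ : Function.Bijective (IsLocalRing.ResidueField.map (oMap f O O' hOO')))
    (hN : IsUnit ((N : ℕ) : ↥O)) (hprime : (fibreIdeal K N O (Rfin K N O)).IsPrime)
    (hsmooth : IsDedekindDomain (↥(Rfin K N O) ⧸ fibreIdeal K N O (Rfin K N O)))
    (ι₀ : K →+* ℂ)
    (hA2₀ : ∀ x : ↥(gaussSubalgebra K N O),
      theta K N O x ∈ modularFunctionFieldFullC (IsLocalRing.ResidueField ↥O) N)
    (S₂₀ : FibreTwo.SecondVal K N ℓ O)
    (r : ↥(Rfin K' (N * ℓ) O')) :
    ∃ r₀ : ↥(Rfin K (N * ℓ) O),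
      redFinL K' N ℓ O' ι' hℓN hA2' S₂' (finMap f (N * ℓ) O O' hOO' r₀) =
        redFinL K' N ℓ O' ι' hℓN hA2' S₂' r := by
  set ρ := IsLocalRing.ResidueField.map (oMap f O O' hOO') with hρdef
  let e : IsLocalRing.ResidueField ↥O ≃+* IsLocalRing.ResidueField ↥O' :=
    RingEquiv.ofBijective ρ hρ
  have he : (e : IsLocalRing.ResidueField ↥O →+* IsLocalRing.ResidueField ↥O') = ρ :=
    RingHom.ext fun _ => rfl
  have hz := redFinL_mem K' N ℓ O' ι' hℓN hA2' S₂' r
  have hz₀ := SigmaTransport.ffMap_mem_SigmaFin N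
    (e.symm : IsLocalRing.ResidueField ↥O' →+* IsLocalRing.ResidueField ↥O) hz
  obtain ⟨r₀, hr₀⟩ := exists_redFinL_eq K N ℓ O hN ι₀ hℓN hprime hsmooth hA2₀ S₂₀ hz₀
  refine ⟨r₀, ?_⟩
  rw [redFinL_finMap K K' f N ℓ O O' ι₀ ι' hℓN hA2₀ hA2' S₂₀ S₂' hOO' r₀, hr₀, ← hρdef, ← he]
  exact SigmaTransport.ffMap_ffMap_symm N e _

/-- (C2), chart at infinity. -/
theorem exists_redInfL_infMap_eq (hOO' : ∀ a ∈ O, f a ∈ O') [IsLocalHom (oMap f O O' hOO')]
    (hρ : Function.Bijective (IsLocalRing.ResidueField.map (oMap f O O' hOO')))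
    (hN : IsUnit ((N : ℕ) : ↥O)) (hprime : (fibreIdeal K N O (Rfin K N O)).IsPrime)
    (hprimeInf : (fibreIdeal K N O (Rinf K N O)).IsPrime)
    (hsmoothInf : IsDedekindDomain (↥(Rinf K N O) ⧸ fibreIdeal K N O (Rinf K N O)))
    (ι₀ : K →+* ℂ)
    (hA2₀ : ∀ x : ↥(gaussSubalgebra K N O),
      theta K N O x ∈ modularFunctionFieldFullC (IsLocalRing.ResidueField ↥O) N)
    (S₂₀ : FibreTwo.SecondVal K N ℓ O)
    (r : ↥(Rinf K' (N * ℓ) O')) :
    ∃ r₀ : ↥(Rinf K (N * ℓ) O),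
      redInfL K' N ℓ O' ι' hℓN hA2' S₂' (infMap f (N * ℓ) O O' hOO' r₀) =
        redInfL K' N ℓ O' ι' hℓN hA2' S₂' r := by
  set ρ := IsLocalRing.ResidueField.map (oMap f O O' hOO') with hρdef
  let e : IsLocalRing.ResidueField ↥O ≃+* IsLocalRing.ResidueField ↥O' :=
    RingEquiv.ofBijective ρ hρ
  have he : (e : IsLocalRing.ResidueField ↥O →+* IsLocalRing.ResidueField ↥O') = ρ :=
    RingHom.ext fun _ => rfl
  have hz := redInfL_mem K' N ℓ O' ι' hℓN hA2' S₂' r
  have hz₀ := SigmaTransport.ffMap_mem_SigmaInf N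
    (e.symm : IsLocalRing.ResidueField ↥O' →+* IsLocalRing.ResidueField ↥O) hz
  obtain ⟨r₀, hr₀⟩ :=
    exists_redInfL_eq K N ℓ O hN ι₀ hℓN hprime hprimeInf hsmoothInf hA2₀ S₂₀ hz₀
  refine ⟨r₀, ?_⟩
  rw [redInfL_infMap K K' f N ℓ O O' ι₀ ι' hℓN hA2₀ hA2' S₂₀ S₂' hOO' r₀, hr₀, ← hρdef, ← he]
  exact SigmaTransport.ffMap_ffMap_symm N e _

end Level

/-! ### (C3) a local parameter in the chart -/

section LocalParameter

open IsDedekindDomain IsDedekindDomain.HeightOneSpectrum Fermat.Agent.S24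
  Fermat.Agent.N4F.C.ChartFibre

/-- A place of `F` containing a Dedekind domain `R` with fraction field `F` has a local parameter
in `R`. -/
theorem exists_ord_eq_one {k F R : Type*} [Field k] [Field F] [Algebra k F] [CommRing R]
    [IsDedekindDomain R] [Algebra R F] [IsFractionRing R F] [Algebra k R] [IsScalarTower k R F]
    (s : Place k F) (hR : ∀ r : R, algebraMap R F r ∈ s.toValuationSubring) :
    ∃ t : R, s.ord (algebraMap R F t) = 1 := by
  obtain ⟨π, hπ⟩ := (centerSpec s hR).intValuation_exists_uniformizer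
  refine ⟨π, ?_⟩
  have h := ord_ofHeightOneSpectrum (K := k) (F := F) (centerSpec s hR) (algebraMap R F π)
  rw [ofHeightOneSpectrum_centerSpec s hR] at h
  rw [h, valuation_of_algebraMap, hπ, WithZero.log_exp, neg_neg]

/-- A place of `FF k N` at which `x` is integral contains the chart `chartAlg k (FF k N) {x}`. -/
theorem chartAlg_le_place (k : Type) [Field k] (N : ℕ) (x : FF k N) (s : Place k (FF k N))
    (hx : x ∈ s.toValuationSubring) (r : ↥(chartAlg k (FF k N) {x})) :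
    algebraMap ↥(chartAlg k (FF k N) {x}) (FF k N) r ∈ s.toValuationSubring := by
  apply mem_of_isIntegral_of_forall_mem s _ r.2
  intro a
  exact adjoin_le_placeSubalgebra s hx a.2

/-- (C3) A place of `FF k N` at which `x` is integral has a local parameter in the chart
`chartAlg k (FF k N) {x}`, if the chart is a Dedekind domain with fraction field `FF k N`. -/
theorem exists_mem_chartAlg_ord_eq_one (k : Type) [Field k] (N : ℕ) (x : FF k N)
    [IsDedekindDomain ↥(chartAlg k (FF k N) {x})]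
    [IsFractionRing ↥(chartAlg k (FF k N) {x}) (FF k N)]
    (s : Place k (FF k N)) (hx : x ∈ s.toValuationSubring) :
    ∃ t ∈ chartAlg k (FF k N) {x}, s.ord t = 1 := by
  obtain ⟨t, ht⟩ := exists_ord_eq_one (R := ↥(chartAlg k (FF k N) {x})) s
    (chartAlg_le_place k N x s hx)
  exact ⟨(t : FF k N), t.2, ht⟩

/-- (C3), finite chart: a place of `FF k N` with `j` integral has a local parameter in
`SigmaFin k N`. -/
theorem exists_mem_SigmaFin_ord_eq_one (k : Type) [Field k] (N : ℕ)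
    [IsDedekindDomain ↥(SigmaFin k N)] [IsFractionRing ↥(SigmaFin k N) (FF k N)]
    (s : Place k (FF k N)) (hj : jF k N ∈ s.toValuationSubring) :
    ∃ t ∈ SigmaFin k N, s.ord t = 1 :=
  exists_mem_chartAlg_ord_eq_one k N (jF k N) s hj

/-- (C3), chart at infinity. -/
theorem exists_mem_SigmaInf_ord_eq_one (k : Type) [Field k] (N : ℕ)
    [IsDedekindDomain ↥(SigmaInf k N)] [IsFractionRing ↥(SigmaInf k N) (FF k N)]
    (s : Place k (FF k N)) (hj : (jF k N)⁻¹ ∈ s.toValuationSubring) :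
    ∃ t ∈ SigmaInf k N, s.ord t = 1 :=
  exists_mem_chartAlg_ord_eq_one k N (jF k N)⁻¹ s hj

end LocalParameter

/-! ### Levels `K₁ ≤ L` of `Q̄` -/

section Levels

open Fermat.Agent.N4F.C.Levels Fermat.Agent.N4F.C.LevelCharts Fermat.Agent.N4F.C.ChartFactsProof
  Fermat.Agent.S19.Cech.LevelBasis

variable (A : ValuationSubring Qb) {K₁ L : IntermediateField ℚ Qb} (hKL : K₁ ≤ L)

/-- `O_{K₁} → O_L` is a local homomorphism. -/
theorem isLocalHom_baseMapIncl : IsLocalHom (baseMapIncl A hKL) :=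
  ⟨fun a ha => by
    have h1 : IsUnit (baseIncl A L (baseMapIncl A hKL a)) := ha.map _
    rw [baseIncl_oMap] at h1
    exact isUnit_of_map_unit (baseIncl A K₁) a h1⟩

section TwoLevels

open Fermat.Agent.S40.W.F4Level Fermat.Agent.P3G

variable [IsDiscreteValuationRing ↥(baseRing A K₁)] [IsDiscreteValuationRing ↥(baseRing A L)]

/-- If the residue fields of both levels are `κ(A)`, then `κ(K₁) → κ(L)` is bijective. -/
theorem bijective_map_baseMapIncl
    (h₁ : Function.Bijective (IsLocalRing.ResidueField.map (baseIncl A K₁)))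
    (h₂ : Function.Bijective (IsLocalRing.ResidueField.map (baseIncl A L))) :
    haveI := isLocalHom_baseMapIncl A hKL
    Function.Bijective (IsLocalRing.ResidueField.map (baseMapIncl A hKL)) := by
  haveI := isLocalHom_baseMapIncl A hKL
  have hcomp : ∀ x, IsLocalRing.ResidueField.map (baseIncl A L)
      (IsLocalRing.ResidueField.map (baseMapIncl A hKL) x) =
        IsLocalRing.ResidueField.map (baseIncl A K₁) x := by
    intro x
    obtain ⟨a, rfl⟩ := IsLocalRing.residue_surjective x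
    rw [IsLocalRing.ResidueField.map_residue, IsLocalRing.ResidueField.map_residue,
      IsLocalRing.ResidueField.map_residue, baseIncl_oMap]
  constructor
  · intro x y hxy
    apply h₁.1
    rw [← hcomp x, ← hcomp y, hxy]
  · intro z
    obtain ⟨x, hx⟩ := h₁.2 (IsLocalRing.ResidueField.map (baseIncl A L) z)
    refine ⟨x, h₂.1 ?_⟩
    rw [hcomp x, hx]

variable (N : ℕ) [NeZero N] (p : ℕ) [Fact p.Prime]
  [IsFractionRing ↥(baseRing A K₁) (Lvl K₁)] [IsFractionRing ↥(baseRing A L) (Lvl L)]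
  [CharP (IsLocalRing.ResidueField ↥(baseRing A K₁)) p]
  [PerfectRing (IsLocalRing.ResidueField ↥(baseRing A K₁)) p]
  [CharP (IsLocalRing.ResidueField ↥(baseRing A L)) p]
  [PerfectRing (IsLocalRing.ResidueField ↥(baseRing A L)) p]
  (ι₁ : Lvl K₁ →+* ℂ) (ι₂ : Lvl L →+* ℂ) (hpN : ¬ p ∣ N)
  (hA2₁ : ∀ x : ↥(gaussSubalgebra (Lvl K₁) N (baseRing A K₁)),
    theta (Lvl K₁) N (baseRing A K₁) x ∈
      modularFunctionFieldFullC (IsLocalRing.ResidueField ↥(baseRing A K₁)) N)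
  (hA2₂ : ∀ x : ↥(gaussSubalgebra (Lvl L) N (baseRing A L)),
    theta (Lvl L) N (baseRing A L) x ∈
      modularFunctionFieldFullC (IsLocalRing.ResidueField ↥(baseRing A L)) N)
  (S₁ : FibreTwo.SecondVal (Lvl K₁) N p (baseRing A K₁))
  (S₂ : FibreTwo.SecondVal (Lvl L) N p (baseRing A L))

/-- (C1) for two levels `K₁ ≤ L` of `Q̄`, `finIncl` form. -/
theorem redFinL_finIncl (r₀ : ↥(Rfin (Lvl K₁) (N * p) (baseRing A K₁))) :
    haveI := isLocalHom_baseMapIncl A hKL
    redFinL (Lvl L) N p (baseRing A L) ι₂ hpN hA2₂ S₂ (finIncl A (N * p) hKL r₀) =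
      ffMap (IsLocalRing.ResidueField.map (baseMapIncl A hKL)) N
        (redFinL (Lvl K₁) N p (baseRing A K₁) ι₁ hpN hA2₁ S₁ r₀) := by
  haveI := isLocalHom_baseMapIncl A hKL
  exact redFinL_finMap (Lvl K₁) (Lvl L) (lvlIncl hKL) N p (baseRing A K₁) (baseRing A L) ι₁ ι₂ hpN
    hA2₁ hA2₂ S₁ S₂ (lvlIncl_mem A hKL) r₀

/-- (C1) for two levels `K₁ ≤ L` of `Q̄`, `infIncl` form. -/
theorem redInfL_infIncl (r₀ : ↥(Rinf (Lvl K₁) (N * p) (baseRing A K₁))) :
    haveI := isLocalHom_baseMapIncl A hKL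
    redInfL (Lvl L) N p (baseRing A L) ι₂ hpN hA2₂ S₂ (infIncl A (N * p) hKL r₀) =
      ffMap (IsLocalRing.ResidueField.map (baseMapIncl A hKL)) N
        (redInfL (Lvl K₁) N p (baseRing A K₁) ι₁ hpN hA2₁ S₁ r₀) := by
  haveI := isLocalHom_baseMapIncl A hKL
  exact redInfL_infMap (Lvl K₁) (Lvl L) (lvlIncl hKL) N p (baseRing A K₁) (baseRing A L) ι₁ ι₂ hpN
    hA2₁ hA2₂ S₁ S₂ (lvlIncl_mem A hKL) r₀

/-- (C2) for two levels `K₁ ≤ L` of `Q̄` with residue fields `κ(A)`. -/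
theorem exists_redFinL_finIncl_eq
    (h₁ : Function.Bijective (IsLocalRing.ResidueField.map (baseIncl A K₁)))
    (h₂ : Function.Bijective (IsLocalRing.ResidueField.map (baseIncl A L)))
    (hN : IsUnit ((N : ℕ) : ↥(baseRing A K₁)))
    (hprime : (fibreIdeal (Lvl K₁) N (baseRing A K₁) (Rfin (Lvl K₁) N (baseRing A K₁))).IsPrime)
    (hsmooth : IsDedekindDomain (↥(Rfin (Lvl K₁) N (baseRing A K₁)) ⧸
      fibreIdeal (Lvl K₁) N (baseRing A K₁) (Rfin (Lvl K₁) N (baseRing A K₁))))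
    (ι₀ : Lvl K₁ →+* ℂ)
    (hA2₀ : ∀ x : ↥(gaussSubalgebra (Lvl K₁) N (baseRing A K₁)),
      theta (Lvl K₁) N (baseRing A K₁) x ∈
        modularFunctionFieldFullC (IsLocalRing.ResidueField ↥(baseRing A K₁)) N)
    (S₀ : FibreTwo.SecondVal (Lvl K₁) N p (baseRing A K₁))
    (r : ↥(Rfin (Lvl L) (N * p) (baseRing A L))) :
    ∃ r₀ : ↥(Rfin (Lvl K₁) (N * p) (baseRing A K₁)),
      redFinL (Lvl L) N p (baseRing A L) ι₂ hpN hA2₂ S₂ (finIncl A (N * p) hKL r₀) =
        redFinL (Lvl L) N p (baseRing A L) ι₂ hpN hA2₂ S₂ r := by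
  haveI := isLocalHom_baseMapIncl A hKL
  exact exists_redFinL_finMap_eq (Lvl K₁) (Lvl L) (lvlIncl hKL) N p (baseRing A K₁) (baseRing A L)
    ι₂ hpN hA2₂ S₂ (lvlIncl_mem A hKL) (bijective_map_baseMapIncl A hKL h₁ h₂) hN hprime hsmooth
    ι₀ hA2₀ S₀ r

/-- (C2) for two levels, chart at infinity. -/
theorem exists_redInfL_infIncl_eq
    (h₁ : Function.Bijective (IsLocalRing.ResidueField.map (baseIncl A K₁)))
    (h₂ : Function.Bijective (IsLocalRing.ResidueField.map (baseIncl A L)))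
    (hN : IsUnit ((N : ℕ) : ↥(baseRing A K₁)))
    (hprime : (fibreIdeal (Lvl K₁) N (baseRing A K₁) (Rfin (Lvl K₁) N (baseRing A K₁))).IsPrime)
    (hprimeInf :
      (fibreIdeal (Lvl K₁) N (baseRing A K₁) (Rinf (Lvl K₁) N (baseRing A K₁))).IsPrime)
    (hsmoothInf : IsDedekindDomain (↥(Rinf (Lvl K₁) N (baseRing A K₁)) ⧸
      fibreIdeal (Lvl K₁) N (baseRing A K₁) (Rinf (Lvl K₁) N (baseRing A K₁))))
    (ι₀ : Lvl K₁ →+* ℂ)
    (hA2₀ : ∀ x : ↥(gaussSubalgebra (Lvl K₁) N (baseRing A K₁)),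
      theta (Lvl K₁) N (baseRing A K₁) x ∈
        modularFunctionFieldFullC (IsLocalRing.ResidueField ↥(baseRing A K₁)) N)
    (S₀ : FibreTwo.SecondVal (Lvl K₁) N p (baseRing A K₁))
    (r : ↥(Rinf (Lvl L) (N * p) (baseRing A L))) :
    ∃ r₀ : ↥(Rinf (Lvl K₁) (N * p) (baseRing A K₁)),
      redInfL (Lvl L) N p (baseRing A L) ι₂ hpN hA2₂ S₂ (infIncl A (N * p) hKL r₀) =
        redInfL (Lvl L) N p (baseRing A L) ι₂ hpN hA2₂ S₂ r := by
  haveI := isLocalHom_baseMapIncl A hKL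
  exact exists_redInfL_infMap_eq (Lvl K₁) (Lvl L) (lvlIncl hKL) N p (baseRing A K₁) (baseRing A L)
    ι₂ hpN hA2₂ S₂ (lvlIncl_mem A hKL) (bijective_map_baseMapIncl A hKL h₁ h₂) hN hprime hprimeInf
    hsmoothInf ι₀ hA2₀ S₀ r

end TwoLevels

end Levels

end Fermat.Agent.S40.M1.FibreLevel
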