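/-
S44 / S40 (row 38), T6′ / M1-THICK (helper9): **the `fibre` clause of helper25's `LevelRestrictHyp`
(board #3160)**: every element of the finite chart of the big level is, modulo the maximal ideal of
the Gauss valuation `V₁`, the image of an element of the finite chart of the small level:

  `∀ r : Rfin K' (N ℓ) O', ∃ r₀ : Rfin K (N ℓ) O, (finMap r₀ - r : FF K' (N ℓ)) ∈ 𝔪(V₁)`

(`exists_finMap_sub_mem_nonunits`, generic two-level form `(K, O) → (K', O')` with bijective residue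
field map; `exists_finIncl_sub_mem_nonunits` for two levels `K₁ ≤ L` of `Q̄` whose residue fields are
`κ(A)`), and the same for the chart at infinity.  Immediate from `S40/M1/FibreLevel` (C2) and
`F4Level.redG_eq_zero_iff`.
-/
import Mathlib
import Fermat.Agent.S40.M1.FibreLevel

set_option autoImplicit false
set_option linter.unusedSectionVars false
set_option linter.style.haveILetI false
set_option synthInstance.maxHeartbeats 400000
set_option maxHeartbeats 800000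

open ModularCurve AlgebraicCurve

noncomputable section

namespace Fermat.Agent.S40.M1.FibreLift

open Fermat.Agent.N4.Chart Fermat.Agent.N4.Setting Fermat.Agent.N4.FibreEmbedding
  Fermat.Agent.N4.BaseDescent Fermat.Agent.N4F.C Fermat.Agent.S28.Gauss
  Fermat.Agent.S40.W.F4Level Fermat.Agent.P3G Fermat.Agent.S19.Cech.LevelBasis
  Fermat.Agent.P3G.RbarFin Fermat.Agent.P3G.RbarInf Fermat.Agent.S40.M1.FibreLevel
  Fermat.Agent.N4F.E.GaussDVR

section Generic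

variable (K : Type) [Field K] [CharZero K] (K' : Type) [Field K'] [CharZero K'] (f : K →+* K')
  (N : ℕ) [NeZero N] (ℓ : ℕ) [Fact ℓ.Prime]
  (O : Subring K) [IsDiscreteValuationRing ↥O] [IsFractionRing ↥O K]
  [CharP (IsLocalRing.ResidueField ↥O) ℓ] [PerfectRing (IsLocalRing.ResidueField ↥O) ℓ]
  (O' : Subring K') [IsDiscreteValuationRing ↥O'] [IsFractionRing ↥O' K']
  [CharP (IsLocalRing.ResidueField ↥O') ℓ] [PerfectRing (IsLocalRing.ResidueField ↥O') ℓ]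

/-- An element of the finite chart of level `N ℓ` with zero Gauss reduction is a non-unit of the
Gauss valuation ring. -/
theorem mem_nonunits_of_redFinL_eq_zero (ι' : K' →+* ℂ) (hℓN : ¬ ℓ ∣ N)
    (hA2' : ∀ x : ↥(gaussSubalgebra K' N O'),
      theta K' N O' x ∈ modularFunctionFieldFullC (IsLocalRing.ResidueField ↥O') N)
    (S₂' : FibreTwo.SecondVal K' N ℓ O') (r : ↥(Rfin K' (N * ℓ) O'))
    (h : redFinL K' N ℓ O' ι' hℓN hA2' S₂' r = 0) :
    (r : FF K' (N * ℓ)) ∈ (gaussVS K' (N * ℓ) O').nonunits :=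
  (redG_eq_zero_iff K' N ℓ O' ι' hℓN hA2' S₂'
    ⟨(r : FF K' (N * ℓ)),
      chartAlg_le_gaussSubalgebra K' (N * ℓ) O' (sFin_le_gauss K' (N * ℓ) O') r.2⟩).1 h

theorem mem_nonunits_of_redInfL_eq_zero (ι' : K' →+* ℂ) (hℓN : ¬ ℓ ∣ N)
    (hA2' : ∀ x : ↥(gaussSubalgebra K' N O'),
      theta K' N O' x ∈ modularFunctionFieldFullC (IsLocalRing.ResidueField ↥O') N)
    (S₂' : FibreTwo.SecondVal K' N ℓ O') (r : ↥(Rinf K' (N * ℓ) O'))
    (h : redInfL K' N ℓ O' ι' hℓN hA2' S₂' r = 0) :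
    (r : FF K' (N * ℓ)) ∈ (gaussVS K' (N * ℓ) O').nonunits :=
  (redG_eq_zero_iff K' N ℓ O' ι' hℓN hA2' S₂'
    ⟨(r : FF K' (N * ℓ)),
      chartAlg_le_gaussSubalgebra K' (N * ℓ) O' (sInf_le_gauss K' (N * ℓ) O') r.2⟩).1 h

/-- **The `fibre` clause, finite chart, generic two-level form.** -/
theorem exists_finMap_sub_mem_nonunits (hOO' : ∀ a ∈ O, f a ∈ O') [IsLocalHom (oMap f O O' hOO')]
    (hρ : Function.Bijective (IsLocalRing.ResidueField.map (oMap f O O' hOO')))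
    (hN : IsUnit ((N : ℕ) : ↥O)) (hprime : (fibreIdeal K N O (Rfin K N O)).IsPrime)
    (hsmooth : IsDedekindDomain (↥(Rfin K N O) ⧸ fibreIdeal K N O (Rfin K N O)))
    (ι₀ : K →+* ℂ) (ι' : K' →+* ℂ) (hℓN : ¬ ℓ ∣ N)
    (hA2₀ : ∀ x : ↥(gaussSubalgebra K N O),
      theta K N O x ∈ modularFunctionFieldFullC (IsLocalRing.ResidueField ↥O) N)
    (hA2' : ∀ x : ↥(gaussSubalgebra K' N O'),
      theta K' N O' x ∈ modularFunctionFieldFullC (IsLocalRing.ResidueField ↥O') N)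
    (S₂₀ : FibreTwo.SecondVal K N ℓ O) (S₂' : FibreTwo.SecondVal K' N ℓ O')
    (r : ↥(Rfin K' (N * ℓ) O')) :
    ∃ r₀ : ↥(Rfin K (N * ℓ) O),
      ((finMap f (N * ℓ) O O' hOO' r₀ - r : ↥(Rfin K' (N * ℓ) O')) : FF K' (N * ℓ)) ∈
        (gaussVS K' (N * ℓ) O').nonunits := by
  obtain ⟨r₀, hr₀⟩ := exists_redFinL_finMap_eq K K' f N ℓ O O' ι' hℓN hA2' S₂' hOO' hρ hN hprime
    hsmooth ι₀ hA2₀ S₂₀ r
  refine ⟨r₀, mem_nonunits_of_redFinL_eq_zero K' N ℓ O' ι' hℓN hA2' S₂' _ ?_⟩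
  rw [map_sub, hr₀, sub_self]

/-- **The `fibre` clause, chart at infinity, generic two-level form.** -/
theorem exists_infMap_sub_mem_nonunits (hOO' : ∀ a ∈ O, f a ∈ O') [IsLocalHom (oMap f O O' hOO')]
    (hρ : Function.Bijective (IsLocalRing.ResidueField.map (oMap f O O' hOO')))
    (hN : IsUnit ((N : ℕ) : ↥O)) (hprime : (fibreIdeal K N O (Rfin K N O)).IsPrime)
    (hprimeInf : (fibreIdeal K N O (Rinf K N O)).IsPrime)
    (hsmoothInf : IsDedekindDomain (↥(Rinf K N O) ⧸ fibreIdeal K N O (Rinf K N O)))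
    (ι₀ : K →+* ℂ) (ι' : K' →+* ℂ) (hℓN : ¬ ℓ ∣ N)
    (hA2₀ : ∀ x : ↥(gaussSubalgebra K N O),
      theta K N O x ∈ modularFunctionFieldFullC (IsLocalRing.ResidueField ↥O) N)
    (hA2' : ∀ x : ↥(gaussSubalgebra K' N O'),
      theta K' N O' x ∈ modularFunctionFieldFullC (IsLocalRing.ResidueField ↥O') N)
    (S₂₀ : FibreTwo.SecondVal K N ℓ O) (S₂' : FibreTwo.SecondVal K' N ℓ O')
    (r : ↥(Rinf K' (N * ℓ) O')) :
    ∃ r₀ : ↥(Rinf K (N * ℓ) O),
      ((infMap f (N * ℓ) O O' hOO' r₀ - r : ↥(Rinf K' (N * ℓ) O')) : FF K' (N * ℓ)) ∈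
        (gaussVS K' (N * ℓ) O').nonunits := by
  obtain ⟨r₀, hr₀⟩ := exists_redInfL_infMap_eq K K' f N ℓ O O' ι' hℓN hA2' S₂' hOO' hρ hN hprime
    hprimeInf hsmoothInf ι₀ hA2₀ S₂₀ r
  refine ⟨r₀, mem_nonunits_of_redInfL_eq_zero K' N ℓ O' ι' hℓN hA2' S₂' _ ?_⟩
  rw [map_sub, hr₀, sub_self]

end Generic

/-! ### Two levels `K₁ ≤ L` of `Q̄` -/

section Levels

open Fermat.Agent.N4F.C.Levels Fermat.Agent.N4F.C.LevelCharts Fermat.Agent.N4F.C.ChartFactsProof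

variable (A : ValuationSubring Qb) {K₁ L : IntermediateField ℚ Qb} (hKL : K₁ ≤ L)
  [IsDiscreteValuationRing ↥(baseRing A K₁)] [IsDiscreteValuationRing ↥(baseRing A L)]
  (N : ℕ) [NeZero N] (p : ℕ) [Fact p.Prime]
  [IsFractionRing ↥(baseRing A K₁) (Lvl K₁)] [IsFractionRing ↥(baseRing A L) (Lvl L)]
  [CharP (IsLocalRing.ResidueField ↥(baseRing A K₁)) p]
  [PerfectRing (IsLocalRing.ResidueField ↥(baseRing A K₁)) p]
  [CharP (IsLocalRing.ResidueField ↥(baseRing A L)) p]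
  [PerfectRing (IsLocalRing.ResidueField ↥(baseRing A L)) p]

/-- **The `fibre` clause for two levels `K₁ ≤ L` of `Q̄` with residue fields `κ(A)`**, finite
chart.  (`h₁`, `h₂`, `hN`, `hprime`, `hsmooth` are the fields `hbij`, `hN`, `primeFin`, `dedFin` of
`ChartFactsProof.LevelPack A N ·`.) -/
theorem exists_finIncl_sub_mem_nonunits
    (h₁ : Function.Bijective (IsLocalRing.ResidueField.map (baseIncl A K₁)))
    (h₂ : Function.Bijective (IsLocalRing.ResidueField.map (baseIncl A L)))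
    (hN : IsUnit ((N : ℕ) : ↥(baseRing A K₁)))
    (hprime : (fibreIdeal (Lvl K₁) N (baseRing A K₁) (Rfin (Lvl K₁) N (baseRing A K₁))).IsPrime)
    (hsmooth : IsDedekindDomain (↥(Rfin (Lvl K₁) N (baseRing A K₁)) ⧸
      fibreIdeal (Lvl K₁) N (baseRing A K₁) (Rfin (Lvl K₁) N (baseRing A K₁))))
    (ι₁ : Lvl K₁ →+* ℂ) (ι₂ : Lvl L →+* ℂ) (hpN : ¬ p ∣ N)
    (hA2₁ : ∀ x : ↥(gaussSubalgebra (Lvl K₁) N (baseRing A K₁)),
      theta (Lvl K₁) N (baseRing A K₁) x ∈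
        modularFunctionFieldFullC (IsLocalRing.ResidueField ↥(baseRing A K₁)) N)
    (hA2₂ : ∀ x : ↥(gaussSubalgebra (Lvl L) N (baseRing A L)),
      theta (Lvl L) N (baseRing A L) x ∈
        modularFunctionFieldFullC (IsLocalRing.ResidueField ↥(baseRing A L)) N)
    (S₁ : FibreTwo.SecondVal (Lvl K₁) N p (baseRing A K₁))
    (S₂ : FibreTwo.SecondVal (Lvl L) N p (baseRing A L))
    (r : ↥(Rfin (Lvl L) (N * p) (baseRing A L))) :
    ∃ r₀ : ↥(Rfin (Lvl K₁) (N * p) (baseRing A K₁)),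
      ((finIncl A (N * p) hKL r₀ - r : ↥(Rfin (Lvl L) (N * p) (baseRing A L))) :
          FF (Lvl L) (N * p)) ∈ (gaussVS (Lvl L) (N * p) (baseRing A L)).nonunits := by
  haveI := isLocalHom_baseMapIncl A hKL
  exact exists_finMap_sub_mem_nonunits (Lvl K₁) (Lvl L) (lvlIncl hKL) N p (baseRing A K₁)
    (baseRing A L) (lvlIncl_mem A hKL) (bijective_map_baseMapIncl A hKL h₁ h₂) hN hprime hsmooth
    ι₁ ι₂ hpN hA2₁ hA2₂ S₁ S₂ r

/-- The same for the chart at infinity. -/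
theorem exists_infIncl_sub_mem_nonunits
    (h₁ : Function.Bijective (IsLocalRing.ResidueField.map (baseIncl A K₁)))
    (h₂ : Function.Bijective (IsLocalRing.ResidueField.map (baseIncl A L)))
    (hN : IsUnit ((N : ℕ) : ↥(baseRing A K₁)))
    (hprime : (fibreIdeal (Lvl K₁) N (baseRing A K₁) (Rfin (Lvl K₁) N (baseRing A K₁))).IsPrime)
    (hprimeInf :
      (fibreIdeal (Lvl K₁) N (baseRing A K₁) (Rinf (Lvl K₁) N (baseRing A K₁))).IsPrime)
    (hsmoothInf : IsDedekindDomain (↥(Rinf (Lvl K₁) N (baseRing A K₁)) ⧸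
      fibreIdeal (Lvl K₁) N (baseRing A K₁) (Rinf (Lvl K₁) N (baseRing A K₁))))
    (ι₁ : Lvl K₁ →+* ℂ) (ι₂ : Lvl L →+* ℂ) (hpN : ¬ p ∣ N)
    (hA2₁ : ∀ x : ↥(gaussSubalgebra (Lvl K₁) N (baseRing A K₁)),
      theta (Lvl K₁) N (baseRing A K₁) x ∈
        modularFunctionFieldFullC (IsLocalRing.ResidueField ↥(baseRing A K₁)) N)
    (hA2₂ : ∀ x : ↥(gaussSubalgebra (Lvl L) N (baseRing A L)),
      theta (Lvl L) N (baseRing A L) x ∈
        modularFunctionFieldFullC (IsLocalRing.ResidueField ↥(baseRing A L)) N)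
    (S₁ : FibreTwo.SecondVal (Lvl K₁) N p (baseRing A K₁))
    (S₂ : FibreTwo.SecondVal (Lvl L) N p (baseRing A L))
    (r : ↥(Rinf (Lvl L) (N * p) (baseRing A L))) :
    ∃ r₀ : ↥(Rinf (Lvl K₁) (N * p) (baseRing A K₁)),
      ((infIncl A (N * p) hKL r₀ - r : ↥(Rinf (Lvl L) (N * p) (baseRing A L))) :
          FF (Lvl L) (N * p)) ∈ (gaussVS (Lvl L) (N * p) (baseRing A L)).nonunits := by
  haveI := isLocalHom_baseMapIncl A hKL
  exact exists_infMap_sub_mem_nonunits (Lvl K₁) (Lvl L) (lvlIncl hKL) N p (baseRing A K₁)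
    (baseRing A L) (lvlIncl_mem A hKL) (bijective_map_baseMapIncl A hKL h₁ h₂) hN hprime hprimeInf
    hsmoothInf ι₁ ι₂ hpN hA2₁ hA2₂ S₁ S₂ r

end Levels

end Fermat.Agent.S40.M1.FibreLift
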