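/-
S40 (row 38, `moonshots` rows 62–66), block T6′/M1, leaf (T) of M1-THICK (helper3, for helper25's
`NodeHonest`): **restriction of the two vertical valuations from a level `K` to a sublevel `K₀`.**

`K₀ ≤ K` two levels (subfields of `ℚ̄`) with discrete valuation rings `O₀ = A ∩ K₀ ⊆ O = A ∩ K`,
`ι := ffMap (lvlIncl hKK) M : F_{K₀}(M) → F_K(M)` the coefficientwise inclusion of function fields.

* `ffMap_alphaF`, `ffMap_betaF` : base change commutes with the level maps `α`, `β` (any field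
  homomorphism);
* `mem_nonunits_comap_iff`, `valuation_comap_eq_one_iff`, `valuation_comap_le_iff/_lt_iff/_eq_iff` :
  nonunits / valuation of a pulled-back valuation subring;
* **(T1)** `comap_gaussVS` : `V₁(K) ∩ F_{K₀} = V₁(K₀)` (Gauss valuation, any level `M`), with
  `ffMap_mem_nonunits_gaussVS_iff`, `valuation_gaussVS_ffMap_eq_one_iff/_lt_one_iff/_le_one_iff`,
  `valuation_gaussVS_ffMap_le_iff/_lt_iff/_eq_iff`, and the reductions
  `theta_ffMap` (compared inside `κ(A)((q))`), `theta_ffMap_eq_zero_iff`;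
* `sepElt`, `sepElt_mem_nonunits_secondVal`, `sepElt_inv_mem_gaussVS` : the separating element
  `α j − (β j) ^ ℓ` (a unit of `V₁`, a nonunit of `V₂`), defined over every level;
* **(T2)** `comap_secondVal` : `V₂(K) ∩ F_{K₀} = V₂(K₀)` for ANY two second valuations `S` at `K`,
  `S₀` at `K₀` (`only_two` at `K₀` + the separating element), with
  `ffMap_mem_secondVal_iff`, `ffMap_mem_nonunits_secondVal_iff`,
  `valuation_secondVal_ffMap_eq_one_iff/_lt_one_iff/_le_one_iff/_le_iff/_lt_iff/_eq_iff`, and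
  `ev_ffMap` (the two places agree inside `κ(A)((q))`);
* **(T3)** `through_gaussVS_comap`, `through_secondVal_comap`, `algebraMap_mem_comap`,
  `comap_isMaximal`, `crossing_comap` : the contraction `𝔫₀ = 𝔫 ∩ Rfin(K₀)` of a crossing point `𝔫` of
  `Rfin(K)` is maximal (`κ` algebraically closed, equal residue fields), contains the uniformiser
  and both centres: it is a crossing point of the sublevel.
-/
import Mathlib
import Fermat.Agent.S19.Cech.LineLevel
import Fermat.Agent.P3G.FibreTwo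
import Fermat.Agent.P3G.GammaV2
import Fermat.Agent.P3G.GammaVert
import Fermat.Agent.P4.TwistRoots
import Fermat.Agent.N4F.E.BetaSide
import Fermat.Agent.P3G.RbarFin

set_option autoImplicit false
set_option linter.unusedSectionVars false
set_option linter.unusedVariables false
set_option linter.style.haveILetI false
set_option synthInstance.maxHeartbeats 400000
set_option maxHeartbeats 800000

open ModularCurve AlgebraicCurve

noncomputable section

namespace Fermat.Agent.S40.M1.LevelComap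

open Fermat.Agent.N4.Setting Fermat.Agent.N4.Chart Fermat.Agent.N4.BaseDescent
  Fermat.Agent.N4.FibreEmbedding Fermat.Agent.S28.Gauss
  Fermat.Agent.N4F.C Fermat.Agent.N4F.C.Levels Fermat.Agent.N4F.C.LevelTheta
  Fermat.Agent.N4F.C.LevelCharts
  Fermat.Agent.N4F.E.DegreeLevelRaise Fermat.Agent.N4F.E.GaussDVR
  Fermat.Agent.S19.Cech.LevelBasis Fermat.Agent.S19.Cech.LineLevel
  Fermat.Agent.P3G.FibreTwo Fermat.Agent.P4.TwistRoots

/-! ### Generalities -/

section Generic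

variable {K K' : Type} [Field K] [Field K'] (f : K →+* K') (N m : ℕ) [NeZero N] [NeZero m]

theorem ffMap_alphaF (x : FF K N) :
    ffMap f (N * m) (alphaF K N m x) = alphaF K' N m (ffMap f N x) := by
  apply Subtype.ext
  rw [coe_ffMap, coe_alphaF, coe_alphaF, coe_ffMap]

theorem ffMap_betaF (x : FF K N) :
    ffMap f (N * m) (betaF K N m x) = betaF K' N m (ffMap f N x) := by
  apply Subtype.ext
  rw [coe_ffMap, coe_betaF, coe_betaF, coe_ffMap, coeffMap_qExpand]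

end Generic

theorem mem_nonunits_comap_iff {F F' : Type*} [Field F] [Field F'] (V : ValuationSubring F')
    (φ : F →+* F') {x : F} : x ∈ (V.comap φ).nonunits ↔ φ x ∈ V.nonunits := by
  rcases eq_or_ne x 0 with rfl | hx
  · rw [map_zero]
    exact ⟨fun _ => Fermat.Agent.P3G.LocVS.zero_mem_nonunits V,
      fun _ => Fermat.Agent.P3G.LocVS.zero_mem_nonunits _⟩
  · have hφx : φ x ≠ 0 := (map_ne_zero φ).2 hx
    rw [Fermat.Agent.P3G.LocVS.mem_nonunits_iff_inv_notMem _ hx,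
      Fermat.Agent.P3G.LocVS.mem_nonunits_iff_inv_notMem _ hφx, ValuationSubring.mem_comap,
      map_inv₀]

theorem valuation_eq_one_iff_mem {F : Type*} [Field F] (V : ValuationSubring F) {x : F} :
    V.valuation x = 1 ↔ x ∈ V ∧ x ∉ V.nonunits := by
  rw [V.mem_nonunits_iff, ← V.valuation_le_one_iff, not_lt]
  exact ⟨fun h => ⟨h.le, h.ge⟩, fun h => le_antisymm h.1 h.2⟩

theorem valuation_comap_eq_one_iff {F F' : Type*} [Field F] [Field F'] (V : ValuationSubring F')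
    (φ : F →+* F') {x : F} : (V.comap φ).valuation x = 1 ↔ V.valuation (φ x) = 1 := by
  rw [valuation_eq_one_iff_mem, valuation_eq_one_iff_mem, mem_nonunits_comap_iff,
    ValuationSubring.mem_comap]

theorem valuation_comap_le_iff {F F' : Type*} [Field F] [Field F'] (V : ValuationSubring F')
    (φ : F →+* F') {x y : F} :
    (V.comap φ).valuation x ≤ (V.comap φ).valuation y ↔
      V.valuation (φ x) ≤ V.valuation (φ y) := by
  rcases eq_or_ne y 0 with rfl | hy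
  · rw [map_zero, map_zero, map_zero, le_zero_iff, le_zero_iff, map_eq_zero, map_eq_zero,
      map_eq_zero]
  · have hφy : φ y ≠ 0 := (map_ne_zero φ).2 hy
    have h1 : (V.comap φ).valuation y ≠ 0 := (Valuation.ne_zero_iff _).2 hy
    have h2 : V.valuation (φ y) ≠ 0 := (Valuation.ne_zero_iff _).2 hφy
    rw [← div_le_one₀ (zero_lt_iff.2 h1), ← div_le_one₀ (zero_lt_iff.2 h2), ← map_div₀,
      ← map_div₀, ValuationSubring.valuation_le_one_iff, ValuationSubring.valuation_le_one_iff,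
      ValuationSubring.mem_comap, map_div₀]

theorem valuation_comap_lt_iff {F F' : Type*} [Field F] [Field F'] (V : ValuationSubring F')
    (φ : F →+* F') {x y : F} :
    (V.comap φ).valuation x < (V.comap φ).valuation y ↔
      V.valuation (φ x) < V.valuation (φ y) := by
  rw [← not_le, ← not_le, valuation_comap_le_iff]

theorem valuation_comap_eq_iff {F F' : Type*} [Field F] [Field F'] (V : ValuationSubring F')
    (φ : F →+* F') {x y : F} :
    (V.comap φ).valuation x = (V.comap φ).valuation y ↔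
      V.valuation (φ x) = V.valuation (φ y) := by
  rw [le_antisymm_iff, le_antisymm_iff, valuation_comap_le_iff, valuation_comap_le_iff]

/-! ### (T1): the Gauss valuation -/

section Levels

variable {K₀ K : IntermediateField ℚ Qb} (hKK : K₀ ≤ K) (A : ValuationSubring Qb)
  [IsDiscreteValuationRing ↥(baseRing A K₀)] [IsDiscreteValuationRing ↥(baseRing A K)]

section Gauss

variable (M : ℕ) [NeZero M]

/-- **(T1)** `V₁(K) ∩ F_{K₀} = V₁(K₀)`. -/
theorem comap_gaussVS :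
    (gaussVS (Lvl K) M (baseRing A K)).comap (ffMap (lvlIncl hKK) M) =
      gaussVS (Lvl K₀) M (baseRing A K₀) := by
  ext x
  rw [ValuationSubring.mem_comap, mem_gaussVS_iff, mem_gaussVS_iff]
  exact ffMap_mem_gaussSubalgebra_iff hKK A M

theorem ffMap_mem_gaussVS_iff {x : FF (Lvl K₀) M} :
    ffMap (lvlIncl hKK) M x ∈ gaussVS (Lvl K) M (baseRing A K) ↔
      x ∈ gaussVS (Lvl K₀) M (baseRing A K₀) := by
  rw [← comap_gaussVS hKK A M, ValuationSubring.mem_comap]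

theorem ffMap_mem_nonunits_gaussVS_iff {x : FF (Lvl K₀) M} :
    ffMap (lvlIncl hKK) M x ∈ (gaussVS (Lvl K) M (baseRing A K)).nonunits ↔
      x ∈ (gaussVS (Lvl K₀) M (baseRing A K₀)).nonunits := by
  rw [← comap_gaussVS hKK A M, mem_nonunits_comap_iff]

theorem valuation_gaussVS_ffMap_eq_one_iff {x : FF (Lvl K₀) M} :
    (gaussVS (Lvl K) M (baseRing A K)).valuation (ffMap (lvlIncl hKK) M x) = 1 ↔
      (gaussVS (Lvl K₀) M (baseRing A K₀)).valuation x = 1 := by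
  rw [← comap_gaussVS hKK A M, valuation_comap_eq_one_iff]

theorem valuation_gaussVS_ffMap_le_iff {x y : FF (Lvl K₀) M} :
    (gaussVS (Lvl K) M (baseRing A K)).valuation (ffMap (lvlIncl hKK) M x) ≤
        (gaussVS (Lvl K) M (baseRing A K)).valuation (ffMap (lvlIncl hKK) M y) ↔
      (gaussVS (Lvl K₀) M (baseRing A K₀)).valuation x ≤
        (gaussVS (Lvl K₀) M (baseRing A K₀)).valuation y := by
  rw [← comap_gaussVS hKK A M, valuation_comap_le_iff]

theorem valuation_gaussVS_ffMap_lt_iff {x y : FF (Lvl K₀) M} :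
    (gaussVS (Lvl K) M (baseRing A K)).valuation (ffMap (lvlIncl hKK) M x) <
        (gaussVS (Lvl K) M (baseRing A K)).valuation (ffMap (lvlIncl hKK) M y) ↔
      (gaussVS (Lvl K₀) M (baseRing A K₀)).valuation x <
        (gaussVS (Lvl K₀) M (baseRing A K₀)).valuation y := by
  rw [← comap_gaussVS hKK A M, valuation_comap_lt_iff]

theorem valuation_gaussVS_ffMap_eq_iff {x y : FF (Lvl K₀) M} :
    (gaussVS (Lvl K) M (baseRing A K)).valuation (ffMap (lvlIncl hKK) M x) =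
        (gaussVS (Lvl K) M (baseRing A K)).valuation (ffMap (lvlIncl hKK) M y) ↔
      (gaussVS (Lvl K₀) M (baseRing A K₀)).valuation x =
        (gaussVS (Lvl K₀) M (baseRing A K₀)).valuation y := by
  rw [← comap_gaussVS hKK A M, valuation_comap_eq_iff]

theorem valuation_gaussVS_ffMap_lt_one_iff {x : FF (Lvl K₀) M} :
    (gaussVS (Lvl K) M (baseRing A K)).valuation (ffMap (lvlIncl hKK) M x) < 1 ↔
      (gaussVS (Lvl K₀) M (baseRing A K₀)).valuation x < 1 := by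
  rw [← ValuationSubring.mem_nonunits_iff, ← ValuationSubring.mem_nonunits_iff,
    ffMap_mem_nonunits_gaussVS_iff]

theorem valuation_gaussVS_ffMap_le_one_iff {x : FF (Lvl K₀) M} :
    (gaussVS (Lvl K) M (baseRing A K)).valuation (ffMap (lvlIncl hKK) M x) ≤ 1 ↔
      (gaussVS (Lvl K₀) M (baseRing A K₀)).valuation x ≤ 1 := by
  rw [ValuationSubring.valuation_le_one_iff, ValuationSubring.valuation_le_one_iff,
    ffMap_mem_gaussVS_iff]

/-- The reductions at the two levels agree inside `κ(A)((q))`. -/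
theorem theta_ffMap {x : FF (Lvl K₀) M} (hx : x ∈ gaussSubalgebra (Lvl K₀) M (baseRing A K₀)) :
    coeffMap (iotaK A K) (theta (Lvl K) M (baseRing A K)
        ⟨ffMap (lvlIncl hKK) M x, ffMap_mem_gaussSubalgebra hKK A M hx⟩) =
      coeffMap (iotaK A K₀) (theta (Lvl K₀) M (baseRing A K₀) ⟨x, hx⟩) := by
  rw [← thetaBar_levK A M K₀ hx, ← thetaBar_levK A M K (ffMap_mem_gaussSubalgebra hKK A M hx),
    levK_ffMap]

theorem theta_ffMap_eq_zero_iff {x : FF (Lvl K₀) M}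
    (hx : x ∈ gaussSubalgebra (Lvl K₀) M (baseRing A K₀)) :
    theta (Lvl K) M (baseRing A K)
        ⟨ffMap (lvlIncl hKK) M x, ffMap_mem_gaussSubalgebra hKK A M hx⟩ = 0 ↔
      theta (Lvl K₀) M (baseRing A K₀) ⟨x, hx⟩ = 0 := by
  rw [← (map_eq_zero_iff _ (coeffMap_iotaK_injective A K)), theta_ffMap hKK A M hx,
    map_eq_zero_iff _ (coeffMap_iotaK_injective A K₀)]

end Gauss

end Levels

/-! ### The separating element `α j − (β j) ^ ℓ` -/

section Sep

variable (K : Type) [Field K] [CharZero K] (N : ℕ) [NeZero N] (ℓ : ℕ) [hℓ : Fact ℓ.Prime]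

/-- The separating element `α j − (β j) ^ ℓ ∈ F_K(N ℓ)`: a unit of the Gauss valuation, a nonunit of
the second valuation (Kronecker's congruence). -/
def sepElt : FF K (N * ℓ) := alphaF K N ℓ (jF K N) - betaF K N ℓ (jF K N) ^ ℓ

theorem ffMap_sepElt {K' : Type} [Field K'] [CharZero K'] (f : K →+* K') :
    ffMap f (N * ℓ) (sepElt K N ℓ) = sepElt K' N ℓ := by
  unfold sepElt
  rw [map_sub, map_pow, ffMap_alphaF, ffMap_betaF, ffMap_jF]

variable (O : Subring K) [IsDiscreteValuationRing ↥O] [IsFractionRing ↥O K]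
  [CharP (IsLocalRing.ResidueField ↥O) ℓ]

theorem sepElt_mem_gaussSubalgebra : sepElt K N ℓ ∈ gaussSubalgebra K (N * ℓ) O :=
  (gaussSubalgebra K (N * ℓ) O).sub_mem (alphaF_mem K O N ℓ (jF_mem_gaussSubalgebra K N O))
    ((gaussSubalgebra K (N * ℓ) O).pow_mem (betaF_mem K O N ℓ (jF_mem_gaussSubalgebra K N O)) ℓ)

/-- `θ (α j − (β j) ^ ℓ) = j(q) − j(q ^ ℓ) ^ ℓ ≠ 0`. -/
theorem theta_sepElt_ne_zero :
    theta K (N * ℓ) O ⟨sepElt K N ℓ, sepElt_mem_gaussSubalgebra K N ℓ O⟩ ≠ 0 := by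
  have hj := jF_mem_gaussSubalgebra K N O
  have e : (⟨sepElt K N ℓ, sepElt_mem_gaussSubalgebra K N ℓ O⟩ : gaussSubalgebra K (N * ℓ) O) =
      ⟨alphaF K N ℓ (jF K N), alphaF_mem K O N ℓ hj⟩ -
        ⟨betaF K N ℓ (jF K N), betaF_mem K O N ℓ hj⟩ ^ ℓ := Subtype.ext rfl
  rw [e, map_sub, map_pow, theta_alphaF K O N ℓ ⟨jF K N, hj⟩, theta_betaF K O N ℓ ⟨jF K N, hj⟩,
    theta_jF]
  intro h
  exact Fermat.Agent.N4F.E.Integrality.jqModC_ne_pow (IsLocalRing.ResidueField ↥O) ℓ _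
    (sub_eq_zero.1 h).symm

theorem sepElt_notMem_nonunits_gaussVS :
    sepElt K N ℓ ∉ (gaussVS K (N * ℓ) O).nonunits := fun h =>
  theta_sepElt_ne_zero K N ℓ O
    ((mem_nonunits_gaussVS_iff K (N * ℓ) O (sepElt_mem_gaussSubalgebra K N ℓ O)).1 h)

variable (S : SecondVal K N ℓ O)

theorem sepElt_mem_nonunits_secondVal : sepElt K N ℓ ∈ S.V.nonunits := by
  have hj := jF_mem_gaussSubalgebra K N O
  have hmem : sepElt K N ℓ ∈ S.V :=
    sub_mem (S.alpha_mem _ hj) (pow_mem (S.beta_mem _ hj) ℓ)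
  have e : (⟨sepElt K N ℓ, hmem⟩ : ↥S.V) =
      ⟨alphaF K N ℓ (jF K N), S.alpha_mem _ hj⟩ - ⟨betaF K N ℓ (jF K N), S.beta_mem _ hj⟩ ^ ℓ :=
    Subtype.ext rfl
  have h0 : S.ev ⟨sepElt K N ℓ, hmem⟩ = 0 := by
    rw [e, map_sub, map_pow, S.ev_alpha _ hj, S.ev_beta _ hj, theta_jF,
      Fermat.Agent.N4F.E.BetaSide.jqModC_pow_eq, sub_self]
  exact (S.ev_eq_zero_iff _).1 h0

end Sep

/-! ### (T2): the second valuation -/

section Levels2

variable {K₀ K : IntermediateField ℚ Qb} (hKK : K₀ ≤ K) (A : ValuationSubring Qb)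
  [IsDiscreteValuationRing ↥(baseRing A K₀)] [IsDiscreteValuationRing ↥(baseRing A K)]
  [IsFractionRing ↥(baseRing A K₀) (Lvl K₀)] [IsFractionRing ↥(baseRing A K) (Lvl K)]
  (N : ℕ) [NeZero N] (ℓ : ℕ) [hℓ : Fact ℓ.Prime]
  [CharP (IsLocalRing.ResidueField ↥(baseRing A K₀)) ℓ]
  [CharP (IsLocalRing.ResidueField ↥(baseRing A K)) ℓ]
  (S : SecondVal (Lvl K) N ℓ (baseRing A K)) (S₀ : SecondVal (Lvl K₀) N ℓ (baseRing A K₀))

/-- Constants of `O_K` lie in `V₂`. -/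
theorem algebraMap_mem_secondVal (c : ↥(baseRing A K)) :
    algebraMap (Lvl K) (FF (Lvl K) (N * ℓ)) (c : Lvl K) ∈ S.V := by
  have h := S.beta_mem (algebraMap ↥(baseRing A K) (FF (Lvl K) N) c)
    ((gaussSubalgebra (Lvl K) N (baseRing A K)).algebraMap_mem c)
  rwa [Fermat.Agent.P3G.GammaV2.algebraMap_base_eq, AlgHom.commutes] at h

/-- The image of a uniformiser of the sublevel is a nonunit of `V₂`. -/
theorem ffMap_unif_mem_nonunits_secondVal {ϖ₀ : ↥(baseRing A K₀)} (hϖ₀ : Irreducible ϖ₀) :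
    ffMap (lvlIncl hKK) (N * ℓ) (algebraMap (Lvl K₀) (FF (Lvl K₀) (N * ℓ)) (ϖ₀ : Lvl K₀)) ∈
      S.V.nonunits := by
  obtain ⟨ϖ, hϖ⟩ := IsDiscreteValuationRing.exists_irreducible ↥(baseRing A K)
  obtain ⟨c, hc⟩ := dvd_baseMapIncl_irreducible A hKK hϖ₀ hϖ
  have e : lvlIncl hKK (ϖ₀ : Lvl K₀) = (ϖ : Lvl K) * (c : Lvl K) := by
    have := congrArg (fun z : ↥(baseRing A K) => (z : Lvl K)) hc
    exact this
  rw [ffMap_algebraMap, e, map_mul]
  exact Fermat.Agent.P3G.LocVS.mul_mem_nonunits S.V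
    (Fermat.Agent.P3G.GammaV2.unif_mem_nonunits_secondVal K N ℓ S hϖ)
    (algebraMap_mem_secondVal A N ℓ S c)

/-- **(T2)** `V₂(K) ∩ F_{K₀} = V₂(K₀)`, for any second valuations at the two levels. -/
theorem comap_secondVal :
    S.V.comap (ffMap (lvlIncl hKK) (N * ℓ)) = S₀.V := by
  have hβ : ∀ x ∈ gaussSubalgebra (Lvl K₀) N (baseRing A K₀),
      betaF (Lvl K₀) N ℓ x ∈ S.V.comap (ffMap (lvlIncl hKK) (N * ℓ)) := by
    intro x hx
    rw [ValuationSubring.mem_comap, ffMap_betaF]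
    exact S.beta_mem _ (ffMap_mem_gaussSubalgebra hKK A N hx)
  have hϖ : ∀ ϖ₀ : ↥(baseRing A K₀), Irreducible ϖ₀ →
      algebraMap (Lvl K₀) (FF (Lvl K₀) (N * ℓ)) (ϖ₀ : Lvl K₀) ∈
        (S.V.comap (ffMap (lvlIncl hKK) (N * ℓ))).nonunits := by
    intro ϖ₀ hϖ₀
    rw [mem_nonunits_comap_iff]
    exact ffMap_unif_mem_nonunits_secondVal hKK A N ℓ S hϖ₀
  rcases S₀.only_two (S.V.comap (ffMap (lvlIncl hKK) (N * ℓ))) hβ hϖ with h | h
  · exfalso
    have h2 : sepElt (Lvl K₀) N ℓ ∈ (S.V.comap (ffMap (lvlIncl hKK) (N * ℓ))).nonunits := by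
      rw [mem_nonunits_comap_iff, ffMap_sepElt]
      exact sepElt_mem_nonunits_secondVal (Lvl K) N ℓ (baseRing A K) S
    rw [h] at h2
    exact sepElt_notMem_nonunits_gaussVS (Lvl K₀) N ℓ (baseRing A K₀) h2
  · exact h

theorem ffMap_mem_secondVal_iff {x : FF (Lvl K₀) (N * ℓ)} :
    ffMap (lvlIncl hKK) (N * ℓ) x ∈ S.V ↔ x ∈ S₀.V := by
  rw [← comap_secondVal hKK A N ℓ S S₀, ValuationSubring.mem_comap]

theorem ffMap_mem_nonunits_secondVal_iff {x : FF (Lvl K₀) (N * ℓ)} :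
    ffMap (lvlIncl hKK) (N * ℓ) x ∈ S.V.nonunits ↔ x ∈ S₀.V.nonunits := by
  rw [← comap_secondVal hKK A N ℓ S S₀, mem_nonunits_comap_iff]

theorem valuation_secondVal_ffMap_eq_one_iff {x : FF (Lvl K₀) (N * ℓ)} :
    S.V.valuation (ffMap (lvlIncl hKK) (N * ℓ) x) = 1 ↔ S₀.V.valuation x = 1 := by
  rw [← comap_secondVal hKK A N ℓ S S₀, valuation_comap_eq_one_iff]

theorem valuation_secondVal_ffMap_le_iff {x y : FF (Lvl K₀) (N * ℓ)} :
    S.V.valuation (ffMap (lvlIncl hKK) (N * ℓ) x) ≤ S.V.valuation (ffMap (lvlIncl hKK) (N * ℓ) y) ↔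
      S₀.V.valuation x ≤ S₀.V.valuation y := by
  rw [← comap_secondVal hKK A N ℓ S S₀, valuation_comap_le_iff]

theorem valuation_secondVal_ffMap_lt_iff {x y : FF (Lvl K₀) (N * ℓ)} :
    S.V.valuation (ffMap (lvlIncl hKK) (N * ℓ) x) < S.V.valuation (ffMap (lvlIncl hKK) (N * ℓ) y) ↔
      S₀.V.valuation x < S₀.V.valuation y := by
  rw [← comap_secondVal hKK A N ℓ S S₀, valuation_comap_lt_iff]

theorem valuation_secondVal_ffMap_eq_iff {x y : FF (Lvl K₀) (N * ℓ)} :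
    S.V.valuation (ffMap (lvlIncl hKK) (N * ℓ) x) = S.V.valuation (ffMap (lvlIncl hKK) (N * ℓ) y) ↔
      S₀.V.valuation x = S₀.V.valuation y := by
  rw [← comap_secondVal hKK A N ℓ S S₀, valuation_comap_eq_iff]

theorem valuation_secondVal_ffMap_lt_one_iff {x : FF (Lvl K₀) (N * ℓ)} :
    S.V.valuation (ffMap (lvlIncl hKK) (N * ℓ) x) < 1 ↔ S₀.V.valuation x < 1 := by
  rw [← ValuationSubring.mem_nonunits_iff, ← ValuationSubring.mem_nonunits_iff,
    ffMap_mem_nonunits_secondVal_iff hKK A N ℓ S S₀]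

theorem valuation_secondVal_ffMap_le_one_iff {x : FF (Lvl K₀) (N * ℓ)} :
    S.V.valuation (ffMap (lvlIncl hKK) (N * ℓ) x) ≤ 1 ↔ S₀.V.valuation x ≤ 1 := by
  rw [ValuationSubring.valuation_le_one_iff, ValuationSubring.valuation_le_one_iff,
    ffMap_mem_secondVal_iff hKK A N ℓ S S₀]

/-- The two second places agree inside `κ(A)((q))`. -/
theorem ev_ffMap {y : FF (Lvl K₀) (N * ℓ)} (hy : y ∈ S₀.V) :
    coeffMap (iotaK A K)
        (S.ev ⟨ffMap (lvlIncl hKK) (N * ℓ) y, (ffMap_mem_secondVal_iff hKK A N ℓ S S₀).2 hy⟩) =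
      coeffMap (iotaK A K₀) (S₀.ev ⟨y, hy⟩) := by
  obtain ⟨a, ha⟩ := S₀.deg_one y hy
  have hβ₀ : betaF (Lvl K₀) N ℓ (a : FF (Lvl K₀) N) ∈ S₀.V := S₀.beta_mem _ a.2
  have hd₀ : y - betaF (Lvl K₀) N ℓ (a : FF (Lvl K₀) N) ∈ S₀.V := S₀.V.nonunits_subset ha
  -- level `K₀`
  have e₀ : (⟨y, hy⟩ : ↥S₀.V) = ⟨betaF (Lvl K₀) N ℓ (a : FF (Lvl K₀) N), hβ₀⟩ +
      ⟨y - betaF (Lvl K₀) N ℓ (a : FF (Lvl K₀) N), hd₀⟩ := Subtype.ext (by simp)
  have h₀ : S₀.ev ⟨y, hy⟩ = theta (Lvl K₀) N (baseRing A K₀) a := by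
    rw [e₀, map_add, S₀.ev_beta _ a.2, (S₀.ev_eq_zero_iff _).2 ha, add_zero]
  -- level `K`
  have haK := ffMap_mem_gaussSubalgebra hKK A N a.2
  have hβ : betaF (Lvl K) N ℓ (ffMap (lvlIncl hKK) N (a : FF (Lvl K₀) N)) ∈ S.V :=
    S.beta_mem _ haK
  have hdn : ffMap (lvlIncl hKK) (N * ℓ) (y - betaF (Lvl K₀) N ℓ (a : FF (Lvl K₀) N)) ∈
      S.V.nonunits := (ffMap_mem_nonunits_secondVal_iff hKK A N ℓ S S₀).2 ha
  have e : (⟨ffMap (lvlIncl hKK) (N * ℓ) y, (ffMap_mem_secondVal_iff hKK A N ℓ S S₀).2 hy⟩ :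
      ↥S.V) = ⟨betaF (Lvl K) N ℓ (ffMap (lvlIncl hKK) N (a : FF (Lvl K₀) N)), hβ⟩ +
        ⟨ffMap (lvlIncl hKK) (N * ℓ) (y - betaF (Lvl K₀) N ℓ (a : FF (Lvl K₀) N)),
          S.V.nonunits_subset hdn⟩ := by
    apply Subtype.ext
    show ffMap (lvlIncl hKK) (N * ℓ) y =
      betaF (Lvl K) N ℓ (ffMap (lvlIncl hKK) N (a : FF (Lvl K₀) N)) +
        ffMap (lvlIncl hKK) (N * ℓ) (y - betaF (Lvl K₀) N ℓ (a : FF (Lvl K₀) N))
    rw [map_sub, ffMap_betaF]
    ring
  have h : S.ev ⟨ffMap (lvlIncl hKK) (N * ℓ) y, (ffMap_mem_secondVal_iff hKK A N ℓ S S₀).2 hy⟩ =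
      theta (Lvl K) N (baseRing A K) ⟨ffMap (lvlIncl hKK) N (a : FF (Lvl K₀) N), haK⟩ := by
    rw [e, map_add, S.ev_beta _ haK, (S.ev_eq_zero_iff _).2 hdn, add_zero]
  rw [h, h₀]
  exact theta_ffMap hKK A N a.2

end Levels2

/-! ### (T3): contraction of a crossing point -/

section Crossing

variable {K₀ K : IntermediateField ℚ Qb} (hKK : K₀ ≤ K) (A : ValuationSubring Qb)
  [IsDiscreteValuationRing ↥(baseRing A K₀)] [IsDiscreteValuationRing ↥(baseRing A K)]
  [IsFractionRing ↥(baseRing A K₀) (Lvl K₀)] [IsFractionRing ↥(baseRing A K) (Lvl K)]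

section AnyLevel

variable (M : ℕ) [NeZero M] (𝔫 : Ideal ↥(Rfin (Lvl K) M (baseRing A K)))

theorem algebraMap_finIncl (r : ↥(Rfin (Lvl K₀) M (baseRing A K₀))) :
    algebraMap ↥(Rfin (Lvl K) M (baseRing A K)) (FF (Lvl K) M) (finIncl A M hKK r) =
      ffMap (lvlIncl hKK) M (algebraMap ↥(Rfin (Lvl K₀) M (baseRing A K₀)) (FF (Lvl K₀) M) r) :=
  rfl

theorem finIncl_algebraMap (a : ↥(baseRing A K₀)) :
    finIncl A M hKK (algebraMap ↥(baseRing A K₀) ↥(Rfin (Lvl K₀) M (baseRing A K₀)) a) =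
      algebraMap ↥(baseRing A K) ↥(Rfin (Lvl K) M (baseRing A K)) (baseMapIncl A hKK a) :=
  (chartHom_level (lvlIncl hKK) M (baseRing A K₀) (baseRing A K) (lvlIncl_mem A hKK)).alg_p a

/-- The contraction of an ideal through the centre of `V₁(K)` passes through the centre of
`V₁(K₀)`. -/
theorem through_gaussVS_comap (h : Through (gaussVS (Lvl K) M (baseRing A K)) 𝔫) :
    Through (gaussVS (Lvl K₀) M (baseRing A K₀)) (𝔫.comap (finIncl A M hKK)) := by
  intro r hr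
  rw [Ideal.mem_comap]
  apply h
  rw [algebraMap_finIncl, ffMap_mem_nonunits_gaussVS_iff]
  exact hr

/-- The contraction of an ideal containing the uniformiser contains every nonunit of `O₀`. -/
theorem algebraMap_mem_comap {ϖ : ↥(baseRing A K)} (hϖ : Irreducible ϖ)
    (hϖ𝔫 : algebraMap ↥(baseRing A K) ↥(Rfin (Lvl K) M (baseRing A K)) ϖ ∈ 𝔫)
    {ϖ₀ : ↥(baseRing A K₀)} (hϖ₀ : Irreducible ϖ₀) :
    algebraMap ↥(baseRing A K₀) ↥(Rfin (Lvl K₀) M (baseRing A K₀)) ϖ₀ ∈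
      𝔫.comap (finIncl A M hKK) := by
  obtain ⟨c, hc⟩ := dvd_baseMapIncl_irreducible A hKK hϖ₀ hϖ
  rw [Ideal.mem_comap, finIncl_algebraMap, hc, map_mul]
  exact Ideal.mul_mem_right _ _ hϖ𝔫

/-- **Maximality of the contraction** (`κ` algebraically closed, equal residue fields): the
contraction `𝔫 ∩ Rfin(K₀)` of a closed point of the special fibre of `Rfin(K)` is a closed point. -/
theorem comap_isMaximal [IsAlgClosed (IsLocalRing.ResidueField ↥(baseRing A K))]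
    (hb₀ : Function.Surjective (IsLocalRing.ResidueField.map (baseIncl A K₀)))
    {ϖ : ↥(baseRing A K)} (hϖ : Irreducible ϖ) [h𝔫 : 𝔫.IsMaximal]
    (hϖ𝔫 : algebraMap ↥(baseRing A K) ↥(Rfin (Lvl K) M (baseRing A K)) ϖ ∈ 𝔫) :
    (𝔫.comap (finIncl A M hKK)).IsMaximal := by
  classical
  let _ : Field (↥(Rfin (Lvl K) M (baseRing A K)) ⧸ 𝔫) := Ideal.Quotient.field 𝔫
  let φ : ↥(Rfin (Lvl K₀) M (baseRing A K₀)) →+* ↥(Rfin (Lvl K) M (baseRing A K)) ⧸ 𝔫 :=
    (Ideal.Quotient.mk 𝔫).comp (finIncl A M hKK)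
  have hφ : Function.Surjective φ := by
    intro y
    obtain ⟨r, rfl⟩ := Ideal.Quotient.mk_surjective y
    obtain ⟨a, ha⟩ := Fermat.Agent.P3G.RbarFin.exists_sub_algebraMap_mem (Lvl K) M (baseRing A K)
      hϖ 𝔫 hϖ𝔫 r
    -- approximate `a` by an element of `O₀`
    obtain ⟨ρ, hρ⟩ := hb₀ (IsLocalRing.residue ↥A (baseIncl A K a))
    obtain ⟨a₀, rfl⟩ := IsLocalRing.residue_surjective ρ
    have h0 : IsLocalRing.residue ↥(baseRing A K) (a - baseMapIncl A hKK a₀) = 0 := by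
      apply (IsLocalRing.ResidueField.map (baseIncl A K)).injective
      rw [map_zero, IsLocalRing.ResidueField.map_residue, map_sub, baseIncl_oMap, map_sub,
        ← IsLocalRing.ResidueField.map_residue (baseIncl A K₀), hρ, sub_self]
    rw [IsLocalRing.residue_eq_zero_iff, hϖ.maximalIdeal_eq, Ideal.mem_span_singleton] at h0
    obtain ⟨c, hc⟩ := h0
    refine ⟨algebraMap ↥(baseRing A K₀) ↥(Rfin (Lvl K₀) M (baseRing A K₀)) a₀, ?_⟩
    show Ideal.Quotient.mk 𝔫 (finIncl A M hKK _) = Ideal.Quotient.mk 𝔫 r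
    rw [finIncl_algebraMap, eq_comm, Ideal.Quotient.eq]
    have e : r - algebraMap ↥(baseRing A K) ↥(Rfin (Lvl K) M (baseRing A K))
        (baseMapIncl A hKK a₀) =
        (r - algebraMap ↥(baseRing A K) ↥(Rfin (Lvl K) M (baseRing A K)) a) +
          algebraMap ↥(baseRing A K) ↥(Rfin (Lvl K) M (baseRing A K)) ϖ *
            algebraMap ↥(baseRing A K) ↥(Rfin (Lvl K) M (baseRing A K)) c := by
      rw [← map_mul, ← hc, map_sub]
      ring
    rw [e]
    exact 𝔫.add_mem ha (Ideal.mul_mem_right _ _ hϖ𝔫)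
  have hker : (⊥ : Ideal (↥(Rfin (Lvl K) M (baseRing A K)) ⧸ 𝔫)).comap φ =
      𝔫.comap (finIncl A M hKK) := by
    ext x
    rw [Ideal.mem_comap, Ideal.mem_comap, Ideal.mem_bot]
    exact Ideal.Quotient.eq_zero_iff_mem
  rw [← hker]
  exact Ideal.comap_isMaximal_of_surjective φ hφ

end AnyLevel

section Second

variable (N : ℕ) [NeZero N] (ℓ : ℕ) [hℓ : Fact ℓ.Prime]
  [CharP (IsLocalRing.ResidueField ↥(baseRing A K₀)) ℓ]
  [CharP (IsLocalRing.ResidueField ↥(baseRing A K)) ℓ]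
  (S : SecondVal (Lvl K) N ℓ (baseRing A K)) (S₀ : SecondVal (Lvl K₀) N ℓ (baseRing A K₀))
  (𝔫 : Ideal ↥(Rfin (Lvl K) (N * ℓ) (baseRing A K)))

/-- The contraction of an ideal through the centre of `V₂(K)` passes through the centre of
`V₂(K₀)`. -/
theorem through_secondVal_comap (h : Through S.V 𝔫) :
    Through S₀.V (𝔫.comap (finIncl A (N * ℓ) hKK)) := by
  intro r hr
  rw [Ideal.mem_comap]
  apply h
  rw [algebraMap_finIncl, ffMap_mem_nonunits_secondVal_iff hKK A N ℓ S S₀]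
  exact hr

/-- **(T3)** the contraction of a crossing point of level `K` is a crossing point of the sublevel
`K₀`. -/
theorem crossing_comap [IsAlgClosed (IsLocalRing.ResidueField ↥(baseRing A K))]
    (hb₀ : Function.Surjective (IsLocalRing.ResidueField.map (baseIncl A K₀)))
    {ϖ : ↥(baseRing A K)} (hϖ : Irreducible ϖ) [h𝔫 : 𝔫.IsMaximal]
    (hϖ𝔫 : algebraMap ↥(baseRing A K) ↥(Rfin (Lvl K) (N * ℓ) (baseRing A K)) ϖ ∈ 𝔫)
    (h₁ : Through (gaussVS (Lvl K) (N * ℓ) (baseRing A K)) 𝔫) (h₂ : Through S.V 𝔫) :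
    (𝔫.comap (finIncl A (N * ℓ) hKK)).IsMaximal ∧
      (∀ ϖ₀ : ↥(baseRing A K₀), Irreducible ϖ₀ →
        algebraMap ↥(baseRing A K₀) ↥(Rfin (Lvl K₀) (N * ℓ) (baseRing A K₀)) ϖ₀ ∈
          𝔫.comap (finIncl A (N * ℓ) hKK)) ∧
      Through (gaussVS (Lvl K₀) (N * ℓ) (baseRing A K₀)) (𝔫.comap (finIncl A (N * ℓ) hKK)) ∧
      Through S₀.V (𝔫.comap (finIncl A (N * ℓ) hKK)) :=
  ⟨comap_isMaximal hKK A (N * ℓ) 𝔫 hb₀ hϖ hϖ𝔫,
    fun _ hϖ₀ => algebraMap_mem_comap hKK A (N * ℓ) 𝔫 hϖ hϖ𝔫 hϖ₀,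
    through_gaussVS_comap hKK A (N * ℓ) 𝔫 h₁,
    through_secondVal_comap hKK A N ℓ S S₀ 𝔫 h₂⟩

end Second

end Crossing

end Fermat.Agent.S40.M1.LevelComap
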