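/-
S44 / S40 (row 38), T6′ / M1-THICK (helper3): **the `fibre₂` clause of helper25's
`LevelRestrictHyp` (board #3160)**, mirror of helper9's `S40/M1/FibreLift` for the SECOND vertical
valuation: every element of the finite chart of the big level is, modulo the maximal ideal of the
second valuation `V₂ = S₂.V`, the image of an element of the finite chart of the small level:

  `∀ r : Rfin K' (N ℓ) O', ∃ r₀ : Rfin K (N ℓ) O, (finMap r₀ - r : FF K' (N ℓ)) ∈ 𝔪(V₂)`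

and `r₀` may be taken of the form `β x₀`, `x₀` in the finite chart of level `N` of the small level
(`exists_beta_sub_mem_nonunits_secondVal`, `exists_finMap_sub_mem_nonunits_secondVal`: generic
two-level form `(K, O) → (K', O')` with bijective residue field map;
`exists_finIncl_sub_mem_nonunits_secondVal` for two levels `K₁ ≤ L` of `Q̄` whose residue fields are
`κ(A)`).  For symmetry the `α`-twin for the Gauss valuation is included
(`exists_alpha_sub_mem_nonunits_gaussVS`).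

Route: the second place `S₂'.ev r` lies in `R̄(Σ^fin κ' N)`; transport to `κ`, lift to
`x₀ ∈ Rfin K N O` (good reduction at level `N`, `crossingData_fin.surj`), and
`S₂'.ev (β (finMap x₀)) = θ' (finMap x₀) = coeffMap ρ (θ x₀)` (`ev_beta` + `FibreLevel.theta_ffMap`).
-/
import Mathlib
import Fermat.Agent.S40.M1.FibreLevel
import Fermat.Agent.S40.M1.LevelComap

set_option autoImplicit false
set_option linter.unusedSectionVars false
set_option linter.unusedVariables false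
set_option linter.style.haveILetI false
set_option synthInstance.maxHeartbeats 400000
set_option maxHeartbeats 800000

open ModularCurve AlgebraicCurve

noncomputable section

namespace Fermat.Agent.S40.M1.FibreSecond

open Fermat.Agent.N4.Chart Fermat.Agent.N4.Setting Fermat.Agent.N4.FibreEmbedding
  Fermat.Agent.N4.BaseDescent Fermat.Agent.N4F.C Fermat.Agent.S28.Gauss
  Fermat.Agent.P3G Fermat.Agent.S19.Cech.LevelBasis
  Fermat.Agent.P3G.RbarFin Fermat.Agent.S40.M1.FibreLevel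
  Fermat.Agent.N4F.E.GaussDVR Fermat.Agent.N4F.E.DegreeLevelRaise
  Fermat.Agent.P3G.LevelIntegrality Fermat.Agent.N4F.C.ChartFibre

section Generic

variable (K : Type) [Field K] [CharZero K] (K' : Type) [Field K'] [CharZero K'] (f : K →+* K')
  (N : ℕ) [NeZero N] (ℓ : ℕ) [Fact ℓ.Prime]
  (O : Subring K) [IsDiscreteValuationRing ↥O] [IsFractionRing ↥O K]
  [CharP (IsLocalRing.ResidueField ↥O) ℓ] [PerfectRing (IsLocalRing.ResidueField ↥O) ℓ]
  (O' : Subring K') [IsDiscreteValuationRing ↥O'] [IsFractionRing ↥O' K']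
  [CharP (IsLocalRing.ResidueField ↥O') ℓ] [PerfectRing (IsLocalRing.ResidueField ↥O') ℓ]

/-- `β` commutes with the change of level, on the finite charts. -/
theorem finMap_betaR (hOO' : ∀ a ∈ O, f a ∈ O') (x : ↥(Rfin K N O)) :
    finMap f (N * ℓ) O O' hOO' (betaR K N ℓ O x) =
      betaR K' N ℓ O' (finMap f N O O' hOO' x) := by
  apply Subtype.ext
  rw [coe_finMap, coe_betaR, coe_betaR, coe_finMap]
  exact LevelComap.ffMap_betaF f N ℓ _

/-- `α` commutes with the change of level, on the finite charts. -/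
theorem finMap_alphaR (hOO' : ∀ a ∈ O, f a ∈ O') (x : ↥(Rfin K N O)) :
    finMap f (N * ℓ) O O' hOO' (alphaR K N ℓ O x) =
      alphaR K' N ℓ O' (finMap f N O O' hOO' x) := by
  apply Subtype.ext
  rw [coe_finMap, coe_alphaR, coe_alphaR, coe_finMap]
  exact LevelComap.ffMap_alphaF f N ℓ _

/-- The Gauss reduction of the finite chart of level `N` commutes with the change of level. -/
theorem thetaFin_finMap (hOO' : ∀ a ∈ O, f a ∈ O') [IsLocalHom (oMap f O O' hOO')]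
    (x : ↥(Rfin K N O)) :
    thetaFin K' N O' (finMap f N O O' hOO' x) =
      coeffMap (IsLocalRing.ResidueField.map (oMap f O O' hOO')) (thetaFin K N O x) := by
  rw [thetaFin_apply, thetaFin_apply]
  exact FibreLevel.theta_ffMap f N O O' hOO'
    (chartAlg_le_gaussSubalgebra K N O (sFin_le_gauss K N O) x.2)

/-- Every element of `Σ^fin κ' N` is the Gauss reduction of the image of an element of the finite
chart of level `N` of the SMALL level (good reduction at level `N`, equal residue fields). -/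
theorem exists_thetaFin_finMap_eq (hOO' : ∀ a ∈ O, f a ∈ O') [IsLocalHom (oMap f O O' hOO')]
    (hρ : Function.Bijective (IsLocalRing.ResidueField.map (oMap f O O' hOO')))
    (hN : IsUnit ((N : ℕ) : ↥O)) (hprime : (fibreIdeal K N O (Rfin K N O)).IsPrime)
    (hsmooth : IsDedekindDomain (↥(Rfin K N O) ⧸ fibreIdeal K N O (Rfin K N O)))
    (ι₀ : K →+* ℂ) (hℓN : ¬ ℓ ∣ N)
    (hA2₀ : ∀ x : ↥(gaussSubalgebra K N O),
      theta K N O x ∈ modularFunctionFieldFullC (IsLocalRing.ResidueField ↥O) N)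
    (S₂₀ : FibreTwo.SecondVal K N ℓ O)
    {y : FF (IsLocalRing.ResidueField ↥O') N} (hy : y ∈ SigmaFin (IsLocalRing.ResidueField ↥O') N) :
    ∃ x₀ : ↥(Rfin K N O),
      thetaFin K' N O' (finMap f N O O' hOO' x₀) =
        (y : LaurentSeries (IsLocalRing.ResidueField ↥O')) := by
  set ρ := IsLocalRing.ResidueField.map (oMap f O O' hOO') with hρdef
  let e : IsLocalRing.ResidueField ↥O ≃+* IsLocalRing.ResidueField ↥O' :=
    RingEquiv.ofBijective ρ hρ
  have he : (e : IsLocalRing.ResidueField ↥O →+* IsLocalRing.ResidueField ↥O') = ρ :=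
    RingHom.ext fun _ => rfl
  have hy₀ := SigmaTransport.ffMap_mem_SigmaFin N
    (e.symm : IsLocalRing.ResidueField ↥O' →+* IsLocalRing.ResidueField ↥O) hy
  have hD := TwoComponentsFinal.crossingData_fin K N ℓ O hN ι₀ hℓN hprime hsmooth hA2₀ S₂₀
  have hz' : ((ffMap (e.symm : IsLocalRing.ResidueField ↥O' →+* IsLocalRing.ResidueField ↥O) N y :
      FF (IsLocalRing.ResidueField ↥O) N) : LaurentSeries (IsLocalRing.ResidueField ↥O)) ∈
      RbarFin K N O := by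
    rw [TwoComponentsB.rbarFin_eq K N O hN hprime hsmooth]
    exact SigmaFrob.coe_mem_Rbar (IsLocalRing.ResidueField ↥O) N _ hy₀
  obtain ⟨x₀, hx₀⟩ := hD.surj ⟨_, hz'⟩
  have hx₀' : thetaFin K N O x₀ =
      ((ffMap (e.symm : IsLocalRing.ResidueField ↥O' →+* IsLocalRing.ResidueField ↥O) N y :
        FF (IsLocalRing.ResidueField ↥O) N) : LaurentSeries (IsLocalRing.ResidueField ↥O)) :=
    congrArg Subtype.val hx₀
  refine ⟨x₀, ?_⟩
  rw [thetaFin_finMap K K' f N O O' hOO' x₀, hx₀', ← hρdef, ← he, ← coe_ffMap]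
  exact congrArg Subtype.val (SigmaTransport.ffMap_ffMap_symm N e y)

/-- **The `fibre₂` clause, finite chart, generic two-level form, with `r₀ = β x₀`.** -/
theorem exists_beta_sub_mem_nonunits_secondVal (hOO' : ∀ a ∈ O, f a ∈ O')
    [IsLocalHom (oMap f O O' hOO')]
    (hρ : Function.Bijective (IsLocalRing.ResidueField.map (oMap f O O' hOO')))
    (hN : IsUnit ((N : ℕ) : ↥O)) (hprime : (fibreIdeal K N O (Rfin K N O)).IsPrime)
    (hsmooth : IsDedekindDomain (↥(Rfin K N O) ⧸ fibreIdeal K N O (Rfin K N O)))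
    (ι₀ : K →+* ℂ) (hℓN : ¬ ℓ ∣ N)
    (hA2₀ : ∀ x : ↥(gaussSubalgebra K N O),
      theta K N O x ∈ modularFunctionFieldFullC (IsLocalRing.ResidueField ↥O) N)
    (hA2' : ∀ x : ↥(gaussSubalgebra K' N O'),
      theta K' N O' x ∈ modularFunctionFieldFullC (IsLocalRing.ResidueField ↥O') N)
    (S₂₀ : FibreTwo.SecondVal K N ℓ O) (S₂' : FibreTwo.SecondVal K' N ℓ O')
    (r : ↥(Rfin K' (N * ℓ) O')) :
    ∃ x₀ : ↥(Rfin K N O),
      ((finMap f (N * ℓ) O O' hOO' (betaR K N ℓ O x₀) - r : ↥(Rfin K' (N * ℓ) O')) :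
          FF K' (N * ℓ)) ∈ S₂'.V.nonunits := by
  have hrV : (r : FF K' (N * ℓ)) ∈ S₂'.V := SecondValBridge.Rfin_le_V K' N ℓ O' S₂' r.2
  obtain ⟨y, hy, hye⟩ := (SigmaFrob.mem_Rbar_iff (IsLocalRing.ResidueField ↥O') N _).1
    (SecondValBridge.ev_mem_RbarFin K' N ℓ O' S₂' hA2' r.2 hrV)
  obtain ⟨x₀, hx₀⟩ := exists_thetaFin_finMap_eq K K' f N ℓ O O' hOO' hρ hN hprime hsmooth ι₀ hℓN
    hA2₀ S₂₀ hy
  refine ⟨x₀, ?_⟩
  rw [finMap_betaR K K' f N ℓ O O' hOO' x₀]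
  have hx'G : ((finMap f N O O' hOO' x₀ : ↥(Rfin K' N O')) : FF K' N) ∈ gaussSubalgebra K' N O' :=
    chartAlg_le_gaussSubalgebra K' N O' (sFin_le_gauss K' N O') (finMap f N O O' hOO' x₀).2
  have hβV : betaF K' N ℓ ((finMap f N O O' hOO' x₀ : ↥(Rfin K' N O')) : FF K' N) ∈ S₂'.V :=
    S₂'.beta_mem _ hx'G
  have hmem : betaF K' N ℓ ((finMap f N O O' hOO' x₀ : ↥(Rfin K' N O')) : FF K' N) -
      (r : FF K' (N * ℓ)) ∈ S₂'.V := sub_mem hβV hrV
  show betaF K' N ℓ ((finMap f N O O' hOO' x₀ : ↥(Rfin K' N O')) : FF K' N) -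
      (r : FF K' (N * ℓ)) ∈ S₂'.V.nonunits
  refine (S₂'.ev_eq_zero_iff ⟨_, hmem⟩).1 ?_
  have e1 : (⟨betaF K' N ℓ ((finMap f N O O' hOO' x₀ : ↥(Rfin K' N O')) : FF K' N) -
      (r : FF K' (N * ℓ)), hmem⟩ : ↥S₂'.V) =
      ⟨betaF K' N ℓ ((finMap f N O O' hOO' x₀ : ↥(Rfin K' N O')) : FF K' N), hβV⟩ -
        ⟨(r : FF K' (N * ℓ)), hrV⟩ := Subtype.ext rfl
  rw [e1, map_sub, S₂'.ev_beta _ hx'G, ← hye, sub_eq_zero, ← hx₀, thetaFin_apply]

/-- **The `fibre₂` clause, finite chart, generic two-level form.** -/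
theorem exists_finMap_sub_mem_nonunits_secondVal (hOO' : ∀ a ∈ O, f a ∈ O')
    [IsLocalHom (oMap f O O' hOO')]
    (hρ : Function.Bijective (IsLocalRing.ResidueField.map (oMap f O O' hOO')))
    (hN : IsUnit ((N : ℕ) : ↥O)) (hprime : (fibreIdeal K N O (Rfin K N O)).IsPrime)
    (hsmooth : IsDedekindDomain (↥(Rfin K N O) ⧸ fibreIdeal K N O (Rfin K N O)))
    (ι₀ : K →+* ℂ) (hℓN : ¬ ℓ ∣ N)
    (hA2₀ : ∀ x : ↥(gaussSubalgebra K N O),
      theta K N O x ∈ modularFunctionFieldFullC (IsLocalRing.ResidueField ↥O) N)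
    (hA2' : ∀ x : ↥(gaussSubalgebra K' N O'),
      theta K' N O' x ∈ modularFunctionFieldFullC (IsLocalRing.ResidueField ↥O') N)
    (S₂₀ : FibreTwo.SecondVal K N ℓ O) (S₂' : FibreTwo.SecondVal K' N ℓ O')
    (r : ↥(Rfin K' (N * ℓ) O')) :
    ∃ r₀ : ↥(Rfin K (N * ℓ) O),
      ((finMap f (N * ℓ) O O' hOO' r₀ - r : ↥(Rfin K' (N * ℓ) O')) : FF K' (N * ℓ)) ∈
        S₂'.V.nonunits := by
  obtain ⟨x₀, hx₀⟩ := exists_beta_sub_mem_nonunits_secondVal K K' f N ℓ O O' hOO' hρ hN hprime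
    hsmooth ι₀ hℓN hA2₀ hA2' S₂₀ S₂' r
  exact ⟨betaR K N ℓ O x₀, hx₀⟩

/-- The `α`-twin for the Gauss valuation: `r₀ = α x₀` in helper9's `fibre` clause. -/
theorem exists_alpha_sub_mem_nonunits_gaussVS (hOO' : ∀ a ∈ O, f a ∈ O')
    [IsLocalHom (oMap f O O' hOO')]
    (hρ : Function.Bijective (IsLocalRing.ResidueField.map (oMap f O O' hOO')))
    (hN : IsUnit ((N : ℕ) : ↥O)) (hprime : (fibreIdeal K N O (Rfin K N O)).IsPrime)
    (hsmooth : IsDedekindDomain (↥(Rfin K N O) ⧸ fibreIdeal K N O (Rfin K N O)))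
    (ι₀ : K →+* ℂ) (ι' : K' →+* ℂ) (hℓN : ¬ ℓ ∣ N)
    (hA2₀ : ∀ x : ↥(gaussSubalgebra K N O),
      theta K N O x ∈ modularFunctionFieldFullC (IsLocalRing.ResidueField ↥O) N)
    (hA2' : ∀ x : ↥(gaussSubalgebra K' N O'),
      theta K' N O' x ∈ modularFunctionFieldFullC (IsLocalRing.ResidueField ↥O') N)
    (S₂₀ : FibreTwo.SecondVal K N ℓ O) (S₂' : FibreTwo.SecondVal K' N ℓ O')
    (r : ↥(Rfin K' (N * ℓ) O')) :
    ∃ x₀ : ↥(Rfin K N O),
      ((finMap f (N * ℓ) O O' hOO' (alphaR K N ℓ O x₀) - r : ↥(Rfin K' (N * ℓ) O')) :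
          FF K' (N * ℓ)) ∈ (gaussVS K' (N * ℓ) O').nonunits := by
  have hrG : (r : FF K' (N * ℓ)) ∈ gaussSubalgebra K' (N * ℓ) O' :=
    chartAlg_le_gaussSubalgebra K' (N * ℓ) O' (sFin_le_gauss K' (N * ℓ) O') r.2
  obtain ⟨y, hy, hye⟩ := (SigmaFrob.mem_Rbar_iff (IsLocalRing.ResidueField ↥O') N _).1
    (SecondValBridge.theta_mem_RbarFin K' N ℓ O' S₂' ι' hℓN hA2' r.2 hrG)
  obtain ⟨x₀, hx₀⟩ := exists_thetaFin_finMap_eq K K' f N ℓ O O' hOO' hρ hN hprime hsmooth ι₀ hℓN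
    hA2₀ S₂₀ hy
  refine ⟨x₀, ?_⟩
  rw [finMap_alphaR K K' f N ℓ O O' hOO' x₀]
  have hx'G : ((finMap f N O O' hOO' x₀ : ↥(Rfin K' N O')) : FF K' N) ∈ gaussSubalgebra K' N O' :=
    chartAlg_le_gaussSubalgebra K' N O' (sFin_le_gauss K' N O') (finMap f N O O' hOO' x₀).2
  have hαG : alphaF K' N ℓ ((finMap f N O O' hOO' x₀ : ↥(Rfin K' N O')) : FF K' N) ∈
      gaussSubalgebra K' (N * ℓ) O' := alphaF_mem K' O' N ℓ hx'G
  have hmem : alphaF K' N ℓ ((finMap f N O O' hOO' x₀ : ↥(Rfin K' N O')) : FF K' N) -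
      (r : FF K' (N * ℓ)) ∈ gaussSubalgebra K' (N * ℓ) O' :=
    (gaussSubalgebra K' (N * ℓ) O').sub_mem hαG hrG
  show alphaF K' N ℓ ((finMap f N O O' hOO' x₀ : ↥(Rfin K' N O')) : FF K' N) -
      (r : FF K' (N * ℓ)) ∈ (gaussVS K' (N * ℓ) O').nonunits
  rw [FibreTwo.mem_nonunits_gaussVS_iff K' (N * ℓ) O' hmem]
  have e1 : (⟨alphaF K' N ℓ ((finMap f N O O' hOO' x₀ : ↥(Rfin K' N O')) : FF K' N) -
      (r : FF K' (N * ℓ)), hmem⟩ : ↥(gaussSubalgebra K' (N * ℓ) O')) =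
      ⟨alphaF K' N ℓ ((finMap f N O O' hOO' x₀ : ↥(Rfin K' N O')) : FF K' N), hαG⟩ -
        ⟨(r : FF K' (N * ℓ)), hrG⟩ := Subtype.ext rfl
  rw [e1, map_sub, theta_alphaF K' O' N ℓ ⟨_, hx'G⟩, ← hye, sub_eq_zero, ← hx₀, thetaFin_apply]

end Generic

/-! ### Two levels `K₁ ≤ L` of `Q̄` -/

section Levels

open Fermat.Agent.N4F.C.Levels Fermat.Agent.N4F.C.LevelCharts Fermat.Agent.N4F.C.ChartFactsProof

variable (A : ValuationSubring Qb) {K₁ L : IntermediateField ℚ Qb} (hKL : K₁ ≤ L)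
  [IsDiscreteValuationRing ↥(baseRing A K₁)] [IsDiscreteValuationRing ↥(baseRing A L)]
  (N : ℕ) [NeZero N] (p : ℕ) [Fact p.Prime]
  [IsFractionRing ↥(baseRing A K₁) (Lvl K₁)] [IsFractionRing ↥(baseRing A L) (Lvl L)]
  [CharP (IsLocalRing.ResidueField ↥(baseRing A K₁)) p]
  [PerfectRing (IsLocalRing.ResidueField ↥(baseRing A K₁)) p]
  [CharP (IsLocalRing.ResidueField ↥(baseRing A L)) p]
  [PerfectRing (IsLocalRing.ResidueField ↥(baseRing A L)) p]

/-- **The `fibre₂` clause for two levels `K₁ ≤ L` of `Q̄` with residue fields `κ(A)`**, finite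
chart, with `r₀ = β x₀`.  (`h₁`, `h₂`, `hN`, `hprime`, `hsmooth` are the fields `hbij`, `hN`,
`primeFin`, `dedFin` of `ChartFactsProof.LevelPack A N ·`.) -/
theorem exists_finIncl_beta_sub_mem_nonunits_secondVal
    (h₁ : Function.Bijective (IsLocalRing.ResidueField.map (baseIncl A K₁)))
    (h₂ : Function.Bijective (IsLocalRing.ResidueField.map (baseIncl A L)))
    (hN : IsUnit ((N : ℕ) : ↥(baseRing A K₁)))
    (hprime : (fibreIdeal (Lvl K₁) N (baseRing A K₁) (Rfin (Lvl K₁) N (baseRing A K₁))).IsPrime)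
    (hsmooth : IsDedekindDomain (↥(Rfin (Lvl K₁) N (baseRing A K₁)) ⧸
      fibreIdeal (Lvl K₁) N (baseRing A K₁) (Rfin (Lvl K₁) N (baseRing A K₁))))
    (ι₁ : Lvl K₁ →+* ℂ) (hpN : ¬ p ∣ N)
    (hA2₁ : ∀ x : ↥(gaussSubalgebra (Lvl K₁) N (baseRing A K₁)),
      theta (Lvl K₁) N (baseRing A K₁) x ∈
        modularFunctionFieldFullC (IsLocalRing.ResidueField ↥(baseRing A K₁)) N)
    (hA2₂ : ∀ x : ↥(gaussSubalgebra (Lvl L) N (baseRing A L)),
      theta (Lvl L) N (baseRing A L) x ∈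
        modularFunctionFieldFullC (IsLocalRing.ResidueField ↥(baseRing A L)) N)
    (S₁ : FibreTwo.SecondVal (Lvl K₁) N p (baseRing A K₁))
    (S₂ : FibreTwo.SecondVal (Lvl L) N p (baseRing A L))
    (r : ↥(Rfin (Lvl L) (N * p) (baseRing A L))) :
    ∃ x₀ : ↥(Rfin (Lvl K₁) N (baseRing A K₁)),
      ((finIncl A (N * p) hKL (betaR (Lvl K₁) N p (baseRing A K₁) x₀) - r :
          ↥(Rfin (Lvl L) (N * p) (baseRing A L))) : FF (Lvl L) (N * p)) ∈ S₂.V.nonunits := by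
  haveI := isLocalHom_baseMapIncl A hKL
  exact exists_beta_sub_mem_nonunits_secondVal (Lvl K₁) (Lvl L) (lvlIncl hKL) N p (baseRing A K₁)
    (baseRing A L) (lvlIncl_mem A hKL) (bijective_map_baseMapIncl A hKL h₁ h₂) hN hprime hsmooth
    ι₁ hpN hA2₁ hA2₂ S₁ S₂ r

/-- **The `fibre₂` clause for two levels `K₁ ≤ L` of `Q̄` with residue fields `κ(A)`**, finite
chart. -/
theorem exists_finIncl_sub_mem_nonunits_secondVal
    (h₁ : Function.Bijective (IsLocalRing.ResidueField.map (baseIncl A K₁)))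
    (h₂ : Function.Bijective (IsLocalRing.ResidueField.map (baseIncl A L)))
    (hN : IsUnit ((N : ℕ) : ↥(baseRing A K₁)))
    (hprime : (fibreIdeal (Lvl K₁) N (baseRing A K₁) (Rfin (Lvl K₁) N (baseRing A K₁))).IsPrime)
    (hsmooth : IsDedekindDomain (↥(Rfin (Lvl K₁) N (baseRing A K₁)) ⧸
      fibreIdeal (Lvl K₁) N (baseRing A K₁) (Rfin (Lvl K₁) N (baseRing A K₁))))
    (ι₁ : Lvl K₁ →+* ℂ) (hpN : ¬ p ∣ N)
    (hA2₁ : ∀ x : ↥(gaussSubalgebra (Lvl K₁) N (baseRing A K₁)),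
      theta (Lvl K₁) N (baseRing A K₁) x ∈
        modularFunctionFieldFullC (IsLocalRing.ResidueField ↥(baseRing A K₁)) N)
    (hA2₂ : ∀ x : ↥(gaussSubalgebra (Lvl L) N (baseRing A L)),
      theta (Lvl L) N (baseRing A L) x ∈
        modularFunctionFieldFullC (IsLocalRing.ResidueField ↥(baseRing A L)) N)
    (S₁ : FibreTwo.SecondVal (Lvl K₁) N p (baseRing A K₁))
    (S₂ : FibreTwo.SecondVal (Lvl L) N p (baseRing A L))
    (r : ↥(Rfin (Lvl L) (N * p) (baseRing A L))) :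
    ∃ r₀ : ↥(Rfin (Lvl K₁) (N * p) (baseRing A K₁)),
      ((finIncl A (N * p) hKL r₀ - r : ↥(Rfin (Lvl L) (N * p) (baseRing A L))) :
          FF (Lvl L) (N * p)) ∈ S₂.V.nonunits := by
  obtain ⟨x₀, hx₀⟩ := exists_finIncl_beta_sub_mem_nonunits_secondVal A hKL N p h₁ h₂ hN hprime
    hsmooth ι₁ hpN hA2₁ hA2₂ S₁ S₂ r
  exact ⟨betaR (Lvl K₁) N p (baseRing A K₁) x₀, hx₀⟩

/-- The `α`-twin for the Gauss valuation, levels `K₁ ≤ L` of `Q̄`. -/
theorem exists_finIncl_alpha_sub_mem_nonunits_gaussVS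
    (h₁ : Function.Bijective (IsLocalRing.ResidueField.map (baseIncl A K₁)))
    (h₂ : Function.Bijective (IsLocalRing.ResidueField.map (baseIncl A L)))
    (hN : IsUnit ((N : ℕ) : ↥(baseRing A K₁)))
    (hprime : (fibreIdeal (Lvl K₁) N (baseRing A K₁) (Rfin (Lvl K₁) N (baseRing A K₁))).IsPrime)
    (hsmooth : IsDedekindDomain (↥(Rfin (Lvl K₁) N (baseRing A K₁)) ⧸
      fibreIdeal (Lvl K₁) N (baseRing A K₁) (Rfin (Lvl K₁) N (baseRing A K₁))))
    (ι₁ : Lvl K₁ →+* ℂ) (ι₂ : Lvl L →+* ℂ) (hpN : ¬ p ∣ N)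
    (hA2₁ : ∀ x : ↥(gaussSubalgebra (Lvl K₁) N (baseRing A K₁)),
      theta (Lvl K₁) N (baseRing A K₁) x ∈
        modularFunctionFieldFullC (IsLocalRing.ResidueField ↥(baseRing A K₁)) N)
    (hA2₂ : ∀ x : ↥(gaussSubalgebra (Lvl L) N (baseRing A L)),
      theta (Lvl L) N (baseRing A L) x ∈
        modularFunctionFieldFullC (IsLocalRing.ResidueField ↥(baseRing A L)) N)
    (S₁ : FibreTwo.SecondVal (Lvl K₁) N p (baseRing A K₁))
    (S₂ : FibreTwo.SecondVal (Lvl L) N p (baseRing A L))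
    (r : ↥(Rfin (Lvl L) (N * p) (baseRing A L))) :
    ∃ x₀ : ↥(Rfin (Lvl K₁) N (baseRing A K₁)),
      ((finIncl A (N * p) hKL (alphaR (Lvl K₁) N p (baseRing A K₁) x₀) - r :
          ↥(Rfin (Lvl L) (N * p) (baseRing A L))) : FF (Lvl L) (N * p)) ∈
        (gaussVS (Lvl L) (N * p) (baseRing A L)).nonunits := by
  haveI := isLocalHom_baseMapIncl A hKL
  exact exists_alpha_sub_mem_nonunits_gaussVS (Lvl K₁) (Lvl L) (lvlIncl hKL) N p (baseRing A K₁)
    (baseRing A L) (lvlIncl_mem A hKL) (bijective_map_baseMapIncl A hKL h₁ h₂) hN hprime hsmooth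
    ι₁ ι₂ hpN hA2₁ hA2₂ S₁ S₂ r

end Levels

end Fermat.Agent.S40.M1.FibreSecond
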