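/-
S40 / S44 (row 38), block [M1]/T6′, leaf **M1-THICK (3)** (helper18; statement of helper25): **the
factorisation at a crossing point, abstract in a residue order `μ`.**

Setting of `P3G/UCrit` (two vertical valuation rings, as in `S40/M4/LGUnit`): `O` a discrete valuation
ring with uniformiser `ϖ`, `K = Frac O`, `F ⊇ K` the function field, `R` a chart (noetherian integrally
closed domain over `O`, `Frac R = F`), `V₁ V₂ ⊇ R` the two vertical valuation rings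
(`𝔪_{V₁} ∩ 𝔪_{V₂} ∩ R = ϖ R`), `𝔫` a prime of `R` through which `V₂` passes.

A *residue order* along `V₁` at `𝔫` is a function `μ : F → ℤ` which is additive on the units of `V₁`,
vanishes on `R ∖ 𝔫` and is positive on the `V₁`-units of `𝔫` (in the applications
`μ x = ord_s (reduction of x along V₁)`, `s` the point of the first branch at `𝔫`).

* `exists_mul_eq_of_valuation_le` : the membership criterion for `R_𝔫` (normality), two valuations;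
* `isUnitAt_of_mu_eq_zero` : a `V₁`-unit without zero or pole centred at `𝔫` and with `μ = 0` is a unit
  of `R_𝔫` (in particular a unit of `V₂`);
* ★ `exists_zpow_mul_isUnitAt` : if `u` is such an element with `μ u = 1` (a node coordinate), every
  `V₁`-unit `g` without zero or pole centred at `𝔫` is `g = u ^ (μ g) · W`, `W` a unit of `R_𝔫`, and
  `v₂(g) = v₂(u) ^ (μ g)` (**the slope formula**);
* `exists_factor_of_localEqs`, `exists_factor_of_unit` : the factorisation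
  `f = ϖ ^ n₁ · u ^ n · b ^ p · W` of a function whose divisor is a `p`-th multiple near `𝔫`, from local
  equations (Loc-P) of its points centred at `𝔫`; for a `V₁`-unit `f`: `f = u ^ n · b ^ p · W` with `b` a
  unit of `V₁` and `n = μ f - p μ b`.
-/
import Mathlib
import Fermat.Agent.S40.M4.LGUnit

set_option autoImplicit false
set_option linter.unusedSectionVars false
set_option linter.dupNamespace false
set_option linter.style.haveILetI false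
set_option linter.style.longLine false

open AlgebraicCurve

noncomputable section

namespace Fermat.Agent.S40.M1.NodeFactor

open Fermat.Agent.P4.TwistRoots Fermat.Agent.P3G.UCrit Fermat.Agent.P3G.SecondDiff
  Fermat.Agent.P3G.KrullChart
open Fermat.Agent.P3G.LocalRootsAt (fam)

/-! ### Residue orders -/

section Mu

variable {F : Type*} [Field F] (V₁ : ValuationSubring F) (μ : F → ℤ)

/-- `μ` is additive on the units of `V₁`. -/
def MuMul : Prop :=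
  ∀ x y : F, V₁.valuation x = 1 → V₁.valuation y = 1 → μ (x * y) = μ x + μ y

variable {V₁ μ}

theorem MuMul.mu_one (h : MuMul V₁ μ) : μ 1 = 0 := by
  have h1 := h 1 1 (map_one _) (map_one _)
  rw [mul_one] at h1
  omega

theorem ne_zero_of_valuation_eq_one {x : F} (hx : V₁.valuation x = 1) : x ≠ 0 := by
  rintro rfl
  rw [map_zero] at hx
  exact zero_ne_one hx

theorem MuMul.mu_inv (h : MuMul V₁ μ) {x : F} (hx : V₁.valuation x = 1) : μ x⁻¹ = -μ x := by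
  have hx0 := ne_zero_of_valuation_eq_one hx
  have h1 := h x x⁻¹ hx (by rw [map_inv₀, hx, inv_one])
  rw [mul_inv_cancel₀ hx0, h.mu_one] at h1
  omega

theorem MuMul.mu_pow (h : MuMul V₁ μ) {x : F} (hx : V₁.valuation x = 1) (n : ℕ) :
    μ (x ^ n) = n * μ x := by
  induction n with
  | zero => rw [pow_zero, h.mu_one]; simp
  | succ n ih =>
    rw [pow_succ, h _ _ (by rw [map_pow, hx, one_pow]) hx, ih]
    push_cast
    ring

theorem MuMul.mu_zpow (h : MuMul V₁ μ) {x : F} (hx : V₁.valuation x = 1) (n : ℤ) :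
    μ (x ^ n) = n * μ x := by
  obtain ⟨k, rfl | rfl⟩ := n.eq_nat_or_neg
  · rw [zpow_natCast, h.mu_pow hx]
  · rw [zpow_neg, zpow_natCast, h.mu_inv (by rw [map_pow, hx, one_pow]), h.mu_pow hx]
    ring

theorem MuMul.mu_div (h : MuMul V₁ μ) {x y : F} (hx : V₁.valuation x = 1)
    (hy : V₁.valuation y = 1) : μ (x / y) = μ x - μ y := by
  rw [div_eq_mul_inv, h _ _ hx (by rw [map_inv₀, hy, inv_one]), h.mu_inv hy]
  ring

end Mu

/-- The uniformiser does not vanish in `F`. -/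
theorem algebraMap_unif_ne_zero {O : Type*} (K : Type*) {F : Type*} [CommRing O] [IsDomain O]
    [Field K] [Algebra O K] [IsFractionRing O K] [Field F] [Algebra K F] [Algebra O F]
    [IsScalarTower O K F] {ϖ : O} (hϖ : Irreducible ϖ) : algebraMap O F ϖ ≠ 0 := by
  intro h0
  have hc : algebraMap O K ϖ ≠ 0 := fun h0' =>
    hϖ.ne_zero (IsFractionRing.injective O K (by rw [h0', map_zero]))
  rw [IsScalarTower.algebraMap_apply O K F] at h0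
  exact hc ((map_eq_zero _).1 h0)

/-! ### The node factorisation -/

section Main

variable {O K F R : Type*}
  [CommRing O] [IsDomain O] [IsDiscreteValuationRing O]
  [Field K] [Algebra O K] [IsFractionRing O K]
  [Field F] [Algebra K F] [Algebra O F] [IsScalarTower O K F]
  [CommRing R] [IsDomain R] [IsNoetherianRing R] [IsIntegrallyClosed R]
  [Algebra R F] [IsFractionRing R F] [Algebra O R] [IsScalarTower O R F]

variable (V₁ V₂ : ValuationSubring F)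
  (hV₁ : ∀ r : R, algebraMap R F r ∈ V₁) (hV₂ : ∀ r : R, algebraMap R F r ∈ V₂)
  {ϖ : O} (hϖ : Irreducible ϖ)
  (hϖ₁ : algebraMap O F ϖ ∈ V₁.nonunits) (hϖ₂ : algebraMap O F ϖ ∈ V₂.nonunits)
  (hsat : ∀ r : R, algebraMap R F r ∈ V₁.nonunits → algebraMap R F r ∈ V₂.nonunits →
    algebraMap O R ϖ ∣ r)
  (𝔫 : Ideal R) [h𝔫 : 𝔫.IsPrime]

include hV₁ hV₂ hϖ hϖ₁ hϖ₂ hsat in
/-- **The membership criterion for `R_𝔫`** (normality of the chart), two vertical valuations: an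
element of `V₁ ∩ V₂` without pole centred at `𝔫` is a fraction `a / r`, `r ∉ 𝔫`. -/
theorem exists_mul_eq_of_valuation_le {x : F} (hx0 : x ≠ 0)
    (hx₁ : V₁.valuation x ≤ 1) (hx₂ : V₂.valuation x ≤ 1)
    (hxC : ∀ Q ∈ centredSet K 𝔫, 0 ≤ Q.ord x) :
    ∃ a r : R, r ∉ 𝔫 ∧ x * algebraMap R F r = algebraMap R F a := by
  have hV : ∀ (i : Bool) (r : R), algebraMap R F r ∈ fam V₁ V₂ i := by
    intro i r; cases i
    · exact hV₂ r
    · exact hV₁ r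
  have hϖV : ∀ i : Bool, algebraMap R F (algebraMap O R ϖ) ∈ (fam V₁ V₂ i).nonunits := by
    intro i
    rw [← IsScalarTower.algebraMap_apply]
    cases i
    · exact hϖ₂
    · exact hϖ₁
  have hsat' : ∀ r : R, (∀ i : Bool, algebraMap R F r ∈ (fam V₁ V₂ i).nonunits) →
      algebraMap O R ϖ ∣ r := fun r hr => hsat r (hr true) (hr false)
  exact exists_mul_eq_of_valuationSubrings_at (K := K) hϖ (fam V₁ V₂) hV hϖV hsat' 𝔫 x
    (fun i _ => by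
      cases i
      · exact (V₂.valuation_le_one_iff _).1 hx₂
      · exact (V₁.valuation_le_one_iff _).1 hx₁)
    (fun v h1 h2 => (Fermat.Agent.S24.PlaceExtend.mem_iff_ord_nonneg v hx0).2 (hxC v ⟨h1, h2⟩))

variable (μ : F → ℤ)

include hV₁ hV₂ hϖ hϖ₁ hϖ₂ hsat in
/-- A `V₁`-unit without zero or pole centred at `𝔫` and of residue order `0` does not vanish on the
second branch. -/
theorem not_valuation_lt_one_of_mu_eq_zero (ht₁ : Through V₁ 𝔫) (ht₂ : Through V₂ 𝔫)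
    (hμmul : MuMul V₁ μ)
    (hμpos : ∀ r : R, r ∈ 𝔫 → V₁.valuation (algebraMap R F r) = 1 → 0 < μ (algebraMap R F r))
    (hμunit : ∀ r : R, r ∉ 𝔫 → μ (algebraMap R F r) = 0)
    {g : F} (hg0 : g ≠ 0) (hg₁ : V₁.valuation g = 1)
    (hgQ : ∀ Q ∈ centredSet K 𝔫, Q.ord g = 0) (hμg : μ g = 0) : ¬ V₂.valuation g < 1 := by
  intro hlt
  obtain ⟨a, r, hr, har⟩ := exists_mul_eq_of_valuation_le (K := K) V₁ V₂ hV₁ hV₂ hϖ hϖ₁ hϖ₂ hsat 𝔫
    hg0 hg₁.le hlt.le (fun Q hQ => (hgQ Q hQ).ge)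
  have hr₂ : V₂.valuation (algebraMap R F r) = 1 := valuation_eq_one_of_notMem hV₂ ht₂ hr
  have hr₁ : V₁.valuation (algebraMap R F r) = 1 := valuation_eq_one_of_notMem hV₁ ht₁ hr
  have ha₂ : V₂.valuation (algebraMap R F a) < 1 := by
    rw [← har, map_mul, hr₂, mul_one]; exact hlt
  have ha𝔫 : a ∈ 𝔫 := ht₂ a ((V₂.mem_nonunits_iff).2 ha₂)
  have ha₁ : V₁.valuation (algebraMap R F a) = 1 := by
    rw [← har, map_mul, hg₁, hr₁, mul_one]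
  have h1 := hμpos a ha𝔫 ha₁
  rw [← har, hμmul _ _ hg₁ hr₁, hμg, hμunit r hr] at h1
  omega

include hV₁ hV₂ hϖ hϖ₁ hϖ₂ hsat in
/-- **A `V₁`-unit without zero or pole centred at the crossing point `𝔫` and of residue order `0` is a
unit of `R_𝔫`.** -/
theorem isUnitAt_of_mu_eq_zero (ht₁ : Through V₁ 𝔫) (ht₂ : Through V₂ 𝔫)
    (hμmul : MuMul V₁ μ)
    (hμpos : ∀ r : R, r ∈ 𝔫 → V₁.valuation (algebraMap R F r) = 1 → 0 < μ (algebraMap R F r))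
    (hμunit : ∀ r : R, r ∉ 𝔫 → μ (algebraMap R F r) = 0)
    {g : F} (hg0 : g ≠ 0) (hg₁ : V₁.valuation g = 1)
    (hgQ : ∀ Q ∈ centredSet K 𝔫, Q.ord g = 0) (hμg : μ g = 0) : IsUnitAt 𝔫 g := by
  have h1 := not_valuation_lt_one_of_mu_eq_zero (K := K) V₁ V₂ hV₁ hV₂ hϖ hϖ₁ hϖ₂ hsat 𝔫 μ ht₁ ht₂
    hμmul hμpos hμunit hg0 hg₁ hgQ hμg
  have h2 := not_valuation_lt_one_of_mu_eq_zero (K := K) V₁ V₂ hV₁ hV₂ hϖ hϖ₁ hϖ₂ hsat 𝔫 μ ht₁ ht₂
    hμmul hμpos hμunit (inv_ne_zero hg0) (by rw [map_inv₀, hg₁, inv_one])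
    (fun Q hQ => by rw [Q.ord_inv, hgQ Q hQ, neg_zero]) (by rw [hμmul.mu_inv hg₁, hμg, neg_zero])
  have hg₂ : V₂.valuation g = 1 := by
    have hv0 : V₂.valuation g ≠ 0 := (Valuation.ne_zero_iff _).2 hg0
    refine le_antisymm ?_ (not_lt.1 h1)
    rw [map_inv₀, not_lt, one_le_inv₀ (zero_lt_iff.2 hv0)] at h2
    exact h2
  exact Fermat.Agent.S40.M4.LGUnit.isUnitAt_of_ord_eq_zero (K := K) V₁ V₂ hV₁ hV₂ hϖ hϖ₁ hϖ₂ hsat 𝔫
    hg0 hgQ hg₁ hg₂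

include hV₁ hV₂ hϖ hϖ₁ hϖ₂ hsat in
/-- ★ **The factorisation at a crossing point / the slope formula.**  Let `u` be a `V₁`-unit without
zero or pole centred at `𝔫` with residue order `μ u = 1` (a node coordinate vanishing on the second
branch).  Every `V₁`-unit `g` without zero or pole centred at `𝔫` is `g = u ^ (μ g) · W` with `W` a unit
of `R_𝔫`; in particular `v₂(g) = v₂(u) ^ (μ g)`. -/
theorem exists_zpow_mul_isUnitAt (ht₁ : Through V₁ 𝔫) (ht₂ : Through V₂ 𝔫)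
    (hμmul : MuMul V₁ μ)
    (hμpos : ∀ r : R, r ∈ 𝔫 → V₁.valuation (algebraMap R F r) = 1 → 0 < μ (algebraMap R F r))
    (hμunit : ∀ r : R, r ∉ 𝔫 → μ (algebraMap R F r) = 0)
    {u : F} (hu₁ : V₁.valuation u = 1) (huQ : ∀ Q ∈ centredSet K 𝔫, Q.ord u = 0) (huμ : μ u = 1)
    {g : F} (hg0 : g ≠ 0) (hg₁ : V₁.valuation g = 1)
    (hgQ : ∀ Q ∈ centredSet K 𝔫, Q.ord g = 0) :
    ∃ W : F, IsUnitAt 𝔫 W ∧ g = u ^ μ g * W ∧ V₂.valuation g = V₂.valuation u ^ μ g := by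
  have hu0 : u ≠ 0 := ne_zero_of_valuation_eq_one hu₁
  have hum0 : u ^ μ g ≠ 0 := zpow_ne_zero _ hu0
  have hum₁ : V₁.valuation (u ^ μ g) = 1 := by rw [map_zpow₀, hu₁, one_zpow]
  have hW0 : g / u ^ μ g ≠ 0 := div_ne_zero hg0 hum0
  have hW₁ : V₁.valuation (g / u ^ μ g) = 1 := by rw [map_div₀, hg₁, hum₁, div_one]
  have hWQ : ∀ Q ∈ centredSet K 𝔫, Q.ord (g / u ^ μ g) = 0 := by
    intro Q hQ
    rw [div_eq_mul_inv, Q.ord_mul hg0 (inv_ne_zero hum0), Q.ord_inv, Q.ord_zpow, hgQ Q hQ,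
      huQ Q hQ]
    ring
  have hWμ : μ (g / u ^ μ g) = 0 := by
    rw [hμmul.mu_div hg₁ hum₁, hμmul.mu_zpow hu₁, huμ]
    ring
  have hW := isUnitAt_of_mu_eq_zero (K := K) V₁ V₂ hV₁ hV₂ hϖ hϖ₁ hϖ₂ hsat 𝔫 μ ht₁ ht₂
    hμmul hμpos hμunit hW0 hW₁ hWQ hWμ
  have hg : g = u ^ μ g * (g / u ^ μ g) := by field_simp
  refine ⟨g / u ^ μ g, hW, hg, ?_⟩
  have h1 := congrArg V₂.valuation hg
  rw [map_mul, hW.valuation_eq_one hV₂ ht₂, mul_one, map_zpow₀] at h1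
  exact h1

include hV₁ hV₂ hϖ hϖ₁ hϖ₂ hsat in
/-- **The local factorisation at a crossing point** of a function `f` whose divisor is `p D` near `𝔫`,
from local equations (Loc-P) `b P` of the points of `D` centred at `𝔫`:
`f = ϖ ^ n₁ · u ^ n · β ^ p · W` with `β` a unit of `V₁` with `ord_Q β = D Q` at the places centred at
`𝔫`, `W` a unit of `R_𝔫`, and `n = μ (f / (ϖ ^ n₁ β ^ p))`. -/
theorem exists_factor_of_localEqs (ht₁ : Through V₁ 𝔫) (ht₂ : Through V₂ 𝔫)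
    (hdisc₁ : ∀ b : F, b ≠ 0 → ∃ n : ℤ, V₁.valuation b = V₁.valuation (algebraMap O F ϖ) ^ n)
    (hμmul : MuMul V₁ μ)
    (hμpos : ∀ r : R, r ∈ 𝔫 → V₁.valuation (algebraMap R F r) = 1 → 0 < μ (algebraMap R F r))
    (hμunit : ∀ r : R, r ∉ 𝔫 → μ (algebraMap R F r) = 0)
    {u : F} (hu₁ : V₁.valuation u = 1) (huQ : ∀ Q ∈ centredSet K 𝔫, Q.ord u = 0) (huμ : μ u = 1)
    {f : F} (hf0 : f ≠ 0) (p : ℕ) (D : Place K F → ℤ)
    (hfD : ∀ Q ∈ centredSet K 𝔫, Q.ord f = p * D Q)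
    (S : Finset (Place K F)) (hS : ∀ Q ∈ centredSet K 𝔫, Q ∉ S → D Q = 0)
    (b : Place K F → F) (hb0 : ∀ P ∈ S, b P ≠ 0) (hb1 : ∀ P ∈ S, P.ord (b P) = 1)
    (hb2 : ∀ P ∈ S, ∀ Q ∈ centredSet K 𝔫, Q ≠ P → Q.ord (b P) = 0) :
    ∃ (n₁ : ℤ) (β W : F), β ≠ 0 ∧ V₁.valuation β = 1 ∧
      (∀ Q ∈ centredSet K 𝔫, Q.ord β = D Q) ∧ IsUnitAt 𝔫 W ∧
      V₁.valuation f = V₁.valuation (algebraMap O F ϖ) ^ n₁ ∧
      f = algebraMap O F ϖ ^ n₁ * u ^ μ (f / (algebraMap O F ϖ ^ n₁ * β ^ p)) * β ^ p * W := by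
  classical
  have hϖF0 : algebraMap O F ϖ ≠ 0 := algebraMap_unif_ne_zero K hϖ
  have hv₁0 : V₁.valuation (algebraMap O F ϖ) ≠ 0 := (Valuation.ne_zero_iff _).2 hϖF0
  have hϖQ : ∀ (Q : Place K F) (n : ℤ), Q.ord (algebraMap O F ϖ ^ n) = 0 := by
    intro Q n
    rw [Q.ord_zpow, Fermat.Agent.S40.M4.LGUnit.ord_algebraMap_base' Q hϖ.ne_zero, mul_zero]
  -- the product of the local equations
  set β₀ : F := ∏ P ∈ S, b P ^ D P with hβ₀
  have hβ₀0 : β₀ ≠ 0 := Finset.prod_ne_zero_iff.2 fun P hP => zpow_ne_zero _ (hb0 P hP)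
  have hβ₀Q : ∀ Q ∈ centredSet K 𝔫, Q.ord β₀ = D Q := fun Q hQ =>
    Fermat.Agent.S40.M4.LGUnit.ord_prod_zpow_localEqs 𝔫 S D hS b hb0 hb1 hb2 hQ
  obtain ⟨k, hk⟩ := hdisc₁ β₀ hβ₀0
  -- normalise to a unit of `V₁`
  set β : F := β₀ * algebraMap O F ϖ ^ (-k) with hβ
  have hβ0 : β ≠ 0 := mul_ne_zero hβ₀0 (zpow_ne_zero _ hϖF0)
  have hβ₁ : V₁.valuation β = 1 := by
    rw [hβ, map_mul, hk, map_zpow₀, ← zpow_add₀ hv₁0, add_neg_cancel, zpow_zero]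
  have hβQ : ∀ Q ∈ centredSet K 𝔫, Q.ord β = D Q := by
    intro Q hQ
    rw [hβ, Q.ord_mul hβ₀0 (zpow_ne_zero _ hϖF0), hβ₀Q Q hQ, hϖQ, add_zero]
  obtain ⟨n₁, hn₁⟩ := hdisc₁ f hf0
  have hden0 : algebraMap O F ϖ ^ n₁ * β ^ p ≠ 0 :=
    mul_ne_zero (zpow_ne_zero _ hϖF0) (pow_ne_zero _ hβ0)
  set g : F := f / (algebraMap O F ϖ ^ n₁ * β ^ p) with hg
  have hg0 : g ≠ 0 := div_ne_zero hf0 hden0
  have hg₁ : V₁.valuation g = 1 := by
    rw [hg, map_div₀, map_mul, map_pow, hβ₁, one_pow, mul_one, map_zpow₀, hn₁]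
    exact div_self (zpow_ne_zero _ hv₁0)
  have hgQ : ∀ Q ∈ centredSet K 𝔫, Q.ord g = 0 := by
    intro Q hQ
    rw [hg, div_eq_mul_inv, Q.ord_mul hf0 (inv_ne_zero hden0), Q.ord_inv,
      Q.ord_mul (zpow_ne_zero _ hϖF0) (pow_ne_zero _ hβ0), hϖQ, hfD Q hQ, zero_add,
      ← zpow_natCast, Q.ord_zpow, hβQ Q hQ]
    ring
  obtain ⟨W, hW, hgW, -⟩ := exists_zpow_mul_isUnitAt (K := K) V₁ V₂ hV₁ hV₂ hϖ hϖ₁ hϖ₂ hsat 𝔫 μ
    ht₁ ht₂ hμmul hμpos hμunit hu₁ huQ huμ hg0 hg₁ hgQ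
  refine ⟨n₁, β, W, hβ0, hβ₁, hβQ, hW, hn₁, ?_⟩
  have h1 : f = algebraMap O F ϖ ^ n₁ * β ^ p * g := by
    rw [hg]; field_simp
  calc f = algebraMap O F ϖ ^ n₁ * β ^ p * g := h1
    _ = algebraMap O F ϖ ^ n₁ * β ^ p * (u ^ μ g * W) :=
        congrArg (fun t => algebraMap O F ϖ ^ n₁ * β ^ p * t) hgW
    _ = algebraMap O F ϖ ^ n₁ * u ^ μ g * β ^ p * W := by ring

include hV₁ hV₂ hϖ hϖ₁ hϖ₂ hsat in
/-- **The local factorisation of a `V₁`-unit at a crossing point**: `f = u ^ n · β ^ p · W` with `β` a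
unit of `V₁`, `ord_Q β = D Q` at the places centred at `𝔫`, `W` a unit of `R_𝔫` and
`n = μ f - p · μ β`; moreover `v₂(f) = v₂(u) ^ n · v₂(β) ^ p`. -/
theorem exists_factor_of_unit (ht₁ : Through V₁ 𝔫) (ht₂ : Through V₂ 𝔫)
    (hdisc₁ : ∀ b : F, b ≠ 0 → ∃ n : ℤ, V₁.valuation b = V₁.valuation (algebraMap O F ϖ) ^ n)
    (hμmul : MuMul V₁ μ)
    (hμpos : ∀ r : R, r ∈ 𝔫 → V₁.valuation (algebraMap R F r) = 1 → 0 < μ (algebraMap R F r))
    (hμunit : ∀ r : R, r ∉ 𝔫 → μ (algebraMap R F r) = 0)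
    {u : F} (hu₁ : V₁.valuation u = 1) (huQ : ∀ Q ∈ centredSet K 𝔫, Q.ord u = 0) (huμ : μ u = 1)
    {f : F} (hf0 : f ≠ 0) (hf₁ : V₁.valuation f = 1) (p : ℕ) (D : Place K F → ℤ)
    (hfD : ∀ Q ∈ centredSet K 𝔫, Q.ord f = p * D Q)
    (S : Finset (Place K F)) (hS : ∀ Q ∈ centredSet K 𝔫, Q ∉ S → D Q = 0)
    (b : Place K F → F) (hb0 : ∀ P ∈ S, b P ≠ 0) (hb1 : ∀ P ∈ S, P.ord (b P) = 1)
    (hb2 : ∀ P ∈ S, ∀ Q ∈ centredSet K 𝔫, Q ≠ P → Q.ord (b P) = 0) :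
    ∃ β W : F, β ≠ 0 ∧ V₁.valuation β = 1 ∧
      (∀ Q ∈ centredSet K 𝔫, Q.ord β = D Q) ∧ IsUnitAt 𝔫 W ∧
      f = u ^ (μ f - p * μ β) * β ^ p * W ∧
      V₂.valuation f = V₂.valuation u ^ (μ f - p * μ β) * V₂.valuation β ^ p := by
  obtain ⟨n₁, β, W, hβ0, hβ₁, hβQ, hW, hn₁, hfac⟩ := exists_factor_of_localEqs (K := K) V₁ V₂ hV₁
    hV₂ hϖ hϖ₁ hϖ₂ hsat 𝔫 μ ht₁ ht₂ hdisc₁ hμmul hμpos hμunit hu₁ huQ huμ hf0 p D hfD S hS b hb0
    hb1 hb2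
  have hv1 : V₁.valuation (algebraMap O F ϖ) < 1 := (V₁.mem_nonunits_iff).1 hϖ₁
  have hv0 : V₁.valuation (algebraMap O F ϖ) ≠ 0 :=
    (Valuation.ne_zero_iff _).2 (algebraMap_unif_ne_zero K hϖ)
  have hn0 : n₁ = 0 := by
    rw [hf₁] at hn₁
    by_contra hne
    rcases lt_or_gt_of_ne hne with hlt | hgt
    · have : 1 < V₁.valuation (algebraMap O F ϖ) ^ n₁ :=
        one_lt_zpow_of_neg₀ (zero_lt_iff.2 hv0) hv1 hlt
      rw [← hn₁] at this; exact lt_irrefl _ this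
    · have : V₁.valuation (algebraMap O F ϖ) ^ n₁ < 1 :=
        zpow_lt_one₀ (zero_lt_iff.2 hv0) hv1 hgt
      rw [← hn₁] at this; exact lt_irrefl _ this
  rw [hn0, zpow_zero, one_mul, one_mul] at hfac
  have hμ : μ (f / β ^ p) = μ f - p * μ β := by
    rw [hμmul.mu_div hf₁ (by rw [map_pow, hβ₁, one_pow]), hμmul.mu_pow hβ₁]
  rw [hμ] at hfac
  refine ⟨β, W, hβ0, hβ₁, hβQ, hW, hfac, ?_⟩
  have h1 := congrArg V₂.valuation hfac
  rw [map_mul, map_mul, hW.valuation_eq_one hV₂ ht₂, mul_one, map_zpow₀, map_pow] at h1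
  exact h1

/-! ### The same in the vocabulary of `P4/TwistRoots.Setup` -/

omit [IsNoetherianRing R] [IsIntegrallyClosed R] [IsDomain R] [IsFractionRing R F]
  [IsDiscreteValuationRing O] [IsDomain O] [Field K] [Algebra O K] [IsFractionRing O K]
  [Algebra K F] [IsScalarTower O K F] h𝔫 in
theorem unif_mem_nonunits_of_setup {V₁ V₂ : ValuationSubring F} (hS : Setup R ϖ V₁ V₂) :
    algebraMap O F ϖ ∈ V₁.nonunits ∧ algebraMap O F ϖ ∈ V₂.nonunits := by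
  rw [IsScalarTower.algebraMap_apply O R F]
  exact ⟨hS.pi₁, hS.pi₂⟩

/-- `exists_zpow_mul_isUnitAt` for a `TwistRoots.Setup`. -/
theorem exists_zpow_mul_isUnitAt_of_setup {V₁ V₂ : ValuationSubring F} (hϖ : Irreducible ϖ)
    (hS : Setup R ϖ V₁ V₂) (𝔫 : Ideal R) [h𝔫 : 𝔫.IsPrime] (μ : F → ℤ)
    (ht₁ : Through V₁ 𝔫) (ht₂ : Through V₂ 𝔫) (hμmul : MuMul V₁ μ)
    (hμpos : ∀ r : R, r ∈ 𝔫 → V₁.valuation (algebraMap R F r) = 1 → 0 < μ (algebraMap R F r))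
    (hμunit : ∀ r : R, r ∉ 𝔫 → μ (algebraMap R F r) = 0)
    {u : F} (hu₁ : V₁.valuation u = 1) (huQ : ∀ Q ∈ centredSet K 𝔫, Q.ord u = 0) (huμ : μ u = 1)
    {g : F} (hg0 : g ≠ 0) (hg₁ : V₁.valuation g = 1)
    (hgQ : ∀ Q ∈ centredSet K 𝔫, Q.ord g = 0) :
    ∃ W : F, IsUnitAt 𝔫 W ∧ g = u ^ μ g * W ∧ V₂.valuation g = V₂.valuation u ^ μ g :=
  exists_zpow_mul_isUnitAt (K := K) V₁ V₂ hS.mem₁ hS.mem₂ hϖ (unif_mem_nonunits_of_setup hS).1
    (unif_mem_nonunits_of_setup hS).2 hS.sat 𝔫 μ ht₁ ht₂ hμmul hμpos hμunit hu₁ huQ huμ hg0 hg₁ hgQ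

/-- `exists_factor_of_unit` for a `TwistRoots.Setup`. -/
theorem exists_factor_of_unit_of_setup {V₁ V₂ : ValuationSubring F} (hϖ : Irreducible ϖ)
    (hS : Setup R ϖ V₁ V₂) (𝔫 : Ideal R) [h𝔫 : 𝔫.IsPrime] (μ : F → ℤ)
    (ht₁ : Through V₁ 𝔫) (ht₂ : Through V₂ 𝔫) (hμmul : MuMul V₁ μ)
    (hμpos : ∀ r : R, r ∈ 𝔫 → V₁.valuation (algebraMap R F r) = 1 → 0 < μ (algebraMap R F r))
    (hμunit : ∀ r : R, r ∉ 𝔫 → μ (algebraMap R F r) = 0)
    {u : F} (hu₁ : V₁.valuation u = 1) (huQ : ∀ Q ∈ centredSet K 𝔫, Q.ord u = 0) (huμ : μ u = 1)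
    {f : F} (hf0 : f ≠ 0) (hf₁ : V₁.valuation f = 1) (p : ℕ) (D : Place K F → ℤ)
    (hfD : ∀ Q ∈ centredSet K 𝔫, Q.ord f = p * D Q)
    (S : Finset (Place K F)) (hSD : ∀ Q ∈ centredSet K 𝔫, Q ∉ S → D Q = 0)
    (b : Place K F → F) (hb0 : ∀ P ∈ S, b P ≠ 0) (hb1 : ∀ P ∈ S, P.ord (b P) = 1)
    (hb2 : ∀ P ∈ S, ∀ Q ∈ centredSet K 𝔫, Q ≠ P → Q.ord (b P) = 0) :
    ∃ β W : F, β ≠ 0 ∧ V₁.valuation β = 1 ∧
      (∀ Q ∈ centredSet K 𝔫, Q.ord β = D Q) ∧ IsUnitAt 𝔫 W ∧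
      f = u ^ (μ f - p * μ β) * β ^ p * W ∧
      V₂.valuation f = V₂.valuation u ^ (μ f - p * μ β) * V₂.valuation β ^ p :=
  exists_factor_of_unit (K := K) V₁ V₂ hS.mem₁ hS.mem₂ hϖ (unif_mem_nonunits_of_setup hS).1
    (unif_mem_nonunits_of_setup hS).2 hS.sat 𝔫 μ ht₁ ht₂
    (fun b hb => by
      obtain ⟨n, hn⟩ := hS.disc₁ b hb
      exact ⟨n, by rw [hn, ← IsScalarTower.algebraMap_apply O R F]⟩)
    hμmul hμpos hμunit hu₁ huQ huμ hf0 hf₁ p D hfD S hSD b hb0 hb1 hb2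

end Main

end Fermat.Agent.S40.M1.NodeFactor
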