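/-
S40 / S44 (row 38), T6′ static route, leaf **M1-THICK** (helper25): **the honest node at a ramified good
level**, in valuation language (no completed local ring, no base-change-is-normal).

Setting of `S36/R1/Unconditional` / `S40/W/F4Level`: level `N ℓ` (`ℓ ∤ N`, `ℓ` = residue characteristic
of the discrete valuation ring `O`), finite chart `R = Rfin K (N ℓ) O`, vertical valuation rings
`V₁ = gaussVS K (N ℓ) O`, `V₂ = S₂.V`, Gauss reduction `redFinL : R → FF κ N`.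

* `exists_node_unram` : one level, `O` unramified (`ℓ ∼ ϖ`), `4 ∣ N`: at a crossing point `𝔫` there are
  `u, v ∈ 𝔫`, `G ∉ 𝔫` with `u v = G ϖ` (thickness one), `V₁ u = 1`, `V₂ v = 1`, `V₁ v < 1`, `V₂ u < 1`,
  `𝔫 R_𝔫 = (u, v)`  (`regular_fin_val` + the unit `G`, derived from the two principal branches).
* Two levels `(K₀, O₀) → (K, O)` (`f : K₀ →+* K`, `φ = LevelBasis.finMap f (N ℓ) O₀ O hOO'`):
  `LevelRestrictHyp` (the four restriction facts: `V₁`, `V₂` restrict; both reduced vertical components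
  of the two charts agree), `HonestNode 𝔫 u₀ v₀ G₀` (`u = φ u₀`, `v = φ v₀`, `G = φ G₀ ∉ 𝔫`,
  `u₀ v₀ = G₀ ℓ`, `V₁ u = 1`, `V₂ v = 1`, `V₁ v = V₁ ℓ`, `V₂ u = V₂ ℓ`, no horizontal divisor of `u`, `v`
  through `𝔫`, `(u₀, v₀)` generate the point below `𝔫`);
  `exists_honestNode` (U), `HonestNode.ord_redFinL_eq_one` (S), `HonestNode.gen` (`𝔫 R_𝔫 = (u, v, ϖ)`),
  ★ `HonestNode.slope` (a `V₁`-unit `g` without zero or pole centred at `𝔫` is `u ^ m · W`,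
  `W ∈ R_𝔫ˣ`, `m = ord_s (redG g)`, and `V₂ g = V₂ ℓ ^ m`; via helper18 `NodeFactor`).
* Levels of `Q̄`: `K₀` unramified (`IsUnramLevel`), `K ≥ K₀` good (`IsGoodLevel`), `5 ≤ p`, `4 ∣ N`:
  `levelFacts_unram`, `levelRestrictHyp_levels` (helper3 `LevelComap`/`FibreSecond`, helper9
  `FibreLift`), ★ `exists_honestNode_levels`, `ord_redFinL_eq_one_levels`, `gen_levels`,
  ★ `slope_levels`.
-/
import Mathlib
import Fermat.Agent.S36.R1.Unconditional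
import Fermat.Agent.S40.W.F4Level
import Fermat.Agent.S19.Cech.LevelBasis
import Fermat.Agent.S40.W.F4Good
import Fermat.Agent.S40.M1.NodeFactor
import Fermat.Agent.S40.M1.LevelComap
import Fermat.Agent.S40.M1.FibreLift
import Fermat.Agent.S40.M1.FibreSecond
import Fermat.Agent.S36.Descent.UnramLevel

set_option autoImplicit false
set_option linter.unusedSectionVars false
set_option linter.unusedVariables false
set_option linter.style.haveILetI false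

open ModularCurve Fermat.Agent.S28.Gauss Fermat.Agent.N4.Setting Fermat.Agent.N4.FibreEmbedding
open Fermat.Agent.N4.Chart
open Fermat.Agent.N4F.E.DegreeLevelRaise Fermat.Agent.N4F.E.GaussDVR AlgebraicCurve Polynomial
open Fermat.Agent.N4F.E IsLocalRing Fermat.Agent.P3G.RbarFin Fermat.Agent.P3G.TwoComponents
open Fermat.Agent.P3G.TwoComponentsFinal Fermat.Agent.P3G Fermat.Agent.P4
open Fermat.Agent.P4.TwistRoots Fermat.Agent.P3G.UCrit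
open Fermat.Agent.S40.W.F4Level
open Fermat.Agent.N4.BaseDescent Fermat.Agent.S19.Cech.LevelBasis

noncomputable section

namespace Fermat.Agent.S40.M1.NodeHonest

section Unram

variable (K : Type) [Field K] [CharZero K] (N : ℕ) [NeZero N] (ℓ : ℕ) [Fact ℓ.Prime]
  (O : Subring K) [IsDiscreteValuationRing ↥O] [IsFractionRing ↥O K]
  [CharP (IsLocalRing.ResidueField ↥O) ℓ] [PerfectRing (IsLocalRing.ResidueField ↥O) ℓ]

set_option quotPrecheck false in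
local notation "κ" => IsLocalRing.ResidueField ↥O

set_option synthInstance.maxHeartbeats 400000

variable (hN : IsUnit ((N : ℕ) : ↥O)) (ι : K →+* ℂ) (hℓN : ¬ ℓ ∣ N)
  (hprime : (fibreIdeal K N O (Rfin K N O)).IsPrime)
  (hsmooth : IsDedekindDomain (↥(Rfin K N O) ⧸ fibreIdeal K N O (Rfin K N O)))
  (hA2 : ∀ x : ↥(gaussSubalgebra K N O),
    theta K N O x ∈ modularFunctionFieldFullC (IsLocalRing.ResidueField ↥O) N)
  (S₂ : FibreTwo.SecondVal K N ℓ O)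
  {ϖ : ↥O} (hϖ : Irreducible ϖ)

include hN ι hℓN hprime hsmooth hA2 hϖ in
/-- **The honest node at an unramified level** (`ℓ ∼ ϖ`, `4 ∣ N` for odd `ℓ`): crossing coordinates
`u, v` with `u v = G ϖ`, `G` a unit at `𝔫`. -/
theorem exists_node_unram (hunr : Associated (((ℓ : ℕ) : ↥O)) ϖ)
    (hodd : ℓ ≠ 2 → 2 * 2 ∣ N) (heven : ℓ = 2 → 9 ∣ N)
    (𝔫 : Ideal ↥(Rfin K (N * ℓ) O)) [h𝔫 : 𝔫.IsMaximal]
    (ht₁ : Through (gaussVS K (N * ℓ) O) 𝔫) (ht₂ : Through S₂.V 𝔫) :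
    ∃ u v G : ↥(Rfin K (N * ℓ) O), u ∈ 𝔫 ∧ v ∈ 𝔫 ∧ G ∉ 𝔫 ∧
      u * v = G * algebraMap ↥O ↥(Rfin K (N * ℓ) O) ϖ ∧
      (gaussVS K (N * ℓ) O).valuation (u : FF K (N * ℓ)) = 1 ∧
      S₂.V.valuation (v : FF K (N * ℓ)) = 1 ∧
      (gaussVS K (N * ℓ) O).valuation (v : FF K (N * ℓ)) < 1 ∧
      S₂.V.valuation (u : FF K (N * ℓ)) < 1 ∧
      (∀ x ∈ 𝔫, ∃ s a b : ↥(Rfin K (N * ℓ) O), s ∉ 𝔫 ∧ s * x = a * u + b * v) := by
  haveI := Fermat.Agent.N4.ModPolySetting.finiteDimensional_FF K (N * ℓ)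
  have hj := Fermat.Agent.N4.FFAlgebraic.transcendental_jF K (N * ℓ)
  haveI : IsFractionRing ↥(Rfin K (N * ℓ) O) (FF K (N * ℓ)) :=
    Fermat.Agent.N4.Cover.Main.isFractionRing_chartAlg (O := ↥O) (K₀ := K) (jF K (N * ℓ)) hj
  have hS := BranchNormalLevel.setup_fin K N ℓ O hN ι hℓN hprime hsmooth hA2 S₂ hϖ
  obtain ⟨u, v, hu𝔫, hv𝔫, hu2, hv1, hu1, hv2, hp2, hp1, hpair, G, hG⟩ :=
    Fermat.Agent.S36.R1.Unconditional.regular_fin_val K N ℓ O hN ι hℓN hprime hsmooth hA2 S₂ hϖ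
      hunr hodd heven 𝔫 ht₁ ht₂
  have hV₁u : (gaussVS K (N * ℓ) O).valuation (u : FF K (N * ℓ)) = 1 := by
    refine le_antisymm (((gaussVS K (N * ℓ) O).valuation_le_one_iff _).2 (hS.mem₁ u)) ?_
    exact not_lt.1 fun hlt => hu1 ((gaussVS K (N * ℓ) O).mem_nonunits_iff.2 hlt)
  have hV₂v : S₂.V.valuation (v : FF K (N * ℓ)) = 1 := by
    refine le_antisymm ((S₂.V.valuation_le_one_iff _).2 (hS.mem₂ v)) ?_
    exact not_lt.1 fun hlt => hv2 (S₂.V.mem_nonunits_iff.2 hlt)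
  have hV₁v : (gaussVS K (N * ℓ) O).valuation (v : FF K (N * ℓ)) < 1 :=
    (gaussVS K (N * ℓ) O).mem_nonunits_iff.1 hv1
  have hV₂u : S₂.V.valuation (u : FF K (N * ℓ)) < 1 := S₂.V.mem_nonunits_iff.1 hu2
  refine ⟨u, v, G, hu𝔫, hv𝔫, ?_, hG, hV₁u, hV₂v, hV₁v, hV₂u, hpair⟩
  -- `G ∉ 𝔫`: `ϖ ∈ 𝔪(V₁) ∩ R = v R_𝔫`, the cofactor lies in `𝔪(V₂) ∩ R = u R_𝔫`
  set π : ↥(Rfin K (N * ℓ) O) := algebraMap ↥O ↥(Rfin K (N * ℓ) O) ϖ with hπ
  obtain ⟨s₁, c₁, hs₁, h1⟩ := hp1 π hS.pi₁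
  have hc₁ : (c₁ : FF K (N * ℓ)) ∈ S₂.V.nonunits := by
    rw [S₂.V.mem_nonunits_iff]
    have h2 : S₂.V.valuation ((s₁ * π : ↥(Rfin K (N * ℓ) O)) : FF K (N * ℓ)) < 1 := by
      have : ((s₁ * π : ↥(Rfin K (N * ℓ) O)) : FF K (N * ℓ)) =
          (s₁ : FF K (N * ℓ)) * (π : FF K (N * ℓ)) := rfl
      rw [this, map_mul]
      have h3 : S₂.V.valuation (s₁ : FF K (N * ℓ)) ≤ 1 :=
        (S₂.V.valuation_le_one_iff _).2 (hS.mem₂ s₁)
      have h4 : S₂.V.valuation (π : FF K (N * ℓ)) < 1 := S₂.V.mem_nonunits_iff.1 hS.pi₂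
      calc S₂.V.valuation (s₁ : FF K (N * ℓ)) * S₂.V.valuation (π : FF K (N * ℓ))
          ≤ 1 * S₂.V.valuation (π : FF K (N * ℓ)) := mul_le_mul_left h3 _
        _ < 1 := by rw [one_mul]; exact h4
    rw [h1] at h2
    have : ((c₁ * v : ↥(Rfin K (N * ℓ) O)) : FF K (N * ℓ)) =
        (c₁ : FF K (N * ℓ)) * (v : FF K (N * ℓ)) := rfl
    rwa [this, map_mul, hV₂v, mul_one] at h2
  obtain ⟨s₂, c₂, hs₂, h2⟩ := hp2 c₁ hc₁
  have hπ0 : π ≠ 0 := by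
    intro h0
    have h5 := hS.unif₁ (v : FF K (N * ℓ)) hV₁v
    rw [← hπ, h0, map_zero, map_zero] at h5
    have h6 : (v : FF K (N * ℓ)) = 0 :=
      ((gaussVS K (N * ℓ) O).valuation.zero_iff).1 (le_antisymm h5 zero_le)
    rw [h6, map_zero] at hV₂v
    exact zero_ne_one hV₂v
  have hprod : s₂ * s₁ = c₂ * G := by
    have : (s₂ * s₁) * π = (c₂ * G) * π := by
      calc (s₂ * s₁) * π = s₂ * (s₁ * π) := by ring
        _ = s₂ * (c₁ * v) := by rw [h1]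
        _ = (s₂ * c₁) * v := by ring
        _ = (c₂ * u) * v := by rw [h2]
        _ = c₂ * (u * v) := by ring
        _ = c₂ * (G * π) := by rw [hG]
        _ = (c₂ * G) * π := by ring
    exact mul_right_cancel₀ hπ0 this
  intro hGn
  have : s₂ * s₁ ∈ 𝔫 := hprod ▸ 𝔫.mul_mem_left _ hGn
  exact (h𝔫.isPrime.mem_or_mem this).elim hs₂ hs₁

end Unram


/-! ### Two levels `(K₀, O₀) → (K, O)`: the node coordinates of the unramified level at the big level -/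

section TwoLevels

variable (K₀ K : Type) [Field K₀] [CharZero K₀] [Field K] [CharZero K]
  (N : ℕ) [NeZero N] (ℓ : ℕ) [Fact ℓ.Prime]
  (O₀ : Subring K₀) [IsDiscreteValuationRing ↥O₀] [IsFractionRing ↥O₀ K₀]
  [CharP (IsLocalRing.ResidueField ↥O₀) ℓ] [PerfectRing (IsLocalRing.ResidueField ↥O₀) ℓ]
  (O : Subring K) [IsDiscreteValuationRing ↥O] [IsFractionRing ↥O K]
  [CharP (IsLocalRing.ResidueField ↥O) ℓ] [PerfectRing (IsLocalRing.ResidueField ↥O) ℓ]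
  (f : K₀ →+* K) (hOO' : ∀ a ∈ O₀, f a ∈ O)

set_option quotPrecheck false in
local notation "κ" => IsLocalRing.ResidueField ↥O

set_option synthInstance.maxHeartbeats 400000

variable (hℓN : ¬ ℓ ∣ N)
  (hN₀ : IsUnit ((N : ℕ) : ↥O₀)) (ι₀ : K₀ →+* ℂ)
  (hprime₀ : (fibreIdeal K₀ N O₀ (Rfin K₀ N O₀)).IsPrime)
  (hsmooth₀ : IsDedekindDomain (↥(Rfin K₀ N O₀) ⧸ fibreIdeal K₀ N O₀ (Rfin K₀ N O₀)))
  (hA2₀ : ∀ x : ↥(gaussSubalgebra K₀ N O₀),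
    theta K₀ N O₀ x ∈ modularFunctionFieldFullC (IsLocalRing.ResidueField ↥O₀) N)
  (T₂ : FibreTwo.SecondVal K₀ N ℓ O₀)
  {ϖ₀ : ↥O₀} (hϖ₀ : Irreducible ϖ₀)
  (hN : IsUnit ((N : ℕ) : ↥O)) (ι : K →+* ℂ)
  (hprime : (fibreIdeal K N O (Rfin K N O)).IsPrime)
  (hsmooth : IsDedekindDomain (↥(Rfin K N O) ⧸ fibreIdeal K N O (Rfin K N O)))
  (hA2 : ∀ x : ↥(gaussSubalgebra K N O),
    theta K N O x ∈ modularFunctionFieldFullC (IsLocalRing.ResidueField ↥O) N)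
  (S₂ : FibreTwo.SecondVal K N ℓ O)
  {ϖ : ↥O} (hϖ : Irreducible ϖ)

/-- The restriction hypotheses between the two levels (`S40/M1/LevelComap`, `S40/M1/FibreLevel`):
the two vertical valuations of the big level restrict to those of the small level on the chart, and
the two charts have the same reduced vertical components (`φ = finMap f (N ℓ) O₀ O hOO'`). -/
structure LevelRestrictHyp : Prop where
  gauss : ∀ x : ↥(Rfin K₀ (N * ℓ) O₀),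
    ((finMap f (N * ℓ) O₀ O hOO' x : ↥(Rfin K (N * ℓ) O)) : FF K (N * ℓ)) ∈
        (gaussVS K (N * ℓ) O).nonunits ↔
      (x : FF K₀ (N * ℓ)) ∈ (gaussVS K₀ (N * ℓ) O₀).nonunits
  second : ∀ x : ↥(Rfin K₀ (N * ℓ) O₀),
    ((finMap f (N * ℓ) O₀ O hOO' x : ↥(Rfin K (N * ℓ) O)) : FF K (N * ℓ)) ∈ S₂.V.nonunits ↔
      (x : FF K₀ (N * ℓ)) ∈ T₂.V.nonunits
  fibre : ∀ r : ↥(Rfin K (N * ℓ) O), ∃ r₀ : ↥(Rfin K₀ (N * ℓ) O₀),
    ((finMap f (N * ℓ) O₀ O hOO' r₀ - r : ↥(Rfin K (N * ℓ) O)) : FF K (N * ℓ)) ∈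
      (gaussVS K (N * ℓ) O).nonunits
  fibre₂ : ∀ r : ↥(Rfin K (N * ℓ) O), ∃ r₀ : ↥(Rfin K₀ (N * ℓ) O₀),
    ((finMap f (N * ℓ) O₀ O hOO' r₀ - r : ↥(Rfin K (N * ℓ) O)) : FF K (N * ℓ)) ∈ S₂.V.nonunits

/-- **The honest node at the big level**: `u = φ u₀`, `v = φ v₀`, `G = φ G₀` come from the small
(unramified) level, `u v = G ℓ` with `G` a unit at the closed point `𝔫`; `u` is a unit of `V₁` with
`V₂ u = V₂ ℓ`, `v` is a unit of `V₂` with `V₁ v = V₁ ℓ`; no horizontal divisor of `u` or `v` passes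
through `𝔫`; `(u₀, v₀)` generate the point of the small level below `𝔫`. -/
structure HonestNode (𝔫 : Ideal ↥(Rfin K (N * ℓ) O)) (u₀ v₀ G₀ : ↥(Rfin K₀ (N * ℓ) O₀)) :
    Prop where
  mem_u : finMap f (N * ℓ) O₀ O hOO' u₀ ∈ 𝔫
  mem_v : finMap f (N * ℓ) O₀ O hOO' v₀ ∈ 𝔫
  unit_G : finMap f (N * ℓ) O₀ O hOO' G₀ ∉ 𝔫
  mul_eq : u₀ * v₀ = G₀ * ((ℓ : ℕ) : ↥(Rfin K₀ (N * ℓ) O₀))
  val₁_u : (gaussVS K (N * ℓ) O).valuation
    ((finMap f (N * ℓ) O₀ O hOO' u₀ : ↥(Rfin K (N * ℓ) O)) : FF K (N * ℓ)) = 1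
  val₂_v : S₂.V.valuation
    ((finMap f (N * ℓ) O₀ O hOO' v₀ : ↥(Rfin K (N * ℓ) O)) : FF K (N * ℓ)) = 1
  val₁_v : (gaussVS K (N * ℓ) O).valuation
    ((finMap f (N * ℓ) O₀ O hOO' v₀ : ↥(Rfin K (N * ℓ) O)) : FF K (N * ℓ)) =
      (gaussVS K (N * ℓ) O).valuation (((ℓ : ℕ) : FF K (N * ℓ)))
  val₂_u : S₂.V.valuation
    ((finMap f (N * ℓ) O₀ O hOO' u₀ : ↥(Rfin K (N * ℓ) O)) : FF K (N * ℓ)) =
      S₂.V.valuation (((ℓ : ℕ) : FF K (N * ℓ)))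
  nonunit₁_v : ((finMap f (N * ℓ) O₀ O hOO' v₀ : ↥(Rfin K (N * ℓ) O)) : FF K (N * ℓ)) ∈
    (gaussVS K (N * ℓ) O).nonunits
  nonunit₂_u : ((finMap f (N * ℓ) O₀ O hOO' u₀ : ↥(Rfin K (N * ℓ) O)) : FF K (N * ℓ)) ∈
    S₂.V.nonunits
  hor_u : ∀ Q ∈ centredSet (F := FF K (N * ℓ)) K 𝔫,
    Q.ord ((finMap f (N * ℓ) O₀ O hOO' u₀ : ↥(Rfin K (N * ℓ) O)) : FF K (N * ℓ)) = 0
  hor_v : ∀ Q ∈ centredSet (F := FF K (N * ℓ)) K 𝔫,
    Q.ord ((finMap f (N * ℓ) O₀ O hOO' v₀ : ↥(Rfin K (N * ℓ) O)) : FF K (N * ℓ)) = 0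
  gen₀ : ∀ x ∈ 𝔫.comap (finMap f (N * ℓ) O₀ O hOO'), ∃ s a b : ↥(Rfin K₀ (N * ℓ) O₀),
    s ∉ 𝔫.comap (finMap f (N * ℓ) O₀ O hOO') ∧ s * x = a * u₀ + b * v₀

variable {K₀ K N ℓ O₀ O f hOO' T₂ S₂}

/-- The point of the small level below a crossing point of the big level is a crossing point. -/
theorem LevelRestrictHyp.through₁ (H : LevelRestrictHyp K₀ K N ℓ O₀ O f hOO' T₂ S₂)
    {𝔫 : Ideal ↥(Rfin K (N * ℓ) O)} (ht₁ : Through (gaussVS K (N * ℓ) O) 𝔫) :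
    Through (gaussVS K₀ (N * ℓ) O₀) (𝔫.comap (finMap f (N * ℓ) O₀ O hOO')) :=
  fun r hr => Ideal.mem_comap.2 (ht₁ _ ((H.gauss r).2 hr))

theorem LevelRestrictHyp.through₂ (H : LevelRestrictHyp K₀ K N ℓ O₀ O f hOO' T₂ S₂)
    {𝔫 : Ideal ↥(Rfin K (N * ℓ) O)} (ht₂ : Through S₂.V 𝔫) :
    Through T₂.V (𝔫.comap (finMap f (N * ℓ) O₀ O hOO')) :=
  fun r hr => Ideal.mem_comap.2 (ht₂ _ ((H.second r).2 hr))

/-- The point of the small level below a closed point of the Gauss component is closed. -/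
theorem LevelRestrictHyp.isMaximal_comap (H : LevelRestrictHyp K₀ K N ℓ O₀ O f hOO' T₂ S₂)
    {𝔫 : Ideal ↥(Rfin K (N * ℓ) O)} [h𝔫 : 𝔫.IsMaximal]
    (ht₁ : Through (gaussVS K (N * ℓ) O) 𝔫) :
    (𝔫.comap (finMap f (N * ℓ) O₀ O hOO')).IsMaximal := by
  haveI : (𝔫.comap (finMap f (N * ℓ) O₀ O hOO')).IsPrime := Ideal.comap_isPrime _ _
  rw [Ideal.isMaximal_iff]
  refine ⟨fun h1 => (Ideal.ne_top_iff_one _).1 (Ideal.IsPrime.ne_top inferInstance) h1, ?_⟩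
  intro J y hJ hy hyJ
  have hy' : finMap f (N * ℓ) O₀ O hOO' y ∉ 𝔫 := fun h => hy (Ideal.mem_comap.2 h)
  obtain ⟨z, i, hi, hzi⟩ := Ideal.IsMaximal.exists_inv h𝔫 hy'
  obtain ⟨z₀, hz₀⟩ := H.fibre z
  have h1 : finMap f (N * ℓ) O₀ O hOO' z₀ - z ∈ 𝔫 := ht₁ _ hz₀
  have h2 : z₀ * y - 1 ∈ 𝔫.comap (finMap f (N * ℓ) O₀ O hOO') := by
    rw [Ideal.mem_comap, map_sub, map_mul, map_one]
    have : finMap f (N * ℓ) O₀ O hOO' z₀ * finMap f (N * ℓ) O₀ O hOO' y - 1 =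
        (finMap f (N * ℓ) O₀ O hOO' z₀ - z) * finMap f (N * ℓ) O₀ O hOO' y - i := by
      rw [← hzi]; ring
    rw [this]
    exact 𝔫.sub_mem (𝔫.mul_mem_right _ h1) hi
  have h3 : z₀ * y ∈ J := J.mul_mem_left _ hyJ
  have h4 : (1 : ↥(Rfin K₀ (N * ℓ) O₀)) = z₀ * y - (z₀ * y - 1) := by ring
  rw [h4]
  exact J.sub_mem h3 (hJ h2)

variable (K₀ K N ℓ O₀ O f hOO' T₂ S₂)

set_option maxHeartbeats 800000 in
include hℓN hN₀ ι₀ hprime₀ hsmooth₀ hA2₀ hϖ₀ hN ι hprime hsmooth hA2 hϖ in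
/-- **(U) The honest node coordinates at the big level**, coming from the unramified small level
(`ℓ ∼ ϖ₀` in `O₀`, `4 ∣ N`). -/
theorem exists_honestNode (H : LevelRestrictHyp K₀ K N ℓ O₀ O f hOO' T₂ S₂)
    (hunr : Associated (((ℓ : ℕ) : ↥O₀)) ϖ₀)
    (hodd : ℓ ≠ 2 → 2 * 2 ∣ N) (heven : ℓ = 2 → 9 ∣ N)
    (𝔫 : Ideal ↥(Rfin K (N * ℓ) O)) [h𝔫 : 𝔫.IsMaximal]
    (ht₁ : Through (gaussVS K (N * ℓ) O) 𝔫) (ht₂ : Through S₂.V 𝔫) :
    ∃ u₀ v₀ G₀ : ↥(Rfin K₀ (N * ℓ) O₀), HonestNode K₀ K N ℓ O₀ O f hOO' S₂ 𝔫 u₀ v₀ G₀ := by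
  haveI := Fermat.Agent.N4.ModPolySetting.finiteDimensional_FF K (N * ℓ)
  have hj := Fermat.Agent.N4.FFAlgebraic.transcendental_jF K (N * ℓ)
  haveI : IsFractionRing ↥(Rfin K (N * ℓ) O) (FF K (N * ℓ)) :=
    Fermat.Agent.N4.Cover.Main.isFractionRing_chartAlg (O := ↥O) (K₀ := K) (jF K (N * ℓ)) hj
  have hS := BranchNormalLevel.setup_fin K N ℓ O hN ι hℓN hprime hsmooth hA2 S₂ hϖ
  set φ := finMap f (N * ℓ) O₀ O hOO' with hφ
  haveI h𝔫₀ : (𝔫.comap φ).IsMaximal := H.isMaximal_comap ht₁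
  obtain ⟨u₀, v₀, G₀, hu𝔫, hv𝔫, hG𝔫, huv, hV₁u, hV₂v, hV₁v, hV₂u, hpair⟩ :=
    exists_node_unram K₀ N ℓ O₀ hN₀ ι₀ hℓN hprime₀ hsmooth₀ hA2₀ T₂ hϖ₀ hunr hodd heven
      (𝔫.comap φ) (H.through₁ ht₁) (H.through₂ ht₂)
  -- replace `ϖ₀` by `ℓ`
  obtain ⟨ε, hε⟩ := hunr
  set E : ↥(Rfin K₀ (N * ℓ) O₀) := algebraMap ↥O₀ ↥(Rfin K₀ (N * ℓ) O₀) (ε : ↥O₀) with hE
  have hEunit : IsUnit E := (ε.isUnit).map _
  have huv' : u₀ * v₀ = (G₀ * E) * ((ℓ : ℕ) : ↥(Rfin K₀ (N * ℓ) O₀)) := by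
    rw [huv, ← hε, map_mul, map_natCast]; ring
  have hGE : G₀ * E ∉ 𝔫.comap φ := by
    intro h
    rcases (Ideal.IsPrime.mem_or_mem h𝔫₀.isPrime h) with h1 | h1
    · exact hG𝔫 h1
    · exact h𝔫₀.ne_top (Ideal.eq_top_of_isUnit_mem _ h1 hEunit)
  -- valuations at the big level
  have hnu₂ : ((φ u₀ : ↥(Rfin K (N * ℓ) O)) : FF K (N * ℓ)) ∈ S₂.V.nonunits :=
    (H.second u₀).2 (T₂.V.mem_nonunits_iff.2 hV₂u)
  have hnv₁ : ((φ v₀ : ↥(Rfin K (N * ℓ) O)) : FF K (N * ℓ)) ∈ (gaussVS K (N * ℓ) O).nonunits :=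
    (H.gauss v₀).2 ((gaussVS K₀ (N * ℓ) O₀).mem_nonunits_iff.2 hV₁v)
  have hu1 : (gaussVS K (N * ℓ) O).valuation ((φ u₀ : ↥(Rfin K (N * ℓ) O)) : FF K (N * ℓ)) = 1 := by
    refine le_antisymm (((gaussVS K (N * ℓ) O).valuation_le_one_iff _).2 (hS.mem₁ (φ u₀))) ?_
    refine not_lt.1 fun hlt => ?_
    have := (H.gauss u₀).1 ((gaussVS K (N * ℓ) O).mem_nonunits_iff.2 hlt)
    rw [(gaussVS K₀ (N * ℓ) O₀).mem_nonunits_iff, hV₁u] at this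
    exact lt_irrefl _ this
  have hv2 : S₂.V.valuation ((φ v₀ : ↥(Rfin K (N * ℓ) O)) : FF K (N * ℓ)) = 1 := by
    refine le_antisymm ((S₂.V.valuation_le_one_iff _).2 (hS.mem₂ (φ v₀))) ?_
    refine not_lt.1 fun hlt => ?_
    have := (H.second v₀).1 (S₂.V.mem_nonunits_iff.2 hlt)
    rw [T₂.V.mem_nonunits_iff, hV₂v] at this
    exact lt_irrefl _ this
  have hG' : φ (G₀ * E) ∉ 𝔫 := fun h => hGE (Ideal.mem_comap.2 h)
  have hGv₁ := valuation_eq_one_of_notMem hS.mem₁ ht₁ hG'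
  have hGv₂ := valuation_eq_one_of_notMem hS.mem₂ ht₂ hG'
  have hprodF : ((φ u₀ : ↥(Rfin K (N * ℓ) O)) : FF K (N * ℓ)) *
      ((φ v₀ : ↥(Rfin K (N * ℓ) O)) : FF K (N * ℓ)) =
      ((φ (G₀ * E) : ↥(Rfin K (N * ℓ) O)) : FF K (N * ℓ)) * ((ℓ : ℕ) : FF K (N * ℓ)) := by
    have h1 : φ u₀ * φ v₀ = φ (G₀ * E) * ((ℓ : ℕ) : ↥(Rfin K (N * ℓ) O)) := by
      rw [← map_mul, huv', map_mul φ (G₀ * E), map_natCast]
    have h2 := congrArg (algebraMap ↥(Rfin K (N * ℓ) O) (FF K (N * ℓ))) h1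
    rw [map_mul, map_mul, map_natCast] at h2
    exact h2
  have hv1 : (gaussVS K (N * ℓ) O).valuation ((φ v₀ : ↥(Rfin K (N * ℓ) O)) : FF K (N * ℓ)) =
      (gaussVS K (N * ℓ) O).valuation (((ℓ : ℕ) : FF K (N * ℓ))) := by
    have := congrArg (gaussVS K (N * ℓ) O).valuation hprodF
    rw [map_mul, map_mul, hu1, one_mul] at this
    rw [this]
    have h2 : (gaussVS K (N * ℓ) O).valuation
        ((φ (G₀ * E) : ↥(Rfin K (N * ℓ) O)) : FF K (N * ℓ)) = 1 := hGv₁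
    rw [h2, one_mul]
  have hu2 : S₂.V.valuation ((φ u₀ : ↥(Rfin K (N * ℓ) O)) : FF K (N * ℓ)) =
      S₂.V.valuation (((ℓ : ℕ) : FF K (N * ℓ))) := by
    have := congrArg S₂.V.valuation hprodF
    rw [map_mul, map_mul, hv2, mul_one] at this
    rw [this]
    have h2 : S₂.V.valuation ((φ (G₀ * E) : ↥(Rfin K (N * ℓ) O)) : FF K (N * ℓ)) = 1 := hGv₂
    rw [h2, one_mul]
  -- no horizontal divisor through `𝔫`
  have hhor : ∀ Q ∈ centredSet (F := FF K (N * ℓ)) K 𝔫,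
      Q.ord ((φ u₀ : ↥(Rfin K (N * ℓ) O)) : FF K (N * ℓ)) = 0 ∧
      Q.ord ((φ v₀ : ↥(Rfin K (N * ℓ) O)) : FF K (N * ℓ)) = 0 := by
    intro Q hQ
    have hℓ0 : ((ℓ : ℕ) : K) ≠ 0 := Nat.cast_ne_zero.2 (Fact.out : ℓ.Prime).ne_zero
    have hℓF : Q.ord (((ℓ : ℕ) : FF K (N * ℓ))) = 0 := by
      have := Fermat.Agent.G.LocDataPlace.ord_algebraMap_eq_zero Q hℓ0
      rwa [map_natCast] at this
    have hℓF0 : (((ℓ : ℕ) : FF K (N * ℓ))) ≠ 0 :=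
      Nat.cast_ne_zero.2 (Fact.out : ℓ.Prime).ne_zero
    have hu0 : ((φ u₀ : ↥(Rfin K (N * ℓ) O)) : FF K (N * ℓ)) ≠ 0 := by
      intro h0; rw [h0, map_zero] at hu1; exact zero_ne_one hu1
    have hv0 : ((φ v₀ : ↥(Rfin K (N * ℓ) O)) : FF K (N * ℓ)) ≠ 0 := by
      intro h0; rw [h0, map_zero] at hv2; exact zero_ne_one hv2
    have hG0 : ((φ (G₀ * E) : ↥(Rfin K (N * ℓ) O)) : FF K (N * ℓ)) ≠ 0 := by
      intro h0
      have h2 : S₂.V.valuation ((φ (G₀ * E) : ↥(Rfin K (N * ℓ) O)) : FF K (N * ℓ)) = 1 := hGv₂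
      rw [h0, map_zero] at h2; exact zero_ne_one h2
    have hnn : ∀ r : ↥(Rfin K (N * ℓ) O), (r : FF K (N * ℓ)) ≠ 0 →
        0 ≤ Q.ord (r : FF K (N * ℓ)) :=
      fun r hr => (Fermat.Agent.S24.PlaceExtend.mem_iff_ord_nonneg Q hr).1 (hQ.1 r)
    have hGord : Q.ord ((φ (G₀ * E) : ↥(Rfin K (N * ℓ) O)) : FF K (N * ℓ)) = 0 := by
      refine le_antisymm (not_lt.1 fun hpos => hG' ?_) (hnn _ hG0)
      exact hQ.2 _ (Fermat.Agent.S24.PlaceExtend.mem_nonunits_of_ord_pos Q hG0 hpos)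
    have hsum := congrArg Q.ord hprodF
    rw [Q.ord_mul hu0 hv0, Q.ord_mul hG0 hℓF0, hGord, hℓF, add_zero] at hsum
    have h1 := hnn _ hu0
    have h2 := hnn _ hv0
    constructor <;> omega
  exact ⟨u₀, v₀, G₀ * E, ⟨Ideal.mem_comap.1 hu𝔫, Ideal.mem_comap.1 hv𝔫, hG', huv', hu1, hv2,
    hv1, hu2, hnv₁, hnu₂, fun Q hQ => (hhor Q hQ).1, fun Q hQ => (hhor Q hQ).2, hpair⟩⟩

/-! ### (S): the Gauss reduction of `u` is a uniformiser at the point of the first branch -/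

include hℓN hN ι hprime hsmooth hA2 in
/-- A chart element whose Gauss reduction vanishes at a place `s` centred at the closed point `𝔫`
lies in `𝔫`. -/
theorem mem_of_redFinL_mem_nonunits (𝔫 : Ideal ↥(Rfin K (N * ℓ) O)) [h𝔫 : 𝔫.IsMaximal]
    (s : Place κ (FF κ N)) (hj : jF κ N ∈ s.toValuationSubring)
    (hs𝔫 : ∀ r ∈ 𝔫, redFinL K N ℓ O ι hℓN hA2 S₂ r ∈ s.toValuationSubring.nonunits)
    {x : ↥(Rfin K (N * ℓ) O)}
    (hx : redFinL K N ℓ O ι hℓN hA2 S₂ x ∈ s.toValuationSubring.nonunits) : x ∈ 𝔫 := by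
  by_contra hxn
  obtain ⟨z, i, hi, hzi⟩ := Ideal.IsMaximal.exists_inv h𝔫 hxn
  have hmem : ∀ r : ↥(Rfin K (N * ℓ) O),
      redFinL K N ℓ O ι hℓN hA2 S₂ r ∈ s.toValuationSubring := fun r =>
    Fermat.Agent.S40.W.F4Place.coe_chartAlg_mem_place s hj
      ⟨_, redFinL_mem K N ℓ O ι hℓN hA2 S₂ r⟩
  have h1 : redFinL K N ℓ O ι hℓN hA2 S₂ z * redFinL K N ℓ O ι hℓN hA2 S₂ x ∈
      s.toValuationSubring.nonunits :=
    Fermat.Agent.S40.W.F4Place.mul_mem_nonunits_of_mem (hmem z) hx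
  have h2 := hs𝔫 i hi
  have h3 : (1 : FF κ N) = redFinL K N ℓ O ι hℓN hA2 S₂ z * redFinL K N ℓ O ι hℓN hA2 S₂ x +
      redFinL K N ℓ O ι hℓN hA2 S₂ i := by
    rw [← map_mul, ← map_add, hzi, map_one]
  rw [ValuationSubring.mem_nonunits_iff] at h1 h2
  have h4 : s.toValuationSubring.valuation (1 : FF κ N) < 1 := by
    rw [h3]
    exact lt_of_le_of_lt (Valuation.map_add _ _ _) (max_lt h1 h2)
  rw [map_one] at h4
  exact lt_irrefl _ h4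

theorem redFinL_eq_zero_iff (r : ↥(Rfin K (N * ℓ) O)) :
    redFinL K N ℓ O ι hℓN hA2 S₂ r = 0 ↔
      (r : FF K (N * ℓ)) ∈ (gaussVS K (N * ℓ) O).nonunits := by
  have h := redFinS_eq_zero_iff K N ℓ O ι hℓN hA2 S₂ r
  constructor
  · intro h0; exact h.1 (Subtype.ext h0)
  · intro h1; exact congrArg Subtype.val (h.2 h1)

variable {K₀ K N ℓ O₀ O f hOO' T₂ S₂}

set_option maxHeartbeats 800000 in
include hN hprime hsmooth in
/-- **(S)** The Gauss reduction of the node coordinate `u = φ u₀` has a simple zero at the point `s`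
of the first branch at `𝔫`. -/
theorem HonestNode.ord_redFinL_eq_one {𝔫 : Ideal ↥(Rfin K (N * ℓ) O)} [h𝔫 : 𝔫.IsMaximal]
    {u₀ v₀ G₀ : ↥(Rfin K₀ (N * ℓ) O₀)}
    (hn : HonestNode K₀ K N ℓ O₀ O f hOO' S₂ 𝔫 u₀ v₀ G₀)
    (H : LevelRestrictHyp K₀ K N ℓ O₀ O f hOO' T₂ S₂)
    (s : Place κ (FF κ N)) (hj : jF κ N ∈ s.toValuationSubring)
    (hs𝔫 : ∀ r ∈ 𝔫, redFinL K N ℓ O ι hℓN hA2 S₂ r ∈ s.toValuationSubring.nonunits) :
    s.ord (redFinL K N ℓ O ι hℓN hA2 S₂ (finMap f (N * ℓ) O₀ O hOO' u₀)) = 1 := by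
  set φ := finMap f (N * ℓ) O₀ O hOO' with hφ
  have hmem : ∀ r : ↥(Rfin K (N * ℓ) O),
      redFinL K N ℓ O ι hℓN hA2 S₂ r ∈ s.toValuationSubring := fun r =>
    Fermat.Agent.S40.W.F4Place.coe_chartAlg_mem_place s hj
      ⟨_, redFinL_mem K N ℓ O ι hℓN hA2 S₂ r⟩
  have hin : ∀ {x : ↥(Rfin K (N * ℓ) O)},
      redFinL K N ℓ O ι hℓN hA2 S₂ x ∈ s.toValuationSubring.nonunits → x ∈ 𝔫 := fun hx =>
    mem_of_redFinL_mem_nonunits K N ℓ O hℓN hN ι hprime hsmooth hA2 S₂ 𝔫 s hj hs𝔫 hx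
  -- a uniformiser at `s`, lifted to the chart
  obtain ⟨t, htS, ht1⟩ := Fermat.Agent.S40.W.F4Good.exists_uniformizer_fin K N O hN hprime hsmooth
    s hj
  obtain ⟨r, hr⟩ := exists_redFinL_eq K N ℓ O hN ι hℓN hprime hsmooth hA2 S₂ htS
  have ht0 : t ≠ 0 := by
    rintro rfl
    rw [Place.ord_zero] at ht1
    exact zero_ne_one ht1
  have htn : t ∈ s.toValuationSubring.nonunits :=
    Fermat.Agent.S24.PlaceExtend.mem_nonunits_of_ord_pos s ht0 (by rw [ht1]; exact one_pos)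
  -- move `r` to the small level
  obtain ⟨r₀, hr₀⟩ := H.fibre r
  have hrr₀ : redFinL K N ℓ O ι hℓN hA2 S₂ (φ r₀) = t := by
    have : redFinL K N ℓ O ι hℓN hA2 S₂ (φ r₀ - r) = 0 :=
      (redFinL_eq_zero_iff K N ℓ O hℓN ι hA2 S₂ _).2 hr₀
    rw [map_sub, sub_eq_zero] at this
    rw [this, hr]
  have hr₀𝔫 : r₀ ∈ 𝔫.comap φ := by
    rw [Ideal.mem_comap]
    exact hin (by rw [hrr₀]; exact htn)
  obtain ⟨s₀, a, b, hs₀, hab⟩ := hn.gen₀ r₀ hr₀𝔫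
  have hv0 : redFinL K N ℓ O ι hℓN hA2 S₂ (φ v₀) = 0 :=
    (redFinL_eq_zero_iff K N ℓ O hℓN ι hA2 S₂ _).2 hn.nonunit₁_v
  have hu0 : redFinL K N ℓ O ι hℓN hA2 S₂ (φ u₀) ≠ 0 := by
    intro h0
    have := (gaussVS K (N * ℓ) O).mem_nonunits_iff.1
      ((redFinL_eq_zero_iff K N ℓ O hℓN ι hA2 S₂ _).1 h0)
    rw [hn.val₁_u] at this
    exact lt_irrefl _ this
  have hkey : redFinL K N ℓ O ι hℓN hA2 S₂ (φ s₀) * t =
      redFinL K N ℓ O ι hℓN hA2 S₂ (φ a) * redFinL K N ℓ O ι hℓN hA2 S₂ (φ u₀) := by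
    have := congrArg (fun x => redFinL K N ℓ O ι hℓN hA2 S₂ (φ x)) hab
    simp only [map_mul, map_add] at this
    rw [hrr₀, hv0, mul_zero, add_zero] at this
    exact this
  -- `red (φ s₀)` is a unit at `s`
  have hs₀' : φ s₀ ∉ 𝔫 := fun h => hs₀ (Ideal.mem_comap.2 h)
  have hzn : (0 : FF κ N) ∈ s.toValuationSubring.nonunits := by
    rw [ValuationSubring.mem_nonunits_iff, map_zero]; exact zero_lt_one
  have hs₀0 : redFinL K N ℓ O ι hℓN hA2 S₂ (φ s₀) ≠ 0 := by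
    intro h0
    exact hs₀' (hin (by rw [h0]; exact hzn))
  have hs₀ord : s.ord (redFinL K N ℓ O ι hℓN hA2 S₂ (φ s₀)) = 0 := by
    refine le_antisymm (not_lt.1 fun hpos => hs₀' ?_)
      ((Fermat.Agent.S24.PlaceExtend.mem_iff_ord_nonneg s hs₀0).1 (hmem _))
    exact hin (Fermat.Agent.S24.PlaceExtend.mem_nonunits_of_ord_pos s hs₀0 hpos)
  have ha0 : redFinL K N ℓ O ι hℓN hA2 S₂ (φ a) ≠ 0 := by
    intro h0
    rw [h0, zero_mul] at hkey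
    exact (mul_ne_zero hs₀0 ht0) hkey
  have haord : 0 ≤ s.ord (redFinL K N ℓ O ι hℓN hA2 S₂ (φ a)) :=
    (Fermat.Agent.S24.PlaceExtend.mem_iff_ord_nonneg s ha0).1 (hmem _)
  have huord : 0 < s.ord (redFinL K N ℓ O ι hℓN hA2 S₂ (φ u₀)) :=
    Fermat.Agent.S24.PlaceExtend.ord_pos_of_mem_nonunits s hu0 (hs𝔫 _ hn.mem_u)
  have hsum := congrArg s.ord hkey
  rw [s.ord_mul hs₀0 ht0, s.ord_mul ha0 hu0, hs₀ord, ht1] at hsum
  omega

/-! ### The generation clause at the big level: `𝔫 R_𝔫 = (u, v, ϖ)` -/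

theorem sub_mem_nonunits {F : Type*} [Field F] {V : ValuationSubring F} {a b : F}
    (ha : a ∈ V.nonunits) (hb : b ∈ V.nonunits) : a - b ∈ V.nonunits := by
  rw [ValuationSubring.mem_nonunits_iff] at ha hb ⊢
  exact lt_of_le_of_lt (Valuation.map_sub _ _ _) (max_lt ha hb)

set_option maxHeartbeats 800000 in
include hℓN hN ι hprime hsmooth hA2 hϖ in
/-- An element of the first vertical prime `𝔪(V₁) ∩ R` lies in `(v, ϖ) R_𝔫`. -/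
theorem HonestNode.vertical_gen {𝔫 : Ideal ↥(Rfin K (N * ℓ) O)} [h𝔫 : 𝔫.IsMaximal]
    {u₀ v₀ G₀ : ↥(Rfin K₀ (N * ℓ) O₀)}
    (hn : HonestNode K₀ K N ℓ O₀ O f hOO' S₂ 𝔫 u₀ v₀ G₀)
    (H : LevelRestrictHyp K₀ K N ℓ O₀ O f hOO' T₂ S₂)
    (ht₁ : Through (gaussVS K (N * ℓ) O) 𝔫) (ht₂ : Through S₂.V 𝔫)
    (w : ↥(Rfin K (N * ℓ) O)) (hw : (w : FF K (N * ℓ)) ∈ (gaussVS K (N * ℓ) O).nonunits) :
    ∃ s b c : ↥(Rfin K (N * ℓ) O), s ∉ 𝔫 ∧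
      s * w = b * finMap f (N * ℓ) O₀ O hOO' v₀ + c * algebraMap ↥O ↥(Rfin K (N * ℓ) O) ϖ := by
  have hS := BranchNormalLevel.setup_fin K N ℓ O hN ι hℓN hprime hsmooth hA2 S₂ hϖ
  set φ := finMap f (N * ℓ) O₀ O hOO' with hφ
  obtain ⟨w₀, hw₀⟩ := H.fibre₂ w
  have hw𝔫 : w ∈ 𝔫 := ht₁ w hw
  have hd𝔫 : φ w₀ - w ∈ 𝔫 := ht₂ _ hw₀
  have hw₀𝔫 : w₀ ∈ 𝔫.comap φ := by
    rw [Ideal.mem_comap]
    have : φ w₀ = (φ w₀ - w) + w := by ring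
    rw [this]
    exact 𝔫.add_mem hd𝔫 hw𝔫
  obtain ⟨s₀, a, b, hs₀, hab⟩ := hn.gen₀ w₀ hw₀𝔫
  have hab' : φ s₀ * φ w₀ = φ a * φ u₀ + φ b * φ v₀ := by
    rw [← map_mul, hab, map_add, map_mul, map_mul]
  set y : ↥(Rfin K (N * ℓ) O) := φ s₀ * w - φ b * φ v₀ with hy
  have hy2 : y = φ a * φ u₀ - φ s₀ * (φ w₀ - w) := by
    rw [hy, mul_sub, hab']; ring
  have hy₁ : algebraMap ↥(Rfin K (N * ℓ) O) (FF K (N * ℓ)) y ∈
      (gaussVS K (N * ℓ) O).nonunits := by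
    rw [hy, map_sub, map_mul, map_mul]
    exact sub_mem_nonunits
      (Fermat.Agent.S40.W.F4Place.mul_mem_nonunits_of_mem (hS.mem₁ (φ s₀)) hw)
      (Fermat.Agent.S40.W.F4Place.mul_mem_nonunits_of_mem (hS.mem₁ (φ b)) hn.nonunit₁_v)
  have hy₂ : algebraMap ↥(Rfin K (N * ℓ) O) (FF K (N * ℓ)) y ∈ S₂.V.nonunits := by
    rw [hy2, map_sub, map_mul, map_mul]
    exact sub_mem_nonunits
      (Fermat.Agent.S40.W.F4Place.mul_mem_nonunits_of_mem (hS.mem₂ (φ a)) hn.nonunit₂_u)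
      (Fermat.Agent.S40.W.F4Place.mul_mem_nonunits_of_mem (hS.mem₂ (φ s₀)) hw₀)
  obtain ⟨c, hc⟩ := hS.sat y hy₁ hy₂
  refine ⟨φ s₀, φ b, c, fun h => hs₀ (Ideal.mem_comap.2 h), ?_⟩
  have : φ s₀ * w = y + φ b * φ v₀ := by rw [hy]; ring
  rw [this, hc]; ring

set_option maxHeartbeats 800000 in
include hℓN hN ι hprime hsmooth hA2 hϖ in
/-- **The generation clause at the big level**: `𝔫 R_𝔫 = (u, v, ϖ)`. -/
theorem HonestNode.gen {𝔫 : Ideal ↥(Rfin K (N * ℓ) O)} [h𝔫 : 𝔫.IsMaximal]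
    {u₀ v₀ G₀ : ↥(Rfin K₀ (N * ℓ) O₀)}
    (hn : HonestNode K₀ K N ℓ O₀ O f hOO' S₂ 𝔫 u₀ v₀ G₀)
    (H : LevelRestrictHyp K₀ K N ℓ O₀ O f hOO' T₂ S₂)
    (ht₁ : Through (gaussVS K (N * ℓ) O) 𝔫) (ht₂ : Through S₂.V 𝔫) :
    ∀ r ∈ 𝔫, ∃ s a b c : ↥(Rfin K (N * ℓ) O), s ∉ 𝔫 ∧
      s * r = a * finMap f (N * ℓ) O₀ O hOO' u₀ + b * finMap f (N * ℓ) O₀ O hOO' v₀ +
        c * algebraMap ↥O ↥(Rfin K (N * ℓ) O) ϖ := by
  intro r hr
  set φ := finMap f (N * ℓ) O₀ O hOO' with hφ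
  obtain ⟨r₀, hr₀⟩ := H.fibre r
  have hd𝔫 : φ r₀ - r ∈ 𝔫 := ht₁ _ hr₀
  have hr₀𝔫 : r₀ ∈ 𝔫.comap φ := by
    rw [Ideal.mem_comap]
    have : φ r₀ = (φ r₀ - r) + r := by ring
    rw [this]
    exact 𝔫.add_mem hd𝔫 hr
  obtain ⟨s₀, a, b, hs₀, hab⟩ := hn.gen₀ r₀ hr₀𝔫
  have hab' : φ s₀ * φ r₀ = φ a * φ u₀ + φ b * φ v₀ := by
    rw [← map_mul, hab, map_add, map_mul, map_mul]
  obtain ⟨s', b', c, hs', hw⟩ := hn.vertical_gen hℓN hN ι hprime hsmooth hA2 hϖ H ht₁ ht₂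
    (φ r₀ - r) hr₀
  refine ⟨s' * φ s₀, s' * φ a, s' * φ b - φ s₀ * b', -(φ s₀ * c), ?_, ?_⟩
  · intro h
    rcases h𝔫.isPrime.mem_or_mem h with h1 | h1
    · exact hs' h1
    · exact hs₀ (Ideal.mem_comap.2 h1)
  · have h1 : s' * φ s₀ * r = s' * (φ s₀ * φ r₀) - φ s₀ * (s' * (φ r₀ - r)) := by ring
    rw [h1, hab', hw]; ring


/-! ### The slope formula -/

open Fermat.Agent.S40.M1.NodeFactor in
set_option maxHeartbeats 1600000 in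
include hN hprime hsmooth hϖ in
/-- **The slope formula at an honest node** (thickness `= v(ℓ)`, the class group of the node is cyclic
generated by the first branch): a unit `g` of `V₁` without zero or pole centred at `𝔫` is
`g = u ^ m · W` with `W` a unit of `R_𝔫` and `m = ord_s ḡ` the order of its Gauss reduction at the point
`s` of the first branch; in particular `V₂ g = V₂ ℓ ^ m`. -/
theorem HonestNode.slope {𝔫 : Ideal ↥(Rfin K (N * ℓ) O)} [h𝔫 : 𝔫.IsMaximal]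
    {u₀ v₀ G₀ : ↥(Rfin K₀ (N * ℓ) O₀)}
    (hn : HonestNode K₀ K N ℓ O₀ O f hOO' S₂ 𝔫 u₀ v₀ G₀)
    (H : LevelRestrictHyp K₀ K N ℓ O₀ O f hOO' T₂ S₂)
    (ht₁ : Through (gaussVS K (N * ℓ) O) 𝔫) (ht₂ : Through S₂.V 𝔫)
    (s : Place κ (FF κ N)) (hj : jF κ N ∈ s.toValuationSubring)
    (hs𝔫 : ∀ r ∈ 𝔫, redFinL K N ℓ O ι hℓN hA2 S₂ r ∈ s.toValuationSubring.nonunits)
    {g : FF K (N * ℓ)} (hg0 : g ≠ 0) (hg₁ : (gaussVS K (N * ℓ) O).valuation g = 1)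
    (hgQ : ∀ Q ∈ centredSet (F := FF K (N * ℓ)) K 𝔫, Q.ord g = 0) :
    ∃ W : FF K (N * ℓ), IsUnitAt 𝔫 W ∧
      g = ((finMap f (N * ℓ) O₀ O hOO' u₀ : ↥(Rfin K (N * ℓ) O)) : FF K (N * ℓ)) ^
        (s.ord (redG K N ℓ O ι hℓN hA2 S₂ ⟨g, mem_gauss_of_valuation_eq_one K N ℓ O hg₁⟩)) * W ∧
      S₂.V.valuation g = S₂.V.valuation (((ℓ : ℕ) : FF K (N * ℓ))) ^
        (s.ord (redG K N ℓ O ι hℓN hA2 S₂ ⟨g, mem_gauss_of_valuation_eq_one K N ℓ O hg₁⟩)) := by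
  classical
  haveI := Fermat.Agent.N4.ModPolySetting.finiteDimensional_FF K (N * ℓ)
  have hjt := Fermat.Agent.N4.FFAlgebraic.transcendental_jF K (N * ℓ)
  haveI : IsNoetherianRing ↥(Rfin K (N * ℓ) O) :=
    Fermat.Agent.N4.IntClosure.isNoetherianRing_chartAlg (K := K) (jF K (N * ℓ)) hjt
  haveI : IsFractionRing ↥(Rfin K (N * ℓ) O) (FF K (N * ℓ)) :=
    Fermat.Agent.N4.Cover.Main.isFractionRing_chartAlg (O := ↥O) (K₀ := K) (jF K (N * ℓ)) hjt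
  haveI : IsIntegrallyClosed ↥(Rfin K (N * ℓ) O) :=
    Fermat.Agent.N4.Cover.Main.isIntegrallyClosed_chartAlg (O := ↥O) (K₀ := K) (jF K (N * ℓ)) hjt
  have hS := BranchNormalLevel.setup_fin K N ℓ O hN ι hℓN hprime hsmooth hA2 S₂ hϖ
  set φ := finMap f (N * ℓ) O₀ O hOO' with hφ
  have hmem : ∀ r : ↥(Rfin K (N * ℓ) O),
      redFinL K N ℓ O ι hℓN hA2 S₂ r ∈ s.toValuationSubring := fun r =>
    Fermat.Agent.S40.W.F4Place.coe_chartAlg_mem_place s hj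
      ⟨_, redFinL_mem K N ℓ O ι hℓN hA2 S₂ r⟩
  have hin : ∀ {x : ↥(Rfin K (N * ℓ) O)},
      redFinL K N ℓ O ι hℓN hA2 S₂ x ∈ s.toValuationSubring.nonunits → x ∈ 𝔫 := fun hx =>
    mem_of_redFinL_mem_nonunits K N ℓ O hℓN hN ι hprime hsmooth hA2 S₂ 𝔫 s hj hs𝔫 hx
  -- the residue order
  let μ : FF K (N * ℓ) → ℤ := fun x =>
    if h : (gaussVS K (N * ℓ) O).valuation x = 1 then
      s.ord (redG K N ℓ O ι hℓN hA2 S₂ ⟨x, mem_gauss_of_valuation_eq_one K N ℓ O h⟩) else 0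
  have hμ : ∀ {x : FF K (N * ℓ)} (h : (gaussVS K (N * ℓ) O).valuation x = 1),
      μ x = s.ord (redG K N ℓ O ι hℓN hA2 S₂ ⟨x, mem_gauss_of_valuation_eq_one K N ℓ O h⟩) :=
    fun h => dif_pos h
  have hμR : ∀ (r : ↥(Rfin K (N * ℓ) O))
      (h : (gaussVS K (N * ℓ) O).valuation (algebraMap ↥(Rfin K (N * ℓ) O) (FF K (N * ℓ)) r) = 1),
      μ (algebraMap ↥(Rfin K (N * ℓ) O) (FF K (N * ℓ)) r) =
        s.ord (redFinL K N ℓ O ι hℓN hA2 S₂ r) := fun r h => by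
    rw [hμ h]; rfl
  have hne : ∀ (r : ↥(Rfin K (N * ℓ) O)),
      (gaussVS K (N * ℓ) O).valuation (algebraMap ↥(Rfin K (N * ℓ) O) (FF K (N * ℓ)) r) = 1 →
      redFinL K N ℓ O ι hℓN hA2 S₂ r ≠ 0 := by
    intro r h h0
    have := (gaussVS K (N * ℓ) O).mem_nonunits_iff.1
      ((redFinL_eq_zero_iff K N ℓ O hℓN ι hA2 S₂ r).1 h0)
    have h' : (gaussVS K (N * ℓ) O).valuation (r : FF K (N * ℓ)) = 1 := h
    rw [h'] at this
    exact lt_irrefl _ this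
  have hμmul : MuMul (gaussVS K (N * ℓ) O) μ := by
    intro x y hx hy
    have hxy : (gaussVS K (N * ℓ) O).valuation (x * y) = 1 := by rw [map_mul, hx, hy, one_mul]
    rw [hμ hxy, hμ hx, hμ hy]
    have e : (⟨x * y, mem_gauss_of_valuation_eq_one K N ℓ O hxy⟩ :
        ↥(gaussSubalgebra K (N * ℓ) O)) =
        ⟨x, mem_gauss_of_valuation_eq_one K N ℓ O hx⟩ *
          ⟨y, mem_gauss_of_valuation_eq_one K N ℓ O hy⟩ := Subtype.ext rfl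
    rw [e, map_mul, s.ord_mul
      (Fermat.Agent.S40.W.F4Place.redG_ne_zero K N ℓ O ι hℓN hA2 S₂ hx)
      (Fermat.Agent.S40.W.F4Place.redG_ne_zero K N ℓ O ι hℓN hA2 S₂ hy)]
  have hμpos : ∀ r : ↥(Rfin K (N * ℓ) O), r ∈ 𝔫 →
      (gaussVS K (N * ℓ) O).valuation (algebraMap ↥(Rfin K (N * ℓ) O) (FF K (N * ℓ)) r) = 1 →
      0 < μ (algebraMap ↥(Rfin K (N * ℓ) O) (FF K (N * ℓ)) r) := by
    intro r hr h
    rw [hμR r h]
    exact Fermat.Agent.S24.PlaceExtend.ord_pos_of_mem_nonunits s (hne r h) (hs𝔫 r hr)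
  have hμunit : ∀ r : ↥(Rfin K (N * ℓ) O), r ∉ 𝔫 →
      μ (algebraMap ↥(Rfin K (N * ℓ) O) (FF K (N * ℓ)) r) = 0 := by
    intro r hr
    have h := valuation_eq_one_of_notMem hS.mem₁ ht₁ hr
    rw [hμR r h]
    refine le_antisymm (not_lt.1 fun hpos => hr ?_)
      ((Fermat.Agent.S24.PlaceExtend.mem_iff_ord_nonneg s (hne r h)).1 (hmem r))
    exact hin (Fermat.Agent.S24.PlaceExtend.mem_nonunits_of_ord_pos s (hne r h) hpos)
  have huμ : μ (algebraMap ↥(Rfin K (N * ℓ) O) (FF K (N * ℓ)) (φ u₀)) = 1 := by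
    rw [hμR (φ u₀) hn.val₁_u]
    exact hn.ord_redFinL_eq_one hℓN hN ι hprime hsmooth hA2 H s hj hs𝔫
  obtain ⟨W, hW, hgW, hval⟩ := exists_zpow_mul_isUnitAt_of_setup (K := K) hϖ hS 𝔫 μ ht₁ ht₂ hμmul
    hμpos hμunit hn.val₁_u hn.hor_u huμ hg0 hg₁ hgQ
  refine ⟨W, hW, ?_, ?_⟩
  · rw [← hμ hg₁]; exact hgW
  · rw [← hμ hg₁, hval]
    exact congrArg (· ^ μ g) hn.val₂_u


end TwoLevels

/-! ### Levels `K₀ ≤ K` of `Q̄`: `K₀` unramified, `K` good -/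

section Levels

open Fermat.Agent.N4.S18Glue Fermat.Agent.N4.BigDVR
  Fermat.Agent.P3G.Assembly.StepOfLevel Fermat.Agent.P3G.Assembly.LevelStep
  Fermat.Agent.N4F.C Fermat.Agent.N4F.C.Levels Fermat.Agent.N4F.C.Galois
  Fermat.Agent.S33.L.Contracts Fermat.Agent.N4F.C.ChartFibre
  Fermat.Agent.S36.Descent.UnramLevel Fermat.Agent.P3G.Gamma

local notation "Qbar" => AlgebraicClosure ℚ

set_option maxHeartbeats 1600000 in
set_option synthInstance.maxHeartbeats 400000 in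
/-- **The level hypotheses of `F4Level` at an unramified level** (twin of `F4Good.levelFacts_good`). -/
theorem levelFacts_unram (M p : ℕ) [NeZero M] [Fact p.Prime] (hpM : ¬ p ∣ M)
    (A : ValuationSubring Qbar) (hA : A.LiesOverPrime p)
    (K : IntermediateField ℚ Qbar) (hK : IsUnramLevel A p K)
    [IsDiscreteValuationRing ↥(baseRing A K)] :
    IsUnit ((M : ℕ) : ↥(baseRing A K)) ∧
    (fibreIdeal (Lvl K) M (baseRing A K) (Rfin (Lvl K) M (baseRing A K))).IsPrime ∧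
    IsDedekindDomain (↥(Rfin (Lvl K) M (baseRing A K)) ⧸
      fibreIdeal (Lvl K) M (baseRing A K) (Rfin (Lvl K) M (baseRing A K))) ∧
    (fibreIdeal (Lvl K) M (baseRing A K) (Rinf (Lvl K) M (baseRing A K))).IsPrime ∧
    IsDedekindDomain (↥(Rinf (Lvl K) M (baseRing A K)) ⧸
      fibreIdeal (Lvl K) M (baseRing A K) (Rinf (Lvl K) M (baseRing A K))) ∧
    (∀ x : ↥(gaussSubalgebra (Lvl K) M (baseRing A K)),
      theta (Lvl K) M (baseRing A K) x ∈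
        modularFunctionFieldFullC (IsLocalRing.ResidueField ↥(baseRing A K)) M) ∧
    CharP (IsLocalRing.ResidueField ↥(baseRing A K)) p := by
  have hq : p.Prime := Fact.out
  haveI : IsAlgClosed (IsLocalRing.ResidueField ↥(baseRing A K)) := hK.algClosed
  have hGB : GoodBase (Lvl K) M (baseRing A K) p :=
    ⟨hq, hpM, inferInstance, hK.irred.not_isUnit⟩
  have hstar := LevelStatements.starStatement_lvl hq hA K hGB hK.roots
  have hsmooth := LevelStatements.smoothStatement_lvl hq hA hpM K hGB hK.roots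
  have hred : PGI.RedMem (Lvl K) M (baseRing A K) := fun s hs =>
    ChartReduction.red_mem_full (Lvl K) M (baseRing A K) hGB hstar s hs
  exact ⟨Fermat.Agent.P3G.GammaUnits.isUnit_natCast_baseRing K hq hA hpM, hstar.1.isPrime,
    hsmooth.1, hstar.2.isPrime, hsmooth.2,
    Fermat.Agent.N4F.E.NormReduction.theta_mem_full (Lvl K) M (baseRing A K) hred,
    Fermat.Agent.N4F.E.GaussResidue.charP_residueField (Lvl K) M (baseRing A K) hGB⟩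

variable (N p : ℕ) [NeZero N] [Fact p.Prime] (hpN : ¬ p ∣ N)
  (A : ValuationSubring Qbar) (hA : A.LiesOverPrime p)
  {K₀ K : IntermediateField ℚ Qbar} (hKL : K₀ ≤ K)
  (hK₀ : IsUnramLevel A p K₀) (hK : IsGoodLevel A p K)
  [IsDiscreteValuationRing ↥(baseRing A K₀)] [IsDiscreteValuationRing ↥(baseRing A K)]
  [CharP (IsLocalRing.ResidueField ↥(baseRing A K₀)) p]
  [PerfectRing (IsLocalRing.ResidueField ↥(baseRing A K₀)) p]
  [CharP (IsLocalRing.ResidueField ↥(baseRing A K)) p]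
  [PerfectRing (IsLocalRing.ResidueField ↥(baseRing A K)) p]
  (hA2₀ : ∀ x : ↥(gaussSubalgebra (Lvl K₀) N (baseRing A K₀)),
    theta (Lvl K₀) N (baseRing A K₀) x ∈
      modularFunctionFieldFullC (IsLocalRing.ResidueField ↥(baseRing A K₀)) N)
  (hA2 : ∀ x : ↥(gaussSubalgebra (Lvl K) N (baseRing A K)),
    theta (Lvl K) N (baseRing A K) x ∈
      modularFunctionFieldFullC (IsLocalRing.ResidueField ↥(baseRing A K)) N)
  (T₂ : Fermat.Agent.P3G.FibreTwo.SecondVal (Lvl K₀) N p (baseRing A K₀))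
  (S₂ : Fermat.Agent.P3G.FibreTwo.SecondVal (Lvl K) N p (baseRing A K))

set_option maxHeartbeats 1600000 in
set_option synthInstance.maxHeartbeats 400000 in
include hpN hA hK₀ hK hA2₀ hA2 in
/-- **The restriction hypotheses hold between an unramified level and a good level above it**
(helper3 `LevelComap` (T1), (T2); helper9 `FibreLift`; helper3 `FibreSecond`). -/
theorem levelRestrictHyp_levels :
    LevelRestrictHyp (Lvl K₀) (Lvl K) N p (baseRing A K₀) (baseRing A K) (lvlIncl hKL)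
      (lvlIncl_mem A hKL) T₂ S₂ := by
  obtain ⟨hN₀, hprime₀, hsm₀, -, -, -, -⟩ := levelFacts_unram N p hpN A hA K₀ hK₀
  refine ⟨fun x => ?_, fun x => ?_, fun r => ?_, fun r => ?_⟩
  · exact Fermat.Agent.S40.M1.LevelComap.ffMap_mem_nonunits_gaussVS_iff hKL A (N * p)
  · exact Fermat.Agent.S40.M1.LevelComap.ffMap_mem_nonunits_secondVal_iff hKL A N p S₂ T₂
  · exact Fermat.Agent.S40.M1.FibreLift.exists_finIncl_sub_mem_nonunits A hKL N p hK₀.bij hK.bij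
      hN₀ hprime₀ hsm₀ (Fermat.Agent.P3G.GammaV2.lvlToComplex K₀)
      (Fermat.Agent.P3G.GammaV2.lvlToComplex K) hpN hA2₀ hA2 T₂ S₂ r
  · exact Fermat.Agent.S40.M1.FibreSecond.exists_finIncl_sub_mem_nonunits_secondVal A hKL N p
      hK₀.bij hK.bij hN₀ hprime₀ hsm₀ (Fermat.Agent.P3G.GammaV2.lvlToComplex K₀) hpN hA2₀ hA2 T₂
      S₂ r

set_option maxHeartbeats 1600000 in
set_option synthInstance.maxHeartbeats 400000 in
include hpN hA hK₀ hK hA2₀ hA2 in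
/-- **M1-THICK (U): the honest node at a good level `K` above an unramified level `K₀`**
(`5 ≤ p`, `4 ∣ N`, `p ∤ N`): at every crossing point `𝔫` of the finite chart of level `N p` over `O_K`
there are `u₀, v₀, G₀` in the finite chart over `O_{K₀}` with `HonestNode`. -/
theorem exists_honestNode_levels (hp5 : 5 ≤ p) (h4 : 4 ∣ N)
    {ϖ : ↥(baseRing A K)} (hϖ : Irreducible ϖ)
    (𝔫 : Ideal ↥(Rfin (Lvl K) (N * p) (baseRing A K))) [h𝔫 : 𝔫.IsMaximal]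
    (ht₁ : Through (gaussVS (Lvl K) (N * p) (baseRing A K)) 𝔫) (ht₂ : Through S₂.V 𝔫) :
    ∃ u₀ v₀ G₀ : ↥(Rfin (Lvl K₀) (N * p) (baseRing A K₀)),
      HonestNode (Lvl K₀) (Lvl K) N p (baseRing A K₀) (baseRing A K) (lvlIncl hKL)
        (lvlIncl_mem A hKL) S₂ 𝔫 u₀ v₀ G₀ := by
  obtain ⟨hN₀, hprime₀, hsm₀, -, -, -, -⟩ := levelFacts_unram N p hpN A hA K₀ hK₀
  obtain ⟨hN, hprime, hsm, -, -, -⟩ := Fermat.Agent.S40.W.F4Good.levelFacts_good N p hpN A hA K hK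
  obtain ⟨T₂⟩ := Fermat.Agent.P3G.FibreTwo.nonempty_secondVal (Lvl K₀) N p (baseRing A K₀)
    (Fermat.Agent.P3G.GammaV2.lvlToComplex K₀) hpN hprime₀ hA2₀
  have H := levelRestrictHyp_levels N p hpN A hA hKL hK₀ hK hA2₀ hA2 T₂ S₂
  exact exists_honestNode (Lvl K₀) (Lvl K) N p (baseRing A K₀) (baseRing A K) (lvlIncl hKL)
    (lvlIncl_mem A hKL) hpN hN₀ (Fermat.Agent.P3G.GammaV2.lvlToComplex K₀) hprime₀ hsm₀ hA2₀ T₂
    hK₀.irred hN (Fermat.Agent.P3G.GammaV2.lvlToComplex K) hprime hsm hA2 S₂ hϖ H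
    (Associated.refl _) (fun _ => by simpa using h4) (fun h2 => by omega) 𝔫 ht₁ ht₂

set_option maxHeartbeats 1600000 in
set_option synthInstance.maxHeartbeats 400000 in
include hpN hA hK₀ hK hA2₀ in
/-- **M1-THICK (S) at levels**: the Gauss reduction of `u` has a simple zero at the point `s` of the
first branch at `𝔫` (`s` any place of `FF κ N` in the finite chart whose centre on the level-`N p`
chart contains `𝔫`; e.g. `F4Node.centreFin s hj = 𝔫`). -/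
theorem ord_redFinL_eq_one_levels
    {𝔫 : Ideal ↥(Rfin (Lvl K) (N * p) (baseRing A K))} [h𝔫 : 𝔫.IsMaximal]
    {u₀ v₀ G₀ : ↥(Rfin (Lvl K₀) (N * p) (baseRing A K₀))}
    (hn : HonestNode (Lvl K₀) (Lvl K) N p (baseRing A K₀) (baseRing A K) (lvlIncl hKL)
      (lvlIncl_mem A hKL) S₂ 𝔫 u₀ v₀ G₀)
    (s : Place (IsLocalRing.ResidueField ↥(baseRing A K))
      (FF (IsLocalRing.ResidueField ↥(baseRing A K)) N))
    (hj : jF (IsLocalRing.ResidueField ↥(baseRing A K)) N ∈ s.toValuationSubring)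
    (hs𝔫 : ∀ r ∈ 𝔫, redFinL (Lvl K) N p (baseRing A K)
      (Fermat.Agent.P3G.GammaV2.lvlToComplex K) hpN hA2 S₂ r ∈ s.toValuationSubring.nonunits) :
    s.ord (redFinL (Lvl K) N p (baseRing A K) (Fermat.Agent.P3G.GammaV2.lvlToComplex K) hpN hA2 S₂
      (finIncl A (N * p) hKL u₀)) = 1 := by
  obtain ⟨-, hprime₀, -, -, -, -, -⟩ := levelFacts_unram N p hpN A hA K₀ hK₀
  obtain ⟨hN, hprime, hsm, -, -, -⟩ := Fermat.Agent.S40.W.F4Good.levelFacts_good N p hpN A hA K hK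
  obtain ⟨T₂⟩ := Fermat.Agent.P3G.FibreTwo.nonempty_secondVal (Lvl K₀) N p (baseRing A K₀)
    (Fermat.Agent.P3G.GammaV2.lvlToComplex K₀) hpN hprime₀ hA2₀
  have H := levelRestrictHyp_levels N p hpN A hA hKL hK₀ hK hA2₀ hA2 T₂ S₂
  exact hn.ord_redFinL_eq_one hpN hN (Fermat.Agent.P3G.GammaV2.lvlToComplex K) hprime hsm hA2 H s
    hj hs𝔫

set_option maxHeartbeats 1600000 in
set_option synthInstance.maxHeartbeats 400000 in
include hpN hA hK₀ hK hA2₀ hA2 in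
/-- **M1-THICK (gen-K) at levels**: `𝔫 R_𝔫 = (u, v, ϖ)`. -/
theorem gen_levels {ϖ : ↥(baseRing A K)} (hϖ : Irreducible ϖ)
    {𝔫 : Ideal ↥(Rfin (Lvl K) (N * p) (baseRing A K))} [h𝔫 : 𝔫.IsMaximal]
    {u₀ v₀ G₀ : ↥(Rfin (Lvl K₀) (N * p) (baseRing A K₀))}
    (hn : HonestNode (Lvl K₀) (Lvl K) N p (baseRing A K₀) (baseRing A K) (lvlIncl hKL)
      (lvlIncl_mem A hKL) S₂ 𝔫 u₀ v₀ G₀)
    (ht₁ : Through (gaussVS (Lvl K) (N * p) (baseRing A K)) 𝔫) (ht₂ : Through S₂.V 𝔫) :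
    ∀ r ∈ 𝔫, ∃ s a b c : ↥(Rfin (Lvl K) (N * p) (baseRing A K)), s ∉ 𝔫 ∧
      s * r = a * finIncl A (N * p) hKL u₀ + b * finIncl A (N * p) hKL v₀ +
        c * algebraMap ↥(baseRing A K) ↥(Rfin (Lvl K) (N * p) (baseRing A K)) ϖ := by
  obtain ⟨-, hprime₀, -, -, -, -, -⟩ := levelFacts_unram N p hpN A hA K₀ hK₀
  obtain ⟨hN, hprime, hsm, -, -, -⟩ := Fermat.Agent.S40.W.F4Good.levelFacts_good N p hpN A hA K hK
  obtain ⟨T₂⟩ := Fermat.Agent.P3G.FibreTwo.nonempty_secondVal (Lvl K₀) N p (baseRing A K₀)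
    (Fermat.Agent.P3G.GammaV2.lvlToComplex K₀) hpN hprime₀ hA2₀
  have H := levelRestrictHyp_levels N p hpN A hA hKL hK₀ hK hA2₀ hA2 T₂ S₂
  exact hn.gen hpN hN (Fermat.Agent.P3G.GammaV2.lvlToComplex K) hprime hsm hA2 hϖ H ht₁ ht₂

set_option maxHeartbeats 1600000 in
set_option synthInstance.maxHeartbeats 400000 in
include hpN hA hK₀ hK hA2₀ in
/-- **M1-THICK, FINAL: the slope formula at a crossing point of a good level.**  `g` a unit of the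
Gauss valuation without zero or pole centred at `𝔫`, `m := ord_s (redG g)`: `g = u ^ m · W` with `W` a
unit of `R_𝔫`, and `V₂ g = V₂ p ^ m`. -/
theorem slope_levels {ϖ : ↥(baseRing A K)} (hϖ : Irreducible ϖ)
    {𝔫 : Ideal ↥(Rfin (Lvl K) (N * p) (baseRing A K))} [h𝔫 : 𝔫.IsMaximal]
    {u₀ v₀ G₀ : ↥(Rfin (Lvl K₀) (N * p) (baseRing A K₀))}
    (hn : HonestNode (Lvl K₀) (Lvl K) N p (baseRing A K₀) (baseRing A K) (lvlIncl hKL)
      (lvlIncl_mem A hKL) S₂ 𝔫 u₀ v₀ G₀)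
    (ht₁ : Through (gaussVS (Lvl K) (N * p) (baseRing A K)) 𝔫) (ht₂ : Through S₂.V 𝔫)
    (s : Place (IsLocalRing.ResidueField ↥(baseRing A K))
      (FF (IsLocalRing.ResidueField ↥(baseRing A K)) N))
    (hj : jF (IsLocalRing.ResidueField ↥(baseRing A K)) N ∈ s.toValuationSubring)
    (hs𝔫 : ∀ r ∈ 𝔫, redFinL (Lvl K) N p (baseRing A K)
      (Fermat.Agent.P3G.GammaV2.lvlToComplex K) hpN hA2 S₂ r ∈ s.toValuationSubring.nonunits)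
    {g : FF (Lvl K) (N * p)} (hg0 : g ≠ 0)
    (hg₁ : (gaussVS (Lvl K) (N * p) (baseRing A K)).valuation g = 1)
    (hgQ : ∀ Q ∈ centredSet (F := FF (Lvl K) (N * p)) (Lvl K) 𝔫, Q.ord g = 0) :
    ∃ W : FF (Lvl K) (N * p), IsUnitAt 𝔫 W ∧
      g = ((finIncl A (N * p) hKL u₀ : ↥(Rfin (Lvl K) (N * p) (baseRing A K))) :
          FF (Lvl K) (N * p)) ^
        (s.ord (redG (Lvl K) N p (baseRing A K) (Fermat.Agent.P3G.GammaV2.lvlToComplex K) hpN hA2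
          S₂ ⟨g, mem_gauss_of_valuation_eq_one (Lvl K) N p (baseRing A K) hg₁⟩)) * W ∧
      S₂.V.valuation g = S₂.V.valuation (((p : ℕ) : FF (Lvl K) (N * p))) ^
        (s.ord (redG (Lvl K) N p (baseRing A K) (Fermat.Agent.P3G.GammaV2.lvlToComplex K) hpN hA2
          S₂ ⟨g, mem_gauss_of_valuation_eq_one (Lvl K) N p (baseRing A K) hg₁⟩)) := by
  obtain ⟨-, hprime₀, -, -, -, -, -⟩ := levelFacts_unram N p hpN A hA K₀ hK₀
  obtain ⟨hN, hprime, hsm, -, -, -⟩ := Fermat.Agent.S40.W.F4Good.levelFacts_good N p hpN A hA K hK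
  obtain ⟨T₂⟩ := Fermat.Agent.P3G.FibreTwo.nonempty_secondVal (Lvl K₀) N p (baseRing A K₀)
    (Fermat.Agent.P3G.GammaV2.lvlToComplex K₀) hpN hprime₀ hA2₀
  have H := levelRestrictHyp_levels N p hpN A hA hKL hK₀ hK hA2₀ hA2 T₂ S₂
  exact hn.slope hpN hN (Fermat.Agent.P3G.GammaV2.lvlToComplex K) hprime hsm hA2 hϖ H ht₁ ht₂ s hj
    hs𝔫 hg0 hg₁ hgQ


end Levels

end Fermat.Agent.S40.M1.NodeHonest
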