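/-
S40 / S44 (row 38), block [M1]/T6′, support for (R4) (helper22): **the generation clause
`𝔫 = (u, v, ϖ)` at a crossing point, at ANY level, and "every function regular at the node is a
constant modulo `(u, v)`"** (the weak form of base change, helper1's fallback of (iv) (BCN)).

Mathlib only.  Nothing here changes the level: the statements are about ONE chart `R` (at a big,
possibly wildly ramified level), its two branch primes `P₁ P₂` at a crossing point `𝔫`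
(`P₁ ⊓ P₂ ≤ (ϖ)`: the special fibre is reduced — `KOutNode.NodeFacts.inf_le`, on main at every
discrete level) and two elements `u ∈ P₂`, `v ∈ P₁` whose reductions along the other branch are
local parameters at the point (`Crossing.exists_uv`; reductions do not see the level).

* `exists_mul_eq_mul_of_notMem_sq` : in a Dedekind domain an element of `𝔪 ∖ 𝔪²` generates `𝔪`
  locally at `𝔪` (one denominator for all of `𝔪`);
* `exists_mul_sub_mul_mem_ker` : the same lifted along a surjection `θ : R → Rb`: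
  `θ u ∈ θ(𝔫) ∖ θ(𝔫)²` ⇒ `∃ c ∉ 𝔫, ∀ r ∈ 𝔫, ∃ a, c r − a u ∈ ker θ`;
* ★ `exists_mul_eq_add` : **(GEN)** `∃ c ∉ 𝔫, ∀ r ∈ 𝔫, ∃ a b d, c r = a u + b v + d ϖ`;
  `map_eq_span` : in any localisation `S = R_𝔫` : `𝔫 S = (u, v, ϖ)`;
* ★ `exists_const_of_pow` : **(CONST)** if moreover the residue field of `𝔫` is that of the base `O`
  and `ϖ ^ e ∈ (u, v) R_𝔫` (thickness: `u v = G p`, `G ∉ 𝔫`), every `r : R` is
  `≡ constant o ∈ O` modulo `(u, v) R_𝔫` : `∃ c ∉ 𝔫, ∃ o a b, c (r − o) = a u + b v`;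
  `exists_const_of_fraction` : the same for fractions `x = r / s`, `s ∉ 𝔫`, inside `F`.
-/
import Mathlib

set_option autoImplicit false
set_option linter.unusedSectionVars false
set_option linter.style.longLine false

namespace Fermat.Agent.S40.M1.NodeGen

/-! ### Local generators in a Dedekind domain -/

/-- In a Dedekind domain, an element of `𝔪 ∖ 𝔪²` generates `𝔪` locally at `𝔪`: there is ONE
denominator `c ∉ 𝔪` with `c • 𝔪 ⊆ (x)`. -/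
theorem exists_mul_eq_mul_of_notMem_sq {D : Type*} [CommRing D] [IsDedekindDomain D] (𝔪 : Ideal D)
    {x : D} (hx : x ∈ 𝔪) (hx2 : x ∉ 𝔪 ^ 2) : ∃ c, c ∉ 𝔪 ∧ ∀ y ∈ 𝔪, ∃ a, c * y = a * x := by
  have hle : Ideal.span {x} ≤ 𝔪 := by
    rw [Ideal.span_le]
    exact Set.singleton_subset_iff.2 hx
  have hdvd : 𝔪 ∣ Ideal.span {x} := Ideal.dvd_iff_le.2 hle
  obtain ⟨J, hJ⟩ := hdvd
  have hJ𝔪 : ¬ J ≤ 𝔪 := by
    intro hle
    obtain ⟨J', hJ'⟩ := Ideal.dvd_iff_le.2 hle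
    apply hx2
    have : Ideal.span {x} ≤ 𝔪 ^ 2 := by
      rw [hJ, hJ', ← mul_assoc, ← pow_two]
      exact (Ideal.mul_le_left : 𝔪 ^ 2 * J' ≤ 𝔪 ^ 2)
    exact this (Ideal.mem_span_singleton_self x)
  obtain ⟨c, hcJ, hc𝔪⟩ := SetLike.not_le_iff_exists.1 hJ𝔪
  refine ⟨c, hc𝔪, fun y hy => ?_⟩
  have hmem : c * y ∈ Ideal.span {x} := by
    rw [hJ, mul_comm c y]
    exact Ideal.mul_mem_mul hy hcJ
  obtain ⟨a, ha⟩ := Ideal.mem_span_singleton'.1 hmem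
  exact ⟨a, ha.symm⟩

/-- The same along a surjection `θ : R → Rb` onto a Dedekind domain: if `θ u` is a local parameter
at the point `θ(𝔫)`, then `u` generates `𝔫` modulo `ker θ`, locally at `𝔫`. -/
theorem exists_mul_sub_mul_mem_ker {R Rb : Type*} [CommRing R] [CommRing Rb] [IsDedekindDomain Rb]
    (θ : R →+* Rb) (hθ : Function.Surjective θ) (𝔫 : Ideal R) {u : R}
    (hu : θ u ∈ 𝔫.map θ) (hu2 : θ u ∉ (𝔫.map θ) ^ 2) :
    ∃ c, c ∉ 𝔫 ∧ ∀ r ∈ 𝔫, ∃ a, c * r - a * u ∈ RingHom.ker θ := by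
  obtain ⟨cb, hcb, hgen⟩ := exists_mul_eq_mul_of_notMem_sq (𝔫.map θ) hu hu2
  obtain ⟨c, rfl⟩ := hθ cb
  refine ⟨c, fun hc => hcb (Ideal.mem_map_of_mem θ hc), fun r hr => ?_⟩
  obtain ⟨ab, hab⟩ := hgen (θ r) (Ideal.mem_map_of_mem θ hr)
  obtain ⟨a, rfl⟩ := hθ ab
  refine ⟨a, ?_⟩
  rw [RingHom.mem_ker, map_sub, map_mul, map_mul, hab, sub_self]

/-! ### The generation clause -/

section Gen

variable {R : Type*} [CommRing R] (𝔫 : Ideal R) [h𝔫 : 𝔫.IsPrime] (P₁ P₂ : Ideal R) (ϖ u v : R)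

/-- **(GEN)** at a crossing point: if the two branches meet in `(ϖ)` only (`P₁ ⊓ P₂ ≤ (ϖ)`: reduced
special fibre), `u ∈ P₂` generates `𝔫` modulo `P₁` and `v ∈ P₁` generates `𝔫` modulo `P₂` (locally at
`𝔫`), then `𝔫 = (u, v, ϖ)` locally at `𝔫`, with one denominator. -/
theorem exists_mul_eq_add (hinf : P₁ ⊓ P₂ ≤ Ideal.span {ϖ}) (hu𝔫 : u ∈ 𝔫) (hv : v ∈ P₁)
    (hgu : ∃ c, c ∉ 𝔫 ∧ ∀ r ∈ 𝔫, ∃ a, c * r - a * u ∈ P₁)
    (hgv : ∃ c, c ∉ 𝔫 ∧ ∀ r ∈ 𝔫, ∃ b, c * r - b * v ∈ P₂) :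
    ∃ c, c ∉ 𝔫 ∧ ∀ r ∈ 𝔫, ∃ a b d, c * r = a * u + b * v + d * ϖ := by
  obtain ⟨c₁, hc₁, h₁⟩ := hgu
  obtain ⟨c₂, hc₂, h₂⟩ := hgv
  refine ⟨c₂ * c₁, fun h => (h𝔫.mem_or_mem h).elim hc₂ hc₁, fun r hr => ?_⟩
  obtain ⟨a, ha⟩ := h₁ r hr
  have hr' : c₁ * r - a * u ∈ 𝔫 :=
    𝔫.sub_mem (𝔫.mul_mem_left _ hr) (𝔫.mul_mem_left _ hu𝔫)
  obtain ⟨b, hb⟩ := h₂ _ hr'
  have hb₁ : c₂ * (c₁ * r - a * u) - b * v ∈ P₁ :=
    P₁.sub_mem (P₁.mul_mem_left _ ha) (P₁.mul_mem_left _ hv)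
  obtain ⟨d, hd⟩ := Ideal.mem_span_singleton'.1 (hinf ⟨hb₁, hb⟩)
  refine ⟨c₂ * a, b, d, ?_⟩
  linear_combination -hd

/-- **(GEN)** from the reductions: `θ₁ θ₂ : R → Rb` the two branch reductions onto a Dedekind domain,
`u ∈ ker θ₂` with `θ₁ u` a local parameter at `θ₁(𝔫)`, `v ∈ ker θ₁` with `θ₂ v` a local parameter at
`θ₂(𝔫)` — the output of `Crossing.exists_uv`. -/
theorem exists_mul_eq_add_of_reductions {Rb : Type*} [CommRing Rb] [IsDedekindDomain Rb]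
    (θ₁ θ₂ : R →+* Rb) (hθ₁ : Function.Surjective θ₁) (hθ₂ : Function.Surjective θ₂)
    (hinf : RingHom.ker θ₁ ⊓ RingHom.ker θ₂ ≤ Ideal.span {ϖ}) (hu𝔫 : u ∈ 𝔫)
    (hv : v ∈ RingHom.ker θ₁)
    (hu₁ : θ₁ u ∈ 𝔫.map θ₁) (hu₁' : θ₁ u ∉ (𝔫.map θ₁) ^ 2)
    (hv₂ : θ₂ v ∈ 𝔫.map θ₂) (hv₂' : θ₂ v ∉ (𝔫.map θ₂) ^ 2) :
    ∃ c, c ∉ 𝔫 ∧ ∀ r ∈ 𝔫, ∃ a b d, c * r = a * u + b * v + d * ϖ :=
  exists_mul_eq_add 𝔫 (RingHom.ker θ₁) (RingHom.ker θ₂) ϖ u v hinf hu𝔫 hv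
    (exists_mul_sub_mul_mem_ker θ₁ hθ₁ 𝔫 hu₁ hu₁')
    (exists_mul_sub_mul_mem_ker θ₂ hθ₂ 𝔫 hv₂ hv₂')

/-- **(GEN)** in a localisation `S = R_𝔫` : `𝔫 S = (u, v, ϖ)`. -/
theorem map_eq_span (S : Type*) [CommRing S] [Algebra R S] [IsLocalization.AtPrime S 𝔫]
    (hu𝔫 : u ∈ 𝔫) (hv𝔫 : v ∈ 𝔫) (hϖ𝔫 : ϖ ∈ 𝔫)
    (hgen : ∃ c, c ∉ 𝔫 ∧ ∀ r ∈ 𝔫, ∃ a b d, c * r = a * u + b * v + d * ϖ) :
    𝔫.map (algebraMap R S) =
      Ideal.span {algebraMap R S u, algebraMap R S v, algebraMap R S ϖ} := by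
  obtain ⟨c, hc, hgen⟩ := hgen
  apply le_antisymm
  · rw [Ideal.map_le_iff_le_comap]
    intro r hr
    rw [Ideal.mem_comap]
    obtain ⟨a, b, d, h⟩ := hgen r hr
    have hcu : IsUnit (algebraMap R S c) :=
      IsLocalization.map_units S (⟨c, hc⟩ : 𝔫.primeCompl)
    have hmem : algebraMap R S c * algebraMap R S r ∈
        Ideal.span {algebraMap R S u, algebraMap R S v, algebraMap R S ϖ} := by
      rw [← map_mul, h, map_add, map_add, map_mul, map_mul, map_mul]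
      refine Ideal.add_mem _ (Ideal.add_mem _ ?_ ?_) ?_
      · exact Ideal.mul_mem_left _ _ (Ideal.subset_span (by simp))
      · exact Ideal.mul_mem_left _ _ (Ideal.subset_span (by simp))
      · exact Ideal.mul_mem_left _ _ (Ideal.subset_span (by simp))
    obtain ⟨w, hw⟩ := hcu
    have : algebraMap R S r = ↑w⁻¹ * (algebraMap R S c * algebraMap R S r) := by
      rw [← hw, ← mul_assoc, Units.inv_mul, one_mul]
    rw [this]
    exact Ideal.mul_mem_left _ _ hmem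
  · rw [Ideal.span_le]
    intro x hx
    simp only [Set.mem_insert_iff, Set.mem_singleton_iff] at hx
    rcases hx with rfl | rfl | rfl
    · exact Ideal.mem_map_of_mem _ hu𝔫
    · exact Ideal.mem_map_of_mem _ hv𝔫
    · exact Ideal.mem_map_of_mem _ hϖ𝔫

end Gen

/-! ### Constants modulo `(u, v)` -/

section Const

variable {O R : Type*} [CommRing O] [CommRing R] [Algebra O R] (𝔫 : Ideal R) [h𝔫 : 𝔫.IsPrime]
  (ϖ : O) (u v : R)

/-- One step of the successive approximation: modulo `(u, v, ϖ ^ k)`, locally at `𝔫`, every element of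
`R` is a constant. -/
theorem exists_const_mod_pow (hres : ∀ r : R, ∃ o : O, r - algebraMap O R o ∈ 𝔫)
    (hloc : ∀ o : O, algebraMap O R o ∉ 𝔫 → IsUnit o)
    (hgen : ∃ c, c ∉ 𝔫 ∧ ∀ r ∈ 𝔫, ∃ a b d, c * r = a * u + b * v + d * algebraMap O R ϖ)
    (k : ℕ) (r : R) :
    ∃ c, c ∉ 𝔫 ∧ ∃ (o : O) (a b d : R),
      c * (r - algebraMap O R o) = a * u + b * v + d * algebraMap O R ϖ ^ k := by
  obtain ⟨c', hc', hgen⟩ := hgen
  induction k with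
  | zero => exact ⟨1, fun h => h𝔫.ne_top ((Ideal.eq_top_iff_one 𝔫).2 h), 0, 0, 0, r, by
      rw [map_zero]; ring⟩
  | succ k ih =>
    obtain ⟨c, hc, o, a, b, d, h⟩ := ih
    obtain ⟨o₁, ho₁⟩ := hres d
    obtain ⟨o₂, ho₂⟩ := hres c
    have ho₂𝔫 : algebraMap O R o₂ ∉ 𝔫 := by
      intro h2
      apply hc
      have := 𝔫.add_mem ho₂ h2
      rwa [sub_add_cancel] at this
    obtain ⟨w, hw⟩ := hloc o₂ ho₂𝔫
    -- `o₃ := o₁ / o₂`, so that `d − c o₃ ∈ 𝔫`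
    have ho₃ : d - c * algebraMap O R (o₁ * ↑w⁻¹) ∈ 𝔫 := by
      have e : d - c * algebraMap O R (o₁ * ↑w⁻¹) =
          (d - algebraMap O R o₁) - (c - algebraMap O R o₂) * algebraMap O R (o₁ * ↑w⁻¹) := by
        have hcancel : algebraMap O R o₂ * algebraMap O R (o₁ * ↑w⁻¹) = algebraMap O R o₁ := by
          rw [← map_mul, ← hw, mul_comm o₁, ← mul_assoc, Units.mul_inv, one_mul]
        linear_combination (-1 : R) * hcancel
      rw [e]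
      exact 𝔫.sub_mem ho₁ (𝔫.mul_mem_right _ ho₂)
    obtain ⟨a', b', d', h'⟩ := hgen _ ho₃
    refine ⟨c' * c, fun h => (h𝔫.mem_or_mem h).elim hc' hc, o + o₁ * ↑w⁻¹ * ϖ ^ k,
      c' * a + a' * algebraMap O R ϖ ^ k, c' * b + b' * algebraMap O R ϖ ^ k, d', ?_⟩
    rw [map_add, map_mul, map_pow, pow_succ]
    linear_combination c' * h + (algebraMap O R ϖ ^ k) * h'

/-- **(CONST)** every element of `R` is a constant modulo `(u, v) R_𝔫`, if the residue field of `𝔫`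
is that of `O`, `𝔫 = (u, v, ϖ)` locally and `ϖ ^ e ∈ (u, v) R_𝔫` (thickness of the node). -/
theorem exists_const_of_pow (hres : ∀ r : R, ∃ o : O, r - algebraMap O R o ∈ 𝔫)
    (hloc : ∀ o : O, algebraMap O R o ∉ 𝔫 → IsUnit o)
    (hgen : ∃ c, c ∉ 𝔫 ∧ ∀ r ∈ 𝔫, ∃ a b d, c * r = a * u + b * v + d * algebraMap O R ϖ)
    (hpow : ∃ (e : ℕ) (c : R), c ∉ 𝔫 ∧ ∃ a b, c * algebraMap O R ϖ ^ e = a * u + b * v) (r : R) :
    ∃ c, c ∉ 𝔫 ∧ ∃ (o : O) (a b : R), c * (r - algebraMap O R o) = a * u + b * v := by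
  obtain ⟨e, c₀, hc₀, a₀, b₀, h₀⟩ := hpow
  obtain ⟨c, hc, o, a, b, d, h⟩ := exists_const_mod_pow 𝔫 ϖ u v hres hloc hgen e r
  refine ⟨c₀ * c, fun h => (h𝔫.mem_or_mem h).elim hc₀ hc, o, c₀ * a + d * a₀, c₀ * b + d * b₀, ?_⟩
  linear_combination c₀ * h + d * h₀

/-- **(CONST)** for fractions: `x = r / s ∈ F`, `s ∉ 𝔫`, is a constant modulo `(u, v) R_𝔫`. -/
theorem exists_const_of_fraction {F : Type*} [Field F] [Algebra R F] [Algebra O F]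
    [IsScalarTower O R F] (hu𝔫 : u ∈ 𝔫) (hv𝔫 : v ∈ 𝔫)
    (hres : ∀ r : R, ∃ o : O, r - algebraMap O R o ∈ 𝔫)
    (hloc : ∀ o : O, algebraMap O R o ∉ 𝔫 → IsUnit o)
    (hgen : ∃ c, c ∉ 𝔫 ∧ ∀ r ∈ 𝔫, ∃ a b d, c * r = a * u + b * v + d * algebraMap O R ϖ)
    (hpow : ∃ (e : ℕ) (c : R), c ∉ 𝔫 ∧ ∃ a b, c * algebraMap O R ϖ ^ e = a * u + b * v)
    {x : F} {r s : R} (hs : s ∉ 𝔫) (hx : x * algebraMap R F s = algebraMap R F r) :
    ∃ c, c ∉ 𝔫 ∧ ∃ (o : O) (a b : R),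
      (x - algebraMap O F o) * algebraMap R F c = algebraMap R F (a * u + b * v) := by
  obtain ⟨c₁, hc₁, o₁, a₁, b₁, h₁⟩ := exists_const_of_pow 𝔫 ϖ u v hres hloc hgen hpow r
  obtain ⟨c₂, hc₂, o₂, a₂, b₂, h₂⟩ := exists_const_of_pow 𝔫 ϖ u v hres hloc hgen hpow s
  -- `o₂` is a unit of `O`
  have ho₂𝔫 : algebraMap O R o₂ ∉ 𝔫 := by
    intro h2
    have hmem : c₂ * (s - algebraMap O R o₂) ∈ 𝔫 := by
      rw [h₂]
      exact 𝔫.add_mem (𝔫.mul_mem_left _ hu𝔫) (𝔫.mul_mem_left _ hv𝔫)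
    rcases h𝔫.mem_or_mem hmem with h | h
    · exact hc₂ h
    · apply hs
      have := 𝔫.add_mem h h2
      rwa [sub_add_cancel] at this
  obtain ⟨w, hw⟩ := hloc o₂ ho₂𝔫
  have hcancel : algebraMap O R (o₁ * ↑w⁻¹) * algebraMap O R o₂ = algebraMap O R o₁ := by
    rw [← map_mul, ← hw, mul_assoc, Units.inv_mul, mul_one]
  refine ⟨c₁ * c₂ * s, fun h => ?_, o₁ * ↑w⁻¹,
    c₂ * a₁ - algebraMap O R (o₁ * ↑w⁻¹) * c₁ * a₂,
    c₂ * b₁ - algebraMap O R (o₁ * ↑w⁻¹) * c₁ * b₂, ?_⟩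
  · rcases h𝔫.mem_or_mem h with h | h
    · rcases h𝔫.mem_or_mem h with h | h
      · exact hc₁ h
      · exact hc₂ h
    · exact hs h
  · have key : c₁ * c₂ * r - algebraMap O R (o₁ * ↑w⁻¹) * (c₁ * c₂ * s) =
        (c₂ * a₁ - algebraMap O R (o₁ * ↑w⁻¹) * c₁ * a₂) * u +
          (c₂ * b₁ - algebraMap O R (o₁ * ↑w⁻¹) * c₁ * b₂) * v := by
      linear_combination c₂ * h₁ - algebraMap O R (o₁ * ↑w⁻¹) * c₁ * h₂ - c₁ * c₂ * hcancel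
    have e1 : (x - algebraMap O F (o₁ * ↑w⁻¹)) * algebraMap R F (c₁ * c₂ * s) =
        algebraMap R F (c₁ * c₂ * r - algebraMap O R (o₁ * ↑w⁻¹) * (c₁ * c₂ * s)) := by
      rw [map_sub, map_mul (algebraMap R F) (c₁ * c₂) r, ← hx, map_mul (algebraMap R F) _ (c₁ * c₂ * s),
        ← IsScalarTower.algebraMap_apply O R F, map_mul (algebraMap R F) (c₁ * c₂) s]
      ring
    rw [e1, key]

end Const

end Fermat.Agent.S40.M1.NodeGen
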