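/-
S40 / S44 (row 38), block [M1]/T6′, static route (R4), level instance **(6a) `SmoothPoint`**
(helper27, dispatch #3192): **the local ring of the smooth chart of level `N` at a closed point of the
special fibre has maximal ideal `(z, ϖ)`**, `z` any element whose reduction is a local parameter of
the special fibre at that point — the hypothesis `hmt` of `S40/M1/NodeAlg` / `hmtα, hmtβ` of `NodeD`.

* abstract (Mathlib + `NodeGen`): `exists_mul_eq_add` (one-component generation `(GEN₂)`),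
  `maximalIdeal_eq_span_of_gen`, `gen_of_lift` (transport of `(GEN₂)` along a level change with the
  same special fibre; nothing is needed at the big level besides the lifting property);
* level `(K, O)`: `gen_fin`, `maximalIdeal_eq_span_fin`;
* two levels: `gen_finMap` / `maximalIdeal_eq_span_finMap` (generic `f : K →+* K'`, lifting property
  as a hypothesis), `exists_finIncl_sub_mem_span`, `maximalIdeal_eq_span_finIncl` (levels `K₁ ≤ L` of
  `Q̄` with `LevelPack`s: `z` comes from the SMALL level).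
-/
import Mathlib
import Fermat.Agent.S40.M1.NodeGen
import Fermat.Agent.S40.M1.AlphaNodeLevel
import Fermat.Agent.S19.Cech.LevelBasis
import Fermat.Agent.N4F.C.LevelTheta
import Fermat.Agent.S40.M1.LevelComap

set_option autoImplicit false
set_option linter.unusedSectionVars false
set_option linter.style.haveILetI false
set_option linter.style.longLine false

namespace Fermat.Agent.S40.M1.SmoothPoint

/-! ### Abstract -/

section Abstract

variable {R : Type*} [CommRing R]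

/-- The one-component generation statement: `𝔪 = (z, ϖ)` locally at `𝔪`. -/
def Gen₂ (𝔪 : Ideal R) (z ϖ : R) : Prop :=
  ∃ c, c ∉ 𝔪 ∧ ∀ r ∈ 𝔪, ∃ a d, c * r = a * z + d * ϖ

/-- **`(GEN₂)` at a point of a smooth chart**: `θ : R → Rb` onto a Dedekind domain with kernel
`(ϖ)`, `z` reducing to a local parameter at the prime `𝔪`. -/
theorem exists_mul_eq_add {Rb : Type*} [CommRing Rb] [IsDedekindDomain Rb] (θ : R →+* Rb)
    (hθ : Function.Surjective θ) {ϖ : R} (hker : RingHom.ker θ ≤ Ideal.span {ϖ}) (𝔪 : Ideal R)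
    {z : R} (hz : θ z ∈ 𝔪.map θ) (hz2 : θ z ∉ (𝔪.map θ) ^ 2) : Gen₂ 𝔪 z ϖ := by
  obtain ⟨c, hc, h⟩ := NodeGen.exists_mul_sub_mul_mem_ker θ hθ 𝔪 hz hz2
  refine ⟨c, hc, fun r hr => ?_⟩
  obtain ⟨a, ha⟩ := h r hr
  obtain ⟨d, hd⟩ := Ideal.mem_span_singleton'.1 (hker ha)
  exact ⟨a, d, by rw [hd]; ring⟩

/-- `(GEN₂)` ⇒ the maximal ideal of the local ring is `(z, ϖ)`. -/
theorem map_eq_span_of_gen (𝔪 : Ideal R) [𝔪.IsPrime] (S : Type*) [CommRing S] [Algebra R S]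
    [IsLocalization.AtPrime S 𝔪] {z ϖ : R} (hz𝔪 : z ∈ 𝔪) (hϖ𝔪 : ϖ ∈ 𝔪) (hgen : Gen₂ 𝔪 z ϖ) :
    𝔪.map (algebraMap R S) = Ideal.span {algebraMap R S z, algebraMap R S ϖ} := by
  obtain ⟨c, hc, hgen⟩ := hgen
  apply le_antisymm
  · rw [Ideal.map_le_iff_le_comap]
    intro r hr
    rw [Ideal.mem_comap]
    obtain ⟨a, d, h⟩ := hgen r hr
    have hcu : IsUnit (algebraMap R S c) :=
      IsLocalization.map_units S (⟨c, hc⟩ : 𝔪.primeCompl)
    have hmem : algebraMap R S c * algebraMap R S r ∈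
        Ideal.span {algebraMap R S z, algebraMap R S ϖ} := by
      rw [← map_mul, h, map_add, map_mul, map_mul]
      refine Ideal.add_mem _ ?_ ?_
      · exact Ideal.mul_mem_left _ _ (Ideal.subset_span (by simp))
      · exact Ideal.mul_mem_left _ _ (Ideal.subset_span (by simp))
    obtain ⟨w, hw⟩ := hcu
    have : algebraMap R S r = ↑w⁻¹ * (algebraMap R S c * algebraMap R S r) := by
      rw [← hw, ← mul_assoc, Units.inv_mul, one_mul]
    rw [this]
    exact Ideal.mul_mem_left _ _ hmem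
  · rw [Ideal.span_le]
    intro x hx
    simp only [Set.mem_insert_iff, Set.mem_singleton_iff] at hx
    rcases hx with rfl | rfl
    · exact Ideal.mem_map_of_mem _ hz𝔪
    · exact Ideal.mem_map_of_mem _ hϖ𝔪

/-- `(GEN₂)` ⇒ `maximalIdeal (R_𝔪) = (z, ϖ)`. -/
theorem maximalIdeal_eq_span_of_gen (𝔪 : Ideal R) [𝔪.IsPrime] (S : Type*) [CommRing S]
    [Algebra R S] [IsLocalization.AtPrime S 𝔪] [IsLocalRing S] {z ϖ : R} (hz𝔪 : z ∈ 𝔪)
    (hϖ𝔪 : ϖ ∈ 𝔪) (hgen : Gen₂ 𝔪 z ϖ) :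
    IsLocalRing.maximalIdeal S = Ideal.span {algebraMap R S z, algebraMap R S ϖ} := by
  rw [← map_eq_span_of_gen 𝔪 S hz𝔪 hϖ𝔪 hgen, IsLocalization.AtPrime.map_eq_maximalIdeal]

/-- **Transport of `(GEN₂)` along a level change with the same special fibre**: `φ : R₀ → R'`,
`(GEN₂)` at `𝔪'.comap φ`, `φ ϖ₀ ∈ (ϖ')` and every element of `R'` is congruent mod `ϖ'` to an element
of `φ(R₀)`. -/
theorem gen_of_lift {R' : Type*} [CommRing R'] (φ : R →+* R') (𝔪' : Ideal R') {z₀ ϖ₀ : R}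
    {ϖ' : R'} (hϖ : φ ϖ₀ ∈ Ideal.span {ϖ'})
    (hlift : ∀ r' : R', ∃ r₀ : R, φ r₀ - r' ∈ Ideal.span {ϖ'}) (hϖ' : ϖ' ∈ 𝔪')
    (hgen : Gen₂ (𝔪'.comap φ) z₀ ϖ₀) : Gen₂ 𝔪' (φ z₀) ϖ' := by
  obtain ⟨c₀, hc₀, hgen⟩ := hgen
  refine ⟨φ c₀, fun h => hc₀ (Ideal.mem_comap.2 h), fun r' hr' => ?_⟩
  obtain ⟨r₀, hr₀⟩ := hlift r'
  obtain ⟨t, ht⟩ := Ideal.mem_span_singleton'.1 hr₀
  obtain ⟨e, he⟩ := Ideal.mem_span_singleton'.1 hϖ
  have hr₀𝔪 : r₀ ∈ 𝔪'.comap φ := by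
    rw [Ideal.mem_comap]
    have h1 : φ r₀ = t * ϖ' + r' := by rw [ht]; ring
    rw [h1]
    exact 𝔪'.add_mem (𝔪'.mul_mem_left _ hϖ') hr'
  obtain ⟨a, d, h⟩ := hgen r₀ hr₀𝔪
  refine ⟨φ a, φ d * e - φ c₀ * t, ?_⟩
  have h1 : r' = φ r₀ - t * ϖ' := by rw [ht]; ring
  have h2 : φ c₀ * φ r₀ = φ a * φ z₀ + φ d * φ ϖ₀ := by
    rw [← map_mul, h, map_add, map_mul, map_mul]
  rw [h1, mul_sub, h2, ← he]
  ring

end Abstract

/-! ### A level `(K, O)` -/

section Level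

open ModularCurve Fermat.Agent.S28.Gauss Fermat.Agent.N4.Setting Fermat.Agent.N4.FibreEmbedding
open Fermat.Agent.N4.Chart IsLocalRing Fermat.Agent.P3G.RbarFin Fermat.Agent.P3G
open Fermat.Agent.S40.M1.AlphaNodeLevel

variable (K : Type) [Field K] [CharZero K] (N : ℕ) [NeZero N]
  (O : Subring K) [IsDiscreteValuationRing ↥O] [IsFractionRing ↥O K]
  (hprime : (fibreIdeal K N O (Rfin K N O)).IsPrime)
  (hsmooth : IsDedekindDomain (↥(Rfin K N O) ⧸ fibreIdeal K N O (Rfin K N O)))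

theorem th_surjective : Function.Surjective (th K N O) := by
  rintro ⟨y, x, rfl⟩
  exact ⟨x, rfl⟩

include hprime in
theorem ker_th_eq_span {ϖ : ↥O} (hϖ : Irreducible ϖ) :
    RingHom.ker (th K N O) = Ideal.span {algebraMap ↥O ↥(Rfin K N O) ϖ} := by
  rw [CrossingLaurent.ker_res, ker_thetaFin K N O hprime, fibreIdeal_eq_span K N O hϖ]

include hprime hsmooth in
/-- **`(GEN₂)` at a closed point of the special fibre of the smooth chart of level `N`.** -/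
theorem gen_fin {ϖ : ↥O} (hϖ : Irreducible ϖ) (𝔪 : Ideal ↥(Rfin K N O)) {z : ↥(Rfin K N O)}
    (hz : th K N O z ∈ 𝔪.map (th K N O)) (hz2 : th K N O z ∉ (𝔪.map (th K N O)) ^ 2) :
    Gen₂ 𝔪 z (algebraMap ↥O ↥(Rfin K N O) ϖ) := by
  haveI := isDedekindDomain_RbarFin K N O hprime hsmooth
  exact exists_mul_eq_add (th K N O) (th_surjective K N O)
    (ker_th_eq_span K N O hprime hϖ).le 𝔪 hz hz2

include hprime in
/-- A local parameter at `𝔪 ∋ ϖ` lies in `𝔪`. -/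
theorem mem_of_th_mem {ϖ : ↥O} (hϖ : Irreducible ϖ) (𝔪 : Ideal ↥(Rfin K N O))
    (hϖ𝔪 : algebraMap ↥O ↥(Rfin K N O) ϖ ∈ 𝔪) {z : ↥(Rfin K N O)}
    (hz : th K N O z ∈ 𝔪.map (th K N O)) : z ∈ 𝔪 := by
  obtain ⟨r, hr, hrz⟩ := (Ideal.mem_map_iff_of_surjective (th K N O) (th_surjective K N O)).1 hz
  have h1 : z - r ∈ RingHom.ker (th K N O) := by
    rw [RingHom.mem_ker, map_sub, hrz, sub_self]
  rw [ker_th_eq_span K N O hprime hϖ] at h1
  obtain ⟨t, ht⟩ := Ideal.mem_span_singleton'.1 h1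
  have h2 : z = t * algebraMap ↥O ↥(Rfin K N O) ϖ + r := by rw [ht]; ring
  rw [h2]
  exact 𝔪.add_mem (𝔪.mul_mem_left _ hϖ𝔪) hr

include hprime hsmooth in
/-- **`hmt` at a level**: the maximal ideal of the local ring of the smooth chart at a closed point
`𝔪 ∋ ϖ` of the special fibre is `(z, ϖ)`, `z` a local parameter of the special fibre at `𝔪`. -/
theorem maximalIdeal_eq_span_fin {ϖ : ↥O} (hϖ : Irreducible ϖ) (𝔪 : Ideal ↥(Rfin K N O))
    [𝔪.IsPrime] (hϖ𝔪 : algebraMap ↥O ↥(Rfin K N O) ϖ ∈ 𝔪) (S : Type*) [CommRing S]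
    [Algebra ↥(Rfin K N O) S] [IsLocalization.AtPrime S 𝔪] [IsLocalRing S] {z : ↥(Rfin K N O)}
    (hz : th K N O z ∈ 𝔪.map (th K N O)) (hz2 : th K N O z ∉ (𝔪.map (th K N O)) ^ 2) :
    maximalIdeal S = Ideal.span {algebraMap ↥(Rfin K N O) S z,
      algebraMap ↥(Rfin K N O) S (algebraMap ↥O ↥(Rfin K N O) ϖ)} :=
  maximalIdeal_eq_span_of_gen 𝔪 S (mem_of_th_mem K N O hprime hϖ 𝔪 hϖ𝔪 hz) hϖ𝔪
    (gen_fin K N O hprime hsmooth hϖ 𝔪 hz hz2)

end Level

/-! ### Two levels, generic -/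

section TwoLevels

open ModularCurve Fermat.Agent.N4.Setting Fermat.Agent.N4.FibreEmbedding
open Fermat.Agent.N4.Chart IsLocalRing Fermat.Agent.P3G.RbarFin Fermat.Agent.P3G
open Fermat.Agent.S40.M1.AlphaNodeLevel Fermat.Agent.S19.Cech.LevelBasis
open Fermat.Agent.N4.BaseDescent

variable (K : Type) [Field K] [CharZero K] (K' : Type) [Field K'] [CharZero K'] (f : K →+* K')
  (N : ℕ) [NeZero N]
  (O : Subring K) [IsDiscreteValuationRing ↥O] [IsFractionRing ↥O K]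
  (O' : Subring K') [IsDiscreteValuationRing ↥O'] [IsFractionRing ↥O' K']
  (hOO' : ∀ a ∈ O, f a ∈ O')
  (hprime : (fibreIdeal K N O (Rfin K N O)).IsPrime)
  (hsmooth : IsDedekindDomain (↥(Rfin K N O) ⧸ fibreIdeal K N O (Rfin K N O)))

include hprime hsmooth in
/-- **`(GEN₂)` at the big level from a local parameter of the small level.**  `K` is the small
level, `K'` the big one; the special fibres coincide in the sense of `hlift`. -/
theorem gen_finMap {ϖ : ↥O} (hϖ : Irreducible ϖ) {ϖ' : ↥O'}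
    (hϖϖ' : ϖ' ∣ oMap f O O' hOO' ϖ)
    (hlift : ∀ r' : ↥(Rfin K' N O'), ∃ r₀ : ↥(Rfin K N O),
      finMap f N O O' hOO' r₀ - r' ∈ Ideal.span {algebraMap ↥O' ↥(Rfin K' N O') ϖ'})
    (𝔪' : Ideal ↥(Rfin K' N O')) (hϖ𝔪 : algebraMap ↥O' ↥(Rfin K' N O') ϖ' ∈ 𝔪')
    {z₀ : ↥(Rfin K N O)}
    (hz : th K N O z₀ ∈ (𝔪'.comap (finMap f N O O' hOO')).map (th K N O))
    (hz2 : th K N O z₀ ∉ ((𝔪'.comap (finMap f N O O' hOO')).map (th K N O)) ^ 2) :
    Gen₂ 𝔪' (finMap f N O O' hOO' z₀) (algebraMap ↥O' ↥(Rfin K' N O') ϖ') := by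
  refine gen_of_lift (finMap f N O O' hOO') 𝔪' ?_ hlift hϖ𝔪
    (gen_fin K N O hprime hsmooth hϖ _ hz hz2)
  obtain ⟨e, he⟩ := hϖϖ'
  rw [Ideal.mem_span_singleton']
  refine ⟨algebraMap ↥O' ↥(Rfin K' N O') e, ?_⟩
  have h1 : finMap f N O O' hOO' (algebraMap ↥O ↥(Rfin K N O) ϖ) =
      algebraMap ↥O' ↥(Rfin K' N O') (oMap f O O' hOO' ϖ) := by
    apply Subtype.ext
    rw [coe_finMap]
    exact ffMap_algebraMap_base f N O O' hOO' ϖ
  rw [h1, he, map_mul, mul_comm]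

include hprime hsmooth in
/-- **`hmt` at the big level with `z` from the small level.** -/
theorem maximalIdeal_eq_span_finMap {ϖ : ↥O} (hϖ : Irreducible ϖ) {ϖ' : ↥O'}
    (hϖϖ' : ϖ' ∣ oMap f O O' hOO' ϖ)
    (hlift : ∀ r' : ↥(Rfin K' N O'), ∃ r₀ : ↥(Rfin K N O),
      finMap f N O O' hOO' r₀ - r' ∈ Ideal.span {algebraMap ↥O' ↥(Rfin K' N O') ϖ'})
    (𝔪' : Ideal ↥(Rfin K' N O')) [𝔪'.IsPrime]
    (hϖ𝔪 : algebraMap ↥O' ↥(Rfin K' N O') ϖ' ∈ 𝔪')
    (S : Type*) [CommRing S] [Algebra ↥(Rfin K' N O') S] [IsLocalization.AtPrime S 𝔪']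
    [IsLocalRing S] {z₀ : ↥(Rfin K N O)}
    (hz : th K N O z₀ ∈ (𝔪'.comap (finMap f N O O' hOO')).map (th K N O))
    (hz2 : th K N O z₀ ∉ ((𝔪'.comap (finMap f N O O' hOO')).map (th K N O)) ^ 2) :
    maximalIdeal S = Ideal.span {algebraMap ↥(Rfin K' N O') S (finMap f N O O' hOO' z₀),
      algebraMap ↥(Rfin K' N O') S (algebraMap ↥O' ↥(Rfin K' N O') ϖ')} := by
  have hϖ₀ : algebraMap ↥O ↥(Rfin K N O) ϖ ∈ 𝔪'.comap (finMap f N O O' hOO') := by
    rw [Ideal.mem_comap]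
    obtain ⟨e, he⟩ := hϖϖ'
    have h1 : finMap f N O O' hOO' (algebraMap ↥O ↥(Rfin K N O) ϖ) =
        algebraMap ↥O' ↥(Rfin K' N O') (oMap f O O' hOO' ϖ) := by
      apply Subtype.ext
      rw [coe_finMap]
      exact ffMap_algebraMap_base f N O O' hOO' ϖ
    rw [h1, he, map_mul]
    exact 𝔪'.mul_mem_right _ hϖ𝔪
  have hz₀ : z₀ ∈ 𝔪'.comap (finMap f N O O' hOO') :=
    mem_of_th_mem K N O hprime hϖ _ hϖ₀ hz
  exact maximalIdeal_eq_span_of_gen 𝔪' S (Ideal.mem_comap.1 hz₀) hϖ𝔪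
    (gen_finMap K K' f N O O' hOO' hprime hsmooth hϖ hϖϖ' hlift 𝔪' hϖ𝔪 hz hz2)

/-! #### Compatibility of the level change with `α`, `β` on the finite charts -/

section AlphaBeta

open Fermat.Agent.P3G.LevelIntegrality Fermat.Agent.N4F.E.DegreeLevelRaise

variable (ℓ : ℕ) [NeZero ℓ]

omit [CharZero K] [CharZero K'] [IsDiscreteValuationRing ↥O] [IsFractionRing ↥O K]
  [IsDiscreteValuationRing ↥O'] [IsFractionRing ↥O' K'] in
theorem finMap_alphaR (x : ↥(Rfin K N O)) :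
    finMap f (N * ℓ) O O' hOO' (alphaR K N ℓ O x) = alphaR K' N ℓ O' (finMap f N O O' hOO' x) := by
  apply Subtype.ext
  rw [coe_finMap, coe_alphaR, coe_alphaR, coe_finMap]
  exact Fermat.Agent.S40.M1.LevelComap.ffMap_alphaF f N ℓ _

omit [CharZero K] [CharZero K'] [IsDiscreteValuationRing ↥O] [IsFractionRing ↥O K]
  [IsDiscreteValuationRing ↥O'] [IsFractionRing ↥O' K'] in
theorem finMap_betaR (x : ↥(Rfin K N O)) :
    finMap f (N * ℓ) O O' hOO' (betaR K N ℓ O x) = betaR K' N ℓ O' (finMap f N O O' hOO' x) := by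
  apply Subtype.ext
  rw [coe_finMap, coe_betaR, coe_betaR, coe_finMap]
  exact Fermat.Agent.S40.M1.LevelComap.ffMap_betaF f N ℓ _

omit [CharZero K] [CharZero K'] [IsDiscreteValuationRing ↥O] [IsFractionRing ↥O K]
  [IsDiscreteValuationRing ↥O'] [IsFractionRing ↥O' K'] in
/-- The point `α(s)` of the small level below the point `α(s')` of the big level. -/
theorem comap_alphaR_comap_finMap (𝔫' : Ideal ↥(Rfin K' (N * ℓ) O')) :
    (𝔫'.comap (alphaR K' N ℓ O').toRingHom).comap (finMap f N O O' hOO') =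
      (𝔫'.comap (finMap f (N * ℓ) O O' hOO')).comap (alphaR K N ℓ O).toRingHom := by
  ext x
  simp only [Ideal.mem_comap]
  rw [show (alphaR K' N ℓ O').toRingHom (finMap f N O O' hOO' x) =
    alphaR K' N ℓ O' (finMap f N O O' hOO' x) from rfl, ← finMap_alphaR]
  rfl

omit [CharZero K] [CharZero K'] [IsDiscreteValuationRing ↥O] [IsFractionRing ↥O K]
  [IsDiscreteValuationRing ↥O'] [IsFractionRing ↥O' K'] in
/-- The point `β(s)` of the small level below the point `β(s')` of the big level. -/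
theorem comap_betaR_comap_finMap (𝔫' : Ideal ↥(Rfin K' (N * ℓ) O')) :
    (𝔫'.comap (betaR K' N ℓ O').toRingHom).comap (finMap f N O O' hOO') =
      (𝔫'.comap (finMap f (N * ℓ) O O' hOO')).comap (betaR K N ℓ O).toRingHom := by
  ext x
  simp only [Ideal.mem_comap]
  rw [show (betaR K' N ℓ O').toRingHom (finMap f N O O' hOO' x) =
    betaR K' N ℓ O' (finMap f N O O' hOO' x) from rfl, ← finMap_betaR]
  rfl

end AlphaBeta

end TwoLevels

/-! ### Two levels `K₁ ≤ L` of `Q̄` -/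

section Lvl

open ModularCurve Fermat.Agent.N4.Setting Fermat.Agent.N4.FibreEmbedding
open Fermat.Agent.N4.Chart IsLocalRing Fermat.Agent.P3G.RbarFin Fermat.Agent.P3G
open Fermat.Agent.S40.M1.AlphaNodeLevel Fermat.Agent.S19.Cech.LevelBasis
open Fermat.Agent.N4.BaseDescent
open Fermat.Agent.N4F.C Fermat.Agent.N4F.C.Levels Fermat.Agent.N4F.C.LevelCharts
  Fermat.Agent.N4F.C.ChartFactsProof

local notation "Qb" => AlgebraicClosure ℚ

variable (A : ValuationSubring Qb) (N : ℕ) [NeZero N]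
  {K₁ L : IntermediateField ℚ Qb} (hKL : K₁ ≤ L)
  [IsDiscreteValuationRing ↥(baseRing A K₁)] [IsDiscreteValuationRing ↥(baseRing A L)]
  (P₁ : LevelPack A N K₁) (P₂ : LevelPack A N L)

include P₁ P₂ in
/-- **The lifting property**: the two levels have the same special fibre — every element of the finite
chart of the big level is congruent mod `π₂` to an element coming from the small level. -/
theorem exists_finIncl_sub_mem_span {π₂ : ↥(baseRing A L)} (hπ₂ : Irreducible π₂)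
    (r' : ↥(Rfin (Lvl L) N (baseRing A L))) :
    ∃ r₀ : ↥(Rfin (Lvl K₁) N (baseRing A K₁)), finIncl A N hKL r₀ - r' ∈
      Ideal.span {algebraMap ↥(baseRing A L) ↥(Rfin (Lvl L) N (baseRing A L)) π₂} := by
  obtain ⟨r₀, hr₀⟩ := exists_thFin_eq A N K₁ P₁ (thFin_mem A N L P₂ r')
  refine ⟨r₀, mem_span_of_thFin_eq_zero A N L P₂ hπ₂ _ ?_⟩
  rw [map_sub, thFin_finIncl A N hKL P₁ P₂, hr₀, sub_self]

set_option maxHeartbeats 1600000 in
set_option synthInstance.maxHeartbeats 400000 in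
include P₁ P₂ in
/-- **`hmt` at a big level `L` with the local parameter `z₀` defined over the small level `K₁`**:
for a closed point `𝔪'` of the special fibre of the smooth chart of level `N` over `O_L`, and
`z₀ ∈ Rfin (Lvl K₁) N O_{K₁}` reducing to a local parameter at the point `𝔪'.comap finIncl` below,
`maximalIdeal (R_𝔪') = (finIncl z₀, π₂)`. -/
theorem maximalIdeal_eq_span_finIncl {π₁ : ↥(baseRing A K₁)} (hπ₁ : Irreducible π₁)
    {π₂ : ↥(baseRing A L)} (hπ₂ : Irreducible π₂)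
    (𝔪' : Ideal ↥(Rfin (Lvl L) N (baseRing A L))) [𝔪'.IsPrime]
    (hπ𝔪 : algebraMap ↥(baseRing A L) ↥(Rfin (Lvl L) N (baseRing A L)) π₂ ∈ 𝔪')
    (S : Type*) [CommRing S] [Algebra ↥(Rfin (Lvl L) N (baseRing A L)) S]
    [IsLocalization.AtPrime S 𝔪'] [IsLocalRing S] {z₀ : ↥(Rfin (Lvl K₁) N (baseRing A K₁))}
    (hz : th (Lvl K₁) N (baseRing A K₁) z₀ ∈
      (𝔪'.comap (finIncl A N hKL)).map (th (Lvl K₁) N (baseRing A K₁)))
    (hz2 : th (Lvl K₁) N (baseRing A K₁) z₀ ∉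
      ((𝔪'.comap (finIncl A N hKL)).map (th (Lvl K₁) N (baseRing A K₁))) ^ 2) :
    maximalIdeal S = Ideal.span
      {algebraMap ↥(Rfin (Lvl L) N (baseRing A L)) S (finIncl A N hKL z₀),
        algebraMap ↥(Rfin (Lvl L) N (baseRing A L)) S
          (algebraMap ↥(baseRing A L) ↥(Rfin (Lvl L) N (baseRing A L)) π₂)} :=
  maximalIdeal_eq_span_finMap (Lvl K₁) (Lvl L) (lvlIncl hKL) N (baseRing A K₁) (baseRing A L)
    (lvlIncl_mem A hKL) P₁.primeFin P₁.dedFin hπ₁ (dvd_baseMapIncl_irreducible A hKL hπ₁ hπ₂)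
    (exists_finIncl_sub_mem_span A N hKL P₁ P₂ hπ₂) 𝔪' hπ𝔪 S hz hz2

end Lvl

end Fermat.Agent.S40.M1.SmoothPoint
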