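/-
S40 / S44 (row 38), T6′ static route, block (R4-D), item **(D5)** of helper1's list (helper22):
**(ALPHA) at the big level.**

`K₀` an unramified level, `K ⊇ K₀` a (ramified) good level, `𝔫` a crossing point of the finite chart of
level `N ℓ` over `O_K`, `(u₀, v₀, G₀)` an honest node (`S40/M1/NodeHonest.HonestNode`): node coordinates
defined over `K₀`.  At the big level the branch `𝔪(V₂) ∩ R` is `(u, ϖ)`, not `(u)`, so
`S40/M1/AlphaNode.alpha_eq` does not apply there directly; we apply it at the point `𝔫₀ = 𝔫 ∩ R₀` of the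
*small* level and push the identity up by the level inclusion `φ = finMap` (which maps the complement
of `𝔫₀` into the complement of `𝔫`):

  `s · α(φ z₀) = φ u₀ · A + (φ v₀) ^ ℓ · E`,   `s, A, E ∉ 𝔫`,   `z₀ ∈ Rfin K₀ N O₀` a local parameter at
  the point `α(s)` of the special fibre of level `N` (over `K₀`)                         — `alpha_eq`,

and the mirror `beta_eq`.  The local generation of the two branches at the small level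
(`(𝔪(V₂) ∩ R₀)_{𝔫₀} = u₀ (R₀)_{𝔫₀}`, not a field of `HonestNode`) is derived from `HonestNode.gen₀` by
Nakayama (`exists_mul_eq_mul_of_gen`, Mathlib only).

The hypotheses on `z₀` are exactly those of `S40/M1/SmoothPoint.maximalIdeal_eq_span_finMap` /
`_finIncl` (helper27) after rewriting with `map_th_comap_alphaR` below, so that the same `z₀` gives
`hmtα` and `hzα` of `S40/M1/NodeD`.
-/
import Mathlib
import Fermat.Agent.S40.M1.AlphaNodeLevel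
import Fermat.Agent.S40.M1.NodeHonest
import Fermat.Agent.S40.M1.SmoothPoint

set_option autoImplicit false
set_option linter.unusedSectionVars false
set_option linter.style.longLine false
set_option linter.style.haveILetI false

noncomputable section

namespace Fermat.Agent.S40.M1.AlphaNodeUp

/-! ### A branch through a regular point is generated by any element completing it to a system of
parameters (Nakayama) -/

section Abstract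

variable {R : Type*} [CommRing R] [IsNoetherianRing R]

/-- `𝔫 R_𝔫 = (u, v)`, `P ⊆ 𝔫` an ideal with `u ∈ P` and `v` a non-zero-divisor modulo `P`
(e.g. `P` prime, `v ∉ P`): then `P R_𝔫 = u R_𝔫`. -/
theorem exists_mul_eq_mul_of_gen (𝔫 : Ideal R) [h𝔫 : 𝔫.IsPrime] (P : Ideal R) {u v : R}
    (hu : u ∈ P) (hv𝔫 : v ∈ 𝔫) (hP𝔫 : P ≤ 𝔫) (hvP : ∀ b : R, b * v ∈ P → b ∈ P)
    (hgen : ∀ x ∈ 𝔫, ∃ s a b : R, s ∉ 𝔫 ∧ s * x = a * u + b * v) :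
    ∀ r ∈ P, ∃ s c' : R, s ∉ 𝔫 ∧ s * r = c' * u := by
  classical
  set S := Localization.AtPrime 𝔫 with hS
  set ι := algebraMap R S with hι
  have hunit : ∀ {s : R}, s ∉ 𝔫 → IsUnit (ι s) := fun {s} hs =>
    IsLocalization.map_units S (⟨s, hs⟩ : 𝔫.primeCompl)
  -- Nakayama: `P S ≤ u S`
  have hle : P.map ι ≤ Ideal.span {ι u} := by
    refine Submodule.le_of_le_smul_of_le_jacobson_bot (I := IsLocalRing.maximalIdeal S)
      (IsNoetherian.noetherian _) (IsLocalRing.maximalIdeal_le_jacobson _) ?_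
    rw [Ideal.map_le_iff_le_comap]
    intro r hr
    rw [Ideal.mem_comap]
    obtain ⟨s, a, b, hs, hab⟩ := hgen r (hP𝔫 hr)
    have hb : b ∈ P := by
      apply hvP
      have : b * v = s * r - a * u := by rw [hab]; ring
      rw [this]
      exact P.sub_mem (P.mul_mem_left _ hr) (P.mul_mem_left _ hu)
    obtain ⟨s', hs'⟩ := (hunit hs).exists_left_inv
    have e : ι r = (s' * ι a) * ι u + (s' * ι v) * ι b := by
      have h1 := congrArg ι hab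
      rw [map_mul, map_add, map_mul, map_mul] at h1
      calc ι r = s' * (ι s * ι r) := by rw [← mul_assoc, hs', one_mul]
        _ = _ := by rw [h1]; ring
    rw [e]
    refine Submodule.add_mem_sup (Ideal.mul_mem_left _ _ (Ideal.subset_span rfl)) ?_
    have hmem : s' * ι v ∈ IsLocalRing.maximalIdeal S := by
      refine Ideal.mul_mem_left _ _ ?_
      rw [← IsLocalization.AtPrime.map_eq_maximalIdeal 𝔫 S]
      exact Ideal.mem_map_of_mem _ hv𝔫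
    have := Submodule.smul_mem_smul hmem (Ideal.mem_map_of_mem ι hb)
    rwa [smul_eq_mul] at this
  intro r hr
  obtain ⟨c, hc⟩ := Ideal.mem_span_singleton'.1 (hle (Ideal.mem_map_of_mem ι hr))
  obtain ⟨⟨c₀, t⟩, hct⟩ := IsLocalization.surj 𝔫.primeCompl c
  have hct' : c * ι (t : R) = ι c₀ := hct
  have h2 : ι ((t : R) * r) = ι (c₀ * u) := by
    rw [map_mul, map_mul, ← hc, ← hct']; ring
  obtain ⟨t', ht'⟩ := IsLocalization.exists_of_eq (M := 𝔫.primeCompl) h2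
  refine ⟨(t' : R) * (t : R), (t' : R) * c₀, ?_, ?_⟩
  · exact fun h => (h𝔫.mem_or_mem h).elim t'.2 t.2
  · rw [mul_assoc, ht']; ring

end Abstract

open ModularCurve Fermat.Agent.S28.Gauss Fermat.Agent.N4.Setting Fermat.Agent.N4.FibreEmbedding
open Fermat.Agent.N4.Chart
open Fermat.Agent.N4F.E.DegreeLevelRaise Fermat.Agent.N4F.E.GaussDVR AlgebraicCurve Polynomial
open Fermat.Agent.N4F.E IsLocalRing Fermat.Agent.P3G.RbarFin Fermat.Agent.P3G.TwoComponents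
open Fermat.Agent.P3G.TwoComponentsFinal Fermat.Agent.P3G Fermat.Agent.P4
open Fermat.Agent.P4.TwistRoots Fermat.Agent.P3G.UCrit
open Fermat.Agent.S40.W.F4Level
open Fermat.Agent.N4.BaseDescent Fermat.Agent.S19.Cech.LevelBasis
open Fermat.Agent.S36.R1.CrossingRegular
open Fermat.Agent.S40.M1.NodeHonest Fermat.Agent.S40.M1.AlphaNodeLevel

/-! ### Two levels `(K₀, O₀) → (K, O)` -/

section TwoLevels

variable (K₀ K : Type) [Field K₀] [CharZero K₀] [Field K] [CharZero K]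
  (N : ℕ) [NeZero N] (ℓ : ℕ) [Fact ℓ.Prime]
  (O₀ : Subring K₀) [IsDiscreteValuationRing ↥O₀] [IsFractionRing ↥O₀ K₀]
  [CharP (IsLocalRing.ResidueField ↥O₀) ℓ] [PerfectRing (IsLocalRing.ResidueField ↥O₀) ℓ]
  (O : Subring K) [IsDiscreteValuationRing ↥O] [IsFractionRing ↥O K]
  [CharP (IsLocalRing.ResidueField ↥O) ℓ] [PerfectRing (IsLocalRing.ResidueField ↥O) ℓ]
  (f : K₀ →+* K) (hOO' : ∀ a ∈ O₀, f a ∈ O)

set_option synthInstance.maxHeartbeats 400000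

variable (hℓN : ¬ ℓ ∣ N)
  (hN₀ : IsUnit ((N : ℕ) : ↥O₀)) (ι₀ : K₀ →+* ℂ)
  (hprime₀ : (fibreIdeal K₀ N O₀ (Rfin K₀ N O₀)).IsPrime)
  (hsmooth₀ : IsDedekindDomain (↥(Rfin K₀ N O₀) ⧸ fibreIdeal K₀ N O₀ (Rfin K₀ N O₀)))
  (hA2₀ : ∀ x : ↥(gaussSubalgebra K₀ N O₀),
    theta K₀ N O₀ x ∈ modularFunctionFieldFullC (IsLocalRing.ResidueField ↥O₀) N)
  (T₂ : FibreTwo.SecondVal K₀ N ℓ O₀)
  {ϖ₀ : ↥O₀} (hϖ₀ : Irreducible ϖ₀)
  (S₂ : FibreTwo.SecondVal K N ℓ O)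

variable {K₀ K N ℓ O₀ O f hOO' T₂ S₂}

include hℓN hN₀ ι₀ hprime₀ hsmooth₀ hA2₀ hϖ₀ in
/-- **The second branch at the small level is generated by `u₀`** locally at `𝔫₀ = 𝔫 ∩ R₀`. -/
theorem branch₂_of_honestNode {𝔫 : Ideal ↥(Rfin K (N * ℓ) O)} [h𝔫 : 𝔫.IsMaximal]
    {u₀ v₀ G₀ : ↥(Rfin K₀ (N * ℓ) O₀)}
    (hn : HonestNode K₀ K N ℓ O₀ O f hOO' S₂ 𝔫 u₀ v₀ G₀)
    (H : LevelRestrictHyp K₀ K N ℓ O₀ O f hOO' T₂ S₂) (ht₂ : Through S₂.V 𝔫) :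
    ∀ r : ↥(Rfin K₀ (N * ℓ) O₀), (r : FF K₀ (N * ℓ)) ∈ T₂.V.nonunits →
      ∃ s c' : ↥(Rfin K₀ (N * ℓ) O₀), s ∉ 𝔫.comap (finMap f (N * ℓ) O₀ O hOO') ∧
        s * r = c' * u₀ := by
  haveI := Fermat.Agent.N4F.C.ChartDataLevel.isNoetherianRing_Rfin K₀ (N * ℓ) O₀
  have hS := BranchNormalLevel.setup_fin K₀ N ℓ O₀ hN₀ ι₀ hℓN hprime₀ hsmooth₀ hA2₀ T₂ hϖ₀
  set φ := finMap f (N * ℓ) O₀ O hOO' with hφ
  haveI : (𝔫.comap φ).IsPrime := Ideal.comap_isPrime _ _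
  have hv₀ : (v₀ : FF K₀ (N * ℓ)) ∉ T₂.V.nonunits := by
    intro h
    have h1 := (H.second v₀).2 h
    rw [S₂.V.mem_nonunits_iff, hn.val₂_v] at h1
    exact lt_irrefl _ h1
  have hV₂v : T₂.V.valuation (v₀ : FF K₀ (N * ℓ)) = 1 := by
    refine le_antisymm ((T₂.V.valuation_le_one_iff _).2 (hS.mem₂ v₀)) ?_
    exact not_lt.1 fun hlt => hv₀ (T₂.V.mem_nonunits_iff.2 hlt)
  have key := exists_mul_eq_mul_of_gen (𝔫.comap φ) (RingHom.ker (theta2S K₀ N ℓ O₀ T₂))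
    (u := u₀) (v := v₀)
    ((mem_nonunits_secondVal_iff_theta2S K₀ N ℓ O₀ T₂ u₀).1 ((H.second u₀).1 hn.nonunit₂_u))
    (Ideal.mem_comap.2 hn.mem_v)
    (fun r hr => H.through₂ ht₂ r ((mem_nonunits_secondVal_iff_theta2S K₀ N ℓ O₀ T₂ r).2 hr))
    (fun b hb => by
      have h1 := (mem_nonunits_secondVal_iff_theta2S K₀ N ℓ O₀ T₂ (b * v₀)).2 hb
      rw [RingHom.mem_ker, ← mem_nonunits_secondVal_iff_theta2S K₀ N ℓ O₀ T₂ b,
        T₂.V.mem_nonunits_iff]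
      rw [T₂.V.mem_nonunits_iff] at h1
      have h2 : ((b * v₀ : ↥(Rfin K₀ (N * ℓ) O₀)) : FF K₀ (N * ℓ)) =
          (b : FF K₀ (N * ℓ)) * (v₀ : FF K₀ (N * ℓ)) := rfl
      rwa [h2, map_mul, hV₂v, mul_one] at h1)
    hn.gen₀
  intro r hr
  exact key r ((mem_nonunits_secondVal_iff_theta2S K₀ N ℓ O₀ T₂ r).1 hr)

include hℓN hN₀ ι₀ hprime₀ hsmooth₀ hA2₀ hϖ₀ in
/-- **The first branch at the small level is generated by `v₀`** locally at `𝔫₀ = 𝔫 ∩ R₀`. -/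
theorem branch₁_of_honestNode {𝔫 : Ideal ↥(Rfin K (N * ℓ) O)} [h𝔫 : 𝔫.IsMaximal]
    {u₀ v₀ G₀ : ↥(Rfin K₀ (N * ℓ) O₀)}
    (hn : HonestNode K₀ K N ℓ O₀ O f hOO' S₂ 𝔫 u₀ v₀ G₀)
    (H : LevelRestrictHyp K₀ K N ℓ O₀ O f hOO' T₂ S₂)
    (ht₁ : Through (gaussVS K (N * ℓ) O) 𝔫) :
    ∀ r : ↥(Rfin K₀ (N * ℓ) O₀), (r : FF K₀ (N * ℓ)) ∈ (gaussVS K₀ (N * ℓ) O₀).nonunits →
      ∃ s c' : ↥(Rfin K₀ (N * ℓ) O₀), s ∉ 𝔫.comap (finMap f (N * ℓ) O₀ O hOO') ∧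
        s * r = c' * v₀ := by
  haveI := Fermat.Agent.N4F.C.ChartDataLevel.isNoetherianRing_Rfin K₀ (N * ℓ) O₀
  have hS := BranchNormalLevel.setup_fin K₀ N ℓ O₀ hN₀ ι₀ hℓN hprime₀ hsmooth₀ hA2₀ T₂ hϖ₀
  set φ := finMap f (N * ℓ) O₀ O hOO' with hφ
  haveI : (𝔫.comap φ).IsPrime := Ideal.comap_isPrime _ _
  have hu₀ : (u₀ : FF K₀ (N * ℓ)) ∉ (gaussVS K₀ (N * ℓ) O₀).nonunits := by
    intro h
    have h1 := (H.gauss u₀).2 h
    rw [(gaussVS K (N * ℓ) O).mem_nonunits_iff, hn.val₁_u] at h1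
    exact lt_irrefl _ h1
  have hV₁u : (gaussVS K₀ (N * ℓ) O₀).valuation (u₀ : FF K₀ (N * ℓ)) = 1 := by
    refine le_antisymm (((gaussVS K₀ (N * ℓ) O₀).valuation_le_one_iff _).2 (hS.mem₁ u₀)) ?_
    exact not_lt.1 fun hlt => hu₀ ((gaussVS K₀ (N * ℓ) O₀).mem_nonunits_iff.2 hlt)
  have hgen' : ∀ x ∈ 𝔫.comap φ, ∃ s a b : ↥(Rfin K₀ (N * ℓ) O₀),
      s ∉ 𝔫.comap φ ∧ s * x = a * v₀ + b * u₀ := by
    intro x hx
    obtain ⟨s, a, b, hs, h⟩ := hn.gen₀ x hx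
    exact ⟨s, b, a, hs, by rw [h, add_comm]⟩
  have key := exists_mul_eq_mul_of_gen (𝔫.comap φ) (RingHom.ker (thetaFin K₀ (N * ℓ) O₀))
    (u := v₀) (v := u₀)
    ((mem_nonunits_gaussVS_iff_thetaFin K₀ N ℓ O₀ v₀).1 ((H.gauss v₀).1 hn.nonunit₁_v))
    (Ideal.mem_comap.2 hn.mem_u)
    (fun r hr => H.through₁ ht₁ r ((mem_nonunits_gaussVS_iff_thetaFin K₀ N ℓ O₀ r).2 hr))
    (fun b hb => by
      have h1 := (mem_nonunits_gaussVS_iff_thetaFin K₀ N ℓ O₀ (b * u₀)).2 hb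
      rw [RingHom.mem_ker, ← mem_nonunits_gaussVS_iff_thetaFin K₀ N ℓ O₀ b,
        (gaussVS K₀ (N * ℓ) O₀).mem_nonunits_iff]
      rw [(gaussVS K₀ (N * ℓ) O₀).mem_nonunits_iff] at h1
      have h2 : ((b * u₀ : ↥(Rfin K₀ (N * ℓ) O₀)) : FF K₀ (N * ℓ)) =
          (b : FF K₀ (N * ℓ)) * (u₀ : FF K₀ (N * ℓ)) := rfl
      rwa [h2, map_mul, hV₁u, mul_one] at h1)
    hgen'
  intro r hr
  exact key r ((mem_nonunits_gaussVS_iff_thetaFin K₀ N ℓ O₀ r).1 hr)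

include hℓN hN₀ ι₀ hprime₀ hsmooth₀ hA2₀ hϖ₀ in
/-- **(ALPHA) at the big level**: `s · α(φ z₀) = φ u₀ · A + (φ v₀) ^ ℓ · E` with `s, A, E ∉ 𝔫`, for
`z₀ ∈ Rfin K₀ N O₀` a local parameter of the special fibre of level `N` at the point `α(s)` below the
crossing point `𝔫₀ = 𝔫 ∩ R₀` of the small level. -/
theorem alpha_eq_of_honestNode {𝔫 : Ideal ↥(Rfin K (N * ℓ) O)} [h𝔫 : 𝔫.IsMaximal]
    {u₀ v₀ G₀ : ↥(Rfin K₀ (N * ℓ) O₀)}
    (hn : HonestNode K₀ K N ℓ O₀ O f hOO' S₂ 𝔫 u₀ v₀ G₀)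
    (H : LevelRestrictHyp K₀ K N ℓ O₀ O f hOO' T₂ S₂)
    (ht₁ : Through (gaussVS K (N * ℓ) O) 𝔫) (ht₂ : Through S₂.V 𝔫)
    {z₀ : ↥(Rfin K₀ N O₀)}
    (hz : th K₀ N O₀ z₀ ∈ (𝔫.comap (finMap f (N * ℓ) O₀ O hOO')).map
      (th₁ K₀ N ℓ O₀ hN₀ ι₀ hℓN hprime₀ hsmooth₀ hA2₀ T₂))
    (hz2 : th K₀ N O₀ z₀ ∉ ((𝔫.comap (finMap f (N * ℓ) O₀ O hOO')).map
      (th₁ K₀ N ℓ O₀ hN₀ ι₀ hℓN hprime₀ hsmooth₀ hA2₀ T₂)) ^ 2) :
    ∃ s A E : ↥(Rfin K (N * ℓ) O), s ∉ 𝔫 ∧ A ∉ 𝔫 ∧ E ∉ 𝔫 ∧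
      s * LevelIntegrality.alphaR K N ℓ O (finMap f N O₀ O hOO' z₀) =
        finMap f (N * ℓ) O₀ O hOO' u₀ * A + finMap f (N * ℓ) O₀ O hOO' v₀ ^ ℓ * E := by
  set φ := finMap f (N * ℓ) O₀ O hOO' with hφ
  haveI h𝔫₀ : (𝔫.comap φ).IsMaximal := H.isMaximal_comap ht₁
  obtain ⟨s, A, E, hs, hA, hE, h⟩ := alpha_eq_fin_val K₀ N ℓ O₀ hN₀ ι₀ hℓN hprime₀ hsmooth₀ hA2₀ T₂
    (𝔫.comap φ) (H.through₁ ht₁) (H.through₂ ht₂) (Ideal.mem_comap.2 hn.mem_u)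
    (Ideal.mem_comap.2 hn.mem_v) ((H.second u₀).1 hn.nonunit₂_u) ((H.gauss v₀).1 hn.nonunit₁_v)
    (branch₂_of_honestNode hℓN hN₀ ι₀ hprime₀ hsmooth₀ hA2₀ hϖ₀ hn H ht₂) hn.gen₀ hz hz2
  refine ⟨φ s, φ A, φ E, fun h' => hs (Ideal.mem_comap.2 h'), fun h' => hA (Ideal.mem_comap.2 h'),
    fun h' => hE (Ideal.mem_comap.2 h'), ?_⟩
  have h1 := congrArg φ h
  rw [map_mul, map_add, map_mul, map_mul, map_pow] at h1
  rw [← h1, hφ, SmoothPoint.finMap_alphaR]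

include hℓN hN₀ ι₀ hprime₀ hsmooth₀ hA2₀ hϖ₀ in
/-- **(ALPHA), mirror, at the big level**: `s · β(φ z₀') = φ v₀ · A + (φ u₀) ^ ℓ · E` with
`s, A, E ∉ 𝔫`, for `z₀' ∈ Rfin K₀ N O₀` a local parameter of the special fibre of level `N` at the
point `β(s)`. -/
theorem beta_eq_of_honestNode {𝔫 : Ideal ↥(Rfin K (N * ℓ) O)} [h𝔫 : 𝔫.IsMaximal]
    {u₀ v₀ G₀ : ↥(Rfin K₀ (N * ℓ) O₀)}
    (hn : HonestNode K₀ K N ℓ O₀ O f hOO' S₂ 𝔫 u₀ v₀ G₀)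
    (H : LevelRestrictHyp K₀ K N ℓ O₀ O f hOO' T₂ S₂)
    (ht₁ : Through (gaussVS K (N * ℓ) O) 𝔫) (ht₂ : Through S₂.V 𝔫)
    {z₀' : ↥(Rfin K₀ N O₀)}
    (hz : th K₀ N O₀ z₀' ∈ (𝔫.comap (finMap f (N * ℓ) O₀ O hOO')).map
      (th₂ K₀ N ℓ O₀ hN₀ hprime₀ hsmooth₀ hA2₀ T₂))
    (hz2 : th K₀ N O₀ z₀' ∉ ((𝔫.comap (finMap f (N * ℓ) O₀ O hOO')).map
      (th₂ K₀ N ℓ O₀ hN₀ hprime₀ hsmooth₀ hA2₀ T₂)) ^ 2) :
    ∃ s A E : ↥(Rfin K (N * ℓ) O), s ∉ 𝔫 ∧ A ∉ 𝔫 ∧ E ∉ 𝔫 ∧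
      s * LevelIntegrality.betaR K N ℓ O (finMap f N O₀ O hOO' z₀') =
        finMap f (N * ℓ) O₀ O hOO' v₀ * A + finMap f (N * ℓ) O₀ O hOO' u₀ ^ ℓ * E := by
  set φ := finMap f (N * ℓ) O₀ O hOO' with hφ
  haveI h𝔫₀ : (𝔫.comap φ).IsMaximal := H.isMaximal_comap ht₁
  obtain ⟨s, A, E, hs, hA, hE, h⟩ := beta_eq_fin_val K₀ N ℓ O₀ hN₀ ι₀ hℓN hprime₀ hsmooth₀ hA2₀ T₂
    (𝔫.comap φ) (H.through₁ ht₁) (H.through₂ ht₂) (Ideal.mem_comap.2 hn.mem_u)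
    (Ideal.mem_comap.2 hn.mem_v) ((H.second u₀).1 hn.nonunit₂_u) ((H.gauss v₀).1 hn.nonunit₁_v)
    (branch₁_of_honestNode hℓN hN₀ ι₀ hprime₀ hsmooth₀ hA2₀ hϖ₀ hn H ht₁) hn.gen₀ hz hz2
  refine ⟨φ s, φ A, φ E, fun h' => hs (Ideal.mem_comap.2 h'), fun h' => hA (Ideal.mem_comap.2 h'),
    fun h' => hE (Ideal.mem_comap.2 h'), ?_⟩
  have h1 := congrArg φ h
  rw [map_mul, map_add, map_mul, map_mul, map_pow] at h1
  rw [← h1, hφ, SmoothPoint.finMap_betaR]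

include hℓN hN₀ ι₀ hprime₀ hsmooth₀ hA2₀ in
/-- The point `α(s)` of the small level below `α(s')`, in the two vocabularies
(`SmoothPoint.maximalIdeal_eq_span_finMap` ↔ `AlphaNodeLevel.exists_local_parameter_alpha`). -/
theorem map_th_comap_alphaR (𝔫 : Ideal ↥(Rfin K (N * ℓ) O))
    [h𝔫₀ : (𝔫.comap (finMap f (N * ℓ) O₀ O hOO')).IsMaximal]
    (hk1 : RingHom.ker (thetaFin K₀ (N * ℓ) O₀) ≤ 𝔫.comap (finMap f (N * ℓ) O₀ O hOO')) :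
    ((𝔫.comap (LevelIntegrality.alphaR K N ℓ O).toRingHom).comap (finMap f N O₀ O hOO')).map
        (th K₀ N O₀) =
      (𝔫.comap (finMap f (N * ℓ) O₀ O hOO')).map
        (th₁ K₀ N ℓ O₀ hN₀ ι₀ hℓN hprime₀ hsmooth₀ hA2₀ T₂) := by
  rw [SmoothPoint.comap_alphaR_comap_finMap]
  exact map_comap_alphaR K₀ N ℓ O₀ hN₀ ι₀ hℓN hprime₀ hsmooth₀ hA2₀ T₂ _ hk1

include hℓN hN₀ ι₀ hprime₀ hsmooth₀ hA2₀ in
/-- The point `β(s)` of the small level below `β(s')`, in the two vocabularies. -/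
theorem map_th_comap_betaR (𝔫 : Ideal ↥(Rfin K (N * ℓ) O))
    [h𝔫₀ : (𝔫.comap (finMap f (N * ℓ) O₀ O hOO')).IsMaximal]
    (hk2 : RingHom.ker (theta2S K₀ N ℓ O₀ T₂) ≤ 𝔫.comap (finMap f (N * ℓ) O₀ O hOO')) :
    ((𝔫.comap (LevelIntegrality.betaR K N ℓ O).toRingHom).comap (finMap f N O₀ O hOO')).map
        (th K₀ N O₀) =
      (𝔫.comap (finMap f (N * ℓ) O₀ O hOO')).map
        (th₂ K₀ N ℓ O₀ hN₀ hprime₀ hsmooth₀ hA2₀ T₂) := by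
  rw [SmoothPoint.comap_betaR_comap_finMap]
  exact map_comap_betaR K₀ N ℓ O₀ hN₀ ι₀ hℓN hprime₀ hsmooth₀ hA2₀ T₂ _ hk2

include hℓN hN₀ ι₀ hprime₀ hsmooth₀ hA2₀ hϖ₀ in
/-- **(ALPHA) at the big level, `SmoothPoint` vocabulary**: the hypotheses on `z₀` are those of
`SmoothPoint.maximalIdeal_eq_span_finMap` at `𝔪' = s̃ = 𝔫.comap α`. -/
theorem alpha_eq_of_honestNode' {𝔫 : Ideal ↥(Rfin K (N * ℓ) O)} [h𝔫 : 𝔫.IsMaximal]
    {u₀ v₀ G₀ : ↥(Rfin K₀ (N * ℓ) O₀)}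
    (hn : HonestNode K₀ K N ℓ O₀ O f hOO' S₂ 𝔫 u₀ v₀ G₀)
    (H : LevelRestrictHyp K₀ K N ℓ O₀ O f hOO' T₂ S₂)
    (ht₁ : Through (gaussVS K (N * ℓ) O) 𝔫) (ht₂ : Through S₂.V 𝔫)
    {z₀ : ↥(Rfin K₀ N O₀)}
    (hz : th K₀ N O₀ z₀ ∈ ((𝔫.comap (LevelIntegrality.alphaR K N ℓ O).toRingHom).comap
      (finMap f N O₀ O hOO')).map (th K₀ N O₀))
    (hz2 : th K₀ N O₀ z₀ ∉ (((𝔫.comap (LevelIntegrality.alphaR K N ℓ O).toRingHom).comap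
      (finMap f N O₀ O hOO')).map (th K₀ N O₀)) ^ 2) :
    ∃ s A E : ↥(Rfin K (N * ℓ) O), s ∉ 𝔫 ∧ A ∉ 𝔫 ∧ E ∉ 𝔫 ∧
      s * LevelIntegrality.alphaR K N ℓ O (finMap f N O₀ O hOO' z₀) =
        finMap f (N * ℓ) O₀ O hOO' u₀ * A + finMap f (N * ℓ) O₀ O hOO' v₀ ^ ℓ * E := by
  haveI h𝔫₀ : (𝔫.comap (finMap f (N * ℓ) O₀ O hOO')).IsMaximal := H.isMaximal_comap ht₁
  have hk1 : RingHom.ker (thetaFin K₀ (N * ℓ) O₀) ≤ 𝔫.comap (finMap f (N * ℓ) O₀ O hOO') :=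
    fun r hr => H.through₁ ht₁ r ((mem_nonunits_gaussVS_iff_thetaFin K₀ N ℓ O₀ r).2 hr)
  rw [map_th_comap_alphaR hℓN hN₀ ι₀ hprime₀ hsmooth₀ hA2₀ (T₂ := T₂) 𝔫 hk1] at hz hz2
  exact alpha_eq_of_honestNode hℓN hN₀ ι₀ hprime₀ hsmooth₀ hA2₀ hϖ₀ hn H ht₁ ht₂ hz hz2

include hℓN hN₀ ι₀ hprime₀ hsmooth₀ hA2₀ hϖ₀ in
/-- **(ALPHA), mirror, at the big level, `SmoothPoint` vocabulary** (`𝔪' = s̃' = 𝔫.comap β`). -/
theorem beta_eq_of_honestNode' {𝔫 : Ideal ↥(Rfin K (N * ℓ) O)} [h𝔫 : 𝔫.IsMaximal]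
    {u₀ v₀ G₀ : ↥(Rfin K₀ (N * ℓ) O₀)}
    (hn : HonestNode K₀ K N ℓ O₀ O f hOO' S₂ 𝔫 u₀ v₀ G₀)
    (H : LevelRestrictHyp K₀ K N ℓ O₀ O f hOO' T₂ S₂)
    (ht₁ : Through (gaussVS K (N * ℓ) O) 𝔫) (ht₂ : Through S₂.V 𝔫)
    {z₀' : ↥(Rfin K₀ N O₀)}
    (hz : th K₀ N O₀ z₀' ∈ ((𝔫.comap (LevelIntegrality.betaR K N ℓ O).toRingHom).comap
      (finMap f N O₀ O hOO')).map (th K₀ N O₀))
    (hz2 : th K₀ N O₀ z₀' ∉ (((𝔫.comap (LevelIntegrality.betaR K N ℓ O).toRingHom).comap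
      (finMap f N O₀ O hOO')).map (th K₀ N O₀)) ^ 2) :
    ∃ s A E : ↥(Rfin K (N * ℓ) O), s ∉ 𝔫 ∧ A ∉ 𝔫 ∧ E ∉ 𝔫 ∧
      s * LevelIntegrality.betaR K N ℓ O (finMap f N O₀ O hOO' z₀') =
        finMap f (N * ℓ) O₀ O hOO' v₀ * A + finMap f (N * ℓ) O₀ O hOO' u₀ ^ ℓ * E := by
  haveI h𝔫₀ : (𝔫.comap (finMap f (N * ℓ) O₀ O hOO')).IsMaximal := H.isMaximal_comap ht₁
  have hk2 : RingHom.ker (theta2S K₀ N ℓ O₀ T₂) ≤ 𝔫.comap (finMap f (N * ℓ) O₀ O hOO') :=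
    fun r hr => H.through₂ ht₂ r ((mem_nonunits_secondVal_iff_theta2S K₀ N ℓ O₀ T₂ r).2 hr)
  rw [map_th_comap_betaR hℓN hN₀ ι₀ hprime₀ hsmooth₀ hA2₀ (T₂ := T₂) 𝔫 hk2] at hz hz2
  exact beta_eq_of_honestNode hℓN hN₀ ι₀ hprime₀ hsmooth₀ hA2₀ hϖ₀ hn H ht₁ ht₂ hz hz2

end TwoLevels

/-! ### One level: local parameters at `α(s)`, `β(s)` in the `comap` vocabulary -/

section OneLevel

variable (K : Type) [Field K] [CharZero K] (N : ℕ) [NeZero N] (ℓ : ℕ) [Fact ℓ.Prime]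
  (O : Subring K) [IsDiscreteValuationRing ↥O] [IsFractionRing ↥O K]
  [CharP (IsLocalRing.ResidueField ↥O) ℓ] [PerfectRing (IsLocalRing.ResidueField ↥O) ℓ]

set_option synthInstance.maxHeartbeats 400000

variable (hN : IsUnit ((N : ℕ) : ↥O)) (ι : K →+* ℂ) (hℓN : ¬ ℓ ∣ N)
  (hprime : (fibreIdeal K N O (Rfin K N O)).IsPrime)
  (hsmooth : IsDedekindDomain (↥(Rfin K N O) ⧸ fibreIdeal K N O (Rfin K N O)))
  (hA2 : ∀ x : ↥(gaussSubalgebra K N O),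
    theta K N O x ∈ modularFunctionFieldFullC (IsLocalRing.ResidueField ↥O) N)
  (S₂ : FibreTwo.SecondVal K N ℓ O)
  (𝔫 : Ideal ↥(Rfin K (N * ℓ) O)) [h𝔫 : 𝔫.IsMaximal]

include hN ι hℓN hprime hsmooth hA2 S₂ in
/-- A local parameter of the special fibre of level `N` at the point `s̃ = 𝔫.comap α` below a crossing
point `𝔫` of level `N ℓ`. -/
theorem exists_local_parameter_comap_alphaR (ht₁ : Through (gaussVS K (N * ℓ) O) 𝔫) :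
    ∃ z : ↥(Rfin K N O),
      th K N O z ∈ (𝔫.comap (LevelIntegrality.alphaR K N ℓ O).toRingHom).map (th K N O) ∧
      th K N O z ∉ ((𝔫.comap (LevelIntegrality.alphaR K N ℓ O).toRingHom).map (th K N O)) ^ 2 := by
  have hk1 : RingHom.ker (thetaFin K (N * ℓ) O) ≤ 𝔫 :=
    fun r hr => ht₁ r ((mem_nonunits_gaussVS_iff_thetaFin K N ℓ O r).2 hr)
  rw [map_comap_alphaR K N ℓ O hN ι hℓN hprime hsmooth hA2 S₂ 𝔫 hk1]
  exact exists_local_parameter_alpha K N ℓ O hN ι hℓN hprime hsmooth hA2 S₂ 𝔫 hk1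

include hN ι hℓN hprime hsmooth hA2 in
/-- A local parameter of the special fibre of level `N` at the point `s̃' = 𝔫.comap β`. -/
theorem exists_local_parameter_comap_betaR (ht₂ : Through S₂.V 𝔫) :
    ∃ z' : ↥(Rfin K N O),
      th K N O z' ∈ (𝔫.comap (LevelIntegrality.betaR K N ℓ O).toRingHom).map (th K N O) ∧
      th K N O z' ∉ ((𝔫.comap (LevelIntegrality.betaR K N ℓ O).toRingHom).map (th K N O)) ^ 2 := by
  have hk2 : RingHom.ker (theta2S K N ℓ O S₂) ≤ 𝔫 :=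
    fun r hr => ht₂ r ((mem_nonunits_secondVal_iff_theta2S K N ℓ O S₂ r).2 hr)
  rw [map_comap_betaR K N ℓ O hN ι hℓN hprime hsmooth hA2 S₂ 𝔫 hk2]
  exact exists_local_parameter_beta K N ℓ O hN ι hℓN hprime hsmooth hA2 S₂ 𝔫 hk2

end OneLevel

/-! ### Levels `K₀ ≤ K` of `Q̄`: `K₀` unramified, `K` good (binder block of `NodeHonest`, section
`Levels`) -/

section Levels

open Fermat.Agent.N4.S18Glue Fermat.Agent.N4.BigDVR
  Fermat.Agent.P3G.Assembly.StepOfLevel Fermat.Agent.P3G.Assembly.LevelStep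
  Fermat.Agent.N4F.C Fermat.Agent.N4F.C.Levels Fermat.Agent.N4F.C.Galois
  Fermat.Agent.S33.L.Contracts Fermat.Agent.N4F.C.ChartFibre
  Fermat.Agent.S36.Descent.UnramLevel Fermat.Agent.P3G.Gamma

local notation "Qbar" => AlgebraicClosure ℚ

variable (N p : ℕ) [NeZero N] [Fact p.Prime] (hpN : ¬ p ∣ N)
  (A : ValuationSubring Qbar) (hA : A.LiesOverPrime p)
  {K₀ K : IntermediateField ℚ Qbar} (hKL : K₀ ≤ K)
  (hK₀ : IsUnramLevel A p K₀) (hK : IsGoodLevel A p K)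
  [IsDiscreteValuationRing ↥(baseRing A K₀)] [IsDiscreteValuationRing ↥(baseRing A K)]
  [CharP (IsLocalRing.ResidueField ↥(baseRing A K₀)) p]
  [PerfectRing (IsLocalRing.ResidueField ↥(baseRing A K₀)) p]
  [CharP (IsLocalRing.ResidueField ↥(baseRing A K)) p]
  [PerfectRing (IsLocalRing.ResidueField ↥(baseRing A K)) p]
  (hA2₀ : ∀ x : ↥(gaussSubalgebra (Lvl K₀) N (baseRing A K₀)),
    theta (Lvl K₀) N (baseRing A K₀) x ∈
      modularFunctionFieldFullC (IsLocalRing.ResidueField ↥(baseRing A K₀)) N)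
  (hA2 : ∀ x : ↥(gaussSubalgebra (Lvl K) N (baseRing A K)),
    theta (Lvl K) N (baseRing A K) x ∈
      modularFunctionFieldFullC (IsLocalRing.ResidueField ↥(baseRing A K)) N)
  (S₂ : Fermat.Agent.P3G.FibreTwo.SecondVal (Lvl K) N p (baseRing A K))

set_option maxHeartbeats 1600000 in
set_option synthInstance.maxHeartbeats 400000 in
include hpN hA hK₀ hK hA2₀ hA2 in
/-- **(D5), α-side, at levels**: `s · α(finIncl z₀) = finIncl u₀ · A + (finIncl v₀) ^ p · E`,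
`s, A, E ∉ 𝔫`, for `z₀` over `K₀` reducing to a local parameter at the point below
`s̃ = 𝔫.comap α` (the hypotheses of `SmoothPoint.maximalIdeal_eq_span_finIncl` at `𝔪' = s̃`). -/
theorem alpha_eq_levels
    {𝔫 : Ideal ↥(Rfin (Lvl K) (N * p) (baseRing A K))} [h𝔫 : 𝔫.IsMaximal]
    {u₀ v₀ G₀ : ↥(Rfin (Lvl K₀) (N * p) (baseRing A K₀))}
    (hn : HonestNode (Lvl K₀) (Lvl K) N p (baseRing A K₀) (baseRing A K) (lvlIncl hKL)
      (lvlIncl_mem A hKL) S₂ 𝔫 u₀ v₀ G₀)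
    (ht₁ : Through (gaussVS (Lvl K) (N * p) (baseRing A K)) 𝔫) (ht₂ : Through S₂.V 𝔫)
    {z₀ : ↥(Rfin (Lvl K₀) N (baseRing A K₀))}
    (hz : th (Lvl K₀) N (baseRing A K₀) z₀ ∈
      ((𝔫.comap (LevelIntegrality.alphaR (Lvl K) N p (baseRing A K)).toRingHom).comap
        (finIncl A N hKL)).map (th (Lvl K₀) N (baseRing A K₀)))
    (hz2 : th (Lvl K₀) N (baseRing A K₀) z₀ ∉
      (((𝔫.comap (LevelIntegrality.alphaR (Lvl K) N p (baseRing A K)).toRingHom).comap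
        (finIncl A N hKL)).map (th (Lvl K₀) N (baseRing A K₀))) ^ 2) :
    ∃ s A' E : ↥(Rfin (Lvl K) (N * p) (baseRing A K)), s ∉ 𝔫 ∧ A' ∉ 𝔫 ∧ E ∉ 𝔫 ∧
      s * LevelIntegrality.alphaR (Lvl K) N p (baseRing A K) (finIncl A N hKL z₀) =
        finIncl A (N * p) hKL u₀ * A' + finIncl A (N * p) hKL v₀ ^ p * E := by
  obtain ⟨hN₀, hprime₀, hsm₀, -, -, -, -⟩ := levelFacts_unram N p hpN A hA K₀ hK₀
  obtain ⟨T₂⟩ := Fermat.Agent.P3G.FibreTwo.nonempty_secondVal (Lvl K₀) N p (baseRing A K₀)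
    (Fermat.Agent.P3G.GammaV2.lvlToComplex K₀) hpN hprime₀ hA2₀
  have H := levelRestrictHyp_levels N p hpN A hA hKL hK₀ hK hA2₀ hA2 T₂ S₂
  exact alpha_eq_of_honestNode' hpN hN₀ (Fermat.Agent.P3G.GammaV2.lvlToComplex K₀) hprime₀ hsm₀
    hA2₀ hK₀.irred hn H ht₁ ht₂ hz hz2

set_option maxHeartbeats 1600000 in
set_option synthInstance.maxHeartbeats 400000 in
include hpN hA hK₀ hK hA2₀ hA2 in
/-- **(D5), β-side, at levels**: `s · β(finIncl z₀') = finIncl v₀ · A + (finIncl u₀) ^ p · E`. -/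
theorem beta_eq_levels
    {𝔫 : Ideal ↥(Rfin (Lvl K) (N * p) (baseRing A K))} [h𝔫 : 𝔫.IsMaximal]
    {u₀ v₀ G₀ : ↥(Rfin (Lvl K₀) (N * p) (baseRing A K₀))}
    (hn : HonestNode (Lvl K₀) (Lvl K) N p (baseRing A K₀) (baseRing A K) (lvlIncl hKL)
      (lvlIncl_mem A hKL) S₂ 𝔫 u₀ v₀ G₀)
    (ht₁ : Through (gaussVS (Lvl K) (N * p) (baseRing A K)) 𝔫) (ht₂ : Through S₂.V 𝔫)
    {z₀' : ↥(Rfin (Lvl K₀) N (baseRing A K₀))}
    (hz : th (Lvl K₀) N (baseRing A K₀) z₀' ∈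
      ((𝔫.comap (LevelIntegrality.betaR (Lvl K) N p (baseRing A K)).toRingHom).comap
        (finIncl A N hKL)).map (th (Lvl K₀) N (baseRing A K₀)))
    (hz2 : th (Lvl K₀) N (baseRing A K₀) z₀' ∉
      (((𝔫.comap (LevelIntegrality.betaR (Lvl K) N p (baseRing A K)).toRingHom).comap
        (finIncl A N hKL)).map (th (Lvl K₀) N (baseRing A K₀))) ^ 2) :
    ∃ s A' E : ↥(Rfin (Lvl K) (N * p) (baseRing A K)), s ∉ 𝔫 ∧ A' ∉ 𝔫 ∧ E ∉ 𝔫 ∧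
      s * LevelIntegrality.betaR (Lvl K) N p (baseRing A K) (finIncl A N hKL z₀') =
        finIncl A (N * p) hKL v₀ * A' + finIncl A (N * p) hKL u₀ ^ p * E := by
  obtain ⟨hN₀, hprime₀, hsm₀, -, -, -, -⟩ := levelFacts_unram N p hpN A hA K₀ hK₀
  obtain ⟨T₂⟩ := Fermat.Agent.P3G.FibreTwo.nonempty_secondVal (Lvl K₀) N p (baseRing A K₀)
    (Fermat.Agent.P3G.GammaV2.lvlToComplex K₀) hpN hprime₀ hA2₀
  have H := levelRestrictHyp_levels N p hpN A hA hKL hK₀ hK hA2₀ hA2 T₂ S₂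
  exact beta_eq_of_honestNode' hpN hN₀ (Fermat.Agent.P3G.GammaV2.lvlToComplex K₀) hprime₀ hsm₀
    hA2₀ hK₀.irred hn H ht₁ ht₂ hz hz2

set_option maxHeartbeats 1600000 in
set_option synthInstance.maxHeartbeats 400000 in
include hpN hA hK₀ hK hA2₀ hA2 in
/-- **Existence of the two local parameters over `K₀`** below a crossing point `𝔫` of the good level
`K` (they depend only on the crossing point `𝔫.comap finIncl` of the unramified level `K₀`: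
`SmoothPoint.comap_alphaR_comap_finMap`). -/
theorem exists_local_parameters_levels
    (𝔫 : Ideal ↥(Rfin (Lvl K) (N * p) (baseRing A K))) [h𝔫 : 𝔫.IsMaximal]
    (ht₁ : Through (gaussVS (Lvl K) (N * p) (baseRing A K)) 𝔫) (ht₂ : Through S₂.V 𝔫) :
    ∃ z₀ z₀' : ↥(Rfin (Lvl K₀) N (baseRing A K₀)),
      (th (Lvl K₀) N (baseRing A K₀) z₀ ∈
        ((𝔫.comap (LevelIntegrality.alphaR (Lvl K) N p (baseRing A K)).toRingHom).comap
          (finIncl A N hKL)).map (th (Lvl K₀) N (baseRing A K₀)) ∧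
       th (Lvl K₀) N (baseRing A K₀) z₀ ∉
        (((𝔫.comap (LevelIntegrality.alphaR (Lvl K) N p (baseRing A K)).toRingHom).comap
          (finIncl A N hKL)).map (th (Lvl K₀) N (baseRing A K₀))) ^ 2) ∧
      (th (Lvl K₀) N (baseRing A K₀) z₀' ∈
        ((𝔫.comap (LevelIntegrality.betaR (Lvl K) N p (baseRing A K)).toRingHom).comap
          (finIncl A N hKL)).map (th (Lvl K₀) N (baseRing A K₀)) ∧
       th (Lvl K₀) N (baseRing A K₀) z₀' ∉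
        (((𝔫.comap (LevelIntegrality.betaR (Lvl K) N p (baseRing A K)).toRingHom).comap
          (finIncl A N hKL)).map (th (Lvl K₀) N (baseRing A K₀))) ^ 2) := by
  obtain ⟨hN₀, hprime₀, hsm₀, -, -, -, -⟩ := levelFacts_unram N p hpN A hA K₀ hK₀
  obtain ⟨T₂⟩ := Fermat.Agent.P3G.FibreTwo.nonempty_secondVal (Lvl K₀) N p (baseRing A K₀)
    (Fermat.Agent.P3G.GammaV2.lvlToComplex K₀) hpN hprime₀ hA2₀
  have H := levelRestrictHyp_levels N p hpN A hA hKL hK₀ hK hA2₀ hA2 T₂ S₂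
  haveI h𝔫₀ : (𝔫.comap (finMap (lvlIncl hKL) (N * p) (baseRing A K₀) (baseRing A K)
      (lvlIncl_mem A hKL))).IsMaximal := H.isMaximal_comap ht₁
  obtain ⟨z₀, hz, hz2⟩ := exists_local_parameter_comap_alphaR (Lvl K₀) N p (baseRing A K₀) hN₀
    (Fermat.Agent.P3G.GammaV2.lvlToComplex K₀) hpN hprime₀ hsm₀ hA2₀ T₂ _ (H.through₁ ht₁)
  obtain ⟨z₀', hz', hz2'⟩ := exists_local_parameter_comap_betaR (Lvl K₀) N p (baseRing A K₀) hN₀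
    (Fermat.Agent.P3G.GammaV2.lvlToComplex K₀) hpN hprime₀ hsm₀ hA2₀ T₂ _ (H.through₂ ht₂)
  refine ⟨z₀, z₀', ⟨?_, ?_⟩, ⟨?_, ?_⟩⟩
  · rw [show finIncl A N hKL = finMap (lvlIncl hKL) N (baseRing A K₀) (baseRing A K)
      (lvlIncl_mem A hKL) from rfl, SmoothPoint.comap_alphaR_comap_finMap]
    exact hz
  · rw [show finIncl A N hKL = finMap (lvlIncl hKL) N (baseRing A K₀) (baseRing A K)
      (lvlIncl_mem A hKL) from rfl, SmoothPoint.comap_alphaR_comap_finMap]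
    exact hz2
  · rw [show finIncl A N hKL = finMap (lvlIncl hKL) N (baseRing A K₀) (baseRing A K)
      (lvlIncl_mem A hKL) from rfl, SmoothPoint.comap_betaR_comap_finMap]
    exact hz'
  · rw [show finIncl A N hKL = finMap (lvlIncl hKL) N (baseRing A K₀) (baseRing A K)
      (lvlIncl_mem A hKL) from rfl, SmoothPoint.comap_betaR_comap_finMap]
    exact hz2'

end Levels

end Fermat.Agent.S40.M1.AlphaNodeUp
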