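/-
S40 / AUX-SEAM, leaf (AUX1) (helper2): **residual degrees of the auxiliary level.**

`(K, O)` a level of characteristic zero (`O` a DVR with fraction field `K ⊆ ℂ`), `κ` its residue
field.  For `M ∣ N` with `N` a unit of `O` and prime special fibres at the levels `M` and `N`:

* `finrank_ratFunc_FF_residue`      : `[FF κ N : κ(j̄)] = ψ(N)`  (helper27's `FibreDegree` + `ψ` in
  characteristic zero);
* `psi_mul_finrank_inclF_residue`   : `ψ(M) · [FF κ N : FF κ M] = ψ(N)`;
* `finrank_inclF_two_le`            : `[FF κ 2M : FF κ M] ≤ 3`   (`= 3` for `M` odd, `= 2` for `M` even);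
* `finrank_inclF_two_of_even`       : `[FF κ 2M : FF κ M] = 2` for `M` even (second step `2M ⊂ 4M`);

and the arithmetic `ψ(2M) = 3ψ(M)` (`M` odd), `ψ(2M) = 2ψ(M)` (`M` even), together with the remark
that a product `e₁ e₂` with `1 ≤ e₁ ≤ 3`, `1 ≤ e₂ ≤ 2` is never divisible by a prime `p ≥ 5`
(`not_dvd_mul_of_le`): ramification indices in `FF κ M′ ⊂ FF κ 2M′ ⊂ FF κ 4M′` are prime to `p`.
The degrees are stated over `(inclF κ h).fieldRange`, as in `N4F/E/DegreeLevelRaise`.
-/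
import Fermat.Agent.S40.W.FibreDegree
import Fermat.Agent.S40.W.ConstDescent
import Fermat.Agent.N4F.E.DegreeLevelRaise
import Fermat.Agent.M2.P1Psi

set_option autoImplicit false
set_option linter.unusedSectionVars false
set_option linter.style.haveILetI false

open Polynomial Module ModularCurve IntermediateField

namespace Fermat.Agent.S40.M1.AuxDegree

open Fermat.Agent.N4.Setting Fermat.Agent.N4.FibreEmbedding Fermat.Agent.N4F.E.DegreeLevelRaise

noncomputable section

/-! ### arithmetic of `ψ` at the prime `2` -/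

/-- `ψ(2M) = 3 ψ(M)` for `M` odd. -/
theorem dedekindPsi_mul_two_of_odd {M : ℕ} (h : ¬ 2 ∣ M) :
    dedekindPsi (M * 2) = 3 * dedekindPsi M := by
  have hc : M.Coprime 2 := (Nat.Coprime.symm ((Nat.Prime.coprime_iff_not_dvd Nat.prime_two).mpr h))
  have h2 : dedekindPsi 2 = 3 := by
    have := Fermat.Agent.M2.P1.dedekindPsi_prime_pow 2 0 Nat.prime_two
    simpa using this
  rw [Fermat.Agent.M2.P1.dedekindPsi_mul hc, h2, mul_comm]

/-- `ψ(2M) = 2 ψ(M)` for `M ≠ 0` even. -/
theorem dedekindPsi_mul_two_of_even {M : ℕ} (hM : M ≠ 0) (h : 2 ∣ M) :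
    dedekindPsi (M * 2) = 2 * dedekindPsi M := by
  obtain ⟨e, m, hm, rfl⟩ := Nat.exists_eq_pow_mul_and_not_dvd hM 2 (by norm_num)
  obtain ⟨a, rfl⟩ : ∃ a, e = a + 1 := by
    rcases e with _ | a
    · rw [pow_zero, one_mul] at h
      exact absurd h hm
    · exact ⟨a, rfl⟩
  have hc : ∀ j : ℕ, (2 ^ j).Coprime m := fun j =>
    Nat.Coprime.pow_left j ((Nat.Prime.coprime_iff_not_dvd Nat.prime_two).mpr hm)
  have e1 : 2 ^ (a + 1) * m * 2 = 2 ^ (a + 1 + 1) * m := by ring
  rw [e1, Fermat.Agent.M2.P1.dedekindPsi_mul (hc _), Fermat.Agent.M2.P1.dedekindPsi_mul (hc _),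
    Fermat.Agent.M2.P1.dedekindPsi_prime_pow 2 a Nat.prime_two,
    Fermat.Agent.M2.P1.dedekindPsi_prime_pow 2 (a + 1) Nat.prime_two]
  ring

theorem dedekindPsi_mul_two_le {M : ℕ} (hM : M ≠ 0) :
    dedekindPsi (M * 2) ≤ 3 * dedekindPsi M := by
  by_cases h : 2 ∣ M
  · rw [dedekindPsi_mul_two_of_even hM h]
    exact Nat.mul_le_mul_right _ (by norm_num)
  · rw [dedekindPsi_mul_two_of_odd h]

/-- A product `e₁ e₂` with `e₁ ≤ 3`, `e₂ ≤ 2` is not divisible by a prime `p ≥ 5`. -/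
theorem not_dvd_mul_of_le {p e₁ e₂ : ℕ} (hp : p.Prime) (hp5 : 5 ≤ p) (h₁ : 1 ≤ e₁) (h₁' : e₁ ≤ 3)
    (h₂ : 1 ≤ e₂) (h₂' : e₂ ≤ 2) : ¬ p ∣ e₁ * e₂ := by
  intro h
  rcases (Nat.Prime.dvd_mul hp).mp h with h | h
  · exact absurd (Nat.le_of_dvd (by omega) h) (by omega)
  · exact absurd (Nat.le_of_dvd (by omega) h) (by omega)

/-- A product `e₁ e₂` with `e₁ ≤ 3`, `e₂ ≤ 2` is a unit modulo a prime `p ≥ 5` (field form). -/
theorem natCast_mul_ne_zero_of_le {k : Type*} [Field k] {p : ℕ} [CharP k p] (hp : p.Prime)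
    (hp5 : 5 ≤ p) {e₁ e₂ : ℕ} (h₁ : 1 ≤ e₁) (h₁' : e₁ ≤ 3) (h₂ : 1 ≤ e₂) (h₂' : e₂ ≤ 2) :
    ((e₁ * e₂ : ℕ) : k) ≠ 0 := by
  intro h
  exact not_dvd_mul_of_le hp hp5 h₁ h₁' h₂ h₂' ((CharP.cast_eq_zero_iff k p _).mp h)

/-! ### generic field `k` with `[FF k N : k(j)] = ψ(N)` at the levels involved -/

section Generic

open scoped Fermat.Agent.S40.W.FFSetting

variable (k : Type) [Field k]

/-- `[FF k N : k(j)] = ψ(N)` over `k(j) ⊆ FF k N` as an intermediate field. -/
theorem finrank_adjoin_jF {N : ℕ} (hN : finrank (RatFunc k) (FF k N) = dedekindPsi N) :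
    finrank k⟮jF k N⟯ (FF k N) = dedekindPsi N := by
  rw [← Fermat.Agent.S40.W.ConstDescent.finrank_ratFunc_eq, hN]

variable {M N : ℕ} [NeZero M] [NeZero N] (h : M ∣ N)

/-- **`ψ(M) · [FF k N : FF k M] = ψ(N)`.** -/
theorem psi_mul_finrank_inclF (hM : finrank (RatFunc k) (FF k M) = dedekindPsi M)
    (hN : finrank (RatFunc k) (FF k N) = dedekindPsi N) :
    dedekindPsi M * finrank (inclF k h).fieldRange (FF k N) = dedekindPsi N := by
  have h1 := finrank_adjoin_map (inclF k h) (jF k M)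
  rw [inclF_jF, finrank_adjoin_jF k hN, finrank_adjoin_jF k hM] at h1
  exact h1.symm

theorem finrank_inclF_pos (hM : finrank (RatFunc k) (FF k M) = dedekindPsi M)
    (hN : finrank (RatFunc k) (FF k N) = dedekindPsi N) :
    0 < finrank (inclF k h).fieldRange (FF k N) := by
  have h1 := psi_mul_finrank_inclF k h hM hN
  have hp := Fermat.Agent.M2.P1.dedekindPsi_pos N (NeZero.ne N)
  rcases Nat.eq_zero_or_pos (finrank (inclF k h).fieldRange (FF k N)) with h0 | h0
  · rw [h0, mul_zero] at h1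
    omega
  · exact h0

set_option synthInstance.maxHeartbeats 200000 in
theorem finiteDimensional_inclF (hM : finrank (RatFunc k) (FF k M) = dedekindPsi M)
    (hN : finrank (RatFunc k) (FF k N) = dedekindPsi N) :
    FiniteDimensional (inclF k h).fieldRange (FF k N) :=
  Module.finite_of_finrank_pos (finrank_inclF_pos k h hM hN)

variable (M)

/-- **`[FF k 2M : FF k M] ≤ 3`.** -/
theorem finrank_inclF_two_le (hM : finrank (RatFunc k) (FF k M) = dedekindPsi M)
    (hN : finrank (RatFunc k) (FF k (M * 2)) = dedekindPsi (M * 2)) :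
    finrank (inclF k (dvd_mul_right M 2)).fieldRange (FF k (M * 2)) ≤ 3 := by
  have h1 := psi_mul_finrank_inclF k (dvd_mul_right M 2) hM hN
  have h2 := dedekindPsi_mul_two_le (NeZero.ne M)
  have hp := Fermat.Agent.M2.P1.dedekindPsi_pos M (NeZero.ne M)
  rw [← h1, mul_comm 3] at h2
  exact Nat.le_of_mul_le_mul_left h2 hp

/-- **`[FF k 2M : FF k M] = 2`** for `M` even. -/
theorem finrank_inclF_two_of_even (h2M : 2 ∣ M)
    (hM : finrank (RatFunc k) (FF k M) = dedekindPsi M)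
    (hN : finrank (RatFunc k) (FF k (M * 2)) = dedekindPsi (M * 2)) :
    finrank (inclF k (dvd_mul_right M 2)).fieldRange (FF k (M * 2)) = 2 := by
  have h1 := psi_mul_finrank_inclF k (dvd_mul_right M 2) hM hN
  have hp := Fermat.Agent.M2.P1.dedekindPsi_pos M (NeZero.ne M)
  rw [dedekindPsi_mul_two_of_even (NeZero.ne M) h2M, mul_comm 2] at h1
  exact Nat.eq_of_mul_eq_mul_left hp h1

/-- **`[FF k 2M : FF k M] = 3`** for `M` odd. -/
theorem finrank_inclF_two_of_odd (h2M : ¬ 2 ∣ M)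
    (hM : finrank (RatFunc k) (FF k M) = dedekindPsi M)
    (hN : finrank (RatFunc k) (FF k (M * 2)) = dedekindPsi (M * 2)) :
    finrank (inclF k (dvd_mul_right M 2)).fieldRange (FF k (M * 2)) = 3 := by
  have h1 := psi_mul_finrank_inclF k (dvd_mul_right M 2) hM hN
  have hp := Fermat.Agent.M2.P1.dedekindPsi_pos M (NeZero.ne M)
  rw [dedekindPsi_mul_two_of_odd h2M, mul_comm 3] at h1
  exact Nat.eq_of_mul_eq_mul_left hp h1

end Generic

/-! ### the level `(K, O)`: the hypothesis `[FF κ N : κ(j̄)] = ψ(N)` holds on the special fibre -/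

section Level

variable (K : Type) [Field K] [CharZero K] (ι : K →+* ℂ) (O : Subring K)
  [IsDiscreteValuationRing ↥O] [IsFractionRing ↥O K]

open scoped Fermat.Agent.S40.W.FFSetting

include ι in
/-- **`[FF κ N : κ(j̄)] = ψ(N)`** at a level with prime special fibre (`κ` the residue field). -/
theorem finrank_ratFunc_FF_residue (N : ℕ) [NeZero N] (hN : IsUnit ((N : ℕ) : ↥O))
    (hprime : (fibreIdeal K N O (Rfin K N O)).IsPrime) :
    finrank (RatFunc (IsLocalRing.ResidueField ↥O)) (FF (IsLocalRing.ResidueField ↥O) N) =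
      dedekindPsi N := by
  rw [Fermat.Agent.S40.W.FibreDegree.finrank_residue_eq' K N O hN hprime,
    Fermat.Agent.S40.W.ConstDescent.finrank_ratFunc_FF N ι]

end Level

end

end Fermat.Agent.S40.M1.AuxDegree
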