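/-
S40 / AUX-SEAM, leaf (AUX1) in the `finrankAlong` vocabulary of the prelude (helper2).

`AlgebraicCurve.finrankAlong k φ` is `Module.finrank F F'` for the algebra structure `algebraAlong φ`;
`S40/M1/AuxDegree` states the degrees over `φ.fieldRange`.  Here: the bridge and the consumer forms

* `finrankAlong_eq_finrank_fieldRange`;
* `psi_mul_finrankAlong_inclF`     : `ψ(M) · finrankAlong k (inclF k h) = ψ(N)`;
* `finiteAlong_inclF`;
* `finrankAlong_inclF_two_le`      : `finrankAlong k (inclF k (M ∣ M * 2)) ≤ 3`;
* `finrankAlong_inclF_two_of_even` : `= 2` for `M` even;  `finrankAlong_inclF_two_of_odd` : `= 3`.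
-/
import Fermat.Agent.S40.M1.AuxDegree
import Fermat.Prelude.Def_AlgebraicCurve_Correspondence

set_option autoImplicit false
set_option linter.unusedSectionVars false
set_option linter.style.haveILetI false

open Polynomial Module ModularCurve IntermediateField AlgebraicCurve

namespace Fermat.Agent.S40.M1.AuxDegreeAlong

open Fermat.Agent.N4.Setting Fermat.Agent.N4F.E.DegreeLevelRaise Fermat.Agent.S40.M1.AuxDegree

noncomputable section

/-- `finrankAlong` is the degree over the range. -/
theorem finrankAlong_eq_finrank_fieldRange {K F F' : Type*} [Field K] [Field F] [Field F']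
    [Algebra K F] [Algebra K F'] (φ : F →ₐ[K] F') :
    finrankAlong K φ = finrank φ.fieldRange F' := by
  letI := algebraAlong φ
  exact finrank_eq_finrank_fieldRange φ rfl

open scoped Fermat.Agent.S40.W.FFSetting

variable (k : Type) [Field k] {M N : ℕ} [NeZero M] [NeZero N] (h : M ∣ N)

theorem psi_mul_finrankAlong_inclF (hM : finrank (RatFunc k) (FF k M) = dedekindPsi M)
    (hN : finrank (RatFunc k) (FF k N) = dedekindPsi N) :
    dedekindPsi M * finrankAlong k (inclF k h) = dedekindPsi N := by
  rw [finrankAlong_eq_finrank_fieldRange]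
  exact psi_mul_finrank_inclF k h hM hN

theorem finrankAlong_inclF_pos (hM : finrank (RatFunc k) (FF k M) = dedekindPsi M)
    (hN : finrank (RatFunc k) (FF k N) = dedekindPsi N) : 0 < finrankAlong k (inclF k h) := by
  rw [finrankAlong_eq_finrank_fieldRange]
  exact finrank_inclF_pos k h hM hN

set_option synthInstance.maxHeartbeats 200000 in
theorem finiteAlong_inclF (hM : finrank (RatFunc k) (FF k M) = dedekindPsi M)
    (hN : finrank (RatFunc k) (FF k N) = dedekindPsi N) : FiniteAlong k (inclF k h) := by
  letI := algebraAlong (inclF k h)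
  have hpos : 0 < finrank (FF k M) (FF k N) := finrankAlong_inclF_pos k h hM hN
  exact Module.finite_of_finrank_pos hpos

variable (M)

theorem finrankAlong_inclF_two_le (hM : finrank (RatFunc k) (FF k M) = dedekindPsi M)
    (hN : finrank (RatFunc k) (FF k (M * 2)) = dedekindPsi (M * 2)) :
    finrankAlong k (inclF k (dvd_mul_right M 2)) ≤ 3 := by
  rw [finrankAlong_eq_finrank_fieldRange]
  exact finrank_inclF_two_le k M hM hN

theorem finrankAlong_inclF_two_of_even (h2M : 2 ∣ M)
    (hM : finrank (RatFunc k) (FF k M) = dedekindPsi M)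
    (hN : finrank (RatFunc k) (FF k (M * 2)) = dedekindPsi (M * 2)) :
    finrankAlong k (inclF k (dvd_mul_right M 2)) = 2 := by
  rw [finrankAlong_eq_finrank_fieldRange]
  exact finrank_inclF_two_of_even k M h2M hM hN

theorem finrankAlong_inclF_two_of_odd (h2M : ¬ 2 ∣ M)
    (hM : finrank (RatFunc k) (FF k M) = dedekindPsi M)
    (hN : finrank (RatFunc k) (FF k (M * 2)) = dedekindPsi (M * 2)) :
    finrankAlong k (inclF k (dvd_mul_right M 2)) = 3 := by
  rw [finrankAlong_eq_finrank_fieldRange]
  exact finrank_inclF_two_of_odd k M h2M hM hN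

end

end Fermat.Agent.S40.M1.AuxDegreeAlong
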