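/-
S40 / M1-AUX (helper6): **change of level `M ∣ N` in the degeneracy squares.**

`K` a field of characteristic zero embedded in `ℂ`, `ℓ` a prime, `ℓ ∤ N`, `M ∣ N`:

      FF K M  --α_ℓ, β_ℓ-->  FF K (M ℓ)
        |                        |                (vertical maps: the inclusions `inclF`)
      FF K N  --α_ℓ, β_ℓ-->  FF K (N ℓ)

* `irreducible_phiJ` : `Φ_ℓ(X, j)` is irreducible over `FF K N` (it is the minimal polynomial of `j`
  over `β(FF K N) = K(j_ℓ, j_{Nℓ})` because `FF K (N ℓ) = K(j, j_{Nℓ})` has degree `ℓ + 1` over it;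
  transport the coefficients back along the isomorphism `β : FF K N ≃ β(FF K N)`);
* `adjoin_alphaF_jlF_eq_top`, `adjoin_betaF_jF_eq_top` : `FF K (N ℓ) = α(FF K N)(j_ℓ) = β(FF K N)(j)`;
* `span_range_inclF_alpha`, `span_range_inclF_beta` : the two squares are "cartesian"
  (`FF K (N ℓ)` is spanned over `FF K N` by the image of `FF K (M ℓ)`);
* `norm_alphaF_inclF`, `norm_betaF_inclF`, `trace_…` : norm and trace along `α`, `β` commute with the
  change of level; `normAlphaK_inclF`, `normBetaK_inclF` : the same for `P4.FrobLevelStep.normAlphaK/normBetaK`.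

Use (`moonshots` row 65 (F2)): run the node analysis for `f ∈ F_{pM'}` inside `F_{p N_aux}`,
`N_aux = lcm(4, M')`; also the squares of the `ℓ`-correspondence (`M := pM'`, `N := p N_aux`).
-/
import Mathlib
import Fermat.Agent.N4F.E.DegreeLevelRaise
import Fermat.Agent.N4F.E.NormDescent
import Fermat.Agent.P4.FrobLevelStep

set_option autoImplicit false
set_option linter.style.haveILetI false
set_option linter.unusedSectionVars false

namespace Fermat.Agent.S40.M1.AuxLevel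

open ModularCurve Polynomial IntermediateField AlgebraicCurve Module
open Fermat.Agent.N4.Setting Fermat.Agent.N4.ModPolyDescent Fermat.Agent.N4.Kronecker
open Fermat.Agent.N4.ModPolySetting Fermat.Agent.N4.ModPolyShape
open Fermat.Agent.N4F.E.DegreeLevelRaise Fermat.Agent.N4F.E.NormDescent

/-! ### The polynomial `Φ_ℓ(X, j)` over `FF K N` -/

section Phi

variable (K : Type) [Field K] (N : ℕ) [NeZero N] (ℓ : ℕ) [Fact ℓ.Prime]

/-- `j(q^ℓ)` at level `N ℓ`. -/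
noncomputable abbrev jlF : FF K (N * ℓ) := jdF K (N * ℓ) (dvd_mul_left ℓ N)

/-- `Φ_ℓ(X, j) ∈ (FF K N)[X]`. -/
noncomputable def phiJ : (FF K N)[X] :=
  (modPolyK K ℓ).map ((aeval (jF K N)).toRingHom : K[X] →+* FF K N)

theorem phiJ_monic : (phiJ K N ℓ).Monic := (modPolyK_monic K ℓ).map _

theorem phiJ_natDegree : (phiJ K N ℓ).natDegree = ℓ + 1 := by
  rw [phiJ, (modPolyK_monic K ℓ).natDegree_map, modPolyK_natDegree, dedekindPsi_prime]

theorem eval₂_phiJ {L : Type*} [Field L] [Algebra K L] (φ : FF K N →ₐ[K] L) (y : L) :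
    (phiJ K N ℓ).eval₂ (φ : FF K N →+* L) y = ev2 (φ (jF K N)) y (modPolyK K ℓ) := by
  rw [phiJ, eval₂_map, ev2_apply]
  congr 1
  refine Polynomial.ringHom_ext (fun a => ?_) ?_
  · simp
  · simp

/-- `Φ_ℓ(j, j_ℓ) = 0` at level `N ℓ` (inner variable `j`, outer variable `j_ℓ`). -/
theorem ev2_jF_jlF : ev2 (jF K (N * ℓ)) (jlF K N ℓ) (modPolyK K ℓ) = 0 := by
  have h := algHom_ev2 (inclF K (dvd_mul_left ℓ N)) (jF K ℓ) (jNF K ℓ) (modPolyK K ℓ)
  rw [ev2_modPolyK, map_zero, inclF_jF, inclF_jdF] at h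
  exact h.symm

/-- `Φ_ℓ(j_ℓ, j) = 0` at level `N ℓ` (inner variable `j_ℓ`, outer variable `j`). -/
theorem ev2_jlF_jF : ev2 (jlF K N ℓ) (jF K (N * ℓ)) (modPolyK K ℓ) = 0 := by
  have h := algHom_ev2 (inclF K (dvd_mul_left ℓ N)) (jNF K ℓ) (jF K ℓ) (modPolyK K ℓ)
  rw [ev2_swap_modPolyK, map_zero, inclF_jF, inclF_jdF] at h
  exact h.symm

end Phi

/-! ### Irreducibility of `Φ_ℓ(X, j)` over `FF K N`, and the two generation statements -/

section Irreducible

variable (K : Type) [Field K] [CharZero K] (N : ℕ) [NeZero N] (ℓ : ℕ) [Fact ℓ.Prime]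

omit [CharZero K] [NeZero N] [Fact ℓ.Prime] in
theorem qExpand_congr {a b : ℕ} [NeZero a] [NeZero b] (h : a = b) (x : LaurentSeries K) :
    qExpand K a x = qExpand K b x := by
  subst h
  rfl

omit [CharZero K] in
theorem jNF_mul_eq_betaF : jNF K (N * ℓ) = betaF K N ℓ (jNF K N) := by
  apply Subtype.ext
  rw [coe_betaF, coe_jdF, coe_jdF, qExpand_qExpand]
  exact qExpand_congr K (mul_comm N ℓ) _

/-- **`FF K (N ℓ) = β(FF K N)(j)`** (any `ℓ`, trivial: the right-hand side contains `j`, `j_{Nℓ}`). -/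
theorem adjoin_betaF_jF_eq_top :
    letI := algebraAlong (betaF K N ℓ)
    (FF K N)⟮jF K (N * ℓ)⟯ = ⊤ := by
  letI := algebraAlong (betaF K N ℓ)
  haveI := isScalarTower_along (betaF K N ℓ)
  rw [eq_top_iff]
  intro x _
  have hx : x ∈ IntermediateField.adjoin K {jF K (N * ℓ), jNF K (N * ℓ)} := by
    rw [adjoin_jF_jNF_eq_top]; trivial
  have hle : IntermediateField.adjoin K {jF K (N * ℓ), jNF K (N * ℓ)} ≤
      ((FF K N)⟮jF K (N * ℓ)⟯).restrictScalars K := by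
    rw [IntermediateField.adjoin_le_iff]
    rintro y (rfl | hy)
    · exact mem_adjoin_simple_self (FF K N) _
    · rw [Set.mem_singleton_iff] at hy
      rw [hy, jNF_mul_eq_betaF]
      exact ((FF K N)⟮jF K (N * ℓ)⟯).algebraMap_mem (jNF K N)
  exact hle hx

/-- **`Φ_ℓ(X, j)` is irreducible over `FF K N`**, `ℓ ∤ N`. -/
theorem irreducible_phiJ (ι : K →+* ℂ) (hℓN : ¬ ℓ ∣ N) : Irreducible (phiJ K N ℓ) := by
  letI := algebraAlong (betaF K N ℓ)
  haveI := isScalarTower_along (betaF K N ℓ)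
  have hfr : finrank (FF K N) (FF K (N * ℓ)) = ℓ + 1 :=
    finrank_of_algebraMap_eq_betaF K N ℓ ι hℓN rfl
  haveI : FiniteDimensional (FF K N) (FF K (N * ℓ)) :=
    Module.finite_of_finrank_pos (by rw [hfr]; exact Nat.succ_pos ℓ)
  have hint : IsIntegral (FF K N) (jF K (N * ℓ)) := IsIntegral.of_finite _ _
  have hdeg : (minpoly (FF K N) (jF K (N * ℓ))).natDegree = ℓ + 1 := by
    rw [← IntermediateField.adjoin.finrank hint, adjoin_betaF_jF_eq_top K N ℓ, finrank_top', hfr]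
  have hroot : aeval (jF K (N * ℓ)) (phiJ K N ℓ) = 0 := by
    have h := eval₂_phiJ K N ℓ (betaF K N ℓ) (jF K (N * ℓ))
    rw [betaF_jF, ev2_jlF_jF] at h
    exact h
  have hdvd : minpoly (FF K N) (jF K (N * ℓ)) ∣ phiJ K N ℓ := minpoly.dvd _ _ hroot
  have heq : phiJ K N ℓ = minpoly (FF K N) (jF K (N * ℓ)) :=
    Polynomial.eq_of_monic_of_dvd_of_natDegree_le (minpoly.monic hint) (phiJ_monic K N ℓ) hdvd
      (by rw [phiJ_natDegree, hdeg])
  rw [heq]
  exact minpoly.irreducible hint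

/-- **`FF K (N ℓ) = α(FF K N)(j_ℓ)`**, `ℓ ∤ N`. -/
theorem adjoin_alphaF_jlF_eq_top (ι : K →+* ℂ) (hℓN : ¬ ℓ ∣ N) :
    letI := algebraAlong (alphaF K N ℓ)
    (FF K N)⟮jlF K N ℓ⟯ = ⊤ := by
  letI := algebraAlong (alphaF K N ℓ)
  haveI := isScalarTower_along (alphaF K N ℓ)
  have hfr : finrank (FF K N) (FF K (N * ℓ)) = ℓ + 1 :=
    finrank_of_algebraMap_eq_alphaF K N ℓ ι hℓN rfl
  haveI : FiniteDimensional (FF K N) (FF K (N * ℓ)) :=
    Module.finite_of_finrank_pos (by rw [hfr]; exact Nat.succ_pos ℓ)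
  have hint : IsIntegral (FF K N) (jlF K N ℓ) := IsIntegral.of_finite _ _
  have hroot : aeval (jlF K N ℓ) (phiJ K N ℓ) = 0 := by
    have h := eval₂_phiJ K N ℓ (alphaF K N ℓ) (jlF K N ℓ)
    rw [alphaF_jF, ev2_jF_jlF] at h
    exact h
  have hmin : phiJ K N ℓ = minpoly (FF K N) (jlF K N ℓ) :=
    minpoly.eq_of_irreducible_of_monic (irreducible_phiJ K N ℓ ι hℓN) hroot (phiJ_monic K N ℓ)
  apply IntermediateField.eq_of_le_of_finrank_eq le_top
  rw [finrank_top', hfr, IntermediateField.adjoin.finrank hint, ← hmin, phiJ_natDegree]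

end Irreducible

/-! ### The two squares -/

section Squares

variable (K : Type) [Field K] [CharZero K] {M N : ℕ} [NeZero M] [NeZero N] (h : M ∣ N)
  (ℓ : ℕ) [Fact ℓ.Prime]

/-- The inclusion `FF K (M ℓ) → FF K (N ℓ)`, `M ∣ N`. -/
noncomputable abbrev inclL : FF K (M * ℓ) →ₐ[K] FF K (N * ℓ) :=
  inclF K (Nat.mul_dvd_mul_right h ℓ)

omit [CharZero K] in
theorem inclL_alphaF (x : FF K M) :
    inclL K h ℓ (alphaF K M ℓ x) = alphaF K N ℓ (inclF K h x) := by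
  apply Subtype.ext
  rw [coe_inclF, coe_alphaF, coe_alphaF, coe_inclF]

omit [CharZero K] in
theorem inclL_betaF (x : FF K M) :
    inclL K h ℓ (betaF K M ℓ x) = betaF K N ℓ (inclF K h x) := by
  apply Subtype.ext
  rw [coe_inclF, coe_betaF, coe_betaF, coe_inclF]

omit [CharZero K] in
theorem inclL_jF : inclL K h ℓ (jF K (M * ℓ)) = jF K (N * ℓ) := inclF_jF K _

omit [CharZero K] in
theorem inclL_jlF : inclL K h ℓ (jlF K M ℓ) = jlF K N ℓ := inclF_jdF K _ _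

include h in
omit [NeZero M] [NeZero N] [Fact ℓ.Prime] in
theorem not_dvd_of_dvd (hℓN : ¬ ℓ ∣ N) : ¬ ℓ ∣ M := fun h' => hℓN (h'.trans h)

theorem finiteAlong_alphaF (ι : K →+* ℂ) (hℓN : ¬ ℓ ∣ N) : FiniteAlong K (alphaF K N ℓ) := by
  letI := algebraAlong (alphaF K N ℓ)
  have hfr : finrank (FF K N) (FF K (N * ℓ)) = ℓ + 1 :=
    finrank_of_algebraMap_eq_alphaF K N ℓ ι hℓN rfl
  exact Module.finite_of_finrank_pos (by rw [hfr]; exact Nat.succ_pos ℓ)

theorem finiteAlong_betaF (ι : K →+* ℂ) (hℓN : ¬ ℓ ∣ N) : FiniteAlong K (betaF K N ℓ) := by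
  letI := algebraAlong (betaF K N ℓ)
  have hfr : finrank (FF K N) (FF K (N * ℓ)) = ℓ + 1 :=
    finrank_of_algebraMap_eq_betaF K N ℓ ι hℓN rfl
  exact Module.finite_of_finrank_pos (by rw [hfr]; exact Nat.succ_pos ℓ)

theorem finrankAlong_alphaF (ι : K →+* ℂ) (hℓN : ¬ ℓ ∣ N) :
    finrankAlong K (alphaF K N ℓ) = ℓ + 1 := by
  letI := algebraAlong (alphaF K N ℓ)
  exact finrank_of_algebraMap_eq_alphaF K N ℓ ι hℓN rfl

theorem finrankAlong_betaF (ι : K →+* ℂ) (hℓN : ¬ ℓ ∣ N) :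
    finrankAlong K (betaF K N ℓ) = ℓ + 1 := by
  letI := algebraAlong (betaF K N ℓ)
  exact finrank_of_algebraMap_eq_betaF K N ℓ ι hℓN rfl

/-- **The `α`-square is cartesian**: `FF K (N ℓ)` is spanned over `α(FF K N)` by `FF K (M ℓ)`. -/
theorem span_range_inclL_alpha (ι : K →+* ℂ) (hℓN : ¬ ℓ ∣ N) :
    letI := algebraAlong (alphaF K N ℓ)
    Submodule.span (FF K N) (Set.range (inclL K h ℓ : FF K (M * ℓ) →+* FF K (N * ℓ))) = ⊤ := by
  letI := algebraAlong (alphaF K N ℓ)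
  haveI : FiniteDimensional (FF K N) (FF K (N * ℓ)) := finiteAlong_alphaF K ℓ ι hℓN
  apply span_eq_top_of_adjoin
  rw [eq_top_iff, ← adjoin_alphaF_jlF_eq_top K N ℓ ι hℓN]
  apply IntermediateField.adjoin.mono
  rintro y hy
  rw [Set.mem_singleton_iff] at hy
  exact ⟨jlF K M ℓ, by rw [hy]; exact inclL_jlF K h ℓ⟩

/-- **The `β`-square is cartesian**: `FF K (N ℓ)` is spanned over `β(FF K N)` by `FF K (M ℓ)`. -/
theorem span_range_inclL_beta (ι : K →+* ℂ) (hℓN : ¬ ℓ ∣ N) :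
    letI := algebraAlong (betaF K N ℓ)
    Submodule.span (FF K N) (Set.range (inclL K h ℓ : FF K (M * ℓ) →+* FF K (N * ℓ))) = ⊤ := by
  letI := algebraAlong (betaF K N ℓ)
  haveI : FiniteDimensional (FF K N) (FF K (N * ℓ)) := finiteAlong_betaF K ℓ ι hℓN
  apply span_eq_top_of_adjoin
  rw [eq_top_iff, ← adjoin_betaF_jF_eq_top K N ℓ]
  apply IntermediateField.adjoin.mono
  rintro y hy
  rw [Set.mem_singleton_iff] at hy
  exact ⟨jF K (M * ℓ), by rw [hy]; exact inclL_jF K h ℓ⟩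

/-- **The norm along `α` commutes with the change of level.** -/
theorem norm_alphaF_inclL (ι : K →+* ℂ) (hℓN : ¬ ℓ ∣ N) (x : FF K (M * ℓ)) :
    inclF K h (letI := algebraAlong (alphaF K M ℓ); Algebra.norm (FF K M) x) =
      (letI := algebraAlong (alphaF K N ℓ); Algebra.norm (FF K N) (inclL K h ℓ x)) :=
  norm_map_along (alphaF K M ℓ) (alphaF K N ℓ) (inclF K h : FF K M →+* FF K N)
    (inclL K h ℓ : FF K (M * ℓ) →+* FF K (N * ℓ)) (fun y => inclL_alphaF K h ℓ y)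
    (finiteAlong_alphaF K ℓ ι (not_dvd_of_dvd h ℓ hℓN)) (span_range_inclL_alpha K h ℓ ι hℓN)
    (by rw [finrankAlong_alphaF K ℓ ι hℓN, finrankAlong_alphaF K ℓ ι (not_dvd_of_dvd h ℓ hℓN)]) x

/-- **The trace along `α` commutes with the change of level.** -/
theorem trace_alphaF_inclL (ι : K →+* ℂ) (hℓN : ¬ ℓ ∣ N) (x : FF K (M * ℓ)) :
    inclF K h (letI := algebraAlong (alphaF K M ℓ); Algebra.trace (FF K M) (FF K (M * ℓ)) x) =
      (letI := algebraAlong (alphaF K N ℓ)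
       Algebra.trace (FF K N) (FF K (N * ℓ)) (inclL K h ℓ x)) :=
  trace_map_along (alphaF K M ℓ) (alphaF K N ℓ) (inclF K h : FF K M →+* FF K N)
    (inclL K h ℓ : FF K (M * ℓ) →+* FF K (N * ℓ)) (fun y => inclL_alphaF K h ℓ y)
    (finiteAlong_alphaF K ℓ ι (not_dvd_of_dvd h ℓ hℓN)) (span_range_inclL_alpha K h ℓ ι hℓN)
    (by rw [finrankAlong_alphaF K ℓ ι hℓN, finrankAlong_alphaF K ℓ ι (not_dvd_of_dvd h ℓ hℓN)]) x

/-- **The norm along `β` commutes with the change of level.** -/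
theorem norm_betaF_inclL (ι : K →+* ℂ) (hℓN : ¬ ℓ ∣ N) (x : FF K (M * ℓ)) :
    inclF K h (letI := algebraAlong (betaF K M ℓ); Algebra.norm (FF K M) x) =
      (letI := algebraAlong (betaF K N ℓ); Algebra.norm (FF K N) (inclL K h ℓ x)) :=
  norm_map_along (betaF K M ℓ) (betaF K N ℓ) (inclF K h : FF K M →+* FF K N)
    (inclL K h ℓ : FF K (M * ℓ) →+* FF K (N * ℓ)) (fun y => inclL_betaF K h ℓ y)
    (finiteAlong_betaF K ℓ ι (not_dvd_of_dvd h ℓ hℓN)) (span_range_inclL_beta K h ℓ ι hℓN)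
    (by rw [finrankAlong_betaF K ℓ ι hℓN, finrankAlong_betaF K ℓ ι (not_dvd_of_dvd h ℓ hℓN)]) x

/-- **The trace along `β` commutes with the change of level.** -/
theorem trace_betaF_inclL (ι : K →+* ℂ) (hℓN : ¬ ℓ ∣ N) (x : FF K (M * ℓ)) :
    inclF K h (letI := algebraAlong (betaF K M ℓ); Algebra.trace (FF K M) (FF K (M * ℓ)) x) =
      (letI := algebraAlong (betaF K N ℓ)
       Algebra.trace (FF K N) (FF K (N * ℓ)) (inclL K h ℓ x)) :=
  trace_map_along (betaF K M ℓ) (betaF K N ℓ) (inclF K h : FF K M →+* FF K N)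
    (inclL K h ℓ : FF K (M * ℓ) →+* FF K (N * ℓ)) (fun y => inclL_betaF K h ℓ y)
    (finiteAlong_betaF K ℓ ι (not_dvd_of_dvd h ℓ hℓN)) (span_range_inclL_beta K h ℓ ι hℓN)
    (by rw [finrankAlong_betaF K ℓ ι hℓN, finrankAlong_betaF K ℓ ι (not_dvd_of_dvd h ℓ hℓN)]) x

end Squares

/-! ### The `normAlong` / `normAlphaK` / `normBetaK` forms -/

section Level

open Fermat.Agent.P4.FrobStep Fermat.Agent.P4.FrobLevelStep Fermat.Agent.N4F.C.Levels

local notation "Qbar" => AlgebraicClosure ℚ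

variable (K : Type) [Field K] [CharZero K] {M N : ℕ} [NeZero M] [NeZero N] (h : M ∣ N)
  (ℓ : ℕ) [Fact ℓ.Prime]

theorem normAlong_alphaF_inclL (ι : K →+* ℂ) (hℓN : ¬ ℓ ∣ N) (x : FF K (M * ℓ)) :
    normAlong (alphaF K N ℓ) (inclL K h ℓ x) = inclF K h (normAlong (alphaF K M ℓ) x) :=
  (norm_alphaF_inclL K h ℓ ι hℓN x).symm

theorem normAlong_betaF_inclL (ι : K →+* ℂ) (hℓN : ¬ ℓ ∣ N) (x : FF K (M * ℓ)) :
    normAlong (betaF K N ℓ) (inclL K h ℓ x) = inclF K h (normAlong (betaF K M ℓ) x) :=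
  (norm_betaF_inclL K h ℓ ι hℓN x).symm

/-- An embedding `Lvl K → ℂ`. -/
noncomputable def iotaLvl (K : IntermediateField ℚ Qbar) : Lvl K →+* ℂ :=
  iotaQbar.comp (algebraMap (Lvl K) Qbar)

/-- **`N_α` at the level `K` commutes with the change of level `M ∣ N`**, `ℓ ∤ N`. -/
theorem normAlphaK_inclL (K : IntermediateField ℚ Qbar) (hℓN : ¬ ℓ ∣ N)
    (x : FF (Lvl K) (M * ℓ)) :
    normAlphaK K N ℓ (inclL (Lvl K) h ℓ x) = inclF (Lvl K) h (normAlphaK K M ℓ x) :=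
  normAlong_alphaF_inclL (Lvl K) h ℓ (iotaLvl K) hℓN x

/-- **`N_β` at the level `K` commutes with the change of level `M ∣ N`**, `ℓ ∤ N`. -/
theorem normBetaK_inclL (K : IntermediateField ℚ Qbar) (hℓN : ¬ ℓ ∣ N)
    (x : FF (Lvl K) (M * ℓ)) :
    normBetaK K N ℓ (inclL (Lvl K) h ℓ x) = inclF (Lvl K) h (normBetaK K M ℓ x) :=
  normAlong_betaF_inclL (Lvl K) h ℓ (iotaLvl K) hℓN x

end Level

end Fermat.Agent.S40.M1.AuxLevel
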