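/-
S40 / M1-AUX, part 2 (helper6): **change of the modular level `M ∣ N` at a fixed level `(K, O)`:
the two vertical valuations and the Gauss reduction.**

`(K, O)` a field of characteristic zero with a discrete valuation ring `O`, `M ∣ N`, `ℓ` the residue
characteristic, `inclF K h : FF K M → FF K N`, `inclL K h ℓ : FF K (M ℓ) → FF K (N ℓ)` the inclusions
(same `q`-expansion).

* `inclF_mem_gaussSubalgebra_iff`, `theta_inclF`, `comap_gaussVS`, `valuation_gaussVS_inclF_*` :
  the Gauss ring / Gauss valuation / Gauss reduction of level `N` restrict to those of level `M`;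
* `comap_secondVal` : `V₂(N ℓ) ∩ FF K (M ℓ) = V₂(M ℓ)` for ANY second valuations at the two levels
  (`only_two` at level `M` + helper3's separating element `α j − (β j) ^ ℓ`), with the usual
  `valuation_secondVal_inclL_*` corollaries; `ev_inclL`: the two places agree;
* so a bi-unit of level `M ℓ` stays a bi-unit at level `N ℓ` (`isBiUnit_inclL_iff`).
-/
import Mathlib
import Fermat.Agent.S40.M1.AuxLevel
import Fermat.Agent.S40.M1.LevelComap

set_option autoImplicit false
set_option linter.unusedSectionVars false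
set_option linter.unusedVariables false
set_option linter.style.haveILetI false
set_option synthInstance.maxHeartbeats 400000
set_option maxHeartbeats 800000

open ModularCurve AlgebraicCurve

noncomputable section

namespace Fermat.Agent.S40.M1.AuxVal

open Fermat.Agent.N4.Setting Fermat.Agent.N4.Chart Fermat.Agent.N4.FibreEmbedding
  Fermat.Agent.S28.Gauss Fermat.Agent.N4F.E.DegreeLevelRaise Fermat.Agent.N4F.E.GaussDVR
  Fermat.Agent.P3G.FibreTwo Fermat.Agent.S40.M1.AuxLevel Fermat.Agent.S40.M1.LevelComap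

/-! ### The Gauss side (any `M ∣ N`) -/

section Gauss

variable (K : Type) [Field K] [CharZero K] (O : Subring K) [IsDiscreteValuationRing ↥O]
  [IsFractionRing ↥O K] {M N : ℕ} [NeZero M] [NeZero N] (h : M ∣ N)

theorem inclF_mem_gaussSubalgebra_iff {x : FF K M} :
    inclF K h x ∈ gaussSubalgebra K N O ↔ x ∈ gaussSubalgebra K M O := by
  rw [mem_gaussSubalgebra_iff, mem_gaussSubalgebra_iff, coe_inclF]

theorem inclF_mem_gaussSubalgebra {x : FF K M} (hx : x ∈ gaussSubalgebra K M O) :
    inclF K h x ∈ gaussSubalgebra K N O :=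
  (inclF_mem_gaussSubalgebra_iff K O h).2 hx

/-- The Gauss reduction does not see the level. -/
theorem theta_inclF {x : FF K M} (hx : x ∈ gaussSubalgebra K M O) :
    theta K N O ⟨inclF K h x, inclF_mem_gaussSubalgebra K O h hx⟩ = theta K M O ⟨x, hx⟩ := by
  rw [theta_apply, theta_apply]
  congr 1

/-- **`V₁(N) ∩ FF K M = V₁(M)`.** -/
theorem comap_gaussVS :
    (gaussVS K N O).comap (inclF K h : FF K M →+* FF K N) = gaussVS K M O := by
  ext x
  rw [ValuationSubring.mem_comap, mem_gaussVS_iff, mem_gaussVS_iff]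
  exact inclF_mem_gaussSubalgebra_iff K O h

theorem inclF_mem_nonunits_gaussVS_iff {x : FF K M} :
    inclF K h x ∈ (gaussVS K N O).nonunits ↔ x ∈ (gaussVS K M O).nonunits := by
  rw [← comap_gaussVS K O h, mem_nonunits_comap_iff]
  rfl

theorem valuation_gaussVS_inclF_eq_one_iff {x : FF K M} :
    (gaussVS K N O).valuation (inclF K h x) = 1 ↔ (gaussVS K M O).valuation x = 1 := by
  rw [← comap_gaussVS K O h, valuation_comap_eq_one_iff]
  rfl

theorem valuation_gaussVS_inclF_le_iff {x y : FF K M} :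
    (gaussVS K N O).valuation (inclF K h x) ≤ (gaussVS K N O).valuation (inclF K h y) ↔
      (gaussVS K M O).valuation x ≤ (gaussVS K M O).valuation y := by
  rw [← comap_gaussVS K O h, valuation_comap_le_iff]
  rfl

theorem valuation_gaussVS_inclF_lt_iff {x y : FF K M} :
    (gaussVS K N O).valuation (inclF K h x) < (gaussVS K N O).valuation (inclF K h y) ↔
      (gaussVS K M O).valuation x < (gaussVS K M O).valuation y := by
  rw [← comap_gaussVS K O h, valuation_comap_lt_iff]
  rfl

theorem valuation_gaussVS_inclF_eq_iff {x y : FF K M} :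
    (gaussVS K N O).valuation (inclF K h x) = (gaussVS K N O).valuation (inclF K h y) ↔
      (gaussVS K M O).valuation x = (gaussVS K M O).valuation y := by
  rw [← comap_gaussVS K O h, valuation_comap_eq_iff]
  rfl

end Gauss

/-! ### The second valuation (`M ∣ N`, `ℓ` the residue characteristic) -/

section Second

variable (K : Type) [Field K] [CharZero K] (O : Subring K) [IsDiscreteValuationRing ↥O]
  [IsFractionRing ↥O K] {M N : ℕ} [NeZero M] [NeZero N] (h : M ∣ N)
  (ℓ : ℕ) [hℓ : Fact ℓ.Prime] [CharP (IsLocalRing.ResidueField ↥O) ℓ]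
  (S : SecondVal K N ℓ O) (S₀ : SecondVal K M ℓ O)

omit [CharP (IsLocalRing.ResidueField ↥O) ℓ] in
/-- The uniformiser is a nonunit of `V₂` (generic level `(K, O)`). -/
theorem unif_mem_nonunits_secondVal {ϖ : ↥O} (hϖ : Irreducible ϖ) :
    algebraMap K (FF K (N * ℓ)) (ϖ : K) ∈ S.V.nonunits := by
  have hmem : algebraMap ↥O (FF K N) ϖ ∈ gaussSubalgebra K N O :=
    (gaussSubalgebra K N O).algebraMap_mem ϖ
  have h1 := S.ev_beta _ hmem
  have h2 : theta K N O ⟨_, hmem⟩ = 0 := theta_unif K N O hϖ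
  rw [h2] at h1
  have h3 := (S.ev_eq_zero_iff _).mp h1
  have h4 : betaF K N ℓ (algebraMap ↥O (FF K N) ϖ) = algebraMap K (FF K (N * ℓ)) (ϖ : K) := by
    rw [IsScalarTower.algebraMap_apply ↥O K (FF K N), AlgHom.commutes]
    rfl
  rw [← h4]
  exact h3

omit [IsDiscreteValuationRing ↥O] [IsFractionRing ↥O K]
  [CharP (IsLocalRing.ResidueField ↥O) ℓ] in
theorem inclL_sepElt : inclL K h ℓ (sepElt K M ℓ) = sepElt K N ℓ := by
  unfold sepElt
  rw [map_sub, map_pow, inclL_alphaF, inclL_betaF, inclF_jF]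

/-- **`V₂(N ℓ) ∩ FF K (M ℓ) = V₂(M ℓ)`**, for any second valuations at the two levels. -/
theorem comap_secondVal :
    S.V.comap (inclL K h ℓ : FF K (M * ℓ) →+* FF K (N * ℓ)) = S₀.V := by
  have hβ : ∀ x ∈ gaussSubalgebra K M O,
      betaF K M ℓ x ∈ S.V.comap (inclL K h ℓ : FF K (M * ℓ) →+* FF K (N * ℓ)) := by
    intro x hx
    rw [ValuationSubring.mem_comap]
    show inclL K h ℓ (betaF K M ℓ x) ∈ S.V
    rw [inclL_betaF]
    exact S.beta_mem _ (inclF_mem_gaussSubalgebra K O h hx)
  have hϖ : ∀ ϖ₀ : ↥O, Irreducible ϖ₀ →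
      algebraMap K (FF K (M * ℓ)) (ϖ₀ : K) ∈
        (S.V.comap (inclL K h ℓ : FF K (M * ℓ) →+* FF K (N * ℓ))).nonunits := by
    intro ϖ₀ hϖ₀
    rw [mem_nonunits_comap_iff]
    show inclL K h ℓ (algebraMap K (FF K (M * ℓ)) (ϖ₀ : K)) ∈ S.V.nonunits
    rw [AlgHom.commutes]
    exact unif_mem_nonunits_secondVal K O ℓ S hϖ₀
  rcases S₀.only_two _ hβ hϖ with h1 | h1
  · exfalso
    have h2 : sepElt K M ℓ ∈
        (S.V.comap (inclL K h ℓ : FF K (M * ℓ) →+* FF K (N * ℓ))).nonunits := by
      rw [mem_nonunits_comap_iff]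
      show inclL K h ℓ (sepElt K M ℓ) ∈ S.V.nonunits
      rw [inclL_sepElt]
      exact sepElt_mem_nonunits_secondVal K N ℓ O S
    rw [h1] at h2
    exact sepElt_notMem_nonunits_gaussVS K M ℓ O h2
  · exact h1

theorem inclL_mem_secondVal_iff {x : FF K (M * ℓ)} : inclL K h ℓ x ∈ S.V ↔ x ∈ S₀.V := by
  rw [← comap_secondVal K O h ℓ S S₀, ValuationSubring.mem_comap]
  rfl

theorem inclL_mem_nonunits_secondVal_iff {x : FF K (M * ℓ)} :
    inclL K h ℓ x ∈ S.V.nonunits ↔ x ∈ S₀.V.nonunits := by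
  rw [← comap_secondVal K O h ℓ S S₀, mem_nonunits_comap_iff]
  rfl

theorem valuation_secondVal_inclL_eq_one_iff {x : FF K (M * ℓ)} :
    S.V.valuation (inclL K h ℓ x) = 1 ↔ S₀.V.valuation x = 1 := by
  rw [← comap_secondVal K O h ℓ S S₀, valuation_comap_eq_one_iff]
  rfl

theorem valuation_secondVal_inclL_le_iff {x y : FF K (M * ℓ)} :
    S.V.valuation (inclL K h ℓ x) ≤ S.V.valuation (inclL K h ℓ y) ↔
      S₀.V.valuation x ≤ S₀.V.valuation y := by
  rw [← comap_secondVal K O h ℓ S S₀, valuation_comap_le_iff]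
  rfl

theorem valuation_secondVal_inclL_lt_iff {x y : FF K (M * ℓ)} :
    S.V.valuation (inclL K h ℓ x) < S.V.valuation (inclL K h ℓ y) ↔
      S₀.V.valuation x < S₀.V.valuation y := by
  rw [← comap_secondVal K O h ℓ S S₀, valuation_comap_lt_iff]
  rfl

theorem valuation_secondVal_inclL_eq_iff {x y : FF K (M * ℓ)} :
    S.V.valuation (inclL K h ℓ x) = S.V.valuation (inclL K h ℓ y) ↔
      S₀.V.valuation x = S₀.V.valuation y := by
  rw [← comap_secondVal K O h ℓ S S₀, valuation_comap_eq_iff]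
  rfl

/-- **A bi-unit of level `M ℓ` is a bi-unit at level `N ℓ`** (and conversely). -/
theorem isBiUnit_inclL_iff {x : FF K (M * ℓ)} :
    ((gaussVS K (N * ℓ) O).valuation (inclL K h ℓ x) = 1 ∧ S.V.valuation (inclL K h ℓ x) = 1) ↔
      ((gaussVS K (M * ℓ) O).valuation x = 1 ∧ S₀.V.valuation x = 1) := by
  rw [valuation_secondVal_inclL_eq_one_iff K O h ℓ S S₀]
  exact and_congr (valuation_gaussVS_inclF_eq_one_iff K O (Nat.mul_dvd_mul_right h ℓ)) Iff.rfl

end Second

end Fermat.Agent.S40.M1.AuxVal
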