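/-
S40 / M1-AUX, part 3 (helper6): **descent of a divisibility of orders along a finite separable
extension of function fields of degree prime to the modulus.**

Generic (`Place` = the prelude's `AlgebraicCurve.Place`): `F'/F` finite separable, `e` prime to
`[F' : F]`, `v` a place of `F`, `g ∈ F`: if `e ∣ ord_w g` for every place `w` of `F'` above `v`, then
`e ∣ ord_v g` (`ord_w g = e(w|v) ord_v g` and `Σ_w e(w|v) f(w|v) = [F' : F]`, through the primes of the
integral closure of `O_v` — no `HasPrincipalDivisors` needed): `dvd_ord_of_forall_restrict`.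

Relative extension `FF k M ⊆ FF k N` (`M ∣ N`, any field `k`, algebra structure along `inclF k h`):
`inclF_algebraMap_ratFunc`, `isScalarTower_ratFunc`, `finiteDimensional_incl`, `isSeparable_incl`,
`finrank_ratFunc_mul_finrank_incl`, `dvd_ord_inclF` (`e ∣ ord_Q f ∀ Q` goes UP to level `N`).

At a level `(K, O)` (binder block of `S40/W/F4Level`):
* `redG_inclL` : the Gauss reduction `redG` commutes with the change of level;
* `dvd_ord_redG_of_forall_aux` : **`e ∣ ord_{s'} (redG (inclL f))` at ALL places `s'` of `FF κ N` ⇒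
  `e ∣ ord_s (redG f)` at ALL places `s` of `FF κ M`**, `e` prime to `[FF κ N : FF κ M]`;
* `dedekindPsi_mul_finrank_incl` : `ψ(M) · [FF κ N : FF κ M] = ψ(N)`; `dvd_ord_redG_of_forall_aux'` :
  the descent with the degree read off from `ψ(N) = ψ(M) · c`, `e` prime to `c`;
* `exists_dedekindPsi_lcm_four` : `ψ(lcm(4, M)) = ψ(M) · c`, `c ∣ 6`; `coprime_of_dvd_six` (`p ≥ 5`).

Use (row 67 (M1-AUX)): prove "`p ∣ ord_{s'} (red f)` at every place `s'`" at the auxiliary level
`N_aux = lcm(4, M')` ((F4) off the supersingular places, (R4)+(R5) at the honest nodes), then descend to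
level `M'` — no correspondence between the supersingular points of the two levels is needed.
-/
import Mathlib
import Fermat.Agent.N4F.A.PlaceFiber
import Fermat.Agent.S40.M1.AuxVal
import Fermat.Agent.S40.W.Sep
import Fermat.Agent.S40.W.FibreDegree
import Fermat.Agent.S40.W.ConstDescent
import Fermat.Agent.S40.W.F4Level

set_option autoImplicit false
set_option linter.unusedSectionVars false
set_option linter.style.haveILetI false

namespace Fermat.Agent.S40.M1.AuxOrd

open AlgebraicCurve IsDedekindDomain IsLocalRing Fermat.Agent.N4F.A.PlaceFiber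

section Generic

variable {K F : Type*} (F' : Type*) [Field K] [Field F] [Field F']
  [Algebra K F] [Algebra K F'] [Algebra F F'] [IsScalarTower K F F']
  [FiniteDimensional F F'] [Algebra.IsSeparable F F']

/-- **Descent of `e ∣ ord`** along a finite separable extension of degree prime to `e`. -/
theorem dvd_ord_of_forall_restrict (e : ℕ) (he : Nat.Coprime e (Module.finrank F F'))
    (v : Place K F) (g : F)
    (hg : ∀ w : Place K F', w.restrict F = v → (e : ℤ) ∣ w.ord (algebraMap F F' g)) :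
    (e : ℤ) ∣ v.ord g := by
  classical
  haveI : Fintype ((maximalIdeal v.toValuationSubring).primesOver (Bv F' v)) :=
    (Algebra.QuasiFinite.finite_primesOver (maximalIdeal v.toValuationSubring)).fintype
  have key := Ideal.sum_ramification_inertia_eq_finrank (maximalIdeal v.toValuationSubring)
    (Bv F' v)
  rw [finrank_Bv] at key
  have hterm : ∀ q : (maximalIdeal v.toValuationSubring).primesOver (Bv F' v),
      (e : ℤ) ∣ ((q.1.ramificationIdx v.toValuationSubring : ℕ) : ℤ) * v.ord g := by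
    intro q
    haveI : q.1.IsPrime := q.2.1
    haveI : q.1.LiesOver (maximalIdeal v.toValuationSubring) := q.2.2
    have hq0 : q.1 ≠ ⊥ := Ideal.ne_bot_of_liesOver_of_ne_bot (maximalIdeal_ne_bot v) q.1
    set Q : HeightOneSpectrum (Bv F' v) := ⟨q.1, q.2.1, hq0⟩ with hQ
    have hw := restrict_placeOfPrime v Q
    have h1 := hg _ hw
    rw [Place.ord_restrict, hw, ramificationIndex_eq hw, centerAt_placeOfPrime] at h1
    exact h1
  have hsum : ((Module.finrank F F' : ℕ) : ℤ) * v.ord g =
      ∑ q : (maximalIdeal v.toValuationSubring).primesOver (Bv F' v),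
        ((q.1.inertiaDeg v.toValuationSubring : ℕ) : ℤ) *
          (((q.1.ramificationIdx v.toValuationSubring : ℕ) : ℤ) * v.ord g) := by
    rw [← key]
    push_cast
    rw [Finset.sum_mul]
    refine Finset.sum_congr rfl fun q _ => ?_
    ring
  have hdvd : (e : ℤ) ∣ ((Module.finrank F F' : ℕ) : ℤ) * v.ord g := by
    rw [hsum]
    exact Finset.dvd_sum fun q _ => Dvd.dvd.mul_left (hterm q) _
  exact (Nat.isCoprime_iff_coprime.2 he).dvd_of_dvd_mul_left hdvd

end Generic

/-! ### The relative extension `FF k M ⊆ FF k N`, `M ∣ N`, over any field `k` -/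

section Relative

open Polynomial Fermat.Agent.N4.Setting Fermat.Agent.N4F.E.DegreeLevelRaise
open scoped Fermat.Agent.S40.W.FFSetting

variable (k : Type) [Field k] {M N : ℕ} [NeZero M] [NeZero N] (h : M ∣ N)

/-- The inclusion `FF k M → FF k N` is compatible with the structure maps `X ↦ j` from `k(X)`. -/
theorem inclF_algebraMap_ratFunc (r : RatFunc k) :
    inclF k h (algebraMap (RatFunc k) (FF k M) r) = algebraMap (RatFunc k) (FF k N) r := by
  have key : ((inclF k h : FF k M →+* FF k N).comp (algebraMap (RatFunc k) (FF k M))) =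
      algebraMap (RatFunc k) (FF k N) := by
    apply IsLocalization.ringHom_ext (nonZeroDivisors k[X])
    ext p
    · simp only [RingHom.comp_apply, RingHom.coe_coe]
      rw [← IsScalarTower.algebraMap_apply k[X] (RatFunc k) (FF k M),
        ← IsScalarTower.algebraMap_apply k[X] (RatFunc k) (FF k N),
        Fermat.Agent.S40.W.FFSetting.algebraMap_poly_apply,
        Fermat.Agent.S40.W.FFSetting.algebraMap_poly_apply, aeval_C, aeval_C, AlgHom.commutes]
    · simp only [RingHom.comp_apply, RingHom.coe_coe]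
      rw [← IsScalarTower.algebraMap_apply k[X] (RatFunc k) (FF k M),
        ← IsScalarTower.algebraMap_apply k[X] (RatFunc k) (FF k N),
        Fermat.Agent.S40.W.FFSetting.algebraMap_poly_apply,
        Fermat.Agent.S40.W.FFSetting.algebraMap_poly_apply, aeval_X, aeval_X, inclF_jF]
  exact congrFun (congrArg DFunLike.coe key) r

theorem isScalarTower_ratFunc :
    letI := algebraAlong (inclF k h)
    IsScalarTower (RatFunc k) (FF k M) (FF k N) :=
  letI := algebraAlong (inclF k h)
  IsScalarTower.of_algebraMap_eq fun r => (inclF_algebraMap_ratFunc k h r).symm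

theorem finiteDimensional_incl [FiniteDimensional (RatFunc k) (FF k N)] :
    letI := algebraAlong (inclF k h)
    FiniteDimensional (FF k M) (FF k N) := by
  letI := algebraAlong (inclF k h)
  haveI := isScalarTower_ratFunc k h
  exact Module.Finite.of_restrictScalars_finite (RatFunc k) (FF k M) (FF k N)

theorem isSeparable_incl [Algebra.IsSeparable (RatFunc k) (FF k N)] :
    letI := algebraAlong (inclF k h)
    Algebra.IsSeparable (FF k M) (FF k N) := by
  letI := algebraAlong (inclF k h)
  haveI := isScalarTower_ratFunc k h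
  exact Algebra.isSeparable_tower_top_of_isSeparable (RatFunc k) (FF k M) (FF k N)

theorem finrank_ratFunc_mul_finrank_incl :
    letI := algebraAlong (inclF k h)
    Module.finrank (RatFunc k) (FF k M) * Module.finrank (FF k M) (FF k N) =
      Module.finrank (RatFunc k) (FF k N) := by
  letI := algebraAlong (inclF k h)
  haveI := isScalarTower_ratFunc k h
  exact Module.finrank_mul_finrank (RatFunc k) (FF k M) (FF k N)

/-- **Divisibility of all orders goes up along `FF k M ⊆ FF k N`** (`ord_{Q'} f = e(Q'|Q) ord_Q f`). -/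
theorem dvd_ord_inclF [FiniteDimensional (RatFunc k) (FF k N)] (e : ℤ) {f : FF k M}
    (hdiv : ∀ Q : Place k (FF k M), e ∣ Q.ord f) (Q' : Place k (FF k N)) :
    e ∣ Q'.ord (inclF k h f) := by
  letI := algebraAlong (inclF k h)
  haveI := isScalarTower_along (inclF k h)
  haveI := finiteDimensional_incl k h
  have h1 := Q'.ord_restrict (F := FF k M) f
  have h2 : algebraMap (FF k M) (FF k N) f = inclF k h f := rfl
  rw [h2] at h1
  rw [h1]
  exact Dvd.dvd.mul_left (hdiv _) _

/-- The same in characteristic zero (no instance argument). -/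
theorem dvd_ord_inclF_of_charZero [CharZero k] (e : ℤ) {f : FF k M}
    (hdiv : ∀ Q : Place k (FF k M), e ∣ Q.ord f) (Q' : Place k (FF k N)) :
    e ∣ Q'.ord (inclF k h f) :=
  haveI := Fermat.Agent.S40.W.FFSetting.finiteDimensional_ratFunc_of_charZero k N
  dvd_ord_inclF k h e hdiv Q'

end Relative

/-! ### At a level `(K, O)`: the Gauss reduction and the descent of the order condition -/

section Level

open ModularCurve Fermat.Agent.N4.Setting Fermat.Agent.N4.FibreEmbedding
  Fermat.Agent.N4F.E.DegreeLevelRaise Fermat.Agent.P3G Fermat.Agent.S40.W.F4Level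
  Fermat.Agent.S40.M1.AuxLevel Fermat.Agent.S40.M1.AuxVal
open scoped Fermat.Agent.S40.W.FFSetting

variable (K : Type) [Field K] [CharZero K] (ℓ : ℕ) [Fact ℓ.Prime]
  (O : Subring K) [IsDiscreteValuationRing ↥O] [IsFractionRing ↥O K]
  [CharP (IsLocalRing.ResidueField ↥O) ℓ] [PerfectRing (IsLocalRing.ResidueField ↥O) ℓ]
  {M N : ℕ} [NeZero M] [NeZero N] (h : M ∣ N)

set_option quotPrecheck false in
local notation "κ" => IsLocalRing.ResidueField ↥O

set_option synthInstance.maxHeartbeats 400000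
set_option maxHeartbeats 1600000

variable (ι : K →+* ℂ) (hℓN : ¬ ℓ ∣ N) (hℓM : ¬ ℓ ∣ M)
  (hA2N : ∀ x : ↥(gaussSubalgebra K N O),
    theta K N O x ∈ modularFunctionFieldFullC (IsLocalRing.ResidueField ↥O) N)
  (hA2M : ∀ x : ↥(gaussSubalgebra K M O),
    theta K M O x ∈ modularFunctionFieldFullC (IsLocalRing.ResidueField ↥O) M)
  (S : FibreTwo.SecondVal K N ℓ O) (S₀ : FibreTwo.SecondVal K M ℓ O)

/-- **The Gauss reduction commutes with the change of level.** -/
theorem redG_inclL {x : FF K (M * ℓ)} (hx : x ∈ gaussSubalgebra K (M * ℓ) O) :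
    redG K N ℓ O ι hℓN hA2N S
        ⟨inclL K h ℓ x, inclF_mem_gaussSubalgebra K O (Nat.mul_dvd_mul_right h ℓ) hx⟩ =
      inclF κ h (redG K M ℓ O ι hℓM hA2M S₀ ⟨x, hx⟩) := by
  apply Subtype.ext
  rw [coe_redG, coe_inclF, coe_redG]
  exact theta_inclF K O (Nat.mul_dvd_mul_right h ℓ) hx

/-- **Descent of the order condition from the auxiliary level `N` to the level `M ∣ N`**: if
`e` is prime to `[FF κ N : FF κ M]` and `e ∣ ord_{s̃} (red f)` at every place `s̃` of `FF κ N`, then
`e ∣ ord_s (red f)` at every place `s` of `FF κ M`. -/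
theorem dvd_ord_redG_of_forall_aux [FiniteDimensional (RatFunc κ) (FF κ N)]
    [Algebra.IsSeparable (RatFunc κ) (FF κ N)] (e : ℕ)
    (he : letI := algebraAlong (inclF κ h); Nat.Coprime e (Module.finrank (FF κ M) (FF κ N)))
    {f : FF K (M * ℓ)} (hf : f ∈ gaussSubalgebra K (M * ℓ) O)
    (haux : ∀ s' : Place κ (FF κ N), (e : ℤ) ∣ s'.ord (redG K N ℓ O ι hℓN hA2N S
      ⟨inclL K h ℓ f, inclF_mem_gaussSubalgebra K O (Nat.mul_dvd_mul_right h ℓ) hf⟩))
    (s : Place κ (FF κ M)) :
    (e : ℤ) ∣ s.ord (redG K M ℓ O ι hℓM hA2M S₀ ⟨f, hf⟩) := by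
  letI := algebraAlong (inclF κ h)
  haveI := isScalarTower_along (inclF κ h)
  haveI := finiteDimensional_incl κ h
  haveI := isSeparable_incl κ h
  refine dvd_ord_of_forall_restrict (FF κ N) e he s _ fun w _ => ?_
  have h1 := haux w
  rw [redG_inclL K ℓ O h ι hℓN hℓM hA2N hA2M S S₀ hf] at h1
  exact h1

omit [CharP (IsLocalRing.ResidueField ↥O) ℓ] [PerfectRing (IsLocalRing.ResidueField ↥O) ℓ]
  [Fact ℓ.Prime] in
include ι in
/-- **`ψ(M) · [FF κ N : FF κ M] = ψ(N)`** at a level `(K, O)` with prime finite fibres. -/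
theorem dedekindPsi_mul_finrank_incl (hN : IsUnit ((N : ℕ) : ↥O))
    (hprimeN : (fibreIdeal K N O (Rfin K N O)).IsPrime)
    (hprimeM : (fibreIdeal K M O (Rfin K M O)).IsPrime) :
    letI := algebraAlong (inclF κ h)
    dedekindPsi M * Module.finrank (FF κ M) (FF κ N) = dedekindPsi N := by
  have hM : IsUnit ((M : ℕ) : ↥O) := by
    obtain ⟨c, rfl⟩ := h
    rw [Nat.cast_mul] at hN
    exact isUnit_of_mul_isUnit_left hN
  have h1 := finrank_ratFunc_mul_finrank_incl κ h
  rw [Fermat.Agent.S40.W.FibreDegree.finrank_residue_eq' K N O hN hprimeN,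
    Fermat.Agent.S40.W.FibreDegree.finrank_residue_eq' K M O hM hprimeM,
    Fermat.Agent.S40.W.ConstDescent.finrank_ratFunc_FF N ι,
    Fermat.Agent.S40.W.ConstDescent.finrank_ratFunc_FF M ι] at h1
  exact h1

/-- The descent of the order condition, with the degree read off from `ψ`. -/
theorem dvd_ord_redG_of_forall_aux' [FiniteDimensional (RatFunc κ) (FF κ N)]
    [Algebra.IsSeparable (RatFunc κ) (FF κ N)] (hN : IsUnit ((N : ℕ) : ↥O))
    (hprimeN : (fibreIdeal K N O (Rfin K N O)).IsPrime)
    (hprimeM : (fibreIdeal K M O (Rfin K M O)).IsPrime)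
    (e c : ℕ) (hc : dedekindPsi N = dedekindPsi M * c) (hec : Nat.Coprime e c)
    {f : FF K (M * ℓ)} (hf : f ∈ gaussSubalgebra K (M * ℓ) O)
    (haux : ∀ s' : Place κ (FF κ N), (e : ℤ) ∣ s'.ord (redG K N ℓ O ι hℓN hA2N S
      ⟨inclL K h ℓ f, inclF_mem_gaussSubalgebra K O (Nat.mul_dvd_mul_right h ℓ) hf⟩))
    (s : Place κ (FF κ M)) :
    (e : ℤ) ∣ s.ord (redG K M ℓ O ι hℓM hA2M S₀ ⟨f, hf⟩) := by
  refine dvd_ord_redG_of_forall_aux K ℓ O h ι hℓN hℓM hA2N hA2M S S₀ e ?_ hf haux s
  have h1 := dedekindPsi_mul_finrank_incl K O h ι hN hprimeN hprimeM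
  rw [hc] at h1
  have hpos : 0 < dedekindPsi M := Fermat.Agent.N4.ModPolyShape.dedekindPsi_pos M
  rw [Nat.eq_of_mul_eq_mul_left hpos h1]
  exact hec

end Level

/-! ### The auxiliary level `lcm(4, M)` -/

section Arith

open ModularCurve

theorem dedekindPsi_four : dedekindPsi 4 = 6 := by
  have h := Fermat.Agent.M2.P1.dedekindPsi_prime_pow 2 1 Nat.prime_two
  norm_num at h
  exact h

theorem dedekindPsi_two : dedekindPsi 2 = 3 := by
  have h := Fermat.Agent.M2.P1.dedekindPsi_prime_pow 2 0 Nat.prime_two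
  norm_num at h
  exact h

/-- **`ψ(lcm(4, M)) = ψ(M) · c` with `c ∣ 6`.** -/
theorem exists_dedekindPsi_lcm_four (M : ℕ) (hM : M ≠ 0) :
    ∃ c : ℕ, c ∣ 6 ∧ dedekindPsi (Nat.lcm 4 M) = dedekindPsi M * c := by
  by_cases h4 : 4 ∣ M
  · refine ⟨1, by norm_num, ?_⟩
    rw [Nat.lcm_eq_right h4, mul_one]
  by_cases h2 : 2 ∣ M
  · obtain ⟨m, rfl⟩ := h2
    have hm : ¬ 2 ∣ m := fun ⟨k, hk⟩ => h4 ⟨k, by rw [hk]; ring⟩
    have hc2 : Nat.Coprime 2 m := (Nat.Prime.coprime_iff_not_dvd Nat.prime_two).2 hm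
    have hc4 : Nat.Coprime 4 m := by
      have : (4 : ℕ) = 2 ^ 2 := by norm_num
      rw [this]
      exact Nat.Coprime.pow_left 2 hc2
    have hl : Nat.lcm 4 (2 * m) = 4 * m := by
      have h1 : Nat.lcm (2 * 2) (2 * m) = 2 * Nat.lcm 2 m := Nat.lcm_mul_left 2 2 m
      rw [show (4 : ℕ) = 2 * 2 by norm_num, h1, Nat.Coprime.lcm_eq_mul hc2]
      ring
    refine ⟨2, by norm_num, ?_⟩
    rw [hl, Fermat.Agent.M2.P1.dedekindPsi_mul hc4, Fermat.Agent.M2.P1.dedekindPsi_mul hc2,
      dedekindPsi_four, dedekindPsi_two]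
    ring
  · have hc2 : Nat.Coprime 2 M := (Nat.Prime.coprime_iff_not_dvd Nat.prime_two).2 h2
    have hc4 : Nat.Coprime 4 M := by
      have : (4 : ℕ) = 2 ^ 2 := by norm_num
      rw [this]
      exact Nat.Coprime.pow_left 2 hc2
    refine ⟨6, dvd_refl 6, ?_⟩
    rw [Nat.Coprime.lcm_eq_mul hc4, Fermat.Agent.M2.P1.dedekindPsi_mul hc4, dedekindPsi_four]
    ring

/-- A prime `p ≥ 5` is prime to every divisor of `6`. -/
theorem coprime_of_dvd_six {p c : ℕ} (hp : p.Prime) (hp5 : 5 ≤ p) (hc : c ∣ 6) :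
    Nat.Coprime p c := by
  refine Nat.Coprime.coprime_dvd_right hc ?_
  rw [Nat.Prime.coprime_iff_not_dvd hp]
  intro h6
  have h7 : p ≤ 6 := Nat.le_of_dvd (by norm_num) h6
  interval_cases p
  · norm_num at h6
  · norm_num at hp

end Arith

end Fermat.Agent.S40.M1.AuxOrd
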