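/-
S44/S40 (`moonshots` row 67, leaf (M1-AUX) / AUX-SEAM; helper6; dispatch #3207 (2)):
**the supersingular vanishing (n6′) at level `M` from the order condition at ALL places of the
auxiliary level `N`** (`M ∣ N`, `ψ(N) = ψ(M) · c`, `p` prime to `c`; e.g. `N = lcm(4, M)`, `p ≥ 5`).

Generic level `(K, O)` (binder block of `S40/W/F4Place`, `S40/M1/AuxOrd`):
* `dvd_ord_acInfF_of_forall_aux`, `mInf_eq_zero_of_forall_aux` : if
  `ℓ ∣ ord_{s'} (redG_N (inclL f))` at EVERY place `s'` of `FF κ N`, then `ℓ ∣ ord_s (f̄_∞)` and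
  `m^∞_s(f) = 0` at EVERY place `s` of `FF κ M` (`AuxOrd.dvd_ord_redG_of_forall_aux'` in the vocabulary
  of `S40/W/Lambda`).

Good level `(M p A K hK S₂ ϖ)` (vocabulary of `S40/New/Norm`):
* ★ `ssVanish_of_aux` : `(∀ s', (p:ℤ) ∣ s'.ord (redG_N ⟨inclL fK, _⟩)) → New.Norm.SSVanish M p A K S₂ ϖ fK`;
* `forall_aux_of_node` : the order condition at ALL places `s'` of level `N` from the one at the
  SUPERSINGULAR places of the finite chart (`F4Good.f4_place_good` elsewhere; inputs `hf₁`, `hdiv` at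
  level `M`, `hratN` at level `N`);
* ★ `ssVanish_of_node` : (n6′) at level `M` from the node statement `hnode` at level `N`
  (= the output of (R4) + (R5′) at the honest nodes);
* `neZero_lcm_four`, `not_dvd_lcm_four`, `ssVanish_of_node_lcm_four` : the instance
  `N = lcm(4, M)`, `p ≥ 5`.

Transport of the inputs of (F4) to the auxiliary level (levels `L₀ ≤ K` of `Q̄`):
* `ffMap_inclF`, `ffMap_inclL` : the change of the modular level commutes with the change of the
  field of constants;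
* `exists_level_hrat` : the zeros and poles of a function are rational at every level above a number
  field; `exists_level_hrat_inclL` : the same for `inclL (ffMap f₀)` (the `hrat` of
  `F4Good.f4_place_good` at the auxiliary level).
-/
import Mathlib
import Fermat.Agent.S40.M1.AuxOrd
import Fermat.Agent.S40.W.F4Good
import Fermat.Agent.S40.New.Norm
import Fermat.Agent.S19.Cech.LevelBasis
import Fermat.Agent.P3G.Glue.LevelDict

set_option autoImplicit false
set_option linter.unusedSectionVars false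
set_option linter.unusedVariables false
set_option linter.style.haveILetI false

open ModularCurve AlgebraicCurve

noncomputable section

namespace Fermat.Agent.S40.M1.AuxSS

/-! ### Generic level `(K, O)` -/

section Level

open Fermat.Agent.N4.Setting Fermat.Agent.N4.FibreEmbedding
  Fermat.Agent.N4F.E.DegreeLevelRaise Fermat.Agent.N4F.E.GaussDVR Fermat.Agent.P3G
  Fermat.Agent.S40.W Fermat.Agent.S40.W.F4Level
  Fermat.Agent.S40.M1.AuxLevel Fermat.Agent.S40.M1.AuxVal Fermat.Agent.S40.M1.AuxOrd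
open scoped Fermat.Agent.S40.W.FFSetting

variable (K : Type) [Field K] [CharZero K] (ℓ : ℕ) [Fact ℓ.Prime]
  (O : Subring K) [IsDiscreteValuationRing ↥O] [IsFractionRing ↥O K]
  [CharP (IsLocalRing.ResidueField ↥O) ℓ] [PerfectRing (IsLocalRing.ResidueField ↥O) ℓ]
  {M N : ℕ} [NeZero M] [NeZero N] (h : M ∣ N)

set_option quotPrecheck false in
local notation "κ" => IsLocalRing.ResidueField ↥O

set_option synthInstance.maxHeartbeats 400000
set_option maxHeartbeats 1600000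

variable (ι : K →+* ℂ) (hℓN : ¬ ℓ ∣ N) (hℓM : ¬ ℓ ∣ M)
  (hA2N : ∀ x : ↥(gaussSubalgebra K N O),
    theta K N O x ∈ modularFunctionFieldFullC (IsLocalRing.ResidueField ↥O) N)
  (hA2M : ∀ x : ↥(gaussSubalgebra K M O),
    theta K M O x ∈ modularFunctionFieldFullC (IsLocalRing.ResidueField ↥O) M)
  (S : FibreTwo.SecondVal K N ℓ O) (S₀ : FibreTwo.SecondVal K M ℓ O)
  {ϖ : ↥O} (hϖ : Irreducible ϖ)

/-- **`e ∣ ord_s (f̄_∞)` at every place of `FF κ M` from the order condition at every place of the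
auxiliary level `N`.** -/
theorem dvd_ord_acInfF_of_forall_aux [FiniteDimensional (RatFunc κ) (FF κ N)]
    [Algebra.IsSeparable (RatFunc κ) (FF κ N)] (hN : IsUnit ((N : ℕ) : ↥O))
    (hprimeN : (fibreIdeal K N O (Rfin K N O)).IsPrime)
    (hprimeM : (fibreIdeal K M O (Rfin K M O)).IsPrime)
    (e c : ℕ) (hc : dedekindPsi N = dedekindPsi M * c) (hec : Nat.Coprime e c)
    {f : FF K (M * ℓ)} (hf₁ : (gaussVS K (M * ℓ) O).valuation f = 1)
    (hfN : inclL K h ℓ f ∈ gaussSubalgebra K (N * ℓ) O)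
    (haux : ∀ s' : Place κ (FF κ N),
      (e : ℤ) ∣ s'.ord (redG K N ℓ O ι hℓN hA2N S ⟨inclL K h ℓ f, hfN⟩))
    (s : Place κ (FF κ M)) :
    (e : ℤ) ∣ s.ord (Lambda.acInfF K M ℓ O (SecondValBridge.ofTwo S₀) ι hℓM hA2M hϖ f) := by
  rw [F4Place.acInfF_eq_redG K M ℓ O ι hℓM hA2M S₀ hϖ hf₁]
  exact dvd_ord_redG_of_forall_aux' K ℓ O h ι hℓN hℓM hA2N hA2M S S₀ hN hprimeN hprimeM e c hc hec
    (mem_gauss_of_valuation_eq_one K M ℓ O hf₁) haux s

/-- **`m^∞_s(f) = 0` at every place of `FF κ M` from the order condition at every place of the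
auxiliary level `N`.** -/
theorem mInf_eq_zero_of_forall_aux [FiniteDimensional (RatFunc κ) (FF κ N)]
    [Algebra.IsSeparable (RatFunc κ) (FF κ N)] (hN : IsUnit ((N : ℕ) : ↥O))
    (hprimeN : (fibreIdeal K N O (Rfin K N O)).IsPrime)
    (hprimeM : (fibreIdeal K M O (Rfin K M O)).IsPrime)
    (c : ℕ) (hc : dedekindPsi N = dedekindPsi M * c) (hec : Nat.Coprime ℓ c)
    {f : FF K (M * ℓ)} (hf₁ : (gaussVS K (M * ℓ) O).valuation f = 1)
    (hfN : inclL K h ℓ f ∈ gaussSubalgebra K (N * ℓ) O)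
    (haux : ∀ s' : Place κ (FF κ N),
      (ℓ : ℤ) ∣ s'.ord (redG K N ℓ O ι hℓN hA2N S ⟨inclL K h ℓ f, hfN⟩))
    (s : Place κ (FF κ M)) :
    Lambda.mInf K M ℓ O (SecondValBridge.ofTwo S₀) ι hℓM hA2M hϖ s f = 0 := by
  rw [F4Place.mInf_eq_zero_iff K M ℓ O ι hℓM hA2M S₀ hϖ s f]
  exact dvd_ord_acInfF_of_forall_aux K ℓ O h ι hℓN hℓM hA2N hA2M S S₀ hϖ hN hprimeN hprimeM ℓ c hc
    hec hf₁ hfN haux s

end Level

/-! ### The auxiliary level `lcm(4, M)` -/

section Arith

theorem neZero_lcm_four (M : ℕ) [NeZero M] : NeZero (Nat.lcm 4 M) :=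
  ⟨Nat.lcm_ne_zero (by norm_num) (NeZero.ne M)⟩

theorem not_dvd_lcm_four {p M : ℕ} (hp : p.Prime) (hp5 : 5 ≤ p) (hpM : ¬ p ∣ M) :
    ¬ p ∣ Nat.lcm 4 M := by
  intro h
  have h1 : p ∣ 4 * M := h.trans (Nat.lcm_dvd_mul 4 M)
  rcases (Nat.Prime.dvd_mul hp).1 h1 with h4 | hM
  · have : p ≤ 4 := Nat.le_of_dvd (by norm_num) h4
    omega
  · exact hpM hM

end Arith

/-! ### Good levels -/

section Good

open Fermat.Agent.S28.Gauss
open Fermat.Agent.N4.Setting Fermat.Agent.N4.Chart Fermat.Agent.N4.S18Glue Fermat.Agent.N4.BigDVR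
  Fermat.Agent.N4.FibreEmbedding
  Fermat.Agent.P3G.Assembly.StepOfLevel Fermat.Agent.P3G.Assembly.LevelStep
  Fermat.Agent.N4F.C Fermat.Agent.N4F.C.Levels Fermat.Agent.N4F.C.Galois
  Fermat.Agent.N4F.E.GaussDVR Fermat.Agent.S33.L.Contracts
  Fermat.Agent.N4F.C.ChartFibre Fermat.Agent.S40.W.F4Level Fermat.Agent.P3G
  Fermat.Agent.S40.W Fermat.Agent.S40.New.Norm
  Fermat.Agent.S40.M1.AuxLevel Fermat.Agent.S40.M1.AuxVal Fermat.Agent.S40.M1.AuxOrd

local notation "Qbar" => AlgebraicClosure ℚ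

set_option maxHeartbeats 1600000 in
set_option synthInstance.maxHeartbeats 400000 in
/-- ★ **AUX-SEAM.**  At a good level `K`, for modular levels `M ∣ N` prime to `p` with
`ψ(N) = ψ(M) · c`, `p` prime to `c`: if `p ∣ ord_{s'} (redG_N (inclL f_K))` at EVERY place `s'` of
`FF κ N`, then `f_K` satisfies (n6′) `SSVanish` at level `M`. -/
theorem ssVanish_of_aux (M N p : ℕ) [NeZero M] [NeZero N] [Fact p.Prime] (h : M ∣ N)
    (hpN : ¬ p ∣ N) (A : ValuationSubring Qbar) (hA : A.LiesOverPrime p)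
    (K : IntermediateField ℚ Qbar) (hK : IsGoodLevel A p K)
    [IsDiscreteValuationRing ↥(baseRing A K)]
    [CharP (IsLocalRing.ResidueField ↥(baseRing A K)) p]
    (hA2N : ∀ x : ↥(gaussSubalgebra (Lvl K) N (baseRing A K)),
      theta (Lvl K) N (baseRing A K) x ∈
        modularFunctionFieldFullC (IsLocalRing.ResidueField ↥(baseRing A K)) N)
    (S : Fermat.Agent.P3G.FibreTwo.SecondVal (Lvl K) N p (baseRing A K))
    (S₂ : Fermat.Agent.P3G.FibreTwo.SecondVal (Lvl K) M p (baseRing A K))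
    (ϖ : ↥(baseRing A K))
    (c : ℕ) (hc : dedekindPsi N = dedekindPsi M * c) (hpc : Nat.Coprime p c)
    {fK : FF (Lvl K) (M * p)}
    (hf₁ : (gaussVS (Lvl K) (M * p) (baseRing A K)).valuation fK = 1)
    (hfN : inclL (Lvl K) h p fK ∈ gaussSubalgebra (Lvl K) (N * p) (baseRing A K))
    (haux : ∀ s' : Place (IsLocalRing.ResidueField ↥(baseRing A K))
        (FF (IsLocalRing.ResidueField ↥(baseRing A K)) N),
      (p : ℤ) ∣ s'.ord (redG (Lvl K) N p (baseRing A K) (Fermat.Agent.P3G.GammaV2.lvlToComplex K)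
        hpN hA2N S ⟨inclL (Lvl K) h p fK, hfN⟩)) :
    SSVanish M p A K S₂ ϖ fK := by
  have hpM : ¬ p ∣ M := fun h' => hpN (h'.trans h)
  intro hpM' hϖ inst hA2M s hj hs
  haveI : IsAlgClosed (IsLocalRing.ResidueField ↥(baseRing A K)) := hK.algClosed
  haveI : PerfectRing (IsLocalRing.ResidueField ↥(baseRing A K)) p := inferInstance
  obtain ⟨hNu, hprimeN, -, -, -, -⟩ := F4Good.levelFacts_good N p hpN A hA K hK
  obtain ⟨-, hprimeM, -, -, -, -⟩ := F4Good.levelFacts_good M p hpM A hA K hK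
  haveI := Fermat.Agent.S40.W.Sep.finiteDimensional_ratFunc
    (IsLocalRing.ResidueField ↥(baseRing A K)) N
  haveI := Fermat.Agent.S40.W.Sep.isSeparable_ratFunc
    (IsLocalRing.ResidueField ↥(baseRing A K)) N
  exact Fermat.Agent.S40.M1.AuxSS.mInf_eq_zero_of_forall_aux (Lvl K) p (baseRing A K) h
    (Fermat.Agent.P3G.GammaV2.lvlToComplex K) hpN hpM' hA2N hA2M S S₂ hϖ hNu hprimeN hprimeM c hc hpc
    hf₁ hfN haux s

set_option maxHeartbeats 1600000 in
set_option synthInstance.maxHeartbeats 400000 in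
/-- **The order condition at ALL places of the auxiliary level from the supersingular places**
(`F4Good.f4_place_good` off the supersingular places of the finite chart): the inputs are those of
(F4) for `f_K` at level `M` (`hf₁`, `hdiv`) and the rationality of the zeros and poles of
`inclL f_K` at level `N`. -/
theorem forall_aux_of_node (M N p : ℕ) [NeZero M] [NeZero N] [Fact p.Prime] (h : M ∣ N)
    (hpN : ¬ p ∣ N) (A : ValuationSubring Qbar) (hA : A.LiesOverPrime p)
    (K : IntermediateField ℚ Qbar) (hK : IsGoodLevel A p K)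
    [IsDiscreteValuationRing ↥(baseRing A K)]
    [CharP (IsLocalRing.ResidueField ↥(baseRing A K)) p]
    (hA2N : ∀ x : ↥(gaussSubalgebra (Lvl K) N (baseRing A K)),
      theta (Lvl K) N (baseRing A K) x ∈
        modularFunctionFieldFullC (IsLocalRing.ResidueField ↥(baseRing A K)) N)
    (S : Fermat.Agent.P3G.FibreTwo.SecondVal (Lvl K) N p (baseRing A K))
    (ϖ : ↥(baseRing A K)) (hϖ : Irreducible ϖ)
    {fK : FF (Lvl K) (M * p)} (hf0 : fK ≠ 0)
    (hf₁ : (gaussVS (Lvl K) (M * p) (baseRing A K)).valuation fK = 1) {e : ℕ}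
    (hdiv : ∀ Q : Place (Lvl K) (FF (Lvl K) (M * p)), (e : ℤ) ∣ Q.ord fK)
    (hratN : ∀ Q : Place (Lvl K) (FF (Lvl K) (N * p)), Q.ord (inclL (Lvl K) h p fK) ≠ 0 →
      Function.Bijective (algebraMap (Lvl K) Q.ResidueField))
    (hfN : inclL (Lvl K) h p fK ∈ gaussSubalgebra (Lvl K) (N * p) (baseRing A K))
    (hnode : ∀ s' : Place (IsLocalRing.ResidueField ↥(baseRing A K))
        (FF (IsLocalRing.ResidueField ↥(baseRing A K)) N),
      jF (IsLocalRing.ResidueField ↥(baseRing A K)) N ∈ s'.toValuationSubring →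
      F4Place.IsSSFin (Lvl K) N p (baseRing A K) (Fermat.Agent.P3G.GammaV2.lvlToComplex K) hpN
        hA2N S s' →
      (e : ℤ) ∣ s'.ord (redG (Lvl K) N p (baseRing A K) (Fermat.Agent.P3G.GammaV2.lvlToComplex K)
        hpN hA2N S ⟨inclL (Lvl K) h p fK, hfN⟩))
    (s' : Place (IsLocalRing.ResidueField ↥(baseRing A K))
      (FF (IsLocalRing.ResidueField ↥(baseRing A K)) N)) :
    (e : ℤ) ∣ s'.ord (redG (Lvl K) N p (baseRing A K) (Fermat.Agent.P3G.GammaV2.lvlToComplex K)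
      hpN hA2N S ⟨inclL (Lvl K) h p fK, hfN⟩) := by
  haveI : IsAlgClosed (IsLocalRing.ResidueField ↥(baseRing A K)) := hK.algClosed
  haveI : PerfectRing (IsLocalRing.ResidueField ↥(baseRing A K)) p := inferInstance
  by_cases hs : jF (IsLocalRing.ResidueField ↥(baseRing A K)) N ∈ s'.toValuationSubring ∧
      F4Place.IsSSFin (Lvl K) N p (baseRing A K) (Fermat.Agent.P3G.GammaV2.lvlToComplex K) hpN
        hA2N S s'
  · exact hnode s' hs.1 hs.2
  · have hf0N : inclL (Lvl K) h p fK ≠ 0 := (_root_.map_ne_zero _).2 hf0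
    have hfN₁ : (gaussVS (Lvl K) (N * p) (baseRing A K)).valuation (inclL (Lvl K) h p fK) = 1 :=
      (valuation_gaussVS_inclF_eq_one_iff (Lvl K) (baseRing A K)
        (Nat.mul_dvd_mul_right h p)).2 hf₁
    have hdivN : ∀ Q : Place (Lvl K) (FF (Lvl K) (N * p)),
        (e : ℤ) ∣ Q.ord (inclL (Lvl K) h p fK) :=
      dvd_ord_inclF_of_charZero (Lvl K) (Nat.mul_dvd_mul_right h p) (e : ℤ) hdiv
    exact F4Good.f4_place_good N p hpN A hA K hK hA2N S ϖ hϖ hf0N hfN₁ hdivN hratN s' hs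

set_option maxHeartbeats 1600000 in
set_option synthInstance.maxHeartbeats 400000 in
/-- ★ **(n6′) from the nodes of the auxiliary level.**  At a good level `K`, `M ∣ N` prime to `p`,
`ψ(N) = ψ(M) · c`, `p` prime to `c`: if `f_K` is a unit of the Gauss valuation with `p ∣ div f_K`, the
zeros and poles of `inclL f_K` are `K`-rational, and `p ∣ ord_{s'} (redG_N (inclL f_K))` at the
SUPERSINGULAR places `s'` of the finite chart of level `N` ((R4) + (R5′) at the honest nodes), then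
`f_K` satisfies (n6′) `SSVanish` at level `M`. -/
theorem ssVanish_of_node (M N p : ℕ) [NeZero M] [NeZero N] [Fact p.Prime] (h : M ∣ N)
    (hpN : ¬ p ∣ N) (A : ValuationSubring Qbar) (hA : A.LiesOverPrime p)
    (K : IntermediateField ℚ Qbar) (hK : IsGoodLevel A p K)
    [IsDiscreteValuationRing ↥(baseRing A K)]
    [CharP (IsLocalRing.ResidueField ↥(baseRing A K)) p]
    (hA2N : ∀ x : ↥(gaussSubalgebra (Lvl K) N (baseRing A K)),
      theta (Lvl K) N (baseRing A K) x ∈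
        modularFunctionFieldFullC (IsLocalRing.ResidueField ↥(baseRing A K)) N)
    (S : Fermat.Agent.P3G.FibreTwo.SecondVal (Lvl K) N p (baseRing A K))
    (S₂ : Fermat.Agent.P3G.FibreTwo.SecondVal (Lvl K) M p (baseRing A K))
    (ϖ : ↥(baseRing A K))
    (c : ℕ) (hc : dedekindPsi N = dedekindPsi M * c) (hpc : Nat.Coprime p c)
    {fK : FF (Lvl K) (M * p)} (hf0 : fK ≠ 0)
    (hf₁ : (gaussVS (Lvl K) (M * p) (baseRing A K)).valuation fK = 1)
    (hdiv : ∀ Q : Place (Lvl K) (FF (Lvl K) (M * p)), (p : ℤ) ∣ Q.ord fK)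
    (hratN : ∀ Q : Place (Lvl K) (FF (Lvl K) (N * p)), Q.ord (inclL (Lvl K) h p fK) ≠ 0 →
      Function.Bijective (algebraMap (Lvl K) Q.ResidueField))
    (hfN : inclL (Lvl K) h p fK ∈ gaussSubalgebra (Lvl K) (N * p) (baseRing A K))
    (hnode : ∀ s' : Place (IsLocalRing.ResidueField ↥(baseRing A K))
        (FF (IsLocalRing.ResidueField ↥(baseRing A K)) N),
      jF (IsLocalRing.ResidueField ↥(baseRing A K)) N ∈ s'.toValuationSubring →
      F4Place.IsSSFin (Lvl K) N p (baseRing A K) (Fermat.Agent.P3G.GammaV2.lvlToComplex K) hpN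
        hA2N S s' →
      (p : ℤ) ∣ s'.ord (redG (Lvl K) N p (baseRing A K) (Fermat.Agent.P3G.GammaV2.lvlToComplex K)
        hpN hA2N S ⟨inclL (Lvl K) h p fK, hfN⟩)) :
    SSVanish M p A K S₂ ϖ fK := by
  by_cases hϖ : Irreducible ϖ
  · exact ssVanish_of_aux M N p h hpN A hA K hK hA2N S S₂ ϖ c hc hpc hf₁ hfN
      (forall_aux_of_node M N p h hpN A hA K hK hA2N S ϖ hϖ hf0 hf₁ hdiv hratN hfN hnode)
  · intro _ hϖ'
    exact absurd hϖ' hϖ

set_option maxHeartbeats 1600000 in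
set_option synthInstance.maxHeartbeats 400000 in
/-- ★ **(n6′) from the nodes of the auxiliary level `N_aux = lcm(4, M)`, `p ≥ 5`.** -/
theorem ssVanish_of_node_lcm_four (M p : ℕ) [NeZero M] [NeZero (Nat.lcm 4 M)] [Fact p.Prime]
    (hp5 : 5 ≤ p)
    (hpN : ¬ p ∣ Nat.lcm 4 M) (A : ValuationSubring Qbar) (hA : A.LiesOverPrime p)
    (K : IntermediateField ℚ Qbar) (hK : IsGoodLevel A p K)
    [IsDiscreteValuationRing ↥(baseRing A K)]
    [CharP (IsLocalRing.ResidueField ↥(baseRing A K)) p]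
    (hA2N : ∀ x : ↥(gaussSubalgebra (Lvl K) (Nat.lcm 4 M) (baseRing A K)),
      theta (Lvl K) (Nat.lcm 4 M) (baseRing A K) x ∈
        modularFunctionFieldFullC (IsLocalRing.ResidueField ↥(baseRing A K)) (Nat.lcm 4 M))
    (S : Fermat.Agent.P3G.FibreTwo.SecondVal (Lvl K) (Nat.lcm 4 M) p (baseRing A K))
    (S₂ : Fermat.Agent.P3G.FibreTwo.SecondVal (Lvl K) M p (baseRing A K))
    (ϖ : ↥(baseRing A K))
    {fK : FF (Lvl K) (M * p)} (hf0 : fK ≠ 0)
    (hf₁ : (gaussVS (Lvl K) (M * p) (baseRing A K)).valuation fK = 1)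
    (hdiv : ∀ Q : Place (Lvl K) (FF (Lvl K) (M * p)), (p : ℤ) ∣ Q.ord fK)
    (hratN : ∀ Q : Place (Lvl K) (FF (Lvl K) (Nat.lcm 4 M * p)),
      Q.ord (inclL (Lvl K) (Nat.dvd_lcm_right 4 M) p fK) ≠ 0 →
      Function.Bijective (algebraMap (Lvl K) Q.ResidueField))
    (hfN : inclL (Lvl K) (Nat.dvd_lcm_right 4 M) p fK ∈
      gaussSubalgebra (Lvl K) (Nat.lcm 4 M * p) (baseRing A K))
    (hnode : ∀ s' : Place (IsLocalRing.ResidueField ↥(baseRing A K))
        (FF (IsLocalRing.ResidueField ↥(baseRing A K)) (Nat.lcm 4 M)),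
      jF (IsLocalRing.ResidueField ↥(baseRing A K)) (Nat.lcm 4 M) ∈ s'.toValuationSubring →
      F4Place.IsSSFin (Lvl K) (Nat.lcm 4 M) p (baseRing A K)
        (Fermat.Agent.P3G.GammaV2.lvlToComplex K) hpN hA2N S s' →
      (p : ℤ) ∣ s'.ord (redG (Lvl K) (Nat.lcm 4 M) p (baseRing A K)
        (Fermat.Agent.P3G.GammaV2.lvlToComplex K) hpN hA2N S
        ⟨inclL (Lvl K) (Nat.dvd_lcm_right 4 M) p fK, hfN⟩)) :
    SSVanish M p A K S₂ ϖ fK := by
  obtain ⟨c, hc6, hc⟩ := exists_dedekindPsi_lcm_four M (NeZero.ne M)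
  exact ssVanish_of_node M (Nat.lcm 4 M) p (Nat.dvd_lcm_right 4 M) hpN A hA K hK hA2N S S₂ ϖ c hc
    (coprime_of_dvd_six Fact.out hp5 hc6) hf0 hf₁ hdiv hratN hfN hnode

end Good

/-! ### Transport of the inputs of (F4) to the auxiliary level -/

section Transport

open Fermat.Agent.N4.Setting Fermat.Agent.N4.BaseDescent
  Fermat.Agent.N4F.E.DegreeLevelRaise
  Fermat.Agent.N4F.C Fermat.Agent.N4F.C.Levels
  Fermat.Agent.S19.Cech.LevelBasis Fermat.Agent.S40.M1.AuxLevel

local notation "Qbar" => AlgebraicClosure ℚ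

/-- The change of the modular level commutes with the change of the field of constants. -/
theorem ffMap_inclF {K K' : Type} [Field K] [Field K'] (f : K →+* K') {M N : ℕ} [NeZero M]
    [NeZero N] (h : M ∣ N) (x : FF K M) :
    ffMap f N (inclF K h x) = inclF K' h (ffMap f M x) := by
  apply Subtype.ext
  rw [coe_ffMap, coe_inclF, coe_inclF, coe_ffMap]

/-- The same for `inclL`. -/
theorem ffMap_inclL {K K' : Type} [Field K] [CharZero K] [Field K'] [CharZero K']
    (f : K →+* K') {M N : ℕ} [NeZero M]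
    [NeZero N] (h : M ∣ N) (ℓ : ℕ) [Fact ℓ.Prime] (x : FF K (M * ℓ)) :
    ffMap f (N * ℓ) (inclL K h ℓ x) = inclL K' h ℓ (ffMap f (M * ℓ) x) :=
  ffMap_inclF f _ x

/-- **The zeros and poles of a function are rational at every level above a number field.** -/
theorem exists_level_hrat (N : ℕ) [NeZero N] (g : ↥(modularFunctionFieldBar N)) (hg : g ≠ 0) :
    ∃ K₃ : IntermediateField ℚ Qbar, FiniteDimensional ℚ K₃ ∧
      ∀ K : IntermediateField ℚ Qbar, K₃ ≤ K → ∀ y : FF (Lvl K) N, levK N K y = g →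
        ∀ Q : Place (Lvl K) (FF (Lvl K) N), Q.ord y ≠ 0 →
          Function.Bijective (algebraMap (Lvl K) Q.ResidueField) := by
  classical
  haveI := Fermat.Agent.N4F.A.LevelMaps.hasPrincipalDivisors_bar N
  obtain ⟨D, hD, -⟩ := HasPrincipalDivisors.exists_divisor (K := Qbar) g hg
  obtain ⟨K₃, hfin, hK₃⟩ := exists_finiteDimensional_level N ∅ D.support
  refine ⟨K₃, hfin, fun K hK y hy => ?_⟩
  refine Fermat.Agent.P3G.Glue.LevelDict.bijective_of_ord_ne_zero N K y
    (fun P hP => (hK₃ K hK).2 P ?_)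
  rw [Finsupp.mem_support_iff, hD P, ← hy]
  exact hP

/-- **`hrat` at the auxiliary level**: for `f₀` over a level `L₀`, the zeros and poles of
`inclL (ffMap f₀)` (level `N p`) are rational at every level `K ⊇ L₀` above a number field `K₃`. -/
theorem exists_level_hrat_inclL {M N : ℕ} [NeZero M] [NeZero N] (h : M ∣ N) (p : ℕ)
    [Fact p.Prime] {L₀ : IntermediateField ℚ Qbar} {f₀ : FF (Lvl L₀) (M * p)} (hf₀ : f₀ ≠ 0) :
    ∃ K₃ : IntermediateField ℚ Qbar, FiniteDimensional ℚ K₃ ∧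
      ∀ (K : IntermediateField ℚ Qbar) (hLK : L₀ ≤ K), K₃ ≤ K →
        ∀ Q : Place (Lvl K) (FF (Lvl K) (N * p)),
          Q.ord (inclL (Lvl K) h p (ffMap (lvlIncl hLK) (M * p) f₀)) ≠ 0 →
            Function.Bijective (algebraMap (Lvl K) Q.ResidueField) := by
  have hg : levK (N * p) L₀ (inclL (Lvl L₀) h p f₀) ≠ 0 :=
    (_root_.map_ne_zero _).2 ((_root_.map_ne_zero _).2 hf₀)
  obtain ⟨K₃, hfin, hK₃⟩ := exists_level_hrat (N * p) _ hg
  refine ⟨K₃, hfin, fun K hLK hK => hK₃ K hK _ ?_⟩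
  rw [← ffMap_inclL (lvlIncl hLK) h p f₀, levK_ffMap]

end Transport

end Fermat.Agent.S40.M1.AuxSS
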