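/-
S44/S40 (`moonshots` row 67, leaf (T6-ASM) part B; helper23; dispatch #3222 (2)): **THE NAMED LEAF `Main.SSLeaf`
FROM THE AUXILIARY LEVEL.**

`Main.SSLeaf M p hpM A L₀ V` asks for (n6′) — `p ∣ ord_s (red f_K)` at the supersingular places `s` of the
special fibre of level `M` — for the image `f_K = ffMap f₀` at every big good level `K` of a representative
`f₀` over the small level `L₀` with exact level norms over `L₀`.  The node identity (R4) needs an honest
node (thickness `1`), i.e. a level `N` with `4 ∣ N`; so one passes to `N = lcm(4, M)` with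
`g₀ := inclL f₀ ∈ FF (Lvl L₀) (N p)`:

* `AllDvd N p hpN A K S g` : `p ∣ ord_{s'} (red g)` at EVERY place `s'` of `FF κ N`;
* `allDvd_of_ssDvd` : (n6′) at level `N` ⇒ `AllDvd` (off the supersingular places it is (F4),
  helper26's `F4Good.f4_place_good`);
* `AuxDescent M N p hpM hpN h A` — NAMED (S-a), helper6: `AllDvd` for `inclL f_K` at level `N` ⇒ `Main.SSDvd` for
  `f_K` at level `M` (norm argument, `p ∤ [FF κ N : FF κ M]`);
* `AuxLeaf N p hpN A L₀` — NAMED (S-b) = (R4) ∘ (R5′) at the auxiliary level, helper20 (+ helper5 `r4_node`,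
  helper19 `dvd_of_r4`): for `g₀` over `L₀` with exact level norms over `L₀`, at every big good level `K`
  where `ffMap g₀` has `p ∣ div` and is normalised (`M4NormF` at level `N`): (n6′) at level `N`;
* ★ `ssLeaf_of_auxLeaf` : `AuxDescent → AuxLeaf → Main.SSLeaf` (`inclL ∘ ffMap = ffMap ∘ inclL`; `M4NormF` goes
  up to level `N` by helper6's `AuxVal.isBiUnit_inclL_iff`, `AuxLevel.normAlphaK_inclL`; the zeros and
  poles of `g₀` are put into `K₂`).
-/
import Mathlib
import Fermat.Agent.S40.M1.Main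
import Fermat.Agent.S40.M1.AuxVal
import Fermat.Agent.S40.M1.AuxOrd

set_option autoImplicit false
set_option linter.unusedSectionVars false
set_option linter.unusedVariables false
set_option linter.dupNamespace false
set_option linter.style.haveILetI false
set_option synthInstance.maxHeartbeats 400000
set_option maxHeartbeats 1600000

open ModularCurve AlgebraicCurve IntermediateField

noncomputable section

namespace Fermat.Agent.S40.M1.SS

open Fermat.Agent.S28.Gauss
open Fermat.Agent.N4.Setting Fermat.Agent.N4.BaseDescent Fermat.Agent.N4.BigDVR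
  Fermat.Agent.N4.Chart Fermat.Agent.N4.S18Glue Fermat.Agent.N4.FibreEmbedding
  Fermat.Agent.P3G.Assembly.LevelStep Fermat.Agent.P3G.Assembly.StepOfLevel
  Fermat.Agent.P3G.GammaDict Fermat.Agent.P3G.GeomStep
  Fermat.Agent.P3G.Gamma Fermat.Agent.P3G.GammaAut
  Fermat.Agent.N4F.C Fermat.Agent.N4F.C.Levels Fermat.Agent.N4F.C.Galois
  Fermat.Agent.N4F.E.GaussDVR Fermat.Agent.N4F.E.DegreeLevelRaise Fermat.Agent.N4F.C.ChartFibre
  Fermat.Agent.N4F.Res Fermat.Agent.N4F.A.LevelMaps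
  Fermat.Agent.P4.Push Fermat.Agent.P4.FrobLevelStep
  Fermat.Agent.S19.Cech.LevelBasis
  Fermat.Agent.S33.L.Contracts
  Fermat.Agent.S40.W.F4Level Fermat.Agent.S40.W.F4Place Fermat.Agent.S40.W.F4Good Fermat.Agent.S40.W
  Fermat.Agent.S40.M4.Final Fermat.Agent.S40.M4.LGLevel Fermat.Agent.S40.New.Pack
  Fermat.Agent.S40.M1.LevelUp Fermat.Agent.S40.M1.Main
  Fermat.Agent.S40.M1.AuxLevel Fermat.Agent.S40.M1.AuxVal Fermat.Agent.S40.M1.AuxOrd
  Fermat.Agent.P3G
open Fermat.Agent.S24.PlaceDeriv (ResidueTrivial)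

local notation "Qbar" => AlgebraicClosure ℚ
local notation "Γ" => (AlgebraicClosure ℚ ≃ₐ[ℚ] AlgebraicClosure ℚ)

/-! ### Divisibility at every place of the special fibre -/

section Defs

variable (N p : ℕ) [NeZero N] [Fact p.Prime] (hpN : ¬ p ∣ N) (A : ValuationSubring Qbar)
  (K : IntermediateField ℚ Qbar) [IsDiscreteValuationRing ↥(baseRing A K)]
  (S : Fermat.Agent.P3G.FibreTwo.SecondVal (Lvl K) N p (baseRing A K))

/-- `p ∣ ord_s (red_{V₁} g)` at EVERY place `s` of the special fibre `FF κ N` (same binder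
conventions as `Main.SSDvd`). -/
def AllDvd (g : FF (Lvl K) (N * p)) : Prop :=
  ∀ [CharP (IsLocalRing.ResidueField ↥(baseRing A K)) p]
    [PerfectRing (IsLocalRing.ResidueField ↥(baseRing A K)) p]
    (hA2 : ∀ x : ↥(gaussSubalgebra (Lvl K) N (baseRing A K)),
      theta (Lvl K) N (baseRing A K) x ∈
        modularFunctionFieldFullC (IsLocalRing.ResidueField ↥(baseRing A K)) N)
    (hg₁ : (gaussVS (Lvl K) (N * p) (baseRing A K)).valuation g = 1)
    (s : Place (IsLocalRing.ResidueField ↥(baseRing A K))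
      (FF (IsLocalRing.ResidueField ↥(baseRing A K)) N)),
    (p : ℤ) ∣ s.ord (redG (Lvl K) N p (baseRing A K) (Fermat.Agent.P3G.GammaV2.lvlToComplex K) hpN
      hA2 S ⟨g, mem_gauss_of_valuation_eq_one (Lvl K) N p (baseRing A K) hg₁⟩)

variable {N p hpN A K S}

/-- **(n6′) ⇒ divisibility at every place**: off the supersingular places of the finite chart it is
(F4) (`F4Good.f4_place_good`). -/
theorem allDvd_of_ssDvd (hA : A.LiesOverPrime p) (hK : IsGoodLevel A p K)
    {g : FF (Lvl K) (N * p)} (hg0 : g ≠ 0)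
    (hdiv : ∀ Q : Place (Lvl K) (FF (Lvl K) (N * p)), (p : ℤ) ∣ Q.ord g)
    (hrat : ∀ Q : Place (Lvl K) (FF (Lvl K) (N * p)), Q.ord g ≠ 0 →
      Function.Bijective (algebraMap (Lvl K) Q.ResidueField))
    (hss : SSDvd N p hpN A K S g) : AllDvd N p hpN A K S g := by
  intro _ _ hA2 hg₁ s
  by_cases hs : jF (IsLocalRing.ResidueField ↥(baseRing A K)) N ∈ s.toValuationSubring ∧
      IsSSFin (Lvl K) N p (baseRing A K) (Fermat.Agent.P3G.GammaV2.lvlToComplex K) hpN hA2 S s
  · exact hss hA2 hg₁ s hs.1 hs.2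
  · obtain ⟨ϖ, hϖ⟩ := IsDiscreteValuationRing.exists_irreducible ↥(baseRing A K)
    exact f4_place_good N p hpN A hA K hK hA2 S ϖ hϖ hg0 hg₁ hdiv hrat s hs

end Defs

/-! ### The two named sub-leaves -/

section Leaves

variable (M N p : ℕ) [NeZero M] [NeZero N] [NeZero p] [Fact p.Prime] (hpM : ¬ p ∣ M) (hpN : ¬ p ∣ N)
  (h : M ∣ N) (A : ValuationSubring Qbar)

/-- **(S-a), named leaf (helper6)**: the descent of the order condition from the auxiliary level `N` to
the level `M ∣ N`. -/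
def AuxDescent : Prop :=
  ∀ (K : IntermediateField ℚ Qbar) (_ : IsGoodLevel A p K)
    [IsDiscreteValuationRing ↥(baseRing A K)]
    (S₂ : Fermat.Agent.P3G.FibreTwo.SecondVal (Lvl K) M p (baseRing A K))
    (S : Fermat.Agent.P3G.FibreTwo.SecondVal (Lvl K) N p (baseRing A K))
    (fK : FF (Lvl K) (M * p)),
    (gaussVS (Lvl K) (M * p) (baseRing A K)).valuation fK = 1 →
    AllDvd N p hpN A K S (inclL (Lvl K) h p fK) → SSDvd M p hpM A K S₂ fK

/-- **(S-b) = (R4) ∘ (R5′) at the auxiliary level, named leaf (helper20)**: a function `g₀` over the small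
level `L₀` with exact level norms over `L₀`: at every good level `K ⊇ L₀` above a number field `K₂`
(depending on `g₀`), if the image of `g₀` has `p ∣ div` and is normalised (`M4NormF` at level `N`)
then it satisfies (n6′) at level `N`. -/
def AuxLeaf (L₀ : IntermediateField ℚ Qbar) : Prop :=
  ∀ g₀ : FF (Lvl L₀) (N * p), g₀ ≠ 0 →
    (∃ a' : FF (Lvl L₀) N, normAlphaK L₀ N p g₀ = a' ^ p) →
    (∃ b' : FF (Lvl L₀) N, normBetaK L₀ N p g₀ = b' ^ p) →
    ∃ K₂ : IntermediateField ℚ Qbar, FiniteDimensional ℚ K₂ ∧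
      ∀ (K : IntermediateField ℚ Qbar) (_ : IsGoodLevel A p K)
        [IsDiscreteValuationRing ↥(baseRing A K)]
        (S : Fermat.Agent.P3G.FibreTwo.SecondVal (Lvl K) N p (baseRing A K))
        (hLK : L₀ ≤ K), K₂ ≤ K →
        (∀ Q : Place (Lvl K) (FF (Lvl K) (N * p)),
          (p : ℤ) ∣ Q.ord (ffMap (lvlIncl hLK) (N * p) g₀)) →
        M4NormF N p A K S (ffMap (lvlIncl hLK) (N * p) g₀) →
        SSDvd N p hpN A K S (ffMap (lvlIncl hLK) (N * p) g₀)

end Leaves

/-! ### The change of level commutes with the change of constants -/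

section Comm

variable {k k' : Type} [Field k] [Field k'] (φ : k →+* k') {M N : ℕ} [NeZero M] [NeZero N]
  (h : M ∣ N)

theorem inclF_ffMap (x : FF k M) : inclF k' h (ffMap φ M x) = ffMap φ N (inclF k h x) := by
  apply Subtype.ext
  rw [coe_inclF, coe_ffMap, coe_ffMap, coe_inclF]

end Comm

/-! ### The assembly -/

section Glue

variable {M N p : ℕ} [NeZero M] [NeZero N] [NeZero p] [Fact p.Prime] {A : ValuationSubring Qbar}

/-- ★ **`Main.SSLeaf` from the two named sub-leaves.** -/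
theorem ssLeaf_of_auxLeaf (hpM : ¬ p ∣ M) (hpN : ¬ p ∣ N) (h : M ∣ N) (hA : A.LiesOverPrime p)
    {L₀ : IntermediateField ℚ Qbar} {V : Submodule (ZMod p) (Jtors (M * p) p)}
    (hdesc : AuxDescent M N p hpM hpN h A) (haux : AuxLeaf N p hpN A L₀) :
    SSLeaf M p hpM A L₀ V := by
  classical
  intro x hx f₀ hrep hnα hnβ
  have hp : p.Prime := Fact.out
  -- the auxiliary function over `L₀`
  have hf₀ : f₀ ≠ 0 := by
    obtain ⟨D, -, hD⟩ := hrep
    intro h0
    apply hD.1
    rw [h0, map_zero]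
  have hg₀ : inclL (Lvl L₀) h p f₀ ≠ 0 :=
    (map_ne_zero_iff _ (inclL (Lvl L₀) h p).toRingHom.injective).mpr hf₀
  have hgα : ∃ a' : FF (Lvl L₀) N, normAlphaK L₀ N p (inclL (Lvl L₀) h p f₀) = a' ^ p := by
    obtain ⟨a', ha'⟩ := hnα
    exact ⟨inclF (Lvl L₀) h a', by rw [normAlphaK_inclL h p L₀ hpN, ha', map_pow]⟩
  have hgβ : ∃ b' : FF (Lvl L₀) N, normBetaK L₀ N p (inclL (Lvl L₀) h p f₀) = b' ^ p := by
    obtain ⟨b', hb'⟩ := hnβ
    exact ⟨inclF (Lvl L₀) h b', by rw [normBetaK_inclL h p L₀ hpN, hb', map_pow]⟩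
  obtain ⟨K₂, hK₂fin, hK₂⟩ := haux (inclL (Lvl L₀) h p f₀) hg₀ hgα hgβ
  -- the field of definition of the zeros and poles of the auxiliary function
  have hb : levK (N * p) L₀ (inclL (Lvl L₀) h p f₀) ≠ 0 :=
    (map_ne_zero_iff _ (levK (N * p) L₀).toRingHom.injective).mpr hg₀
  haveI := hasPrincipalDivisors_bar (N * p)
  obtain ⟨D, hD, -⟩ := HasPrincipalDivisors.exists_divisor (K := Qb)
    (levK (N * p) L₀ (inclL (Lvl L₀) h p f₀)) hb
  obtain ⟨K₃, hK₃fin, hK₃⟩ := exists_finiteDimensional_level (N * p) ∅ D.support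
  haveI := hK₂fin
  haveI := hK₃fin
  refine ⟨K₂ ⊔ K₃, IntermediateField.finiteDimensional_sup K₂ K₃,
    fun K hK _ S₂ hLK hle hrepK hN => ?_⟩
  have h2 : K₂ ≤ K := le_sup_left.trans hle
  have h3 : K₃ ≤ K := le_sup_right.trans hle
  -- instances at `K`
  haveI : IsAlgClosed (IsLocalRing.ResidueField ↥(baseRing A K)) := hK.algClosed
  haveI : CharP (IsLocalRing.ResidueField ↥(baseRing A K)) p := charP_good N p hpN A K hK
  -- a second valuation at the auxiliary level
  obtain ⟨S⟩ := Fermat.Agent.S33.L.PointsUniform.nonempty_secondVal_lvl N p hpN A hA K hK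
  -- the two functions at `K`
  have hcomm : inclL (Lvl K) h p (ffMap (lvlIncl hLK) (M * p) f₀) =
      ffMap (lvlIncl hLK) (N * p) (inclL (Lvl L₀) h p f₀) :=
    inclF_ffMap (lvlIncl hLK) (Nat.mul_dvd_mul_right h p) f₀
  obtain ⟨hfK0, hdivM⟩ := ne_zero_and_dvd_of_isRep hrepK
  have hgK0 : ffMap (lvlIncl hLK) (N * p) (inclL (Lvl L₀) h p f₀) ≠ 0 :=
    (map_ne_zero_iff _ (ffMap (lvlIncl hLK) (N * p)).injective).mpr hg₀
  have hdivN : ∀ Q : Place (Lvl K) (FF (Lvl K) (N * p)),
      (p : ℤ) ∣ Q.ord (ffMap (lvlIncl hLK) (N * p) (inclL (Lvl L₀) h p f₀)) := by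
    intro Q
    rw [← hcomm]
    exact dvd_ord_inclF_of_charZero (Lvl K) (Nat.mul_dvd_mul_right h p) (p : ℤ) hdivM Q
  -- the normalisation goes up to the auxiliary level
  obtain ⟨hz, hv₁, hv₂, hα, hβ, hrat⟩ := hN
  have hbi := (isBiUnit_inclL_iff (Lvl K) (baseRing A K) h p S S₂).2 ⟨hv₁, hv₂⟩
  rw [hcomm] at hbi
  have hratN : ∀ Q : Place (Lvl K) (FF (Lvl K) (N * p)),
      Q.ord (ffMap (lvlIncl hLK) (N * p) (inclL (Lvl L₀) h p f₀)) ≠ 0 →
        Function.Bijective (algebraMap (Lvl K) Q.ResidueField) := by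
    refine Fermat.Agent.P3G.Glue.LevelDict.bijective_of_ord_ne_zero (N * p) K _ (fun P hP => ?_)
    refine (hK₃ K h3).2 P ?_
    rw [levK_ffMap] at hP
    rw [Finsupp.mem_support_iff, hD P]
    exact hP
  have hNN : M4NormF N p A K S (ffMap (lvlIncl hLK) (N * p) (inclL (Lvl L₀) h p f₀)) := by
    refine ⟨hz, hbi.1, hbi.2, ?_, ?_, hratN⟩
    · obtain ⟨a', ha'⟩ := hα
      exact ⟨inclF (Lvl K) h a', by rw [← hcomm, normAlphaK_inclL h p K hpN, ha', map_pow]⟩
    · obtain ⟨b', hb'⟩ := hβ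
      exact ⟨inclF (Lvl K) h b', by rw [← hcomm, normBetaK_inclL h p K hpN, hb', map_pow]⟩
  -- (R4) ∘ (R5′) at the supersingular places, (F4) elsewhere
  have hss := hK₂ K hK S hLK h2 hdivN hNN
  have hall := allDvd_of_ssDvd hA hK hgK0 hdivN hratN hss
  rw [← hcomm] at hall
  -- descent to the level `M`
  exact @hdesc K hK _ S₂ S _ hv₁ hall

end Glue

end Fermat.Agent.S40.M1.SS
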