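/-
S44/S40 (`moonshots` row 67, AUX-SEAM; helper6): **the named leaf (S-a) `SS.AuxDescent` of helper23's
`S40/M1/SS.lean`**, i.e. the descent of the order condition from the auxiliary level `N` to the level
`M ∣ N`.

* `ssDvd_of_allDvd` : at a good level `K`, `M ∣ N` prime to `p`, `ψ(N) = ψ(M) · c`, `p` prime to
  `c`: `SS.AllDvd N p hpN A K S (inclL f_K) → Main.SSDvd M p hpM A K S₂ f_K`
  (`AuxOrd.dvd_ord_redG_of_forall_aux'`, level facts from `F4Good.levelFacts_good`);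
* ★ `auxDescent` : `SS.AuxDescent M N p hpM hpN h A`;
* ★ `auxDescent_lcm_four` : the instance `N = lcm(4, M)`, `p ≥ 5`;
* ★ `ssLeaf_of_auxLeaf_lcm_four` : `SS.AuxLeaf (lcm(4, M)) p hpN A L₀ → Main.SSLeaf M p hpM A L₀ V`
  (`SS.ssLeaf_of_auxLeaf` with (S-a) discharged).
-/
import Mathlib
import Fermat.Agent.S40.M1.SS
import Fermat.Agent.S40.M1.AuxSS

set_option autoImplicit false
set_option linter.unusedSectionVars false
set_option linter.unusedVariables false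
set_option linter.style.haveILetI false

open ModularCurve AlgebraicCurve

noncomputable section

namespace Fermat.Agent.S40.M1.AuxDescent

open Fermat.Agent.S28.Gauss
open Fermat.Agent.N4.Setting Fermat.Agent.N4.Chart Fermat.Agent.N4.S18Glue Fermat.Agent.N4.BigDVR
  Fermat.Agent.N4.FibreEmbedding
  Fermat.Agent.P3G.Assembly.StepOfLevel Fermat.Agent.P3G.Assembly.LevelStep
  Fermat.Agent.N4F.C Fermat.Agent.N4F.C.Levels Fermat.Agent.N4F.C.Galois
  Fermat.Agent.N4F.E.GaussDVR Fermat.Agent.S33.L.Contracts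
  Fermat.Agent.N4F.C.ChartFibre Fermat.Agent.S40.W.F4Level Fermat.Agent.P3G
  Fermat.Agent.S40.W
  Fermat.Agent.S40.M1.AuxLevel Fermat.Agent.S40.M1.AuxVal Fermat.Agent.S40.M1.AuxOrd
  Fermat.Agent.S40.M1.AuxSS

local notation "Qbar" => AlgebraicClosure ℚ

set_option maxHeartbeats 1600000 in
set_option synthInstance.maxHeartbeats 400000 in
/-- **The descent of the order condition in the vocabulary of `S40/M1/SS`**: `AllDvd` for
`inclL f_K` at the auxiliary level `N` gives (n6′) `SSDvd` for `f_K` at the level `M`. -/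
theorem ssDvd_of_allDvd (M N p : ℕ) [NeZero M] [NeZero N] [Fact p.Prime] (h : M ∣ N)
    (hpM : ¬ p ∣ M) (hpN : ¬ p ∣ N) (A : ValuationSubring Qbar) (hA : A.LiesOverPrime p)
    (K : IntermediateField ℚ Qbar) (hK : IsGoodLevel A p K)
    [IsDiscreteValuationRing ↥(baseRing A K)]
    (S₂ : Fermat.Agent.P3G.FibreTwo.SecondVal (Lvl K) M p (baseRing A K))
    (S : Fermat.Agent.P3G.FibreTwo.SecondVal (Lvl K) N p (baseRing A K))
    (c : ℕ) (hc : dedekindPsi N = dedekindPsi M * c) (hpc : Nat.Coprime p c)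
    {fK : FF (Lvl K) (M * p)}
    (hall : Fermat.Agent.S40.M1.SS.AllDvd N p hpN A K S (inclL (Lvl K) h p fK)) :
    Fermat.Agent.S40.M1.Main.SSDvd M p hpM A K S₂ fK := by
  intro inst1 inst2 hA2M hf₁ s hj hs
  haveI : IsAlgClosed (IsLocalRing.ResidueField ↥(baseRing A K)) := hK.algClosed
  obtain ⟨hNu, hprimeN, -, -, -, hA2N⟩ := F4Good.levelFacts_good N p hpN A hA K hK
  obtain ⟨-, hprimeM, -, -, -, -⟩ := F4Good.levelFacts_good M p hpM A hA K hK
  haveI := Fermat.Agent.S40.W.Sep.finiteDimensional_ratFunc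
    (IsLocalRing.ResidueField ↥(baseRing A K)) N
  haveI := Fermat.Agent.S40.W.Sep.isSeparable_ratFunc
    (IsLocalRing.ResidueField ↥(baseRing A K)) N
  have hfN₁ : (gaussVS (Lvl K) (N * p) (baseRing A K)).valuation (inclL (Lvl K) h p fK) = 1 :=
    (valuation_gaussVS_inclF_eq_one_iff (Lvl K) (baseRing A K)
      (Nat.mul_dvd_mul_right h p)).2 hf₁
  exact dvd_ord_redG_of_forall_aux' (Lvl K) p (baseRing A K) h
    (Fermat.Agent.P3G.GammaV2.lvlToComplex K) hpN hpM hA2N hA2M S S₂ hNu hprimeN hprimeM p c hc hpc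
    (mem_gauss_of_valuation_eq_one (Lvl K) M p (baseRing A K) hf₁) (hall hA2N hfN₁) s

/-- ★ **(S-a)**: the named leaf `SS.AuxDescent`, for `ψ(N) = ψ(M) · c` with `p` prime to `c`. -/
theorem auxDescent (M N p : ℕ) [NeZero M] [NeZero N] [NeZero p] [Fact p.Prime] (hpM : ¬ p ∣ M)
    (hpN : ¬ p ∣ N) (h : M ∣ N) (A : ValuationSubring Qbar) (hA : A.LiesOverPrime p)
    (c : ℕ) (hc : dedekindPsi N = dedekindPsi M * c) (hpc : Nat.Coprime p c) :
    Fermat.Agent.S40.M1.SS.AuxDescent M N p hpM hpN h A :=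
  fun K hK _ S₂ S _ _ hall => ssDvd_of_allDvd M N p h hpM hpN A hA K hK S₂ S c hc hpc hall

/-- ★ **(S-a) at the auxiliary level `N = lcm(4, M)`, `p ≥ 5`.** -/
theorem auxDescent_lcm_four (M p : ℕ) [NeZero M] [NeZero (Nat.lcm 4 M)] [NeZero p] [Fact p.Prime]
    (hp5 : 5 ≤ p) (hpM : ¬ p ∣ M) (hpN : ¬ p ∣ Nat.lcm 4 M) (A : ValuationSubring Qbar)
    (hA : A.LiesOverPrime p) :
    Fermat.Agent.S40.M1.SS.AuxDescent M (Nat.lcm 4 M) p hpM hpN (Nat.dvd_lcm_right 4 M) A := by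
  obtain ⟨c, hc6, hc⟩ := exists_dedekindPsi_lcm_four M (NeZero.ne M)
  exact auxDescent M (Nat.lcm 4 M) p hpM hpN (Nat.dvd_lcm_right 4 M) A hA c hc
    (coprime_of_dvd_six Fact.out hp5 hc6)

/-- ★ **`Main.SSLeaf` at level `M` from (S-b) `SS.AuxLeaf` at the auxiliary level `lcm(4, M)`**
(`p ≥ 5`). -/
theorem ssLeaf_of_auxLeaf_lcm_four (M p : ℕ) [NeZero M] [NeZero (Nat.lcm 4 M)] [NeZero p]
    [Fact p.Prime] (hp5 : 5 ≤ p) (hpM : ¬ p ∣ M) (hpN : ¬ p ∣ Nat.lcm 4 M)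
    {A : ValuationSubring Qbar} (hA : A.LiesOverPrime p)
    {L₀ : IntermediateField ℚ Qbar} {V : Submodule (ZMod p) (Fermat.Agent.N4F.Res.Jtors (M * p) p)}
    (haux : Fermat.Agent.S40.M1.SS.AuxLeaf (Nat.lcm 4 M) p hpN A L₀) :
    Fermat.Agent.S40.M1.Main.SSLeaf M p hpM A L₀ V :=
  Fermat.Agent.S40.M1.SS.ssLeaf_of_auxLeaf hpM hpN (Nat.dvd_lcm_right 4 M) hA
    (auxDescent_lcm_four M p hp5 hpM hpN A hA) haux

end Fermat.Agent.S40.M1.AuxDescent
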