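/-
S44/S40 (`moonshots` row 67, leaf (T6-ASM), part A; helper23): **TRANSPORT OF A NORMALISED REPRESENTATIVE
FROM A SMALL LEVEL TO EVERY BIG GOOD LEVEL.**

The static route to T6′ produces, for a `p`-torsion class `x`, ONE function `f₀` at ONE small good level
`L₀` (e.g. `L₀ = bigLevel A E`, `E ⊇ ℚ(V, ζ_p)` a Galois-stable number field) with its vertical data
`S₀`:  `f₀` represents `x` (`Pack.IsRep`), has EXACT level norms (R3), and is a unit of `V₁ = gaussVS`
and of `V₂ = S₀.V` (NRM).  The contract `Pack.T6Out` wants, for a number field `K₁` fixed in advance, a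
representative at EVERY good level `K ⊇ K₁` with EVERY second valuation `S₂`.  This file does the
transport `f_K := ffMap (lvlIncl _) f₀`:

* `bigLevel_le_of_isGoodLevel` : every good level above `E` contains `bigLevel A E`;
* `isRep_ffMap` : `IsRep` is invariant under `ffMap`;
* `exists_pow_normAlphaK_ffMap`, `exists_pow_normBetaK_ffMap` : exact level norms go up;
* `m4NormF_ffMap` : (n1)–(n4) of `M4/Final.M4NormF` at `(K, S₂)` from the data at `(L₀, S₀)`
  (bi-unit by helper3's `M1/LevelComap` (T1), (T2));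
* ★ `exists_level_isRep_m4NormF` : `∃ K₁` a number field, `∀ K` good `⊇ K₁`, `∀ S₂` :
  `L₀ ≤ K`, `IsRep p x (levK (ffMap f₀))` and `M4NormF M p A K S₂ (ffMap f₀)`
  (`K₁ = E ⊔ ℚ(ζ_p) ⊔` the field of definition of the zeros and poles).
-/
import Mathlib
import Fermat.Agent.S40.M4.Final
import Fermat.Agent.S40.M1.LevelComap

set_option autoImplicit false
set_option linter.unusedSectionVars false
set_option linter.unusedVariables false
set_option linter.dupNamespace false
set_option linter.style.haveILetI false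
set_option synthInstance.maxHeartbeats 400000
set_option maxHeartbeats 800000

open ModularCurve AlgebraicCurve IntermediateField

noncomputable section

namespace Fermat.Agent.S40.M1.LevelUp

open Fermat.Agent.N4.Setting Fermat.Agent.N4.BaseDescent Fermat.Agent.N4.BigDVR
  Fermat.Agent.P3G.Assembly.LevelStep
  Fermat.Agent.P3G.GammaDict Fermat.Agent.P3G.GeomStep
  Fermat.Agent.P3G.Gamma Fermat.Agent.P3G.GammaAut
  Fermat.Agent.N4F.C Fermat.Agent.N4F.C.Levels Fermat.Agent.N4F.C.Galois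
  Fermat.Agent.N4F.E.GaussDVR
  Fermat.Agent.N4F.Res
  Fermat.Agent.P4.FrobLevelStep
  Fermat.Agent.S19.Cech.LevelBasis
  Fermat.Agent.S33.L.Contracts
  Fermat.Agent.S40.M4.Final Fermat.Agent.S40.New.Pack
open Fermat.Agent.S24.PlaceDeriv (ResidueTrivial)

local notation "Qbar" => AlgebraicClosure ℚ
local notation "Γ" => (AlgebraicClosure ℚ ≃ₐ[ℚ] AlgebraicClosure ℚ)

/-! ### Good levels above a number field -/

/-- Every good level containing `E` contains `bigLevel A E`. -/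
theorem bigLevel_le_of_isGoodLevel {A : ValuationSubring Qbar} {q : ℕ}
    {E K : IntermediateField ℚ Qbar} (hK : IsGoodLevel A q K) (hE : E ≤ K) : bigLevel A E ≤ K := by
  rw [bigLevel_eq_adjoin, IntermediateField.adjoin_le_iff]
  rintro y (hy | hy)
  · exact hE hy
  · exact hK.roots y hy

/-! ### `IsRep` and the level norms -/

section Rep

variable {N : ℕ} [NeZero N] {L₀ K : IntermediateField ℚ Qbar} (hLK : L₀ ≤ K)

/-- `IsRep` does not see the level. -/
theorem isRep_ffMap {p : ℕ} {x : JZero N} {f₀ : FF (Lvl L₀) N}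
    (h : IsRep p x (levK N L₀ f₀)) : IsRep p x (levK N K (ffMap (lvlIncl hLK) N f₀)) := by
  rw [levK_ffMap]
  exact h

end Rep

section Norms

variable {M q : ℕ} [NeZero M] [NeZero q] {L₀ K : IntermediateField ℚ Qbar} (hLK : L₀ ≤ K)

/-- An exact norm equation along `α` at the level `L₀` holds at every level `K ⊇ L₀`. -/
theorem exists_pow_normAlphaK_ffMap (hq : q.Prime) (hqM : ¬ q ∣ M) {e : ℕ}
    {f₀ : FF (Lvl L₀) (M * q)} (h : ∃ a' : FF (Lvl L₀) M, normAlphaK L₀ M q f₀ = a' ^ e) :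
    ∃ a' : FF (Lvl K) M, normAlphaK K M q (ffMap (lvlIncl hLK) (M * q) f₀) = a' ^ e := by
  obtain ⟨a', ha'⟩ := h
  refine ⟨ffMap (lvlIncl hLK) M a', ?_⟩
  have h1 := normAlphaK_eq_of_lev K M q hq hqM (fK := ffMap (lvlIncl hLK) (M * q) f₀)
    (hAK := ffMap (lvlIncl hLK) M a') (cAK := 1) (e := e) (by
      rw [map_one, map_one, one_mul, levK_ffMap, levK_ffMap, ← levK_normAlphaK L₀ M q hq hqM,
        ha', map_pow])
  rwa [map_one, one_mul] at h1

/-- An exact norm equation along `β` at the level `L₀` holds at every level `K ⊇ L₀`. -/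
theorem exists_pow_normBetaK_ffMap (hq : q.Prime) (hqM : ¬ q ∣ M) {e : ℕ}
    {f₀ : FF (Lvl L₀) (M * q)} (h : ∃ b' : FF (Lvl L₀) M, normBetaK L₀ M q f₀ = b' ^ e) :
    ∃ b' : FF (Lvl K) M, normBetaK K M q (ffMap (lvlIncl hLK) (M * q) f₀) = b' ^ e := by
  obtain ⟨b', hb'⟩ := h
  refine ⟨ffMap (lvlIncl hLK) M b', ?_⟩
  have h1 := normBetaK_eq_of_lev K M q hq hqM (fK := ffMap (lvlIncl hLK) (M * q) f₀)
    (hBK := ffMap (lvlIncl hLK) M b') (cBK := 1) (e := e) (by
      rw [map_one, map_one, one_mul, levK_ffMap, levK_ffMap, ← levK_normBetaK L₀ M q hq hqM,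
        hb', map_pow])
  rwa [map_one, one_mul] at h1

end Norms

/-! ### The normalisation goes up -/

section Up

variable {M p : ℕ} [NeZero M] [NeZero p] [Fact p.Prime] {A : ValuationSubring Qbar}

/-- **(n1)–(n4) at `(K, S₂)` from the data at `(L₀, S₀)`.** -/
theorem m4NormF_ffMap (hpM : ¬ p ∣ M) {L₀ K : IntermediateField ℚ Qbar} (hLK : L₀ ≤ K)
    [IsDiscreteValuationRing ↥(baseRing A L₀)] [IsDiscreteValuationRing ↥(baseRing A K)]
    [CharP (IsLocalRing.ResidueField ↥(baseRing A L₀)) p]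
    [CharP (IsLocalRing.ResidueField ↥(baseRing A K)) p]
    (S₀ : Fermat.Agent.P3G.FibreTwo.SecondVal (Lvl L₀) M p (baseRing A L₀))
    (S₂ : Fermat.Agent.P3G.FibreTwo.SecondVal (Lvl K) M p (baseRing A K))
    {f₀ : FF (Lvl L₀) (M * p)}
    (hz : ∃ z : ↥(baseRing A K), IsPrimitiveRoot z p)
    (hv₁ : (gaussVS (Lvl L₀) (M * p) (baseRing A L₀)).valuation f₀ = 1)
    (hv₂ : S₀.V.valuation f₀ = 1)
    (hnα : ∃ a' : FF (Lvl L₀) M, normAlphaK L₀ M p f₀ = a' ^ p)
    (hnβ : ∃ b' : FF (Lvl L₀) M, normBetaK L₀ M p f₀ = b' ^ p)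
    (hrat : ∀ Q : Place (Lvl K) (FF (Lvl K) (M * p)),
      Q.ord (ffMap (lvlIncl hLK) (M * p) f₀) ≠ 0 →
        Function.Bijective (algebraMap (Lvl K) Q.ResidueField)) :
    M4NormF M p A K S₂ (ffMap (lvlIncl hLK) (M * p) f₀) := by
  have hp : p.Prime := Fact.out
  refine ⟨hz, ?_, ?_, exists_pow_normAlphaK_ffMap hLK hp hpM hnα,
    exists_pow_normBetaK_ffMap hLK hp hpM hnβ, hrat⟩
  · exact (Fermat.Agent.S40.M1.LevelComap.valuation_gaussVS_ffMap_eq_one_iff hLK A (M * p)).2 hv₁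
  · exact (Fermat.Agent.S40.M1.LevelComap.valuation_secondVal_ffMap_eq_one_iff hLK A M p S₂ S₀).2
      hv₂

/-- ★ **T6-ASM, part A.**  A representative `f₀` of `x` at a small good level `L₀` (contained in every
good level above the number field `E`), with exact level norms and a unit of both vertical
valuations at `(L₀, S₀)`: there is a number field `K₁ ⊇ E` such that at EVERY good level `K ⊇ K₁`, for
EVERY second valuation `S₂`, the image of `f₀` represents `x` and satisfies `M4NormF`. -/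
theorem exists_level_isRep_m4NormF (hpM : ¬ p ∣ M) (hA : A.LiesOverPrime p)
    (E : IntermediateField ℚ Qbar) [FiniteDimensional ℚ E]
    {L₀ : IntermediateField ℚ Qbar} (hL₀ : IsGoodLevel A p L₀)
    (hEL : ∀ K : IntermediateField ℚ Qbar, IsGoodLevel A p K → E ≤ K → L₀ ≤ K)
    [IsDiscreteValuationRing ↥(baseRing A L₀)]
    (S₀ : Fermat.Agent.P3G.FibreTwo.SecondVal (Lvl L₀) M p (baseRing A L₀))
    (x : JZero (M * p)) {f₀ : FF (Lvl L₀) (M * p)}
    (hrep : IsRep p x (levK (M * p) L₀ f₀))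
    (hv₁ : (gaussVS (Lvl L₀) (M * p) (baseRing A L₀)).valuation f₀ = 1)
    (hv₂ : S₀.V.valuation f₀ = 1)
    (hnα : ∃ a' : FF (Lvl L₀) M, normAlphaK L₀ M p f₀ = a' ^ p)
    (hnβ : ∃ b' : FF (Lvl L₀) M, normBetaK L₀ M p f₀ = b' ^ p) :
    ∃ K₁ : IntermediateField ℚ Qbar, FiniteDimensional ℚ K₁ ∧ E ≤ K₁ ∧
      ∀ (K : IntermediateField ℚ Qbar) (hK : IsGoodLevel A p K)
        [IsDiscreteValuationRing ↥(baseRing A K)]
        (S₂ : Fermat.Agent.P3G.FibreTwo.SecondVal (Lvl K) M p (baseRing A K)), K₁ ≤ K →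
        ∃ hLK : L₀ ≤ K,
          IsRep p x (levK (M * p) K (ffMap (lvlIncl hLK) (M * p) f₀)) ∧
          M4NormF M p A K S₂ (ffMap (lvlIncl hLK) (M * p) f₀) := by
  classical
  have hp : p.Prime := Fact.out
  -- a primitive `p`-th root of unity
  haveI : NeZero ((p : ℕ) : Qbar) := ⟨Nat.cast_ne_zero.mpr hp.ne_zero⟩
  obtain ⟨ζ, hζ⟩ := HasEnoughRootsOfUnity.exists_primitiveRoot Qbar p
  have hζint : IsIntegral ℚ ζ := (hζ.isIntegral hp.pos).tower_top
  haveI : FiniteDimensional ℚ ↥(IntermediateField.adjoin ℚ {ζ}) :=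
    IntermediateField.adjoin.finiteDimensional hζint
  -- the field of definition of the zeros and poles
  obtain ⟨D, hD, hf⟩ := hrep
  obtain ⟨K₃, hK₃fin, hK₃⟩ :=
    exists_finiteDimensional_level (M * p) ∅ (D : Divisor Qb (Fb (M * p))).support
  haveI := hK₃fin
  haveI : FiniteDimensional ℚ ↥(E ⊔ IntermediateField.adjoin ℚ {ζ}) :=
    IntermediateField.finiteDimensional_sup E _
  refine ⟨E ⊔ IntermediateField.adjoin ℚ {ζ} ⊔ K₃, IntermediateField.finiteDimensional_sup _ K₃,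
    le_sup_left.trans le_sup_left, fun K hK _ S₂ hle => ?_⟩
  have hEK : E ≤ K := (le_sup_left.trans le_sup_left).trans hle
  have hζK : ζ ∈ K := ((le_sup_right.trans le_sup_left).trans hle)
    (IntermediateField.mem_adjoin_simple_self ℚ ζ)
  have h3 : K₃ ≤ K := le_sup_right.trans hle
  have hLK : L₀ ≤ K := hEL K hK hEK
  refine ⟨hLK, isRep_ffMap hLK ⟨D, hD, hf⟩, ?_⟩
  -- residue characteristics
  haveI : IsAlgClosed (IsLocalRing.ResidueField ↥(baseRing A K)) := hK.algClosed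
  have hGB : GoodBase (Lvl K) M (baseRing A K) p := ⟨hp, hpM, inferInstance, hK.not_unit⟩
  haveI : CharP (IsLocalRing.ResidueField ↥(baseRing A K)) p :=
    Fermat.Agent.N4F.E.GaussResidue.charP_residueField (Lvl K) M (baseRing A K) hGB
  haveI : IsAlgClosed (IsLocalRing.ResidueField ↥(baseRing A L₀)) := hL₀.algClosed
  have hGB₀ : GoodBase (Lvl L₀) M (baseRing A L₀) p := ⟨hp, hpM, inferInstance, hL₀.not_unit⟩
  haveI : CharP (IsLocalRing.ResidueField ↥(baseRing A L₀)) p :=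
    Fermat.Agent.N4F.E.GaussResidue.charP_residueField (Lvl L₀) M (baseRing A L₀) hGB₀
  obtain ⟨z, hz, -⟩ :=
    Fermat.Agent.S33.L.CycloLevelInst.exists_primitiveRoot_baseRing A K hp.pos hζ hζK
  refine m4NormF_ffMap hpM hLK S₀ S₂ ⟨z, hz⟩ hv₁ hv₂ hnα hnβ ?_
  refine Fermat.Agent.P3G.Glue.LevelDict.bijective_of_ord_ne_zero (M * p) K _ (fun P hP => ?_)
  refine (hK₃ K h3).2 P ?_
  rw [levK_ffMap] at hP
  rw [Finsupp.mem_support_iff]
  intro h0
  apply hP
  rw [← hf.2 P, Finsupp.smul_apply, h0, smul_zero]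

/-- The same with `L₀ = bigLevel A E`. -/
theorem exists_level_isRep_m4NormF_bigLevel (hpM : ¬ p ∣ M) (hA : A.LiesOverPrime p)
    (E : IntermediateField ℚ Qbar) [FiniteDimensional ℚ E]
    (hL₀ : IsGoodLevel A p (bigLevel A E))
    [IsDiscreteValuationRing ↥(baseRing A (bigLevel A E))]
    (S₀ : Fermat.Agent.P3G.FibreTwo.SecondVal (Lvl (bigLevel A E)) M p
      (baseRing A (bigLevel A E)))
    (x : JZero (M * p)) {f₀ : FF (Lvl (bigLevel A E)) (M * p)}
    (hrep : IsRep p x (levK (M * p) (bigLevel A E) f₀))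
    (hv₁ : (gaussVS (Lvl (bigLevel A E)) (M * p) (baseRing A (bigLevel A E))).valuation f₀ = 1)
    (hv₂ : S₀.V.valuation f₀ = 1)
    (hnα : ∃ a' : FF (Lvl (bigLevel A E)) M, normAlphaK (bigLevel A E) M p f₀ = a' ^ p)
    (hnβ : ∃ b' : FF (Lvl (bigLevel A E)) M, normBetaK (bigLevel A E) M p f₀ = b' ^ p) :
    ∃ K₁ : IntermediateField ℚ Qbar, FiniteDimensional ℚ K₁ ∧ E ≤ K₁ ∧
      ∀ (K : IntermediateField ℚ Qbar) (hK : IsGoodLevel A p K)
        [IsDiscreteValuationRing ↥(baseRing A K)]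
        (S₂ : Fermat.Agent.P3G.FibreTwo.SecondVal (Lvl K) M p (baseRing A K)), K₁ ≤ K →
        ∃ hLK : bigLevel A E ≤ K,
          IsRep p x (levK (M * p) K (ffMap (lvlIncl hLK) (M * p) f₀)) ∧
          M4NormF M p A K S₂ (ffMap (lvlIncl hLK) (M * p) f₀) :=
  exists_level_isRep_m4NormF hpM hA E hL₀ (fun K hK hE => bigLevel_le_of_isGoodLevel hK hE) S₀ x
    hrep hv₁ hv₂ hnα hnβ

end Up

end Fermat.Agent.S40.M1.LevelUp
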