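/-
S44 (row 38), T6′ static route, leaf (R-desc) (helper29): **descent of the representative `(D, f)` of
a torsion class to a SMALL level.**

`x ∈ J_0(N)(Q̄)`, `p • x = 0`, `K ⊆ Q̄` ANY subfield (in the application the number field
`ℚ(V)(ζ_p)·(unramified)`) such that every automorphism of `Q̄` fixing `K` fixes `x`.  Then `x` has a
representative defined over `K`: there is `fK ∈ FF (Lvl K) N` with `div (lev fK) = p D`, `[D] = x`
(`X_0(N)` has the `ℚ`-rational cusp `∞`, so the Brauer obstruction vanishes).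

Proof (all ingredients are helper19's S36 block): `σ x = x` gives `σ f = c κ_σ^p f`;
`S36/Descent/InvariantModel.exists_invariant_mul_pow` (cocycle normalised by the leading
`q`-coefficient at `∞` + Hilbert 90) gives `f₁ = c₁ f b^p` invariant under `Gal(Q̄/K)`; its
coefficients are fixed, hence in `K`, and `S36/Descent/Rational.mem_range_levK_of_coeff_mem` puts
`f₁` in the range of `levK N K`.

* `exists_isRep_level` : the statement above;
* `exists_isRep_level_norms` : for `x` in the `q`-new part of `J_0(M q)`, in addition both norms of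
  `fK` to level `M` are constants of `K` times `p`-th powers in `FF (Lvl K) M`
  (the input of the `Θ`-invariant (R3));
* `exists_isRep_level_of_copyOfE`, `exists_isRep_level_norms_of_copyOfE` : the same for the elements of
  a copy `V` of `W[p]` (`Top/CopyOfE`) and any `K` over which the points of `W[p]` are rational.
-/
import Mathlib
import Fermat.Agent.S36.Descent.Main
import Fermat.Agent.S36.Descent.NormCompatQ
import Fermat.Agent.S40.New.Pack
import Fermat.Agent.S40.Top.CopyOfE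

set_option autoImplicit false
set_option linter.unusedSectionVars false
set_option linter.unusedVariables false
set_option linter.style.haveILetI false

open ModularCurve AlgebraicCurve
open Fermat.Agent.N4.Setting Fermat.Agent.N4F.C Fermat.Agent.N4F.C.Levels
  Fermat.Agent.N4F.C.Galois Fermat.Agent.N4F.A.LevelMaps
open Fermat.Agent.P3G.Gamma Fermat.Agent.P3G.GammaDict
open Fermat.Agent.P4.Push Fermat.Agent.P4.FrobLevelStep
open Fermat.Agent.S36.Descent.LeadCoeff Fermat.Agent.S36.Descent.Rational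
  Fermat.Agent.S36.Descent.InvariantModel

noncomputable section

namespace Fermat.Agent.S40.M1.DescentSmall

local notation "Qbar" => AlgebraicClosure ℚ
local notation "Γ" => (AlgebraicClosure ℚ ≃ₐ[ℚ] AlgebraicClosure ℚ)

open Fermat.Agent.S40.New.Pack (IsRep)

/-! ### Invariant functions are defined over the fixed field -/

section Fixed

variable {N : ℕ} [NeZero N] (K : IntermediateField ℚ Qbar)

/-- An element of `Q̄` fixed by `Gal(Q̄/K)` lies in `K`. -/
theorem mem_of_fixingSubgroup_fixed {c : Qbar} (hc : ∀ σ ∈ K.fixingSubgroup, σ c = c) : c ∈ K := by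
  refine (Lvl.mem_range_iff K).mp (hasFixedField_lvl K c fun σ hσ => hc σ ?_)
  rw [IntermediateField.mem_fixingSubgroup_iff]
  intro x hx
  obtain ⟨a, rfl⟩ := (Lvl.mem_range_iff K).mpr hx
  exact hσ a

/-- Functions of level `K` are fixed by `Gal(Q̄/K)`. -/
theorem gal_smul_levK_of_mem {σ : Γ} (hσ : σ ∈ K.fixingSubgroup) (y : FF (Lvl K) N) :
    gal N σ • levK N K y = levK N K y :=
  arithmeticGalois_smul_lev N (Lvl K) σ
    (fun a => (IntermediateField.mem_fixingSubgroup_iff K σ).mp hσ _ (Lvl.algebraMap_mem K a)) y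

/-- A `Gal(Q̄/K)`-invariant function is defined over `K`. -/
theorem mem_range_levK_of_invariant {t : Fb N}
    (ht : ∀ σ ∈ K.fixingSubgroup, gal N σ • t = t) : t ∈ Set.range (levK N K) :=
  mem_range_levK_of_coeff_mem N K t fun n =>
    mem_of_fixingSubgroup_fixed K fun σ hσ => coeff_fixed_of_smul_eq (ht σ hσ) n

end Fixed

/-! ### The invariant representative over `Q̄` -/

section Bar

variable {N : ℕ} [NeZero N]

/-- **An `H`-invariant representative**: a `p`-torsion class fixed by a subgroup `H ≤ Gal(Q̄/ℚ)` is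
`[D]` with `p D = div f`, `f` fixed by `H`. -/
theorem exists_invariant_isDivOf (H : Subgroup Γ) {p : ℕ} (hp : p ≠ 0) (x : JZero N)
    (hx : p • x = 0) (hfix : ∀ σ ∈ H, σ • x = x) :
    ∃ (D : Divisor.degZero (K := Qb) (F := Fb N)) (f : Fb N),
      Pic0.mk D = x ∧ IsDivOf f (p • (D : Divisor Qb (Fb N))) ∧ ∀ σ ∈ H, gal N σ • f = f := by
  classical
  obtain ⟨D, f₀, rfl, hf₀⟩ := exists_isDivOf_of_torsion N x p hx
  -- `σ f₀ / f₀` is a constant times a `p`-th power for `σ ∈ H`
  have hH : ∀ σ ∈ H, ∃ (c : Qb) (κ : Fb N),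
      gal N σ • f₀ = algebraMap Qb (Fb N) c * κ ^ p * f₀ := by
    intro σ hσ
    have h1 : gal N σ • (Pic0.mk D : JZero N) - Pic0.mk D = 0 := by
      rw [← galois_smul_eq, hfix σ hσ, sub_self]
    rw [smul_mk_sub_mk, mk_eq_zero_iff] at h1
    obtain ⟨g, hg⟩ := h1
    obtain ⟨c, -, hcg⟩ := Fermat.Agent.P3G.GeomStep.IsDivOf.eq_const_mul N
      (hf₀.diff (gal N σ)) (hg.pow p)
    refine ⟨c, g, ?_⟩
    rw [diffFn_def] at hcg
    exact (div_eq_iff hf₀.1).mp hcg
  -- Hilbert 90
  obtain ⟨c₁, b, hc₁, hb, hinv⟩ := exists_invariant_mul_pow H hp hf₀.1 hH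
  -- the divisor of `b`
  haveI := hasPrincipalDivisors_bar N
  obtain ⟨E, hE, hE0⟩ := HasPrincipalDivisors.exists_divisor (K := Qb) b hb
  have hbE : IsDivOf b E := ⟨hb, hE⟩
  set E₀ : Divisor.degZero (K := Qb) (F := Fb N) := ⟨E, hE0⟩ with hE₀def
  have hE₀mk : (Pic0.mk E₀ : JZero N) = 0 := (mk_eq_zero_iff E₀).mpr ⟨b, hbE⟩
  refine ⟨D + E₀, algebraMap Qb (Fb N) c₁ * f₀ * b ^ p, ?_, ?_, hinv⟩
  · rw [Pic0.mk_add, hE₀mk, add_zero]
  · have h1 := (hf₀.const_mul hc₁).mul (hbE.pow p)
    have h2 : (p • ((D + E₀ : Divisor.degZero (K := Qb) (F := Fb N)) : Divisor Qb (Fb N))) =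
        p • (D : Divisor Qb (Fb N)) + p • E := by
      rw [AddSubgroup.coe_add, smul_add]
    rw [h2]
    exact h1

end Bar

/-! ### Representatives at a small level -/

section Level

variable {N : ℕ} [NeZero N]

/-- ★ **(R-desc)**: a `p`-torsion class of `J_0(N)(Q̄)` fixed by `Gal(Q̄/K)` has a representative
defined over `K`. -/
theorem exists_isRep_level {p : ℕ} (hp : p ≠ 0) (K : IntermediateField ℚ Qbar) (x : JZero N)
    (hx : p • x = 0) (hfix : ∀ σ ∈ K.fixingSubgroup, σ • x = x) :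
    ∃ fK : FF (Lvl K) N, IsRep p x (levK N K fK) := by
  obtain ⟨D, f, hD, hf, hinv⟩ := exists_invariant_isDivOf K.fixingSubgroup hp x hx hfix
  obtain ⟨fK, hfK⟩ := mem_range_levK_of_invariant K hinv
  exact ⟨fK, D, hD, by rw [hfK]; exact hf⟩

end Level

section New

variable {M q : ℕ} [NeZero M] [NeZero q]

/-- ★ **(R-desc), new part**: for a `p`-torsion class `x` of the `q`-new part of `J_0(M q)(Q̄)` fixed
by `Gal(Q̄/K)`: a representative `fK` defined over `K` whose two norms to level `M` are constants of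
`K` times `p`-th powers of functions of level `M` defined over `K`. -/
theorem exists_isRep_level_norms {p : ℕ} (hp : p ≠ 0) (K : IntermediateField ℚ Qbar)
    (x : JZero (M * q)) (hnew : x ∈ newPart M q) (hx : p • x = 0)
    (hfix : ∀ σ ∈ K.fixingSubgroup, σ • x = x) :
    ∃ (fK : FF (Lvl K) (M * q)) (cA cB : Lvl K) (hA hB : FF (Lvl K) M),
      IsRep p x (levK (M * q) K fK) ∧ cA ≠ 0 ∧ cB ≠ 0 ∧ hA ≠ 0 ∧ hB ≠ 0 ∧
      normAlphaK K M q fK = algebraMap (Lvl K) (FF (Lvl K) M) cA * hA ^ p ∧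
      normBetaK K M q fK = algebraMap (Lvl K) (FF (Lvl K) M) cB * hB ^ p := by
  classical
  obtain ⟨D, f, hD, hf, hinv⟩ := exists_invariant_isDivOf K.fixingSubgroup hp x hx hfix
  subst hD
  -- the two norms over `Q̄`
  obtain ⟨cA', uA, -, -, hnA⟩ := exists_normAlpha_eq hf (mem_newPart_iff.mp hnew).1
  obtain ⟨cB', uB, -, -, hnB⟩ := exists_normBeta_eq hf (mem_newPart_iff.mp hnew).2
  have hNA0 : normAlpha M q f ≠ 0 := (IsDivOf.pushAlpha hf).1
  have hNB0 : normBeta M q f ≠ 0 := (IsDivOf.pushBeta hf).1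
  obtain ⟨hA', hA'0, hA'eq, hlcA, hA'inv⟩ := exists_invariant_root K.fixingSubgroup hp hNA0
    (fun σ hσ => by rw [← normAlpha_smul, hinv σ hσ]) ⟨cA', uA, hnA⟩
  obtain ⟨hB', hB'0, hB'eq, hlcB, hB'inv⟩ := exists_invariant_root K.fixingSubgroup hp hNB0
    (fun σ hσ => by rw [← normBeta_smul, hinv σ hσ]) ⟨cB', uB, hnB⟩
  -- everything is defined over `K`
  obtain ⟨fK, hfK⟩ := mem_range_levK_of_invariant K hinv
  obtain ⟨hAK, hhAK⟩ := mem_range_levK_of_invariant K hA'inv
  obtain ⟨hBK, hhBK⟩ := mem_range_levK_of_invariant K hB'inv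
  obtain ⟨cA, hcA⟩ := (Lvl.mem_range_iff K).mpr (mem_of_fixingSubgroup_fixed K hlcA)
  obtain ⟨cB, hcB⟩ := (Lvl.mem_range_iff K).mpr (mem_of_fixingSubgroup_fixed K hlcB)
  have hinjM : Function.Injective (levK M K) := (levK M K).toRingHom.injective
  refine ⟨fK, cA, cB, hAK, hBK, ⟨D, rfl, by rw [hfK]; exact hf⟩, ?_, ?_, ?_, ?_, ?_, ?_⟩
  · rintro rfl
    rw [map_zero] at hcA
    exact lc_ne_zero hNA0 hcA.symm
  · rintro rfl
    rw [map_zero] at hcB
    exact lc_ne_zero hNB0 hcB.symm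
  · rintro rfl
    rw [map_zero] at hhAK
    exact hA'0 hhAK.symm
  · rintro rfl
    rw [map_zero] at hhBK
    exact hB'0 hhBK.symm
  · apply hinjM
    rw [Fermat.Agent.S36.Descent.NormCompatQ.levK_normAlphaK_push, hfK, map_mul, map_pow, hhAK,
      AlgHom.commutes, IsScalarTower.algebraMap_apply (Lvl K) Qbar (Fb M), hcA]
    exact hA'eq
  · apply hinjM
    rw [Fermat.Agent.S36.Descent.NormCompatQ.levK_normBetaK_push, hfK, map_mul, map_pow, hhBK,
      AlgHom.commutes, IsScalarTower.algebraMap_apply (Lvl K) Qbar (Fb M), hcB]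
    exact hB'eq

end New

/-! ### The forms for a copy `V` of `W[p]` -/

section Copy

open Fermat.Agent.N4F.Res Fermat.Agent.S40.Top.CopyOfE
open Fermat.Agent.S58.Form.Hres (Tp)

variable {W : WeierstrassCurve ℤ} {p : ℕ} [Fact p.Prime]

/-- The elements of a copy `V` of `W[p]` are fixed by `Gal(Q̄/K)` as soon as `W[p]` is. -/
theorem smul_eq_of_copyOfE {L : ℕ} [NeZero L] {V : Submodule (ZMod p) (Jtors L p)}
    (hC : CopyOfE W p V) (K : IntermediateField ℚ Qbar)
    (hK : ∀ σ ∈ K.fixingSubgroup, ∀ e : Tp p W, σ • e = e) (x : Jtors L p) (hx : x ∈ V) :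
    ∀ σ ∈ K.fixingSubgroup, σ • (x : JZero L) = (x : JZero L) := by
  intro σ hσ
  have h1 := hC.fixes_of_fixes σ (hK σ hσ) x hx
  have h2 := congrArg (fun y : Jtors L p => (y : JZero L)) h1
  exact h2

theorem nsmul_coe_eq_zero {L : ℕ} [NeZero L] (x : Jtors L p) : p • (x : JZero L) = 0 :=
  (mem_Jtors_iff L p _).mp x.2

/-- ★ **(R-desc) for a copy `V` of `W[p]`**: every `x ∈ V` has a representative defined over any
field `K` over which the points of `W[p]` are rational. -/
theorem exists_isRep_level_of_copyOfE {L : ℕ} [NeZero L] {V : Submodule (ZMod p) (Jtors L p)}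
    (hC : CopyOfE W p V) (K : IntermediateField ℚ Qbar)
    (hK : ∀ σ ∈ K.fixingSubgroup, ∀ e : Tp p W, σ • e = e) (x : Jtors L p) (hx : x ∈ V) :
    ∃ fK : FF (Lvl K) L, IsRep p (x : JZero L) (levK L K fK) :=
  exists_isRep_level (Fact.out : p.Prime).ne_zero K _ (nsmul_coe_eq_zero x)
    (smul_eq_of_copyOfE hC K hK x hx)

/-- ★ **(R-desc) for a `q`-new copy `V` of `W[p]`** in `J_0(M q)[p]`: a representative over `K`
whose two norms to level `M` are constants of `K` times `p`-th powers over `K`. -/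
theorem exists_isRep_level_norms_of_copyOfE {M q : ℕ} [NeZero M] [NeZero q]
    {V : Submodule (ZMod p) (Jtors (M * q) p)}
    (hC : CopyOfE W p V) (K : IntermediateField ℚ Qbar)
    (hK : ∀ σ ∈ K.fixingSubgroup, ∀ e : Tp p W, σ • e = e) (x : Jtors (M * q) p) (hx : x ∈ V)
    (hnew : (x : JZero (M * q)) ∈ newPart M q) :
    ∃ (fK : FF (Lvl K) (M * q)) (cA cB : Lvl K) (hA hB : FF (Lvl K) M),
      IsRep p (x : JZero (M * q)) (levK (M * q) K fK) ∧ cA ≠ 0 ∧ cB ≠ 0 ∧ hA ≠ 0 ∧ hB ≠ 0 ∧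
      normAlphaK K M q fK = algebraMap (Lvl K) (FF (Lvl K) M) cA * hA ^ p ∧
      normBetaK K M q fK = algebraMap (Lvl K) (FF (Lvl K) M) cB * hB ^ p :=
  exists_isRep_level_norms (Fact.out : p.Prime).ne_zero K _ hnew (nsmul_coe_eq_zero x)
    (smul_eq_of_copyOfE hC K hK x hx)

end Copy

end Fermat.Agent.S40.M1.DescentSmall
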