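/-
S44/S40 (`moonshots` row 67, §1 FIELDS; helper23): **THE SMALL FIELD `L_V` CUT OUT BY `V`, AND THE SMALL
GOOD LEVEL `bigLevel A L_V`.**

`V ≤ J₀(L)[p](ℚ̄)` a Galois-stable subgroup.

* `fixV V : Subgroup Γ` : the pointwise stabiliser of `V` (`σ ∈ fixV V ↔ ∀ x ∈ V, galTors L p σ x = x`);
  for `σ ∈ I_A` this is the group `I_x` of the static route;
* `smallField V` (`= L_V = ℚ(V)`) : the fixed field of `fixV V`;
  - `apply_eq_of_mem_smallField` : `σ ∈ fixV V` fixes `L_V` pointwise (SMALL);
  - ★ `mem_fixV_of_fixes` : `σ` fixes `L_V` pointwise `⇒ σ ∈ fixV V` (`fixV V` is open, hence closed; infinite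
    Galois correspondence);
  - `finiteDimensional_smallField` : `L_V` is a number field; `smallField_stable` : it is `Γ`-stable;
  - `smul_Tp_eq_of_fixes` : for a copy `V` of `W[p]`, `σ` fixing `L_V` pointwise fixes `W[p]`
    (the hypothesis `hK` of helper29's `DescentSmall.exists_isRep_level_of_copyOfE`);
* `isGoodLevel_bigLevel` : `bigLevel A K₁` is a `P3G` good level for every `Γ`-stable number field `K₁`;
  `isGoodLevel_bigLevel_smallField`;
* ★ `apply_eq_of_mem_bigLevel_smallField` : every `σ ∈ I_A` which fixes `V` pointwise fixes the small good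
  level `bigLevel A L_V = L_V · K₀` pointwise — so everything defined over that level is `I_x`-invariant.
-/
import Mathlib
import Fermat.Agent.S40.M1.DescentSmall
import Fermat.Agent.P3G.Assembly.LevelStep

set_option autoImplicit false
set_option linter.unusedSectionVars false
set_option linter.unusedVariables false
set_option linter.style.haveILetI false

open ModularCurve AlgebraicCurve IntermediateField

noncomputable section

namespace Fermat.Agent.S40.M1.SmallField

open Fermat.Agent.N4F.Res Fermat.Agent.S40.Top.Eigen Fermat.Agent.S40.Top.CopyOfE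
  Fermat.Agent.P3G.Gamma Fermat.Agent.P3G.Assembly.LevelStep Fermat.Agent.N4.BigDVR
open Fermat.Agent.S58.Form.Hres (Tp)

local notation "Qbar" => AlgebraicClosure ℚ
local notation "Γ" => (AlgebraicClosure ℚ ≃ₐ[ℚ] AlgebraicClosure ℚ)

section Fix

variable {p : ℕ} [Fact p.Prime] {L : ℕ} [NeZero L]

/-- The pointwise stabiliser of `V` in the Galois group. -/
def fixV (V : Submodule (ZMod p) (Jtors L p)) : Subgroup Γ where
  carrier := {σ | ∀ x ∈ V, galTors L p σ x = x}
  one_mem' := fun x _ => by rw [map_one]; rfl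
  mul_mem' := fun {a b} ha hb x hx => by
    rw [map_mul, Module.End.mul_apply, hb x hx, ha x hx]
  inv_mem' := fun {a} ha x hx => by
    have h1 : galTors L p a⁻¹ (galTors L p a x) = x := by
      rw [← Module.End.mul_apply, ← map_mul, inv_mul_cancel, map_one]; rfl
    rw [ha x hx] at h1
    exact h1

theorem mem_fixV_iff (V : Submodule (ZMod p) (Jtors L p)) (σ : Γ) :
    σ ∈ fixV V ↔ ∀ x ∈ V, galTors L p σ x = x := Iff.rfl

/-- **The field cut out by `V`**: the fixed field of the pointwise stabiliser of `V`. -/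
def smallField (V : Submodule (ZMod p) (Jtors L p)) : IntermediateField ℚ Qbar :=
  IntermediateField.fixedField (fixV V)

/-- (SMALL) an automorphism fixing `V` pointwise fixes `L_V` pointwise. -/
theorem apply_eq_of_mem_smallField {V : Submodule (ZMod p) (Jtors L p)} {σ : Γ}
    (hσ : σ ∈ fixV V) {y : Qbar} (hy : y ∈ smallField V) : σ y = y :=
  hy ⟨σ, hσ⟩

/-- The number field of definition of the whole `p`-torsion lies over `fixV V`. -/
theorem exists_fixingSubgroup_le_fixV (V : Submodule (ZMod p) (Jtors L p)) :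
    ∃ E₁ : IntermediateField ℚ Qbar, FiniteDimensional ℚ E₁ ∧ E₁.fixingSubgroup ≤ fixV V := by
  have hp : p.Prime := Fact.out
  obtain ⟨E₁, hE₁, hfix⟩ := Fermat.Agent.N4F.Res.exists_level_of_finite (openStabilizers L) p
    ((inputs L).torsionFinite p hp.pos)
  refine ⟨E₁, hE₁, fun σ hσ x hx => ?_⟩
  apply Subtype.ext
  rw [coe_galTors_apply]
  refine hfix σ (fun y hy => ?_) _ x.2
  exact (IntermediateField.mem_fixingSubgroup_iff E₁ σ).mp hσ y hy

theorem isOpen_fixV (V : Submodule (ZMod p) (Jtors L p)) : IsOpen (fixV V : Set Γ) := by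
  obtain ⟨E₁, hE₁, hle⟩ := exists_fixingSubgroup_le_fixV V
  haveI := hE₁
  exact Subgroup.isOpen_mono hle (IntermediateField.fixingSubgroup_isOpen E₁)

/-- ★ An automorphism fixing `L_V` pointwise fixes `V` pointwise. -/
theorem mem_fixV_of_fixes (V : Submodule (ZMod p) (Jtors L p)) {σ : Γ}
    (hσ : ∀ y ∈ smallField V, σ y = y) : σ ∈ fixV V := by
  have hcl : IsClosed (fixV V : Set Γ) := Subgroup.isClosed_of_isOpen _ (isOpen_fixV V)
  haveI : IsAlgClosure ℚ Qbar := ⟨inferInstance, AlgebraicClosure.isAlgebraic ℚ⟩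
  haveI : IsGalois ℚ Qbar := inferInstance
  have h := InfiniteGalois.fixingSubgroup_fixedField (k := ℚ) (K := Qbar) ⟨fixV V, hcl⟩
  have h2 : σ ∈ (IntermediateField.fixedField (fixV V)).fixingSubgroup := by
    rw [IntermediateField.mem_fixingSubgroup_iff]
    exact hσ
  have h3 : σ ∈ (⟨fixV V, hcl⟩ : ClosedSubgroup Γ).toSubgroup := by
    rw [← h]; exact h2
  exact h3

/-- The same in the `galTors` form. -/
theorem galTors_eq_of_fixes (V : Submodule (ZMod p) (Jtors L p)) {σ : Γ}
    (hσ : ∀ y ∈ smallField V, σ y = y) (x : Jtors L p) (hx : x ∈ V) : galTors L p σ x = x :=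
  mem_fixV_of_fixes V hσ x hx

/-- `L_V` is a number field. -/
instance finiteDimensional_smallField (V : Submodule (ZMod p) (Jtors L p)) :
    FiniteDimensional ℚ ↥(smallField V) := by
  obtain ⟨E₁, hE₁, hle'⟩ := exists_fixingSubgroup_le_fixV V
  haveI := hE₁
  have hle : smallField V ≤ E₁ := by
    intro y hy
    refine Fermat.Agent.S40.M1.DescentSmall.mem_of_fixingSubgroup_fixed E₁ (fun σ hσ => ?_)
    exact apply_eq_of_mem_smallField (V := V) (hle' hσ) hy
  exact Module.Finite.of_injective (IntermediateField.inclusion hle).toLinearMap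
    (IntermediateField.inclusion_injective hle)

/-- `L_V` is stable under the Galois group (`V` is). -/
theorem smallField_stable {V : Submodule (ZMod p) (Jtors L p)} (hst : IsGalStable V) (τ : Γ)
    (y : Qbar) (hy : y ∈ smallField V) : τ y ∈ smallField V := by
  rintro ⟨σ, hσ⟩
  show σ (τ y) = τ y
  have h1 : τ⁻¹ * σ * τ ∈ fixV V := by
    intro x hx
    rw [map_mul, map_mul, Module.End.mul_apply, Module.End.mul_apply,
      hσ _ (hst τ x hx), ← Module.End.mul_apply, ← map_mul, inv_mul_cancel, map_one]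
    rfl
  have h2 := apply_eq_of_mem_smallField h1 hy
  have h3 : (τ⁻¹ * σ * τ) y = τ⁻¹ (σ (τ y)) := rfl
  rw [h3] at h2
  have h4 := congrArg τ h2
  rwa [show τ (τ⁻¹ (σ (τ y))) = σ (τ y) from by
    rw [← AlgEquiv.mul_apply, mul_inv_cancel]; rfl] at h4

/-- For a copy `V` of `W[p]`: an automorphism fixing `L_V` pointwise fixes `W[p]` pointwise. -/
theorem smul_Tp_eq_of_fixes {W : WeierstrassCurve ℤ} {V : Submodule (ZMod p) (Jtors L p)}
    (hC : CopyOfE W p V) {σ : Γ} (hσ : ∀ y ∈ smallField V, σ y = y) (e : Tp p W) : σ • e = e :=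
  hC.fixes_of_fixes' σ (fun x hx => galTors_eq_of_fixes V hσ x hx) e

/-- The same for every intermediate field above `L_V`, in the `fixingSubgroup` form of
`DescentSmall.exists_isRep_level_of_copyOfE`. -/
theorem smul_Tp_eq_of_mem_fixingSubgroup {W : WeierstrassCurve ℤ}
    {V : Submodule (ZMod p) (Jtors L p)} (hC : CopyOfE W p V) {K : IntermediateField ℚ Qbar}
    (hK : smallField V ≤ K) : ∀ σ ∈ K.fixingSubgroup, ∀ e : Tp p W, σ • e = e :=
  fun σ hσ e => smul_Tp_eq_of_fixes hC
    (fun y hy => (IntermediateField.mem_fixingSubgroup_iff K σ).mp hσ y (hK hy)) e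

end Fix

/-! ### The small good level -/

section Good

variable {A : ValuationSubring Qbar} {q : ℕ}

/-- `bigLevel A K₁` is a good level for every Galois-stable number field `K₁`. -/
theorem isGoodLevel_bigLevel (hq : q.Prime) (hA : A.LiesOverPrime q)
    (K₁ : IntermediateField ℚ Qbar) [FiniteDimensional ℚ K₁]
    (hstab : ∀ (τ : Γ) (x : Qbar), x ∈ K₁ → τ x ∈ K₁) : IsGoodLevel A q (bigLevel A K₁) := by
  obtain ⟨h1, h2, h3, h4⟩ := bigLevel_spec hq hA K₁
  exact ⟨fun τ x hx => apply_mem_bigLevel K₁ hstab τ hx, K0_le_bigLevel A K₁,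
    goodRoots_subset_bigLevel A K₁, h1, h2, h3, h4⟩

/-- An element of the inertia group of `A` fixing `K₁` pointwise fixes `bigLevel A K₁` pointwise. -/
theorem apply_eq_of_mem_bigLevel (hq : q.Prime) (hA : A.LiesOverPrime q)
    (K₁ : IntermediateField ℚ Qbar) {σ : Γ} (hσ : σ ∈ A.inertiaSubgroupIn ℚ)
    (hfix : ∀ y ∈ K₁, σ y = y) {x : Qbar} (hx : x ∈ bigLevel A K₁) : σ x = x := by
  rw [bigLevel_eq_adjoin] at hx
  let Fx : IntermediateField ℚ Qbar :=
    { carrier := {y | σ y = y}
      mul_mem' := fun {a b} ha hb => by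
        show σ (a * b) = a * b
        rw [map_mul, ha, hb]
      one_mem' := map_one σ
      add_mem' := fun {a b} ha hb => by
        show σ (a + b) = a + b
        rw [map_add, ha, hb]
      zero_mem' := map_zero σ
      algebraMap_mem' := fun r => σ.commutes r
      inv_mem' := fun a ha => by
        show σ a⁻¹ = a⁻¹
        rw [map_inv₀, ha] }
  have h1 : IntermediateField.adjoin ℚ ((K₁ : Set Qbar) ∪ goodRoots A) ≤ Fx := by
    rw [IntermediateField.adjoin_le_iff]
    rintro y (hy | hy)
    · exact hfix y hy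
    · exact apply_goodRoot_of_mem_inertia hq hA hσ hy
  exact h1 hx

variable {p : ℕ} [Fact p.Prime] {L : ℕ} [NeZero L]

/-- The small good level `bigLevel A L_V` of a Galois-stable `V`. -/
theorem isGoodLevel_bigLevel_smallField (hq : q.Prime) (hA : A.LiesOverPrime q)
    {V : Submodule (ZMod p) (Jtors L p)} (hst : IsGalStable V) :
    IsGoodLevel A q (bigLevel A (smallField V)) :=
  isGoodLevel_bigLevel hq hA (smallField V) (smallField_stable hst)

/-- ★ **Everything defined over the small good level is `I_x`-invariant**: an element of the inertia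
group of `A` fixing `V` pointwise fixes `bigLevel A L_V` pointwise. -/
theorem apply_eq_of_mem_bigLevel_smallField (hq : q.Prime) (hA : A.LiesOverPrime q)
    {V : Submodule (ZMod p) (Jtors L p)} {σ : Γ} (hσ : σ ∈ A.inertiaSubgroupIn ℚ)
    (hV : ∀ x ∈ V, galTors L p σ x = x) {x : Qbar} (hx : x ∈ bigLevel A (smallField V)) :
    σ x = x :=
  apply_eq_of_mem_bigLevel hq hA (smallField V) hσ
    (fun y hy => apply_eq_of_mem_smallField (V := V) hV hy) hx

end Good

end Fermat.Agent.S40.M1.SmallField
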