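/-
S40 / T6′ static route, leaf (R3), part (a) (helper4): **THE HECKE OPERATOR `T_ℓ` (ON FUNCTIONS, `f ↦ N_{α_ℓ}(β_ℓ f)`)
COMMUTES WITH THE NORMS ALONG `α_p` AND `β_p`**, for primes `ℓ ≠ p`, `ℓ, p ∤ M`, over `Q̄`:

    N_{α_p} (T_ℓ^{(Mp)} f) = T_ℓ^{(M)} (N_{α_p} f),      N_{β_p} (T_ℓ^{(Mp)} f) = T_ℓ^{(M)} (N_{β_p} f).

Proof: transitivity of the norm twice (`Algebra.norm_norm`) in the two towers
`F_M → F_{Mp} → F_{Mpℓ}` and `F_M → F_{Mℓ} → F_{Mpℓ}`, and linearly disjoint base change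
(`N4F/E/NormDescent.norm_map_along`) in the square

      F_M   ──α_p / β_p──▶  F_{Mp}
       │ β_ℓ                  │ β_ℓ
       ▼                      ▼
      F_{Mℓ} ──a′ / b′───▶  F_{Mpℓ}          (a′ : x(q) ↦ x(q),  b′ : x(q) ↦ x(q^p)).

The spanning hypothesis (`F_{Mpℓ} = F_{Mℓ} · β_ℓ(F_{Mp})`) is proved `q`-adically: `β_ℓ(F_{Mp}) ⊆ Q̄((q^ℓ))`,
while `t = j(q)` (resp. `j(q^p)`) has `q`-order prime to `ℓ`, so `1, t, …, t^{ℓ-1}` are linearly independent
over `β_ℓ(F_{Mp})`; the compositum has degree `≥ ℓ` dividing `ℓ + 1`, hence is everything.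
-/
import Mathlib
import Fermat.Agent.N4F.A.LevelMaps
import Fermat.Agent.N4F.E.NormDescent
import Fermat.Agent.N4F.E.NormDescentModular
import Fermat.Agent.N4F.E.DegreeLevelRaise
import Fermat.Agent.N4F.Tors.HeckeDiv
import Fermat.Agent.N4F.C.Levels
import Fermat.Agent.P4.Push

set_option autoImplicit false
set_option linter.style.haveILetI false
set_option linter.unusedSectionVars false

open ModularCurve AlgebraicCurve Module

noncomputable section

namespace Fermat.Agent.S40.M1.NormComm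

open Fermat.Agent.N4F.C (Qb Fb jb coe_jb)
open Fermat.Agent.N4F.A.LevelMaps (levelMap coe_levelMap levelMap_finite)

/-! ## Transitivity of the norm, `Along`-form -/

section Trans

variable {K F₀ F₁ F₂ : Type*} [Field K] [Field F₀] [Field F₁] [Field F₂]
  [Algebra K F₀] [Algebra K F₁] [Algebra K F₂]

/-- `N_{ψ ∘ φ} = N_φ ∘ N_ψ`. -/
theorem norm_comp (φ : F₀ →ₐ[K] F₁) (ψ : F₁ →ₐ[K] F₂) (χ : F₀ →ₐ[K] F₂)
    (hχ : ∀ x, χ x = ψ (φ x)) (x : F₂) :
    (letI := algebraAlong χ; Algebra.norm F₀ x) =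
      (letI := algebraAlong φ; Algebra.norm F₀ (letI := algebraAlong ψ; Algebra.norm F₁ x)) := by
  letI i₁ := algebraAlong φ
  letI i₂ := algebraAlong ψ
  letI i₃ := algebraAlong χ
  haveI : IsScalarTower F₀ F₁ F₂ := IsScalarTower.of_algebraMap_eq fun x => hχ x
  exact (Algebra.norm_norm (R := F₀) (S := F₁) (A := F₂) (a := x)).symm

end Trans

/-! ## Sums of Laurent series with pairwise distinct orders -/

section Orders

variable {k : Type*} [Field k]

/-- A finite sum of Laurent series, not all zero, whose non-zero terms have pairwise distinct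
orders, is non-zero. -/
theorem sum_ne_zero_of_order_inj {ι : Type*} [DecidableEq ι] (s : Finset ι)
    (y : ι → LaurentSeries k) (hne : ∃ i ∈ s, y i ≠ 0)
    (hinj : ∀ i ∈ s, ∀ j ∈ s, y i ≠ 0 → y j ≠ 0 → (y i).order = (y j).order → i = j) :
    ∑ i ∈ s, y i ≠ 0 := by
  classical
  set s' := s.filter fun i => y i ≠ 0 with hs'
  have hs'ne : s'.Nonempty := by
    obtain ⟨i, hi, hyi⟩ := hne
    exact ⟨i, Finset.mem_filter.mpr ⟨hi, hyi⟩⟩
  obtain ⟨i₀, hi₀, hmin⟩ := Finset.exists_min_image s' (fun i => (y i).order) hs'ne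
  have hi₀s : i₀ ∈ s := (Finset.mem_filter.mp hi₀).1
  have hyi₀ : y i₀ ≠ 0 := (Finset.mem_filter.mp hi₀).2
  intro h0
  have h1 : (∑ i ∈ s, y i).coeff (y i₀).order = (y i₀).coeff (y i₀).order := by
    rw [HahnSeries.coeff_sum]
    refine Finset.sum_eq_single_of_mem i₀ hi₀s ?_
    intro j hj hji
    by_cases hyj : y j = 0
    · rw [hyj]; rfl
    · have hj' : j ∈ s' := Finset.mem_filter.mpr ⟨hj, hyj⟩
      have hle := hmin j hj'
      have hne' : (y i₀).order ≠ (y j).order := fun h => hji (hinj j hj i₀ hi₀s hyj hyi₀ h.symm)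
      exact HahnSeries.coeff_eq_zero_of_lt_order (lt_of_le_of_ne hle hne')
  rw [h0] at h1
  exact hyi₀ (HahnSeries.coeff_order_eq_zero.mp h1.symm)

/-- The order of a non-zero `x(q^ℓ)` is divisible by `ℓ`. -/
theorem dvd_order_qExpand (ℓ : ℕ) [NeZero ℓ] (x : LaurentSeries k) :
    (ℓ : ℤ) ∣ (qExpand k ℓ x).order := by
  by_cases hx : qExpand k ℓ x = 0
  · rw [hx, HahnSeries.order_zero]; exact dvd_zero _
  · by_contra h
    exact hx (HahnSeries.coeff_order_eq_zero.mp (qExpand_coeff_of_not_dvd ℓ x h))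

end Orders


/-! ## Value-group index: powers of an element of order prime to `q` -/

section Index

variable {E L k : Type*} [Field E] [Field L] [Field k] [Algebra E L]

/-- If every element of `E` has order divisible by `q` and `z` has order prime to `q`, then
`1, z, …, z^(q-1)` are linearly independent over `E`. -/
theorem linearIndependent_pow_of_order {q : ℕ} (w : L →+* LaurentSeries k)
    (hE : ∀ x : E, (q : ℤ) ∣ (w (algebraMap E L x)).order) (z : L) (hwz : w z ≠ 0)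
    (hy : IsCoprime (w z).order (q : ℤ)) :
    LinearIndependent E (fun i : Fin q => z ^ (i : ℕ)) := by
  classical
  rw [Fintype.linearIndependent_iff]
  intro g hg
  by_contra hne
  push Not at hne
  obtain ⟨j0, hj0⟩ := hne
  set o : ℤ := (w z).order with ho
  set t : Fin q → LaurentSeries k := fun i => w (algebraMap E L (g i)) * w z ^ (i : ℕ) with ht
  have ht0 : ∀ i, t i ≠ 0 ↔ g i ≠ 0 := by
    intro i
    constructor
    · intro h hgi
      apply h
      rw [ht]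
      simp only
      rw [hgi, map_zero, map_zero, zero_mul]
    · intro h
      exact mul_ne_zero ((map_ne_zero w).mpr ((map_ne_zero _).mpr h)) (pow_ne_zero _ hwz)
  have hord : ∀ i, g i ≠ 0 → (t i).order = (w (algebraMap E L (g i))).order + (i : ℕ) * o := by
    intro i hi
    rw [ht]
    simp only
    rw [HahnSeries.order_mul ((map_ne_zero w).mpr ((map_ne_zero _).mpr hi))
      (pow_ne_zero _ hwz), HahnSeries.order_pow, nsmul_eq_mul]
  have hsum : ∑ i ∈ (Finset.univ : Finset (Fin q)), t i ≠ 0 := by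
    refine sum_ne_zero_of_order_inj Finset.univ t ⟨j0, Finset.mem_univ _, (ht0 j0).mpr hj0⟩ ?_
    intro i _ j _ hi hj hij
    rw [hord i ((ht0 i).mp hi), hord j ((ht0 j).mp hj)] at hij
    obtain ⟨a, ha⟩ := hE (g i)
    obtain ⟨b, hb⟩ := hE (g j)
    rw [ha, hb] at hij
    have h1 : (q : ℤ) ∣ (((i : ℕ) : ℤ) - ((j : ℕ) : ℤ)) * o :=
      ⟨b - a, by linear_combination hij⟩
    have h2 : (q : ℤ) ∣ ((i : ℕ) : ℤ) - ((j : ℕ) : ℤ) := hy.symm.dvd_of_dvd_mul_right h1
    have hi' := i.2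
    have hj' := j.2
    apply Fin.ext
    obtain ⟨c, hc⟩ := h2
    have hc0 : c = 0 := by
      by_contra hc0
      have : (1 : ℤ) ≤ |c| := Int.one_le_abs hc0
      have h3 : |((i : ℕ) : ℤ) - ((j : ℕ) : ℤ)| = (q : ℤ) * |c| := by
        rw [hc, abs_mul, Nat.abs_cast]
      have h4 : |((i : ℕ) : ℤ) - ((j : ℕ) : ℤ)| < (q : ℤ) := by
        rw [abs_lt]
        constructor <;> omega
      nlinarith
    rw [hc0, mul_zero] at hc
    omega
  apply hsum
  have h3 : w (∑ i, g i • z ^ (i : ℕ)) = ∑ i, t i := by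
    rw [map_sum]
    refine Finset.sum_congr rfl fun i _ => ?_
    rw [Algebra.smul_def, map_mul, map_pow]
  rw [hg, map_zero] at h3
  exact h3.symm

/-- **An intermediate field of an extension of degree `q + 1` containing an element whose order is
prime to `q`, all orders of the base being divisible by `q`, is everything** (`q ≥ 2`). -/
theorem intermediateField_eq_top_of_order {q : ℕ} (hq : 2 ≤ q)
    (hdeg : Module.finrank E L = q + 1) (w : L →+* LaurentSeries k)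
    (hE : ∀ x : E, (q : ℤ) ∣ (w (algebraMap E L x)).order) (S : IntermediateField E L)
    (z : L) (hzS : z ∈ S) (hy : IsCoprime (w z).order (q : ℤ)) : S = ⊤ := by
  haveI : FiniteDimensional E L := Module.finite_of_finrank_pos (by rw [hdeg]; omega)
  have hwz : w z ≠ 0 := by
    intro h
    rw [h, HahnSeries.order_zero] at hy
    have h1 : IsUnit ((q : ℤ)) := isCoprime_zero_left.mp hy
    have h2 := Int.isUnit_iff_natAbs_eq.mp h1
    simp at h2
    omega
  have hli := linearIndependent_pow_of_order w hE z hwz hy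
  have hli' : LinearIndependent E (fun i : Fin q => (⟨z, hzS⟩ : S) ^ (i : ℕ)) := by
    refine LinearIndependent.of_comp S.val.toLinearMap ?_
    convert hli using 1
    funext i
    simp
  have h1 : q ≤ Module.finrank E S := by
    have := hli'.fintype_card_le_finrank
    simpa using this
  have h2 : Module.finrank E S * Module.finrank S L = q + 1 := by
    rw [Module.finrank_mul_finrank, hdeg]
  have h3 : Module.finrank E S = q + 1 := by
    have hdvd : Module.finrank E S ∣ q + 1 := ⟨_, h2.symm⟩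
    have hle : Module.finrank E S ≤ q + 1 := Nat.le_of_dvd (Nat.succ_pos q) hdvd
    rcases Nat.eq_or_lt_of_le hle with h | h
    · exact h
    · exfalso
      have h4 : Module.finrank E S = q := by omega
      rw [h4] at hdvd
      have h5 : q ∣ 1 := (Nat.dvd_add_right (dvd_refl q)).mp hdvd
      have := Nat.dvd_one.mp h5
      omega
  apply IntermediateField.eq_of_le_of_finrank_eq le_top
  rw [h3, IntermediateField.finrank_top', hdeg]

/-- **Compositum = everything**, in the form needed for `NormDescent.norm_map_along`. -/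
theorem span_eq_top_of_order_succ {F' : Type*} [Field F'] [Algebra F' L]
    [Algebra.IsAlgebraic F' L] {q : ℕ} (hq : 2 ≤ q)
    (hdeg : Module.finrank E L = q + 1) (w : L →+* LaurentSeries k)
    (hE : ∀ x : E, (q : ℤ) ∣ (w (algebraMap E L x)).order)
    (y : F') (hy : IsCoprime (w (algebraMap F' L y)).order (q : ℤ)) :
    Submodule.span F' (Set.range (algebraMap E L)) = ⊤ := by
  apply Fermat.Agent.N4F.E.NormDescent.span_eq_top_of_adjoin
  set C := IntermediateField.adjoin F' (Set.range (algebraMap E L)) with hC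
  let S : IntermediateField E L :=
    Subfield.toIntermediateField C.toSubfield
      (fun x => IntermediateField.subset_adjoin F' _ ⟨x, rfl⟩)
  have hS : S = ⊤ :=
    intermediateField_eq_top_of_order hq hdeg w hE S (algebraMap F' L y) (C.algebraMap_mem y) hy
  rw [eq_top_iff]
  intro x _
  have hx : x ∈ S := by rw [hS]; trivial
  exact hx

end Index


/-! ## Orders of `q`-expansions -/

section Order

variable {k : Type*} [Field k] (m : ℕ) [NeZero m]

/-- The order of `f(X^m)` is `m` times the order of `f`. -/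
theorem order_qExpand (f : LaurentSeries k) : (qExpand k m f).order = (m : ℤ) * f.order := by
  by_cases hf : f = 0
  · rw [hf, map_zero, HahnSeries.order_zero, mul_zero]
  have hf' : qExpand k m f ≠ 0 := fun h => hf (qExpand_injective m (by rw [h, map_zero]))
  have hm : (0 : ℤ) < (m : ℤ) := by exact_mod_cast Nat.pos_of_ne_zero (NeZero.ne m)
  apply le_antisymm
  · apply HahnSeries.order_le_of_coeff_ne_zero
    rw [qExpand_coeff_mul]
    exact fun h => hf (HahnSeries.coeff_order_eq_zero.mp h)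
  · obtain ⟨c, hc⟩ := dvd_order_qExpand m f
    rw [hc]
    apply mul_le_mul_of_nonneg_left _ hm.le
    apply HahnSeries.order_le_of_coeff_ne_zero
    rw [← qExpand_coeff_mul m f c, ← hc]
    exact fun h => hf' (HahnSeries.coeff_order_eq_zero.mp h)

/-- The `j`-series has a simple pole. -/
theorem order_jqModC : (jqModC k).order = -1 := by
  have h0 : jqModC k ≠ 0 := jqModC_ne_zero_of_nontrivial k
  apply le_antisymm
  · apply HahnSeries.order_le_of_coeff_ne_zero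
    rw [coeff_jqModC_neg_one]
    exact one_ne_zero
  · by_contra h
    push Not at h
    have h1 : (jqModC k).order < -1 := h
    exact h0 (HahnSeries.coeff_order_eq_zero.mp (coeff_jqModC_of_lt k h1))

end Order

/-! ## The two squares -/

section Squares

open Fermat.Agent.N4F.E.DegreeLevelRaise (iotaQbar)

/-- The `q`-expansion, as a ring homomorphism. -/
def coeHom (n : ℕ) : Fb n →+* LaurentSeries Qb := (modularFunctionFieldBar n).val.toRingHom

@[simp] theorem coeHom_apply (n : ℕ) (x : Fb n) : coeHom n x = (x : LaurentSeries Qb) := rfl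

/-- Degree of a level map `x(q) ↦ x(q)` raising the level by a prime `r ∤ N`. -/
theorem finrankAlong_levelMap_one (N n' r : ℕ) [NeZero N] [NeZero n'] [NeZero r] (hr : r.Prime)
    (hrN : ¬ r ∣ N) (hn' : n' = N * r) (h : N * 1 ∣ n') :
    finrankAlong Qb (levelMap N n' 1 h) = r + 1 := by
  subst hn'
  haveI : Fact r.Prime := ⟨hr⟩
  have h1 := Fermat.Agent.N4F.E.NormDescentModular.finrankAlong_heckeAlphaBar (L := Qb) iotaQbar
    N r hrN
  have h2 : heckeAlphaBar Qb N r = levelMap N (N * r) 1 h := by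
    refine AlgHom.ext fun x => Subtype.ext ?_
    rw [coe_heckeAlphaBar, coe_levelMap, qExpand_one_apply]
  rw [← h2]
  exact h1

/-- Degree of a level map `x(q) ↦ x(q^r)` raising the level by a prime `r ∤ N`. -/
theorem finrankAlong_levelMap_self (N n' r : ℕ) [NeZero N] [NeZero n'] [NeZero r] (hr : r.Prime)
    (hrN : ¬ r ∣ N) (hn' : n' = N * r) (h : N * r ∣ n') :
    finrankAlong Qb (levelMap N n' r h) = r + 1 := by
  subst hn'
  haveI : Fact r.Prime := ⟨hr⟩
  have h1 := Fermat.Agent.N4F.E.NormDescentModular.finrankAlong_heckeBetaBar (L := Qb) iotaQbar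
    N r hrN
  have h2 : heckeBetaBar Qb N r = levelMap N (N * r) r h := by
    refine AlgHom.ext fun x => Subtype.ext ?_
    rw [coe_heckeBetaBar, coe_levelMap]
  rw [← h2]
  exact h1

variable (M p ℓ : ℕ) [NeZero M] [NeZero p] [NeZero ℓ]

theorem dvdA : M * ℓ * 1 ∣ M * p * ℓ := ⟨p, by ring⟩

theorem dvdB : M * ℓ * p ∣ M * p * ℓ := ⟨1, by ring⟩

/-- `F_{Mℓ} → F_{Mpℓ}`, `x(q) ↦ x(q)`. -/
def aTop : Fb (M * ℓ) →ₐ[Qb] Fb (M * p * ℓ) := levelMap (M * ℓ) (M * p * ℓ) 1 (dvdA M p ℓ)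

/-- `F_{Mℓ} → F_{Mpℓ}`, `x(q) ↦ x(q^p)`. -/
def bTop : Fb (M * ℓ) →ₐ[Qb] Fb (M * p * ℓ) := levelMap (M * ℓ) (M * p * ℓ) p (dvdB M p ℓ)

@[simp] theorem coe_aTop (x : Fb (M * ℓ)) :
    ((aTop M p ℓ x : Fb (M * p * ℓ)) : LaurentSeries Qb) = (x : LaurentSeries Qb) := by
  rw [aTop, coe_levelMap, qExpand_one_apply]

@[simp] theorem coe_bTop (x : Fb (M * ℓ)) :
    ((bTop M p ℓ x : Fb (M * p * ℓ)) : LaurentSeries Qb) = qExpand Qb p (x : LaurentSeries Qb) := by
  rw [bTop, coe_levelMap]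

theorem finiteAlong_aTop : FiniteAlong Qb (aTop M p ℓ) := levelMap_finite _ _ _ _

theorem finiteAlong_bTop : FiniteAlong Qb (bTop M p ℓ) := levelMap_finite _ _ _ _

theorem not_dvd_mul {a b c : ℕ} (ha : a.Prime) (hb : ¬ a ∣ b) (hc : c.Prime) (hac : a ≠ c) :
    ¬ a ∣ b * c := by
  intro h
  rcases (Nat.Prime.dvd_mul ha).mp h with h | h
  · exact hb h
  · exact hac ((Nat.prime_dvd_prime_iff_eq ha hc).mp h)

theorem finrankAlong_aTop (hp : p.Prime) (hℓ : ℓ.Prime) (hpM : ¬ p ∣ M) (hpℓ : p ≠ ℓ) :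
    finrankAlong Qb (aTop M p ℓ) = p + 1 :=
  finrankAlong_levelMap_one (M * ℓ) (M * p * ℓ) p hp (not_dvd_mul hp hpM hℓ hpℓ) (by ring) _

theorem finrankAlong_bTop (hp : p.Prime) (hℓ : ℓ.Prime) (hpM : ¬ p ∣ M) (hpℓ : p ≠ ℓ) :
    finrankAlong Qb (bTop M p ℓ) = p + 1 :=
  finrankAlong_levelMap_self (M * ℓ) (M * p * ℓ) p hp (not_dvd_mul hp hpM hℓ hpℓ) (by ring) _

/-- Orders in `β_ℓ (F_{Mp})` are divisible by `ℓ`. -/
theorem dvd_order_beta (x : Fb (M * p)) :
    (ℓ : ℤ) ∣ (coeHom (M * p * ℓ) (heckeBetaBar Qb (M * p) ℓ x)).order := by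
  rw [coeHom_apply, coe_heckeBetaBar]
  exact dvd_order_qExpand ℓ _

/-- **The `α_p`-square is linearly disjoint**: `β_ℓ(F_{Mp})` spans `F_{Mpℓ}` over `F_{Mℓ}`. -/
theorem span_alpha_square (hp : p.Prime) (hℓ : ℓ.Prime) (hℓM : ¬ ℓ ∣ M) (hpℓ : p ≠ ℓ) :
    letI := algebraAlong (aTop M p ℓ)
    Submodule.span (Fb (M * ℓ))
      (Set.range ((heckeBetaBar Qb (M * p) ℓ : Fb (M * p) →ₐ[Qb] Fb (M * p * ℓ)) :
        Fb (M * p) →+* Fb (M * p * ℓ))) = ⊤ := by
  letI i₁ := algebraAlong (aTop M p ℓ)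
  letI i₂ := algebraAlong (heckeBetaBar Qb (M * p) ℓ)
  haveI : Fact ℓ.Prime := ⟨hℓ⟩
  haveI : FiniteDimensional (Fb (M * ℓ)) (Fb (M * p * ℓ)) := finiteAlong_aTop M p ℓ
  have hdeg : Module.finrank (Fb (M * p)) (Fb (M * p * ℓ)) = ℓ + 1 :=
    Fermat.Agent.N4F.E.NormDescentModular.finrankAlong_heckeBetaBar (L := Qb) iotaQbar (M * p) ℓ
      (not_dvd_mul hℓ hℓM hp (Ne.symm hpℓ))
  refine span_eq_top_of_order_succ (E := Fb (M * p)) (L := Fb (M * p * ℓ)) (F' := Fb (M * ℓ))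
    hℓ.two_le hdeg (coeHom (M * p * ℓ)) (dvd_order_beta M p ℓ) (jb (M * ℓ)) ?_
  show IsCoprime (coeHom (M * p * ℓ) (aTop M p ℓ (jb (M * ℓ)))).order (ℓ : ℤ)
  rw [coeHom_apply, coe_aTop, coe_jb, order_jqModC]
  exact isCoprime_one_left.neg_left

/-- **The `β_p`-square is linearly disjoint.** -/
theorem span_beta_square (hp : p.Prime) (hℓ : ℓ.Prime) (hℓM : ¬ ℓ ∣ M) (hpℓ : p ≠ ℓ) :
    letI := algebraAlong (bTop M p ℓ)
    Submodule.span (Fb (M * ℓ))
      (Set.range ((heckeBetaBar Qb (M * p) ℓ : Fb (M * p) →ₐ[Qb] Fb (M * p * ℓ)) :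
        Fb (M * p) →+* Fb (M * p * ℓ))) = ⊤ := by
  letI i₁ := algebraAlong (bTop M p ℓ)
  letI i₂ := algebraAlong (heckeBetaBar Qb (M * p) ℓ)
  haveI : Fact ℓ.Prime := ⟨hℓ⟩
  haveI : FiniteDimensional (Fb (M * ℓ)) (Fb (M * p * ℓ)) := finiteAlong_bTop M p ℓ
  have hdeg : Module.finrank (Fb (M * p)) (Fb (M * p * ℓ)) = ℓ + 1 :=
    Fermat.Agent.N4F.E.NormDescentModular.finrankAlong_heckeBetaBar (L := Qb) iotaQbar (M * p) ℓ
      (not_dvd_mul hℓ hℓM hp (Ne.symm hpℓ))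
  refine span_eq_top_of_order_succ (E := Fb (M * p)) (L := Fb (M * p * ℓ)) (F' := Fb (M * ℓ))
    hℓ.two_le hdeg (coeHom (M * p * ℓ)) (dvd_order_beta M p ℓ) (jb (M * ℓ)) ?_
  show IsCoprime (coeHom (M * p * ℓ) (bTop M p ℓ (jb (M * ℓ)))).order (ℓ : ℤ)
  rw [coeHom_apply, coe_bTop, coe_jb, order_qExpand, order_jqModC, mul_neg_one]
  refine IsCoprime.neg_left ?_
  exact Nat.isCoprime_iff_coprime.mpr ((Nat.coprime_primes hp hℓ).mpr hpℓ)

end Squares


/-! ## The Hecke operator on functions commutes with the two norms -/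

section Main

open Fermat.Agent.N4F.E.DegreeLevelRaise (iotaQbar)
open Fermat.Agent.N4F.A.LevelMaps (finiteAlong_heckeAlphaBar finiteAlong_heckeBetaBar)

variable (M p ℓ : ℕ) [NeZero M] [NeZero p] [NeZero ℓ]

/-- Base change in the `α_p`-square: `β_ℓ (N_{α_p} f) = N_{a′} (β_ℓ f)`. -/
theorem beta_normAlpha (hp : p.Prime) (hℓ : ℓ.Prime) (hpM : ¬ p ∣ M) (hℓM : ¬ ℓ ∣ M)
    (hpℓ : p ≠ ℓ) (f : Fb (M * p)) :
    heckeBetaBar Qb M ℓ (Fermat.Agent.P4.Push.normAlpha M p f) =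
      (letI := algebraAlong (aTop M p ℓ)
       Algebra.norm (Fb (M * ℓ)) (heckeBetaBar Qb (M * p) ℓ f)) := by
  haveI : Fact p.Prime := ⟨hp⟩
  refine Fermat.Agent.N4F.E.NormDescent.norm_map_along (heckeAlphaBar Qb M p) (aTop M p ℓ)
    ((heckeBetaBar Qb M ℓ : Fb M →ₐ[Qb] Fb (M * ℓ)) : Fb M →+* Fb (M * ℓ))
    ((heckeBetaBar Qb (M * p) ℓ : Fb (M * p) →ₐ[Qb] Fb (M * p * ℓ)) :
      Fb (M * p) →+* Fb (M * p * ℓ)) ?_ (finiteAlong_heckeAlphaBar M p)
    (span_alpha_square M p ℓ hp hℓ hℓM hpℓ) ?_ f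
  · intro x
    apply Subtype.ext
    show ((heckeBetaBar Qb (M * p) ℓ (heckeAlphaBar Qb M p x) : Fb (M * p * ℓ)) :
        LaurentSeries Qb) = ((aTop M p ℓ (heckeBetaBar Qb M ℓ x) : Fb (M * p * ℓ)) :
        LaurentSeries Qb)
    rw [coe_heckeBetaBar, coe_heckeAlphaBar, coe_aTop, coe_heckeBetaBar]
  · rw [finrankAlong_aTop M p ℓ hp hℓ hpM hpℓ,
      Fermat.Agent.N4F.E.NormDescentModular.finrankAlong_heckeAlphaBar (L := Qb) iotaQbar M p hpM]

/-- Base change in the `β_p`-square: `β_ℓ (N_{β_p} f) = N_{b′} (β_ℓ f)`. -/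
theorem beta_normBeta (hp : p.Prime) (hℓ : ℓ.Prime) (hpM : ¬ p ∣ M) (hℓM : ¬ ℓ ∣ M)
    (hpℓ : p ≠ ℓ) (f : Fb (M * p)) :
    heckeBetaBar Qb M ℓ (Fermat.Agent.P4.Push.normBeta M p f) =
      (letI := algebraAlong (bTop M p ℓ)
       Algebra.norm (Fb (M * ℓ)) (heckeBetaBar Qb (M * p) ℓ f)) := by
  haveI : Fact p.Prime := ⟨hp⟩
  refine Fermat.Agent.N4F.E.NormDescent.norm_map_along (heckeBetaBar Qb M p) (bTop M p ℓ)
    ((heckeBetaBar Qb M ℓ : Fb M →ₐ[Qb] Fb (M * ℓ)) : Fb M →+* Fb (M * ℓ))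
    ((heckeBetaBar Qb (M * p) ℓ : Fb (M * p) →ₐ[Qb] Fb (M * p * ℓ)) :
      Fb (M * p) →+* Fb (M * p * ℓ)) ?_ (finiteAlong_heckeBetaBar M p)
    (span_beta_square M p ℓ hp hℓ hℓM hpℓ) ?_ f
  · intro x
    apply Subtype.ext
    show ((heckeBetaBar Qb (M * p) ℓ (heckeBetaBar Qb M p x) : Fb (M * p * ℓ)) :
        LaurentSeries Qb) = ((bTop M p ℓ (heckeBetaBar Qb M ℓ x) : Fb (M * p * ℓ)) :
        LaurentSeries Qb)
    rw [coe_heckeBetaBar, coe_heckeBetaBar, coe_bTop, coe_heckeBetaBar, qExpand_qExpand,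
      qExpand_qExpand]
    exact qExpand_congr (mul_comm ℓ p) _
  · rw [finrankAlong_bTop M p ℓ hp hℓ hpM hpℓ,
      Fermat.Agent.N4F.E.NormDescentModular.finrankAlong_heckeBetaBar (L := Qb) iotaQbar M p hpM]

/-- **`N_{α_p} ∘ T_ℓ = T_ℓ ∘ N_{α_p}`** on functions (`T_ℓ f = N_{α_ℓ}(β_ℓ f)`). -/
theorem normAlpha_hecke (hp : p.Prime) (hℓ : ℓ.Prime) (hpM : ¬ p ∣ M) (hℓM : ¬ ℓ ∣ M)
    (hpℓ : p ≠ ℓ) (f : Fb (M * p)) :
    Fermat.Agent.P4.Push.normAlpha M p (Fermat.Agent.N4F.Tors.HeckeDiv.normBeta (M * p) ℓ f) =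
      Fermat.Agent.N4F.Tors.HeckeDiv.normBeta M ℓ (Fermat.Agent.P4.Push.normAlpha M p f) := by
  let χ : Fb M →ₐ[Qb] Fb (M * p * ℓ) := (heckeAlphaBar Qb (M * p) ℓ).comp (heckeAlphaBar Qb M p)
  have h1 := norm_comp (heckeAlphaBar Qb M p) (heckeAlphaBar Qb (M * p) ℓ) χ (fun _ => rfl)
    (heckeBetaBar Qb (M * p) ℓ f)
  have hχ : ∀ x, χ x = aTop M p ℓ (heckeAlphaBar Qb M ℓ x) := by
    intro x
    apply Subtype.ext
    show ((heckeAlphaBar Qb (M * p) ℓ (heckeAlphaBar Qb M p x) : Fb (M * p * ℓ)) :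
        LaurentSeries Qb) = _
    rw [coe_heckeAlphaBar, coe_heckeAlphaBar, coe_aTop, coe_heckeAlphaBar]
  have h2 := norm_comp (heckeAlphaBar Qb M ℓ) (aTop M p ℓ) χ hχ (heckeBetaBar Qb (M * p) ℓ f)
  have h3 := beta_normAlpha M p ℓ hp hℓ hpM hℓM hpℓ f
  show (letI := algebraAlong (heckeAlphaBar Qb M p);
        Algebra.norm (Fb M) (letI := algebraAlong (heckeAlphaBar Qb (M * p) ℓ);
          Algebra.norm (Fb (M * p)) (heckeBetaBar Qb (M * p) ℓ f))) =
      (letI := algebraAlong (heckeAlphaBar Qb M ℓ);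
        Algebra.norm (Fb M) (heckeBetaBar Qb M ℓ (Fermat.Agent.P4.Push.normAlpha M p f)))
  rw [← h1, h2, h3]

/-- **`N_{β_p} ∘ T_ℓ = T_ℓ ∘ N_{β_p}`** on functions. -/
theorem normBeta_hecke (hp : p.Prime) (hℓ : ℓ.Prime) (hpM : ¬ p ∣ M) (hℓM : ¬ ℓ ∣ M)
    (hpℓ : p ≠ ℓ) (f : Fb (M * p)) :
    Fermat.Agent.P4.Push.normBeta M p (Fermat.Agent.N4F.Tors.HeckeDiv.normBeta (M * p) ℓ f) =
      Fermat.Agent.N4F.Tors.HeckeDiv.normBeta M ℓ (Fermat.Agent.P4.Push.normBeta M p f) := by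
  let χ : Fb M →ₐ[Qb] Fb (M * p * ℓ) := (heckeAlphaBar Qb (M * p) ℓ).comp (heckeBetaBar Qb M p)
  have h1 := norm_comp (heckeBetaBar Qb M p) (heckeAlphaBar Qb (M * p) ℓ) χ (fun _ => rfl)
    (heckeBetaBar Qb (M * p) ℓ f)
  have hχ : ∀ x, χ x = bTop M p ℓ (heckeAlphaBar Qb M ℓ x) := by
    intro x
    apply Subtype.ext
    show ((heckeAlphaBar Qb (M * p) ℓ (heckeBetaBar Qb M p x) : Fb (M * p * ℓ)) :
        LaurentSeries Qb) = _
    rw [coe_heckeAlphaBar, coe_heckeBetaBar, coe_bTop, coe_heckeAlphaBar]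
  have h2 := norm_comp (heckeAlphaBar Qb M ℓ) (bTop M p ℓ) χ hχ (heckeBetaBar Qb (M * p) ℓ f)
  have h3 := beta_normBeta M p ℓ hp hℓ hpM hℓM hpℓ f
  show (letI := algebraAlong (heckeBetaBar Qb M p);
        Algebra.norm (Fb M) (letI := algebraAlong (heckeAlphaBar Qb (M * p) ℓ);
          Algebra.norm (Fb (M * p)) (heckeBetaBar Qb (M * p) ℓ f))) =
      (letI := algebraAlong (heckeAlphaBar Qb M ℓ);
        Algebra.norm (Fb M) (heckeBetaBar Qb M ℓ (Fermat.Agent.P4.Push.normBeta M p f)))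
  rw [← h1, h2, h3]

end Main

end Fermat.Agent.S40.M1.NormComm
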