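/-
S40 / T6′ static route, leaf (R3), part (b) (helper4): **ROOTS AND CONSTANTS DESCEND TO A LEVEL `K`.**

`K ⊆ Q̄` ANY subfield, `Lvl K` the level field, `FF (Lvl K) N` the function field of level `K`.

* `exists_root_level` : `u ∈ FF (Lvl K) N`, `lev u = c · h^m` over `Q̄`  ⟹  `u = c_K · h_K^m` over `K`
  (helper19's `S36/Descent/InvariantModel.exists_invariant_root` for `H = Gal(Q̄/K)`, + helper29's
  `DescentSmall.mem_range_levK_of_invariant`);
* `exists_const_of_pow_eq_const` : `Y ∈ FF (Lvl K) N`, `Y^m` constant ⟹ `Y` is a constant OF `K`;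
* `exists_pow_of_const_mul_pow_eq` : `s · P^m = t · Q^m` with `s, t ∈ K`, `t ≠ 0`, `P ≠ 0` ⟹ `s = t · y^m`, `y ∈ K`.
-/
import Mathlib
import Fermat.Agent.S40.M1.DescentSmall
import Fermat.Agent.S40.W.HeckeUnfold

set_option autoImplicit false
set_option linter.unusedSectionVars false
set_option linter.style.haveILetI false

open ModularCurve AlgebraicCurve
open Fermat.Agent.N4.Setting Fermat.Agent.N4F.C Fermat.Agent.N4F.C.Levels
  Fermat.Agent.N4F.C.Galois
open Fermat.Agent.S36.Descent.LeadCoeff Fermat.Agent.S36.Descent.InvariantModel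
open Fermat.Agent.S40.M1.DescentSmall

noncomputable section

namespace Fermat.Agent.S40.M1.RootDescent

local notation "Qbar" => AlgebraicClosure ℚ
local notation "Γ" => (AlgebraicClosure ℚ ≃ₐ[ℚ] AlgebraicClosure ℚ)

variable {N : ℕ} [NeZero N] (K : IntermediateField ℚ Qbar)

theorem levK_injective : Function.Injective (levK N K) := (levK N K).toRingHom.injective

theorem levK_algebraMap (a : Lvl K) :
    levK N K (algebraMap (Lvl K) (FF (Lvl K) N) a) =
      algebraMap Qb (Fb N) (algebraMap (Lvl K) Qb a) := by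
  rw [AlgHom.commutes, IsScalarTower.algebraMap_apply (Lvl K) Qb (Fb N)]

/-- **Roots descend**: if `lev u` is a constant times an `m`-th power over `Q̄`, then `u` is a
constant of `K` times an `m`-th power over `K`. -/
theorem exists_root_level {m : ℕ} (hm : m ≠ 0) {u : FF (Lvl K) N} (hu : u ≠ 0)
    (hpow : ∃ (c : Qb) (h : Fb N), levK N K u = algebraMap Qb (Fb N) c * h ^ m) :
    ∃ (cK : Lvl K) (hK : FF (Lvl K) N), cK ≠ 0 ∧ hK ≠ 0 ∧
      u = algebraMap (Lvl K) (FF (Lvl K) N) cK * hK ^ m := by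
  have hu' : levK N K u ≠ 0 := fun h => hu (levK_injective K (by rw [h, map_zero]))
  obtain ⟨h', hh'0, hh'eq, hlc, hh'inv⟩ := exists_invariant_root K.fixingSubgroup hm hu'
    (fun σ hσ => gal_smul_levK_of_mem K hσ u) hpow
  obtain ⟨hK, hhK⟩ := mem_range_levK_of_invariant K hh'inv
  obtain ⟨cK, hcK⟩ := (Lvl.mem_range_iff K).mpr (mem_of_fixingSubgroup_fixed K hlc)
  refine ⟨cK, hK, ?_, ?_, ?_⟩
  · rintro rfl
    rw [map_zero] at hcK
    exact lc_ne_zero hu' hcK.symm
  · rintro rfl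
    rw [map_zero] at hhK
    exact hh'0 hhK.symm
  · apply levK_injective K
    rw [map_mul, map_pow, hhK, levK_algebraMap, hcK]
    exact hh'eq

/-- **Constants descend**: a function of level `K` whose `m`-th power is constant is a constant
of `K`. -/
theorem exists_const_of_pow_eq_const {m : ℕ} (hm : m ≠ 0) {Y : FF (Lvl K) N} {a : Lvl K}
    (h : Y ^ m = algebraMap (Lvl K) (FF (Lvl K) N) a) :
    ∃ y : Lvl K, Y = algebraMap (Lvl K) (FF (Lvl K) N) y := by
  -- over `Q̄` the function is algebraic, hence constant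
  have h1 : levK N K Y ^ m = algebraMap Qb (Fb N) (algebraMap (Lvl K) Qb a) := by
    rw [← map_pow, h, levK_algebraMap]
  have halg : IsAlgebraic Qb (levK N K Y) := by
    refine ⟨Polynomial.X ^ m - Polynomial.C (algebraMap (Lvl K) Qb a),
      Polynomial.X_pow_sub_C_ne_zero (Nat.pos_of_ne_zero hm) _, ?_⟩
    rw [map_sub, map_pow, Polynomial.aeval_X, Polynomial.aeval_C, h1, sub_self]
  obtain ⟨r, hr⟩ := Fermat.Agent.S40.W.HeckeUnfold.algClosed_bar N (levK N K Y) halg
  have hr' : algebraMap Qb (Fb N) r = levK N K Y := hr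
  -- the constant is fixed by `Gal(Q̄/K)`
  have hfix : ∀ σ ∈ K.fixingSubgroup, σ r = r := by
    intro σ hσ
    have e1 := gal_smul_levK_of_mem K hσ Y
    rw [← hr', gal_smul_algebraMap] at e1
    exact (algebraMap Qb (Fb N)).injective e1
  obtain ⟨y, hy⟩ := (Lvl.mem_range_iff K).mpr (mem_of_fixingSubgroup_fixed K hfix)
  refine ⟨y, levK_injective K ?_⟩
  rw [levK_algebraMap, hy, hr']

/-- **Comparison of constants**: `s · P^m = t · Q^m` with constants `s, t` of `K`, `t ≠ 0`, and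
`P ≠ 0` forces `s = t · y^m` with `y ∈ K`. -/
theorem exists_pow_of_const_mul_pow_eq {m : ℕ} (hm : m ≠ 0) {s t : Lvl K} (ht : t ≠ 0)
    {P Q : FF (Lvl K) N} (hP : P ≠ 0)
    (h : algebraMap (Lvl K) (FF (Lvl K) N) s * P ^ m =
      algebraMap (Lvl K) (FF (Lvl K) N) t * Q ^ m) :
    ∃ y : Lvl K, s = t * y ^ m := by
  have ht' : algebraMap (Lvl K) (FF (Lvl K) N) t ≠ 0 := (map_ne_zero _).mpr ht
  have hPm : P ^ m ≠ 0 := pow_ne_zero _ hP
  have h1 : (Q / P) ^ m = algebraMap (Lvl K) (FF (Lvl K) N) (s / t) := by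
    rw [div_pow, map_div₀, div_eq_div_iff hPm ht']
    rw [mul_comm, ← h, mul_comm]
  obtain ⟨y, hy⟩ := exists_const_of_pow_eq_const K hm h1
  refine ⟨y, ?_⟩
  rw [hy, ← map_pow] at h1
  have h2 := (algebraMap (Lvl K) (FF (Lvl K) N)).injective h1
  rw [h2]
  field_simp

end Fermat.Agent.S40.M1.RootDescent
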