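/-
S40 / T6′ static route, leaf (R3), part (c) (helper4): **THE `Θ`-INVARIANT IS TRIVIAL ON A
NON-EISENSTEIN EIGENCLASS: after rescaling by a constant of `K`, BOTH level norms of a representative
`f_K` of a `p`-new `θ`-eigenclass are EXACT `p`-th powers over the SAME field `K`.**

`x ∈ J₀(Mp)[p](Q̄)` in the `p`-new part, `T_ℓ x = m x` for ONE prime `ℓ ∤ Mp` with `p ∤ ℓ + 1 - m`,
`f_K ∈ FF (Lvl K) (M p)` (ANY subfield `K ⊆ Q̄`) with `div (lev f_K) = p D`, `[D] = x`.  Then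

    N_α f_K = a_A · H_A^p,   N_β f_K = a_B · H_B^p            (newness + `RootDescent.exists_root_level`),
    T_ℓ^K f_K = c′ · f_K^m · E^p                               (`HeckeUnfold` (★) + `exists_root_level`),

and applying `N_α`, `N_β` to the last identity, with `N ∘ T_ℓ = T_ℓ ∘ N` (`NormComm`) and
`T_ℓ(const a) = a^{ℓ+1}`, `N(const c) = c^{p+1}`:

    a_A^{ℓ+1} = c′^{p+1} a_A^m y_A^p,     a_B^{ℓ+1} = c′^{p+1} a_B^m y_B^p        (`y_A, y_B ∈ K`),

so `(a_A/a_B)^{ℓ+1-m} ∈ K^{×p}`, hence `a_A/a_B ∈ K^{×p}`; `a := a_A⁻¹` does it.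
-/
import Mathlib
import Fermat.Agent.S40.M1.NormComm
import Fermat.Agent.S40.M1.RootDescent
import Fermat.Agent.S40.New.Pack
import Fermat.Agent.S40.Top.Eigen
import Fermat.Agent.S40.W.HeckeUnfold
import Fermat.Agent.P4.FrobLevelStep
import Fermat.Agent.N4F.E.NormDescentBar
import Fermat.Agent.S36.Descent.NormCompatQ

set_option autoImplicit false
set_option linter.unusedSectionVars false
set_option linter.unusedVariables false
set_option linter.style.haveILetI false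

open ModularCurve AlgebraicCurve
open Fermat.Agent.N4.Setting Fermat.Agent.N4F.C Fermat.Agent.N4F.C.Levels
open Fermat.Agent.N4F.E.DegreeLevelRaise
open Fermat.Agent.N4F.Res
open Fermat.Agent.P3G.GammaDict
open Fermat.Agent.P4.Push Fermat.Agent.P4.FrobLevelStep
open Fermat.Agent.S40.M1.RootDescent
open Fermat.Agent.S40.New.Pack (IsRep)

noncomputable section

namespace Fermat.Agent.S40.M1.ThetaInv

local notation "Qbar" => AlgebraicClosure ℚ

/-! ## Norms of constants and the Hecke operator on functions at a level -/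

section Level

variable (K : IntermediateField ℚ Qbar) (L q : ℕ) [NeZero L] [NeZero q]

/-- `N_α (const a) = a^{q+1}`. -/
theorem normAlphaK_algebraMap (hq : q.Prime) (hqL : ¬ q ∣ L) (a : Lvl K) :
    normAlphaK K L q (algebraMap (Lvl K) (FF (Lvl K) (L * q)) a) =
      algebraMap (Lvl K) (FF (Lvl K) L) (a ^ (q + 1)) := by
  haveI : Fact q.Prime := ⟨hq⟩
  letI := algebraAlong (alphaF (Lvl K) L q)
  have h1 : algebraMap (Lvl K) (FF (Lvl K) (L * q)) a =
      algebraMap (FF (Lvl K) L) (FF (Lvl K) (L * q)) (algebraMap (Lvl K) (FF (Lvl K) L) a) :=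
    ((alphaF (Lvl K) L q).commutes a).symm
  have h2 : Module.finrank (FF (Lvl K) L) (FF (Lvl K) (L * q)) = q + 1 :=
    Fermat.Agent.N4F.E.NormDescentBar.finrankAlong_alphaF (Lvl K) L q hqL
  show Algebra.norm (FF (Lvl K) L) (algebraMap (Lvl K) (FF (Lvl K) (L * q)) a) = _
  rw [h1, Algebra.norm_algebraMap, h2, map_pow]

/-- `N_β (const a) = a^{q+1}`. -/
theorem normBetaK_algebraMap (hq : q.Prime) (hqL : ¬ q ∣ L) (a : Lvl K) :
    normBetaK K L q (algebraMap (Lvl K) (FF (Lvl K) (L * q)) a) =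
      algebraMap (Lvl K) (FF (Lvl K) L) (a ^ (q + 1)) := by
  haveI : Fact q.Prime := ⟨hq⟩
  letI := algebraAlong (betaF (Lvl K) L q)
  have h1 : algebraMap (Lvl K) (FF (Lvl K) (L * q)) a =
      algebraMap (FF (Lvl K) L) (FF (Lvl K) (L * q)) (algebraMap (Lvl K) (FF (Lvl K) L) a) :=
    ((betaF (Lvl K) L q).commutes a).symm
  have h2 : Module.finrank (FF (Lvl K) L) (FF (Lvl K) (L * q)) = q + 1 :=
    Fermat.Agent.N4F.E.NormDescentBar.finrankAlong_betaF (Lvl K) L q hqL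
  show Algebra.norm (FF (Lvl K) L) (algebraMap (Lvl K) (FF (Lvl K) (L * q)) a) = _
  rw [h1, Algebra.norm_algebraMap, h2, map_pow]

/-- **The Hecke operator on functions at a level**: `T_q g = N_α (β g)`. -/
def heckeK : FF (Lvl K) L →* FF (Lvl K) L :=
  (normAlphaK K L q).comp ((betaF (Lvl K) L q : FF (Lvl K) L →ₐ[Lvl K] FF (Lvl K) (L * q)) :
    FF (Lvl K) L →* FF (Lvl K) (L * q))

theorem heckeK_apply (g : FF (Lvl K) L) :
    heckeK K L q g = normAlphaK K L q (betaF (Lvl K) L q g) := rfl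

/-- `lev (T_q g) = T_q (lev g)`. -/
theorem levK_heckeK (hq : q.Prime) (hqL : ¬ q ∣ L) (g : FF (Lvl K) L) :
    levK L K (heckeK K L q g) = Fermat.Agent.N4F.Tors.HeckeDiv.normBeta L q (levK L K g) := by
  haveI : Fact q.Prime := ⟨hq⟩
  exact Fermat.Agent.N4F.E.NormDescentBar.lev_norm_alpha_beta (Lvl K) L q hqL g

/-- `T_q (const a) = a^{q+1}`. -/
theorem heckeK_algebraMap (hq : q.Prime) (hqL : ¬ q ∣ L) (a : Lvl K) :
    heckeK K L q (algebraMap (Lvl K) (FF (Lvl K) L) a) =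
      algebraMap (Lvl K) (FF (Lvl K) L) (a ^ (q + 1)) := by
  rw [heckeK_apply, AlgHom.commutes, normAlphaK_algebraMap K L q hq hqL]

theorem heckeK_ne_zero (hq : q.Prime) (hqL : ¬ q ∣ L) {g : FF (Lvl K) L} (hg : g ≠ 0) :
    heckeK K L q g ≠ 0 := by
  haveI : Fact q.Prime := ⟨hq⟩
  rw [heckeK_apply]
  refine normAlong_ne_zero (alphaF (Lvl K) L q)
    (Fermat.Agent.N4F.E.NormDescentBar.finiteAlong_alphaF (Lvl K) L q hqL) ?_
  exact (map_ne_zero _).mpr hg

end Level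


/-! ## Field arithmetic: `(r)^{d} ∈ K^{×p}`, `(d, p) = 1` ⟹ `r ∈ K^{×p}` -/

section Arith

variable {k : Type*} [Field k]

/-- If `r^n = r^m · s^p` with `p` prime not dividing `n - m`, then `r` is a `p`-th power. -/
theorem exists_pow_eq_of_pow_eq {p : ℕ} (hp : p.Prime) {n m : ℕ} (hnm : ¬ (p : ℤ) ∣ (n : ℤ) - m)
    {r s : k} (hr : r ≠ 0) (h : r ^ n = r ^ m * s ^ p) : ∃ t : k, t ≠ 0 ∧ r = t ^ p := by
  have hs : s ≠ 0 := by
    rintro rfl
    rw [zero_pow hp.ne_zero, mul_zero] at h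
    exact pow_ne_zero _ hr h
  have hcop : IsCoprime (p : ℤ) ((n : ℤ) - m) :=
    (Irreducible.coprime_iff_not_dvd (Nat.prime_iff_prime_int.mp hp).irreducible).mpr hnm
  obtain ⟨u, v, huv⟩ := hcop
  have h1 : r ^ ((n : ℤ) - m) = s ^ (p : ℤ) := by
    rw [zpow_sub₀ hr, zpow_natCast, zpow_natCast, zpow_natCast, h]
    field_simp
  refine ⟨r ^ u * s ^ v, mul_ne_zero (zpow_ne_zero _ hr) (zpow_ne_zero _ hs), ?_⟩
  have h2 : r = r ^ (u * (p : ℤ) + v * ((n : ℤ) - m)) := by rw [huv, zpow_one]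
  rw [mul_pow]
  conv_lhs => rw [h2]
  rw [zpow_add₀ hr, zpow_mul, zpow_natCast, mul_comm v, zpow_mul, h1, ← zpow_mul, mul_comm (p : ℤ) v,
    zpow_mul, zpow_natCast]

end Arith

/-! ## The main statement -/

section Main

variable {p M : ℕ} [NeZero M] [Fact p.Prime]

/-- ★ **(R3)**, eigen-relation form: ONE good prime `ℓ` with `p ∤ ℓ + 1 - m`, `T_ℓ x = m x`. -/
theorem exists_rescale_norms_pow_of_eigen (hpM : ¬ p ∣ M) (K : IntermediateField ℚ Qbar)
    (x : Jtors (M * p) p) (hnew : (x : JZero (M * p)) ∈ newPart M p)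
    (ℓ : Nat.Primes) (hℓ : ¬ (ℓ : ℕ) ∣ M * p) (m : ℕ)
    (hT : heckeTors (M * p) p ℓ x = (m : ZMod p) • x)
    (hm : ¬ (p : ℤ) ∣ (((ℓ : ℕ) + 1 : ℕ) : ℤ) - m)
    (fK : FF (Lvl K) (M * p)) (hrep : IsRep p (x : JZero (M * p)) (levK (M * p) K fK)) :
    ∃ a : Lvl K, a ≠ 0 ∧ ∃ hA hB : FF (Lvl K) M,
      normAlphaK K M p (algebraMap (Lvl K) (FF (Lvl K) (M * p)) a * fK) = hA ^ p ∧
      normBetaK K M p (algebraMap (Lvl K) (FF (Lvl K) (M * p)) a * fK) = hB ^ p := by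
  classical
  have hp : p.Prime := Fact.out
  haveI : NeZero (ℓ : ℕ) := ⟨ℓ.2.ne_zero⟩
  have hℓp : (ℓ : ℕ).Prime := ℓ.2
  have hℓM : ¬ (ℓ : ℕ) ∣ M := fun h => hℓ (h.mul_right p)
  have hpℓ : p ≠ (ℓ : ℕ) := by
    rintro rfl
    exact hℓ (dvd_mul_left _ _)
  obtain ⟨D, hD, hf⟩ := hrep
  set f : Fb (M * p) := levK (M * p) K fK with hfdef
  have hf0 : f ≠ 0 := hf.1
  have hfK0 : fK ≠ 0 := by
    rintro rfl
    exact hf0 (map_zero _)
  -- the two norms over `K`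
  have h0 := mem_newPart_iff.mp hnew
  rw [← hD] at h0
  obtain ⟨cA', uA, -, -, hnA⟩ := exists_normAlpha_eq hf h0.1
  obtain ⟨cB', uB, -, -, hnB⟩ := exists_normBeta_eq hf h0.2
  have hNA0 : normAlphaK K M p fK ≠ 0 := by
    intro h
    have e1 := Fermat.Agent.S36.Descent.NormCompatQ.levK_normAlphaK_push K M p fK
    rw [h, map_zero] at e1
    exact (IsDivOf.pushAlpha hf).1 e1.symm
  have hNB0 : normBetaK K M p fK ≠ 0 := by
    intro h
    have e1 := Fermat.Agent.S36.Descent.NormCompatQ.levK_normBetaK_push K M p fK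
    rw [h, map_zero] at e1
    exact (IsDivOf.pushBeta hf).1 e1.symm
  obtain ⟨aA, HA, haA, hHA, hA⟩ := exists_root_level K hp.ne_zero hNA0
    ⟨cA', uA, by rw [Fermat.Agent.S36.Descent.NormCompatQ.levK_normAlphaK_push]; exact hnA⟩
  obtain ⟨aB, HB, haB, hHB, hB⟩ := exists_root_level K hp.ne_zero hNB0
    ⟨cB', uB, by rw [Fermat.Agent.S36.Descent.NormCompatQ.levK_normBetaK_push]; exact hnB⟩
  -- the Hecke relation over `K`
  have hDord : ∀ P : Place Qb (Fb (M * p)),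
      (p : ℤ) * (D : Divisor Qb (Fb (M * p))) P = P.ord f := by
    intro P
    have := hf.2 P
    rw [Finsupp.smul_apply, nsmul_eq_mul] at this
    exact this
  obtain ⟨c, e, hc0, he0, hce⟩ := Fermat.Agent.S40.W.HeckeUnfold.exists_normBeta_eq_of_heckeTors
    (M * p) ℓ hℓ p m x hT D f hf0 hD.symm hDord
  have hT0 : heckeK K (M * p) ℓ fK ≠ 0 := heckeK_ne_zero K (M * p) ℓ hℓp hℓ hfK0
  have hfKm : fK ^ m ≠ 0 := pow_ne_zero _ hfK0
  obtain ⟨c', E, hc', hE0, hTE⟩ := exists_root_level K hp.ne_zero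
    (div_ne_zero hT0 hfKm) ⟨c, e, by
      rw [map_div₀, map_pow, levK_heckeK K (M * p) ℓ hℓp hℓ, ← hfdef, hce]
      field_simp⟩
  have hTfK : heckeK K (M * p) ℓ fK =
      algebraMap (Lvl K) (FF (Lvl K) (M * p)) c' * E ^ p * fK ^ m := by
    rw [← hTE, div_mul_cancel₀ _ hfKm]
  -- `N ∘ T_ℓ = T_ℓ ∘ N` at the level `K`
  have hcommA : normAlphaK K M p (heckeK K (M * p) ℓ fK) =
      heckeK K M ℓ (normAlphaK K M p fK) := by
    apply levK_injective K
    rw [Fermat.Agent.S36.Descent.NormCompatQ.levK_normAlphaK_push,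
      levK_heckeK K (M * p) ℓ hℓp hℓ, levK_heckeK K M ℓ hℓp hℓM,
      Fermat.Agent.S36.Descent.NormCompatQ.levK_normAlphaK_push]
    exact Fermat.Agent.S40.M1.NormComm.normAlpha_hecke M p ℓ hp hℓp hpM hℓM hpℓ _
  have hcommB : normBetaK K M p (heckeK K (M * p) ℓ fK) =
      heckeK K M ℓ (normBetaK K M p fK) := by
    apply levK_injective K
    rw [Fermat.Agent.S36.Descent.NormCompatQ.levK_normBetaK_push,
      levK_heckeK K (M * p) ℓ hℓp hℓ, levK_heckeK K M ℓ hℓp hℓM,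
      Fermat.Agent.S36.Descent.NormCompatQ.levK_normBetaK_push]
    exact Fermat.Agent.S40.M1.NormComm.normBeta_hecke M p ℓ hp hℓp hpM hℓM hpℓ _
  -- the two constant relations
  have hrelA : algebraMap (Lvl K) (FF (Lvl K) M) (aA ^ ((ℓ : ℕ) + 1)) * heckeK K M ℓ HA ^ p =
      algebraMap (Lvl K) (FF (Lvl K) M) (c' ^ (p + 1) * aA ^ m) *
        (normAlphaK K M p E * HA ^ m) ^ p := by
    have e1 := hcommA
    rw [hTfK, hA] at e1
    simp only [map_mul, map_pow] at e1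
    rw [normAlphaK_algebraMap K M p hp hpM, hA, heckeK_algebraMap K M ℓ hℓp hℓM] at e1
    rw [← e1]
    simp only [map_mul, map_pow]
    ring
  have hrelB : algebraMap (Lvl K) (FF (Lvl K) M) (aB ^ ((ℓ : ℕ) + 1)) * heckeK K M ℓ HB ^ p =
      algebraMap (Lvl K) (FF (Lvl K) M) (c' ^ (p + 1) * aB ^ m) *
        (normBetaK K M p E * HB ^ m) ^ p := by
    have e1 := hcommB
    rw [hTfK, hB] at e1
    simp only [map_mul, map_pow] at e1
    rw [normBetaK_algebraMap K M p hp hpM, hB, heckeK_algebraMap K M ℓ hℓp hℓM] at e1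
    rw [← e1]
    simp only [map_mul, map_pow]
    ring
  obtain ⟨yA, hyA⟩ := exists_pow_of_const_mul_pow_eq K hp.ne_zero
    (mul_ne_zero (pow_ne_zero _ hc') (pow_ne_zero _ haA))
    (heckeK_ne_zero K M ℓ hℓp hℓM hHA) hrelA
  obtain ⟨yB, hyB⟩ := exists_pow_of_const_mul_pow_eq K hp.ne_zero
    (mul_ne_zero (pow_ne_zero _ hc') (pow_ne_zero _ haB))
    (heckeK_ne_zero K M ℓ hℓp hℓM hHB) hrelB
  have hyB0 : yB ≠ 0 := by
    rintro rfl
    rw [zero_pow hp.ne_zero, mul_zero] at hyB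
    exact pow_ne_zero _ haB hyB
  -- `a_A / a_B` is a `p`-th power
  have hquot : (aA / aB) ^ ((ℓ : ℕ) + 1) = (aA / aB) ^ m * (yA / yB) ^ p := by
    rw [div_pow, div_pow, div_pow, hyA, hyB]
    field_simp
  obtain ⟨t, ht0, ht⟩ := exists_pow_eq_of_pow_eq hp hm (div_ne_zero haA haB) hquot
  have haAB : aA = aB * t ^ p := by
    rw [← ht]
    field_simp
  -- conclusion
  refine ⟨aA⁻¹, inv_ne_zero haA, algebraMap (Lvl K) (FF (Lvl K) M) aA⁻¹ * HA,
    algebraMap (Lvl K) (FF (Lvl K) M) (aA⁻¹ * t⁻¹) * HB, ?_, ?_⟩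
  · rw [map_mul, normAlphaK_algebraMap K M p hp hpM, hA, mul_pow, ← map_pow, ← mul_assoc, ← map_mul]
    congr 2
    rw [pow_succ, mul_assoc, inv_mul_cancel₀ haA, mul_one]
  · rw [map_mul, normBetaK_algebraMap K M p hp hpM, hB, mul_pow, ← map_pow, ← mul_assoc, ← map_mul]
    congr 2
    rw [pow_succ, mul_assoc, mul_pow]
    congr 1
    rw [haAB, mul_inv, mul_comm aB⁻¹, mul_assoc, inv_mul_cancel₀ haB, mul_one, inv_pow]

open Fermat.Agent.S40.Top.Eigen in
/-- ★ **(R3)**, statement of record: `x` in the `θ`-eigenspace `Wtheta W p (M p)` and in the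
`p`-new part, ONE non-Eisenstein good prime `j` (`p ∤ ℓ + 1 - a_ℓ(W)`), `f_K` ANY representative of
`x` at ANY level `K ⊆ Q̄`.  Then a constant multiple `a • f_K`, `a ∈ K^×`, has BOTH level norms exact
`p`-th powers in `FF (Lvl K) M` (conjunct (n3) of `M4Norm`). -/
theorem exists_rescale_norms_pow {W : WeierstrassCurve ℤ} (hpM : ¬ p ∣ M)
    (K : IntermediateField ℚ Qbar) (x : Jtors (M * p) p) (hx : x ∈ Wtheta W p (M * p))
    (hnew : (x : JZero (M * p)) ∈ newPart M p) (j : Idx W p (M * p))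
    (hj : ¬ (p : ℤ) ∣ (((j.1 : Nat.Primes) : ℕ) : ℤ) + 1 - W.apOfModel ((j.1 : Nat.Primes) : ℕ))
    (fK : FF (Lvl K) (M * p)) (hrep : IsRep p (x : JZero (M * p)) (levK (M * p) K fK)) :
    ∃ a : Lvl K, a ≠ 0 ∧ ∃ hA hB : FF (Lvl K) M,
      normAlphaK K M p (algebraMap (Lvl K) (FF (Lvl K) (M * p)) a * fK) = hA ^ p ∧
      normBetaK K M p (algebraMap (Lvl K) (FF (Lvl K) (M * p)) a * fK) = hB ^ p := by
  set m : ℕ := (theta W p (M * p) j).val with hmdef
  have hmθ : (m : ZMod p) = theta W p (M * p) j := ZMod.natCast_zmod_val _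
  refine exists_rescale_norms_pow_of_eigen hpM K x hnew j.1 j.not_dvd m ?_ ?_ fK hrep
  · rw [hmθ]
    exact (mem_wthetaL_iff.mp hx) j
  · intro h
    apply hj
    have h1 : ((m : ℤ) : ZMod p) = ((W.apOfModel ((j.1 : Nat.Primes) : ℕ) : ℤ) : ZMod p) := by
      rw [Int.cast_natCast]
      exact hmθ
    have h2 : (p : ℤ) ∣ W.apOfModel ((j.1 : Nat.Primes) : ℕ) - (m : ℤ) :=
      (ZMod.intCast_eq_intCast_iff_dvd_sub _ _ p).mp h1
    have h3 : (((j.1 : Nat.Primes) : ℕ) : ℤ) + 1 - W.apOfModel ((j.1 : Nat.Primes) : ℕ) =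
        (((((j.1 : Nat.Primes) : ℕ) + 1 : ℕ) : ℤ) - m) -
          (W.apOfModel ((j.1 : Nat.Primes) : ℕ) - (m : ℤ)) := by
      push_cast
      ring
    rw [h3]
    exact dvd_sub h h2

end Main

end Fermat.Agent.S40.M1.ThetaInv
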