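/-
S40 / T6′ static route, leaf (R3), consumer form (helper4): **(R3) with the non-Eisenstein prime
produced from irreducibility.**

* `exists_idx_not_eisenstein` : `W.ModRepIsIrreducible p`, `p` odd, `W.Δ ≠ 0`  ⟹  for every level `N`
  there is `j : Idx W p N` (a good prime `ℓ ∤ N`, `ℓ ≠ p`) with `p ∤ ℓ + 1 - a_ℓ(W)`
  (block (NE) of S41, `S41/NE/NotEisenstein.exists_prime_of_model`);
* `exists_rescale_norms_pow_of_irr` : `ThetaInv.exists_rescale_norms_pow` with `hirr` instead of `(j, hj)`.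
-/
import Mathlib
import Fermat.Agent.S40.M1.ThetaInv
import Fermat.Agent.S41.NE.NotEisenstein

set_option autoImplicit false
set_option linter.unusedSectionVars false
set_option linter.style.haveILetI false

open ModularCurve AlgebraicCurve
open Fermat.Agent.N4.Setting Fermat.Agent.N4F.C Fermat.Agent.N4F.C.Levels
open Fermat.Agent.N4F.Res
open Fermat.Agent.P4.Push Fermat.Agent.P4.FrobLevelStep
open Fermat.Agent.S40.New.Pack (IsRep)
open Fermat.Agent.S40.Top.Eigen

noncomputable section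

namespace Fermat.Agent.S40.M1.ThetaInvIrr

local notation "Qbar" => AlgebraicClosure ℚ

variable {W : WeierstrassCurve ℤ} {p : ℕ} [Fact p.Prime]

/-- **A non-Eisenstein good prime away from any level**, from irreducibility. -/
theorem exists_idx_not_eisenstein (hΔ : W.Δ ≠ 0) (hp2 : p ≠ 2) (hirr : W.ModRepIsIrreducible p)
    (N : ℕ) [NeZero N] :
    ∃ j : Idx W p N,
      ¬ (p : ℤ) ∣ (((j.1 : Nat.Primes) : ℕ) : ℤ) + 1 - W.apOfModel ((j.1 : Nat.Primes) : ℕ) := by
  have hirr' : WeierstrassCurve.Affine.Point.GaloisRepIsIrreducible (K := Qbar) ℚ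
      (W.map (Int.castRingHom ℚ)).toAffine (p ^ 1) := by
    rw [pow_one]
    exact hirr
  obtain ⟨ℓ, hℓ, hℓT, -, hgood, hℓp, hne⟩ :=
    Fermat.Agent.S41.NE.exists_prime_of_model W p hΔ hp2 hirr' 1 Nat.one_pos N.primeFactors
  have hℓN : ¬ ℓ ∣ N := fun h => hℓT (Nat.mem_primeFactors.mpr ⟨hℓ, h, NeZero.ne N⟩)
  refine ⟨⟨⟨ℓ, hℓ⟩, hgood, hℓN, hℓp⟩, fun h => hne ?_⟩
  have h1 : W.apOfModel ℓ - ((ℓ : ℤ) + 1) = -((ℓ : ℤ) + 1 - W.apOfModel ℓ) := by ring
  rw [h1]
  exact (dvd_neg (a := (p : ℤ))).mpr h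

/-- ★ **(R3) from irreducibility**: for `x` in the `θ`-eigenspace and in the `p`-new part of
`J₀(Mp)[p]`, and ANY representative `f_K` of `x` at ANY level `K ⊆ Q̄`, a constant multiple
`a • f_K` has both level norms exact `p`-th powers in `FF (Lvl K) M`. -/
theorem exists_rescale_norms_pow_of_irr {M : ℕ} [NeZero M] (hΔ : W.Δ ≠ 0) (hp2 : p ≠ 2)
    (hirr : W.ModRepIsIrreducible p) (hpM : ¬ p ∣ M) (K : IntermediateField ℚ Qbar)
    (x : Jtors (M * p) p) (hx : x ∈ Wtheta W p (M * p))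
    (hnew : (x : JZero (M * p)) ∈ newPart M p)
    (fK : FF (Lvl K) (M * p)) (hrep : IsRep p (x : JZero (M * p)) (levK (M * p) K fK)) :
    ∃ a : Lvl K, a ≠ 0 ∧ ∃ hA hB : FF (Lvl K) M,
      normAlphaK K M p (algebraMap (Lvl K) (FF (Lvl K) (M * p)) a * fK) = hA ^ p ∧
      normBetaK K M p (algebraMap (Lvl K) (FF (Lvl K) (M * p)) a * fK) = hB ^ p := by
  obtain ⟨j, hj⟩ := exists_idx_not_eisenstein hΔ hp2 hirr (M * p)
  exact Fermat.Agent.S40.M1.ThetaInv.exists_rescale_norms_pow hpM K x hx hnew j hj fK hrep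

/-- The rescaled function still represents `x`. -/
theorem isRep_const_mul {N : ℕ} [NeZero N] (K : IntermediateField ℚ Qbar) {x : JZero N}
    {fK : FF (Lvl K) N} (hrep : IsRep p x (levK N K fK)) {a : Lvl K} (ha : a ≠ 0) :
    IsRep p x (levK N K (algebraMap (Lvl K) (FF (Lvl K) N) a * fK)) := by
  obtain ⟨D, hD, hf⟩ := hrep
  refine ⟨D, hD, ?_⟩
  rw [map_mul, Fermat.Agent.S40.M1.RootDescent.levK_algebraMap]
  exact hf.const_mul ((map_ne_zero _).mpr ha)

end Fermat.Agent.S40.M1.ThetaInvIrr
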