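/-
S44/S40 (`moonshots` row 67, leaf (T6-ASM); helper23; dispatch #3174 (7)): **T6′ — `New/Pack.T6Out` FROM THE
NAMED LEAVES OF THE STATIC ROUTE.**

Setting: `p` an odd prime, level `M p`, `p ∤ M`, `A` a place of `ℚ̄` over `p`, `W` an integral model with
`W[p]` irreducible, `V ≤ W_θ ≤ J₀(Mp)[p]` a copy of `W[p]` inside the `p`-new part.

The chain, for `x ∈ V` (everything about ONE function at ONE small good level, then transported up):

* `L_V := SmallField.smallField V`, `L₀ := bigLevel A L_V` — the small good level; every `σ ∈ I_A` fixing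
  `V` pointwise fixes `L₀` pointwise (`SmallField.apply_eq_of_mem_bigLevel_smallField`);
* (R-DESC, helper29 `DescentSmall.exists_isRep_level_of_copyOfE`) a representative `f_L` of `x` over `L₀`;
* (R3, helper4 `ThetaInvIrr.exists_rescale_norms_pow_of_irr`) a constant multiple `a f_L` has EXACT level
  norms over `L₀`;
* (NRM, NAMED `NrmLeaf`, helper12) `f₀ := a f_L / g ^ p` is a unit of `V₁ = gaussVS` and of `V₂ = S₀.V`;
* (T6-ASM part A, `LevelUp.exists_level_isRep_m4NormF_bigLevel`) at EVERY good level `K ⊇ K₁` and for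
  EVERY `S₂`, `f_K := ffMap f₀` represents `x` and satisfies `M4/Final.M4NormF`;
* (SS, NAMED `SSLeaf` = (R4) node identity ∘ (AUX) ∘ (R5′), helper5/helper1/helper6/helper17/helper19)
  `p ∣ ord_s (red f_K)` at every supersingular place `s` of the special fibre — `SSDvd`, the conjunct
  (n6′) of `Norm` in the `hss` shape of helper26's `F4Good.isLocPthPowerOn_acInfF_good`.

* `SSDvd`, `normT6` (the `Norm` of record: `M4NormF ∧ SSDvd`), `NrmLeaf`, `SSLeaf`;
* ★ `t6Out_of_leaves` : `T6Out Norm V` for any `Norm` implied by `M4NormF ∧ SSDvd`;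
  ★ `t6Out_normT6` : `T6Out (normT6 M p hpM A) V`;
* consumers: `normT6_m4NormF`, `mInf_eq_zero_of_ssDvd` (the hypothesis `hss` of T5-ASM),
  `t4Out_normT6 : T4Out (normT6 …) (lamInfZ …)`.
-/
import Mathlib
import Fermat.Agent.S40.M1.SmallField
import Fermat.Agent.S40.M1.LevelUp
import Fermat.Agent.S40.M1.ThetaInvIrr
import Fermat.Agent.S40.W.F4Good

set_option autoImplicit false
set_option linter.unusedSectionVars false
set_option linter.unusedVariables false
set_option linter.dupNamespace false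
set_option linter.style.haveILetI false
set_option synthInstance.maxHeartbeats 400000
set_option maxHeartbeats 800000

open ModularCurve AlgebraicCurve IntermediateField

noncomputable section

namespace Fermat.Agent.S40.M1.Main

open Fermat.Agent.S28.Gauss
open Fermat.Agent.N4.Setting Fermat.Agent.N4.BaseDescent Fermat.Agent.N4.BigDVR
  Fermat.Agent.N4.Chart Fermat.Agent.N4.S18Glue Fermat.Agent.N4.FibreEmbedding
  Fermat.Agent.P3G.Assembly.LevelStep Fermat.Agent.P3G.Assembly.StepOfLevel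
  Fermat.Agent.P3G.GammaDict Fermat.Agent.P3G.GeomStep
  Fermat.Agent.P3G.Gamma Fermat.Agent.P3G.GammaAut
  Fermat.Agent.N4F.C Fermat.Agent.N4F.C.Levels Fermat.Agent.N4F.C.Galois
  Fermat.Agent.N4F.E.GaussDVR Fermat.Agent.N4F.C.ChartFibre
  Fermat.Agent.N4F.Res Fermat.Agent.N4F.A.LevelMaps
  Fermat.Agent.P4.Push Fermat.Agent.P4.FrobLevelStep
  Fermat.Agent.S19.Cech.LevelBasis
  Fermat.Agent.S33.L.Contracts
  Fermat.Agent.S40.Top.Eigen Fermat.Agent.S40.Top.CopyOfE
  Fermat.Agent.S40.W.F4Level Fermat.Agent.S40.W.F4Place Fermat.Agent.S40.W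
  Fermat.Agent.S40.M4.Final Fermat.Agent.S40.New.Pack
  Fermat.Agent.S40.M1.SmallField Fermat.Agent.S40.M1.LevelUp
  Fermat.Agent.P3G

local notation "Qbar" => AlgebraicClosure ℚ
local notation "Γ" => (AlgebraicClosure ℚ ≃ₐ[ℚ] AlgebraicClosure ℚ)

/-! ### The conjunct (n6′) and the `Norm` of record -/

section Defs

variable (M p : ℕ) [NeZero M] [Fact p.Prime] (hpM : ¬ p ∣ M) (A : ValuationSubring Qbar)
  (K : IntermediateField ℚ Qbar) [IsDiscreteValuationRing ↥(baseRing A K)]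
  (S₂ : Fermat.Agent.P3G.FibreTwo.SecondVal (Lvl K) M p (baseRing A K))

/-- **(n6′)** : `p ∣ ord_s (red_{V₁} f_K)` at every supersingular place `s` of the finite chart of
the special fibre (for every `CharP`/`PerfectRing` instance and every proof `hA2`: all are
propositions). -/
def SSDvd (fK : FF (Lvl K) (M * p)) : Prop :=
  ∀ [CharP (IsLocalRing.ResidueField ↥(baseRing A K)) p]
    [PerfectRing (IsLocalRing.ResidueField ↥(baseRing A K)) p]
    (hA2 : ∀ x : ↥(gaussSubalgebra (Lvl K) M (baseRing A K)),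
      theta (Lvl K) M (baseRing A K) x ∈
        modularFunctionFieldFullC (IsLocalRing.ResidueField ↥(baseRing A K)) M)
    (hf₁ : (gaussVS (Lvl K) (M * p) (baseRing A K)).valuation fK = 1)
    (s : Place (IsLocalRing.ResidueField ↥(baseRing A K))
      (FF (IsLocalRing.ResidueField ↥(baseRing A K)) M)),
    jF (IsLocalRing.ResidueField ↥(baseRing A K)) M ∈ s.toValuationSubring →
    IsSSFin (Lvl K) M p (baseRing A K) (Fermat.Agent.P3G.GammaV2.lvlToComplex K) hpM hA2 S₂ s →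
    (p : ℤ) ∣ s.ord (redG (Lvl K) M p (baseRing A K) (Fermat.Agent.P3G.GammaV2.lvlToComplex K) hpM
      hA2 S₂ ⟨fK, mem_gauss_of_valuation_eq_one (Lvl K) M p (baseRing A K) hf₁⟩)

end Defs

/-- **The `Norm` of record**: `M4/Final.M4NormF` ((n1) `ζ_p ∈ O_K`, (n2) bi-unit, (n3) exact level
norms, (n4) rational zeros and poles) and (n6′) `SSDvd`. -/
def normT6 (M p : ℕ) [NeZero M] [Fact p.Prime] (hpM : ¬ p ∣ M) (A : ValuationSubring Qbar) :
    LevelPred M p A :=
  fun K _ _ S₂ _ fK => M4NormF M p A K S₂ fK ∧ SSDvd M p hpM A K S₂ fK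

/-! ### The named leaves -/

section Leaves

variable (M p : ℕ) [NeZero M] [NeZero p] [Fact p.Prime] (hpM : ¬ p ∣ M)
  (A : ValuationSubring Qbar)

/-- **(NRM), named leaf**: at a good level, a function with exact level norms is a `p`-th power
times a unit of both vertical valuations. -/
def NrmLeaf : Prop :=
  ∀ (K : IntermediateField ℚ Qbar) (_ : IsGoodLevel A p K)
    [IsDiscreteValuationRing ↥(baseRing A K)]
    (S₂ : Fermat.Agent.P3G.FibreTwo.SecondVal (Lvl K) M p (baseRing A K))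
    (f : FF (Lvl K) (M * p)), f ≠ 0 →
    (∃ a' : FF (Lvl K) M, normAlphaK K M p f = a' ^ p) →
    (∃ b' : FF (Lvl K) M, normBetaK K M p f = b' ^ p) →
    ∃ g : FF (Lvl K) (M * p), g ≠ 0 ∧
      (gaussVS (Lvl K) (M * p) (baseRing A K)).valuation (f / g ^ p) = 1 ∧
      S₂.V.valuation (f / g ^ p) = 1

/-- **(SS) = (R4) ∘ (AUX) ∘ (R5′), named leaf**: a representative `f₀` of `x ∈ V` over the small level
`L₀` with exact level norms over `L₀`: at every good level `K ⊇ L₀` above a number field `K₂`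
(depending on `f₀`), if the image of `f₀` is normalised (`M4NormF`) then it satisfies (n6′). -/
def SSLeaf (L₀ : IntermediateField ℚ Qbar) (V : Submodule (ZMod p) (Jtors (M * p) p)) : Prop :=
  ∀ x ∈ V, ∀ f₀ : FF (Lvl L₀) (M * p),
    IsRep p ((x : Jtors (M * p) p) : JZero (M * p)) (levK (M * p) L₀ f₀) →
    (∃ a' : FF (Lvl L₀) M, normAlphaK L₀ M p f₀ = a' ^ p) →
    (∃ b' : FF (Lvl L₀) M, normBetaK L₀ M p f₀ = b' ^ p) →
    ∃ K₂ : IntermediateField ℚ Qbar, FiniteDimensional ℚ K₂ ∧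
      ∀ (K : IntermediateField ℚ Qbar) (_ : IsGoodLevel A p K)
        [IsDiscreteValuationRing ↥(baseRing A K)]
        (S₂ : Fermat.Agent.P3G.FibreTwo.SecondVal (Lvl K) M p (baseRing A K))
        (hLK : L₀ ≤ K), K₂ ≤ K →
        IsRep p ((x : Jtors (M * p) p) : JZero (M * p))
          (levK (M * p) K (ffMap (lvlIncl hLK) (M * p) f₀)) →
        M4NormF M p A K S₂ (ffMap (lvlIncl hLK) (M * p) f₀) →
        SSDvd M p hpM A K S₂ (ffMap (lvlIncl hLK) (M * p) f₀)

end Leaves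

/-! ### Dividing a representative by a `p`-th power -/

section Div

variable {N : ℕ} [NeZero N]

/-- Dividing a representative by the `p`-th power of a function does not change the class. -/
theorem isRep_div_pow {p : ℕ} (K : IntermediateField ℚ Qbar) {x : JZero N} {f g : FF (Lvl K) N}
    (hrep : IsRep p x (levK N K f)) (hg : g ≠ 0) : IsRep p x (levK N K (f / g ^ p)) := by
  obtain ⟨D, hD, hf⟩ := hrep
  have hb : levK N K g ≠ 0 := (map_ne_zero_iff _ (levK N K).toRingHom.injective).mpr hg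
  haveI := hasPrincipalDivisors_bar N
  obtain ⟨E, hE, hE0⟩ := HasPrincipalDivisors.exists_divisor (K := Qb) (levK N K g) hb
  have hbE : IsDivOf (levK N K g) E := ⟨hb, hE⟩
  set E₀ : Divisor.degZero (K := Qb) (F := Fb N) := ⟨E, hE0⟩ with hE₀def
  have hE₀mk : (Pic0.mk E₀ : JZero N) = 0 := (mk_eq_zero_iff E₀).mpr ⟨levK N K g, hbE⟩
  refine ⟨D - E₀, ?_, ?_⟩
  · rw [sub_eq_add_neg, Pic0.mk_add, hD]
    have h1 : (Pic0.mk (-E₀) : JZero N) = 0 := by
      have h2 : (Pic0.mk (-E₀) : JZero N) + Pic0.mk E₀ = 0 := by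
        rw [← Pic0.mk_add, neg_add_cancel, Pic0.mk_zero]
      rw [hE₀mk, add_zero] at h2
      exact h2
    rw [h1, add_zero]
  · have h1 := hf.div (hbE.pow p)
    have h2 : (p • ((D - E₀ : Divisor.degZero (K := Qb) (F := Fb N)) : Divisor Qb (Fb N))) =
        p • (D : Divisor Qb (Fb N)) - p • E := by
      rw [AddSubgroup.coe_sub, smul_sub]
    rw [h2, map_div₀, map_pow]
    exact h1

end Div

section NormDiv

variable {K : IntermediateField ℚ Qbar} {M q : ℕ} [NeZero M] [NeZero q]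

/-- Exact level norms survive the division by a `p`-th power. -/
theorem exists_pow_normAlphaK_div_pow {e : ℕ} {f g : FF (Lvl K) (M * q)} (hg : g ≠ 0)
    (h : ∃ a' : FF (Lvl K) M, normAlphaK K M q f = a' ^ e) :
    ∃ a' : FF (Lvl K) M, normAlphaK K M q (f / g ^ e) = a' ^ e := by
  obtain ⟨a', ha'⟩ := h
  have hNg : normAlphaK K M q g ≠ 0 :=
    (IsUnit.map (normAlphaK K M q) (isUnit_iff_ne_zero.mpr hg)).ne_zero
  refine ⟨a' / normAlphaK K M q g, ?_⟩
  have h1 : normAlphaK K M q (f / g ^ e) * normAlphaK K M q g ^ e = a' ^ e := by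
    rw [← map_pow, ← map_mul, div_mul_cancel₀ _ (pow_ne_zero e hg), ha']
  rw [div_pow, eq_div_iff (pow_ne_zero e hNg)]
  exact h1

theorem exists_pow_normBetaK_div_pow {e : ℕ} {f g : FF (Lvl K) (M * q)} (hg : g ≠ 0)
    (h : ∃ b' : FF (Lvl K) M, normBetaK K M q f = b' ^ e) :
    ∃ b' : FF (Lvl K) M, normBetaK K M q (f / g ^ e) = b' ^ e := by
  obtain ⟨b', hb'⟩ := h
  have hNg : normBetaK K M q g ≠ 0 :=
    (IsUnit.map (normBetaK K M q) (isUnit_iff_ne_zero.mpr hg)).ne_zero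
  refine ⟨b' / normBetaK K M q g, ?_⟩
  have h1 : normBetaK K M q (f / g ^ e) * normBetaK K M q g ^ e = b' ^ e := by
    rw [← map_pow, ← map_mul, div_mul_cancel₀ _ (pow_ne_zero e hg), hb']
  rw [div_pow, eq_div_iff (pow_ne_zero e hNg)]
  exact h1

end NormDiv

/-! ### T6′ from the leaves -/

section T6

variable {M p : ℕ} [NeZero M] [NeZero p] [Fact p.Prime] {A : ValuationSubring Qbar}
  {W : WeierstrassCurve ℤ}

/-- ★ **T6′ from the named leaves (NRM) and (SS)**, for any `Norm` implied by `M4NormF ∧ SSDvd`. -/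
theorem t6Out_of_leaves (hpM : ¬ p ∣ M) (hA : A.LiesOverPrime p)
    (hΔ : W.Δ ≠ 0) (hp2 : p ≠ 2) (hirr : W.ModRepIsIrreducible p)
    {V : Submodule (ZMod p) (Jtors (M * p) p)}
    (hle : V ≤ Wtheta W p (M * p)) (hC : CopyOfE W p V)
    (hnew : ∀ x ∈ V, ((x : Jtors (M * p) p) : JZero (M * p)) ∈ newPart M p)
    (hNRM : NrmLeaf M p A)
    (hSS : SSLeaf M p hpM A (bigLevel A (smallField V)) V)
    {Norm : LevelPred M p A}
    (hNorm : ∀ (K : IntermediateField ℚ Qbar) (hK : IsGoodLevel A p K)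
      [IsDiscreteValuationRing ↥(baseRing A K)]
      (S₂ : Fermat.Agent.P3G.FibreTwo.SecondVal (Lvl K) M p (baseRing A K))
      (ϖ : ↥(baseRing A K)), Irreducible ϖ → ∀ fK : FF (Lvl K) (M * p),
      M4NormF M p A K S₂ fK → SSDvd M p hpM A K S₂ fK → Norm K hK S₂ ϖ fK) :
    T6Out Norm V := by
  classical
  intro x hx
  have hp : p.Prime := Fact.out
  have hst : IsGalStable V := hC.isGalStable
  -- the small good level
  have hL₀ : IsGoodLevel A p (bigLevel A (smallField V)) :=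
    isGoodLevel_bigLevel_smallField hp hA hst
  haveI := hL₀.dvr
  obtain ⟨S₀⟩ := Fermat.Agent.S33.L.PointsUniform.nonempty_secondVal_lvl M p hpM A hA
    (bigLevel A (smallField V)) hL₀
  -- (R-DESC)
  obtain ⟨fL, hrepL⟩ := Fermat.Agent.S40.M1.DescentSmall.exists_isRep_level_of_copyOfE hC
    (bigLevel A (smallField V))
    (smul_Tp_eq_of_mem_fixingSubgroup hC (le_bigLevel A (smallField V))) x hx
  -- (R3)
  obtain ⟨a, ha, hA', hB', hnA, hnB⟩ :=
    Fermat.Agent.S40.M1.ThetaInvIrr.exists_rescale_norms_pow_of_irr hΔ hp2 hirr hpM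
      (bigLevel A (smallField V)) x (hle hx) (hnew x hx) fL hrepL
  have hrep₁ := Fermat.Agent.S40.M1.ThetaInvIrr.isRep_const_mul (p := p)
    (bigLevel A (smallField V)) hrepL ha
  set f₁ : FF (Lvl (bigLevel A (smallField V))) (M * p) :=
    algebraMap (Lvl (bigLevel A (smallField V))) (FF (Lvl (bigLevel A (smallField V))) (M * p)) a *
      fL with hf₁def
  have hf₁0 : f₁ ≠ 0 := by
    intro h0
    obtain ⟨D, -, hD⟩ := hrep₁
    apply hD.1
    rw [h0, map_zero]
  -- (NRM)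
  obtain ⟨g, hg, hv₁, hv₂⟩ := hNRM (bigLevel A (smallField V)) hL₀ S₀ f₁ hf₁0 ⟨hA', hnA⟩ ⟨hB', hnB⟩
  have hrep₀ := isRep_div_pow (p := p) (bigLevel A (smallField V)) hrep₁ hg
  have hnα := exists_pow_normAlphaK_div_pow (e := p) hg ⟨hA', hnA⟩
  have hnβ := exists_pow_normBetaK_div_pow (e := p) hg ⟨hB', hnB⟩
  -- transport to every big good level
  obtain ⟨K₁, hK₁fin, -, hK₁⟩ := exists_level_isRep_m4NormF_bigLevel hpM hA (smallField V) hL₀ S₀
    ((x : Jtors (M * p) p) : JZero (M * p)) hrep₀ hv₁ hv₂ hnα hnβ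
  -- (SS)
  obtain ⟨K₂, hK₂fin, hK₂⟩ := hSS x hx (f₁ / g ^ p) hrep₀ hnα hnβ
  haveI := hK₁fin
  haveI := hK₂fin
  refine ⟨K₁ ⊔ K₂, IntermediateField.finiteDimensional_sup K₁ K₂, fun K hK _ S₂ ϖ hϖ hle' => ?_⟩
  obtain ⟨hLK, hrepK, hN⟩ := hK₁ K hK S₂ (le_sup_left.trans hle')
  exact ⟨ffMap (lvlIncl hLK) (M * p) (f₁ / g ^ p), hrepK,
    hNorm K hK S₂ ϖ hϖ _ hN (hK₂ K hK S₂ hLK (le_sup_right.trans hle') hrepK hN)⟩

/-- ★ **T6′ for the `Norm` of record.** -/
theorem t6Out_normT6 (hpM : ¬ p ∣ M) (hA : A.LiesOverPrime p)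
    (hΔ : W.Δ ≠ 0) (hp2 : p ≠ 2) (hirr : W.ModRepIsIrreducible p)
    {V : Submodule (ZMod p) (Jtors (M * p) p)}
    (hle : V ≤ Wtheta W p (M * p)) (hC : CopyOfE W p V)
    (hnew : ∀ x ∈ V, ((x : Jtors (M * p) p) : JZero (M * p)) ∈ newPart M p)
    (hNRM : NrmLeaf M p A)
    (hSS : SSLeaf M p hpM A (bigLevel A (smallField V)) V) :
    T6Out (normT6 M p hpM A) V :=
  t6Out_of_leaves hpM hA hΔ hp2 hirr hle hC hnew hNRM hSS
    (fun _ _ _ _ _ _ _ hN hS => ⟨hN, hS⟩)

end T6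

/-! ### Consumers of `normT6` -/

section Consumers

variable {M p : ℕ} [NeZero M] [NeZero p] [Fact p.Prime] {A : ValuationSubring Qbar}

theorem normT6_m4NormF {hpM : ¬ p ∣ M} {K : IntermediateField ℚ Qbar} {hK : IsGoodLevel A p K}
    [IsDiscreteValuationRing ↥(baseRing A K)]
    {S₂ : Fermat.Agent.P3G.FibreTwo.SecondVal (Lvl K) M p (baseRing A K)}
    {ϖ : ↥(baseRing A K)} {fK : FF (Lvl K) (M * p)}
    (h : normT6 M p hpM A K hK S₂ ϖ fK) : M4NormF M p A K S₂ fK := h.1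

theorem normT6_ssDvd {hpM : ¬ p ∣ M} {K : IntermediateField ℚ Qbar} {hK : IsGoodLevel A p K}
    [IsDiscreteValuationRing ↥(baseRing A K)]
    {S₂ : Fermat.Agent.P3G.FibreTwo.SecondVal (Lvl K) M p (baseRing A K)}
    {ϖ : ↥(baseRing A K)} {fK : FF (Lvl K) (M * p)}
    (h : normT6 M p hpM A K hK S₂ ϖ fK) : SSDvd M p hpM A K S₂ fK := h.2

/-- **The hypothesis `hss` of `F4Good.isLocPthPowerOn_acInfF_good`** (T5-ASM) from (n6′). -/
theorem mInf_eq_zero_of_ssDvd (hpM : ¬ p ∣ M) (K : IntermediateField ℚ Qbar)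
    [IsDiscreteValuationRing ↥(baseRing A K)]
    [CharP (IsLocalRing.ResidueField ↥(baseRing A K)) p]
    [PerfectRing (IsLocalRing.ResidueField ↥(baseRing A K)) p]
    (hA2 : ∀ x : ↥(gaussSubalgebra (Lvl K) M (baseRing A K)),
      theta (Lvl K) M (baseRing A K) x ∈
        modularFunctionFieldFullC (IsLocalRing.ResidueField ↥(baseRing A K)) M)
    (S₂ : Fermat.Agent.P3G.FibreTwo.SecondVal (Lvl K) M p (baseRing A K))
    {ϖ : ↥(baseRing A K)} (hϖ : Irreducible ϖ) {f : FF (Lvl K) (M * p)}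
    (hf₁ : (gaussVS (Lvl K) (M * p) (baseRing A K)).valuation f = 1)
    (h : SSDvd M p hpM A K S₂ f) :
    ∀ s : Place (IsLocalRing.ResidueField ↥(baseRing A K))
        (FF (IsLocalRing.ResidueField ↥(baseRing A K)) M),
      jF (IsLocalRing.ResidueField ↥(baseRing A K)) M ∈ s.toValuationSubring →
      IsSSFin (Lvl K) M p (baseRing A K) (Fermat.Agent.P3G.GammaV2.lvlToComplex K) hpM hA2 S₂ s →
      Lambda.mInf (Lvl K) M p (baseRing A K) (SecondValBridge.ofTwo S₂)
        (Fermat.Agent.P3G.GammaV2.lvlToComplex K) hpM hA2 hϖ s f = 0 := by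
  intro s hj hs
  rw [mInf_eq_zero_iff (Lvl K) M p (baseRing A K) (Fermat.Agent.P3G.GammaV2.lvlToComplex K) hpM hA2
    S₂ hϖ s f, acInfF_eq_redG (Lvl K) M p (baseRing A K) (Fermat.Agent.P3G.GammaV2.lvlToComplex K)
    hpM hA2 S₂ hϖ hf₁]
  exact h hA2 hf₁ s hj hs

/-- **`T4Out` for the `Norm` of record and `LamZ := (Λ_∞ = 0)`.** -/
theorem t4Out_normT6 (hpM : ¬ p ∣ M) (hA : A.LiesOverPrime p) :
    T4Out (normT6 M p hpM A) (lamInfZ M p A) :=
  t4Out_final_lam hpM hA (fun _ _ _ _ _ _ _ hN => hN.1)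
    (fun _ _ _ _ _ hϖ inst _ _ hL => hL hϖ inst)

end Consumers

end Fermat.Agent.S40.M1.Main
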