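/-
S40 (row 38), T6′ static route (`moonshots` row 67), leaf **(NRM)(a)** (helper12): **the valuation of
the norm along a level map.**

Abstract setting of `N4F/E/KummerPlace`, `S33/New/NormResidueKummer`: `A` a discrete valuation ring
with uniformiser `ϖ` and fraction field `F`, `L / F` finite separable of degree `l + 1`, `C` the
integral closure of `A` in `L` with its two places `π₁` (twisted, residue degree `l`) and `π₂`
(residue degree one), `V₁ V₂ ⊇ C` valuation rings of `L` with centres `ker π₁`, `ker π₂` and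
`V₁ ∩ V₂ ⊆ C`.

* `span_norm_eq_pow_of_span_eq` : a generator `t` of a nonzero prime `P` of `C` has
  `(N_{C/A} t) = 𝔪_A ^ f(P)`;
* `norm_eq_unit_mul_zpow` : **`v_A (N_{L/F} x) = l · v₁(x) + v₂(x)`**, in the form
  `N_{L/F} x = (unit of A) · ϖ ^ (l n₁ + n₂)` when `Vᵢ.valuation x = Vᵢ.valuation ϖ ^ nᵢ`.
-/
import Mathlib
import Fermat.Agent.N4F.A.RelNormOrd
import Fermat.Agent.S33.New.NormResidueKummer

set_option autoImplicit false
set_option linter.unusedSectionVars false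
set_option linter.style.haveILetI false
set_option linter.style.longLine false

namespace Fermat.Agent.S40.M1.NormVal

open Polynomial IsLocalRing Fermat.Agent.N4F.E

/-! ### The norm of a generator of a prime -/

section Generic

variable {A B : Type*} [CommRing A] [IsDomain A] [IsDiscreteValuationRing A]
  [CommRing B] [IsDedekindDomain B] [Algebra A B] [Module.Finite A B] [Module.Free A B]
  [Module.IsTorsionFree A B] [PerfectField (FractionRing A)]

/-- The norm of a generator of a nonzero prime `P` generates `𝔪_A ^ f(P)`. -/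
theorem span_norm_eq_pow_of_span_eq {P : Ideal B} [hP : P.IsPrime] (hP0 : P ≠ ⊥) {t : B}
    (ht : Ideal.span {t} = P) :
    Ideal.span {Algebra.norm A t} = maximalIdeal A ^ P.inertiaDeg A := by
  rw [← Algebra.intNorm_eq_norm, ← Ideal.relNorm_singleton, ht,
    Fermat.Agent.N4F.A.RelNormOrd.relNorm_prime P hP0]

end Generic

/-! ### The two-place setting -/

section Main

variable {A F L : Type*} [CommRing A] [IsDomain A] [IsDiscreteValuationRing A] [CharZero A]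
  [Field F] [Algebra A F] [IsFractionRing A F] [Field L] [Algebra F L] [Algebra A L]
  [FiniteDimensional F L] [Algebra.IsSeparable F L]
  {Ω : Type*} [Field Ω] {l : ℕ} [hl : Fact l.Prime] [CharP Ω l]
  (htower : IsScalarTower A F L)
  (hdeg : Module.finrank F L = l + 1)
  (θ : A →+* Ω) (hθ : ∀ a ∈ maximalIdeal A, θ a = 0) (φ : Ω →+* Ω)
  (π₁ : integralClosure A L →+* Ω)
  (hπ₁ : ∀ a : A, π₁ (algebraMap A (integralClosure A L) a) = φ (θ a))
  (x₀ : integralClosure A L) (t₀ : A) (hx₀ : π₁ x₀ ^ l = φ (θ t₀))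
  (ht₀ : ∀ a : A, θ a ^ l ≠ θ t₀)
  (π₂ : integralClosure A L →+* Ω)
  (hπ₂ : ∀ a : A, π₂ (algebraMap A (integralClosure A L) a) = θ a)
  (hne : RingHom.ker π₂ ≠ RingHom.ker π₁)
  {ϖ : A} (hϖ : Irreducible ϖ)

/-- `N (x ^ n) = (N x) ^ n` for integer exponents. -/
theorem norm_zpow (x : L) (n : ℤ) : Algebra.norm F (x ^ n) = Algebra.norm F x ^ n := by
  have hinv : ∀ y : L, Algebra.norm F y⁻¹ = (Algebra.norm F y)⁻¹ := by
    intro y
    by_cases hy : y = 0
    · rw [hy, inv_zero, Algebra.norm_zero, inv_zero]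
    · have h1 : Algebra.norm F y * Algebra.norm F y⁻¹ = 1 := by
        rw [← map_mul, mul_inv_cancel₀ hy, map_one]
      exact eq_inv_of_mul_eq_one_right h1
  cases n with
  | ofNat n => rw [Int.ofNat_eq_natCast, zpow_natCast, zpow_natCast, map_pow]
  | negSucc n => rw [zpow_negSucc, zpow_negSucc, hinv, map_pow]

include htower hdeg hθ hπ₁ hx₀ ht₀ hπ₂ hne hϖ in
/-- A generator `t₁` of `Q = ker π₁`: `N_{C/A} t₁ = (unit) · ϖ ^ l`, and `ϖ = t₁ · s` with `s ∉ Q`,
`t₁ ∉ P = ker π₂`. -/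
theorem exists_generator :
    ∃ t₁ s : integralClosure A L, π₁ t₁ = 0 ∧ π₂ t₁ ≠ 0 ∧ π₁ s ≠ 0 ∧
      algebraMap A (integralClosure A L) ϖ = t₁ * s ∧
      ∃ u : Aˣ, Algebra.norm A t₁ * (u : A) = ϖ ^ l := by
  classical
  haveI := htower
  obtain ⟨hded, hfin, hfree, hrank⟩ :=
    TwoPrimes.integralClosure_structure A F L (integralClosure A L)
  haveI := hded
  haveI := hfin
  haveI := hfree
  haveI : CharZero (FractionRing A) :=
    charZero_of_injective_algebraMap (IsFractionRing.injective A (FractionRing A))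
  have H := Fermat.Agent.S33.New.NormResidueKummer.hyp htower hdeg θ hθ φ π₁ hπ₁ x₀ t₀ hx₀ ht₀
    π₂ hπ₂ hne hϖ
  have h1 := TwoPrimes.isMaximal_liesOver_ker F L π₁
    (fun a ha => by rw [hπ₁, hθ a ha, map_zero])
  haveI := h1.1
  haveI := h1.2
  have h2 := TwoPrimes.isMaximal_liesOver_ker F L π₂ (fun a ha => by rw [hπ₂, hθ a ha])
  haveI := h2.1
  -- the residue degree of `Q`
  have hx : x₀ ^ l - algebraMap A (integralClosure A L) t₀ ∈ RingHom.ker π₁ := by
    rw [RingHom.mem_ker, map_sub, map_pow, hπ₁, hx₀, sub_self]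
  have ht : ∀ a : A, a ^ l - t₀ ∉ maximalIdeal A := by
    intro a ha
    have := hθ _ ha
    rw [map_sub, map_pow, sub_eq_zero] at this
    exact ht₀ a this
  obtain ⟨P₂, -, -, -, -, -, -, hfQ⟩ :=
    TwoPrimes.exists_second_prime_integralClosure (K := F) (L := L) hl.out hdeg
      (RingHom.ker π₁) x₀ t₀ hx ht
  have hfQ' : (RingHom.ker π₁).inertiaDeg A = l := by
    rw [Ideal.inertiaDeg_eq_of_isMaximal (maximalIdeal A) (RingHom.ker π₁), hfQ]
  -- `C` is a principal ideal domain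
  have hfinite : {I : Ideal (integralClosure A L) | I.IsPrime}.Finite := by
    refine Set.Finite.subset (Set.toFinite {⊥, RingHom.ker π₁, RingHom.ker π₂}) ?_
    intro I hI
    by_cases hI0 : I = ⊥
    · exact Or.inl hI0
    · have hImax : I.IsMaximal := Ideal.IsPrime.isMaximal hI hI0
      rcases (KummerPlace.isMaximal_iff hdeg θ hθ φ π₁ hπ₁ x₀ t₀ hx₀ ht₀ π₂ hπ₂ hne I).1 hImax
        with h | h
      · exact Or.inr (Or.inl h)
      · exact Or.inr (Or.inr h)
  haveI : IsPrincipalIdealRing (integralClosure A L) :=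
    IsPrincipalIdealRing.of_finite_primes hfinite
  obtain ⟨t₁, ht₁⟩ := (IsPrincipalIdealRing.principal (RingHom.ker π₁)).principal
  have ht₁' : Ideal.span {t₁} = RingHom.ker π₁ := ht₁.symm
  have ht₁Q : t₁ ∈ RingHom.ker π₁ := ht₁' ▸ Ideal.mem_span_singleton_self t₁
  have hQ0 : RingHom.ker π₁ ≠ ⊥ := by
    intro h0
    have h3 : algebraMap A (integralClosure A L) ϖ ∈ RingHom.ker π₁ := by
      rw [RingHom.mem_ker, hπ₁, hθ ϖ (hϖ.maximalIdeal_eq ▸ Ideal.mem_span_singleton_self ϖ),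
        map_zero]
    rw [h0, Ideal.mem_bot] at h3
    have hinj : Function.Injective (algebraMap A (integralClosure A L)) :=
      FaithfulSMul.algebraMap_injective A (integralClosure A L)
    exact hϖ.ne_zero (hinj (by rw [h3, map_zero]))
  -- the norm of `t₁`
  have hnorm := span_norm_eq_pow_of_span_eq (A := A) hQ0 ht₁'
  rw [hfQ', hϖ.maximalIdeal_eq, Ideal.span_singleton_pow,
    Ideal.span_singleton_eq_span_singleton] at hnorm
  obtain ⟨u, hu⟩ := hnorm
  -- `ϖ = t₁ s`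
  have hϖQ : algebraMap A (integralClosure A L) ϖ ∈ RingHom.ker π₁ :=
    (H.span_eq ▸ Ideal.mem_span_singleton_self _ :
      algebraMap A (integralClosure A L) ϖ ∈ RingHom.ker π₂ ⊓ RingHom.ker π₁).2
  rw [← ht₁', Ideal.mem_span_singleton'] at hϖQ
  obtain ⟨s, hs⟩ := hϖQ
  -- `t₁ ∉ P`
  have ht₁P : π₂ t₁ ≠ 0 := by
    intro h0
    have hle : RingHom.ker π₁ ≤ RingHom.ker π₂ := by
      rw [← ht₁', Ideal.span_singleton_le_iff_mem]
      exact h0
    exact hne (h1.1.eq_of_le h2.1.ne_top hle).symm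
  -- `s ∉ Q`
  have hsQ : π₁ s ≠ 0 := by
    intro h0
    obtain ⟨c₂, hc₂P, hc₂Q⟩ : ∃ c₂, c₂ ∈ RingHom.ker π₂ ∧ c₂ ∉ RingHom.ker π₁ := by
      by_contra hcon
      push Not at hcon
      exact hne (h2.1.eq_of_le h1.1.ne_top hcon)
    have h3 : t₁ * c₂ ∈ RingHom.ker π₂ ⊓ RingHom.ker π₁ :=
      ⟨Ideal.mul_mem_left _ _ hc₂P, Ideal.mul_mem_right _ _ ht₁Q⟩
    rw [← H.span_eq, Ideal.mem_span_singleton'] at h3
    obtain ⟨d, hd⟩ := h3
    have ht₁0 : t₁ ≠ 0 := by
      intro h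
      rw [h, map_zero] at ht₁P
      exact ht₁P rfl
    have h4 : c₂ = s * d := by
      apply mul_left_cancel₀ ht₁0
      rw [← hd, ← hs]
      ring
    apply hc₂Q
    rw [h4, RingHom.mem_ker, map_mul, h0, zero_mul]
  exact ⟨t₁, s, ht₁Q, ht₁P, hsQ, by rw [← hs]; ring, u, hu⟩

variable (V₁ V₂ : ValuationSubring L)
  (hC₁ : ∀ c : integralClosure A L, (c : L) ∈ V₁)
  (hC₂ : ∀ c : integralClosure A L, (c : L) ∈ V₂)
  (hker₁ : ∀ c : integralClosure A L, (c : L) ∈ V₁.nonunits → π₁ c = 0)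
  (hker₂ : ∀ c : integralClosure A L, (c : L) ∈ V₂.nonunits → π₂ c = 0)
  (hint : ∀ x : L, x ∈ V₁ → x ∈ V₂ → IsIntegral A x)

include htower hdeg hθ hπ₁ hx₀ ht₀ hπ₂ hne hϖ hC₁ hC₂ hker₁ hker₂ hint in
/-- **The valuation of the norm**: `V₁ ⊇ C` with centre `ker π₁` (residue degree `l`), `V₂ ⊇ C` with
centre `ker π₂` (residue degree one), `V₁ ∩ V₂ ⊆ C`.  If `Vᵢ.valuation x = Vᵢ.valuation ϖ ^ nᵢ` then
`N_{L/F} x = (unit of A) · ϖ ^ (l n₁ + n₂)`. -/
theorem norm_eq_unit_mul_zpow {x : L} (hx : x ≠ 0) {n₁ n₂ : ℤ}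
    (h₁ : V₁.valuation x = V₁.valuation (algebraMap A L ϖ) ^ n₁)
    (h₂ : V₂.valuation x = V₂.valuation (algebraMap A L ϖ) ^ n₂) :
    ∃ ε : Aˣ, Algebra.norm F x =
      algebraMap A F (ε : A) * algebraMap A F ϖ ^ ((l : ℤ) * n₁ + n₂) := by
  haveI := htower
  obtain ⟨-, hfin, hfree, hrank⟩ :=
    TwoPrimes.integralClosure_structure A F L (integralClosure A L)
  haveI := hfin
  haveI := hfree
  obtain ⟨t₁, s, ht₁Q, ht₁P, hsQ, hϖts, u, hu⟩ :=
    exists_generator htower hdeg θ hθ φ π₁ hπ₁ x₀ t₀ hx₀ ht₀ π₂ hπ₂ hne hϖ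
  have hinjF : Function.Injective (algebraMap A F) := IsFractionRing.injective A F
  have hw0 : algebraMap A F ϖ ≠ 0 := fun h => hϖ.ne_zero (hinjF (by rw [h, map_zero]))
  have hϖL : algebraMap A L ϖ = algebraMap F L (algebraMap A F ϖ) :=
    IsScalarTower.algebraMap_apply A F L ϖ
  have hϖL0 : algebraMap A L ϖ ≠ 0 := by
    rw [hϖL]
    exact (_root_.map_ne_zero _).2 hw0
  have hϖC : ((algebraMap A (integralClosure A L) ϖ : integralClosure A L) : L) =
      algebraMap A L ϖ := rfl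
  -- valuations of `t₁`
  have hv₂t : V₂.valuation (t₁ : L) = 1 :=
    le_antisymm ((V₂.valuation_le_one_iff _).2 (hC₂ t₁))
      (not_lt.1 fun h => ht₁P (hker₂ t₁ ((V₂.mem_nonunits_iff).2 h)))
  have hv₁s : V₁.valuation (s : L) = 1 :=
    le_antisymm ((V₁.valuation_le_one_iff _).2 (hC₁ s))
      (not_lt.1 fun h => hsQ (hker₁ s ((V₁.mem_nonunits_iff).2 h)))
  have hv₁t : V₁.valuation (t₁ : L) = V₁.valuation (algebraMap A L ϖ) := by
    have h3 := congrArg (fun c : integralClosure A L => V₁.valuation (c : L)) hϖts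
    simp only [MulMemClass.coe_mul, map_mul, hv₁s, mul_one] at h3
    rw [← h3, hϖC]
  have ht₁0 : (t₁ : L) ≠ 0 := by
    intro h
    rw [h, map_zero] at hv₂t
    exact zero_ne_one hv₂t
  have hv₁ϖ : V₁.valuation (algebraMap A L ϖ) ≠ 0 := (_root_.map_ne_zero _).2 hϖL0
  have hv₂ϖ : V₂.valuation (algebraMap A L ϖ) ≠ 0 := (_root_.map_ne_zero _).2 hϖL0
  -- the bi-unit part
  set y : L := x * (t₁ : L) ^ (-(n₁ - n₂)) * algebraMap A L ϖ ^ (-n₂) with hy
  have hy0 : y ≠ 0 :=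
    mul_ne_zero (mul_ne_zero hx (zpow_ne_zero _ ht₁0)) (zpow_ne_zero _ hϖL0)
  have hy₁ : V₁.valuation y = 1 := by
    rw [hy, map_mul, map_mul, map_zpow₀, map_zpow₀, h₁, hv₁t, ← zpow_add₀ hv₁ϖ,
      ← zpow_add₀ hv₁ϖ]
    have : n₁ + -(n₁ - n₂) + -n₂ = 0 := by ring
    rw [this, zpow_zero]
  have hy₂ : V₂.valuation y = 1 := by
    rw [hy, map_mul, map_mul, map_zpow₀, map_zpow₀, h₂, hv₂t, one_zpow, mul_one,
      ← zpow_add₀ hv₂ϖ, add_neg_cancel, zpow_zero]
  have hyC : IsIntegral A y :=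
    hint y ((V₁.valuation_le_one_iff _).1 hy₁.le) ((V₂.valuation_le_one_iff _).1 hy₂.le)
  have hyC' : IsIntegral A y⁻¹ :=
    hint y⁻¹ ((V₁.valuation_le_one_iff _).1 (by rw [map_inv₀, hy₁, inv_one]))
      ((V₂.valuation_le_one_iff _).1 (by rw [map_inv₀, hy₂, inv_one]))
  have hprod : (⟨y, hyC⟩ : integralClosure A L) * ⟨y⁻¹, hyC'⟩ = 1 := by
    apply Subtype.ext
    show y * y⁻¹ = 1
    exact mul_inv_cancel₀ hy0
  have hnormy : Algebra.norm A (⟨y, hyC⟩ : integralClosure A L) *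
      Algebra.norm A (⟨y⁻¹, hyC'⟩ : integralClosure A L) = 1 := by
    rw [← map_mul, hprod, map_one]
  have hεy : IsUnit (Algebra.norm A (⟨y, hyC⟩ : integralClosure A L)) :=
    IsUnit.of_mul_eq_one _ hnormy
  obtain ⟨εy, hεy'⟩ := hεy
  have hNy : Algebra.norm F y = algebraMap A F (εy : A) := by
    rw [hεy']
    exact (Fermat.Agent.S33.New.NormResidueKummer.algebraMap_norm_eq htower
      (⟨y, hyC⟩ : integralClosure A L)).symm
  have hNt : Algebra.norm F (t₁ : L) * algebraMap A F (u : A) = algebraMap A F ϖ ^ l := by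
    rw [← Fermat.Agent.S33.New.NormResidueKummer.algebraMap_norm_eq htower t₁, ← map_mul, hu,
      map_pow]
  have hau0 : algebraMap A F (u : A) ≠ 0 := fun h =>
    u.ne_zero (hinjF (by rw [h, map_zero]))
  have hNt' : Algebra.norm F (t₁ : L) = algebraMap A F ϖ ^ l * (algebraMap A F (u : A))⁻¹ := by
    rw [← hNt]
    field_simp
  have hNϖ : Algebra.norm F (algebraMap A L ϖ) = algebraMap A F ϖ ^ (l + 1) := by
    rw [hϖL, Algebra.norm_algebraMap, hdeg]
  -- assemble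
  have hxy : x = y * (t₁ : L) ^ (n₁ - n₂) * algebraMap A L ϖ ^ n₂ := by
    rw [hy, zpow_neg, zpow_neg]
    field_simp
  refine ⟨εy * u ^ (-(n₁ - n₂)), ?_⟩
  have hcoe : algebraMap A F ((εy * u ^ (-(n₁ - n₂)) : Aˣ) : A) =
      algebraMap A F (εy : A) * (algebraMap A F (u : A)) ^ (-(n₁ - n₂)) := by
    rw [Units.val_mul, map_mul]
    congr 1
    have h5 : algebraMap A F ((u ^ (-(n₁ - n₂)) : Aˣ) : A) =
        ((Units.map (algebraMap A F : A →* F) u ^ (-(n₁ - n₂)) : Fˣ) : F) := by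
      rw [← map_zpow, Units.coe_map]
      rfl
    rw [h5, Units.val_zpow_eq_zpow_val, Units.coe_map]
    rfl
  rw [hcoe]
  conv_lhs => rw [hxy]
  rw [map_mul, map_mul, norm_zpow, norm_zpow, hNy, hNt', hNϖ, mul_zpow, ← zpow_natCast,
    ← zpow_natCast, ← zpow_mul, ← zpow_mul, inv_zpow', zpow_neg]
  have h6 : (algebraMap A F ϖ) ^ ((l : ℤ) * n₁ + n₂) =
      (algebraMap A F ϖ) ^ ((l : ℤ) * (n₁ - n₂)) * (algebraMap A F ϖ) ^ (((l + 1 : ℕ) : ℤ) * n₂) := by
    rw [← zpow_add₀ hw0]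
    congr 1
    push_cast
    ring
  rw [h6]
  field_simp

end Main

end Fermat.Agent.S40.M1.NormVal
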