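/-
S40 / row 67 (NRM), level forms (helper12): **the Gauss valuation of the two level norms of an
element of `FF K (N ℓ)` with prescribed valuations at the two vertical valuations**.

`V₁ = gaussVS K (N ℓ) O` (Gauss valuation of level `N ℓ`), `V₂ = S.V` (second valuation), `ϖ` a
uniformiser of `O`.  If `V₁ x = V₁ ϖ ^ n₁` and `V₂ x = V₂ ϖ ^ n₂` then

  `N_α x = ε · ϖ ^ (n₁ + ℓ n₂)`,   `N_β x = ε' · ϖ ^ (ℓ n₁ + n₂)`,   `ε, ε'` units of `G_N`,

where `G_N = gaussSubalgebra K N O` is the Gauss DVR of level `N`.  (Along `α` the valuation `V₁`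
has residue degree one and `V₂` is purely inseparable of degree `ℓ`; along `β` the roles are
swapped.)  Both are instances of `NormVal.norm_eq_unit_mul_zpow`.
-/
import Mathlib
import Fermat.Agent.S40.M1.NormVal
import Fermat.Agent.S33.New.NormResidueAlpha
import Fermat.Agent.S33.New.NormResidueBeta
import Fermat.Agent.P4.FrobLevelStep
import Fermat.Agent.P3G.SecondValBridge
import Fermat.Agent.P3G.GammaV2
import Fermat.Agent.N4F.E.GaussResidue

set_option autoImplicit false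
set_option linter.unusedSectionVars false
set_option linter.style.haveILetI false
set_option linter.style.longLine false

open ModularCurve AlgebraicCurve Polynomial
open Fermat.Agent.S28.Gauss Fermat.Agent.N4.Setting Fermat.Agent.N4.FibreEmbedding
open Fermat.Agent.N4F.E.DegreeLevelRaise Fermat.Agent.N4F.E.GaussDVR
open Fermat.Agent.N4F.E Fermat.Agent.P3G.SecondValuation

noncomputable section

namespace Fermat.Agent.S40.M1.NormValLevel

/-! ### The `α`-side -/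

section Alpha

open Fermat.Agent.N4F.E.AlphaSide Fermat.Agent.N4F.E.KummerNorm Fermat.Agent.P4.NormResidue

variable (K : Type) [Field K] [CharZero K] (N : ℕ) [NeZero N] (ℓ : ℕ) [Fact ℓ.Prime]
  (O : Subring K) [IsDiscreteValuationRing ↥O] [IsFractionRing ↥O K]

set_option quotPrecheck false in
local notation "κ" => IsLocalRing.ResidueField ↥O

attribute [local instance] algFL algGL isScalarTower_GFL

set_option synthInstance.maxHeartbeats 400000

variable (S : SecondVal K N ℓ O) [CharP (IsLocalRing.ResidueField ↥O) ℓ]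
  (ι : K →+* ℂ) (hℓN : ¬ ℓ ∣ N)

set_option maxHeartbeats 1600000 in
include S ι hℓN in
/-- **The norm along `α` of an element with prescribed vertical valuations**, unit form. -/
theorem norm_alpha_eq_unit_mul {ϖ : ↥O} (hϖ : Irreducible ϖ) {x : FF K (N * ℓ)} (hx : x ≠ 0)
    {n₁ n₂ : ℤ}
    (h₁ : (gaussVS K (N * ℓ) O).valuation x =
      (gaussVS K (N * ℓ) O).valuation (algebraMap K (FF K (N * ℓ)) (ϖ : K)) ^ n₁)
    (h₂ : S.V.valuation x = S.V.valuation (algebraMap K (FF K (N * ℓ)) (ϖ : K)) ^ n₂) :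
    ∃ ε : (↥(gaussSubalgebra K N O))ˣ, Algebra.norm (FF K N) x =
      ((ε : ↥(gaussSubalgebra K N O)) : FF K N) *
        algebraMap K (FF K N) (ϖ : K) ^ (n₁ + (ℓ : ℤ) * n₂) := by
  haveI : FiniteDimensional (FF K N) (FF K (N * ℓ)) := finiteDimensional_alpha K N ℓ ι hℓN
  haveI := charP_laurent K ℓ O
  have hB := betaOut K N ℓ O S
  have key := NormVal.norm_eq_unit_mul_zpow (A := ↥(gaussSubalgebra K N O)) (F := FF K N)
    (L := FF K (N * ℓ)) (IsScalarTower.of_algebraMap_eq fun _ => rfl) (finrank_alpha K N ℓ ι hℓN)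
    (theta K N O) (theta_mem_maximalIdeal K N O) (qExpand κ ℓ) (pi1 K N ℓ O hB)
    (pi1_algebraMap K N ℓ O hB) (x0 K N ℓ O) (t0 K N O) (hx0 K N ℓ O hB) (ht0 K N ℓ O)
    (pi2 K N ℓ O) (pi2_algebraMap K N ℓ O) (ker_ne K N ℓ O hB)
    (irreducible_unif K N O hϖ) S.V (gaussVS K (N * ℓ) O)
    (mem_secondVal_of_mem_closure K N ℓ O S)
    (fun c => mem_gauss_of_mem_integralClosure K N ℓ O c.2)
    (fun c hc => by
      rw [pi1_eq, S.ev_eq_zero_iff]
      exact hc)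
    (fun c hc => by
      rw [pi2_apply]
      exact (mem_nonunits_gaussVS_iff K (N * ℓ) O
        (mem_gauss_of_mem_integralClosure K N ℓ O c.2)).1 hc)
    (fun x hx₁ hx₂ => mem_closure_alpha K N ℓ O S ι hℓN hx₂ hx₁)
    hx (n₁ := n₂) (n₂ := n₁)
    (by rw [Fermat.Agent.S33.New.NormResidueAlpha.algebraMap_unif]; exact h₂)
    (by rw [Fermat.Agent.S33.New.NormResidueAlpha.algebraMap_unif]; exact h₁)
  obtain ⟨ε, hε⟩ := key
  refine ⟨ε, ?_⟩
  rw [hε, add_comm]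
  rfl

end Alpha

/-! ### The `β`-side -/

section Beta

open Fermat.Agent.N4F.E.BetaSide Fermat.Agent.N4F.E.KummerNorm Fermat.Agent.P4.NormResidue

variable (K : Type) [Field K] [CharZero K] (N : ℕ) [NeZero N] (ℓ : ℕ) [hℓ : Fact ℓ.Prime]
  (O : Subring K) [IsDiscreteValuationRing ↥O] [IsFractionRing ↥O K]

set_option quotPrecheck false in
local notation "κ" => IsLocalRing.ResidueField ↥O

attribute [local instance] BetaSide.algBeta BetaSide.algGL BetaSide.algGC BetaSide.commRingCβ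

set_option synthInstance.maxHeartbeats 400000

variable (S : SecondVal K N ℓ O) [CharP (IsLocalRing.ResidueField ↥O) ℓ]
  (ι : K →+* ℂ) (hℓN : ¬ ℓ ∣ N)

set_option maxHeartbeats 1600000 in
include S ι hℓN in
/-- **The norm along `β` of an element with prescribed vertical valuations**, unit form. -/
theorem norm_beta_eq_unit_mul {ϖ : ↥O} (hϖ : Irreducible ϖ) {x : FF K (N * ℓ)} (hx : x ≠ 0)
    {n₁ n₂ : ℤ}
    (h₁ : (gaussVS K (N * ℓ) O).valuation x =
      (gaussVS K (N * ℓ) O).valuation (algebraMap K (FF K (N * ℓ)) (ϖ : K)) ^ n₁)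
    (h₂ : S.V.valuation x = S.V.valuation (algebraMap K (FF K (N * ℓ)) (ϖ : K)) ^ n₂) :
    ∃ ε : (↥(gaussSubalgebra K N O))ˣ, Algebra.norm (FF K N) x =
      ((ε : ↥(gaussSubalgebra K N O)) : FF K N) *
        algebraMap K (FF K N) (ϖ : K) ^ ((ℓ : ℤ) * n₁ + n₂) := by
  haveI := finiteDimensional_beta K N ℓ ι hℓN
  haveI : Algebra.IsSeparable (FF K N) (FF K (N * ℓ)) := inferInstance
  haveI : CharP (LaurentSeries κ) ℓ := charP_laurent K ℓ O
  have key := NormVal.norm_eq_unit_mul_zpow (A := ↥(gaussSubalgebra K N O)) (F := FF K N)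
    (L := FF K (N * ℓ)) inferInstance (finrank_beta K N ℓ ι hℓN) (theta K N O)
    (theta_maximalIdeal K N O) (qExpand κ ℓ) (pi₁ K N ℓ O) (pi₁_algebraMap K N ℓ O)
    (x₀ K N ℓ O) (t₀ K N O) (pi₁_x₀_pow K N ℓ O) (theta_pow_ne K N ℓ O)
    (evβ K N ℓ O S) (evβ_algebraMap K N ℓ O S) (ker_evβ_ne K N ℓ O S)
    (irreducible_unif K N O hϖ) (gaussVS K (N * ℓ) O) S.V
    (Cβ_le_gauss K N ℓ O)
    (mem_secondVal_of_mem_Cβ K N ℓ O S)
    (fun c hc => by
      rw [pi₁_apply]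
      exact (mem_nonunits_gaussVS_iff K (N * ℓ) O (Cβ_le_gauss K N ℓ O c)).1 hc)
    (fun c hc => by
      rw [evβ_apply, S.ev_eq_zero_iff]
      exact hc)
    (fun x hx₁ hx₂ => mem_Cβ K N ℓ O S hx₁ hx₂)
    hx (n₁ := n₁) (n₂ := n₂)
    (by rw [Fermat.Agent.S33.New.NormResidueBeta.algebraMap_unif]; exact h₁)
    (by rw [Fermat.Agent.S33.New.NormResidueBeta.algebraMap_unif]; exact h₂)
  obtain ⟨ε, hε⟩ := key
  refine ⟨ε, ?_⟩
  rw [hε]
  rfl

end Beta

/-! ### `normAlong` and valuation forms -/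

section Forms

open Fermat.Agent.P4.FrobStep

variable (K : Type) [Field K] [CharZero K] (N : ℕ) [NeZero N] (ℓ : ℕ) [hℓ : Fact ℓ.Prime]
  (O : Subring K) [IsDiscreteValuationRing ↥O] [IsFractionRing ↥O K]
  (S : SecondVal K N ℓ O) [CharP (IsLocalRing.ResidueField ↥O) ℓ]
  (ι : K →+* ℂ) (hℓN : ¬ ℓ ∣ N)

/-- A unit of the Gauss DVR has Gauss valuation one. -/
theorem valuation_gaussVS_unit (M : ℕ) [NeZero M] (ε : (↥(gaussSubalgebra K M O))ˣ) :
    (gaussVS K M O).valuation ((ε : ↥(gaussSubalgebra K M O)) : FF K M) = 1 := by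
  have h1 : ((ε : ↥(gaussSubalgebra K M O)) : FF K M) ∈ gaussVS K M O :=
    (ε : ↥(gaussSubalgebra K M O)).2
  have h2 : (((ε⁻¹ : (↥(gaussSubalgebra K M O))ˣ) : ↥(gaussSubalgebra K M O)) : FF K M) ∈
      gaussVS K M O := ((ε⁻¹ : (↥(gaussSubalgebra K M O))ˣ) : ↥(gaussSubalgebra K M O)).2
  have h3 : ((ε : ↥(gaussSubalgebra K M O)) : FF K M) *
      (((ε⁻¹ : (↥(gaussSubalgebra K M O))ˣ) : ↥(gaussSubalgebra K M O)) : FF K M) = 1 := by
    have := congrArg (Subtype.val) (ε.mul_inv)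
    exact this
  have hu : IsUnit (⟨((ε : ↥(gaussSubalgebra K M O)) : FF K M), h1⟩ : ↥(gaussVS K M O)) :=
    isUnit_iff_exists_inv.mpr ⟨⟨_, h2⟩, Subtype.ext h3⟩
  exact ((gaussVS K M O).valuation_eq_one_iff _).mp hu

include S ι hℓN in
/-- **`N_α`**: `normAlong (alphaF K N ℓ) x = ε · ϖ ^ (n₁ + ℓ n₂)`. -/
theorem normAlong_alpha_eq_unit_mul {ϖ : ↥O} (hϖ : Irreducible ϖ) {x : FF K (N * ℓ)}
    (hx : x ≠ 0) {n₁ n₂ : ℤ}
    (h₁ : (gaussVS K (N * ℓ) O).valuation x =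
      (gaussVS K (N * ℓ) O).valuation (algebraMap K (FF K (N * ℓ)) (ϖ : K)) ^ n₁)
    (h₂ : S.V.valuation x = S.V.valuation (algebraMap K (FF K (N * ℓ)) (ϖ : K)) ^ n₂) :
    ∃ ε : (↥(gaussSubalgebra K N O))ˣ, normAlong (alphaF K N ℓ) x =
      ((ε : ↥(gaussSubalgebra K N O)) : FF K N) *
        algebraMap K (FF K N) (ϖ : K) ^ (n₁ + (ℓ : ℤ) * n₂) :=
  norm_alpha_eq_unit_mul K N ℓ O S ι hℓN hϖ hx h₁ h₂

include S ι hℓN in
/-- **`N_β`**: `normAlong (betaF K N ℓ) x = ε · ϖ ^ (ℓ n₁ + n₂)`. -/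
theorem normAlong_beta_eq_unit_mul {ϖ : ↥O} (hϖ : Irreducible ϖ) {x : FF K (N * ℓ)}
    (hx : x ≠ 0) {n₁ n₂ : ℤ}
    (h₁ : (gaussVS K (N * ℓ) O).valuation x =
      (gaussVS K (N * ℓ) O).valuation (algebraMap K (FF K (N * ℓ)) (ϖ : K)) ^ n₁)
    (h₂ : S.V.valuation x = S.V.valuation (algebraMap K (FF K (N * ℓ)) (ϖ : K)) ^ n₂) :
    ∃ ε : (↥(gaussSubalgebra K N O))ˣ, normAlong (betaF K N ℓ) x =
      ((ε : ↥(gaussSubalgebra K N O)) : FF K N) *
        algebraMap K (FF K N) (ϖ : K) ^ ((ℓ : ℤ) * n₁ + n₂) :=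
  norm_beta_eq_unit_mul K N ℓ O S ι hℓN hϖ hx h₁ h₂

include S ι hℓN in
/-- **`N_α`, valuation form.** -/
theorem valuation_normAlong_alpha {ϖ : ↥O} (hϖ : Irreducible ϖ) {x : FF K (N * ℓ)}
    (hx : x ≠ 0) {n₁ n₂ : ℤ}
    (h₁ : (gaussVS K (N * ℓ) O).valuation x =
      (gaussVS K (N * ℓ) O).valuation (algebraMap K (FF K (N * ℓ)) (ϖ : K)) ^ n₁)
    (h₂ : S.V.valuation x = S.V.valuation (algebraMap K (FF K (N * ℓ)) (ϖ : K)) ^ n₂) :
    (gaussVS K N O).valuation (normAlong (alphaF K N ℓ) x) =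
      (gaussVS K N O).valuation (algebraMap K (FF K N) (ϖ : K)) ^ (n₁ + (ℓ : ℤ) * n₂) := by
  obtain ⟨ε, hε⟩ := normAlong_alpha_eq_unit_mul K N ℓ O S ι hℓN hϖ hx h₁ h₂
  rw [hε, map_mul, valuation_gaussVS_unit, one_mul, map_zpow₀]

include S ι hℓN in
/-- **`N_β`, valuation form.** -/
theorem valuation_normAlong_beta {ϖ : ↥O} (hϖ : Irreducible ϖ) {x : FF K (N * ℓ)}
    (hx : x ≠ 0) {n₁ n₂ : ℤ}
    (h₁ : (gaussVS K (N * ℓ) O).valuation x =
      (gaussVS K (N * ℓ) O).valuation (algebraMap K (FF K (N * ℓ)) (ϖ : K)) ^ n₁)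
    (h₂ : S.V.valuation x = S.V.valuation (algebraMap K (FF K (N * ℓ)) (ϖ : K)) ^ n₂) :
    (gaussVS K N O).valuation (normAlong (betaF K N ℓ) x) =
      (gaussVS K N O).valuation (algebraMap K (FF K N) (ϖ : K)) ^ ((ℓ : ℤ) * n₁ + n₂) := by
  obtain ⟨ε, hε⟩ := normAlong_beta_eq_unit_mul K N ℓ O S ι hℓN hϖ hx h₁ h₂
  rw [hε, map_mul, valuation_gaussVS_unit, one_mul, map_zpow₀]

end Forms

/-! ### Good levels -/

section Good

open IntermediateField
open Fermat.Agent.N4.Chart Fermat.Agent.N4.BigDVR Fermat.Agent.P3G.Assembly.LevelStep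
  Fermat.Agent.N4F.C Fermat.Agent.N4F.C.Levels Fermat.Agent.N4F.C.Galois
  Fermat.Agent.P4.FrobLevelStep

local notation "Qbar" => AlgebraicClosure ℚ

variable (M q : ℕ) [NeZero M] [Fact q.Prime] (hqM : ¬ q ∣ M)
  (A : ValuationSubring Qbar) (K : IntermediateField ℚ Qbar) (hK : IsGoodLevel A q K)
  [IsDiscreteValuationRing ↥(baseRing A K)] [IsFractionRing ↥(baseRing A K) (Lvl K)]
  (S₂ : Fermat.Agent.P3G.FibreTwo.SecondVal (Lvl K) M q (baseRing A K))

include hqM hK in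
/-- the residue characteristic of a good level -/
theorem charP_goodLevel : CharP (IsLocalRing.ResidueField ↥(baseRing A K)) q := by
  have hq : q.Prime := Fact.out
  haveI : IsAlgClosed (IsLocalRing.ResidueField ↥(baseRing A K)) := hK.algClosed
  have hGB : GoodBase (Lvl K) M (baseRing A K) q := ⟨hq, hqM, inferInstance, hK.not_unit⟩
  exact Fermat.Agent.N4F.E.GaussResidue.charP_residueField (Lvl K) M (baseRing A K) hGB

set_option synthInstance.maxHeartbeats 400000 in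
include hqM hK in
/-- **`N_α` at a good level**: `normAlphaK x = ε · ϖ ^ (n₁ + q n₂)`, `ε` a unit of the Gauss DVR of
level `M`. -/
theorem normAlphaK_eq_unit_mul {ϖ : ↥(baseRing A K)} (hϖ : Irreducible ϖ)
    {x : FF (Lvl K) (M * q)} (hx : x ≠ 0) {n₁ n₂ : ℤ}
    (h₁ : (gaussVS (Lvl K) (M * q) (baseRing A K)).valuation x =
      (gaussVS (Lvl K) (M * q) (baseRing A K)).valuation
        (algebraMap (Lvl K) (FF (Lvl K) (M * q)) (ϖ : Lvl K)) ^ n₁)
    (h₂ : S₂.V.valuation x =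
      S₂.V.valuation (algebraMap (Lvl K) (FF (Lvl K) (M * q)) (ϖ : Lvl K)) ^ n₂) :
    ∃ ε : (↥(gaussSubalgebra (Lvl K) M (baseRing A K)))ˣ, normAlphaK K M q x =
      ((ε : ↥(gaussSubalgebra (Lvl K) M (baseRing A K))) : FF (Lvl K) M) *
        algebraMap (Lvl K) (FF (Lvl K) M) (ϖ : Lvl K) ^ (n₁ + (q : ℤ) * n₂) := by
  haveI := charP_goodLevel M q hqM A K hK
  exact normAlong_alpha_eq_unit_mul (Lvl K) M q (baseRing A K)
    (Fermat.Agent.P3G.SecondValBridge.ofTwo S₂) (Fermat.Agent.P3G.GammaV2.lvlToComplex K) hqM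
    hϖ hx h₁ h₂

set_option synthInstance.maxHeartbeats 400000 in
include hqM hK in
/-- **`N_β` at a good level**: `normBetaK x = ε · ϖ ^ (q n₁ + n₂)`. -/
theorem normBetaK_eq_unit_mul {ϖ : ↥(baseRing A K)} (hϖ : Irreducible ϖ)
    {x : FF (Lvl K) (M * q)} (hx : x ≠ 0) {n₁ n₂ : ℤ}
    (h₁ : (gaussVS (Lvl K) (M * q) (baseRing A K)).valuation x =
      (gaussVS (Lvl K) (M * q) (baseRing A K)).valuation
        (algebraMap (Lvl K) (FF (Lvl K) (M * q)) (ϖ : Lvl K)) ^ n₁)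
    (h₂ : S₂.V.valuation x =
      S₂.V.valuation (algebraMap (Lvl K) (FF (Lvl K) (M * q)) (ϖ : Lvl K)) ^ n₂) :
    ∃ ε : (↥(gaussSubalgebra (Lvl K) M (baseRing A K)))ˣ, normBetaK K M q x =
      ((ε : ↥(gaussSubalgebra (Lvl K) M (baseRing A K))) : FF (Lvl K) M) *
        algebraMap (Lvl K) (FF (Lvl K) M) (ϖ : Lvl K) ^ ((q : ℤ) * n₁ + n₂) := by
  haveI := charP_goodLevel M q hqM A K hK
  exact normAlong_beta_eq_unit_mul (Lvl K) M q (baseRing A K)
    (Fermat.Agent.P3G.SecondValBridge.ofTwo S₂) (Fermat.Agent.P3G.GammaV2.lvlToComplex K) hqM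
    hϖ hx h₁ h₂

set_option synthInstance.maxHeartbeats 400000 in
include hqM hK in
/-- **`N_α` at a good level, valuation form.** -/
theorem valuation_normAlphaK {ϖ : ↥(baseRing A K)} (hϖ : Irreducible ϖ)
    {x : FF (Lvl K) (M * q)} (hx : x ≠ 0) {n₁ n₂ : ℤ}
    (h₁ : (gaussVS (Lvl K) (M * q) (baseRing A K)).valuation x =
      (gaussVS (Lvl K) (M * q) (baseRing A K)).valuation
        (algebraMap (Lvl K) (FF (Lvl K) (M * q)) (ϖ : Lvl K)) ^ n₁)
    (h₂ : S₂.V.valuation x =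
      S₂.V.valuation (algebraMap (Lvl K) (FF (Lvl K) (M * q)) (ϖ : Lvl K)) ^ n₂) :
    (gaussVS (Lvl K) M (baseRing A K)).valuation (normAlphaK K M q x) =
      (gaussVS (Lvl K) M (baseRing A K)).valuation
        (algebraMap (Lvl K) (FF (Lvl K) M) (ϖ : Lvl K)) ^ (n₁ + (q : ℤ) * n₂) := by
  haveI := charP_goodLevel M q hqM A K hK
  exact valuation_normAlong_alpha (Lvl K) M q (baseRing A K)
    (Fermat.Agent.P3G.SecondValBridge.ofTwo S₂) (Fermat.Agent.P3G.GammaV2.lvlToComplex K) hqM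
    hϖ hx h₁ h₂

set_option synthInstance.maxHeartbeats 400000 in
include hqM hK in
/-- **`N_β` at a good level, valuation form.** -/
theorem valuation_normBetaK {ϖ : ↥(baseRing A K)} (hϖ : Irreducible ϖ)
    {x : FF (Lvl K) (M * q)} (hx : x ≠ 0) {n₁ n₂ : ℤ}
    (h₁ : (gaussVS (Lvl K) (M * q) (baseRing A K)).valuation x =
      (gaussVS (Lvl K) (M * q) (baseRing A K)).valuation
        (algebraMap (Lvl K) (FF (Lvl K) (M * q)) (ϖ : Lvl K)) ^ n₁)
    (h₂ : S₂.V.valuation x =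
      S₂.V.valuation (algebraMap (Lvl K) (FF (Lvl K) (M * q)) (ϖ : Lvl K)) ^ n₂) :
    (gaussVS (Lvl K) M (baseRing A K)).valuation (normBetaK K M q x) =
      (gaussVS (Lvl K) M (baseRing A K)).valuation
        (algebraMap (Lvl K) (FF (Lvl K) M) (ϖ : Lvl K)) ^ ((q : ℤ) * n₁ + n₂) := by
  haveI := charP_goodLevel M q hqM A K hK
  exact valuation_normAlong_beta (Lvl K) M q (baseRing A K)
    (Fermat.Agent.P3G.SecondValBridge.ofTwo S₂) (Fermat.Agent.P3G.GammaV2.lvlToComplex K) hqM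
    hϖ hx h₁ h₂

end Good

end Fermat.Agent.S40.M1.NormValLevel
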