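/-
S40 / row 67, leaf (NRM) (helper12): **bi-unit normalisation of a representative with exact level
norms.**

`f ∈ FF K (N ℓ)`, `V₁ = gaussVS K (N ℓ) O`, `V₂ = S.V`, orders `v₁ = ordInf`, `v₂ = ordZero`
(helper3, `S40/W/Lambda`).  By `M1/NormValLevel`:

  `ord (N_α f) = v₁ f + ℓ v₂ f`,      `ord (N_β f) = ℓ v₁ f + v₂ f`      (Gauss order of level `N`).

Hence if both level norms of `f` are `ℓ`-th powers then `ℓ ∣ v₁ f` and `ℓ ∣ v₂ f`, and with
`t` of orders `(0, 1)` (`S40/W/LambdaNorm.exists_ord_zero_one`) there is `h ≠ 0` such that `f h^ℓ`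
is a unit of `V₁` and of `V₂`; its level norms are still exact `ℓ`-th powers and it represents the
same torsion class.  At a good level this is the input `(hrep, hv₁, hv₂, hnα, hnβ)` of
`M1/LevelUp.exists_level_isRep_m4NormF` (helper23).
-/
import Mathlib
import Fermat.Agent.S40.M1.NormValLevel
import Fermat.Agent.S40.W.LambdaNorm
import Fermat.Agent.S36.V.CountAlong
import Fermat.Agent.S40.New.Pack
import Fermat.Agent.N4F.A.LevelMaps

set_option autoImplicit false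
set_option linter.unusedSectionVars false
set_option linter.unusedVariables false
set_option linter.style.haveILetI false
set_option linter.style.longLine false

open ModularCurve AlgebraicCurve
open Fermat.Agent.S28.Gauss Fermat.Agent.N4.Setting Fermat.Agent.N4.FibreEmbedding
open Fermat.Agent.N4F.E.DegreeLevelRaise Fermat.Agent.N4F.E.GaussDVR
open Fermat.Agent.N4F.E Fermat.Agent.P3G.SecondValuation
open Fermat.Agent.S40.W.Lambda Fermat.Agent.S40.W.LambdaNorm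
open Fermat.Agent.P4.FrobStep

noncomputable section

namespace Fermat.Agent.S40.M1.Normalise

open Fermat.Agent.S40.M1.NormValLevel

/-! ### Valuations from orders -/

section AnyLevel

variable (K : Type) [Field K] (M : ℕ) (O : Subring K) [IsDiscreteValuationRing ↥O]
  [IsFractionRing ↥O K] {ϖ : ↥O} (hϖ : Irreducible ϖ)

/-- `V₁ f = V₁ ϖ ^ ordG f`. -/
theorem valuation_gaussVS_eq_zpow {f : FF K M} (hf : f ≠ 0) :
    (gaussVS K M O).valuation f =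
      (gaussVS K M O).valuation (algebraMap K (FF K M) (ϖ : K)) ^ ordG K M O hϖ f := by
  obtain ⟨u, hu, hθ, hfu, -⟩ := exists_normal_form K M O hϖ hf
  have hu0 : u ≠ 0 := by
    rintro rfl
    apply hθ
    have : (⟨0, hu⟩ : ↥(gaussSubalgebra K M O)) = 0 := rfl
    rw [this, map_zero]
  have h1 : (gaussVS K M O).valuation u = 1 :=
    (valuation_gaussVS_eq_one_iff K M O hϖ hu0).mpr (ordG_of_theta_ne_zero K M O hϖ hu hθ)
  conv_lhs => rw [hfu]
  rw [map_mul, map_zpow₀, h1, mul_one]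

end AnyLevel

section Zero

variable (K : Type) [Field K] [CharZero K] (N : ℕ) [NeZero N] (ℓ : ℕ) [hℓ : Fact ℓ.Prime]
  (O : Subring K) [IsDiscreteValuationRing ↥O] [IsFractionRing ↥O K]
  [CharP (IsLocalRing.ResidueField ↥O) ℓ] (S : SecondVal K N ℓ O)
  [hdvr : IsDiscreteValuationRing ↥S.V]
  (ι : K →+* ℂ) (hℓN : ¬ ℓ ∣ N)
  {ϖ : ↥O} (hϖ : Irreducible ϖ)

/-- `V₂ f = V₂ ϖ ^ ordZero f`. -/
theorem valuation_V_eq_zpow {f : FF K (N * ℓ)} (hf : f ≠ 0) :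
    S.V.valuation f =
      S.V.valuation (algebraMap K (FF K (N * ℓ)) (ϖ : K)) ^ ordZero K N ℓ O S hϖ f := by
  obtain ⟨u, hu, hθ, hfu, -⟩ := exists_normal_form_zero K N ℓ O S hϖ hf
  have hu0 : u ≠ 0 := by
    rintro rfl
    apply hθ
    have : (⟨0, hu⟩ : ↥S.V) = 0 := rfl
    rw [this, map_zero]
  have h1 : S.V.valuation u = 1 :=
    (valuation_V_eq_one_iff K N ℓ O S hϖ hu0).mpr (ordZero_of_ev_ne_zero K N ℓ O S hϖ hu hθ)
  conv_lhs => rw [hfu]
  rw [map_mul, map_zpow₀, h1, mul_one]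

include ι hℓN in
/-- **`ord (N_α f) = v₁ f + ℓ v₂ f`.** -/
theorem ordG_normAlong_alpha {f : FF K (N * ℓ)} (hf : f ≠ 0) :
    ordG K N O hϖ (normAlong (alphaF K N ℓ) f) =
      ordInf K N ℓ O hϖ f + (ℓ : ℤ) * ordZero K N ℓ O S hϖ f := by
  obtain ⟨ε, hε⟩ := normAlong_alpha_eq_unit_mul K N ℓ O S ι hℓN hϖ hf
    (valuation_gaussVS_eq_zpow K (N * ℓ) O hϖ hf) (valuation_V_eq_zpow K N ℓ O S hϖ hf)
  exact (ordG_acG_of_eq K N O hϖ (ε : ↥(gaussSubalgebra K N O)).2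
    (theta_ne_zero_of_isUnit K N O _ ε.isUnit) (by rw [hε, mul_comm])).1

include ι hℓN in
/-- **`ord (N_β f) = ℓ v₁ f + v₂ f`.** -/
theorem ordG_normAlong_beta {f : FF K (N * ℓ)} (hf : f ≠ 0) :
    ordG K N O hϖ (normAlong (betaF K N ℓ) f) =
      (ℓ : ℤ) * ordInf K N ℓ O hϖ f + ordZero K N ℓ O S hϖ f := by
  obtain ⟨ε, hε⟩ := normAlong_beta_eq_unit_mul K N ℓ O S ι hℓN hϖ hf
    (valuation_gaussVS_eq_zpow K (N * ℓ) O hϖ hf) (valuation_V_eq_zpow K N ℓ O S hϖ hf)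
  exact (ordG_acG_of_eq K N O hϖ (ε : ↥(gaussSubalgebra K N O)).2
    (theta_ne_zero_of_isUnit K N O _ ε.isUnit) (by rw [hε, mul_comm])).1

include S hdvr ι hℓN in
/-- An exact `ℓ`-th power norm along `α` forces `ℓ ∣ v₁ f`. -/
theorem dvd_ordInf_of_norm_alpha {f : FF K (N * ℓ)} (hf : f ≠ 0)
    (h : ∃ a' : FF K N, normAlong (alphaF K N ℓ) f = a' ^ ℓ) :
    (ℓ : ℤ) ∣ ordInf K N ℓ O hϖ f := by
  obtain ⟨a', ha⟩ := h
  have h1 := ordG_normAlong_alpha K N ℓ O S ι hℓN hϖ hf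
  rw [ha, ordG_pow] at h1
  exact ⟨ordG K N O hϖ a' - ordZero K N ℓ O S hϖ f, by linarith⟩

include ι hℓN in
/-- An exact `ℓ`-th power norm along `β` forces `ℓ ∣ v₂ f`. -/
theorem dvd_ordZero_of_norm_beta {f : FF K (N * ℓ)} (hf : f ≠ 0)
    (h : ∃ b' : FF K N, normAlong (betaF K N ℓ) f = b' ^ ℓ) :
    (ℓ : ℤ) ∣ ordZero K N ℓ O S hϖ f := by
  obtain ⟨b', hb⟩ := h
  have h1 := ordG_normAlong_beta K N ℓ O S ι hℓN hϖ hf
  rw [hb, ordG_pow] at h1
  exact ⟨ordG K N O hϖ b' - ordInf K N ℓ O hϖ f, by linarith⟩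

include ι hℓN in
/-- **The corrector**: if `ℓ` divides both vertical orders of `f` then `f h^ℓ` is a unit of `V₁` and of
`V₂` for a suitable `h ≠ 0`. -/
theorem exists_mul_pow_biunit {f : FF K (N * ℓ)} (hf : f ≠ 0)
    (h₁ : (ℓ : ℤ) ∣ ordInf K N ℓ O hϖ f) (h₂ : (ℓ : ℤ) ∣ ordZero K N ℓ O S hϖ f) :
    ∃ h : FF K (N * ℓ), h ≠ 0 ∧
      (gaussVS K (N * ℓ) O).valuation (f * h ^ ℓ) = 1 ∧ S.V.valuation (f * h ^ ℓ) = 1 := by
  obtain ⟨t, ht0, ht1, -, ht2, -⟩ := exists_ord_zero_one K N ℓ O S ι hℓN hϖ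
  obtain ⟨a, ha⟩ := h₁
  obtain ⟨b, hb⟩ := h₂
  have hϖK : ((ϖ : ↥O) : K) ≠ 0 := fun h0 => hϖ.ne_zero (Subtype.ext h0)
  set π : FF K (N * ℓ) := algebraMap K (FF K (N * ℓ)) (ϖ : K) with hπ
  have hπ0 : π ≠ 0 := by
    rw [hπ, Ne, map_eq_zero]
    exact hϖK
  set h : FF K (N * ℓ) := π ^ (-a) * t ^ (a - b) with hh
  have hh0 : h ≠ 0 := mul_ne_zero (zpow_ne_zero _ hπ0) (zpow_ne_zero _ ht0)
  have hne : f * h ^ ℓ ≠ 0 := mul_ne_zero hf (pow_ne_zero ℓ hh0)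
  have ht1' : ordG K (N * ℓ) O hϖ t = 0 := ht1
  refine ⟨h, hh0, ?_, ?_⟩
  · rw [valuation_gaussVS_eq_one_iff K (N * ℓ) O hϖ hne,
      ordG_mul K (N * ℓ) O hϖ hf (pow_ne_zero ℓ hh0), ordG_pow, hh,
      ordG_mul K (N * ℓ) O hϖ (zpow_ne_zero _ hπ0) (zpow_ne_zero _ ht0), hπ, ordG_unif_zpow,
      ordG_zpow, ht1']
    have ha' : ordG K (N * ℓ) O hϖ f = (ℓ : ℤ) * a := ha
    rw [ha']
    ring
  · rw [valuation_V_eq_one_iff K N ℓ O S hϖ hne,
      ordZero_mul K N ℓ O S hϖ hf (pow_ne_zero ℓ hh0), ordZero_pow, hh,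
      ordZero_mul K N ℓ O S hϖ (zpow_ne_zero _ hπ0) (zpow_ne_zero _ ht0), hπ, ordZero_unif_zpow,
      ordZero_zpow, ht2, hb]
    ring

include hdvr ι hℓN hϖ in
/-- ★ **(NRM), any level**: a function whose two level norms are exact `ℓ`-th powers becomes a
bi-unit after multiplication by an `ℓ`-th power; the norms stay exact `ℓ`-th powers. -/
theorem exists_normalise {f : FF K (N * ℓ)} (hf : f ≠ 0)
    (hα : ∃ a' : FF K N, normAlong (alphaF K N ℓ) f = a' ^ ℓ)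
    (hβ : ∃ b' : FF K N, normAlong (betaF K N ℓ) f = b' ^ ℓ) :
    ∃ h : FF K (N * ℓ), h ≠ 0 ∧
      (gaussVS K (N * ℓ) O).valuation (f * h ^ ℓ) = 1 ∧ S.V.valuation (f * h ^ ℓ) = 1 ∧
      (∃ a' : FF K N, normAlong (alphaF K N ℓ) (f * h ^ ℓ) = a' ^ ℓ) ∧
      (∃ b' : FF K N, normAlong (betaF K N ℓ) (f * h ^ ℓ) = b' ^ ℓ) := by
  obtain ⟨h, hh0, hv₁, hv₂⟩ := exists_mul_pow_biunit K N ℓ O S ι hℓN hϖ hf
    (dvd_ordInf_of_norm_alpha K N ℓ O S ι hℓN hϖ hf hα)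
    (dvd_ordZero_of_norm_beta K N ℓ O S ι hℓN hϖ hf hβ)
  obtain ⟨a', ha⟩ := hα
  obtain ⟨b', hb⟩ := hβ
  refine ⟨h, hh0, hv₁, hv₂, ⟨a' * normAlong (alphaF K N ℓ) h, ?_⟩,
    ⟨b' * normAlong (betaF K N ℓ) h, ?_⟩⟩
  · rw [map_mul, map_pow, ha, mul_pow]
  · rw [map_mul, map_pow, hb, mul_pow]

end Zero

/-! ### `IsRep` and `p`-th powers -/

section Rep

open Fermat.Agent.N4F.C Fermat.Agent.N4F.C.Levels Fermat.Agent.N4F.C.Galois
  Fermat.Agent.P3G.Gamma Fermat.Agent.P3G.GammaDict Fermat.Agent.N4F.A.LevelMaps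
open Fermat.Agent.S40.New.Pack (IsRep)

/-- Multiplying a representative by a `p`-th power does not change the class it represents. -/
theorem isRep_mul_pow {N : ℕ} [NeZero N] {p : ℕ} {x : JZero N} {f b : Fb N}
    (h : IsRep p x f) (hb : b ≠ 0) : IsRep p x (f * b ^ p) := by
  obtain ⟨D, hD, hf⟩ := h
  haveI := hasPrincipalDivisors_bar N
  obtain ⟨E, hE, hE0⟩ := HasPrincipalDivisors.exists_divisor (K := Qb) b hb
  have hbE : IsDivOf b E := ⟨hb, hE⟩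
  set E₀ : Divisor.degZero (K := Qb) (F := Fb N) := ⟨E, hE0⟩ with hE₀def
  have hE₀mk : (Pic0.mk E₀ : JZero N) = 0 := (mk_eq_zero_iff E₀).mpr ⟨b, hbE⟩
  refine ⟨D + E₀, ?_, ?_⟩
  · rw [Pic0.mk_add, hE₀mk, add_zero, hD]
  · have h1 := hf.mul (hbE.pow p)
    have h2 : (p • ((D + E₀ : Divisor.degZero (K := Qb) (F := Fb N)) : Divisor Qb (Fb N))) =
        p • (D : Divisor Qb (Fb N)) + p • E := by
      rw [AddSubgroup.coe_add, smul_add]
    rw [h2]
    exact h1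

end Rep

/-! ### Good levels -/

section Good

open IntermediateField
open Fermat.Agent.N4.Chart Fermat.Agent.N4.BigDVR Fermat.Agent.P3G.Assembly.LevelStep
  Fermat.Agent.N4F.C Fermat.Agent.N4F.C.Levels Fermat.Agent.N4F.C.Galois
  Fermat.Agent.P4.FrobLevelStep Fermat.Agent.P3G.GammaDict
open Fermat.Agent.S40.New.Pack (IsRep)

local notation "Qbar" => AlgebraicClosure ℚ

set_option synthInstance.maxHeartbeats 400000 in
set_option maxHeartbeats 800000 in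
/-- ★★ **(NRM) at a good level** — the input of `M1/LevelUp.exists_level_isRep_m4NormF`: a
representative `fK` of `x` at the good level `K` with exact level norms can be replaced by
`f₀ = fK h^p` which in addition is a unit of `V₁ = gaussVS` and of `V₂ = S₂.V`. -/
theorem exists_normalised_goodLevel (M p : ℕ) [NeZero M] [Fact p.Prime] (hpM : ¬ p ∣ M)
    (A : ValuationSubring Qbar) (K : IntermediateField ℚ Qbar) (hK : IsGoodLevel A p K)
    [IsDiscreteValuationRing ↥(baseRing A K)] [IsFractionRing ↥(baseRing A K) (Lvl K)]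
    (S₂ : Fermat.Agent.P3G.FibreTwo.SecondVal (Lvl K) M p (baseRing A K))
    (x : JZero (M * p)) {fK : FF (Lvl K) (M * p)}
    (hrep : IsRep p x (levK (M * p) K fK))
    (hnα : ∃ a' : FF (Lvl K) M, normAlphaK K M p fK = a' ^ p)
    (hnβ : ∃ b' : FF (Lvl K) M, normBetaK K M p fK = b' ^ p) :
    ∃ h : FF (Lvl K) (M * p), h ≠ 0 ∧
      IsRep p x (levK (M * p) K (fK * h ^ p)) ∧
      (gaussVS (Lvl K) (M * p) (baseRing A K)).valuation (fK * h ^ p) = 1 ∧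
      S₂.V.valuation (fK * h ^ p) = 1 ∧
      (∃ a' : FF (Lvl K) M, normAlphaK K M p (fK * h ^ p) = a' ^ p) ∧
      (∃ b' : FF (Lvl K) M, normBetaK K M p (fK * h ^ p) = b' ^ p) := by
  haveI := charP_goodLevel M p hpM A K hK
  haveI : IsDiscreteValuationRing ↥(Fermat.Agent.P3G.SecondValBridge.ofTwo S₂).V :=
    Fermat.Agent.S36.V.CountAlong.isDiscreteValuationRing_secondVal
      (Fermat.Agent.P3G.GammaV2.lvlToComplex K) hpM (Fermat.Agent.P3G.SecondValBridge.ofTwo S₂)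
  obtain ⟨ϖ, hϖ⟩ := IsDiscreteValuationRing.exists_irreducible ↥(baseRing A K)
  have hf : fK ≠ 0 := by
    obtain ⟨D, -, hD⟩ := hrep
    intro h0
    apply hD.ne_zero
    rw [h0, map_zero]
  obtain ⟨h, hh0, hv₁, hv₂, hα, hβ⟩ := exists_normalise (Lvl K) M p (baseRing A K)
    (Fermat.Agent.P3G.SecondValBridge.ofTwo S₂) (Fermat.Agent.P3G.GammaV2.lvlToComplex K) hpM hϖ
    hf hnα hnβ
  refine ⟨h, hh0, ?_, hv₁, hv₂, hα, hβ⟩
  rw [map_mul, map_pow]
  refine isRep_mul_pow hrep ?_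
  intro h0
  apply hh0
  exact (levK (M * p) K).toRingHom.injective (by rw [AlgHom.toRingHom_eq_coe, RingHom.coe_coe, h0, map_zero])

end Good

end Fermat.Agent.S40.M1.Normalise
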