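/-
S44/S40 (`moonshots` row 67, leaf (T6-ASM); helper23): **T6′ FOR THE `Norm` OF RECORD `New/Norm.norm`, WITH
(NRM) DISCHARGED — ONE NAMED LEAF LEFT.**

`M1/Main.t6Out_of_leaves` produces `Pack.T6Out Norm V` from the named leaves `NrmLeaf` and `SSLeaf`.
Here:

* `nrmLeaf` : `Main.NrmLeaf M p A` is a THEOREM (helper12's `Normalise.exists_normalise`);
* `ssVanish_of_ssDvd`, `ssDvd_of_ssVanish` : the conjunct (n6′) in the divisibility form `Main.SSDvd`
  (`p ∣ ord_s (red f_K)`) and in the form of record `New/Norm.SSVanish` (`m^∞_s(f_K) = 0`) are equivalent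
  for a unit of the Gauss valuation;
* `SSLeafV` : the named leaf (SS) = (R4) ∘ (AUX) ∘ (R5′) with conclusion `New/Norm.SSVanish`
  (the output shape of helper20's `SSVanish.lean`); `ssLeaf_of_ssLeafV`;
* ★ `t6Out_norm` : `Pack.T6Out (New/Norm.norm M p A) V` from `Main.SSLeaf`;
  ★ `t6Out_norm_of_ssLeafV` : the same from `SSLeafV`.
-/
import Mathlib
import Fermat.Agent.S40.M1.Main
import Fermat.Agent.S40.M1.Normalise
import Fermat.Agent.S40.New.Norm

set_option autoImplicit false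
set_option linter.unusedSectionVars false
set_option linter.unusedVariables false
set_option linter.dupNamespace false
set_option linter.style.haveILetI false
set_option synthInstance.maxHeartbeats 400000
set_option maxHeartbeats 800000

open ModularCurve AlgebraicCurve IntermediateField

noncomputable section

namespace Fermat.Agent.S40.M1.MainNorm

open Fermat.Agent.S28.Gauss
open Fermat.Agent.N4.Setting Fermat.Agent.N4.BaseDescent Fermat.Agent.N4.BigDVR
  Fermat.Agent.N4.Chart Fermat.Agent.N4.S18Glue Fermat.Agent.N4.FibreEmbedding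
  Fermat.Agent.P3G.Assembly.LevelStep Fermat.Agent.P3G.Assembly.StepOfLevel
  Fermat.Agent.P3G.GammaDict Fermat.Agent.P3G.GeomStep
  Fermat.Agent.P3G.Gamma Fermat.Agent.P3G.GammaAut
  Fermat.Agent.N4F.C Fermat.Agent.N4F.C.Levels Fermat.Agent.N4F.C.Galois
  Fermat.Agent.N4F.E.GaussDVR Fermat.Agent.N4F.C.ChartFibre
  Fermat.Agent.N4F.Res Fermat.Agent.N4F.A.LevelMaps
  Fermat.Agent.P4.Push Fermat.Agent.P4.FrobLevelStep
  Fermat.Agent.S19.Cech.LevelBasis
  Fermat.Agent.S33.L.Contracts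
  Fermat.Agent.S40.Top.Eigen Fermat.Agent.S40.Top.CopyOfE
  Fermat.Agent.S40.W.F4Level Fermat.Agent.S40.W.F4Place Fermat.Agent.S40.W
  Fermat.Agent.S40.M4.Final Fermat.Agent.S40.New.Pack Fermat.Agent.S40.New.Norm
  Fermat.Agent.S40.M1.SmallField Fermat.Agent.S40.M1.LevelUp Fermat.Agent.S40.M1.Main
  Fermat.Agent.P3G

local notation "Qbar" => AlgebraicClosure ℚ
local notation "Γ" => (AlgebraicClosure ℚ ≃ₐ[ℚ] AlgebraicClosure ℚ)

/-! ### (NRM) is a theorem -/

section Nrm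

variable {M p : ℕ} [NeZero M] [NeZero p] [Fact p.Prime] {A : ValuationSubring Qbar}

/-- ★ **(NRM)** (helper12, `M1/Normalise`): the named leaf `Main.NrmLeaf` holds. -/
theorem nrmLeaf (hpM : ¬ p ∣ M) : NrmLeaf M p A := by
  intro K hK _ S₂ f hf hnα hnβ
  haveI : IsFractionRing ↥(baseRing A K) (Lvl K) := isFractionRing_trSubring A K
  haveI := Fermat.Agent.S40.M1.NormValLevel.charP_goodLevel M p hpM A K hK
  haveI : IsDiscreteValuationRing ↥(Fermat.Agent.P3G.SecondValBridge.ofTwo S₂).V :=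
    Fermat.Agent.S36.V.CountAlong.isDiscreteValuationRing_secondVal
      (Fermat.Agent.P3G.GammaV2.lvlToComplex K) hpM (Fermat.Agent.P3G.SecondValBridge.ofTwo S₂)
  obtain ⟨ϖ, hϖ⟩ := IsDiscreteValuationRing.exists_irreducible ↥(baseRing A K)
  obtain ⟨h, hh0, hv₁, hv₂, -, -⟩ :=
    Fermat.Agent.S40.M1.Normalise.exists_normalise (Lvl K) M p (baseRing A K)
      (Fermat.Agent.P3G.SecondValBridge.ofTwo S₂) (Fermat.Agent.P3G.GammaV2.lvlToComplex K) hpM hϖ
      hf hnα hnβ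
  refine ⟨h⁻¹, inv_ne_zero hh0, ?_, ?_⟩
  · rw [inv_pow, div_inv_eq_mul]
    exact hv₁
  · rw [inv_pow, div_inv_eq_mul]
    exact hv₂

end Nrm

/-! ### The two forms of (n6′) -/

section SS

variable {M p : ℕ} [NeZero M] [NeZero p] [Fact p.Prime] {A : ValuationSubring Qbar}
  {K : IntermediateField ℚ Qbar} [IsDiscreteValuationRing ↥(baseRing A K)]
  {S₂ : Fermat.Agent.P3G.FibreTwo.SecondVal (Lvl K) M p (baseRing A K)}
  {ϖ : ↥(baseRing A K)} {fK : FF (Lvl K) (M * p)}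

/-- `Main.SSDvd ⇒ New/Norm.SSVanish` for a unit of the Gauss valuation. -/
theorem ssVanish_of_ssDvd (hpM : ¬ p ∣ M) (hK : IsGoodLevel A p K)
    (hf₁ : (gaussVS (Lvl K) (M * p) (baseRing A K)).valuation fK = 1)
    (h : SSDvd M p hpM A K S₂ fK) : SSVanish M p A K S₂ ϖ fK := by
  intro hpM' hϖ inst hA2 s hj hs
  haveI := inst
  haveI : IsAlgClosed (IsLocalRing.ResidueField ↥(baseRing A K)) := hK.algClosed
  exact mInf_eq_zero_of_ssDvd hpM K hA2 S₂ hϖ hf₁ h s hj hs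

/-- `New/Norm.SSVanish ⇒ Main.SSDvd` (for one uniformiser). -/
theorem ssDvd_of_ssVanish (hpM : ¬ p ∣ M) (hϖ : Irreducible ϖ)
    (h : SSVanish M p A K S₂ ϖ fK) : SSDvd M p hpM A K S₂ fK := by
  intro inst _ hA2 hf₁ s hj hs
  have h1 := h hpM hϖ inst hA2 s hj hs
  rw [mInf_eq_zero_iff (Lvl K) M p (baseRing A K) (Fermat.Agent.P3G.GammaV2.lvlToComplex K) hpM hA2
    S₂ hϖ s fK, acInfF_eq_redG (Lvl K) M p (baseRing A K) (Fermat.Agent.P3G.GammaV2.lvlToComplex K)
    hpM hA2 S₂ hϖ hf₁] at h1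
  exact h1

end SS

/-! ### The named leaf (SS) with conclusion `SSVanish` -/

section Leaf

variable (M p : ℕ) [NeZero M] [NeZero p] [Fact p.Prime] (A : ValuationSubring Qbar)

/-- **(SS) = (R4) ∘ (AUX) ∘ (R5′), named leaf, conclusion in the form of record**: a representative `f₀`
of `x ∈ V` over the small level `L₀` with exact level norms over `L₀`: at every good level `K ⊇ L₀`
above a number field `K₂` (depending on `f₀`), if the image of `f₀` is normalised (`M4NormF`) then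
`m^∞_s = 0` at the supersingular places (`New/Norm.SSVanish`). -/
def SSLeafV (L₀ : IntermediateField ℚ Qbar) (V : Submodule (ZMod p) (Jtors (M * p) p)) : Prop :=
  ∀ x ∈ V, ∀ f₀ : FF (Lvl L₀) (M * p),
    IsRep p ((x : Jtors (M * p) p) : JZero (M * p)) (levK (M * p) L₀ f₀) →
    (∃ a' : FF (Lvl L₀) M, normAlphaK L₀ M p f₀ = a' ^ p) →
    (∃ b' : FF (Lvl L₀) M, normBetaK L₀ M p f₀ = b' ^ p) →
    ∃ K₂ : IntermediateField ℚ Qbar, FiniteDimensional ℚ K₂ ∧
      ∀ (K : IntermediateField ℚ Qbar) (_ : IsGoodLevel A p K)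
        [IsDiscreteValuationRing ↥(baseRing A K)]
        (S₂ : Fermat.Agent.P3G.FibreTwo.SecondVal (Lvl K) M p (baseRing A K))
        (ϖ : ↥(baseRing A K)) (hLK : L₀ ≤ K), Irreducible ϖ → K₂ ≤ K →
        IsRep p ((x : Jtors (M * p) p) : JZero (M * p))
          (levK (M * p) K (ffMap (lvlIncl hLK) (M * p) f₀)) →
        M4NormF M p A K S₂ (ffMap (lvlIncl hLK) (M * p) f₀) →
        SSVanish M p A K S₂ ϖ (ffMap (lvlIncl hLK) (M * p) f₀)

variable {M p A}

theorem ssLeaf_of_ssLeafV (hpM : ¬ p ∣ M) {L₀ : IntermediateField ℚ Qbar}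
    {V : Submodule (ZMod p) (Jtors (M * p) p)} (h : SSLeafV M p A L₀ V) :
    SSLeaf M p hpM A L₀ V := by
  intro x hx f₀ hrep hnα hnβ
  obtain ⟨K₂, hfin, hK₂⟩ := h x hx f₀ hrep hnα hnβ
  refine ⟨K₂, hfin, fun K hK _ S₂ hLK hle hrepK hN => ?_⟩
  obtain ⟨ϖ, hϖ⟩ := IsDiscreteValuationRing.exists_irreducible ↥(baseRing A K)
  exact ssDvd_of_ssVanish hpM hϖ (hK₂ K hK S₂ ϖ hLK hϖ hle hrepK hN)

end Leaf

/-! ### T6′ for the `Norm` of record -/

section T6

variable {M p : ℕ} [NeZero M] [NeZero p] [Fact p.Prime] {A : ValuationSubring Qbar}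
  {W : WeierstrassCurve ℤ}

/-- ★ **T6′ for `New/Norm.norm`**, from the single named leaf `Main.SSLeaf`. -/
theorem t6Out_norm (hpM : ¬ p ∣ M) (hA : A.LiesOverPrime p)
    (hΔ : W.Δ ≠ 0) (hp2 : p ≠ 2) (hirr : W.ModRepIsIrreducible p)
    {V : Submodule (ZMod p) (Jtors (M * p) p)}
    (hle : V ≤ Wtheta W p (M * p)) (hC : CopyOfE W p V)
    (hnew : ∀ x ∈ V, ((x : Jtors (M * p) p) : JZero (M * p)) ∈ newPart M p)
    (hSS : SSLeaf M p hpM A (bigLevel A (smallField V)) V) :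
    T6Out (Fermat.Agent.S40.New.Norm.norm M p A) V :=
  t6Out_of_leaves hpM hA hΔ hp2 hirr hle hC hnew (nrmLeaf hpM) hSS
    (fun K hK _ S₂ ϖ _ fK hN hS => ⟨hN, ssVanish_of_ssDvd hpM hK hN.2.1 hS⟩)

/-- ★ **T6′ for `New/Norm.norm`**, from the single named leaf `SSLeafV`. -/
theorem t6Out_norm_of_ssLeafV (hpM : ¬ p ∣ M) (hA : A.LiesOverPrime p)
    (hΔ : W.Δ ≠ 0) (hp2 : p ≠ 2) (hirr : W.ModRepIsIrreducible p)
    {V : Submodule (ZMod p) (Jtors (M * p) p)}
    (hle : V ≤ Wtheta W p (M * p)) (hC : CopyOfE W p V)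
    (hnew : ∀ x ∈ V, ((x : Jtors (M * p) p) : JZero (M * p)) ∈ newPart M p)
    (hSS : SSLeafV M p A (bigLevel A (smallField V)) V) :
    T6Out (Fermat.Agent.S40.New.Norm.norm M p A) V :=
  t6Out_norm hpM hA hΔ hp2 hirr hle hC hnew (ssLeaf_of_ssLeafV hpM hSS)

end T6

end Fermat.Agent.S40.M1.MainNorm
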