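/-
S44 / S40 (row 38), leaf input of (R-desc) (helper9): **descent of the modular function field along an
extension of the field of constants.**

For fields `K ⊆ L` and any `N`, with `FF K N = K(j(q^d) : d ∣ N) ⊆ K((q))`:

* `adjoin_coeffMap_image_full` : `L · FF K N = FF L N` inside `L((q))`;
* `mem_full_of_coeffMap_mem` : `FF L N ∩ K((q)) = FF K N` (an element of `K((q))` whose coefficientwise
  image lies in `FF L N` lies in `FF K N`); `exists_ffMap_eq_of_coeff` : the same for `ffMap`;
* `ffAut N σ : FF L N ≃+* FF L N` : the coefficientwise action of `σ : L ≃ₐ[K] L`; it is a group action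
  (`ffAut_one`, `ffAut_mul`), semilinear over `σ` (`ffAut_algebraMap`) and fixes the image of `FF K N`
  (`ffAut_ffMap`);
* `exists_ffMap_eq_of_fixed` : for `L / K` Galois, an element of `FF L N` fixed by all `ffAut N σ` comes
  from `FF K N`: the fixed field of the coefficientwise action is `FF K N`.
* `ffMulSemiringAction`, `ffFaithfulSMul` (defs / theorems, to be installed locally as instances):
  the action as a `MulSemiringAction (L ≃ₐ[K] L) (FF L N)`, faithful; with
  `fixedPoints_eq_fieldRange` this feeds Mathlib's Artin theorem / Hilbert 90 for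
  `FF L N / FixedPoints.subfield _ _`.
-/
import Mathlib
import Fermat.Agent.N4F.Tors.CoeffDescent
import Fermat.Agent.N4.BaseDescent

set_option autoImplicit false
set_option linter.unusedSectionVars false
set_option linter.style.haveILetI false

open ModularCurve

noncomputable section

namespace Fermat.Agent.S40.M1.FFDescent

open Fermat.Agent.N4.Setting Fermat.Agent.N4.BaseDescent Fermat.Agent.N4F.Tors.CoeffDescent

variable {K L : Type} [Field K] [Field L] [Algebra K L] (N : ℕ) [NeZero N]

/-! ### `L · FF K N = FF L N` and `FF L N ∩ K((q)) = FF K N` -/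

/-- `L · FF K N = FF L N` inside `L((q))`. -/
theorem adjoin_coeffMap_image_full :
    IntermediateField.adjoin L (⇑(coeffMap (algebraMap K L)) ''
      (modularFunctionFieldFullC K N : Set (LaurentSeries K))) = modularFunctionFieldFullC L N := by
  apply le_antisymm
  · rw [IntermediateField.adjoin_le_iff]
    rintro _ ⟨x, hx, rfl⟩
    exact coeffMap_mem_full (algebraMap K L) N hx
  · rw [modularFunctionFieldFullC, IntermediateField.adjoin_le_iff]
    rintro _ ⟨d, hd, hdN, rfl⟩
    haveI := hd
    apply IntermediateField.subset_adjoin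
    refine ⟨qExpand K d (jqModC K), jqModCd_mem_full K N hdN, ?_⟩
    rw [coeffMap_qExpand, coeffMap_jqModC]

/-- **Coefficient descent for the modular function field**: `FF L N ∩ K((q)) = FF K N`. -/
theorem mem_full_of_coeffMap_mem {g₀ : LaurentSeries K}
    (h : coeffMap (algebraMap K L) g₀ ∈ modularFunctionFieldFullC L N) :
    g₀ ∈ modularFunctionFieldFullC K N := by
  apply mem_of_coeffMap_mem_adjoin (L := L) (modularFunctionFieldFullC K N) g₀
  rw [adjoin_coeffMap_image_full]
  exact h

/-- An element of `FF L N` all of whose `q`-coefficients lie in `K` comes from `FF K N`. -/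
theorem exists_ffMap_eq_of_coeff (y : FF L N)
    (hy : ∀ n : ℤ, (y : LaurentSeries L).coeff n ∈ (algebraMap K L).range) :
    ∃ x : FF K N, ffMap (algebraMap K L) N x = y := by
  obtain ⟨g₀, hg₀⟩ := exists_coeffMap_eq (algebraMap K L) (y : LaurentSeries L) hy
  have hmem : g₀ ∈ modularFunctionFieldFullC K N := by
    apply mem_full_of_coeffMap_mem (L := L) N
    rw [hg₀]
    exact y.2
  exact ⟨⟨g₀, hmem⟩, Subtype.ext hg₀⟩

/-! ### The coefficientwise Galois action -/

/-- The coefficientwise action of `σ : L ≃ₐ[K] L` on `FF L N`. -/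
def ffAut (σ : L ≃ₐ[K] L) : FF L N ≃+* FF L N where
  toFun := ffMap (σ : L →+* L) N
  invFun := ffMap (σ.symm : L →+* L) N
  left_inv x := Subtype.ext <| by
    show coeffMap (σ.symm : L →+* L) (coeffMap (σ : L →+* L) (x : LaurentSeries L))
      = (x : LaurentSeries L)
    rw [coeffMap_coeffMap,
      coeffMap_congr (g := RingHom.id L) (RingHom.ext fun a => σ.symm_apply_apply a)
        (x : LaurentSeries L),
      coeffMap_id]
  right_inv x := Subtype.ext <| by
    show coeffMap (σ : L →+* L) (coeffMap (σ.symm : L →+* L) (x : LaurentSeries L))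
      = (x : LaurentSeries L)
    rw [coeffMap_coeffMap,
      coeffMap_congr (g := RingHom.id L) (RingHom.ext fun a => σ.apply_symm_apply a)
        (x : LaurentSeries L),
      coeffMap_id]
  map_mul' x y := map_mul (ffMap (σ : L →+* L) N) x y
  map_add' x y := map_add (ffMap (σ : L →+* L) N) x y

@[simp] theorem ffAut_apply (σ : L ≃ₐ[K] L) (y : FF L N) :
    ffAut N σ y = ffMap (σ : L →+* L) N y := rfl

theorem coe_ffAut (σ : L ≃ₐ[K] L) (y : FF L N) :
    ((ffAut N σ y : FF L N) : LaurentSeries L) = coeffMap (σ : L →+* L) (y : LaurentSeries L) :=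
  rfl

theorem coeff_ffAut (σ : L ≃ₐ[K] L) (y : FF L N) (n : ℤ) :
    ((ffAut N σ y : FF L N) : LaurentSeries L).coeff n = σ ((y : LaurentSeries L).coeff n) := rfl

theorem ffAut_one (y : FF L N) : ffAut N (1 : L ≃ₐ[K] L) y = y := by
  apply Subtype.ext
  rw [coe_ffAut]
  rw [show ((1 : L ≃ₐ[K] L) : L →+* L) = RingHom.id L from RingHom.ext fun _ => rfl, coeffMap_id]

theorem ffAut_mul (σ τ : L ≃ₐ[K] L) (y : FF L N) :
    ffAut N (σ * τ) y = ffAut N σ (ffAut N τ y) := by
  apply Subtype.ext
  rw [coe_ffAut, coe_ffAut, coe_ffAut, coeffMap_coeffMap]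
  exact coeffMap_congr (RingHom.ext fun _ => rfl) _

/-- The action is semilinear over `σ` on the constants. -/
theorem ffAut_algebraMap (σ : L ≃ₐ[K] L) (c : L) :
    ffAut N σ (algebraMap L (FF L N) c) = algebraMap L (FF L N) (σ c) :=
  ffMap_algebraMap (σ : L →+* L) N c

/-- The action fixes the image of `FF K N`. -/
theorem ffAut_ffMap (σ : L ≃ₐ[K] L) (x : FF K N) :
    ffAut N σ (ffMap (algebraMap K L) N x) = ffMap (algebraMap K L) N x := by
  apply Subtype.ext
  rw [coe_ffAut, coe_ffMap, coeffMap_coeffMap]
  exact coeffMap_congr (RingHom.ext fun c => σ.commutes c) _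

theorem ffAut_jF (σ : L ≃ₐ[K] L) : ffAut N σ (jF L N) = jF L N :=
  ffMap_jF (σ : L →+* L) N

/-- **The fixed field of the coefficientwise Galois action on `FF L N` is `FF K N`.** -/
theorem exists_ffMap_eq_of_fixed [FiniteDimensional K L] [IsGalois K L] (y : FF L N)
    (hy : ∀ σ : L ≃ₐ[K] L, ffAut N σ y = y) :
    ∃ x : FF K N, ffMap (algebraMap K L) N x = y := by
  apply exists_ffMap_eq_of_coeff N y
  intro n
  have hfix : ∀ σ : L ≃ₐ[K] L, σ ((y : LaurentSeries L).coeff n) = (y : LaurentSeries L).coeff n := by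
    intro σ
    rw [← coeff_ffAut, hy σ]
  have h := (IsGalois.mem_bot_iff_fixed ((y : LaurentSeries L).coeff n)).mpr hfix
  rw [IntermediateField.mem_bot] at h
  obtain ⟨c, hc⟩ := h
  exact ⟨c, hc⟩

theorem ffAut_eq_self_iff [FiniteDimensional K L] [IsGalois K L] (y : FF L N) :
    (∀ σ : L ≃ₐ[K] L, ffAut N σ y = y) ↔ y ∈ (ffMap (algebraMap K L) N).fieldRange := by
  constructor
  · intro hy
    obtain ⟨x, hx⟩ := exists_ffMap_eq_of_fixed N y hy
    exact ⟨x, hx⟩
  · rintro ⟨x, rfl⟩ σ
    exact ffAut_ffMap N σ x

/-! ### Packaging as a `MulSemiringAction` -/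

/-- The coefficientwise action as a `MulSemiringAction` (install locally as an instance). -/
@[reducible] def ffMulSemiringAction : MulSemiringAction (L ≃ₐ[K] L) (FF L N) where
  smul σ y := ffAut N σ y
  one_smul y := ffAut_one N y
  mul_smul σ τ y := ffAut_mul N σ τ y
  smul_zero σ := map_zero (ffAut N σ)
  smul_add σ x y := map_add (ffAut N σ) x y
  smul_one σ := map_one (ffAut N σ)
  smul_mul σ x y := map_mul (ffAut N σ) x y

theorem ffSmul_def (σ : L ≃ₐ[K] L) (y : FF L N) :
    letI := ffMulSemiringAction (K := K) (L := L) N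
    σ • y = ffAut N σ y := rfl

/-- The action is faithful (already on the constants). -/
theorem ffFaithfulSMul :
    letI := ffMulSemiringAction (K := K) (L := L) N
    FaithfulSMul (L ≃ₐ[K] L) (FF L N) := by
  letI := ffMulSemiringAction (K := K) (L := L) N
  refine ⟨fun {σ τ} h => ?_⟩
  apply AlgEquiv.ext
  intro c
  have h1 := h (algebraMap L (FF L N) c)
  change ffAut N σ (algebraMap L (FF L N) c) = ffAut N τ (algebraMap L (FF L N) c) at h1
  rw [ffAut_algebraMap, ffAut_algebraMap] at h1
  exact (algebraMap L (FF L N)).injective h1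

/-- The fixed subfield of the action is the image of `FF K N`. -/
theorem fixedPoints_eq_fieldRange [FiniteDimensional K L] [IsGalois K L] :
    letI := ffMulSemiringAction (K := K) (L := L) N
    FixedPoints.subfield (L ≃ₐ[K] L) (FF L N) = (ffMap (algebraMap K L) N).fieldRange := by
  letI := ffMulSemiringAction (K := K) (L := L) N
  ext y
  rw [← ffAut_eq_self_iff N y]
  rfl

end Fermat.Agent.S40.M1.FFDescent
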