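/-
S44/S40 (`moonshots` row 67, leaf (T6-ASM) part B, continued; helper23; dispatch #3240 (1)): **THE NAMED LEAF (SS)
`MainNorm.SSLeafV` FROM THE SINGLE NAMED LEAF `SS.AuxLeaf` AT THE AUXILIARY LEVEL `lcm(4, M)`.**

* `auxDescent_of_psi` : the named Prop (S-a) `SS.AuxDescent` is a THEOREM (helper6's
  `AuxSS.ssVanish_of_aux`: norm argument, `ψ(N) = ψ(M) · c`, `p` prime to `c`);
  `auxDescent_lcm_four` : the instance `N = lcm(4, M)`, `p ≥ 5`;
* `ssLeafV_of_ssLeaf` : `Main.SSLeaf ⇒ MainNorm.SSLeafV` (the converse of `MainNorm.ssLeaf_of_ssLeafV`);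
* ★ `ssLeafV_of_auxLeaf` : `SS.AuxLeaf (lcm 4 M) p _ A L₀ → MainNorm.SSLeafV M p A L₀ V`;
* ★ `t6Out_norm_of_auxLeaf` : T6′ for the `Norm` of record from `SS.AuxLeaf` at the small level
  `L₀ = bigLevel A (smallField V)`;
* `AuxStatement P` / ★ `ssStatement_of_aux` : the Frey form — helper15's `Top/OfSS.SSStatement P` from the
  (R4) ∘ (R5′) statement at the auxiliary level; ★★ `s44_of_aux` : the frozen S44 conclusion from it.
-/
import Mathlib
import Fermat.Agent.S40.M1.SS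
import Fermat.Agent.S40.M1.AuxSS
import Fermat.Agent.S40.M1.MainNorm
import Fermat.Agent.S40.Top.OfSS

set_option autoImplicit false
set_option linter.unusedSectionVars false
set_option linter.unusedVariables false
set_option linter.dupNamespace false
set_option linter.style.haveILetI false
set_option synthInstance.maxHeartbeats 400000
set_option maxHeartbeats 1600000

open ModularCurve AlgebraicCurve IntermediateField

noncomputable section

namespace Fermat.Agent.S40.M1.SSFinal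

open Fermat.Agent.S28.Gauss
open Fermat.Agent.N4.Setting Fermat.Agent.N4.BaseDescent Fermat.Agent.N4.BigDVR
  Fermat.Agent.N4.Chart Fermat.Agent.N4.S18Glue Fermat.Agent.N4.FibreEmbedding
  Fermat.Agent.P3G.Assembly.LevelStep Fermat.Agent.P3G.Assembly.StepOfLevel
  Fermat.Agent.P3G.GammaDict Fermat.Agent.P3G.GeomStep
  Fermat.Agent.P3G.Gamma Fermat.Agent.P3G.GammaAut
  Fermat.Agent.N4F.C Fermat.Agent.N4F.C.Levels Fermat.Agent.N4F.C.Galois
  Fermat.Agent.N4F.E.GaussDVR Fermat.Agent.N4F.E.DegreeLevelRaise Fermat.Agent.N4F.C.ChartFibre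
  Fermat.Agent.N4F.Res Fermat.Agent.N4F.A.LevelMaps
  Fermat.Agent.P4.Push Fermat.Agent.P4.FrobLevelStep
  Fermat.Agent.S19.Cech.LevelBasis
  Fermat.Agent.S33.L.Contracts
  Fermat.Agent.S40.W.F4Level Fermat.Agent.S40.W.F4Place Fermat.Agent.S40.W.F4Good Fermat.Agent.S40.W
  Fermat.Agent.S40.Top.Eigen Fermat.Agent.S40.Top.CopyOfE
  Fermat.Agent.S40.M4.Final Fermat.Agent.S40.M4.LGLevel Fermat.Agent.S40.New.Pack
  Fermat.Agent.S40.M1.LevelUp Fermat.Agent.S40.M1.Main Fermat.Agent.S40.M1.MainNorm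
  Fermat.Agent.S40.M1.SmallField Fermat.Agent.S40.M1.SS
  Fermat.Agent.S40.M1.AuxLevel Fermat.Agent.S40.M1.AuxVal Fermat.Agent.S40.M1.AuxOrd
  Fermat.Agent.S40.M1.AuxSS
  Fermat.Agent.P3G

local notation "Qbar" => AlgebraicClosure ℚ
local notation "Γ" => (AlgebraicClosure ℚ ≃ₐ[ℚ] AlgebraicClosure ℚ)

/-! ### (S-a) is a theorem -/

section Descent

variable {M N p : ℕ} [NeZero M] [NeZero N] [NeZero p] [Fact p.Prime] {A : ValuationSubring Qbar}

/-- **(S-a)**: the descent of the order condition from the auxiliary level `N` to `M ∣ N`, when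
`ψ(N) = ψ(M) · c` with `p` prime to `c` (helper6's `AuxSS.ssVanish_of_aux`). -/
theorem auxDescent_of_psi (hpM : ¬ p ∣ M) (hpN : ¬ p ∣ N) (h : M ∣ N) (hA : A.LiesOverPrime p)
    (c : ℕ) (hc : dedekindPsi N = dedekindPsi M * c) (hpc : Nat.Coprime p c) :
    AuxDescent M N p hpM hpN h A := by
  intro K hK _ S₂ S fK hf₁ hall
  haveI : IsAlgClosed (IsLocalRing.ResidueField ↥(baseRing A K)) := hK.algClosed
  haveI : CharP (IsLocalRing.ResidueField ↥(baseRing A K)) p := charP_good N p hpN A K hK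
  obtain ⟨ϖ, hϖ⟩ := IsDiscreteValuationRing.exists_irreducible ↥(baseRing A K)
  obtain ⟨-, -, -, -, -, hA2N⟩ := levelFacts_good N p hpN A hA K hK
  have hfN₁ : (gaussVS (Lvl K) (N * p) (baseRing A K)).valuation (inclL (Lvl K) h p fK) = 1 :=
    (valuation_gaussVS_inclF_eq_one_iff (Lvl K) (baseRing A K)
      (Nat.mul_dvd_mul_right h p)).2 hf₁
  apply ssDvd_of_ssVanish hpM hϖ
  exact ssVanish_of_aux M N p h hpN A hA K hK hA2N S S₂ ϖ c hc hpc hf₁
    (mem_gauss_of_valuation_eq_one (Lvl K) N p (baseRing A K) hfN₁)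
    (fun s' => hall hA2N hfN₁ s')

end Descent

section LcmFour

variable {M p : ℕ} [NeZero M] [NeZero (Nat.lcm 4 M)] [NeZero p] [Fact p.Prime]
  {A : ValuationSubring Qbar}

/-- **(S-a) at the auxiliary level `lcm(4, M)`, `p ≥ 5`.** -/
theorem auxDescent_lcm_four (hp5 : 5 ≤ p) (hpM : ¬ p ∣ M) (hpN : ¬ p ∣ Nat.lcm 4 M)
    (hA : A.LiesOverPrime p) :
    AuxDescent M (Nat.lcm 4 M) p hpM hpN (Nat.dvd_lcm_right 4 M) A := by
  obtain ⟨c, hc6, hc⟩ := exists_dedekindPsi_lcm_four M (NeZero.ne M)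
  exact auxDescent_of_psi hpM hpN (Nat.dvd_lcm_right 4 M) hA c hc
    (coprime_of_dvd_six Fact.out hp5 hc6)

end LcmFour

/-! ### `Main.SSLeaf ⇒ MainNorm.SSLeafV` -/

section Conv

variable {M p : ℕ} [NeZero M] [NeZero p] [Fact p.Prime] {A : ValuationSubring Qbar}

theorem ssLeafV_of_ssLeaf (hpM : ¬ p ∣ M) {L₀ : IntermediateField ℚ Qbar}
    {V : Submodule (ZMod p) (Jtors (M * p) p)} (h : SSLeaf M p hpM A L₀ V) :
    SSLeafV M p A L₀ V := by
  intro x hx f₀ hrep hnα hnβ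
  obtain ⟨K₂, hfin, hK₂⟩ := h x hx f₀ hrep hnα hnβ
  refine ⟨K₂, hfin, fun K hK _ S₂ ϖ hLK hϖ hle hrepK hN => ?_⟩
  exact ssVanish_of_ssDvd hpM hK hN.2.1 (hK₂ K hK S₂ hLK hle hrepK hN)

end Conv

/-! ### The named leaf (SS) from the auxiliary level `lcm(4, M)` -/

section Final

variable {M p : ℕ} [NeZero M] [NeZero (Nat.lcm 4 M)] [NeZero p] [Fact p.Prime]
  {A : ValuationSubring Qbar}

/-- ★ **`Main.SSLeaf` from the single named leaf `SS.AuxLeaf` at the auxiliary level `lcm(4, M)`.** -/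
theorem ssLeaf_of_auxLeaf_lcm_four (hp5 : 5 ≤ p) (hpM : ¬ p ∣ M) (hpN : ¬ p ∣ Nat.lcm 4 M)
    (hA : A.LiesOverPrime p) {L₀ : IntermediateField ℚ Qbar}
    {V : Submodule (ZMod p) (Jtors (M * p) p)}
    (haux : AuxLeaf (Nat.lcm 4 M) p hpN A L₀) : SSLeaf M p hpM A L₀ V :=
  ssLeaf_of_auxLeaf hpM hpN (Nat.dvd_lcm_right 4 M) hA (auxDescent_lcm_four hp5 hpM hpN hA) haux

/-- ★ **`MainNorm.SSLeafV` from the single named leaf `SS.AuxLeaf` at the auxiliary level
`lcm(4, M)`.** -/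
theorem ssLeafV_of_auxLeaf (hp5 : 5 ≤ p) (hpM : ¬ p ∣ M) (hpN : ¬ p ∣ Nat.lcm 4 M)
    (hA : A.LiesOverPrime p) {L₀ : IntermediateField ℚ Qbar}
    {V : Submodule (ZMod p) (Jtors (M * p) p)}
    (haux : AuxLeaf (Nat.lcm 4 M) p hpN A L₀) : SSLeafV M p A L₀ V :=
  ssLeafV_of_ssLeaf hpM (ssLeaf_of_auxLeaf_lcm_four hp5 hpM hpN hA haux)

variable {W : WeierstrassCurve ℤ}

/-- ★ **T6′ for the `Norm` of record from `SS.AuxLeaf`** at the auxiliary level `lcm(4, M)` and the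
small level `L₀ = bigLevel A (smallField V)`. -/
theorem t6Out_norm_of_auxLeaf (hp5 : 5 ≤ p) (hpM : ¬ p ∣ M) (hpN : ¬ p ∣ Nat.lcm 4 M)
    (hA : A.LiesOverPrime p) (hΔ : W.Δ ≠ 0) (hirr : W.ModRepIsIrreducible p)
    {V : Submodule (ZMod p) (Jtors (M * p) p)}
    (hle : V ≤ Wtheta W p (M * p)) (hC : CopyOfE W p V)
    (hnew : ∀ x ∈ V, ((x : Jtors (M * p) p) : JZero (M * p)) ∈ newPart M p)
    (haux : AuxLeaf (Nat.lcm 4 M) p hpN A (bigLevel A (smallField V))) :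
    T6Out (Fermat.Agent.S40.New.Norm.norm M p A) V :=
  t6Out_norm hpM hA hΔ (by omega) hirr hle hC hnew
    (ssLeaf_of_auxLeaf_lcm_four hp5 hpM hpN hA haux)

end Final

/-! ### The Frey form -/

section Frey

open WeierstrassCurve WeierstrassCurve.Affine WeierstrassCurve.Affine.Point
open Fermat.Agent.S40.Top.Eigen Fermat.Agent.S40.Top.Final
open Fermat.Agent.S40.Top.CopyOfE Fermat.Agent.S40.Top.FreyGlue Fermat.Agent.S40.Top.FreyGluePadic
open Fermat.Agent.S40.Top.OfT6 Fermat.Agent.S40.Top.OfSS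
open Fermat.Agent.P3G.AuxPrime
open Fermat.Agent.S56.Places.Dict

variable (P : FreyPackage) {N : ℕ}

/-- **The named leaf (R4) ∘ (R5′) for the Frey package `P`**: for every integral model `W`, every level
`M'` prime to `p = P.p` and every `p`-new simple copy `V ≤ Wθ` of `W[p]`, the statement `SS.AuxLeaf` at
the auxiliary level `lcm(4, M')`, the place `padicPlace p` and the small good level
`L₀ = bigLevel (padicPlace p) (smallField V)`. -/
def AuxStatement : Prop :=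
  ∀ (W : WeierstrassCurve ℤ), W.IsIntegralModelOf P.freyCurve →
    ∀ (M' : ℕ) [NeZero M'] [NeZero (Nat.lcm 4 M')], ¬ P.p ∣ M' →
    ∀ hpN : ¬ P.p ∣ Nat.lcm 4 M', W.IsResiduallyModularOfLevel P.p (M' * P.p) →
    haveI : Fact P.p.Prime := ⟨P.pp⟩
    haveI : NeZero P.p := ⟨P.pp.ne_zero⟩
    ∀ V : Submodule (ZMod P.p) (Jtors (M' * P.p) P.p), IsSimpleGal V →
      V ≤ Wtheta W P.p (M' * P.p) → CopyOfE W P.p V →
      (∀ x ∈ V, ((x : Jtors (M' * P.p) P.p) : JZero (M' * P.p)) ∈ newPart M' P.p) →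
      AuxLeaf (Nat.lcm 4 M') P.p hpN (padicPlace P.p) (bigLevel (padicPlace P.p) (smallField V))

/-- ★ **(SS) in the Frey form from the auxiliary level.** -/
theorem ssStatement_of_aux (h : AuxStatement P) : SSStatement P := by
  intro W hW M' _ hpM' hmod'
  haveI : Fact P.p.Prime := ⟨P.pp⟩
  haveI : NeZero P.p := ⟨P.pp.ne_zero⟩
  intro V hV hle hC hnew
  haveI : NeZero (Nat.lcm 4 M') := neZero_lcm_four M'
  have hpN : ¬ P.p ∣ Nat.lcm 4 M' := not_dvd_lcm_four P.pp P.hp5 hpM'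
  exact ssLeafV_of_auxLeaf P.hp5 hpM' hpN (liesOverPrime_padicPlace P.p)
    (h W hW M' hpM' hpN hmod' V hV hle hC hnew)

/-- ★★ **The frozen S44 from the single named leaf (R4) ∘ (R5′) at the auxiliary level** (which may
use `p ∣ abc`). -/
theorem s44_of_aux (hcond : P.IsConductorLevel N) (hpN : P.p ∣ N)
    (hirr : GaloisRepIsIrreducible (K := AlgebraicClosure ℚ) ℚ P.freyCurve P.p)
    (hmod : P.ModularRepOfLevel N)
    (h : (P.p : ℤ) ∣ P.a * P.b * P.c → AuxStatement P) :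
    ∃ M : ℕ, M ∣ N ∧ ¬ P.p ∣ M ∧ P.ModularRepOfLevel M :=
  s44_of_ss P hcond hpN hirr hmod (fun habc => ssStatement_of_aux P (h habc))

end Frey

end Fermat.Agent.S40.M1.SSFinal
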