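/-
S44/S40 (`moonshots` row 67, T6′; helper23): **THE LAST INCH — the Frey form `SSFinal.AuxStatement P` from
the general (non-Frey) theorem (R4) ∘ (Q) ∘ (R5) at an auxiliary level, and the frozen S44 from it.**

helper25's `R4Final.dvd_ord_of_node` (per-node chain, (R5) consumed through a conjugation-stable predicate
`Fix` on the absolute Galois group) gives, once the uniform inputs are assembled, a theorem of the shape
`R4General` below: `SS.AuxLeaf N p hpN A L₀` for `p ≥ 5`, `4 ∣ N`, any place `A ∣ p`, a good level `L₀`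
fixed pointwise by the elements of `I_A` satisfying `Fix`, and the pack (R5) for `Fix`.

* `R4General` : that shape, as a named Prop;
* ★ `auxStatement_of_general` : `R4General → SSFinal.AuxStatement P` for `p ∣ abc` (`N = lcm(4, M')`,
  `A = padicPlace p`, `L₀ = bigLevel A (smallField V)`, `Fix = fixV V`, (R5) = helper17's
  `NodeR5.hR5_fixV` on helper29's pack);
* ★★ `s44_of_general` : the frozen S44 conclusion from `R4General`.
-/
import Mathlib
import Fermat.Agent.S40.M1.SSFinal
import Fermat.Agent.S40.M1.NodeR5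

set_option autoImplicit false
set_option linter.unusedSectionVars false
set_option linter.unusedVariables false
set_option linter.dupNamespace false
set_option linter.style.haveILetI false
set_option synthInstance.maxHeartbeats 400000
set_option maxHeartbeats 1600000

open ModularCurve AlgebraicCurve IntermediateField

noncomputable section

namespace Fermat.Agent.S40.M1.AuxFrey

open WeierstrassCurve WeierstrassCurve.Affine WeierstrassCurve.Affine.Point
open Fermat.Agent.N4.BigDVR Fermat.Agent.P3G.Gamma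
open Fermat.Agent.N4F.C Fermat.Agent.N4F.C.Levels
open Fermat.Agent.P3G.Assembly.LevelStep
open Fermat.Agent.N4F.Res Fermat.Agent.S40.Top.Eigen Fermat.Agent.S40.Top.Final
open Fermat.Agent.S40.Top.CopyOfE Fermat.Agent.S40.Top.FreyGlue Fermat.Agent.S40.Top.FreyGluePadic
open Fermat.Agent.S40.Top.OfT6 Fermat.Agent.S40.Top.OfSS
open Fermat.Agent.S40.New.Pack
open Fermat.Agent.S40.M1.SmallField Fermat.Agent.S40.M1.MainNorm Fermat.Agent.S40.M1.SS
open Fermat.Agent.S40.M1.SSFinal Fermat.Agent.S40.M1.AuxSS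
open Fermat.Agent.S40.M1.PlaceTransport Fermat.Agent.S40.M1.NodeR5
open Fermat.Agent.P3G.AuxPrime Fermat.Agent.P4.Push
open Fermat.Agent.S56.Places.Dict

local notation "Qbar" => AlgebraicClosure ℚ
local notation "Γ" => (AlgebraicClosure ℚ ≃ₐ[ℚ] AlgebraicClosure ℚ)

/-- **The general form of (R4) ∘ (Q) ∘ (R5) at an auxiliary level** (the expected final theorem of the
block (R4)): for `p ≥ 5`, `4 ∣ N`, `p ∤ N`, a place `A ∣ p`, a good level `L₀`, a conjugation-stable
predicate `Fix` on the Galois group with the pack (R5) (at `padicPlace p`), such that the elements of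
`I_A` satisfying `Fix` fix `L₀` pointwise: the named leaf `SS.AuxLeaf N p hpN A L₀`. -/
def R4General : Prop :=
  ∀ (N p : ℕ) [NeZero N] [NeZero p] [Fact p.Prime], 5 ≤ p → 4 ∣ N → ∀ (hpN : ¬ p ∣ N)
    (A : ValuationSubring Qbar), A.LiesOverPrime p →
    ∀ (L₀ : IntermediateField ℚ Qbar), IsGoodLevel A p L₀ →
    ∀ (Fix : Γ → Prop), (∀ g σ : Γ, Fix σ → Fix (g * σ * g⁻¹)) →
    (∀ y : Qbar, y ≠ 0 → ∀ n : ℤ,
      (∀ σ ∈ (padicPlace p).inertiaSubgroupIn ℚ, Fix σ → σ y = y) →
      ‖padicEmbedding p (y ^ p / (p : Qbar) ^ n - 1)‖ ≤ ‖(p : PadicAlgCl p)‖ → (p : ℤ) ∣ n) →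
    (∀ σ ∈ A.inertiaSubgroupIn ℚ, Fix σ → ∀ c ∈ L₀, σ c = c) →
    AuxLeaf N p hpN A L₀

variable (P : FreyPackage) {N : ℕ}

/-- ★ **The Frey form from the general form.** -/
theorem auxStatement_of_general (H : R4General) (habc : (P.p : ℤ) ∣ P.a * P.b * P.c) :
    AuxStatement P := by
  intro W hW M' _ _ hpM' hpN hmod'
  haveI : Fact P.p.Prime := ⟨P.pp⟩
  haveI : NeZero P.p := ⟨P.pp.ne_zero⟩
  intro V hV hle hC hnew
  have hA := liesOverPrime_padicPlace P.p
  exact H (Nat.lcm 4 M') P.p P.hp5 (Nat.dvd_lcm_left 4 M') hpN (padicPlace P.p) hA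
    (bigLevel (padicPlace P.p) (smallField V))
    (isGoodLevel_bigLevel_smallField P.pp hA hC.isGalStable)
    (fixV V) (fixV_conj hC.isGalStable)
    (hR5_fixV P habc hW (Δ_ne_zero_of_model P hW) hC)
    (fun σ hσ hσV c hc => apply_eq_of_mem_bigLevel_smallField P.pp hA hσ hσV hc)

/-- ★★ **The frozen S44 from the general form of (R4) ∘ (Q) ∘ (R5).** -/
theorem s44_of_general (H : R4General) (hcond : P.IsConductorLevel N) (hpN : P.p ∣ N)
    (hirr : GaloisRepIsIrreducible (K := AlgebraicClosure ℚ) ℚ P.freyCurve P.p)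
    (hmod : P.ModularRepOfLevel N) :
    ∃ M : ℕ, M ∣ N ∧ ¬ P.p ∣ M ∧ P.ModularRepOfLevel M :=
  s44_of_aux P hcond hpN hirr hmod (fun habc => auxStatement_of_general P H habc)

end Fermat.Agent.S40.M1.AuxFrey
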