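/-
S40 / S44 (row 38), T6′ static route, block (R4-D) leaf (D7) support (helper14, dispatch #3203 (1),
helper1 #3198 (f)): **the kernel of an evaluation at a smooth point is principal.**

`D` a Noetherian local ring with `𝔪_D = (t, ϖ)` (the local ring of the smooth model at a closed point
of the special fibre: `ϖ` the uniformiser of the base, `t` a coordinate), `ev : D →+* O` a ring
homomorphism into a domain with `ev t = 0`, `ev ϖ ≠ 0` (evaluation at a section through the point,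
`t` vanishing on the section).  Then `ker ev = (t)`.

No regularity, no "`(t)` is prime", no surjectivity of `ev`, `D` need not be a domain: if
`x = a t + b ϖ ^ n ∈ ker ev` then `ev b = 0`, so `b ∈ 𝔪_D` and `x ∈ (t) + (ϖ ^ (n + 1))`; Krull's
intersection theorem for the module `D / (t)` finishes.

* `mem_span_sup_pow` : `ker ev ≤ (t) ⊔ (ϖ ^ n)` for all `n`;
* ★ `ker_eq_span` : `RingHom.ker ev = Ideal.span {t}`;   `exists_eq_mul` : `ev x = 0 → ∃ q, x = q * t`;
* ★ `ker_eq_span_sub`, `exists_eq_mul_sub` : the form of (D7): `𝔪_D = (z, ϖ)`, `c ∈ (ϖ)`,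
  `ev z = ev c` ⇒ `ker ev = (z − c)`;
* `span_pair_sub_eq` : `(z − c, ϖ) = (z, ϖ)` for `c ∈ (ϖ)`;
* `map_eq_span_pair`, `maximalIdeal_eq_span_pair` : the chart form of (D2)
  (`∃ c ∉ 𝔪, ∀ r ∈ 𝔪, ∃ a d, c * r = a * z + d * ϖ`) ⇒ `𝔪_L = (z, ϖ)` in ANY localisation `L` of the
  chart at `𝔪`.
Mathlib only.
-/
import Mathlib

set_option autoImplicit false
set_option linter.unusedSectionVars false
set_option linter.style.longLine false

namespace Fermat.Agent.S40.M1.KerEval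

open IsLocalRing

section Ker

variable {D O : Type*} [CommRing D] [IsLocalRing D] [CommRing O] [IsDomain O] (ev : D →+* O)
  {t ϖ : D}

/-- `ker ev ⊆ (t) + (ϖ ^ n)` for every `n`. -/
theorem mem_span_sup_pow (hm : maximalIdeal D = Ideal.span {t, ϖ}) (ht : ev t = 0)
    (hϖ : ev ϖ ≠ 0) (n : ℕ) {x : D} (hx : ev x = 0) :
    ∃ a b : D, x = a * t + b * ϖ ^ n := by
  induction n with
  | zero => exact ⟨0, x, by ring⟩
  | succ n ih =>
    obtain ⟨a, b, hab⟩ := ih
    have hb : ev b = 0 := by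
      have h := hx
      rw [hab, map_add, map_mul, map_mul, ht, mul_zero, zero_add, map_pow] at h
      exact (mul_eq_zero.1 h).resolve_right (pow_ne_zero _ hϖ)
    have hb𝔪 : b ∈ maximalIdeal D := by
      rw [mem_maximalIdeal, mem_nonunits_iff]
      intro hu
      have := hu.map ev
      rw [hb] at this
      exact not_isUnit_zero this
    rw [hm, Ideal.mem_span_pair] at hb𝔪
    obtain ⟨c, d, hcd⟩ := hb𝔪
    refine ⟨a + c * ϖ ^ n, d, ?_⟩
    rw [hab, ← hcd]
    ring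

variable [IsNoetherianRing D]

/-- **`ker ev = (t)`.** -/
theorem ker_eq_span (hm : maximalIdeal D = Ideal.span {t, ϖ}) (ht : ev t = 0) (hϖ : ev ϖ ≠ 0) :
    RingHom.ker ev = Ideal.span {t} := by
  apply le_antisymm
  · intro x hx
    rw [RingHom.mem_ker] at hx
    -- Krull's intersection theorem in the module `D ⧸ (t)`
    have hK := Ideal.iInf_pow_smul_eq_bot_of_isLocalRing (R := D) (M := D ⧸ Ideal.span {t})
      (maximalIdeal D) (Ideal.IsPrime.ne_top inferInstance)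
    have hmem : (Ideal.Quotient.mk (Ideal.span {t}) x : D ⧸ Ideal.span {t}) ∈
        (⨅ i : ℕ, maximalIdeal D ^ i • ⊤ : Submodule D (D ⧸ Ideal.span {t})) := by
      rw [Submodule.mem_iInf]
      intro n
      obtain ⟨a, b, hab⟩ := mem_span_sup_pow ev hm ht hϖ n hx
      have hϖ𝔪 : ϖ ∈ maximalIdeal D := by
        rw [hm]; exact Ideal.subset_span (by simp)
      have e : (Ideal.Quotient.mk (Ideal.span {t}) x : D ⧸ Ideal.span {t}) =
          (ϖ ^ n) • (Ideal.Quotient.mk (Ideal.span {t}) b : D ⧸ Ideal.span {t}) := by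
        rw [hab, map_add, map_mul, map_mul]
        have : (Ideal.Quotient.mk (Ideal.span {t})) t = 0 :=
          Ideal.Quotient.eq_zero_iff_mem.2 (Ideal.mem_span_singleton_self t)
        rw [this, mul_zero, zero_add, Algebra.smul_def, mul_comm]
        rfl
      rw [e]
      exact Submodule.smul_mem_smul (Ideal.pow_mem_pow hϖ𝔪 n) trivial
    rw [hK, Submodule.mem_bot] at hmem
    exact Ideal.Quotient.eq_zero_iff_mem.1 hmem
  · rw [Ideal.span_le, Set.singleton_subset_iff]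
    exact ht

/-- Elementwise form. -/
theorem exists_eq_mul (hm : maximalIdeal D = Ideal.span {t, ϖ}) (ht : ev t = 0) (hϖ : ev ϖ ≠ 0)
    {x : D} (hx : ev x = 0) : ∃ q : D, x = q * t := by
  have : x ∈ Ideal.span {t} := by
    rw [← ker_eq_span ev hm ht hϖ]; exact hx
  obtain ⟨q, hq⟩ := Ideal.mem_span_singleton'.1 this
  exact ⟨q, hq.symm⟩

omit [IsLocalRing D] [IsNoetherianRing D] in
/-- `(z − c, ϖ) = (z, ϖ)` for `c ∈ (ϖ)`. -/
theorem span_pair_sub_eq {z c : D} (hc : c ∈ Ideal.span {ϖ}) :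
    Ideal.span {z - c, ϖ} = Ideal.span {z, ϖ} := by
  obtain ⟨c', rfl⟩ := Ideal.mem_span_singleton'.1 hc
  apply le_antisymm
  · rw [Ideal.span_le]
    rintro x (rfl | rfl)
    · exact Ideal.mem_span_pair.2 ⟨1, -c', by ring⟩
    · exact Ideal.subset_span (by simp)
  · rw [Ideal.span_le]
    rintro x (rfl | rfl)
    · exact Ideal.mem_span_pair.2 ⟨1, c', by ring⟩
    · exact Ideal.subset_span (by simp)

/-- **(D7) form**: `𝔪_D = (z, ϖ)`, `c ∈ (ϖ)`, `ev z = ev c` ⇒ `ker ev = (z − c)`. -/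
theorem ker_eq_span_sub {z c : D} (hm : maximalIdeal D = Ideal.span {z, ϖ})
    (hc : c ∈ Ideal.span {ϖ}) (hz : ev z = ev c) (hϖ : ev ϖ ≠ 0) :
    RingHom.ker ev = Ideal.span {z - c} :=
  ker_eq_span ev (by rw [hm, span_pair_sub_eq hc]) (by rw [map_sub, hz, sub_self]) hϖ

/-- **(D7) form**, elementwise. -/
theorem exists_eq_mul_sub {z c : D} (hm : maximalIdeal D = Ideal.span {z, ϖ})
    (hc : c ∈ Ideal.span {ϖ}) (hz : ev z = ev c) (hϖ : ev ϖ ≠ 0) {x : D} (hx : ev x = 0) :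
    ∃ q : D, x = q * (z - c) :=
  exists_eq_mul ev (by rw [hm, span_pair_sub_eq hc]) (by rw [map_sub, hz, sub_self]) hϖ hx

end Ker

/-! ### From the chart form of (D2) to the local ring -/

section Chart

variable {T : Type*} [CommRing T] (𝔪 : Ideal T) [𝔪.IsPrime] (L : Type*) [CommRing L] [Algebra T L]
  [IsLocalization.AtPrime L 𝔪] {z ϖ : T}

/-- **(D2) chart form ⇒ local form**: `𝔪 L = (z, ϖ)`. -/
theorem map_eq_span_pair (hz : z ∈ 𝔪) (hϖ : ϖ ∈ 𝔪)
    (hgen : ∃ c, c ∉ 𝔪 ∧ ∀ r ∈ 𝔪, ∃ a d, c * r = a * z + d * ϖ) :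
    𝔪.map (algebraMap T L) = Ideal.span {algebraMap T L z, algebraMap T L ϖ} := by
  obtain ⟨c, hc, hgen⟩ := hgen
  apply le_antisymm
  · rw [Ideal.map_le_iff_le_comap]
    intro r hr
    rw [Ideal.mem_comap]
    obtain ⟨a, d, h⟩ := hgen r hr
    obtain ⟨w, hw⟩ : IsUnit (algebraMap T L c) :=
      IsLocalization.map_units L (⟨c, hc⟩ : 𝔪.primeCompl)
    have hmem : algebraMap T L c * algebraMap T L r ∈
        Ideal.span {algebraMap T L z, algebraMap T L ϖ} := by
      rw [← map_mul, h, map_add, map_mul, map_mul]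
      exact Ideal.add_mem _ (Ideal.mul_mem_left _ _ (Ideal.subset_span (by simp)))
        (Ideal.mul_mem_left _ _ (Ideal.subset_span (by simp)))
    have : algebraMap T L r = ↑w⁻¹ * (algebraMap T L c * algebraMap T L r) := by
      rw [← hw, ← mul_assoc, Units.inv_mul, one_mul]
    rw [this]
    exact Ideal.mul_mem_left _ _ hmem
  · rw [Ideal.span_le]
    rintro x (rfl | rfl)
    · exact Ideal.mem_map_of_mem _ hz
    · exact Ideal.mem_map_of_mem _ hϖ

/-- **(D2) chart form ⇒ `hmt` of `NodeAlg`** in any localisation `L` of the chart at `𝔪`. -/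
theorem maximalIdeal_eq_span_pair [IsLocalRing L] (hz : z ∈ 𝔪) (hϖ : ϖ ∈ 𝔪)
    (hgen : ∃ c, c ∉ 𝔪 ∧ ∀ r ∈ 𝔪, ∃ a d, c * r = a * z + d * ϖ) :
    maximalIdeal L = Ideal.span {algebraMap T L z, algebraMap T L ϖ} := by
  rw [← IsLocalization.AtPrime.map_eq_maximalIdeal 𝔪 L]
  exact map_eq_span_pair 𝔪 L hz hϖ hgen

/-- **(D7) at the chart level**: `L` a Noetherian localisation of the chart `T` at `𝔪`, `ev : L →+* O`
into a domain, `c = c' ϖ`, `ev z = ev c`, `ev ϖ ≠ 0` ⇒ every `x ∈ ker ev` is a multiple of `z − c`. -/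
theorem exists_eq_mul_sub_of_chart [IsLocalRing L] [IsNoetherianRing L] {O : Type*} [CommRing O]
    [IsDomain O] (ev : L →+* O) (hz : z ∈ 𝔪) (hϖ : ϖ ∈ 𝔪)
    (hgen : ∃ c, c ∉ 𝔪 ∧ ∀ r ∈ 𝔪, ∃ a d, c * r = a * z + d * ϖ) {c : T}
    (hc : c ∈ Ideal.span {ϖ}) (hev : ev (algebraMap T L z) = ev (algebraMap T L c))
    (hϖ0 : ev (algebraMap T L ϖ) ≠ 0) {x : L} (hx : ev x = 0) :
    ∃ q : L, x = q * (algebraMap T L z - algebraMap T L c) := by
  refine exists_eq_mul_sub ev (maximalIdeal_eq_span_pair 𝔪 L hz hϖ hgen) ?_ hev hϖ0 hx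
  obtain ⟨c', rfl⟩ := Ideal.mem_span_singleton'.1 hc
  rw [map_mul]
  exact Ideal.mul_mem_left _ _ (Ideal.mem_span_singleton_self _)

end Chart

end Fermat.Agent.S40.M1.KerEval
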