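/-
S40 / S44 (row 38), T6′ static route (`moonshots` row 67), block (R4), final algebra (helper5):
**the node identity from the VALUES of the two norm equations at the test points.**

`k` a field with a valuation subring `A` (the big good level and its base ring), `π ∈ 𝔪_A`
(`π = p`).  `U₁ := 1 + π A` (`principalUnits`).  Given the values at the test points `Q̃`, `Q̃′`

* `ηA, ηB`  of `h_A / N_α β`, `h_B / N_β β`,
* `uA = π ^ p * tA ^ p * (unit of U₁)`, `uB = π * tB ^ p * (unit of U₁)`  of `N_α u`, `N_β u`,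
* `wA, wB ∈ w₀ ^ (p + 1) * U₁`  of `N_α W`, `N_β W`  (`w₀` a unit of `A`),

and the two relations `ηA ^ p = uA ^ n * wA`, `ηB ^ p = uB ^ n * wB` (= `NodeNormStep.norm_step`
evaluated), the element `y := (ηA / ηB) * (tB / tA) ^ n` satisfies

  `y ^ p = π ^ ((p - 1) * n) * (1 + π c)`,  `c ∈ A`,

and `y` is fixed by every automorphism fixing `ηA, ηB, tA, tB`.  Mathlib only.

API: `IsPU A π x` (`x ∈ 1 + π A`; `.mul .inv .div .pow .zpow .ne_zero .valuation_eq_one`),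
`isPU_div_of_eq_add` (`wA = wB + π d`, the output shape of `FibreNorm.map_norm_sub_map_norm_mem`),
`isPU_div_of_both`, ★ `node_identity_of_ratio` / `node_identity` (`∃ e ∈ 1 + π A, y ^ p = π ^ ((p-1) n) e`),
★ `node_identity_mem` (consumer shape `y ≠ 0 ∧ (y ^ p / π ^ ((p-1) n) - 1) / π ∈ A`),
`node_identity_fixed`.
-/
import Mathlib

set_option autoImplicit false
set_option linter.unusedSectionVars false
set_option linter.unusedVariables false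

namespace Fermat.Agent.S40.M1.NodeCore

variable {k : Type*} [Field k] (A : ValuationSubring k) {π : k}

/-- `x ∈ 1 + π A`. -/
def IsPU (π x : k) : Prop := ∃ a ∈ A, x = 1 + π * a

variable {A}

theorem isPU_one : IsPU A π 1 := ⟨0, A.zero_mem, by ring⟩

theorem IsPU.mul {x y : k} (hx : IsPU A π x) (hy : IsPU A π y) (hπ : π ∈ A) :
    IsPU A π (x * y) := by
  obtain ⟨a, ha, rfl⟩ := hx
  obtain ⟨b, hb, rfl⟩ := hy
  exact ⟨a + b + π * a * b, A.add_mem _ _ (A.add_mem _ _ ha hb)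
    (A.mul_mem _ _ (A.mul_mem _ _ hπ ha) hb), by ring⟩

theorem IsPU.valuation_eq_one {x : k} (hx : IsPU A π x) (hπ : π ∈ A.nonunits) :
    A.valuation x = 1 := by
  obtain ⟨a, ha, rfl⟩ := hx
  have h1 : A.valuation (π * a) < 1 := by
    rw [map_mul]
    have h2 : A.valuation π < 1 := (A.mem_nonunits_iff).1 hπ
    have h3 : A.valuation a ≤ 1 := (A.valuation_le_one_iff a).2 ha
    calc A.valuation π * A.valuation a ≤ A.valuation π * 1 := by gcongr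
      _ = A.valuation π := mul_one _
      _ < 1 := h2
  exact Valuation.map_one_add_of_lt _ h1

theorem IsPU.ne_zero {x : k} (hx : IsPU A π x) (hπ : π ∈ A.nonunits) : x ≠ 0 := by
  intro h
  have := hx.valuation_eq_one hπ
  rw [h, map_zero] at this
  exact zero_ne_one this

theorem IsPU.inv {x : k} (hx : IsPU A π x) (hπ : π ∈ A.nonunits) : IsPU A π x⁻¹ := by
  have hv := hx.valuation_eq_one hπ
  have hx0 := hx.ne_zero hπ
  obtain ⟨a, ha, hxa⟩ := hx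
  have hinv : x⁻¹ ∈ A := by
    rw [← A.valuation_le_one_iff, map_inv₀, hv, inv_one]
  refine ⟨-(a * x⁻¹), A.neg_mem _ (A.mul_mem _ _ ha hinv), ?_⟩
  have h1 : x * x⁻¹ = 1 := mul_inv_cancel₀ hx0
  have h2 : x⁻¹ = 1 + π * -(a * x⁻¹) := by
    have : x⁻¹ - (1 + π * -(a * x⁻¹)) = (x * x⁻¹ - 1) - (x - (1 + π * a)) * x⁻¹ := by ring
    rw [← sub_eq_zero, this, h1, hxa]
    ring
  exact h2

theorem IsPU.div {x y : k} (hx : IsPU A π x) (hy : IsPU A π y) (hπ : π ∈ A.nonunits) :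
    IsPU A π (x / y) := by
  rw [div_eq_mul_inv]
  exact hx.mul (hy.inv hπ) (A.nonunits_le hπ)

theorem IsPU.pow {x : k} (hx : IsPU A π x) (hπ : π ∈ A) (n : ℕ) : IsPU A π (x ^ n) := by
  induction n with
  | zero => rw [pow_zero]; exact isPU_one
  | succ n ih => rw [pow_succ]; exact ih.mul hx hπ

theorem IsPU.zpow {x : k} (hx : IsPU A π x) (hπ : π ∈ A.nonunits) (n : ℤ) :
    IsPU A π (x ^ n) := by
  obtain ⟨m, rfl | rfl⟩ := n.eq_nat_or_neg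
  · rw [zpow_natCast]; exact hx.pow (A.nonunits_le hπ) m
  · rw [zpow_neg, zpow_natCast]; exact (hx.pow (A.nonunits_le hπ) m).inv hπ

/-- `w₀ ^ m + π d` is `w₀ ^ m` times a principal unit, `w₀` a unit of `A`. -/
theorem isPU_of_eq_add {w w₀ d : k} {m : ℕ} (hw₀ : w₀ ∈ A) (hw₀' : w₀⁻¹ ∈ A) (hw₀0 : w₀ ≠ 0)
    (hd : d ∈ A) (hw : w = w₀ ^ m + π * d) : IsPU A π (w / w₀ ^ m) := by
  refine ⟨d * (w₀⁻¹) ^ m, A.mul_mem _ _ hd (pow_mem hw₀' m), ?_⟩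
  rw [hw, inv_pow]
  field_simp

/-- `wA = wB + π d`, `wB` a unit of `A`: `wA / wB` is a principal unit. -/
theorem isPU_div_of_eq_add {wA wB d : k} (hwB' : wB⁻¹ ∈ A) (hwB0 : wB ≠ 0)
    (hd : d ∈ A) (hw : wA = wB + π * d) : IsPU A π (wA / wB) := by
  refine ⟨d * wB⁻¹, A.mul_mem _ _ hd hwB', ?_⟩
  rw [hw]
  field_simp

/-- `wA, wB ∈ w₀ ^ m + π A`, `w₀` a unit of `A`: `wA / wB` is a principal unit. -/
theorem isPU_div_of_both {wA wB w₀ dA dB : k} {m : ℕ} (hπ : π ∈ A.nonunits)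
    (hw₀ : w₀ ∈ A) (hw₀' : w₀⁻¹ ∈ A) (hw₀0 : w₀ ≠ 0)
    (hwA : wA = w₀ ^ m + π * dA) (hdA : dA ∈ A)
    (hwB : wB = w₀ ^ m + π * dB) (hdB : dB ∈ A) : wB ≠ 0 ∧ IsPU A π (wA / wB) := by
  have hqA := isPU_of_eq_add (π := π) hw₀ hw₀' hw₀0 hdA hwA
  have hqB := isPU_of_eq_add (π := π) hw₀ hw₀' hw₀0 hdB hwB
  have hwB0 : wB ≠ 0 := by
    intro h
    have := hqB.ne_zero hπ
    rw [h, zero_div] at this
    exact this rfl
  have hw0m : w₀ ^ m ≠ 0 := pow_ne_zero _ hw₀0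
  refine ⟨hwB0, ?_⟩
  have h5 : wA / wB = (wA / w₀ ^ m) / (wB / w₀ ^ m) := by
    field_simp
  rw [h5]
  exact hqA.div hqB hπ

/-- **The node identity (values), ratio form**: the only input on `wA, wB` is
`wA / wB ∈ 1 + π A`. -/
theorem node_identity_of_ratio (hπ : π ∈ A.nonunits) (hπ0 : π ≠ 0) {p : ℕ} (hp : 0 < p)
    {ηA ηB uA uB wA wB tA tB eA eB : k} {n : ℤ}
    (hηB : ηB ≠ 0) (htA : tA ≠ 0) (htB : tB ≠ 0)
    (huA : uA = π ^ p * tA ^ p * eA) (heA : IsPU A π eA)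
    (huB : uB = π * tB ^ p * eB) (heB : IsPU A π eB)
    (hwB0 : wB ≠ 0) (hq : IsPU A π (wA / wB))
    (hA : ηA ^ p = uA ^ n * wA) (hB : ηB ^ p = uB ^ n * wB) :
    ∃ e : k, IsPU A π e ∧
      ((ηA / ηB) * (tB / tA) ^ n) ^ p = π ^ (((p - 1 : ℕ) : ℤ) * n) * e := by
  have heA0 := heA.ne_zero hπ
  have heB0 := heB.ne_zero hπ
  refine ⟨(eA / eB) ^ n * (wA / wB),
    ((heA.div heB hπ).zpow hπ n).mul hq (A.nonunits_le hπ), ?_⟩
  have huB0 : uB ≠ 0 := by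
    rw [huB]
    exact mul_ne_zero (mul_ne_zero hπ0 (pow_ne_zero _ htB)) heB0
  have hηBp : ηB ^ p ≠ 0 := pow_ne_zero _ hηB
  -- the `p`-th power
  have h1 : ((ηA / ηB) * (tB / tA) ^ n) ^ p = (ηA ^ p / ηB ^ p) * ((tB ^ p / tA ^ p) ^ n) := by
    rw [mul_pow, div_pow, ← zpow_natCast ((tB / tA) ^ n) p, ← zpow_mul, mul_comm n (p : ℤ),
      zpow_mul, zpow_natCast, div_pow]
  rw [h1, hA, hB]
  -- ratio of the `u`'s
  have h2 : uA / uB = π ^ (p - 1) * (tA ^ p / tB ^ p) * (eA / eB) := by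
    rw [huA, huB]
    have hpp : π ^ p = π ^ (p - 1) * π := by
      rw [← pow_succ, Nat.sub_add_cancel hp]
    rw [hpp]
    field_simp
  have h3 : uA ^ n * wA / (uB ^ n * wB) = (uA / uB) ^ n * (wA / wB) := by
    rw [div_zpow]
    field_simp
  rw [h3, h2, mul_zpow, mul_zpow, ← zpow_natCast π (p - 1), ← zpow_mul]
  have h4 : (tA ^ p / tB ^ p) ^ n * (tB ^ p / tA ^ p) ^ n = 1 := by
    rw [← mul_zpow]
    have : tA ^ p / tB ^ p * (tB ^ p / tA ^ p) = 1 := by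
      field_simp
    rw [this, one_zpow]
  calc π ^ (((p - 1 : ℕ) : ℤ) * n) * (tA ^ p / tB ^ p) ^ n * (eA / eB) ^ n *
        (wA / wB) * (tB ^ p / tA ^ p) ^ n
      = π ^ (((p - 1 : ℕ) : ℤ) * n) * ((eA / eB) ^ n * (wA / wB)) *
          ((tA ^ p / tB ^ p) ^ n * (tB ^ p / tA ^ p) ^ n) := by ring
    _ = _ := by rw [h4, mul_one]

/-- **The node identity (values)**, `wA, wB ∈ w₀ ^ (p + 1) + π A`. -/
theorem node_identity (hπ : π ∈ A.nonunits) (hπ0 : π ≠ 0) {p : ℕ} (hp : 0 < p)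
    {ηA ηB uA uB wA wB tA tB eA eB w₀ dA dB : k} {n : ℤ}
    (hηB : ηB ≠ 0) (htA : tA ≠ 0) (htB : tB ≠ 0)
    (huA : uA = π ^ p * tA ^ p * eA) (heA : IsPU A π eA)
    (huB : uB = π * tB ^ p * eB) (heB : IsPU A π eB)
    (hw₀ : w₀ ∈ A) (hw₀' : w₀⁻¹ ∈ A) (hw₀0 : w₀ ≠ 0)
    (hwA : wA = w₀ ^ (p + 1) + π * dA) (hdA : dA ∈ A)
    (hwB : wB = w₀ ^ (p + 1) + π * dB) (hdB : dB ∈ A)
    (hA : ηA ^ p = uA ^ n * wA) (hB : ηB ^ p = uB ^ n * wB) :
    ∃ e : k, IsPU A π e ∧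
      ((ηA / ηB) * (tB / tA) ^ n) ^ p = π ^ (((p - 1 : ℕ) : ℤ) * n) * e := by
  obtain ⟨hwB0, hq⟩ := isPU_div_of_both hπ hw₀ hw₀' hw₀0 hwA hdA hwB hdB
  exact node_identity_of_ratio hπ hπ0 hp hηB htA htB huA heA huB heB hwB0 hq hA hB

/-- **The node identity in the consumer's shape** (ratio form):
`(y ^ p / π ^ ((p - 1) n) - 1) / π ∈ A`, `y ≠ 0`. -/
theorem node_identity_mem (hπ : π ∈ A.nonunits) (hπ0 : π ≠ 0) {p : ℕ} (hp : 0 < p)
    {ηA ηB uA uB wA wB tA tB eA eB : k} {n : ℤ}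
    (hηB : ηB ≠ 0) (htA : tA ≠ 0) (htB : tB ≠ 0)
    (huA : uA = π ^ p * tA ^ p * eA) (heA : IsPU A π eA)
    (huB : uB = π * tB ^ p * eB) (heB : IsPU A π eB)
    (hwB0 : wB ≠ 0) (hq : IsPU A π (wA / wB))
    (hA : ηA ^ p = uA ^ n * wA) (hB : ηB ^ p = uB ^ n * wB) :
    (ηA / ηB) * (tB / tA) ^ n ≠ 0 ∧
      (((ηA / ηB) * (tB / tA) ^ n) ^ p / π ^ (((p - 1 : ℕ) : ℤ) * n) - 1) / π ∈ A := by
  obtain ⟨e, he, hy⟩ := node_identity_of_ratio hπ hπ0 hp hηB htA htB huA heA huB heB hwB0 hq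
    hA hB
  have he0 := he.ne_zero hπ
  have hπn : π ^ (((p - 1 : ℕ) : ℤ) * n) ≠ 0 := zpow_ne_zero _ hπ0
  refine ⟨?_, ?_⟩
  · intro h0
    rw [h0, zero_pow hp.ne'] at hy
    exact mul_ne_zero hπn he0 hy.symm
  · obtain ⟨a, ha, rfl⟩ := he
    rw [hy]
    have : (π ^ (((p - 1 : ℕ) : ℤ) * n) * (1 + π * a) / π ^ (((p - 1 : ℕ) : ℤ) * n) - 1) / π
        = a := by
      field_simp
      ring
    rw [this]
    exact ha

/-- Invariance of `y`. -/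
theorem node_identity_fixed {σ : k →+* k} {ηA ηB tA tB : k} {n : ℤ}
    (h1 : σ ηA = ηA) (h2 : σ ηB = ηB) (h3 : σ tA = tA) (h4 : σ tB = tB) :
    σ ((ηA / ηB) * (tB / tA) ^ n) = (ηA / ηB) * (tB / tA) ^ n := by
  rw [map_mul, map_div₀, map_zpow₀, map_div₀, h1, h2, h3, h4]

end Fermat.Agent.S40.M1.NodeCore
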