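/-
S40 / S44 (row 38), T6′ static route (`moonshots` row 67), block (R4)(c) (helper5):
**evaluation of the two norm equations at the test points, and Galois invariance.**

`K` a field, `F`, `F'` function fields over `K` (levels `N p` and `N`), `N_α N_β : F →* F'` the two
norms, `Q_α Q_β` two RATIONAL places of `F' / K` (the test points `Q̃`, `Q̃′`).

* §1 `smul_prod_sub_zpow` : the canonical local generator `β = ∏_{P ∈ S} (u − u(P)) ^ {D P}` is fixed by
  every semilinear automorphism `σ` fixing `u`, permuting `S` and preserving `D` and the values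
  (`c (σ P) = σ (c P)`): this is why `b_P := u − u(P)` (and not an arbitrary local equation) is used.
* §2 `valT Q hQ g` : TOTAL evaluation at a rational place (`0` outside `O_Q`); ring-hom lemmas on `O_Q`,
  `valT_inv`, `valT_zpow` on units, `valuation_eq_one_of_pow`, and
  `valT_smul_of_fixed : σ • Q = Q → valT Q (σ • g) = σ (valT Q g)`.
* §3 `yNode` `:= (h_A / N_α β)(Q_α) / (h_B / N_β β)(Q_β) · (t_B / t_A) ^ n`  and
  ★ `yNode_spec` : from the output of `NodeNormStep.norm_step`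
  (`(h_A / N_α β) ^ p = (N_α u) ^ n · N_α W`, same for `β`), (R4a) `N_α u (Q_α) = π ^ p t_A ^ p e_A`,
  `N_β u (Q_β) = π t_B ^ p e_B`, `e_A, e_B ∈ 1 + π 𝒜`, (R4b) `N_α W (Q_α) / N_β W (Q_β) ∈ 1 + π 𝒜`:
  `yNode ≠ 0 ∧ (yNode ^ p / π ^ ((p - 1) n) - 1) / π ∈ 𝒜`;
  ★ `yNode_fixed` : `σ (yNode) = yNode` for every pair `(σ, σ')` of semilinear automorphisms of `F`, `F'`
  commuting with the norms, fixing `β`, `h_A`, `h_B`, `Q_α`, `Q_β`, `t_A`, `t_B`;
  ★ `exists_y_of_node` : the shifted form with exponent `(p - 1) m`, `n = m - p k`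
  (`m = μ f = ord_s (red f)`, `k = μ β`).
Mathlib + `N4F/E/PlaceValue` + `S40/M1/NodeCore`.
-/
import Mathlib
import Fermat.Agent.N4F.E.PlaceValue
import Fermat.Agent.S40.M1.NodeCore

set_option autoImplicit false
set_option linter.unusedSectionVars false
set_option linter.unusedVariables false
set_option linter.style.longLine false

open AlgebraicCurve

noncomputable section

namespace Fermat.Agent.S40.M1.NodeInv

open Fermat.Agent.N4F.E.PlaceValue Fermat.Agent.N4F.C.CoeffAut Fermat.Agent.S40.M1.NodeCore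

/-! ### §1 Invariance of the canonical local generator -/

section Beta

variable {K F : Type*} [Field K] [Field F] [Algebra K F]

/-- **The canonical local generator is Galois invariant.** -/
theorem smul_prod_sub_zpow (σ : SemilinearAut K F) {u : F} (hu : σ • u = u)
    (S : Finset (Place K F)) (hS : ∀ P ∈ S, σ • P ∈ S) (D : Place K F → ℤ)
    (hD : ∀ P ∈ S, D (σ • P) = D P) (c : Place K F → K)
    (hc : ∀ P ∈ S, c (σ • P) = SemilinearAut.baseAut σ (c P)) :
    σ • (∏ P ∈ S, (u - algebraMap K F (c P)) ^ D P) =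
      ∏ P ∈ S, (u - algebraMap K F (c P)) ^ D P := by
  classical
  have hinj : Function.Injective (fun P : Place K F => σ • P) := MulAction.injective σ
  have himg : S.image (fun P : Place K F => σ • P) = S := by
    apply Finset.eq_of_subset_of_card_le
    · intro Q hQ
      obtain ⟨P, hP, rfl⟩ := Finset.mem_image.1 hQ
      exact hS P hP
    · rw [Finset.card_image_of_injective _ hinj]
  have h1 : σ • (∏ P ∈ S, (u - algebraMap K F (c P)) ^ D P) =
      ∏ P ∈ S, (u - algebraMap K F (c (σ • P))) ^ D (σ • P) := by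
    rw [SemilinearAut.smul_def, map_prod]
    refine Finset.prod_congr rfl fun P hP => ?_
    rw [map_zpow₀, map_sub, ← SemilinearAut.smul_def, ← SemilinearAut.smul_def, hu,
      SemilinearAut.smul_algebraMap, hc P hP, hD P hP]
  rw [h1]
  have h2 := Finset.prod_image (s := S) (g := fun P : Place K F => σ • P)
    (f := fun Q : Place K F => (u - algebraMap K F (c Q)) ^ D Q) (fun x _ y _ h => hinj h)
  rw [himg] at h2
  exact h2.symm

end Beta

/-! ### §2 Total evaluation at a rational place -/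

section ValT

variable {K F : Type*} [Field K] [Field F] [Algebra K F]
  (Q : Place K F) (hQ : Function.Bijective (algebraMap K Q.ResidueField))

open Classical in
/-- Total evaluation at a rational place: `g(Q)` for `g ∈ O_Q`, `0` otherwise. -/
def valT (g : F) : K :=
  if h : g ∈ Q.toValuationSubring then valueAt Q hQ g h else 0

theorem valT_of_mem {g : F} (h : g ∈ Q.toValuationSubring) : valT Q hQ g = valueAt Q hQ g h :=
  dif_pos h

theorem valT_algebraMap (c : K) : valT Q hQ (algebraMap K F c) = c := by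
  rw [valT_of_mem Q hQ (Q.algebraMap_mem' c), valueAt_algebraMap]

theorem valT_one : valT Q hQ 1 = 1 := by
  have := valT_algebraMap Q hQ 1
  rwa [map_one] at this

theorem valT_mul {g h : F} (hg : g ∈ Q.toValuationSubring) (hh : h ∈ Q.toValuationSubring) :
    valT Q hQ (g * h) = valT Q hQ g * valT Q hQ h := by
  rw [valT_of_mem Q hQ (mul_mem hg hh), valT_of_mem Q hQ hg, valT_of_mem Q hQ hh, valueAt_mul]

theorem valT_pow {g : F} (hg : g ∈ Q.toValuationSubring) (n : ℕ) :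
    valT Q hQ (g ^ n) = valT Q hQ g ^ n := by
  rw [valT_of_mem Q hQ (pow_mem hg n), valT_of_mem Q hQ hg, valueAt_pow]

variable {Q}

theorem mem_of_valuation_eq_one {g : F} (hg : Q.toValuationSubring.valuation g = 1) :
    g ∈ Q.toValuationSubring :=
  (Q.toValuationSubring.valuation_le_one_iff g).1 hg.le

theorem ne_zero_of_valuation_eq_one {g : F} (hg : Q.toValuationSubring.valuation g = 1) :
    g ≠ 0 := by
  rintro rfl
  rw [map_zero] at hg
  exact zero_ne_one hg

theorem valuation_inv_eq_one {g : F} (hg : Q.toValuationSubring.valuation g = 1) :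
    Q.toValuationSubring.valuation g⁻¹ = 1 := by
  rw [map_inv₀, hg, inv_one]

theorem valuation_mul_eq_one {g h : F} (hg : Q.toValuationSubring.valuation g = 1)
    (hh : Q.toValuationSubring.valuation h = 1) : Q.toValuationSubring.valuation (g * h) = 1 := by
  rw [map_mul, hg, hh, one_mul]

theorem valuation_zpow_eq_one {g : F} (hg : Q.toValuationSubring.valuation g = 1) (n : ℤ) :
    Q.toValuationSubring.valuation (g ^ n) = 1 := by
  rw [map_zpow₀, hg, one_zpow]

/-- A `p`-th root of a unit of `O_Q` is a unit of `O_Q`. -/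
theorem valuation_eq_one_of_pow {x : F} {p : ℕ} (hp : 0 < p)
    (h : Q.toValuationSubring.valuation (x ^ p) = 1) : Q.toValuationSubring.valuation x = 1 := by
  rw [map_pow] at h
  exact (pow_eq_one_iff.1 h).resolve_right hp.ne'

variable (Q)

theorem valT_inv {g : F} (hg : Q.toValuationSubring.valuation g = 1) :
    valT Q hQ g⁻¹ = (valT Q hQ g)⁻¹ := by
  have h0 := ne_zero_of_valuation_eq_one hg
  have h1 : valT Q hQ g * valT Q hQ g⁻¹ = 1 := by
    rw [← valT_mul Q hQ (mem_of_valuation_eq_one hg)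
      (mem_of_valuation_eq_one (valuation_inv_eq_one hg)), mul_inv_cancel₀ h0, valT_one]
  exact eq_inv_of_mul_eq_one_right h1

theorem valT_ne_zero {g : F} (hg : Q.toValuationSubring.valuation g = 1) : valT Q hQ g ≠ 0 := by
  intro h
  have h0 := ne_zero_of_valuation_eq_one hg
  have h1 : valT Q hQ g * valT Q hQ g⁻¹ = 1 := by
    rw [← valT_mul Q hQ (mem_of_valuation_eq_one hg)
      (mem_of_valuation_eq_one (valuation_inv_eq_one hg)), mul_inv_cancel₀ h0, valT_one]
  rw [h, zero_mul] at h1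
  exact zero_ne_one h1

theorem valT_zpow {g : F} (hg : Q.toValuationSubring.valuation g = 1) (n : ℤ) :
    valT Q hQ (g ^ n) = valT Q hQ g ^ n := by
  obtain ⟨m, rfl | rfl⟩ := n.eq_nat_or_neg
  · rw [zpow_natCast, zpow_natCast, valT_pow Q hQ (mem_of_valuation_eq_one hg)]
  · rw [zpow_neg, zpow_neg, zpow_natCast, zpow_natCast]
    have hm : Q.toValuationSubring.valuation (g ^ m) = 1 := by rw [map_pow, hg, one_pow]
    rw [valT_inv Q hQ hm, valT_pow Q hQ (mem_of_valuation_eq_one hg)]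

/-- **Values at a fixed place are equivariant.** -/
theorem valT_smul_of_fixed (σ : SemilinearAut K F) (hσQ : σ • Q = Q) (g : F) :
    valT Q hQ (σ • g) = SemilinearAut.baseAut σ (valT Q hQ g) := by
  have hmem : σ • g ∈ Q.toValuationSubring ↔ g ∈ Q.toValuationSubring := by
    have := smul_mem_smul_place_iff σ Q g
    rwa [hσQ] at this
  by_cases hg : g ∈ Q.toValuationSubring
  · rw [valT_of_mem Q hQ (hmem.2 hg), valT_of_mem Q hQ hg, valueAt_eq_iff]
    have h := sub_valueAt_mem Q hQ g hg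
    have h2 := (smul_mem_nonunits_smul_place_iff σ Q _).mpr h
    rw [hσQ] at h2
    rwa [smul_sub, SemilinearAut.smul_algebraMap] at h2
  · have hg' : ¬ σ • g ∈ Q.toValuationSubring := fun h => hg (hmem.1 h)
    rw [valT, valT, dif_neg hg, dif_neg hg', map_zero]

end ValT

/-! ### §3 The node invariant -/

section Node

variable {K F F' : Type*} [Field K] [Field F] [Field F'] [Algebra K F] [Algebra K F']
  (𝒜 : ValuationSubring K) {π : K} {p : ℕ}
  (Nα Nβ : F →* F') (Qα Qβ : Place K F')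
  (hQα : Function.Bijective (algebraMap K Qα.ResidueField))
  (hQβ : Function.Bijective (algebraMap K Qβ.ResidueField))

/-- **The node invariant.** -/
def yNode (hA hB : F') (β : F) (tA tB : K) (n : ℤ) : K :=
  (valT Qα hQα (hA / Nα β) / valT Qβ hQβ (hB / Nβ β)) * (tB / tA) ^ n

variable {𝒜 Nα Nβ Qα Qβ}

/-- Evaluation of one norm equation: `x ^ p = U ^ n · W'` with `U`, `W'` units at `Q`. -/
theorem valT_pow_eq {Q : Place K F'} (hQ : Function.Bijective (algebraMap K Q.ResidueField))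
    (hp : 0 < p) {x U W' : F'} {n : ℤ} (h : x ^ p = U ^ n * W')
    (hU : Q.toValuationSubring.valuation U = 1) (hW : Q.toValuationSubring.valuation W' = 1) :
    Q.toValuationSubring.valuation x = 1 ∧
      valT Q hQ x ^ p = valT Q hQ U ^ n * valT Q hQ W' := by
  have hUn := valuation_zpow_eq_one hU n
  have hx : Q.toValuationSubring.valuation x = 1 := by
    apply valuation_eq_one_of_pow hp
    rw [h]
    exact valuation_mul_eq_one hUn hW
  refine ⟨hx, ?_⟩
  rw [← valT_pow Q hQ (mem_of_valuation_eq_one hx), h,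
    valT_mul Q hQ (mem_of_valuation_eq_one hUn) (mem_of_valuation_eq_one hW), valT_zpow Q hQ hU]

/-- **(R4), values.** -/
theorem yNode_spec (hπ : π ∈ 𝒜.nonunits) (hπ0 : π ≠ 0) (hp : 0 < p)
    {u β W : F} {hA hB : F'} {n : ℤ}
    (hstepA : (hA / Nα β) ^ p = Nα u ^ n * Nα W)
    (hstepB : (hB / Nβ β) ^ p = Nβ u ^ n * Nβ W)
    (hUα : Qα.toValuationSubring.valuation (Nα u) = 1)
    (hUβ : Qβ.toValuationSubring.valuation (Nβ u) = 1)
    (hWα : Qα.toValuationSubring.valuation (Nα W) = 1)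
    (hWβ : Qβ.toValuationSubring.valuation (Nβ W) = 1)
    {tA tB eA eB : K} (htA : tA ≠ 0) (htB : tB ≠ 0)
    (hUαv : valT Qα hQα (Nα u) = π ^ p * tA ^ p * eA) (heA : IsPU 𝒜 π eA)
    (hUβv : valT Qβ hQβ (Nβ u) = π * tB ^ p * eB) (heB : IsPU 𝒜 π eB)
    (hWq : IsPU 𝒜 π (valT Qα hQα (Nα W) / valT Qβ hQβ (Nβ W))) :
    yNode Nα Nβ Qα Qβ hQα hQβ hA hB β tA tB n ≠ 0 ∧
      (yNode Nα Nβ Qα Qβ hQα hQβ hA hB β tA tB n ^ p / π ^ (((p - 1 : ℕ) : ℤ) * n) - 1) / π
        ∈ 𝒜 := by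
  obtain ⟨hxA, hvA⟩ := valT_pow_eq hQα hp hstepA hUα hWα
  obtain ⟨hxB, hvB⟩ := valT_pow_eq hQβ hp hstepB hUβ hWβ
  exact node_identity_mem hπ hπ0 hp (valT_ne_zero Qβ hQβ hxB) htA htB hUαv heA hUβv heB
    (valT_ne_zero Qβ hQβ hWβ) hWq hvA hvB

/-- **(R4), invariance.** -/
theorem yNode_fixed (σ : SemilinearAut K F) (σ' : SemilinearAut K F')
    (hNα : ∀ g : F, Nα (σ • g) = σ' • Nα g) (hNβ : ∀ g : F, Nβ (σ • g) = σ' • Nβ g)
    {β : F} (hβ : σ • β = β) {hA hB : F'} (hhA : σ' • hA = hA) (hhB : σ' • hB = hB)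
    (hσα : σ' • Qα = Qα) (hσβ : σ' • Qβ = Qβ) {tA tB : K}
    (htA : SemilinearAut.baseAut σ' tA = tA) (htB : SemilinearAut.baseAut σ' tB = tB) (n : ℤ) :
    SemilinearAut.baseAut σ' (yNode Nα Nβ Qα Qβ hQα hQβ hA hB β tA tB n) =
      yNode Nα Nβ Qα Qβ hQα hQβ hA hB β tA tB n := by
  have h1 : σ' • (hA / Nα β) = hA / Nα β := by
    rw [SemilinearAut.smul_def, map_div₀, ← SemilinearAut.smul_def, ← SemilinearAut.smul_def, hhA,
      ← hNα, hβ]
  have h2 : σ' • (hB / Nβ β) = hB / Nβ β := by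
    rw [SemilinearAut.smul_def, map_div₀, ← SemilinearAut.smul_def, ← SemilinearAut.smul_def, hhB,
      ← hNβ, hβ]
  have h3 := valT_smul_of_fixed Qα hQα σ' hσα (hA / Nα β)
  have h4 := valT_smul_of_fixed Qβ hQβ σ' hσβ (hB / Nβ β)
  rw [h1] at h3
  rw [h2] at h4
  unfold yNode
  rw [map_mul, map_div₀, map_zpow₀, map_div₀, ← h3, ← h4, htA, htB]

/-- **(R4), shifted form**: exponent `(p - 1) m` with `n = m - p k` (`m = μ f`, `k = μ β`). -/
theorem exists_y_of_node (hπ : π ∈ 𝒜.nonunits) (hπ0 : π ≠ 0) (hp : 0 < p)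
    {u β W : F} {hA hB : F'} {n m k : ℤ} (hn : n = m - p * k)
    (hstepA : (hA / Nα β) ^ p = Nα u ^ n * Nα W)
    (hstepB : (hB / Nβ β) ^ p = Nβ u ^ n * Nβ W)
    (hUα : Qα.toValuationSubring.valuation (Nα u) = 1)
    (hUβ : Qβ.toValuationSubring.valuation (Nβ u) = 1)
    (hWα : Qα.toValuationSubring.valuation (Nα W) = 1)
    (hWβ : Qβ.toValuationSubring.valuation (Nβ W) = 1)
    {tA tB eA eB : K} (htA : tA ≠ 0) (htB : tB ≠ 0)
    (hUαv : valT Qα hQα (Nα u) = π ^ p * tA ^ p * eA) (heA : IsPU 𝒜 π eA)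
    (hUβv : valT Qβ hQβ (Nβ u) = π * tB ^ p * eB) (heB : IsPU 𝒜 π eB)
    (hWq : IsPU 𝒜 π (valT Qα hQα (Nα W) / valT Qβ hQβ (Nβ W))) :
    ∃ y : K, y = yNode Nα Nβ Qα Qβ hQα hQβ hA hB β tA tB n * π ^ (((p - 1 : ℕ) : ℤ) * k) ∧
      y ≠ 0 ∧ (y ^ p / π ^ (((p - 1 : ℕ) : ℤ) * m) - 1) / π ∈ 𝒜 := by
  obtain ⟨h0, hmem⟩ := yNode_spec (hQα := hQα) (hQβ := hQβ) hπ hπ0 hp hstepA hstepB hUα hUβ hWα hWβ
    htA htB hUαv heA hUβv heB hWq
  refine ⟨_, rfl, mul_ne_zero h0 (zpow_ne_zero _ hπ0), ?_⟩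
  have hkey : (yNode Nα Nβ Qα Qβ hQα hQβ hA hB β tA tB n * π ^ (((p - 1 : ℕ) : ℤ) * k)) ^ p /
      π ^ (((p - 1 : ℕ) : ℤ) * m) =
      yNode Nα Nβ Qα Qβ hQα hQβ hA hB β tA tB n ^ p / π ^ (((p - 1 : ℕ) : ℤ) * n) := by
    have h1 : (π ^ (((p - 1 : ℕ) : ℤ) * k)) ^ p = π ^ (((p - 1 : ℕ) : ℤ) * k * p) := by
      rw [← zpow_natCast (π ^ (((p - 1 : ℕ) : ℤ) * k)) p, ← zpow_mul]
    have h2 : π ^ (((p - 1 : ℕ) : ℤ) * m) =
        π ^ (((p - 1 : ℕ) : ℤ) * n) * π ^ (((p - 1 : ℕ) : ℤ) * k * p) := by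
      rw [← zpow_add₀ hπ0, hn]
      congr 1
      ring
    rw [mul_pow, h1, h2]
    have h3 : π ^ (((p - 1 : ℕ) : ℤ) * k * p) ≠ 0 := zpow_ne_zero _ hπ0
    have h4 : π ^ (((p - 1 : ℕ) : ℤ) * n) ≠ 0 := zpow_ne_zero _ hπ0
    field_simp
  rw [hkey]
  exact hmem

end Node

end Fermat.Agent.S40.M1.NodeInv
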