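/-
S40 / S44 (row 38), T6′ static route, block (R4b), team B (helper14, dispatch #3240 (2)):
**the evaluation at a section on ANY model of the local ring of the chart at its centre**, and the
`evα / hevz / hker` inputs of `NodeD.map_norm_sub_map_norm_mem` from a test place.

`R : Subalgebra O F` a chart, `h : G.Points.IsSection R v hv` a rational place `v` of `F / K` which is
an `O`-point of the chart, `centre h` its closed point.  For ANY `L` with
`[IsLocalization.AtPrime L (centre h)]` (e.g. `Localization.AtPrime (centre h)`; the subring model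
`G.PointsLoc.locAlg R (centre h)` is one of them):

* `toLocAlg h L : L ≃ₐ[R] locAlg R (centre h)`, `toF h L : L →+* F` (`toF_algebraMap`, `toF_eq_algebraMap`:
  it IS `algebraMap L F` for every tower-compatible algebra structure, `toF_injective`);
* ★ `evAt h L : L →ₐ[O] O` (`evAt_algebraMap : evAt (algebraMap R L r) = ev h r`,
  `evAt_eq_evLocAlg`, `evAt_eq_zero_iff`, `isUnit_evAt_iff`);
* ★ `algebraMap_evAt : algebraMap O K (evAt h L x) = NodeInv.valT v hv (toF h L x)` (`toF_mem`,
  `algebraMap_evAt'` for `algebraMap L F`) — the bridge between `NodeD`'s `evα (Algebra.norm Rα W)` and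
  helper5's `valT Qα (normAlphaK W)`;
* `evAt_mem_span_of_valT` : `hevz` from `valT v hv z = algebraMap O K (p * c)`;
* ★ `exists_eq_mul_sub` : `hker` of `NodeD` VERBATIM from `hmt : 𝔪_L = (z, ϖ)` (`KerEval`);
  `exists_eq_mul_sub_of_locAlg` : the same transported from the `locAlg` statement of
  `TestKer.exists_testSection_ker` / `TestPointLevel.exists_testPoint` (no `hmt`, no Noetherian);
* `valuation_toF_eq_one`, `inv_valT_toF` : a unit of `L` is a unit at the place, with unit value
  (the clauses `Qα.val (Nα W) = 1`, `(valT Qβ (Nβ W))⁻¹ ∈ 𝒜` of (R4b));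
* `exists_valT_eq_add` : `evα x − evβ y ∈ (p)` ⇒ `valT vα x = valT vβ y + p d`, `d ∈ O`
  (the last clause of (R4b) from `NodeD.map_norm_sub_map_norm_mem`).
-/
import Mathlib
import Fermat.Agent.G.PointsLoc
import Fermat.Agent.S40.M1.NodeInv
import Fermat.Agent.S40.M1.KerEval

set_option autoImplicit false
set_option linter.unusedSectionVars false
set_option linter.style.longLine false
set_option linter.style.haveILetI false

open AlgebraicCurve IsLocalRing

noncomputable section

namespace Fermat.Agent.S40.M1.EvalLocAt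

open Fermat.Agent.N4F.E.EvalAt Fermat.Agent.N4F.E.PlaceValue Fermat.Agent.G.Points
  Fermat.Agent.G.PointsLoc Fermat.Agent.S40.M1.NodeInv

variable {O K F : Type*} [CommRing O] [IsDomain O] [IsDiscreteValuationRing O]
  [Field K] [Algebra O K] [IsFractionRing O K]
  [Field F] [Algebra K F] [Algebra O F] [IsScalarTower O K F]
  {R : Subalgebra O F} {v : Place K F} {hv : Function.Bijective (algebraMap K v.ResidueField)}
  (h : IsSection R v hv) (L : Type*) [CommRing L] [Algebra ↥R L]
  [IsLocalization.AtPrime L (centre h)]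

/-! ### Comparison with the subring model -/

/-- The canonical identification of any model `L` of `R_{centre h}` with the subring model. -/
def toLocAlg : L ≃ₐ[↥R] ↥(locAlg R (centre h)) :=
  IsLocalization.algEquiv (centre h).primeCompl L ↥(locAlg R (centre h))

@[simp]
theorem toLocAlg_algebraMap (r : R) :
    toLocAlg h L (algebraMap ↥R L r) = algebraMap ↥R ↥(locAlg R (centre h)) r :=
  (toLocAlg h L).commutes r

/-- The embedding of the local ring in the function field. -/
def toF : L →+* F :=
  (locAlg R (centre h)).val.toRingHom.comp (toLocAlg h L : L →+* ↥(locAlg R (centre h)))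

theorem toF_apply (x : L) : toF h L x = ((toLocAlg h L x : ↥(locAlg R (centre h))) : F) := rfl

@[simp]
theorem toF_algebraMap (r : R) : toF h L (algebraMap ↥R L r) = (r : F) := by
  rw [toF_apply, toLocAlg_algebraMap]; rfl

theorem toF_injective : Function.Injective (toF h L) := fun _ _ hxy =>
  (toLocAlg h L).injective (Subtype.ext hxy)

theorem toF_mem_locAlg (x : L) : toF h L x ∈ locAlg R (centre h) := (toLocAlg h L x).2

/-- `toF` is the algebra map of every tower-compatible `L`-algebra structure on `F`. -/
theorem toF_eq_algebraMap [Algebra L F] [IsScalarTower ↥R L F] : toF h L = algebraMap L F := by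
  refine IsLocalization.ringHom_ext (centre h).primeCompl ?_
  ext r
  rw [RingHom.comp_apply, RingHom.comp_apply, toF_algebraMap, ← IsScalarTower.algebraMap_apply]
  rfl

/-- Elements of the local ring are regular at the place. -/
theorem toF_mem (x : L) : toF h L x ∈ v.toValuationSubring :=
  (isSection_locAlg h).mem (toLocAlg h L x)

/-! ### The evaluation -/

variable [Algebra O L] [IsScalarTower O ↥R L]

/-- **Evaluation at the section on the local ring `L`**, as an `O`-algebra homomorphism. -/
def evAt : L →ₐ[O] O :=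
  { (evLocAlg h : ↥(locAlg R (centre h)) →+* O).comp
      (toLocAlg h L : L →+* ↥(locAlg R (centre h))) with
    commutes' := fun a => by
      show evLocAlg h (toLocAlg h L (algebraMap O L a)) = algebraMap O O a
      rw [IsScalarTower.algebraMap_apply O ↥R L, toLocAlg_algebraMap, evLocAlg_algebraMap,
        AlgHom.commutes] }

theorem evAt_eq_evLocAlg (x : L) : evAt h L x = evLocAlg h (toLocAlg h L x) := rfl

@[simp]
theorem evAt_algebraMap (r : R) : evAt h L (algebraMap ↥R L r) = ev h r := by
  rw [evAt_eq_evLocAlg, toLocAlg_algebraMap, evLocAlg_algebraMap]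

theorem evAt_algebraMap_base (a : O) : evAt h L (algebraMap O L a) = a :=
  (evAt h L).commutes a

/-- **`x(v) = 0 ↔ x ∈ 𝔪_v`.** -/
theorem evAt_eq_zero_iff (x : L) :
    evAt h L x = 0 ↔ toF h L x ∈ v.toValuationSubring.nonunits :=
  evLocAlg_eq_zero_iff h (toLocAlg h L x)

/-- **The bridge to `valT`**: the value of `evAt` is the value at the place. -/
theorem algebraMap_evAt (x : L) : algebraMap O K (evAt h L x) = valT v hv (toF h L x) := by
  rw [valT_of_mem v hv (toF_mem h L x), evAt_eq_evLocAlg, evLocAlg, algebraMap_ev]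
  rfl

/-- The same for `algebraMap L F`. -/
theorem algebraMap_evAt' [Algebra L F] [IsScalarTower ↥R L F] (x : L) :
    algebraMap O K (evAt h L x) = valT v hv (algebraMap L F x) := by
  rw [← toF_eq_algebraMap h L, algebraMap_evAt]

/-- On the chart: `valT v (r : F) = algebraMap O K (ev h r)`. -/
theorem valT_coe (r : R) : valT v hv (r : F) = algebraMap O K (ev h r) := by
  rw [valT_of_mem v hv (h.mem r), algebraMap_ev]

/-- `evAt` is a local homomorphism: units are exactly the elements with unit value. -/
theorem isUnit_evAt_iff [IsLocalRing L] (x : L) : IsUnit (evAt h L x) ↔ IsUnit x := by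
  constructor
  · intro hu
    by_contra hx
    have hx𝔪 : x ∈ maximalIdeal L := (mem_maximalIdeal x).2 hx
    rw [← IsLocalization.AtPrime.map_eq_maximalIdeal (centre h) L] at hx𝔪
    -- `evAt` maps `(centre h) L` into `𝔪_O`
    have hle : (centre h).map (algebraMap ↥R L) ≤ (maximalIdeal O).comap (evAt h L : L →+* O) := by
      rw [Ideal.map_le_iff_le_comap]
      intro r hr
      rw [Ideal.mem_comap, Ideal.mem_comap]
      show evAt h L (algebraMap ↥R L r) ∈ maximalIdeal O
      rw [evAt_algebraMap]
      exact (mem_centre_iff h r).1 hr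
    exact (mem_maximalIdeal _).1 (hle hx𝔪) hu
  · intro hu
    exact hu.map (evAt h L)

/-- **`hevz` of `NodeD`** from the value at the test place: `z(v) = p c` ⇒ `evAt z ∈ (p)`. -/
theorem evAt_mem_span_of_valT {z : L} {p c : O}
    (hz : valT v hv (toF h L z) = algebraMap O K (p * c)) : evAt h L z ∈ Ideal.span {p} := by
  rw [← algebraMap_evAt] at hz
  rw [IsFractionRing.injective O K hz]
  exact Ideal.mul_mem_right _ _ (Ideal.mem_span_singleton_self p)

/-- **`hker` of `NodeD` VERBATIM**, from `hmt : 𝔪_L = (z, ϖ)` (helper27 `SmoothPoint`): every element of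
the local ring vanishing at the section is a multiple of `z − z(v)`. -/
theorem exists_eq_mul_sub [IsLocalRing L] [IsNoetherianRing L] {z : L} {ϖ : O} (hϖ0 : ϖ ≠ 0)
    (hmt : maximalIdeal L = Ideal.span {z, algebraMap O L ϖ})
    (hz : evAt h L z ∈ Ideal.span {ϖ}) (r : L) (hr : evAt h L r = 0) :
    ∃ q : L, r = q * (z - algebraMap O L (evAt h L z)) := by
  refine KerEval.exists_eq_mul_sub (evAt h L : L →+* O) hmt ?_ ?_ ?_ hr
  · obtain ⟨d, hd⟩ := Ideal.mem_span_singleton'.1 hz
    rw [← hd, map_mul]
    exact Ideal.mul_mem_left _ _ (Ideal.mem_span_singleton_self _)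
  · show evAt h L z = evAt h L (algebraMap O L (evAt h L z))
    rw [evAt_algebraMap_base]
  · show evAt h L (algebraMap O L ϖ) ≠ 0
    rw [evAt_algebraMap_base]; exact hϖ0

/-- **`hker` of `NodeD`** transported from the subring model (the kernel clause of
`TestKer.exists_testSection_ker` / `TestPointLevel.exists_testPoint`). -/
theorem exists_eq_mul_sub_of_locAlg {t : R} {c : O}
    (hker : ∀ x : ↥(locAlg R (centre h)), evLocAlg h x = 0 →
      ∃ q : ↥(locAlg R (centre h)), x = q * (algebraMap ↥R _ t - algebraMap O _ c))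
    (r : L) (hr : evAt h L r = 0) :
    ∃ q : L, r = q * (algebraMap ↥R L t - algebraMap O L c) := by
  obtain ⟨q, hq⟩ := hker (toLocAlg h L r) hr
  refine ⟨(toLocAlg h L).symm q, ?_⟩
  apply (toLocAlg h L).injective
  rw [hq, map_mul, map_sub, AlgEquiv.apply_symm_apply, toLocAlg_algebraMap,
    IsScalarTower.algebraMap_apply O ↥R L, toLocAlg_algebraMap,
    ← IsScalarTower.algebraMap_apply O ↥R ↥(locAlg R (centre h))]

/-- The same in `NodeD`'s shape, with `c = ev h t`. -/
theorem exists_eq_mul_sub_of_locAlg' {t : R}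
    (hker : ∀ x : ↥(locAlg R (centre h)), evLocAlg h x = 0 →
      ∃ q : ↥(locAlg R (centre h)), x = q * (algebraMap ↥R _ t - algebraMap O _ (ev h t)))
    (r : L) (hr : evAt h L r = 0) :
    ∃ q : L, r = q * (algebraMap ↥R L t - algebraMap O L (evAt h L (algebraMap ↥R L t))) := by
  rw [evAt_algebraMap]
  exact exists_eq_mul_sub_of_locAlg h L hker r hr

/-! ### Units, and the comparison of two evaluations -/

omit [Algebra O L] [IsScalarTower O ↥R L] in
/-- A unit of the local ring is a unit at the place. -/
theorem valuation_toF_eq_one {x : L} (hx : IsUnit x) :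
    v.toValuationSubring.valuation (toF h L x) = 1 := by
  obtain ⟨w, rfl⟩ := hx
  have h1 : v.toValuationSubring.valuation (toF h L (w : L)) ≤ 1 :=
    (v.toValuationSubring.valuation_le_one_iff _).2 (toF_mem h L _)
  have h2 : v.toValuationSubring.valuation (toF h L ((w⁻¹ : Lˣ) : L)) ≤ 1 :=
    (v.toValuationSubring.valuation_le_one_iff _).2 (toF_mem h L _)
  have h3 : v.toValuationSubring.valuation (toF h L (w : L)) *
      v.toValuationSubring.valuation (toF h L ((w⁻¹ : Lˣ) : L)) = 1 := by
    rw [← map_mul, ← map_mul, Units.mul_inv, map_one, map_one]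
  refine le_antisymm h1 ?_
  by_contra hlt
  rw [not_le] at hlt
  have : v.toValuationSubring.valuation (toF h L (w : L)) *
      v.toValuationSubring.valuation (toF h L ((w⁻¹ : Lˣ) : L)) < 1 :=
    mul_lt_one_of_nonneg_of_lt_one_left zero_le hlt h2
  rw [h3] at this
  exact lt_irrefl _ this

/-- The value of a unit is a unit of `O`, and its inverse is the value of the inverse. -/
theorem inv_valT_toF {x : L} (hx : IsUnit x) :
    ∃ a : O, IsUnit a ∧ (valT v hv (toF h L x))⁻¹ = algebraMap O K a := by
  obtain ⟨w, rfl⟩ := hx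
  refine ⟨evAt h L ((w⁻¹ : Lˣ) : L), (Units.isUnit _).map (evAt h L), ?_⟩
  rw [← algebraMap_evAt]
  have : algebraMap O K (evAt h L (w : L)) * algebraMap O K (evAt h L ((w⁻¹ : Lˣ) : L)) = 1 := by
    rw [← map_mul, ← map_mul, Units.mul_inv, map_one, map_one]
  exact inv_eq_of_mul_eq_one_right this

/-! ### Two sections: the output shape of (R4b) -/

section Two

variable {O K F : Type*} [CommRing O] [IsDomain O] [IsDiscreteValuationRing O]
  [Field K] [Algebra O K] [IsFractionRing O K]
  [Field F] [Algebra K F] [Algebra O F] [IsScalarTower O K F]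
  {R : Subalgebra O F} {vα vβ : Place K F}
  {hvα : Function.Bijective (algebraMap K vα.ResidueField)}
  {hvβ : Function.Bijective (algebraMap K vβ.ResidueField)}
  (hα : IsSection R vα hvα) (hβ : IsSection R vβ hvβ)
  (Lα Lβ : Type*) [CommRing Lα] [CommRing Lβ] [Algebra ↥R Lα] [Algebra ↥R Lβ]
  [IsLocalization.AtPrime Lα (centre hα)] [IsLocalization.AtPrime Lβ (centre hβ)]
  [Algebra O Lα] [IsScalarTower O ↥R Lα] [Algebra O Lβ] [IsScalarTower O ↥R Lβ]

/-- **Last clause of (R4b)** from the conclusion of `NodeD.map_norm_sub_map_norm_mem`. -/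
theorem exists_valT_eq_add {x : Lα} {y : Lβ} {p : O}
    (hxy : evAt hα Lα x - evAt hβ Lβ y ∈ Ideal.span {p}) :
    ∃ d : O, valT vα hvα (toF hα Lα x) =
      valT vβ hvβ (toF hβ Lβ y) + algebraMap O K p * algebraMap O K d := by
  obtain ⟨d, hd⟩ := Ideal.mem_span_singleton'.1 hxy
  refine ⟨d, ?_⟩
  rw [← algebraMap_evAt, ← algebraMap_evAt, ← map_mul, ← map_add]
  congr 1
  rw [mul_comm, hd]; ring

end Two

end Fermat.Agent.S40.M1.EvalLocAt
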