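/-
S40 / S44 (row 38), T6′ static route, block (R4)(d) (helper1): **the fibre norm lemma.**

`Φ` a commutative `O`-algebra, free with basis `1, v, …, v ^ n`, `I` an ideal of `O` such that all
coordinates of `v ^ (n + 1)` lie in `I` (so `Φ / I Φ = (O / I)[v] / (v ^ (n + 1))` is "local with
nilpotent maximal ideal `(v)`").  Then for every `W ∈ Φ` with constant coordinate `w₀`:

  `Algebra.norm O W ≡ w₀ ^ (n + 1)  (mod I)`.

This is the computation "`N_α W (Q̃) ≡ W(s) ^ (p + 1) ≡ N_β W (Q̃′)` modulo `p`" at a supersingular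
node (base ring `O :=` the local ring of level `M′` at `α(s)`, `I := ev⁻¹ (p)` for the evaluation
`ev` at a section `Q̃`; the fibre of `α` over `Q̃` is `O[v] / (v ^ (p + 1) + p·(unit))`).

* `norm_sub_pow_mem_ideal` : the statement above;
* `norm_sub_pow_mem` : the case `I = (p)`, `v ^ (n + 1) = p • c`;
* `map_norm_sub_map_norm_mem` (**comparison of the two fibres**): two free structures on the same
  ring `R` (over `Rα` with basis `v ^ i`, over `Rβ` with basis `u ^ i`), evaluations
  `evα : Rα → O`, `evβ : Rβ → O`, constants `ι : O → R`, with `r ≡ ι (ev r)` modulo `(u, v) R` and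
  `(u, v) R ∩ O = (p)`: then `evα (N_α W) ≡ evβ (N_β W)` modulo `p` for every `W ∈ R`.
Mathlib only.
-/
import Mathlib

set_option autoImplicit false
set_option linter.unusedSectionVars false
set_option linter.style.haveILetI false

noncomputable section

namespace Fermat.Agent.S40.M1.FibreNorm

open Matrix

section Single

variable {O Φ : Type*} [CommRing O] [CommRing Φ] [Algebra O Φ]

/-- Coordinates of a product `x * y` lie in `I` as soon as those of `x` do. -/
theorem repr_mul_mem {ι : Type*} [Fintype ι] (b : Module.Basis ι O Φ) (I : Ideal O) {x : Φ}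
    (hx : ∀ i, b.repr x i ∈ I) (y : Φ) (k : ι) : b.repr (x * y) k ∈ I := by
  have hx' : x = ∑ i, b.repr x i • b i := (b.sum_repr x).symm
  rw [hx', Finset.sum_mul, map_sum, Finsupp.coe_finsetSum, Finset.sum_apply]
  refine Ideal.sum_mem _ fun i _ => ?_
  rw [smul_mul_assoc, map_smul, Finsupp.smul_apply, smul_eq_mul]
  exact Ideal.mul_mem_right _ _ (hx i)

variable {n : ℕ} (b : Module.Basis (Fin (n + 1)) O Φ) (v : Φ)
  (hb : ∀ i : Fin (n + 1), b i = v ^ (i : ℕ))
  (I : Ideal O) (hv : ∀ i, b.repr (v ^ (n + 1)) i ∈ I)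

include hb hv in
/-- The coordinates of `v ^ m`, modulo `I`: the `i`-th coordinate is `1` if `m = i`, `0` else. -/
theorem repr_pow_sub_mem (m : ℕ) (i : Fin (n + 1)) :
    b.repr (v ^ m) i - (if m = (i : ℕ) then 1 else 0) ∈ I := by
  by_cases hm : m ≤ n
  · have : v ^ m = b ⟨m, Nat.lt_succ_of_le hm⟩ := by rw [hb]
    rw [this, Module.Basis.repr_self, Finsupp.single_apply]
    by_cases h : m = (i : ℕ)
    · have : (⟨m, Nat.lt_succ_of_le hm⟩ : Fin (n + 1)) = i := Fin.ext h
      simp [h]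
    · have : (⟨m, Nat.lt_succ_of_le hm⟩ : Fin (n + 1)) ≠ i := fun h' => h (by rw [← h'])
      simp [this, h]
  · have hm := not_le.mp hm
    have hne : m ≠ (i : ℕ) := by have := i.2; omega
    have : v ^ m = v ^ (n + 1) * v ^ (m - (n + 1)) := by
      rw [← pow_add]; congr 1; omega
    rw [this, if_neg hne, sub_zero]
    exact repr_mul_mem b I hv _ i

include hb hv in
/-- Entries of the multiplication matrix of `W` modulo `I`. -/
theorem leftMulMatrix_sub_mem (W : Φ) (i j : Fin (n + 1)) :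
    Algebra.leftMulMatrix b W i j -
      (∑ k : Fin (n + 1), if (k : ℕ) + (j : ℕ) = (i : ℕ) then b.repr W k else 0) ∈ I := by
  have hW : W = ∑ k, b.repr W k • b k := (b.sum_repr W).symm
  have h1 : Algebra.leftMulMatrix b W i j =
      ∑ k, b.repr W k * b.repr (v ^ ((k : ℕ) + (j : ℕ))) i := by
    rw [Algebra.leftMulMatrix_eq_repr_mul]
    conv_lhs => rw [hW]
    rw [Finset.sum_mul, map_sum, Finsupp.coe_finsetSum, Finset.sum_apply]
    refine Finset.sum_congr rfl fun k _ => ?_
    rw [smul_mul_assoc, map_smul, Finsupp.smul_apply, smul_eq_mul, hb k, hb j, ← pow_add]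
  rw [h1, ← Finset.sum_sub_distrib]
  refine Ideal.sum_mem _ fun k _ => ?_
  have h2 := repr_pow_sub_mem b v hb I hv ((k : ℕ) + (j : ℕ)) i
  have h3 : b.repr W k * b.repr (v ^ ((k : ℕ) + (j : ℕ))) i -
      (if (k : ℕ) + (j : ℕ) = (i : ℕ) then b.repr W k else 0) =
      b.repr W k * (b.repr (v ^ ((k : ℕ) + (j : ℕ))) i -
        (if (k : ℕ) + (j : ℕ) = (i : ℕ) then 1 else 0)) := by
    split_ifs <;> ring
  rw [h3]
  exact Ideal.mul_mem_left _ _ h2

include hb hv in
/-- **The fibre norm lemma**: `N(W) ≡ w₀ ^ (n + 1)` modulo `I`. -/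
theorem norm_sub_pow_mem_ideal (W : Φ) :
    Algebra.norm O W - (b.repr W 0) ^ (n + 1) ∈ I := by
  classical
  set π : O →+* O ⧸ I := Ideal.Quotient.mk _ with hπ
  rw [← Ideal.Quotient.eq_zero_iff_mem, map_sub, sub_eq_zero, map_pow,
    Algebra.norm_eq_matrix_det b W, RingHom.map_det]
  have hM : ∀ i j : Fin (n + 1), π (Algebra.leftMulMatrix b W i j) =
      π (∑ k : Fin (n + 1), if (k : ℕ) + (j : ℕ) = (i : ℕ) then b.repr W k else 0) := by
    intro i j
    rw [← sub_eq_zero, ← map_sub]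
    exact Ideal.Quotient.eq_zero_iff_mem.2 (leftMulMatrix_sub_mem b v hb I hv W i j)
  have htri : (π.mapMatrix (Algebra.leftMulMatrix b W)).BlockTriangular OrderDual.toDual := by
    intro i j hij
    have hij' : (i : ℕ) < (j : ℕ) := by
      have : i < j := by simpa using hij
      exact this
    rw [RingHom.mapMatrix_apply, Matrix.map_apply, hM]
    have : (∑ k : Fin (n + 1), if (k : ℕ) + (j : ℕ) = (i : ℕ) then b.repr W k else 0) = 0 := by
      refine Finset.sum_eq_zero fun k _ => ?_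
      rw [if_neg]; omega
    rw [this, map_zero]
  rw [Matrix.det_of_lowerTriangular _ htri]
  have hdiag : ∀ i : Fin (n + 1),
      π.mapMatrix (Algebra.leftMulMatrix b W) i i = π (b.repr W 0) := by
    intro i
    rw [RingHom.mapMatrix_apply, Matrix.map_apply, hM]
    congr 1
    rw [Finset.sum_eq_single (0 : Fin (n + 1))]
    · simp
    · intro k _ hk
      rw [if_neg]
      intro h
      apply hk
      ext
      simp only [Fin.val_zero]
      omega
    · intro h; exact absurd (Finset.mem_univ _) h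
  rw [Finset.prod_congr rfl fun i _ => hdiag i, Finset.prod_const, Finset.card_univ,
    Fintype.card_fin]

omit hv in
include hb in
/-- The case `I = (p)`, `v ^ (n + 1) ∈ p Φ`. -/
theorem norm_sub_pow_mem (p : O) (hv : ∃ c : Φ, v ^ (n + 1) = p • c) (W : Φ) :
    Algebra.norm O W - (b.repr W 0) ^ (n + 1) ∈ Ideal.span {p} := by
  refine norm_sub_pow_mem_ideal b v hb _ (fun i => ?_) W
  obtain ⟨c, hc⟩ := hv
  rw [hc, map_smul, Finsupp.smul_apply, smul_eq_mul]
  exact Ideal.mul_mem_right _ _ (Ideal.subset_span rfl)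

include hb in
omit hv in
/-- `W` is congruent to its constant coordinate modulo `v`. -/
theorem sub_algebraMap_repr_zero_mem (W : Φ) :
    W - algebraMap O Φ (b.repr W 0) ∈ Ideal.span {v} := by
  have hW : W = ∑ k, b.repr W k • b k := (b.sum_repr W).symm
  have h0 : algebraMap O Φ (b.repr W 0) = b.repr W 0 • b 0 := by
    rw [hb 0, Fin.val_zero, pow_zero, Algebra.smul_def, mul_one]
  have hsum : W - algebraMap O Φ (b.repr W 0) =
      ∑ k : Fin n, b.repr W k.succ • b k.succ := by
    rw [h0]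
    have hW' := b.sum_repr W
    rw [Fin.sum_univ_succ] at hW'
    exact sub_eq_of_eq_add' hW'.symm
  rw [hsum]
  refine Ideal.sum_mem _ fun k _ => ?_
  rw [hb, Fin.val_succ, pow_succ, ← smul_mul_assoc]
  exact Ideal.mul_mem_left _ _ (Ideal.subset_span rfl)

end Single

section Compare

variable {O Rα Rβ R : Type*} [CommRing O] [CommRing Rα] [CommRing Rβ] [CommRing R]
  [Algebra Rα R] [Algebra Rβ R]
  {n : ℕ} (bα : Module.Basis (Fin (n + 1)) Rα R) (bβ : Module.Basis (Fin (n + 1)) Rβ R)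
  (u v : R) (hbα : ∀ i : Fin (n + 1), bα i = v ^ (i : ℕ))
  (hbβ : ∀ i : Fin (n + 1), bβ i = u ^ (i : ℕ))
  (evα : Rα →+* O) (evβ : Rβ →+* O) (ι : O →+* R) (p : O)
  (hevα : ∀ r : Rα, algebraMap Rα R r - ι (evα r) ∈ Ideal.span {u, v})
  (hevβ : ∀ r : Rβ, algebraMap Rβ R r - ι (evβ r) ∈ Ideal.span {u, v})
  (hvα : ∀ i, evα (bα.repr (v ^ (n + 1)) i) ∈ Ideal.span {p})
  (hvβ : ∀ i, evβ (bβ.repr (u ^ (n + 1)) i) ∈ Ideal.span {p})
  (hcap : ∀ c : O, ι c ∈ Ideal.span {u, v} → c ∈ Ideal.span {p})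

include hbα hevα in
/-- `W ≡ ι (evα w₀)` modulo `(u, v)`. -/
theorem sub_const_mem_α (W : R) : W - ι (evα (bα.repr W 0)) ∈ Ideal.span {u, v} := by
  have h1 := sub_algebraMap_repr_zero_mem bα v hbα W
  have h1' : W - algebraMap Rα R (bα.repr W 0) ∈ Ideal.span {u, v} :=
    Ideal.span_mono (by intro x hx; rw [Set.mem_singleton_iff] at hx; simp [hx]) h1
  have := Ideal.add_mem _ h1' (hevα (bα.repr W 0))
  rwa [sub_add_sub_cancel] at this

include hbβ hevβ in
/-- `W ≡ ι (evβ w₀)` modulo `(u, v)`. -/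
theorem sub_const_mem_β (W : R) : W - ι (evβ (bβ.repr W 0)) ∈ Ideal.span {u, v} := by
  have h1 := sub_algebraMap_repr_zero_mem bβ u hbβ W
  have h1' : W - algebraMap Rβ R (bβ.repr W 0) ∈ Ideal.span {u, v} :=
    Ideal.span_mono (by intro x hx; rw [Set.mem_singleton_iff] at hx; simp [hx]) h1
  have := Ideal.add_mem _ h1' (hevβ (bβ.repr W 0))
  rwa [sub_add_sub_cancel] at this

include hbα hbβ hevα hevβ hvα hvβ hcap in
/-- **Comparison of the two fibres**: `evα (N_α W) ≡ evβ (N_β W)` modulo `p`. -/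
theorem map_norm_sub_map_norm_mem (W : R) :
    evα (Algebra.norm Rα W) - evβ (Algebra.norm Rβ W) ∈ Ideal.span {p} := by
  -- each norm is the `(n+1)`-st power of the constant coordinate modulo `ev⁻¹ (p)`
  have hα : evα (Algebra.norm Rα W) - evα (bα.repr W 0) ^ (n + 1) ∈ Ideal.span {p} := by
    have := norm_sub_pow_mem_ideal bα v hbα ((Ideal.span {p}).comap evα) hvα W
    rwa [Ideal.mem_comap, map_sub, map_pow] at this
  have hβ : evβ (Algebra.norm Rβ W) - evβ (bβ.repr W 0) ^ (n + 1) ∈ Ideal.span {p} := by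
    have := norm_sub_pow_mem_ideal bβ u hbβ ((Ideal.span {p}).comap evβ) hvβ W
    rwa [Ideal.mem_comap, map_sub, map_pow] at this
  -- the two constant coordinates agree modulo `p`
  have hc : evα (bα.repr W 0) - evβ (bβ.repr W 0) ∈ Ideal.span {p} := by
    apply hcap
    have h1 := sub_const_mem_α bα u v hbα evα ι hevα W
    have h2 := sub_const_mem_β bβ u v hbβ evβ ι hevβ W
    have := Ideal.sub_mem _ h2 h1
    rwa [sub_sub_sub_cancel_left, ← map_sub] at this
  have hpow : evα (bα.repr W 0) ^ (n + 1) - evβ (bβ.repr W 0) ^ (n + 1) ∈ Ideal.span {p} := by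
    obtain ⟨d, hd⟩ := sub_dvd_pow_sub_pow (evα (bα.repr W 0)) (evβ (bβ.repr W 0)) (n + 1)
    rw [hd]
    exact Ideal.mul_mem_right _ _ hc
  have := Ideal.sub_mem _ (Ideal.add_mem _ hα hpow) hβ
  convert this using 1
  ring

end Compare

end Fermat.Agent.S40.M1.FibreNorm
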