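/-
S40 / S44 (row 38), T6′ static route (`moonshots` row 67), leaf (H3) of (R4) (helper5):
**honest (Loc-P) at a node.**

Abstract setting (Mathlib only).  `O` a DVR with uniformiser `ϖ`, `π ∈ O` nonzero (in the
application `π = p`), `R` a Noetherian local `O`-algebra whose maximal ideal is `(u, v, ϖ)` with
`u * v = G * π`, `G` a unit (the local ring of the two-component model at a crossing point),
and `ev : R →ₐ[O] O` a rational point through the node.  Put `c = ev u`, `c' = ev v`.  Then

* `ker_eq_span`        : `ker ev = (u - c, v - c')`;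
* `exists_mul_eq`      : `(u - π A₂) (v - c') = (π A₁ - c') (u - c)` with `ev (u - π A₂) ≠ 0`;
* `exists_mul_eq_mul`  : every `x ∈ ker ev` satisfies `s * x = t * (u - c)` with `ev s ≠ 0`
                          (so `u - c` generates `ker ev` in the localisation at `ker ev`);
* `eq_ker_of_mem`      : a prime `𝔮 ∌ π` containing `u - c` is `ker ev`
                          (no other horizontal point through the node lies on `u = c`).

So `u - u(P)` is a local equation of the rational point `P` at the node, **equivariantly** in `P`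
(this is what (R4c) needs; the anonymous generators of `LocPChart` are not enough).
-/
import Mathlib

set_option autoImplicit false
set_option linter.unusedSectionVars false
set_option linter.unusedVariables false
set_option linter.unnecessarySimpa false

namespace Fermat.Agent.S40.M1.NodeLocP

open IsLocalRing

variable {O R : Type*} [CommRing O] [IsDomain O] [IsDiscreteValuationRing O]
  [CommRing R] [IsLocalRing R] [Algebra O R] (ev : R →ₐ[O] O)

/-- A rational point through the closed point: `ev` is a local homomorphism. -/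
theorem ev_mem_maximalIdeal {r : R} (hr : r ∈ maximalIdeal R) : ev r ∈ maximalIdeal O := by
  by_contra h
  have hu : IsUnit (ev r) := by
    by_contra h'
    exact h ((mem_maximalIdeal _).2 h')
  have hker : RingHom.ker (ev : R →+* O) ≤ maximalIdeal R :=
    le_maximalIdeal (RingHom.ker_ne_top _)
  have h1 : r - algebraMap O R (ev r) ∈ maximalIdeal R := by
    apply hker
    rw [RingHom.mem_ker]
    simp
  have h2 : algebraMap O R (ev r) ∈ maximalIdeal R := by
    have := Ideal.sub_mem _ hr h1
    simpa using this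
  exact (mem_maximalIdeal _).1 h2 (hu.map (algebraMap O R))

variable {ϖ π : O} {u v G : R}

/-- `ev u * ev v = ev G * π`. -/
theorem ev_mul_ev (huv : u * v = G * algebraMap O R π) : ev u * ev v = ev G * π := by
  have := congrArg ev huv
  simpa using this

variable [IsNoetherianRing R]

/-- **`ker ev = (u - c, v - c')`.** -/
theorem ker_eq_span (hϖ : maximalIdeal O = Ideal.span {ϖ})
    (hgen : maximalIdeal R = Ideal.span {u, v, algebraMap O R ϖ}) :
    RingHom.ker (ev : R →+* O) =
      Ideal.span {u - algebraMap O R (ev u), v - algebraMap O R (ev v)} := by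
  have hϖ0 : ϖ ≠ 0 := by
    rintro rfl
    have h1 : maximalIdeal O = ⊥ := by rw [hϖ]; simp
    exact IsDiscreteValuationRing.not_a_field O h1
  set J : Ideal R := Ideal.span {u - algebraMap O R (ev u), v - algebraMap O R (ev v)} with hJ
  have hJle : J ≤ RingHom.ker (ev : R →+* O) := by
    rw [hJ, Ideal.span_le]
    rintro x (rfl | rfl) <;> simp [RingHom.mem_ker]
  refine le_antisymm ?_ hJle
  have hu : u ∈ maximalIdeal R := by rw [hgen]; exact Ideal.subset_span (by simp)
  have hv : v ∈ maximalIdeal R := by rw [hgen]; exact Ideal.subset_span (by simp)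
  obtain ⟨c₁, hc₁⟩ : ∃ c₁, ev u = ϖ * c₁ := by
    have := ev_mem_maximalIdeal ev hu
    rw [hϖ, Ideal.mem_span_singleton'] at this
    obtain ⟨a, ha⟩ := this
    exact ⟨a, by rw [← ha, mul_comm]⟩
  obtain ⟨c₂, hc₂⟩ : ∃ c₂, ev v = ϖ * c₂ := by
    have := ev_mem_maximalIdeal ev hv
    rw [hϖ, Ideal.mem_span_singleton'] at this
    obtain ⟨a, ha⟩ := this
    exact ⟨a, by rw [← ha, mul_comm]⟩
  -- Nakayama
  have hfg : (RingHom.ker (ev : R →+* O)).FG := (isNoetherianRing_iff_ideal_fg R).1 inferInstance _
  refine Submodule.le_of_le_smul_of_le_jacobson_bot (I := maximalIdeal R) hfg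
    (le_of_eq (jacobson_eq_maximalIdeal ⊥ bot_ne_top).symm) ?_
  intro x hx
  have hxm : x ∈ maximalIdeal R := le_maximalIdeal (RingHom.ker_ne_top _) hx
  rw [hgen, Ideal.mem_span_insert] at hxm
  obtain ⟨a, z, hz, rfl⟩ := hxm
  rw [Ideal.mem_span_insert] at hz
  obtain ⟨b, z', hz', rfl⟩ := hz
  rw [Ideal.mem_span_singleton'] at hz'
  obtain ⟨d, rfl⟩ := hz'
  -- `x = a u + b v + d ϖ = a (u - c) + b (v - c') + ϖ y`
  set y : R := a * algebraMap O R c₁ + b * algebraMap O R c₂ + d with hy
  have hdecomp : a * u + (b * v + d * algebraMap O R ϖ) =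
      (a * (u - algebraMap O R (ev u)) + b * (v - algebraMap O R (ev v))) +
        algebraMap O R ϖ * y := by
    rw [hy, hc₁, hc₂, map_mul, map_mul]
    ring
  have hyker : y ∈ RingHom.ker (ev : R →+* O) := by
    rw [RingHom.mem_ker] at hx ⊢
    have h1 := hx
    rw [hdecomp] at h1
    have h2 : (ev : R →+* O) (a * (u - algebraMap O R (ev u)) + b * (v - algebraMap O R (ev v)))
        = 0 := by simp
    rw [map_add, h2, zero_add, map_mul] at h1
    have h3 : (ev : R →+* O) (algebraMap O R ϖ) = ϖ := by simp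
    rw [h3] at h1
    exact (mul_eq_zero.1 h1).resolve_left hϖ0
  rw [hdecomp]
  refine Submodule.add_mem_sup ?_ ?_
  · exact Ideal.add_mem _ (Ideal.mul_mem_left _ _ (Ideal.subset_span (by simp)))
      (Ideal.mul_mem_left _ _ (Ideal.subset_span (by simp)))
  · have hϖm : algebraMap O R ϖ ∈ maximalIdeal R := by
      rw [hgen]; exact Ideal.subset_span (by simp)
    exact Submodule.smul_mem_smul hϖm hyker

theorem ev_surjective : Function.Surjective ev := fun o => ⟨algebraMap O R o, by simp⟩

/-- `ev v` is not a unit, hence `π = (ev G)⁻¹ * ev u * ev v` is not a unit either. -/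
theorem ev_u_ne_pi_mul (hϖ : maximalIdeal O = Ideal.span {ϖ})
    (hgen : maximalIdeal R = Ideal.span {u, v, algebraMap O R ϖ})
    (huv : u * v = G * algebraMap O R π) (hG : IsUnit G) (hπ : π ≠ 0) (a : O) :
    ev u ≠ π * a := by
  intro h
  have hv : v ∈ maximalIdeal R := by rw [hgen]; exact Ideal.subset_span (by simp)
  have hvm := ev_mem_maximalIdeal ev hv
  have h1 := ev_mul_ev ev huv
  rw [h] at h1
  have h2 : a * ev v = ev G := by
    have : π * (a * ev v) = π * ev G := by rw [← mul_assoc, h1, mul_comm]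
    exact mul_left_cancel₀ hπ this
  have hGu : IsUnit (ev G) := hG.map ev
  rw [← h2] at hGu
  exact (mem_maximalIdeal _).1 hvm (isUnit_of_mul_isUnit_right hGu)

/-- **The key identity** `(u - π A₂) (v - c') = (π A₁ - c') (u - c)`, with `ev (u - π A₂) ≠ 0`. -/
theorem exists_mul_eq (hϖ : maximalIdeal O = Ideal.span {ϖ})
    (hgen : maximalIdeal R = Ideal.span {u, v, algebraMap O R ϖ})
    (huv : u * v = G * algebraMap O R π) (hG : IsUnit G) (hπ : π ≠ 0) :
    ∃ A₁ A₂ : R,
      (u - algebraMap O R π * A₂) * (v - algebraMap O R (ev v)) =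
        (algebraMap O R π * A₁ - algebraMap O R (ev v)) * (u - algebraMap O R (ev u)) ∧
      ev (u - algebraMap O R π * A₂) ≠ 0 := by
  have hGk : G - algebraMap O R (ev G) ∈ RingHom.ker (ev : R →+* O) := by
    rw [RingHom.mem_ker]; simp
  rw [ker_eq_span ev hϖ hgen, Ideal.mem_span_pair] at hGk
  obtain ⟨A₁, A₂, hA⟩ := hGk
  refine ⟨A₁, A₂, ?_, ?_⟩
  · have h1 : algebraMap O R (ev u) * algebraMap O R (ev v) =
        algebraMap O R (ev G) * algebraMap O R π := by
      rw [← map_mul (algebraMap O R), ← map_mul (algebraMap O R), ev_mul_ev ev huv]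
    linear_combination huv - h1 - algebraMap O R π * hA
  · intro h
    have h2 : ev u = π * ev A₂ := by
      have : ev u - π * ev A₂ = 0 := by simpa using h
      exact sub_eq_zero.1 this
    exact ev_u_ne_pi_mul ev hϖ hgen huv hG hπ _ h2

/-- **`u - c` generates `ker ev` after inverting an element not in `ker ev`.** -/
theorem exists_mul_eq_mul (hϖ : maximalIdeal O = Ideal.span {ϖ})
    (hgen : maximalIdeal R = Ideal.span {u, v, algebraMap O R ϖ})
    (huv : u * v = G * algebraMap O R π) (hG : IsUnit G) (hπ : π ≠ 0) :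
    ∃ s : R, ev s ≠ 0 ∧ ∀ x : R, ev x = 0 → ∃ t : R, s * x = t * (u - algebraMap O R (ev u)) := by
  obtain ⟨A₁, A₂, hid, hs⟩ := exists_mul_eq ev hϖ hgen huv hG hπ
  refine ⟨u - algebraMap O R π * A₂, hs, fun x hx => ?_⟩
  have hxk : x ∈ RingHom.ker (ev : R →+* O) := by rw [RingHom.mem_ker]; exact hx
  rw [ker_eq_span ev hϖ hgen, Ideal.mem_span_pair] at hxk
  obtain ⟨a, b, rfl⟩ := hxk
  refine ⟨a * (u - algebraMap O R π * A₂) + b * (algebraMap O R π * A₁ - algebraMap O R (ev v)), ?_⟩
  linear_combination b * hid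

/-- **No other horizontal prime through the node lies on `u = c`.** -/
theorem eq_ker_of_mem (hϖ : maximalIdeal O = Ideal.span {ϖ})
    (hgen : maximalIdeal R = Ideal.span {u, v, algebraMap O R ϖ})
    (huv : u * v = G * algebraMap O R π) (hG : IsUnit G) (hπ : π ≠ 0)
    (𝔮 : Ideal R) [h𝔮 : 𝔮.IsPrime] (hπ𝔮 : algebraMap O R π ∉ 𝔮)
    (hmem : u - algebraMap O R (ev u) ∈ 𝔮) : 𝔮 = RingHom.ker (ev : R →+* O) := by
  have hv : v ∈ maximalIdeal R := by rw [hgen]; exact Ideal.subset_span (by simp)
  have hvm := ev_mem_maximalIdeal ev hv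
  have hGu : IsUnit (ev G) := hG.map ev
  obtain ⟨g', hg'⟩ := hGu.exists_left_inv
  have h1 := ev_mul_ev ev huv
  -- `π = g' * ev u * ev v`
  have hπeq : π = g' * ev u * ev v := by
    rw [mul_assoc, h1, ← mul_assoc, hg', one_mul]
  obtain ⟨A₁, A₂, hid, hs⟩ := exists_mul_eq ev hϖ hgen huv hG hπ
  have hker_le : RingHom.ker (ev : R →+* O) ≤ 𝔮 := by
    have h2 : (u - algebraMap O R π * A₂) * (v - algebraMap O R (ev v)) ∈ 𝔮 := by
      rw [hid]; exact Ideal.mul_mem_left _ _ hmem
    rcases h𝔮.mem_or_mem h2 with h3 | h3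
    · exfalso
      -- `c - π A₂ ∈ 𝔮`, and `c - π A₂ = c * (unit)`
      have h4 : algebraMap O R (ev u) - algebraMap O R π * A₂ ∈ 𝔮 := by
        have := Ideal.sub_mem _ h3 hmem
        have e : u - algebraMap O R π * A₂ - (u - algebraMap O R (ev u)) =
            algebraMap O R (ev u) - algebraMap O R π * A₂ := by ring
        rwa [e] at this
      have h5 : algebraMap O R (ev u) - algebraMap O R π * A₂ =
          algebraMap O R (ev u) * (1 - algebraMap O R (g' * ev v) * A₂) := by
        conv_lhs => rw [hπeq]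
        simp only [map_mul]
        ring
      have hunit : IsUnit (1 - algebraMap O R (g' * ev v) * A₂) := by
        have hm : algebraMap O R (g' * ev v) * A₂ ∈ maximalIdeal R := by
          apply Ideal.mul_mem_right
          have : g' * ev v ∈ maximalIdeal O := Ideal.mul_mem_left _ _ hvm
          rw [hϖ, Ideal.mem_span_singleton'] at this
          obtain ⟨a, ha⟩ := this
          rw [← ha, map_mul]
          apply Ideal.mul_mem_left
          rw [hgen]; exact Ideal.subset_span (by simp)
        by_contra hnu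
        have h6 : (1 : R) - algebraMap O R (g' * ev v) * A₂ ∈ maximalIdeal R :=
          (mem_maximalIdeal _).2 hnu
        have h7 : (1 : R) ∈ maximalIdeal R := by
          have := Ideal.add_mem _ h6 hm
          simpa using this
        exact (mem_maximalIdeal _).1 h7 isUnit_one
      rw [h5] at h4
      have hc𝔮 : algebraMap O R (ev u) ∈ 𝔮 := by
        rcases h𝔮.mem_or_mem h4 with h8 | h8
        · exact h8
        · exact absurd (𝔮.eq_top_of_isUnit_mem h8 hunit) h𝔮.ne_top
      have hu𝔮 : u ∈ 𝔮 := by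
        have := Ideal.add_mem _ hmem hc𝔮
        simp at this
        exact this
      have h9 : G * algebraMap O R π ∈ 𝔮 := by
        rw [← huv]; exact Ideal.mul_mem_right _ _ hu𝔮
      rcases h𝔮.mem_or_mem h9 with h10 | h10
      · exact absurd (𝔮.eq_top_of_isUnit_mem h10 hG) h𝔮.ne_top
      · exact hπ𝔮 h10
    · rw [ker_eq_span ev hϖ hgen, Ideal.span_le]
      rintro x (rfl | rfl)
      · exact hmem
      · exact h3
  -- now `𝔮 = comap ev (map ev 𝔮)` and `map ev 𝔮` is `⊥` or the maximal ideal
  have hsurj : Function.Surjective (ev : R →+* O) := ev_surjective ev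
  have hcomap : Ideal.comap (ev : R →+* O) (Ideal.map (ev : R →+* O) 𝔮) = 𝔮 := by
    rw [Ideal.comap_map_of_surjective _ hsurj]
    exact sup_eq_left.2 (by rwa [← RingHom.ker_eq_comap_bot])
  have hprime : (Ideal.map (ev : R →+* O) 𝔮).IsPrime :=
    Ideal.map_isPrime_of_surjective hsurj hker_le
  by_cases hbot : Ideal.map (ev : R →+* O) 𝔮 = ⊥
  · rw [← hcomap, hbot, RingHom.ker_eq_comap_bot]
  · exfalso
    have hmax : Ideal.map (ev : R →+* O) 𝔮 = maximalIdeal O :=
      IsLocalRing.eq_maximalIdeal (hprime.isMaximal hbot)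
    have hπm : π ∈ maximalIdeal O := by
      rw [hπeq]; exact Ideal.mul_mem_left _ _ hvm
    apply hπ𝔮
    rw [← hcomap, Ideal.mem_comap, hmax]
    simpa using hπm

end Fermat.Agent.S40.M1.NodeLocP
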