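/-
S40 / S44 (row 38), T6′ static route (`moonshots` row 67), leaf (H3) (helper5):
**honest (Loc-P) at a node `u v = G π` in the language of places.**

`R` a chart (`Subalgebra O F`), `𝔫` a maximal ideal of the special fibre, `u v G ∈ R` with
`u, v ∈ 𝔫`, `G ∉ 𝔫`, `u v = G π` (`π ≠ 0` in `O`; in the application `π = p`), and
`𝔫 R_𝔫 = (u, v, ϖ)` (chart form: `∀ r ∈ 𝔫, ∃ s ∉ 𝔫, s r ∈ (u, v, ϖ)` = `NodeHonest.HonestNode.gen`).
For every RATIONAL place `P` of `F / K` centred at `𝔫` the function `b_P := u − u(P)` has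

  `ord_P b_P = 1`   and   `ord_Q b_P = 0` for every other place `Q` centred at `𝔫`.

* `locP_honest` : local-ring form (`S = locAlg R (centre h)`), generalising `PointsLoc.locP_node`
  (exact node `u w = c`) — via `S40/M1/NodeLocP` + `P3G/LocPCrossing.locP_of_locEq`;
* `maximalIdeal_locAlg_eq_span` : the chart form of the generation hypothesis;
* ★ `locP_honest_chart` : chart form, `UCrit.centredSet` vocabulary (= the hypotheses `hc1 hc2` of
  `R4Node.r4_node_abs` with `c P := valT P hP u`), together with the integrality of the value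
  (`valT P hP u = algebraMap O K a`, `a ∈ 𝔪_O`);
* `valuation_sub_eq_one` : `V₁ (u − u(P)) = 1` for a vertical valuation ring `V₁` at which `u` is a unit
  (= `hc₁` of `r4_node_abs`).
-/
import Mathlib
import Fermat.Agent.G.LocDataPlace
import Fermat.Agent.G.LocPRat
import Fermat.Agent.P3G.LocPCrossing
import Fermat.Agent.S40.M1.NodeLocP
import Fermat.Agent.S40.M1.NodeInv

set_option autoImplicit false
set_option linter.unusedSectionVars false
set_option linter.unusedVariables false
set_option linter.style.haveILetI false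
set_option linter.style.longLine false

open AlgebraicCurve IsLocalRing

noncomputable section

namespace Fermat.Agent.S40.M1.NodeLocPChart

open Fermat.Agent.N4F.E.EvalAt Fermat.Agent.N4F.E.PlaceValue Fermat.Agent.G.Points
  Fermat.Agent.G.PointsLoc Fermat.Agent.G.LocDataPlace Fermat.Agent.S40.M1.NodeInv

variable {O K F : Type*} [CommRing O] [IsDomain O] [IsDiscreteValuationRing O]
  [Field K] [Algebra O K] [IsFractionRing O K]
  [Field F] [Algebra K F] [Algebra O F] [IsScalarTower O K F]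

/-! ### Local-ring form -/

section Loc

variable {R : Subalgebra O F} {v : Place K F}
  {hv : Function.Bijective (algebraMap K v.ResidueField)}

/-- **(Loc-P) at an honest node** `𝔪 = (u, w, ϖ)`, `u w = G π`, `G` a unit, `π ≠ 0`, of the local
ring at the centre of the section `v`: `b_v := u − u(v)` has a simple zero at `v` and is a unit at
every other place centred at the same point. -/
theorem locP_honest [IsNoetherianRing ↥R] (h : IsSection R v hv) {ϖ : O} (hϖ : Irreducible ϖ)
    {u w G : ↥(locAlg R (centre h))} {π : O}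
    (hm : maximalIdeal ↥(locAlg R (centre h)) =
      Ideal.span {u, w, algebraMap O ↥(locAlg R (centre h)) ϖ})
    (huw : u * w = G * algebraMap O ↥(locAlg R (centre h)) π) (hG : IsUnit G) (hπ : π ≠ 0)
    (hfrac : ∀ x : F, ∃ y z : R, z ≠ 0 ∧ x * (z : F) = (y : F)) :
    v.ord ((u : F) - algebraMap O F (evLocAlg h u)) = 1 ∧
      ∀ v' : Place K F, CentredAt R (centre h) v' → v' ≠ v →
        v'.ord ((u : F) - algebraMap O F (evLocAlg h u)) = 0 := by
  haveI : IsNoetherianRing ↥(locAlg R (centre h)) := isNoetherianRing_locAlg R (centre h)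
  have hϖm : maximalIdeal O = Ideal.span {ϖ} := (Irreducible.maximalIdeal_eq hϖ)
  set φ : ↥(locAlg R (centre h)) →ₐ[O] O := evLocAlg h with hφ
  set b : ↥(locAlg R (centre h)) := u - algebraMap O ↥(locAlg R (centre h)) (φ u) with hbdef
  have hbF : (b : F) = (u : F) - algebraMap O F (evLocAlg h u) := rfl
  have hbker : evLocAlg h b = 0 := by
    show φ b = 0
    rw [hbdef, map_sub, AlgHom.commutes, Algebra.algebraMap_self, RingHom.id_apply, sub_self]
  -- generation of the kernel up to an element not vanishing at the section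
  have hgen : ∃ y : ↥(locAlg R (centre h)),
      y ∉ RingHom.ker (evLocAlg h : _ →+* O) ∧
      ∀ z ∈ RingHom.ker (evLocAlg h : ↥(locAlg R (centre h)) →+* O), y * z ∈ Ideal.span {b} := by
    obtain ⟨s, hs, hall⟩ := NodeLocP.exists_mul_eq_mul φ hϖm hm huw hG hπ
    refine ⟨s, fun hsk => hs ((RingHom.mem_ker).1 hsk), fun z hz => ?_⟩
    obtain ⟨t, ht⟩ := hall z ((RingHom.mem_ker).1 hz)
    rw [ht]
    exact Ideal.mul_mem_left _ _ (Ideal.subset_span rfl)
  -- horizontal primes through `b` are the kernel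
  have hq : ∀ q : Ideal ↥(locAlg R (centre h)), q.IsPrime → b ∈ q →
      algebraMap O ↥(locAlg R (centre h)) ϖ ∉ q →
      RingHom.ker (evLocAlg h : ↥(locAlg R (centre h)) →+* O) ≤ q := by
    intro q hqp hbq hϖq
    haveI := hqp
    have hπq : algebraMap O ↥(locAlg R (centre h)) π ∉ q := by
      obtain ⟨n, hn⟩ := IsDiscreteValuationRing.associated_pow_irreducible hπ hϖ
      obtain ⟨c, hc⟩ := hn
      intro hmem
      have h1 : algebraMap O ↥(locAlg R (centre h)) (π * (c : O)) ∈ q := by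
        rw [map_mul]
        exact Ideal.mul_mem_right _ _ hmem
      rw [hc, map_pow] at h1
      exact hϖq (hqp.mem_of_pow_mem n h1)
    have := NodeLocP.eq_ker_of_mem φ hϖm hm huw hG hπ q hπq hbq
    rw [this]
  have := Fermat.Agent.P3G.LocPCrossing.locP_of_locEq h hϖ.ne_zero b hbker hgen hq hfrac
  rwa [hbF] at this

end Loc

/-! ### Chart form -/

section Chart

variable {R : Subalgebra O F} {𝔫 : Ideal ↥R} [h𝔫 : 𝔫.IsMaximal]

/-- `𝔫 R_𝔫 = (u, v, ϖ)` from the chart form of the generation hypothesis. -/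
theorem maximalIdeal_locAlg_eq_span {u v : ↥R} {ϖ : O} (hu : u ∈ 𝔫) (hv : v ∈ 𝔫)
    (hϖ𝔫 : algebraMap O ↥R ϖ ∈ 𝔫)
    (hgen : ∀ r ∈ 𝔫, ∃ s a b c : ↥R, s ∉ 𝔫 ∧
      s * r = a * u + b * v + c * algebraMap O ↥R ϖ) :
    maximalIdeal ↥(locAlg R 𝔫) =
      Ideal.span {algebraMap ↥R ↥(locAlg R 𝔫) u, algebraMap ↥R ↥(locAlg R 𝔫) v,
        algebraMap O ↥(locAlg R 𝔫) ϖ} := by
  haveI := h𝔫.isPrime
  have hϖS : algebraMap O ↥(locAlg R 𝔫) ϖ = algebraMap ↥R ↥(locAlg R 𝔫) (algebraMap O ↥R ϖ) :=
    IsScalarTower.algebraMap_apply O ↥R ↥(locAlg R 𝔫) ϖ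
  rw [maximalIdeal_locAlg]
  apply le_antisymm
  · rw [Ideal.map_le_iff_le_comap]
    intro r hr
    rw [Ideal.mem_comap]
    obtain ⟨s, a, b, c, hs, hsr⟩ := hgen r hr
    have hsu : IsUnit (algebraMap ↥R ↥(locAlg R 𝔫) s) :=
      IsLocalization.map_units (M := 𝔫.primeCompl) ↥(locAlg R 𝔫) ⟨s, hs⟩
    have h1 : algebraMap ↥R ↥(locAlg R 𝔫) s * algebraMap ↥R ↥(locAlg R 𝔫) r ∈
        Ideal.span {algebraMap ↥R ↥(locAlg R 𝔫) u, algebraMap ↥R ↥(locAlg R 𝔫) v,
          algebraMap O ↥(locAlg R 𝔫) ϖ} := by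
      rw [← map_mul, hsr, map_add, map_add, map_mul, map_mul, map_mul, ← hϖS]
      refine Ideal.add_mem _ (Ideal.add_mem _ ?_ ?_) ?_
      · exact Ideal.mul_mem_left _ _ (Ideal.subset_span (Set.mem_insert _ _))
      · exact Ideal.mul_mem_left _ _
          (Ideal.subset_span (Set.mem_insert_of_mem _ (Set.mem_insert _ _)))
      · exact Ideal.mul_mem_left _ _
          (Ideal.subset_span (Set.mem_insert_of_mem _ (Set.mem_insert_of_mem _ rfl)))
    obtain ⟨s', hs'⟩ := hsu.exists_left_inv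
    have h2 : algebraMap ↥R ↥(locAlg R 𝔫) r =
        s' * (algebraMap ↥R ↥(locAlg R 𝔫) s * algebraMap ↥R ↥(locAlg R 𝔫) r) := by
      rw [← mul_assoc, hs', one_mul]
    rw [h2]
    exact Ideal.mul_mem_left _ _ h1
  · rw [Ideal.span_le]
    intro x hx
    simp only [Set.mem_insert_iff, Set.mem_singleton_iff] at hx
    rcases hx with rfl | rfl | rfl
    · exact Ideal.mem_map_of_mem _ hu
    · exact Ideal.mem_map_of_mem _ hv
    · rw [hϖS]
      exact Ideal.mem_map_of_mem _ hϖ𝔫

/-- ★ **Honest (Loc-P), chart form.**  For a rational place `P` centred at `𝔫` the value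
`c := u(P)` lies in `𝔪_O`, and `u − c` has a simple zero at `P` and no zero or pole at the other
places centred at `𝔫`. -/
theorem locP_honest_chart [IsNoetherianRing ↥R]
    (hfrac : ∀ x : F, ∃ y z : R, z ≠ 0 ∧ x * (z : F) = (y : F))
    {ϖ : O} (hirr : Irreducible ϖ) (hϖ𝔫 : algebraMap O ↥R ϖ ∈ 𝔫)
    {u v G : ↥R} {π : O} (hu : u ∈ 𝔫) (hv : v ∈ 𝔫) (hG : G ∉ 𝔫)
    (huv : u * v = G * algebraMap O ↥R π) (hπ : π ≠ 0)
    (hgen : ∀ r ∈ 𝔫, ∃ s a b c : ↥R, s ∉ 𝔫 ∧
      s * r = a * u + b * v + c * algebraMap O ↥R ϖ)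
    {P : Place K F} (hP : Function.Bijective (algebraMap K P.ResidueField))
    (hc : P ∈ Fermat.Agent.P3G.UCrit.centredSet K 𝔫) :
    (∃ a : O, a ∈ maximalIdeal O ∧ valT P hP (u : F) = algebraMap O K a) ∧
      P.ord ((u : F) - algebraMap K F (valT P hP (u : F))) = 1 ∧
      ∀ Q ∈ Fermat.Agent.P3G.UCrit.centredSet K 𝔫, Q ≠ P →
        Q.ord ((u : F) - algebraMap K F (valT P hP (u : F))) = 0 := by
  haveI := h𝔫.isPrime
  have hO : ∀ a : O, a ∈ maximalIdeal O → algebraMap O ↥R a ∈ 𝔫 := by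
    intro a ha
    rw [Irreducible.maximalIdeal_eq hirr, Ideal.mem_span_singleton'] at ha
    obtain ⟨t, rfl⟩ := ha
    rw [map_mul]
    exact Ideal.mul_mem_left _ _ hϖ𝔫
  have hcP : CentredAt R 𝔫 P := (Fermat.Agent.G.LocPRatGlue.mem_ucrit_centredSet_iff R 𝔫).1 hc
  have h : IsSection R P hP := isSection_of_centredAt (h𝔫 := h𝔫.isPrime) hO hP hcP
  have hcen : centre h = 𝔫 := centre_eq_of_centredAt h hcP h𝔫
  subst hcen
  have hm := maximalIdeal_locAlg_eq_span (R := R) (𝔫 := centre h) hu hv hϖ𝔫 hgen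
  have huw' : algebraMap ↥R ↥(locAlg R (centre h)) u * algebraMap ↥R ↥(locAlg R (centre h)) v =
      algebraMap ↥R ↥(locAlg R (centre h)) G * algebraMap O ↥(locAlg R (centre h)) π := by
    rw [← map_mul, huv, map_mul, ← IsScalarTower.algebraMap_apply O ↥R ↥(locAlg R (centre h)) π]
  have hGu : IsUnit (algebraMap ↥R ↥(locAlg R (centre h)) G) :=
    IsLocalization.map_units (M := (centre h).primeCompl) ↥(locAlg R (centre h)) ⟨G, hG⟩
  obtain ⟨h1, h2⟩ := locP_honest h hirr hm huw' hGu hπ hfrac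
  -- the value
  have hval : valT P hP (u : F) = algebraMap O K (ev h u) := by
    rw [valT_of_mem P hP (h.mem u), algebraMap_ev]
  have hev : evLocAlg h (algebraMap ↥R ↥(locAlg R (centre h)) u) = ev h u :=
    evLocAlg_algebraMap h u
  have hcoe : ((algebraMap ↥R ↥(locAlg R (centre h)) u : ↥(locAlg R (centre h))) : F) = (u : F) :=
    algebraMap_locAlg_coe R (centre h) u
  have hbb : (u : F) - algebraMap K F (valT P hP (u : F)) =
      ((algebraMap ↥R ↥(locAlg R (centre h)) u : ↥(locAlg R (centre h))) : F) -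
        algebraMap O F (evLocAlg h (algebraMap ↥R ↥(locAlg R (centre h)) u)) := by
    rw [hcoe, hev, hval, ← IsScalarTower.algebraMap_apply O K F]
  refine ⟨⟨ev h u, ?_, hval⟩, ?_, ?_⟩
  · by_contra hnot
    rw [mem_maximalIdeal, mem_nonunits_iff, not_not] at hnot
    exact ((not_mem_centre_iff h u).mpr hnot) hu
  · rw [hbb]; exact h1
  · intro Q hQ hne
    rw [hbb]
    exact h2 Q ((Fermat.Agent.G.LocPRatGlue.mem_ucrit_centredSet_iff R (centre h)).1 hQ) hne

end Chart

/-! ### The vertical valuation of `u − u(P)` -/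

section Vert

/-- `V (u − c) = 1` for a valuation ring `V` at which `u` is a unit and `c` a non-unit. -/
theorem valuation_sub_eq_one (V : ValuationSubring F) {u c : F} (hu : V.valuation u = 1)
    (hc : c ∈ V.nonunits) : V.valuation (u - c) = 1 := by
  have hc' : V.valuation c < 1 := (V.mem_nonunits_iff).1 hc
  have h1 : V.valuation (u - c) = V.valuation u := by
    rw [sub_eq_add_neg]
    apply Valuation.map_add_eq_of_lt_left
    rw [Valuation.map_neg, hu]
    exact hc'
  rw [h1, hu]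

/-- Constants of `𝔪_O` are non-units of a vertical valuation ring (one containing `O` in which the
uniformiser is a non-unit). -/
theorem algebraMap_mem_nonunits_of_mem (V : ValuationSubring F) {ϖ : O} (hirr : Irreducible ϖ)
    (hVO : ∀ a : O, algebraMap O F a ∈ V) (hϖV : algebraMap O F ϖ ∈ V.nonunits) {a : O}
    (ha : a ∈ maximalIdeal O) : algebraMap O F a ∈ V.nonunits := by
  rw [Irreducible.maximalIdeal_eq hirr, Ideal.mem_span_singleton'] at ha
  obtain ⟨t, rfl⟩ := ha
  rw [map_mul, V.mem_nonunits_iff, map_mul]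
  have h1 : V.valuation (algebraMap O F t) ≤ 1 := (V.valuation_le_one_iff _).2 (hVO t)
  have h2 : V.valuation (algebraMap O F ϖ) < 1 := (V.mem_nonunits_iff).1 hϖV
  exact mul_lt_one_of_nonneg_of_lt_one_right h1 zero_le h2

end Vert

end Fermat.Agent.S40.M1.NodeLocPChart
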