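/-
S40 / T6′ static route, leaf (R4)(c) "TEST POINTS" (helper21; design helper1 #3149 (c), helper5 row 67 (H4)).

ABSTRACT PART (Mathlib + `P3G/Krull`, `P3G/UCrit`; no completion, no henselian hypothesis).

`S` a chart (noetherian domain with fraction field `F ⊇ K = Frac O`, `O` a discrete valuation ring
with uniformiser `ϖ`), `V` a vertical valuation ring of `F` (`S ⊆ V`, `ϖ ∈ 𝔪_V`) which is saturated
(`𝔪_V ∩ S = ϖ S`: the special fibre is integral), `𝔪` a prime of `S` on `V` (`𝔪_V ∩ S ⊆ 𝔪`) which is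
a REGULAR point: `𝔪 S_𝔪 = (t, ϖ)` with `t ∈ 𝔪` a `V`-unit.  For `c ∈ ϖ O` put `τ_c := t - c`.

* `exists_unit_mul_pow_add`, `span_singleton_isPrime` : a noetherian local ring with maximal ideal
  `(τ, ϖ)` in which `ϖ` is not nilpotent modulo `τ`: every `z ∉ (τ)` is `unit · ϖ ^ n` modulo `τ`
  (Krull intersection), hence `(τ)` is prime.
* `horPrime F 𝔪 t c = (τ_c) S_𝔪 ∩ S`, `mem_horPrime_iff`, `horPrime_isPrime`, `horPrime_le`,
  `isDiscreteValuationRing_locAt_horPrime`, `exists_mul_eq_pow_add`.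
* **`exists_place_ord_tau`** : there is a place `Q` of `F / K` centred at `𝔪` with `ord_Q τ_c = 1`,
  whose centre on `S` is `horPrime`;
* **`place_eq_of_ord_tau_pos`** : it is the ONLY place centred at `𝔪` at which `τ_c` vanishes
  (so it is fixed by every automorphism datum fixing `S, 𝔪, t, c`);
  `mem_nonunits_iff_of_ord_tau_pos` : its centre;
* `existsUnique_place` : the two combined;
* `eq_of_ord_tau_pos` : distinct `c` give distinct places; `exists_place_notMem` : the test point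
  can be chosen outside any finite set of places;
* `ord_eq_zero_of_notMem` : elements of `S ∖ 𝔪` are units at every place centred at `𝔪`.

Consumers: rationality of `Q` at big levels is `N4F/C/Rationality.residueTrivial_of_ord_ne_zeroK`
applied to `τ_c`; a rational place centred at a closed point is a section
(`G/LocDataPlace.isSection_of_centredAt`), whence the evaluation `G.Points.ev : S →ₐ[O] O`.
-/
import Mathlib
import Fermat.Agent.P3G.UCrit

set_option autoImplicit false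
set_option linter.style.haveILetI false
set_option linter.unnecessarySimpa false
set_option linter.unusedSectionVars false

namespace Fermat.Agent.S40.M1.TestPoint

section LocalAlg

variable {L : Type*} [CommRing L] [IsLocalRing L] [IsNoetherianRing L]

/-- **Structure lemma.**  `L` noetherian local with maximal ideal `(τ, ϖ)`.  Every `z ∉ (τ)` is
`u ϖ ^ n + a τ` with `u` a unit. -/
theorem exists_unit_mul_pow_add {τ ϖ : L}
    (hm : IsLocalRing.maximalIdeal L = Ideal.span {τ, ϖ}) {z : L}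
    (hz : z ∉ Ideal.span {τ}) :
    ∃ (n : ℕ) (u : Lˣ) (a : L), z = u * ϖ ^ n + a * τ := by
  classical
  set I : Ideal L := Ideal.span {τ} with hI
  have hτm : τ ∈ IsLocalRing.maximalIdeal L := by
    rw [hm]; exact Ideal.subset_span (by simp)
  have hϖm : ϖ ∈ IsLocalRing.maximalIdeal L := by
    rw [hm]; exact Ideal.subset_span (by simp)
  have hItop : I ≠ ⊤ := by
    intro h
    have : (1 : L) ∈ I := h ▸ Submodule.mem_top
    have h1 : I ≤ IsLocalRing.maximalIdeal L := by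
      rw [hI, Ideal.span_le]; rintro _ rfl; exact hτm
    exact (IsLocalRing.maximalIdeal.isMaximal L).ne_top
      ((Ideal.eq_top_iff_one _).2 (h1 this))
  -- Krull in `L ⧸ I`
  haveI : Nontrivial (L ⧸ I) := Ideal.Quotient.nontrivial_iff.2 hItop
  haveI : IsLocalRing (L ⧸ I) :=
    IsLocalRing.of_surjective' (Ideal.Quotient.mk I) Ideal.Quotient.mk_surjective
  set J : Ideal (L ⧸ I) := Ideal.span {Ideal.Quotient.mk I ϖ} with hJ
  have hJtop : J ≠ ⊤ := by
    intro h
    have h1 : IsUnit (Ideal.Quotient.mk I ϖ) := Ideal.span_singleton_eq_top.1 h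
    have h2 : ϖ ∉ IsLocalRing.maximalIdeal L := by
      intro _
      obtain ⟨y, hy⟩ := h1.exists_right_inv
      obtain ⟨y', rfl⟩ := Ideal.Quotient.mk_surjective y
      rw [← map_mul, ← map_one (Ideal.Quotient.mk I), Ideal.Quotient.eq] at hy
      have h3 : ϖ * y' - 1 ∈ IsLocalRing.maximalIdeal L := by
        have h1 : I ≤ IsLocalRing.maximalIdeal L := by
          rw [hI, Ideal.span_le]; rintro _ rfl; exact hτm
        exact h1 hy
      have h4 : (1 : L) ∈ IsLocalRing.maximalIdeal L := by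
        have := sub_mem (Ideal.mul_mem_right y' _ hϖm) h3
        simpa using this
      exact (IsLocalRing.maximalIdeal.isMaximal L).ne_top ((Ideal.eq_top_iff_one _).2 h4)
    exact h2 hϖm
  have hK := Ideal.iInf_pow_eq_bot_of_isLocalRing J hJtop
  have hz0 : Ideal.Quotient.mk I z ≠ 0 := fun h => hz (Ideal.Quotient.eq_zero_iff_mem.1 h)
  have hex : ∃ n : ℕ, Ideal.Quotient.mk I z ∉ J ^ n := by
    by_contra hcon
    push Not at hcon
    have : Ideal.Quotient.mk I z ∈ (⨅ i, J ^ i : Ideal (L ⧸ I)) := by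
      rw [Ideal.mem_iInf]; exact hcon
    rw [hK] at this
    exact hz0 (by simpa using this)
  set n := Nat.find hex with hn
  have hn1 : Ideal.Quotient.mk I z ∉ J ^ n := Nat.find_spec hex
  have hnpos : 0 < n := by
    rcases Nat.eq_zero_or_pos n with h0 | h0
    · exfalso; rw [h0, pow_zero, Ideal.one_eq_top] at hn1; exact hn1 Submodule.mem_top
    · exact h0
  have hn2 : Ideal.Quotient.mk I z ∈ J ^ (n - 1) := by
    by_contra hcon
    have := Nat.find_min' hex hcon
    omega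
  rw [hJ, Ideal.span_singleton_pow, Ideal.mem_span_singleton'] at hn2
  obtain ⟨w, hw⟩ := hn2
  obtain ⟨w', rfl⟩ := Ideal.Quotient.mk_surjective w
  have hw'u : IsUnit w' := by
    by_contra hnu
    have hwm : w' ∈ IsLocalRing.maximalIdeal L := (IsLocalRing.mem_maximalIdeal _).2 hnu
    rw [hm, Ideal.mem_span_pair] at hwm
    obtain ⟨a, b, hab⟩ := hwm
    apply hn1
    have hmem : Ideal.Quotient.mk I w' ∈ J := by
      rw [← hab, map_add, map_mul, map_mul]
      have : Ideal.Quotient.mk I τ = 0 :=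
        Ideal.Quotient.eq_zero_iff_mem.2 (Ideal.subset_span rfl)
      rw [this, mul_zero, zero_add]
      exact Ideal.mul_mem_left _ _ (Ideal.subset_span rfl)
    have h2 : J ^ n = J ^ (n - 1) * J := by
      rw [← pow_succ]; congr 1; omega
    rw [h2, ← hw, mul_comm (Ideal.Quotient.mk I w')]
    exact Ideal.mul_mem_mul (by
      rw [hJ, Ideal.span_singleton_pow]; exact Ideal.subset_span rfl) hmem
  have hsub : z - w' * ϖ ^ (n - 1) ∈ I := by
    rw [← Ideal.Quotient.eq, map_mul, map_pow, hw]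
  rw [hI, Ideal.mem_span_singleton'] at hsub
  obtain ⟨a, ha⟩ := hsub
  exact ⟨n - 1, hw'u.unit, a, by rw [IsUnit.unit_spec, ha]; ring⟩

/-- `L` noetherian local with maximal ideal `(τ, ϖ)` and `ϖ` not nilpotent modulo `τ`:
`(τ)` is a prime ideal. -/
theorem span_singleton_isPrime {τ ϖ : L}
    (hm : IsLocalRing.maximalIdeal L = Ideal.span {τ, ϖ})
    (hnil : ∀ k : ℕ, ϖ ^ k ∉ Ideal.span {τ}) : (Ideal.span {τ} : Ideal L).IsPrime := by
  refine ⟨fun h => hnil 0 (h ▸ Submodule.mem_top), ?_⟩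
  intro x y hxy
  by_contra hcon
  push Not at hcon
  obtain ⟨n, u, a, hx⟩ := exists_unit_mul_pow_add hm hcon.1
  obtain ⟨m, w, b, hy⟩ := exists_unit_mul_pow_add hm hcon.2
  apply hnil (n + m)
  have h1 : (u : L) * w * ϖ ^ (n + m) ∈ Ideal.span {τ} := by
    have : (u : L) * w * ϖ ^ (n + m) = x * y - (a * y + u * ϖ ^ n * b) * τ := by
      rw [hx, hy]; ring
    rw [this]
    exact sub_mem hxy (Ideal.mul_mem_left _ _ (Ideal.subset_span rfl))
  have h2 : ϖ ^ (n + m) = ((u⁻¹ : Lˣ) : L) * ((w⁻¹ : Lˣ) : L) * ((u : L) * w * ϖ ^ (n + m)) := by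
    have e1 : ((u⁻¹ : Lˣ) : L) * (u : L) = 1 := Units.inv_mul u
    have e2 : ((w⁻¹ : Lˣ) : L) * (w : L) = 1 := Units.inv_mul w
    calc ϖ ^ (n + m) = (((u⁻¹ : Lˣ) : L) * (u : L)) * (((w⁻¹ : Lˣ) : L) * (w : L)) * ϖ ^ (n + m) := by
          rw [e1, e2]; ring
      _ = _ := by ring
  rw [h2]
  exact Ideal.mul_mem_left _ _ h1

end LocalAlg

section VS

variable {F : Type*} [Field F] (V : ValuationSubring F)

theorem mul_mem_nonunits_left {x y : F} (hx : x ∈ V) (hy : y ∈ V.nonunits) :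
    x * y ∈ V.nonunits := by
  rw [ValuationSubring.mem_nonunits_iff] at hy ⊢
  rw [map_mul]
  have h1 : V.valuation x ≤ 1 := (V.valuation_le_one_iff _).2 hx
  calc V.valuation x * V.valuation y ≤ 1 * V.valuation y := by gcongr
    _ = V.valuation y := one_mul _
    _ < 1 := hy

theorem valuation_eq_one_of_mem_of_notMem {x : F} (hx : x ∈ V) (hx' : x ∉ V.nonunits) :
    V.valuation x = 1 := by
  rw [ValuationSubring.mem_nonunits_iff, not_lt] at hx'
  exact le_antisymm ((V.valuation_le_one_iff _).2 hx) hx'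

end VS

section Chart

open AlgebraicCurve Fermat.Agent.N4.Cover.Globalize Fermat.Agent.P3G.Krull
open Fermat.Agent.N4F.C.LocalMult Fermat.Agent.P3G.UCrit

variable {O K F S : Type*}
  [CommRing O] [IsDomain O] [IsDiscreteValuationRing O]
  [Field K] [Algebra O K] [IsFractionRing O K]
  [Field F] [Algebra K F] [Algebra O F] [IsScalarTower O K F]
  [CommRing S] [IsDomain S] [IsNoetherianRing S]
  [Algebra S F] [IsFractionRing S F] [Algebra O S] [IsScalarTower O S F]

variable {ϖ : O} (hϖ : Irreducible ϖ)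
variable (V : ValuationSubring F) (hV : ∀ s : S, algebraMap S F s ∈ V)
  (hϖV : algebraMap S F (algebraMap O S ϖ) ∈ V.nonunits)
  (hsat : ∀ r : S, algebraMap S F r ∈ V.nonunits → algebraMap O S ϖ ∣ r)
variable (𝔪 : Ideal S) [h𝔪 : 𝔪.IsPrime]
  (hthr : ∀ r : S, algebraMap S F r ∈ V.nonunits → r ∈ 𝔪)
  (t : S) (ht : t ∈ 𝔪) (htV : algebraMap S F t ∉ V.nonunits)
  (hreg : ∀ x ∈ 𝔪, ∃ s a b : S, s ∉ 𝔪 ∧ s * x = a * t + b * algebraMap O S ϖ)

/-- The shifted parameter `t - c`. -/
def tau (t : S) (c : O) : S := t - algebraMap O S c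

include hV hϖV in
theorem algebraMap_mem_nonunits_of_dvd {c : O} (hc : ϖ ∣ c) :
    algebraMap S F (algebraMap O S c) ∈ V.nonunits := by
  obtain ⟨c', rfl⟩ := hc
  rw [map_mul, map_mul, mul_comm]
  exact mul_mem_nonunits_left V (hV _) hϖV

include hV hϖV htV in
theorem tau_notMem_nonunits {c : O} (hc : ϖ ∣ c) :
    algebraMap S F (tau t c) ∉ V.nonunits := by
  intro h
  apply htV
  have h1 := algebraMap_mem_nonunits_of_dvd V hV hϖV hc
  have h2 : algebraMap S F t = algebraMap S F (tau t c) + algebraMap S F (algebraMap O S c) := by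
    rw [tau, map_sub]; ring
  rw [h2]
  exact add_mem h h1

include hV hϖV hthr ht in
theorem tau_mem {c : O} (hc : ϖ ∣ c) : tau t c ∈ 𝔪 :=
  𝔪.sub_mem ht (hthr _ (algebraMap_mem_nonunits_of_dvd V hV hϖV hc))

include hV hϖV htV in
theorem tau_ne_zero {c : O} (hc : ϖ ∣ c) : tau t c ≠ 0 := by
  intro h0
  apply tau_notMem_nonunits V hV hϖV t htV hc
  rw [h0, map_zero]
  exact V.nonunits.zero_mem

variable (K) in
include K hϖ hV hϖV hsat hthr ht htV in
/-- `ϖ` is not nilpotent modulo `t - c`, locally at `𝔪`. -/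
theorem mul_pow_ne_mul_tau {c : O} (hc : ϖ ∣ c) (k : ℕ) :
    ∀ s a : S, s ∉ 𝔪 → s * algebraMap O S ϖ ^ k ≠ a * tau t c := by
  induction k with
  | zero =>
    intro s a hs h
    rw [pow_zero, mul_one] at h
    exact hs (h ▸ 𝔪.mul_mem_left a (tau_mem V hV hϖV 𝔪 hthr t ht hc))
  | succ k ih =>
    intro s a hs h
    have h1 : algebraMap S F (a * tau t c) ∈ V.nonunits := by
      rw [← h, pow_succ, ← mul_assoc, map_mul]
      exact mul_mem_nonunits_left V (hV _) hϖV
    have h2 : algebraMap S F a ∈ V.nonunits := by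
      rw [ValuationSubring.mem_nonunits_iff] at h1 ⊢
      rw [map_mul, map_mul, valuation_eq_one_of_mem_of_notMem V (hV _)
        (tau_notMem_nonunits V hV hϖV t htV hc), mul_one] at h1
      exact h1
    obtain ⟨a', rfl⟩ := hsat a h2
    have hϖ0 : algebraMap O S ϖ ≠ 0 := algebraMap_uniformiser_ne_zero K F hϖ
    refine ih s a' hs (mul_left_cancel₀ hϖ0 ?_)
    rw [pow_succ] at h
    linear_combination h

variable (F) in
/-- The horizontal prime cut out by `t - c` near `𝔪`: `(t - c) S_𝔪 ∩ S`. -/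
noncomputable def horPrime (𝔪 : Ideal S) [𝔪.IsPrime] (t : S) (c : O) : Ideal S :=
  Ideal.comap (algebraMap S (locAt (F := F) 𝔪))
    (Ideal.span {algebraMap S (locAt (F := F) 𝔪) (tau t c)})

theorem mem_horPrime_iff {c : O} {x : S} :
    x ∈ horPrime F 𝔪 t c ↔ ∃ s a : S, s ∉ 𝔪 ∧ s * x = a * tau t c := by
  rw [horPrime, Ideal.mem_comap, Ideal.mem_span_singleton']
  constructor
  · rintro ⟨y, hy⟩
    obtain ⟨a, s, hs, hys⟩ := (mem_locAt_iff 𝔪 (y : F)).1 y.2
    refine ⟨s, a, hs, IsFractionRing.injective S F ?_⟩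
    have h1 : (y : F) * algebraMap S F (tau t c) = algebraMap S F x := by
      have := congrArg (Subtype.val) hy
      simpa using this
    rw [map_mul, map_mul, ← h1, ← hys]
    ring
  · rintro ⟨s, a, hs, hsx⟩
    refine ⟨⟨_, div_mem_locAt 𝔪 a hs⟩, ?_⟩
    apply Subtype.ext
    have hs0 := algebraMap_ne_zero_of_notMem (F := F) 𝔪 hs
    have h1 : algebraMap S F s * algebraMap S F x = algebraMap S F a * algebraMap S F (tau t c) := by
      rw [← map_mul, ← map_mul, hsx]
    show algebraMap S F a / algebraMap S F s * algebraMap S F (tau t c) = algebraMap S F x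
    rw [div_mul_eq_mul_div, ← h1]
    field_simp

include hV hϖV hthr ht in
theorem horPrime_le {c : O} (hc : ϖ ∣ c) : horPrime F 𝔪 t c ≤ 𝔪 := by
  intro x hx
  obtain ⟨s, a, hs, hsx⟩ := (mem_horPrime_iff 𝔪 t).1 hx
  have : s * x ∈ 𝔪 := hsx ▸ 𝔪.mul_mem_left a (tau_mem V hV hϖV 𝔪 hthr t ht hc)
  exact (h𝔪.mem_or_mem this).resolve_left hs

theorem tau_mem_horPrime (c : O) : tau t c ∈ horPrime F 𝔪 t c :=
  (mem_horPrime_iff 𝔪 t).2 ⟨1, 1, fun h => h𝔪.ne_top ((Ideal.eq_top_iff_one _).2 h), rfl⟩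

variable (K) in
include K hϖ hV hϖV hsat hthr ht htV in
theorem pow_notMem_horPrime {c : O} (hc : ϖ ∣ c) (k : ℕ) :
    algebraMap O S ϖ ^ k ∉ horPrime F 𝔪 t c := by
  intro h
  obtain ⟨s, a, hs, hsx⟩ := (mem_horPrime_iff 𝔪 t).1 h
  exact mul_pow_ne_mul_tau K hϖ V hV hϖV hsat 𝔪 hthr t ht htV hc k s a hs hsx

include hV hϖV hthr ht hreg in
/-- The maximal ideal of `S_𝔪` is `(t - c, ϖ)`. -/
theorem maximalIdeal_locAt_eq {c : O} (hc : ϖ ∣ c) :
    haveI := isLocalRing_locAt (F := F) 𝔪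
    IsLocalRing.maximalIdeal (locAt (F := F) 𝔪) =
      Ideal.span {algebraMap S (locAt (F := F) 𝔪) (tau t c),
        algebraMap S (locAt (F := F) 𝔪) (algebraMap O S ϖ)} := by
  haveI hloc := isLocalRing_locAt (F := F) 𝔪
  have hϖ𝔪 : algebraMap O S ϖ ∈ 𝔪 := hthr _ hϖV
  apply le_antisymm
  · intro z hz
    obtain ⟨p, s₁, hp, hs₁, hz'⟩ := (mem_maximalIdeal_locAt_iff 𝔪 hloc z).1 hz
    obtain ⟨s, a, b, hs, hsab⟩ := hreg p hp
    obtain ⟨c', rfl⟩ := hc
    rw [Ideal.mem_span_pair]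
    have hss : s₁ * s ∉ 𝔪 := fun h => (h𝔪.mem_or_mem h).elim hs₁ hs
    refine ⟨⟨_, div_mem_locAt 𝔪 a hss⟩,
      ⟨_, div_mem_locAt 𝔪 (a * algebraMap O S c' + b) hss⟩, ?_⟩
    apply Subtype.ext
    have h1 := algebraMap_ne_zero_of_notMem (F := F) 𝔪 hs₁
    have h2 := algebraMap_ne_zero_of_notMem (F := F) 𝔪 hs
    have h3 : algebraMap S F s * algebraMap S F p =
        algebraMap S F a * algebraMap S F t + algebraMap S F b *
          algebraMap S F (algebraMap O S ϖ) := by
      rw [← map_mul, ← map_mul, ← map_mul, ← map_add, hsab]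
    have h4 : algebraMap S F (tau t (ϖ * c')) = algebraMap S F t -
        algebraMap S F (algebraMap O S ϖ) * algebraMap S F (algebraMap O S c') := by
      rw [tau, map_sub, map_mul, map_mul]
    show algebraMap S F a / algebraMap S F (s₁ * s) * algebraMap S F (tau t (ϖ * c')) +
      algebraMap S F (a * algebraMap O S c' + b) / algebraMap S F (s₁ * s) *
        algebraMap S F (algebraMap O S ϖ) = (z : F)
    have hz'' : (z : F) = algebraMap S F p / algebraMap S F s₁ := by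
      rw [← hz']; field_simp
    rw [hz'', h4, map_mul, map_add, map_mul]
    field_simp
    linear_combination (-1 : F) * h3
  · rw [Ideal.span_le]
    rintro _ (rfl | rfl)
    · exact (IsLocalization.AtPrime.to_map_mem_maximal_iff _ 𝔪 _).2
        (tau_mem V hV hϖV 𝔪 hthr t ht hc)
    · exact (IsLocalization.AtPrime.to_map_mem_maximal_iff _ 𝔪 _).2 hϖ𝔪

variable (K) in
include K hϖ hV hϖV hsat hthr ht htV hreg in
/-- `(t - c) S_𝔪 ∩ S` is a prime ideal. -/
theorem horPrime_isPrime {c : O} (hc : ϖ ∣ c) : (horPrime F 𝔪 t c).IsPrime := by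
  haveI hloc := isLocalRing_locAt (F := F) 𝔪
  haveI := isNoetherianRing_locAt (F := F) 𝔪
  have hm := maximalIdeal_locAt_eq (F := F) V hV hϖV 𝔪 hthr t ht hreg hc
  haveI : (Ideal.span {algebraMap S (locAt (F := F) 𝔪) (tau t c)} :
      Ideal (locAt (F := F) 𝔪)).IsPrime := by
    refine span_singleton_isPrime hm (fun k hk => ?_)
    have : algebraMap O S ϖ ^ k ∈ horPrime F 𝔪 t c := by
      rw [horPrime, Ideal.mem_comap, map_pow]; exact hk
    exact pow_notMem_horPrime K hϖ V hV hϖV hsat 𝔪 hthr t ht htV hc k this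
  exact Ideal.comap_isPrime _ _

variable (K) in
include K hϖ hV hϖV hsat hthr ht htV hreg in
/-- Structure lemma on `S`: an element outside the horizontal prime is, up to units at `𝔪`,
a power of `ϖ` modulo `t - c`. -/
theorem exists_mul_eq_pow_add {c : O} (hc : ϖ ∣ c) {x : S} (hx : x ∉ horPrime F 𝔪 t c) :
    ∃ (n : ℕ) (s r a : S), s ∉ 𝔪 ∧ r ∉ 𝔪 ∧
      s * x = r * algebraMap O S ϖ ^ n + a * tau t c := by
  haveI hloc := isLocalRing_locAt (F := F) 𝔪
  haveI := isNoetherianRing_locAt (F := F) 𝔪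
  have hm := maximalIdeal_locAt_eq (F := F) V hV hϖV 𝔪 hthr t ht hreg hc
  have hx' : algebraMap S (locAt (F := F) 𝔪) x ∉
      Ideal.span {algebraMap S (locAt (F := F) 𝔪) (tau t c)} := fun h => hx h
  obtain ⟨n, u, y, hxy⟩ := exists_unit_mul_pow_add hm hx'
  obtain ⟨r₁, s₁, hs₁, hus⟩ := (mem_locAt_iff 𝔪 ((u : locAt (F := F) 𝔪) : F)).1 (u : locAt (F := F) 𝔪).2
  obtain ⟨a₂, s₂, hs₂, hys⟩ := (mem_locAt_iff 𝔪 (y : F)).1 y.2
  have hr₁ : r₁ ∉ 𝔪 := by
    intro hr
    have : (u : locAt (F := F) 𝔪) ∈ IsLocalRing.maximalIdeal (locAt (F := F) 𝔪) :=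
      (mem_maximalIdeal_locAt_iff 𝔪 hloc _).2 ⟨r₁, s₁, hr, hs₁, hus⟩
    exact (IsLocalRing.mem_maximalIdeal _).1 this u.isUnit
  refine ⟨n, s₁ * s₂, r₁ * s₂, a₂ * s₁, fun h => (h𝔪.mem_or_mem h).elim hs₁ hs₂,
    fun h => (h𝔪.mem_or_mem h).elim hr₁ hs₂, IsFractionRing.injective S F ?_⟩
  have h1 : algebraMap S F x = ((u : locAt (F := F) 𝔪) : F) * algebraMap S F (algebraMap O S ϖ) ^ n +
      (y : F) * algebraMap S F (tau t c) := by
    have := congrArg (Subtype.val) hxy
    simpa using this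
  simp only [map_mul, map_add, map_pow]
  rw [h1, ← hus, ← hys]
  ring

variable (K) in
include K hϖ hV hϖV hsat hthr ht htV hreg in
/-- The localisation of `S` at the horizontal prime is a discrete valuation ring. -/
theorem isDiscreteValuationRing_locAt_horPrime {c : O} (hc : ϖ ∣ c) :
    haveI := horPrime_isPrime K hϖ V hV hϖV hsat 𝔪 hthr t ht htV hreg hc
    IsDiscreteValuationRing (locAt (F := F) (horPrime F 𝔪 t c)) := by
  haveI := horPrime_isPrime (F := F) K hϖ V hV hϖV hsat 𝔪 hthr t ht htV hreg hc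
  refine isDiscreteValuationRing_locAt_of_principal (horPrime F 𝔪 t c) (tau_mem_horPrime 𝔪 t c)
    (tau_ne_zero V hV hϖV t htV hc) (fun p hp => ?_)
  obtain ⟨s, a, hs, hsp⟩ := (mem_horPrime_iff 𝔪 t).1 hp
  exact ⟨s, a, fun h => hs (horPrime_le V hV hϖV 𝔪 hthr t ht hc h), hsp⟩

open Fermat.Agent.S24.PlaceExtend (mem_iff_ord_nonneg ord_pos_of_mem_nonunits
  mem_nonunits_of_ord_pos) in
/-- At a place centred at `𝔪`, elements of `S` outside `𝔪` have order `0`. -/
theorem ord_eq_zero_of_notMem {Q : Place K F} (hQ : Q ∈ centredSet K 𝔪) {g : S} (hg : g ∉ 𝔪) :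
    Q.ord (algebraMap S F g) = 0 := by
  have hg0 : algebraMap S F g ≠ 0 := algebraMap_ne_zero_of_notMem 𝔪 hg
  have h1 : 0 ≤ Q.ord (algebraMap S F g) := (mem_iff_ord_nonneg Q hg0).1 (hQ.1 g)
  have h2 : ¬ 0 < Q.ord (algebraMap S F g) := fun hpos =>
    hg (hQ.2 g (mem_nonunits_of_ord_pos Q hg0 hpos))
  omega

variable (K) in
include hϖ in
/-- The uniformiser of `O` is a unit at every place of `F / K`. -/
theorem ord_uniformiser_eq_zero (Q : Place K F) :
    Q.ord (algebraMap S F (algebraMap O S ϖ)) = 0 := by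
  rw [← IsScalarTower.algebraMap_apply O S F, IsScalarTower.algebraMap_apply O K F]
  exact ord_algebraMap Q _

open Fermat.Agent.S24.PlaceExtend (mem_iff_ord_nonneg ord_pos_of_mem_nonunits
  mem_nonunits_of_ord_pos) in
variable (K) in
include K hϖ hV hϖV hsat hthr ht htV hreg in
/-- **Test point, existence.**  `𝔪` a closed point of the chart `S` with `𝔪 S_𝔪 = (t, ϖ)`, on one
vertical component `V` with `t` a `V`-unit; `c ∈ ϖ O`.  There is a place of `F / K` centred at
`𝔪` at which `t - c` has order `1`; its centre on `S` is `(t - c) S_𝔪 ∩ S`. -/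
theorem exists_place_ord_tau {c : O} (hc : ϖ ∣ c) :
    ∃ Q : Place K F, Q ∈ centredSet K 𝔪 ∧ Q.ord (algebraMap S F (tau t c)) = 1 ∧
      ∀ x : S, algebraMap S F x ∈ Q.toValuationSubring.nonunits ↔ x ∈ horPrime F 𝔪 t c := by
  haveI hq := horPrime_isPrime (F := F) K hϖ V hV hϖV hsat 𝔪 hthr t ht htV hreg hc
  have hdvr := isDiscreteValuationRing_locAt_horPrime (F := F) K hϖ V hV hϖV hsat 𝔪 hthr t ht
    htV hreg hc
  have hϖq : algebraMap O S ϖ ∉ horPrime F 𝔪 t c := by
    have := pow_notMem_horPrime (F := F) K hϖ V hV hϖV hsat 𝔪 hthr t ht htV hc 1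
    rwa [pow_one] at this
  obtain ⟨Q, hQmem, hcont, hcentre⟩ := exists_place_of_dvr_prime (K := K) (horPrime F 𝔪 t c) hdvr
    (algebraMap_K_mem_locAt hϖ _ hϖq)
  have hnon : ∀ x : S, algebraMap S F x ∈ Q.toValuationSubring.nonunits ↔
      x ∈ horPrime F 𝔪 t c := fun x => by
    rw [← hcentre, mem_centreIdeal_iff]
  have hcen : Q ∈ centredSet K 𝔪 :=
    ⟨hcont, fun r hr => horPrime_le V hV hϖV 𝔪 hthr t ht hc ((hnon r).1 hr)⟩
  refine ⟨Q, hcen, ?_, hnon⟩
  -- the order of `t - c` is `1`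
  have hτ0 : algebraMap S F (tau t c) ≠ 0 :=
    algebraMap_ne_zero (tau_ne_zero V hV hϖV t htV hc)
  have hpos : 0 < Q.ord (algebraMap S F (tau t c)) :=
    ord_pos_of_mem_nonunits Q hτ0 ((hnon _).2 (tau_mem_horPrime 𝔪 t c))
  obtain ⟨π, hπ⟩ := IsDiscreteValuationRing.exists_irreducible Q.toValuationSubring
  have hπ1 : Q.ord (π : F) = 1 := Q.ord_coe_irreducible hπ
  obtain ⟨a, s, hs, hπs⟩ := (mem_locAt_iff (horPrime F 𝔪 t c) (π : F)).1 ((hQmem _).1 π.2)
  have hs0 : algebraMap S F s ≠ 0 := algebraMap_ne_zero_of_notMem _ hs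
  have hπ0 : (π : F) ≠ 0 := fun h => hπ.ne_zero (Subtype.ext h)
  have hsord : Q.ord (algebraMap S F s) = 0 := by
    have h1 : 0 ≤ Q.ord (algebraMap S F s) := (mem_iff_ord_nonneg Q hs0).1 (hcont s)
    have h2 : ¬ 0 < Q.ord (algebraMap S F s) := fun hp =>
      hs ((hnon s).1 (mem_nonunits_of_ord_pos Q hs0 hp))
    omega
  have haord : Q.ord (algebraMap S F a) = 1 := by
    rw [← hπs, Q.ord_mul hπ0 hs0, hπ1, hsord, add_zero]
  have ha0 : algebraMap S F a ≠ 0 := by
    rw [← hπs]; exact mul_ne_zero hπ0 hs0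
  have haq : a ∈ horPrime F 𝔪 t c :=
    (hnon a).1 (mem_nonunits_of_ord_pos Q ha0 (by rw [haord]; exact one_pos))
  obtain ⟨s', r, hs', hsr⟩ := (mem_horPrime_iff 𝔪 t).1 haq
  have hs'0 : algebraMap S F s' ≠ 0 := algebraMap_ne_zero_of_notMem _ hs'
  have hs'ord : Q.ord (algebraMap S F s') = 0 := ord_eq_zero_of_notMem 𝔪 hcen hs'
  have hr0 : algebraMap S F r ≠ 0 := by
    intro h0
    have : algebraMap S F (s' * a) = 0 := by rw [hsr, map_mul, h0, zero_mul]
    rw [map_mul] at this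
    exact mul_ne_zero hs'0 ha0 this
  have hrord : 0 ≤ Q.ord (algebraMap S F r) := (mem_iff_ord_nonneg Q hr0).1 (hcont r)
  have key : Q.ord (algebraMap S F s') + Q.ord (algebraMap S F a) =
      Q.ord (algebraMap S F r) + Q.ord (algebraMap S F (tau t c)) := by
    rw [← Q.ord_mul hs'0 ha0, ← Q.ord_mul hr0 hτ0, ← map_mul, ← map_mul, hsr]
  omega

open Fermat.Agent.S24.PlaceExtend (mem_iff_ord_nonneg ord_pos_of_mem_nonunits
  mem_nonunits_of_ord_pos) in
variable (K) in
include K hϖ hV hϖV hsat hthr ht htV hreg in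
/-- The centre on `S` of any place centred at `𝔪` at which `t - c` vanishes is the horizontal
prime `(t - c) S_𝔪 ∩ S`. -/
theorem mem_nonunits_iff_of_ord_tau_pos {c : O} (hc : ϖ ∣ c) {Q : Place K F}
    (hQ : Q ∈ centredSet K 𝔪) (h : 0 < Q.ord (algebraMap S F (tau t c))) (x : S) :
    algebraMap S F x ∈ Q.toValuationSubring.nonunits ↔ x ∈ horPrime F 𝔪 t c := by
  have hcont : Contains S Q := hQ.1
  haveI hcp := centreIdeal_isPrime hcont
  have hτ0 : algebraMap S F (tau t c) ≠ 0 :=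
    algebraMap_ne_zero (tau_ne_zero V hV hϖV t htV hc)
  have hτn : tau t c ∈ centreIdeal hcont :=
    (mem_centreIdeal_iff hcont).2 (mem_nonunits_of_ord_pos Q hτ0 h)
  rw [← mem_centreIdeal_iff hcont]
  constructor
  · intro hx
    by_contra hxq
    obtain ⟨n, s, r, a, hs, hr, hsx⟩ :=
      exists_mul_eq_pow_add (F := F) K hϖ V hV hϖV hsat 𝔪 hthr t ht htV hreg hc hxq
    have h1 : r * algebraMap O S ϖ ^ n ∈ centreIdeal hcont := by
      have : r * algebraMap O S ϖ ^ n = s * x - a * tau t c := by rw [hsx]; ring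
      rw [this]
      exact sub_mem (Ideal.mul_mem_left _ _ hx) (Ideal.mul_mem_left _ _ hτn)
    rcases hcp.mem_or_mem h1 with h2 | h2
    · exact hr (hQ.2 r ((mem_centreIdeal_iff hcont).1 h2))
    · have h3 : algebraMap O S ϖ ∈ centreIdeal hcont := by
        rcases Nat.eq_zero_or_pos n with h0 | h0
        · exfalso
          rw [h0, pow_zero] at h2
          exact hcp.ne_top ((Ideal.eq_top_iff_one _).2 h2)
        · exact hcp.mem_of_pow_mem n h2
      have hϖ0 : algebraMap S F (algebraMap O S ϖ) ≠ 0 :=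
        algebraMap_ne_zero (algebraMap_uniformiser_ne_zero K F hϖ)
      have h4 := ord_pos_of_mem_nonunits Q hϖ0 ((mem_centreIdeal_iff hcont).1 h3)
      rw [ord_uniformiser_eq_zero K hϖ Q] at h4
      exact lt_irrefl _ h4
  · intro hx
    obtain ⟨s, a, hs, hsx⟩ := (mem_horPrime_iff 𝔪 t).1 hx
    have h1 : s * x ∈ centreIdeal hcont := hsx ▸ Ideal.mul_mem_left _ _ hτn
    rcases hcp.mem_or_mem h1 with h2 | h2
    · exact absurd (hQ.2 s ((mem_centreIdeal_iff hcont).1 h2)) hs
    · exact h2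

omit [IsScalarTower O S F] [Algebra O S] in
theorem dvr_congr {𝔭 𝔮 : Ideal S} [h𝔭 : 𝔭.IsPrime] [h𝔮 : 𝔮.IsPrime] (h : 𝔭 = 𝔮)
    (hd : IsDiscreteValuationRing (locAt (F := F) 𝔮)) :
    IsDiscreteValuationRing (locAt (F := F) 𝔭) := by
  subst h
  exact hd

variable (K) in
include K hϖ hV hϖV hsat hthr ht htV hreg in
/-- **Test point, uniqueness.**  Two places centred at `𝔪` at which `t - c` vanishes are equal. -/
theorem place_eq_of_ord_tau_pos {c : O} (hc : ϖ ∣ c) {Q Q' : Place K F}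
    (hQ : Q ∈ centredSet K 𝔪) (hQ' : Q' ∈ centredSet K 𝔪)
    (h : 0 < Q.ord (algebraMap S F (tau t c))) (h' : 0 < Q'.ord (algebraMap S F (tau t c))) :
    Q = Q' := by
  haveI hq := horPrime_isPrime (F := F) K hϖ V hV hϖV hsat 𝔪 hthr t ht htV hreg hc
  have hdvr := isDiscreteValuationRing_locAt_horPrime (F := F) K hϖ V hV hϖV hsat 𝔪 hthr t ht
    htV hreg hc
  have hcQ : Contains S Q := (mem_centredSet_iff.1 hQ).1
  have hcQ' : Contains S Q' := (mem_centredSet_iff.1 hQ').1
  have e : centreIdeal hcQ = horPrime F 𝔪 t c := by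
    ext x
    rw [mem_centreIdeal_iff]
    exact mem_nonunits_iff_of_ord_tau_pos K hϖ V hV hϖV hsat 𝔪 hthr t ht htV hreg hc hQ h x
  have e' : centreIdeal hcQ' = horPrime F 𝔪 t c := by
    ext x
    rw [mem_centreIdeal_iff]
    exact mem_nonunits_iff_of_ord_tau_pos K hϖ V hV hϖV hsat 𝔪 hthr t ht htV hreg hc hQ' h' x
  haveI := centreIdeal_isPrime hcQ
  exact place_eq_of_centre_eq hcQ hcQ' (e.trans e'.symm) (dvr_congr e hdvr)

open Fermat.Agent.S24.PlaceExtend (mem_iff_ord_nonneg ord_pos_of_mem_nonunits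
  mem_nonunits_of_ord_pos) in
include hV hϖV htV in
/-- Distinct constants give distinct test points. -/
theorem eq_of_ord_tau_pos {c c' : O} (hc : ϖ ∣ c) (hc' : ϖ ∣ c') {Q : Place K F}
    (h : 0 < Q.ord (algebraMap S F (tau t c))) (h' : 0 < Q.ord (algebraMap S F (tau t c'))) :
    c = c' := by
  by_contra hne
  have hτ0 : algebraMap S F (tau t c) ≠ 0 :=
    algebraMap_ne_zero (tau_ne_zero V hV hϖV t htV hc)
  have hτ0' : algebraMap S F (tau t c') ≠ 0 :=
    algebraMap_ne_zero (tau_ne_zero V hV hϖV t htV hc')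
  have h1 := mem_nonunits_of_ord_pos Q hτ0 h
  have h2 := mem_nonunits_of_ord_pos Q hτ0' h'
  have h3 : algebraMap S F (tau t c) - algebraMap S F (tau t c') =
      algebraMap K F (algebraMap O K (c' - c)) := by
    have e : ∀ o : O, algebraMap S F (algebraMap O S o) = algebraMap K F (algebraMap O K o) :=
      fun o => by
        rw [← IsScalarTower.algebraMap_apply O S F, IsScalarTower.algebraMap_apply O K F]
    rw [tau, tau, map_sub, map_sub, e, e, map_sub, map_sub]
    ring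
  have h4 : algebraMap K F (algebraMap O K (c' - c)) ∈ Q.toValuationSubring.nonunits := by
    rw [← h3]; exact sub_mem h1 h2
  have h5 : algebraMap O K (c' - c) ≠ 0 := by
    intro h0
    apply hne
    have := IsFractionRing.injective O K (h0.trans (map_zero _).symm)
    exact (sub_eq_zero.1 this).symm
  have h6 := ord_pos_of_mem_nonunits Q ((map_ne_zero _).2 h5) h4
  rw [ord_algebraMap Q] at h6
  exact lt_irrefl _ h6

variable (K) in
include K hϖ hV hϖV hsat hthr ht htV hreg in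
/-- **Test point.**  Existence and uniqueness of the place centred at `𝔪` at which `t - c`
vanishes. -/
theorem existsUnique_place {c : O} (hc : ϖ ∣ c) :
    ∃! Q : Place K F, Q ∈ centredSet K 𝔪 ∧ 0 < Q.ord (algebraMap S F (tau t c)) := by
  obtain ⟨Q, hQ, hord, -⟩ := exists_place_ord_tau (F := F) K hϖ V hV hϖV hsat 𝔪 hthr t ht htV hreg hc
  refine ⟨Q, ⟨hQ, by rw [hord]; exact one_pos⟩, fun Q' hQ' => ?_⟩
  exact place_eq_of_ord_tau_pos K hϖ V hV hϖV hsat 𝔪 hthr t ht htV hreg hc hQ'.1 hQ hQ'.2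
    (by rw [hord]; exact one_pos)

variable (K) in
include K hϖ hV hϖV hsat hthr ht htV hreg in
/-- The test point can be chosen outside any finite set of places. -/
theorem exists_place_notMem (B : Finset (Place K F)) :
    ∃ c : O, ϖ ∣ c ∧ ∃ Q : Place K F, Q ∈ centredSet K 𝔪 ∧
      Q.ord (algebraMap S F (tau t c)) = 1 ∧ Q ∉ B := by
  classical
  have hex : ∀ n : ℕ, ∃ Q : Place K F, Q ∈ centredSet K 𝔪 ∧
      Q.ord (algebraMap S F (tau t (ϖ ^ (n + 1)))) = 1 := fun n => by
    obtain ⟨Q, hQ, hord, -⟩ := exists_place_ord_tau (F := F) K hϖ V hV hϖV hsat 𝔪 hthr t ht htV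
      hreg (dvd_pow_self ϖ (Nat.succ_ne_zero n))
    exact ⟨Q, hQ, hord⟩
  choose f hf using hex
  have hinj : Function.Injective f := by
    intro a b hab
    have h1 : 0 < (f a).ord (algebraMap S F (tau t (ϖ ^ (a + 1)))) := by
      rw [(hf a).2]; exact one_pos
    have h2 : 0 < (f a).ord (algebraMap S F (tau t (ϖ ^ (b + 1)))) := by
      rw [hab, (hf b).2]; exact one_pos
    have h3 := eq_of_ord_tau_pos V hV hϖV t htV (dvd_pow_self ϖ (Nat.succ_ne_zero a))
      (dvd_pow_self ϖ (Nat.succ_ne_zero b)) h1 h2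
    by_contra hne
    rcases Nat.lt_or_gt_of_ne hne with hlt | hlt
    · have h4 : ϖ ^ (a + 1) * 1 = ϖ ^ (a + 1) * ϖ ^ (b - a) := by
        rw [mul_one, ← pow_add, h3]; congr 1; omega
      have h5 := mul_left_cancel₀ (pow_ne_zero _ hϖ.ne_zero) h4
      exact hϖ.not_isUnit (IsUnit.of_pow_eq_one h5.symm (by omega))
    · have h4 : ϖ ^ (b + 1) * 1 = ϖ ^ (b + 1) * ϖ ^ (a - b) := by
        rw [mul_one, ← pow_add, ← h3]; congr 1; omega
      have h5 := mul_left_cancel₀ (pow_ne_zero _ hϖ.ne_zero) h4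
      exact hϖ.not_isUnit (IsUnit.of_pow_eq_one h5.symm (by omega))
  obtain ⟨Q, ⟨n, rfl⟩, hQB⟩ := (Set.infinite_range_of_injective hinj).exists_notMem_finset B
  exact ⟨ϖ ^ (n + 1), dvd_pow_self ϖ (Nat.succ_ne_zero n), f n, (hf n).1, (hf n).2, hQB⟩

end Chart

end Fermat.Agent.S40.M1.TestPoint
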