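/-
S40 / T6′ static route, leaf (R4)(c) "TEST POINTS", part 2 (helper21): **the test point as a SECTION
of the chart** (`G/Points` vocabulary: `IsSection`, `ev`, `centre`), plus invariance and value.

`R : Subalgebra O F` a chart (noetherian, fraction field `F`), the hypotheses of `TestPoint`
(`V` saturated vertical valuation, `𝔪` a regular closed point on it, `𝔪 R_𝔪 = (t, ϖ)`), `c ∈ ϖ O`,
and RATIONALITY of the zeros of `t - c` (at a level: `N4F/C/Rationality.residueTrivial_of_ord_ne_zeroK`
applied to `t - c`, i.e. the level contains the number field over which the zeros are defined).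

* `exists_testSection` : there is a rational place `Q`, a section of `R` with centre `𝔪`, with
  `ev t = c`, `ord_Q (t - c) = 1`; it is the unique place centred at `𝔪` at which `t - c` vanishes;
* `exists_testSection_notMem` : the same outside a given finite set of places, with `c` in a given
  injective sequence of elements of `ϖ O` (e.g. `c n = q ^ (n + 1)`, `q` a fixed non-unit — the
  rational prime `p`, so that `c` is fixed by every automorphism);
* `smul_place_eq` : a semilinear automorphism `g` whose inverse preserves `R`, `𝔪` and which fixes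
  `t - c` fixes the test point (uniqueness);
* `algebraMap_ev_smul` : for a semilinear automorphism `g` fixing the test point,
  `ev (g • r) = g (ev r)` (value form `valueAt_smul_of_smul_eq`).
-/
import Mathlib
import Fermat.Agent.S40.M1.TestPoint
import Fermat.Agent.G.LocDataPlace

set_option autoImplicit false
set_option linter.style.haveILetI false
set_option linter.unusedSectionVars false

open AlgebraicCurve IsLocalRing

noncomputable section

namespace Fermat.Agent.S40.M1.TestSection

open Fermat.Agent.G.Points Fermat.Agent.G.LocDataPlace Fermat.Agent.P3G.UCrit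
open Fermat.Agent.S40.M1.TestPoint
open Fermat.Agent.N4F.E.EvalAt Fermat.Agent.N4F.E.PlaceValue

variable {O K F : Type*} [CommRing O] [IsDomain O] [IsDiscreteValuationRing O]
  [Field K] [Algebra O K] [IsFractionRing O K]
  [Field F] [Algebra K F] [Algebra O F] [IsScalarTower O K F]

variable (R : Subalgebra O F) [IsNoetherianRing ↥R] [IsFractionRing ↥R F]

variable {ϖ : O} (hϖ : Irreducible ϖ)
variable (V : ValuationSubring F) (hV : ∀ s : ↥R, algebraMap ↥R F s ∈ V)
  (hϖV : algebraMap ↥R F (algebraMap O ↥R ϖ) ∈ V.nonunits)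
  (hsat : ∀ r : ↥R, algebraMap ↥R F r ∈ V.nonunits → algebraMap O ↥R ϖ ∣ r)
variable (𝔪 : Ideal ↥R) [h𝔪 : 𝔪.IsMaximal]
  (hthr : ∀ r : ↥R, algebraMap ↥R F r ∈ V.nonunits → r ∈ 𝔪)
  (t : ↥R) (ht : t ∈ 𝔪) (htV : algebraMap ↥R F t ∉ V.nonunits)
  (hreg : ∀ x ∈ 𝔪, ∃ s a b : ↥R, s ∉ 𝔪 ∧ s * x = a * t + b * algebraMap O ↥R ϖ)

include hϖ hV hϖV hthr in
/-- The maximal ideal of `O` maps into `𝔪`. -/
theorem algebraMap_mem_of_mem_maximalIdeal (a : O) (ha : a ∈ maximalIdeal O) :
    algebraMap O ↥R a ∈ 𝔪 := by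
  rw [hϖ.maximalIdeal_eq, Ideal.mem_span_singleton] at ha
  exact hthr _ (algebraMap_mem_nonunits_of_dvd V hV hϖV ha)

omit [IsNoetherianRing ↥R] [IsFractionRing ↥R F] in
theorem coe_tau (c : O) : algebraMap ↥R F (tau t c) = (t : F) - algebraMap O F c := by
  rw [tau, map_sub, ← IsScalarTower.algebraMap_apply]
  rfl

include hϖ hV hϖV hsat hthr ht htV hreg in
/-- **The test section.**  If the zeros of `t - c` are rational, the test point is a section of the
chart through `𝔪` with value `c` at `t`. -/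
theorem exists_testSection {c : O} (hc : ϖ ∣ c)
    (hrat : ∀ Q : Place K F, 0 < Q.ord ((t : F) - algebraMap O F c) →
      Function.Bijective (algebraMap K Q.ResidueField)) :
    ∃ (Q : Place K F) (hQ : Function.Bijective (algebraMap K Q.ResidueField))
      (h : IsSection R Q hQ), Q ∈ centredSet K 𝔪 ∧ centre h = 𝔪 ∧ ev h t = c ∧
        Q.ord ((t : F) - algebraMap O F c) = 1 ∧
        ∀ Q' : Place K F, Q' ∈ centredSet K 𝔪 →
          0 < Q'.ord ((t : F) - algebraMap O F c) → Q' = Q := by
  haveI : 𝔪.IsPrime := h𝔪.isPrime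
  obtain ⟨Q, hQcen, hord, -⟩ := exists_place_ord_tau (F := F) K hϖ V hV hϖV hsat 𝔪 hthr t ht htV
    hreg hc
  rw [coe_tau] at hord
  have hQ : Function.Bijective (algebraMap K Q.ResidueField) :=
    hrat Q (by rw [hord]; exact one_pos)
  have hcen : CentredAt R 𝔪 Q := centredAt_iff.2 ⟨hQcen.1, hQcen.2⟩
  have h : IsSection R Q hQ := isSection_of_centredAt
    (algebraMap_mem_of_mem_maximalIdeal R hϖ V hV hϖV 𝔪 hthr) hQ hcen
  refine ⟨Q, hQ, h, hQcen, centre_eq_of_centredAt h hcen h𝔪, ?_, hord, fun Q' hQ' hpos => ?_⟩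
  · rw [ev_eq_iff_sub_mem]
    have hne : (t : F) - algebraMap O F c ≠ 0 := by
      intro h0
      rw [h0, Place.ord_zero] at hord
      exact zero_ne_one hord
    exact Fermat.Agent.S24.PlaceExtend.mem_nonunits_of_ord_pos Q hne (by rw [hord]; exact one_pos)
  · refine place_eq_of_ord_tau_pos K hϖ V hV hϖV hsat 𝔪 hthr t ht htV hreg hc hQ' hQcen ?_ ?_
    · rw [coe_tau]; exact hpos
    · rw [coe_tau, hord]; exact one_pos

include hϖ hV hϖV hsat hthr ht htV hreg in
/-- **The test section outside a finite set of places**, with the constant `c` taken from a given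
injective sequence of elements of `ϖ O`. -/
theorem exists_testSection_notMem (cs : ℕ → O) (hcs : ∀ n, ϖ ∣ cs n) (hinj : Function.Injective cs)
    (hrat : ∀ n, ∀ Q : Place K F, 0 < Q.ord ((t : F) - algebraMap O F (cs n)) →
      Function.Bijective (algebraMap K Q.ResidueField)) (B : Finset (Place K F)) :
    ∃ (n : ℕ) (Q : Place K F) (hQ : Function.Bijective (algebraMap K Q.ResidueField))
      (h : IsSection R Q hQ), Q ∉ B ∧ Q ∈ centredSet K 𝔪 ∧ centre h = 𝔪 ∧ ev h t = cs n ∧
        Q.ord ((t : F) - algebraMap O F (cs n)) = 1 ∧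
        ∀ Q' : Place K F, Q' ∈ centredSet K 𝔪 →
          0 < Q'.ord ((t : F) - algebraMap O F (cs n)) → Q' = Q := by
  classical
  haveI : 𝔪.IsPrime := h𝔪.isPrime
  have hex : ∀ n : ℕ, ∃ (Q : Place K F) (hQ : Function.Bijective (algebraMap K Q.ResidueField))
      (h : IsSection R Q hQ), Q ∈ centredSet K 𝔪 ∧ centre h = 𝔪 ∧ ev h t = cs n ∧
        Q.ord ((t : F) - algebraMap O F (cs n)) = 1 ∧
        ∀ Q' : Place K F, Q' ∈ centredSet K 𝔪 →
          0 < Q'.ord ((t : F) - algebraMap O F (cs n)) → Q' = Q := fun n =>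
    exists_testSection R hϖ V hV hϖV hsat 𝔪 hthr t ht htV hreg (hcs n) (hrat n)
  choose f hf using hex
  have hfinj : Function.Injective f := by
    intro a b hab
    obtain ⟨_, _, _, _, _, ha1, _⟩ := hf a
    obtain ⟨_, _, _, _, _, hb1, _⟩ := hf b
    have h1 : 0 < (f a).ord (algebraMap ↥R F (tau t (cs a))) := by
      rw [coe_tau, ha1]; exact one_pos
    have h2 : 0 < (f a).ord (algebraMap ↥R F (tau t (cs b))) := by
      rw [coe_tau, hab, hb1]; exact one_pos
    exact hinj (eq_of_ord_tau_pos V hV hϖV t htV (hcs a) (hcs b) h1 h2)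
  obtain ⟨Q, ⟨n, rfl⟩, hQB⟩ := (Set.infinite_range_of_injective hfinj).exists_notMem_finset B
  obtain ⟨hQ, h, h1, h2, h3, h4, h5⟩ := hf n
  exact ⟨n, f n, hQ, h, hQB, h1, h2, h3, h4, h5⟩

omit [IsNoetherianRing ↥R] [IsFractionRing ↥R F] in
/-- The powers `q ^ (n + 1)` of a nonzero non-unit `q` form an injective sequence in `ϖ O`. -/
theorem pow_succ_injective {q : O} (hq0 : q ≠ 0) (hq : ¬ IsUnit q) :
    Function.Injective fun n : ℕ => q ^ (n + 1) := by
  intro a b hab
  simp only at hab
  by_contra hne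
  rcases Nat.lt_or_gt_of_ne hne with hlt | hlt
  · have h4 : q ^ (a + 1) * 1 = q ^ (a + 1) * q ^ (b - a) := by
      rw [mul_one, ← pow_add, hab]; congr 1; omega
    have h5 := mul_left_cancel₀ (pow_ne_zero _ hq0) h4
    exact hq (IsUnit.of_pow_eq_one h5.symm (by omega))
  · have h4 : q ^ (b + 1) * 1 = q ^ (b + 1) * q ^ (a - b) := by
      rw [mul_one, ← pow_add, ← hab]; congr 1; omega
    have h5 := mul_left_cancel₀ (pow_ne_zero _ hq0) h4
    exact hq (IsUnit.of_pow_eq_one h5.symm (by omega))

omit [IsNoetherianRing ↥R] [IsFractionRing ↥R F] in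
include hϖ in
theorem dvd_pow_succ_of_not_isUnit {q : O} (hq : ¬ IsUnit q) (n : ℕ) : ϖ ∣ q ^ (n + 1) := by
  have h1 : q ∈ maximalIdeal O := (mem_maximalIdeal q).2 hq
  rw [hϖ.maximalIdeal_eq, Ideal.mem_span_singleton] at h1
  exact dvd_trans h1 (dvd_pow_self q (Nat.succ_ne_zero n))

/-! ### Values at a fixed rational place and semilinear automorphisms -/

section Fixed

open Fermat.Agent.N4F.C.CoeffAut

omit [CommRing O] [IsDomain O] [IsDiscreteValuationRing O] [Algebra O K] [IsFractionRing O K]
  [Algebra O F] [IsScalarTower O K F] in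
/-- `(σ g)(v) = σ (g(v))` at a rational place fixed by `σ`. -/
theorem valueAt_smul_of_smul_eq (σ : SemilinearAut K F) {v : Place K F}
    (hv : Function.Bijective (algebraMap K v.ResidueField)) (hfix : σ • v = v) {g : F}
    (hg : g ∈ v.toValuationSubring) (hg' : σ • g ∈ v.toValuationSubring) :
    valueAt v hv (σ • g) hg' = SemilinearAut.baseAut σ (valueAt v hv g hg) := by
  rw [valueAt_eq_iff]
  have h := sub_valueAt_mem v hv g hg
  have h2 := (smul_mem_nonunits_smul_place_iff σ v _).mpr h
  rw [hfix] at h2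
  rwa [smul_sub, SemilinearAut.smul_algebraMap] at h2

omit [CommRing O] [IsDomain O] [IsDiscreteValuationRing O] [Algebra O K] [IsFractionRing O K]
  [Algebra O F] [IsScalarTower O K F] in
/-- A place fixed by `σ` has a `σ`-stable valuation ring. -/
theorem smul_mem_of_smul_eq (σ : SemilinearAut K F) {v : Place K F} (hfix : σ • v = v) {g : F}
    (hg : g ∈ v.toValuationSubring) : σ • g ∈ v.toValuationSubring := by
  have := (smul_mem_smul_place_iff σ v g).2 hg
  rwa [hfix] at this

include hϖ hV hϖV hsat hthr ht htV hreg in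
/-- **Invariance of the test point.**  A semilinear automorphism `g` of `F / K` whose inverse
preserves the chart `R` and (contravariantly) the closed point `𝔪`, and which fixes `t - c`, fixes
the test point: `g • Q = Q` (uniqueness of the place centred at `𝔪` at which `t - c` vanishes). -/
theorem smul_place_eq {c : O} (hc : ϖ ∣ c) (g : SemilinearAut K F)
    (hgR : ∀ s : ↥R, ∃ s' : ↥R, g⁻¹ • (s : F) = (s' : F))
    (hg𝔪 : ∀ s s' : ↥R, g⁻¹ • (s : F) = (s' : F) → s' ∈ 𝔪 → s ∈ 𝔪)
    (hgτ : g • ((t : F) - algebraMap O F c) = (t : F) - algebraMap O F c)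
    {Q : Place K F} (hQ : Q ∈ centredSet K 𝔪)
    (h : 0 < Q.ord ((t : F) - algebraMap O F c)) : g • Q = Q := by
  haveI : 𝔪.IsPrime := h𝔪.isPrime
  have hQ' := mem_centredSet_iff.1 hQ
  have hcen : g • Q ∈ centredSet K 𝔪 := by
    refine mem_centredSet_iff.2 ⟨fun s => ?_, fun s hs => ?_⟩
    · obtain ⟨s', hs'⟩ := hgR s
      rw [mem_smul_place_iff]
      change g⁻¹ • (s : F) ∈ _
      rw [hs']
      exact hQ'.1 s'
    · obtain ⟨s', hs'⟩ := hgR s
      rw [mem_nonunits_smul_place_iff] at hs
      change g⁻¹ • (s : F) ∈ _ at hs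
      rw [hs'] at hs
      exact hg𝔪 s s' hs' (hQ'.2 s' hs)
  have hord : 0 < (g • Q).ord ((t : F) - algebraMap O F c) := by
    have := SemilinearAut.ord_smul g Q ((t : F) - algebraMap O F c)
    rw [hgτ] at this
    rw [this]; exact h
  refine place_eq_of_ord_tau_pos K hϖ V hV hϖV hsat 𝔪 hthr t ht htV hreg hc hcen hQ ?_ ?_
  · rw [coe_tau]; exact hord
  · rw [coe_tau]; exact h

variable {R}

omit [IsNoetherianRing ↥R] [IsFractionRing ↥R F] in
/-- **Equivariance of the evaluation at a fixed section**: if `σ • Q = Q` and `σ • r = r'` in the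
chart, then `r'(Q) = σ (r(Q))`. -/
theorem algebraMap_ev_smul (σ : SemilinearAut K F) {Q : Place K F}
    {hQ : Function.Bijective (algebraMap K Q.ResidueField)} (h : IsSection R Q hQ)
    (hfix : σ • Q = Q) {r r' : ↥R} (hr : σ • (r : F) = (r' : F)) :
    algebraMap O K (ev h r') = SemilinearAut.baseAut σ (algebraMap O K (ev h r)) := by
  rw [algebraMap_ev, algebraMap_ev, ← valueAt_smul_of_smul_eq σ hQ hfix (h.mem r)
    (smul_mem_of_smul_eq σ hfix (h.mem r))]
  exact valueAt_congr Q hQ hr.symm _

end Fixed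

end Fermat.Agent.S40.M1.TestSection
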