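/-
S40 / T6′ static route, leaf (R4)(c)/(D7) "TEST POINTS", part 3 (helper21): **the kernel of the
evaluation at the test point, on the local ring of the chart** (`G/PointsLoc` model
`locAlg R 𝔪 : Subalgebra O F`, `evLocAlg`), in the consumer shape of helper1's `NodeDChart`:

* `exists_mul_tau_of_mem_nonunits` : an element of `locAlg R 𝔪` vanishing at the test point is a
  multiple of `t - c` in `locAlg R 𝔪`;
* ★ `exists_testSection_ker` : the test section of `TestSection.exists_testSection` together with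
  `∀ x : locAlg R (centre h), evLocAlg h x = 0 → ∃ q, x = q * (t - c)`;
* ★ `exists_testSection_ker_notMem` : the same with `c` in a given injective sequence of `ϖ O`,
  outside a given finite set of places.
-/
import Mathlib
import Fermat.Agent.S40.M1.TestSection
import Fermat.Agent.G.PointsLoc

set_option autoImplicit false
set_option linter.style.haveILetI false
set_option linter.unusedSectionVars false

open AlgebraicCurve IsLocalRing

noncomputable section

namespace Fermat.Agent.S40.M1.TestKer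

open Fermat.Agent.G.Points Fermat.Agent.G.PointsLoc Fermat.Agent.G.LocDataPlace
open Fermat.Agent.P3G.UCrit
open Fermat.Agent.S40.M1.TestPoint Fermat.Agent.S40.M1.TestSection

variable {O K F : Type*} [CommRing O] [IsDomain O] [IsDiscreteValuationRing O]
  [Field K] [Algebra O K] [IsFractionRing O K]
  [Field F] [Algebra K F] [Algebra O F] [IsScalarTower O K F]

variable (R : Subalgebra O F) [IsNoetherianRing ↥R] [IsFractionRing ↥R F]

variable {ϖ : O} (hϖ : Irreducible ϖ)
variable (V : ValuationSubring F) (hV : ∀ s : ↥R, algebraMap ↥R F s ∈ V)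
  (hϖV : algebraMap ↥R F (algebraMap O ↥R ϖ) ∈ V.nonunits)
  (hsat : ∀ r : ↥R, algebraMap ↥R F r ∈ V.nonunits → algebraMap O ↥R ϖ ∣ r)
variable (𝔪 : Ideal ↥R) [h𝔪 : 𝔪.IsMaximal]
  (hthr : ∀ r : ↥R, algebraMap ↥R F r ∈ V.nonunits → r ∈ 𝔪)
  (t : ↥R) (ht : t ∈ 𝔪) (htV : algebraMap ↥R F t ∉ V.nonunits)
  (hreg : ∀ x ∈ 𝔪, ∃ s a b : ↥R, s ∉ 𝔪 ∧ s * x = a * t + b * algebraMap O ↥R ϖ)

include hϖ hV hϖV hsat hthr ht htV hreg in
/-- An element of the local ring of the chart at `𝔪` which vanishes at the test point is a multiple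
of `t - c` in the local ring. -/
theorem exists_mul_tau_of_mem_nonunits {c : O} (hc : ϖ ∣ c) {Q : Place K F}
    (hQ : Q ∈ centredSet K 𝔪) (hpos : 0 < Q.ord ((t : F) - algebraMap O F c))
    (𝔫 : Ideal ↥R) [𝔫.IsPrime] (h𝔫 : 𝔫 = 𝔪) (x : ↥(locAlg R 𝔫))
    (hx : (x : F) ∈ Q.toValuationSubring.nonunits) :
    ∃ q : ↥(locAlg R 𝔫), x = q * (algebraMap ↥R ↥(locAlg R 𝔫) t -
      algebraMap O ↥(locAlg R 𝔫) c) := by
  subst h𝔫
  haveI : 𝔫.IsPrime := h𝔪.isPrime
  obtain ⟨a, b, hb, hxb⟩ := (mem_locAlg_iff R 𝔫).1 x.2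
  have hQ' := mem_centredSet_iff.1 hQ
  -- `a` vanishes at `Q`
  have ha : algebraMap ↥R F a ∈ Q.toValuationSubring.nonunits := by
    change (a : F) ∈ _
    rw [← hxb]
    have hbQ : (b : F) ∈ Q.toValuationSubring := hQ'.1 b
    have := Q.toValuationSubring.nonunits_subset
    rw [ValuationSubring.mem_nonunits_iff_exists_mem_maximalIdeal] at hx ⊢
    obtain ⟨hxm, hxM⟩ := hx
    refine ⟨mul_mem hxm hbQ, ?_⟩
    have : (⟨(x : F) * (b : F), mul_mem hxm hbQ⟩ : Q.toValuationSubring) =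
        ⟨(x : F), hxm⟩ * ⟨(b : F), hbQ⟩ := rfl
    rw [this]
    exact Ideal.mul_mem_right _ _ hxM
  have hpos' : 0 < Q.ord (algebraMap ↥R F (tau t c)) := by rw [coe_tau]; exact hpos
  have haq : a ∈ horPrime F 𝔫 t c :=
    (mem_nonunits_iff_of_ord_tau_pos K hϖ V hV hϖV hsat 𝔫 hthr t ht htV hreg hc hQ hpos' a).1 ha
  obtain ⟨s, r, hs, hsr⟩ := (mem_horPrime_iff 𝔫 t).1 haq
  have hsb : s * b ∉ 𝔫 := fun h => (‹𝔫.IsPrime›.mem_or_mem h).elim hs hb
  have hs0 : (s : F) ≠ 0 := by
    intro h0; apply hs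
    have : s = 0 := Subtype.ext h0
    rw [this]; exact 𝔫.zero_mem
  have hb0 : (b : F) ≠ 0 := by
    intro h0; apply hb
    have : b = 0 := Subtype.ext h0
    rw [this]; exact 𝔫.zero_mem
  have hinv : (((s * b : ↥R) : F))⁻¹ ∈ locAlg R 𝔫 := inv_mem_locAlg R 𝔫 hsb
  refine ⟨⟨(r : F) * (((s * b : ↥R) : F))⁻¹, mul_mem (le_locAlg R 𝔫 r.2) hinv⟩, ?_⟩
  apply Subtype.ext
  have hsr' : (s : F) * (a : F) = (r : F) * ((t : F) - algebraMap O F c) := by
    have := congrArg (fun y : ↥R => (y : F)) hsr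
    simp only [Subalgebra.coe_mul] at this
    rw [this]
    congr 1
  have hcoe : ((algebraMap ↥R ↥(locAlg R 𝔫) t - algebraMap O ↥(locAlg R 𝔫) c :
      ↥(locAlg R 𝔫)) : F) = (t : F) - algebraMap O F c := rfl
  rw [Subalgebra.coe_mul, hcoe]
  change (x : F) = (r : F) * (((s * b : ↥R) : F))⁻¹ * ((t : F) - algebraMap O F c)
  rw [Subalgebra.coe_mul]
  have hx' : (x : F) = (a : F) / (b : F) := by
    rw [← hxb]; field_simp
  rw [hx']
  field_simp
  rw [← hsr']; ring

include hϖ hV hϖV hsat hthr ht htV hreg in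
/-- **The test section with its kernel** (consumer shape of `NodeDChart`): if the zeros of `t - c`
are rational, there is a section `h` of the chart through `𝔪` with `ev h t = c` such that the
kernel of `evLocAlg h` on the local ring is generated by `t - c`. -/
theorem exists_testSection_ker {c : O} (hc : ϖ ∣ c)
    (hrat : ∀ Q : Place K F, 0 < Q.ord ((t : F) - algebraMap O F c) →
      Function.Bijective (algebraMap K Q.ResidueField)) :
    ∃ (Q : Place K F) (hQ : Function.Bijective (algebraMap K Q.ResidueField))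
      (h : IsSection R Q hQ), Q ∈ centredSet K 𝔪 ∧ centre h = 𝔪 ∧ ev h t = c ∧
        Q.ord ((t : F) - algebraMap O F c) = 1 ∧
        (∀ x : ↥(locAlg R (centre h)), evLocAlg h x = 0 →
          ∃ q : ↥(locAlg R (centre h)), x = q * (algebraMap ↥R ↥(locAlg R (centre h)) t -
            algebraMap O ↥(locAlg R (centre h)) c)) ∧
        ∀ Q' : Place K F, Q' ∈ centredSet K 𝔪 →
          0 < Q'.ord ((t : F) - algebraMap O F c) → Q' = Q := by
  obtain ⟨Q, hQ, h, hQcen, hcentre, hev, hord, huniq⟩ :=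
    exists_testSection R hϖ V hV hϖV hsat 𝔪 hthr t ht htV hreg hc hrat
  refine ⟨Q, hQ, h, hQcen, hcentre, hev, hord, fun x hx => ?_, huniq⟩
  exact exists_mul_tau_of_mem_nonunits R hϖ V hV hϖV hsat 𝔪 hthr t ht htV hreg hc hQcen
    (by rw [hord]; exact one_pos) (centre h) hcentre x ((evLocAlg_eq_zero_iff h x).1 hx)

include hϖ hV hϖV hsat hthr ht htV hreg in
/-- **The test section with its kernel, outside a finite set of places**, `c` in a given injective
sequence of elements of `ϖ O`. -/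
theorem exists_testSection_ker_notMem (cs : ℕ → O) (hcs : ∀ n, ϖ ∣ cs n)
    (hinj : Function.Injective cs)
    (hrat : ∀ n, ∀ Q : Place K F, 0 < Q.ord ((t : F) - algebraMap O F (cs n)) →
      Function.Bijective (algebraMap K Q.ResidueField)) (B : Finset (Place K F)) :
    ∃ (n : ℕ) (Q : Place K F) (hQ : Function.Bijective (algebraMap K Q.ResidueField))
      (h : IsSection R Q hQ), Q ∉ B ∧ Q ∈ centredSet K 𝔪 ∧ centre h = 𝔪 ∧ ev h t = cs n ∧
        Q.ord ((t : F) - algebraMap O F (cs n)) = 1 ∧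
        (∀ x : ↥(locAlg R (centre h)), evLocAlg h x = 0 →
          ∃ q : ↥(locAlg R (centre h)), x = q * (algebraMap ↥R ↥(locAlg R (centre h)) t -
            algebraMap O ↥(locAlg R (centre h)) (cs n))) ∧
        ∀ Q' : Place K F, Q' ∈ centredSet K 𝔪 →
          0 < Q'.ord ((t : F) - algebraMap O F (cs n)) → Q' = Q := by
  obtain ⟨n, Q, hQ, h, hB, hQcen, hcentre, hev, hord, huniq⟩ :=
    exists_testSection_notMem R hϖ V hV hϖV hsat 𝔪 hthr t ht htV hreg cs hcs hinj hrat B
  refine ⟨n, Q, hQ, h, hB, hQcen, hcentre, hev, hord, fun x hx => ?_, huniq⟩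
  exact exists_mul_tau_of_mem_nonunits R hϖ V hV hϖV hsat 𝔪 hthr t ht htV hreg (hcs n) hQcen
    (by rw [hord]; exact one_pos) (centre h) hcentre x ((evLocAlg_eq_zero_iff h x).1 hx)

end Fermat.Agent.S40.M1.TestKer
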