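/-
S40 / T6′ static route, leaf (R4)(c)/(D7) "TEST POINTS AT THE LEVEL" (helper21; helper1 #3217 (D7),
helper8 #3216 (X1)(c)).

PART B — one level `(K, O)`, smooth level `N`, `T := Rfin K N O`, `V := gaussVS K N O`:
`𝔪` a maximal ideal of `T` containing `ϖ`, `z ∈ 𝔪` with `thetaFin z ≠ 0` and the chart form (D2)
of `𝔪 T_𝔪 = (z, ϖ)` (helper27 `SmoothPoint`), `c ∈ ϖ O`, rational zeros of `z - c` ⇒ the test section
(`exists_testPoint`): `centre h = 𝔪`, `ev h z = c`, `ker (evLocAlg h) = (z - c)`, `ord_Q (z - c) = 1`,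
uniqueness.
-/
import Mathlib
import Fermat.Agent.S40.M1.TestKer
import Fermat.Agent.S40.M1.AlphaNodeLevel

set_option autoImplicit false
set_option linter.unusedSectionVars false
set_option linter.style.haveILetI false
set_option linter.style.longLine false

open ModularCurve Fermat.Agent.S28.Gauss Fermat.Agent.N4.Setting Fermat.Agent.N4.FibreEmbedding
open Fermat.Agent.N4.Chart
open Fermat.Agent.N4F.E.GaussDVR AlgebraicCurve
open Fermat.Agent.N4F.E IsLocalRing Fermat.Agent.P3G.RbarFin Fermat.Agent.P3G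

noncomputable section

namespace Fermat.Agent.S40.M1.TestPointLevel

open Fermat.Agent.G.Points Fermat.Agent.G.PointsLoc Fermat.Agent.P3G.UCrit
open Fermat.Agent.S40.M1.TestPoint Fermat.Agent.S40.M1.TestSection Fermat.Agent.S40.M1.TestKer

section OneLevel

variable (K : Type) [Field K] [CharZero K] (N : ℕ) [NeZero N]
  (O : Subring K) [IsDiscreteValuationRing ↥O] [IsFractionRing ↥O K]

variable (hprime : (fibreIdeal K N O (Rfin K N O)).IsPrime) {ϖ : ↥O} (hϖ : Irreducible ϖ)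

theorem isNoetherianRing_Rfin : IsNoetherianRing ↥(Rfin K N O) := by
  haveI := Fermat.Agent.N4.ModPolySetting.finiteDimensional_FF K N
  exact Fermat.Agent.N4.IntClosure.isNoetherianRing_chartAlg (O := ↥O) (K := K) (jF K N)
    (Fermat.Agent.N4.FFAlgebraic.transcendental_jF K N)

theorem isFractionRing_Rfin : IsFractionRing ↥(Rfin K N O) (FF K N) := by
  haveI := Fermat.Agent.N4.ModPolySetting.finiteDimensional_FF K N
  exact Fermat.Agent.N4.Cover.Main.isFractionRing_chartAlg (O := ↥O) (K₀ := K) (jF K N)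
    (Fermat.Agent.N4.FFAlgebraic.transcendental_jF K N)

theorem coe_mem_gaussVS (r : ↥(Rfin K N O)) : (r : FF K N) ∈ gaussVS K N O :=
  chartAlg_le_gaussSubalgebra K N O (sFin_le_gauss K N O) r.2

theorem mem_nonunits_gaussVS_iff_thetaFin (r : ↥(Rfin K N O)) :
    (r : FF K N) ∈ (gaussVS K N O).nonunits ↔ thetaFin K N O r = 0 := by
  rw [thetaFin_apply]
  exact FibreTwo.mem_nonunits_gaussVS_iff K N O _

include hprime hϖ in
theorem dvd_of_mem_nonunits_gaussVS (r : ↥(Rfin K N O))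
    (hr : (r : FF K N) ∈ (gaussVS K N O).nonunits) : algebraMap ↥O ↥(Rfin K N O) ϖ ∣ r := by
  have h1 : r ∈ RingHom.ker (thetaFin K N O) :=
    (RingHom.mem_ker).2 ((mem_nonunits_gaussVS_iff_thetaFin K N O r).1 hr)
  rw [ker_thetaFin K N O hprime, fibreIdeal_eq_span K N O hϖ] at h1
  exact Ideal.mem_span_singleton.1 h1

include hprime hϖ in
theorem uniformiser_mem_nonunits_gaussVS :
    ((algebraMap ↥O ↥(Rfin K N O) ϖ : ↥(Rfin K N O)) : FF K N) ∈ (gaussVS K N O).nonunits := by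
  rw [mem_nonunits_gaussVS_iff_thetaFin, ← RingHom.mem_ker, ker_thetaFin K N O hprime,
    fibreIdeal_eq_span K N O hϖ]
  exact Ideal.mem_span_singleton_self _

variable (𝔪 : Ideal ↥(Rfin K N O)) [h𝔪 : 𝔪.IsMaximal]
  (hϖ𝔪 : algebraMap ↥O ↥(Rfin K N O) ϖ ∈ 𝔪)
  (z : ↥(Rfin K N O)) (hz𝔪 : z ∈ 𝔪) (hz0 : thetaFin K N O z ≠ 0)
  (hgen : ∃ c : ↥(Rfin K N O), c ∉ 𝔪 ∧ ∀ r ∈ 𝔪, ∃ a d : ↥(Rfin K N O),
    c * r = a * z + d * algebraMap ↥O ↥(Rfin K N O) ϖ)

include hprime hϖ hϖ𝔪 hz𝔪 hz0 hgen in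
/-- **(D7), one level.**  The test section through a smooth closed point `𝔪` of the special fibre of
the finite chart of level `N`, with local parameter `z` (`𝔪 T_𝔪 = (z, ϖ)`), constant `c ∈ ϖ O`. -/
theorem exists_testPoint {c : ↥O} (hc : ϖ ∣ c)
    (hrat : ∀ Q : Place K (FF K N), 0 < Q.ord ((z : FF K N) - algebraMap ↥O (FF K N) c) →
      Function.Bijective (algebraMap K Q.ResidueField)) :
    ∃ (Q : Place K (FF K N)) (hQ : Function.Bijective (algebraMap K Q.ResidueField))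
      (h : IsSection (Rfin K N O) Q hQ), Q ∈ centredSet K 𝔪 ∧ centre h = 𝔪 ∧ ev h z = c ∧
        Q.ord ((z : FF K N) - algebraMap ↥O (FF K N) c) = 1 ∧
        (∀ x : ↥(locAlg (Rfin K N O) (centre h)), evLocAlg h x = 0 →
          ∃ q : ↥(locAlg (Rfin K N O) (centre h)),
            x = q * (algebraMap ↥(Rfin K N O) ↥(locAlg (Rfin K N O) (centre h)) z -
              algebraMap ↥O ↥(locAlg (Rfin K N O) (centre h)) c)) ∧
        ∀ Q' : Place K (FF K N), Q' ∈ centredSet K 𝔪 →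
          0 < Q'.ord ((z : FF K N) - algebraMap ↥O (FF K N) c) → Q' = Q := by
  haveI := isNoetherianRing_Rfin K N O
  haveI := isFractionRing_Rfin K N O
  obtain ⟨c₀, hc₀, hgen'⟩ := hgen
  refine exists_testSection_ker (K := K) (Rfin K N O) hϖ (gaussVS K N O) (coe_mem_gaussVS K N O)
    (uniformiser_mem_nonunits_gaussVS K N O hprime hϖ)
    (dvd_of_mem_nonunits_gaussVS K N O hprime hϖ) 𝔪 (fun r hr => ?_) z hz𝔪
    (fun h => hz0 ((mem_nonunits_gaussVS_iff_thetaFin K N O z).1 h))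
    (fun x hx => ?_) hc hrat
  · obtain ⟨y, rfl⟩ := dvd_of_mem_nonunits_gaussVS K N O hprime hϖ r hr
    exact Ideal.mul_mem_right _ _ hϖ𝔪
  · obtain ⟨a, d, had⟩ := hgen' x hx
    exact ⟨c₀, a, d, hc₀, had⟩

end OneLevel

end Fermat.Agent.S40.M1.TestPointLevel
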