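/-
S40 / S44 (row 38), T6′ static route (`moonshots` row 67), leaf (H3) AT THE LEVEL (helper5):
**the hypotheses `hc₁ hc1 hc2` of `R4Node.r4_node_abs` at a crossing point of a finite chart.**

One level `(K, O)`, chart `R = Rfin K (N ℓ) O`, `𝔫` a maximal ideal through the Gauss component,
`u v G ∈ R` with `u, v ∈ 𝔫`, `G ∉ 𝔫`, `u v = G ℓ`, `𝔫 R_𝔫 = (u, v, ϖ)` (chart form), `V₁ u = 1`.
For every RATIONAL place `P` of `FF K (N ℓ)` centred at `𝔫`, with `c := u(P) = valT P hP u`: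

* `V₁ (u − c) = 1`  (`V₁ = gaussVS`),  `ord_P (u − c) = 1`,  `ord_Q (u − c) = 0` for the other places
  centred at `𝔫`  (`h3_fin`);
* `h3_honest` : the same from `hn : NodeHonest.HonestNode … 𝔫 u₀ v₀ G₀` and the generation clause
  (`HonestNode.gen` / `gen_levels` VERBATIM), `u = finMap f … u₀`.
-/
import Mathlib
import Fermat.Agent.S40.M1.NodeLocPChart
import Fermat.Agent.S40.M1.TestPointLevel
import Fermat.Agent.S40.M1.NodeHonest

set_option autoImplicit false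
set_option linter.unusedSectionVars false
set_option linter.unusedVariables false
set_option linter.style.haveILetI false
set_option linter.style.longLine false

open ModularCurve Fermat.Agent.S28.Gauss Fermat.Agent.N4.Setting Fermat.Agent.N4.FibreEmbedding
open Fermat.Agent.N4.Chart
open Fermat.Agent.N4F.E.GaussDVR AlgebraicCurve
open Fermat.Agent.N4F.E IsLocalRing Fermat.Agent.P3G.RbarFin Fermat.Agent.P3G
open Fermat.Agent.P4.TwistRoots Fermat.Agent.P3G.UCrit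
open Fermat.Agent.N4.BaseDescent Fermat.Agent.S19.Cech.LevelBasis

noncomputable section

namespace Fermat.Agent.S40.M1.H3Level

open Fermat.Agent.S40.M1.NodeInv Fermat.Agent.S40.M1.NodeLocPChart
  Fermat.Agent.S40.M1.TestPointLevel Fermat.Agent.S40.M1.NodeHonest

section OneLevel

variable (K : Type) [Field K] [CharZero K] (N : ℕ) [NeZero N] (ℓ : ℕ) [Fact ℓ.Prime]
  (O : Subring K) [IsDiscreteValuationRing ↥O] [IsFractionRing ↥O K]

/-- Element-wise form of "`Rfin` has fraction field `FF`". -/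
theorem hfrac_Rfin (M : ℕ) [NeZero M] :
    ∀ x : FF K M, ∃ y z : ↥(Rfin K M O), z ≠ 0 ∧ x * (z : FF K M) = (y : FF K M) := by
  haveI := isFractionRing_Rfin K M O
  intro x
  obtain ⟨a, b, hb, rfl⟩ := IsFractionRing.div_surjective (A := ↥(Rfin K M O)) x
  have hb0 : b ≠ 0 := nonZeroDivisors.ne_zero hb
  have hbF : algebraMap ↥(Rfin K M O) (FF K M) b ≠ 0 := by
    rw [Ne, FaithfulSMul.algebraMap_eq_zero_iff]; exact hb0
  exact ⟨a, b, hb0, div_mul_cancel₀ _ hbF⟩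

/-- ★ **(H3) at a crossing point of the finite chart.** -/
theorem h3_fin {ϖ : ↥O} (hϖ : Irreducible ϖ)
    {𝔫 : Ideal ↥(Rfin K (N * ℓ) O)} [h𝔫 : 𝔫.IsMaximal]
    (ht₁ : Through (gaussVS K (N * ℓ) O) 𝔫)
    {u v G : ↥(Rfin K (N * ℓ) O)} (hu : u ∈ 𝔫) (hv : v ∈ 𝔫) (hG : G ∉ 𝔫)
    (huv : u * v = G * ((ℓ : ℕ) : ↥(Rfin K (N * ℓ) O)))
    (hgen : ∀ r ∈ 𝔫, ∃ s a b c : ↥(Rfin K (N * ℓ) O), s ∉ 𝔫 ∧
      s * r = a * u + b * v + c * algebraMap ↥O ↥(Rfin K (N * ℓ) O) ϖ)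
    (hu₁ : (gaussVS K (N * ℓ) O).valuation (u : FF K (N * ℓ)) = 1)
    {P : Place K (FF K (N * ℓ))} (hP : Function.Bijective (algebraMap K P.ResidueField))
    (hc : P ∈ centredSet (F := FF K (N * ℓ)) K 𝔫) :
    (gaussVS K (N * ℓ) O).valuation
        ((u : FF K (N * ℓ)) - algebraMap K (FF K (N * ℓ)) (valT P hP (u : FF K (N * ℓ)))) = 1 ∧
      P.ord ((u : FF K (N * ℓ)) - algebraMap K (FF K (N * ℓ)) (valT P hP (u : FF K (N * ℓ)))) = 1 ∧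
      ∀ Q ∈ centredSet (F := FF K (N * ℓ)) K 𝔫, Q ≠ P →
        Q.ord ((u : FF K (N * ℓ)) -
          algebraMap K (FF K (N * ℓ)) (valT P hP (u : FF K (N * ℓ)))) = 0 := by
  haveI := isNoetherianRing_Rfin K (N * ℓ) O
  have hϖ𝔫 : algebraMap ↥O ↥(Rfin K (N * ℓ) O) ϖ ∈ 𝔫 := by
    apply ht₁
    have hmem : algebraMap ↥O (FF K (N * ℓ)) ϖ ∈ gaussSubalgebra K (N * ℓ) O :=
      (gaussSubalgebra K (N * ℓ) O).algebraMap_mem ϖ
    exact (Fermat.Agent.P3G.FibreTwo.mem_nonunits_gaussVS_iff K (N * ℓ) O hmem).mpr (theta_unif K (N * ℓ) O hϖ)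
  have hℓ0 : ((ℓ : ℕ) : ↥O) ≠ 0 := by
    have : ((ℓ : ℕ) : K) ≠ 0 := Nat.cast_ne_zero.2 (Fact.out : ℓ.Prime).ne_zero
    intro h0
    apply this
    have := congrArg (fun x : ↥O => (x : K)) h0
    simpa using this
  have huv' : u * v = G * algebraMap ↥O ↥(Rfin K (N * ℓ) O) ((ℓ : ℕ) : ↥O) := by
    rw [huv, map_natCast]
  obtain ⟨⟨a, ha, hval⟩, h1, h2⟩ := locP_honest_chart (R := Rfin K (N * ℓ) O) (𝔫 := 𝔫)
    (hfrac_Rfin K O (N * ℓ)) hϖ hϖ𝔫 hu hv hG huv' hℓ0 hgen hP hc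
  refine ⟨?_, h1, h2⟩
  apply valuation_sub_eq_one _ hu₁
  rw [hval, ← IsScalarTower.algebraMap_apply ↥O K (FF K (N * ℓ))]
  refine algebraMap_mem_nonunits_of_mem (gaussVS K (N * ℓ) O) hϖ (fun a => ?_) ?_ ha
  · exact (gaussSubalgebra K (N * ℓ) O).algebraMap_mem a
  · have hmem : algebraMap ↥O (FF K (N * ℓ)) ϖ ∈ gaussSubalgebra K (N * ℓ) O :=
      (gaussSubalgebra K (N * ℓ) O).algebraMap_mem ϖ
    exact (Fermat.Agent.P3G.FibreTwo.mem_nonunits_gaussVS_iff K (N * ℓ) O hmem).mpr (theta_unif K (N * ℓ) O hϖ)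

end OneLevel

/-! ### From `HonestNode` -/

section TwoLevels

variable (K₀ K : Type) [Field K₀] [CharZero K₀] [Field K] [CharZero K]
  (N : ℕ) [NeZero N] (ℓ : ℕ) [Fact ℓ.Prime]
  (O₀ : Subring K₀) [IsDiscreteValuationRing ↥O₀] [IsFractionRing ↥O₀ K₀]
  [CharP (IsLocalRing.ResidueField ↥O₀) ℓ] [PerfectRing (IsLocalRing.ResidueField ↥O₀) ℓ]
  (O : Subring K) [IsDiscreteValuationRing ↥O] [IsFractionRing ↥O K]
  [CharP (IsLocalRing.ResidueField ↥O) ℓ] [PerfectRing (IsLocalRing.ResidueField ↥O) ℓ]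
  (f : K₀ →+* K) (hOO' : ∀ a ∈ O₀, f a ∈ O)
  (S₂ : FibreTwo.SecondVal K N ℓ O)

/-- ★ **(H3) from `HonestNode`** and the generation clause (`HonestNode.gen` / `gen_levels`
VERBATIM): for `u = finMap f … u₀` and every rational place `P` centred at `𝔫`. -/
theorem h3_honest {ϖ : ↥O} (hϖ : Irreducible ϖ)
    {𝔫 : Ideal ↥(Rfin K (N * ℓ) O)} [h𝔫 : 𝔫.IsMaximal]
    {u₀ v₀ G₀ : ↥(Rfin K₀ (N * ℓ) O₀)}
    (hn : HonestNode K₀ K N ℓ O₀ O f hOO' S₂ 𝔫 u₀ v₀ G₀)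
    (ht₁ : Through (gaussVS K (N * ℓ) O) 𝔫)
    (hgen : ∀ r ∈ 𝔫, ∃ s a b c : ↥(Rfin K (N * ℓ) O), s ∉ 𝔫 ∧
      s * r = a * finMap f (N * ℓ) O₀ O hOO' u₀ + b * finMap f (N * ℓ) O₀ O hOO' v₀ +
        c * algebraMap ↥O ↥(Rfin K (N * ℓ) O) ϖ)
    {P : Place K (FF K (N * ℓ))} (hP : Function.Bijective (algebraMap K P.ResidueField))
    (hc : P ∈ centredSet (F := FF K (N * ℓ)) K 𝔫) :
    (gaussVS K (N * ℓ) O).valuation
        (((finMap f (N * ℓ) O₀ O hOO' u₀ : ↥(Rfin K (N * ℓ) O)) : FF K (N * ℓ)) -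
          algebraMap K (FF K (N * ℓ))
            (valT P hP ((finMap f (N * ℓ) O₀ O hOO' u₀ : ↥(Rfin K (N * ℓ) O)) : FF K (N * ℓ)))) = 1 ∧
      P.ord (((finMap f (N * ℓ) O₀ O hOO' u₀ : ↥(Rfin K (N * ℓ) O)) : FF K (N * ℓ)) -
          algebraMap K (FF K (N * ℓ))
            (valT P hP ((finMap f (N * ℓ) O₀ O hOO' u₀ : ↥(Rfin K (N * ℓ) O)) : FF K (N * ℓ)))) = 1 ∧
      ∀ Q ∈ centredSet (F := FF K (N * ℓ)) K 𝔫, Q ≠ P →
        Q.ord (((finMap f (N * ℓ) O₀ O hOO' u₀ : ↥(Rfin K (N * ℓ) O)) : FF K (N * ℓ)) -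
          algebraMap K (FF K (N * ℓ))
            (valT P hP ((finMap f (N * ℓ) O₀ O hOO' u₀ : ↥(Rfin K (N * ℓ) O)) : FF K (N * ℓ)))) = 0 := by
  have huv : finMap f (N * ℓ) O₀ O hOO' u₀ * finMap f (N * ℓ) O₀ O hOO' v₀ =
      finMap f (N * ℓ) O₀ O hOO' G₀ * ((ℓ : ℕ) : ↥(Rfin K (N * ℓ) O)) := by
    rw [← map_mul, hn.mul_eq, map_mul, map_natCast]
  exact h3_fin K N ℓ O hϖ ht₁ hn.mem_u hn.mem_v hn.unit_G huv hgen hn.val₁_u hP hc

end TwoLevels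

end Fermat.Agent.S40.M1.H3Level
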