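/-
S44/S40 (`moonshots` row 67, block R4, the [F] block of `R4Node.r4_node_abs` at a good level; helper23):
**the function `f̃ = ffMap g₀` at a big level `K` from the binders of `SSLeafAsm.R4Leaf`.**

`g₀` is a function over the small level `L₀` with exact level norms `N_α g₀ = a′ ^ e`, `N_β g₀ = b′ ^ e`
over `L₀`.  At every level `K ⊇ L₀`:

* `normAlphaK_ffMap`, `normBetaK_ffMap` : the level norms commute with the change of constants;
* ★ `normAlphaK_ffMap_pow`, `normBetaK_ffMap_pow` : `N_α (ffMap g₀) = (ffMap a′) ^ e` with the EXPLICIT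
  witness `hA = ffMap a′` (= `hNα`, `hNβ` of `r4_node_abs`; the explicit witness is what the invariance
  clause `σ' • hA = hA` needs);
* `ffMap_ne_zero` : `hf0`; `ord_eq_mul_ediv` : `hfD` with `D Q = Q.ord f / p`;
* ★ `fBlock` : everything `R4Final` needs about `f̃`, `hA`, `hB` in one statement (the [F] block together
  with its part of the invariance clause [INV], for every `σ` fixing `L₀` pointwise).
-/
import Mathlib
import Fermat.Agent.S40.M1.LevelUp
import Fermat.Agent.S40.M1.NodeGalois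

set_option autoImplicit false
set_option linter.unusedSectionVars false
set_option linter.unusedVariables false
set_option linter.style.haveILetI false

open ModularCurve AlgebraicCurve IntermediateField

noncomputable section

namespace Fermat.Agent.S40.M1.R4F

open Fermat.Agent.N4.Setting Fermat.Agent.N4.BaseDescent Fermat.Agent.N4.BigDVR
  Fermat.Agent.N4F.C Fermat.Agent.N4F.C.Levels
  Fermat.Agent.P3G.Gamma Fermat.Agent.P3G.GammaAut
  Fermat.Agent.P4.Push Fermat.Agent.P4.FrobLevelStep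
  Fermat.Agent.S19.Cech.LevelBasis
  Fermat.Agent.S40.M1.NodeGalois

local notation "Qbar" => AlgebraicClosure ℚ
local notation "Γ" => (AlgebraicClosure ℚ ≃ₐ[ℚ] AlgebraicClosure ℚ)

section Norms

variable {N q : ℕ} [NeZero N] [NeZero q] {L₀ K : IntermediateField ℚ Qbar} (hLK : L₀ ≤ K)

/-- The norm along `α` commutes with the change of constants `L₀ ≤ K`. -/
theorem normAlphaK_ffMap (hq : q.Prime) (hqN : ¬ q ∣ N) (g₀ : FF (Lvl L₀) (N * q)) :
    normAlphaK K N q (ffMap (lvlIncl hLK) (N * q) g₀) =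
      ffMap (lvlIncl hLK) N (normAlphaK L₀ N q g₀) := by
  have h1 := normAlphaK_eq_of_lev K N q hq hqN (fK := ffMap (lvlIncl hLK) (N * q) g₀)
    (hAK := ffMap (lvlIncl hLK) N (normAlphaK L₀ N q g₀)) (cAK := 1) (e := 1) (by
      rw [map_one, map_one, one_mul, pow_one, levK_ffMap, levK_ffMap,
        levK_normAlphaK L₀ N q hq hqN])
  rwa [map_one, one_mul, pow_one] at h1

/-- The norm along `β` commutes with the change of constants `L₀ ≤ K`. -/
theorem normBetaK_ffMap (hq : q.Prime) (hqN : ¬ q ∣ N) (g₀ : FF (Lvl L₀) (N * q)) :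
    normBetaK K N q (ffMap (lvlIncl hLK) (N * q) g₀) =
      ffMap (lvlIncl hLK) N (normBetaK L₀ N q g₀) := by
  have h1 := normBetaK_eq_of_lev K N q hq hqN (fK := ffMap (lvlIncl hLK) (N * q) g₀)
    (hBK := ffMap (lvlIncl hLK) N (normBetaK L₀ N q g₀)) (cBK := 1) (e := 1) (by
      rw [map_one, map_one, one_mul, pow_one, levK_ffMap, levK_ffMap,
        levK_normBetaK L₀ N q hq hqN])
  rwa [map_one, one_mul, pow_one] at h1

/-- ★ `hNα` of `r4_node_abs` with the explicit witness `hA = ffMap a′`. -/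
theorem normAlphaK_ffMap_pow (hq : q.Prime) (hqN : ¬ q ∣ N) {e : ℕ} {g₀ : FF (Lvl L₀) (N * q)}
    {a' : FF (Lvl L₀) N} (h : normAlphaK L₀ N q g₀ = a' ^ e) :
    normAlphaK K N q (ffMap (lvlIncl hLK) (N * q) g₀) = ffMap (lvlIncl hLK) N a' ^ e := by
  rw [normAlphaK_ffMap hLK hq hqN, h, map_pow]

/-- ★ `hNβ` of `r4_node_abs` with the explicit witness `hB = ffMap b′`. -/
theorem normBetaK_ffMap_pow (hq : q.Prime) (hqN : ¬ q ∣ N) {e : ℕ} {g₀ : FF (Lvl L₀) (N * q)}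
    {b' : FF (Lvl L₀) N} (h : normBetaK L₀ N q g₀ = b' ^ e) :
    normBetaK K N q (ffMap (lvlIncl hLK) (N * q) g₀) = ffMap (lvlIncl hLK) N b' ^ e := by
  rw [normBetaK_ffMap hLK hq hqN, h, map_pow]

end Norms

section Basic

variable {N : ℕ} [NeZero N] {L₀ K : IntermediateField ℚ Qbar} (hLK : L₀ ≤ K)

/-- `hf0`. -/
theorem ffMap_ne_zero {g₀ : FF (Lvl L₀) N} (h : g₀ ≠ 0) : ffMap (lvlIncl hLK) N g₀ ≠ 0 :=
  (map_ne_zero_iff _ (ffMap (lvlIncl hLK) N).injective).mpr h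

/-- `hfD` with `D Q := Q.ord f / p`. -/
theorem ord_eq_mul_ediv {k F : Type*} [Field k] [Field F] [Algebra k F] {f : F} {p : ℕ}
    (hdiv : ∀ Q : Place k F, (p : ℤ) ∣ Q.ord f) (Q : Place k F) :
    Q.ord f = (p : ℤ) * (Q.ord f / (p : ℤ)) :=
  (Int.mul_ediv_cancel' (hdiv Q)).symm

end Basic

section Block

variable {N p : ℕ} [NeZero N] [NeZero p] {L₀ K : IntermediateField ℚ Qbar} (hLK : L₀ ≤ K)
  (hK : ∀ (τ : Γ) (x : Qbar), x ∈ K → τ x ∈ K)

/-- ★ **The [F] block of `r4_node_abs` at a level `K ⊇ L₀`**, with its part of the invariance clause: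
for `g₀ ≠ 0` over `L₀` with `N_α g₀ = a′ ^ p`, `N_β g₀ = b′ ^ p` and `p ∣ div (ffMap g₀)`, the function
`f = ffMap g₀`, `D Q = Q.ord f / p`, `hA = ffMap a′`, `hB = ffMap b′` satisfy `hf0`, `hfD`, `hNα`, `hNβ`,
and every `σ` fixing `L₀` pointwise fixes `f`, `hA`, `hB`, permutes the places compatibly with `D`. -/
theorem fBlock (hp : p.Prime) (hpN : ¬ p ∣ N) {g₀ : FF (Lvl L₀) (N * p)} (hg₀ : g₀ ≠ 0)
    {a' b' : FF (Lvl L₀) N} (ha' : normAlphaK L₀ N p g₀ = a' ^ p)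
    (hb' : normBetaK L₀ N p g₀ = b' ^ p)
    (hdiv : ∀ Q : Place (Lvl K) (FF (Lvl K) (N * p)),
      (p : ℤ) ∣ Q.ord (ffMap (lvlIncl hLK) (N * p) g₀)) :
    ffMap (lvlIncl hLK) (N * p) g₀ ≠ 0 ∧
    (∀ Q : Place (Lvl K) (FF (Lvl K) (N * p)),
      Q.ord (ffMap (lvlIncl hLK) (N * p) g₀) =
        (p : ℤ) * (Q.ord (ffMap (lvlIncl hLK) (N * p) g₀) / (p : ℤ))) ∧
    normAlphaK K N p (ffMap (lvlIncl hLK) (N * p) g₀) = ffMap (lvlIncl hLK) N a' ^ p ∧
    normBetaK K N p (ffMap (lvlIncl hLK) (N * p) g₀) = ffMap (lvlIncl hLK) N b' ^ p ∧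
    ∀ σ : Γ, (∀ y ∈ L₀, σ y = y) →
      levelFF K hK (N * p) σ • ffMap (lvlIncl hLK) (N * p) g₀ = ffMap (lvlIncl hLK) (N * p) g₀ ∧
      levelFF K hK N σ • ffMap (lvlIncl hLK) N a' = ffMap (lvlIncl hLK) N a' ∧
      levelFF K hK N σ • ffMap (lvlIncl hLK) N b' = ffMap (lvlIncl hLK) N b' ∧
      ∀ Q : Place (Lvl K) (FF (Lvl K) (N * p)),
        (levelFF K hK (N * p) σ • Q).ord (ffMap (lvlIncl hLK) (N * p) g₀) / (p : ℤ) =
          Q.ord (ffMap (lvlIncl hLK) (N * p) g₀) / (p : ℤ) := by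
  refine ⟨ffMap_ne_zero hLK hg₀, ord_eq_mul_ediv hdiv, normAlphaK_ffMap_pow hLK hp hpN ha',
    normBetaK_ffMap_pow hLK hp hpN hb', fun σ hσ => ?_⟩
  have hf := levelFF_smul_ffMap hLK hK (N * p) hσ g₀
  exact ⟨hf, levelFF_smul_ffMap hLK hK N hσ a', levelFF_smul_ffMap hLK hK N hσ b',
    fun Q => ediv_ord_smul _ hf (p : ℤ) Q⟩

end Block

end Fermat.Agent.S40.M1.R4F
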