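/-
S40 / S44 (row 38), block [M1]/T6′, leaf **R4 (a)+(b)** (helper18; split of helper1 #3149): **the
factorisation at a crossing point for an EXPLICIT local generator `β`, and the norm step.**

Setting of `S40/M1/NodeFactor` (chart `R`, two vertical valuation rings `V₁ V₂`, crossing point `𝔫`,
residue order `μ` along `V₁`, node coordinate `u` with `μ u = 1`).

* `exists_factor_of_beta` : (a) for ANY `β`, unit of `V₁`, with `ord_Q β = D Q` at the places centred at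
  `𝔫` (in R4: `β = b_s · ϖ ^ (-k)`, `b_s = ∏ (u − u(P)) ^ {D P}` the canonical, Galois-invariant product
  of honest local equations), a `V₁`-unit `f` with `ord_Q f = p · D Q` there is
  `f = u ^ n · β ^ p · W`, `n = μ f − p μ β`, `W` a unit of `R_𝔫`;
* `exists_factor_prod` : the same with `β = (∏ P ∈ S, b P ^ D P) · ϖ ^ (-k)` from local equations `b P`
  (explicit product shape);
* `pow_div_norm_eq` : (b) for a multiplicative map `N : F →* F'` (a norm): from `f = u ^ n β ^ p W` and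
  `N f = h ^ p`:  `(h / N β) ^ p = (N u) ^ n · N W`;
* `norm_step` : (a)+(b) for two norms `N_α N_β` at once.
-/
import Mathlib
import Fermat.Agent.S40.M1.NodeFactor
import Fermat.Agent.S33.L.PingPongAbs

set_option autoImplicit false
set_option linter.unusedSectionVars false
set_option linter.dupNamespace false
set_option linter.style.haveILetI false
set_option linter.style.longLine false

open AlgebraicCurve

noncomputable section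

namespace Fermat.Agent.S40.M1.NodeNormStep

open Fermat.Agent.P4.TwistRoots Fermat.Agent.P3G.UCrit Fermat.Agent.S40.M1.NodeFactor

/-! ### (b) The norm step, abstract -/

section Norm

variable {F F' : Type*} [Field F] [Field F']

/-- A multiplicative map between fields commutes with integral powers of nonzero elements. -/
theorem map_zpow_of_ne (N : F →* F') {x : F} (hx : x ≠ 0) (n : ℤ) : N (x ^ n) = N x ^ n := by
  obtain ⟨k, rfl | rfl⟩ := n.eq_nat_or_neg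
  · rw [zpow_natCast, zpow_natCast, map_pow]
  · rw [zpow_neg, zpow_neg, zpow_natCast, zpow_natCast,
      Fermat.Agent.S33.L.PingPongAbs.map_inv_of_ne N (pow_ne_zero k hx), map_pow]

/-- **The norm step**: from `f = u ^ n · β ^ p · W` and `N f = h ^ p`:
`(h / N β) ^ p = (N u) ^ n · N W`. -/
theorem pow_div_norm_eq (N : F →* F') {f u β W : F} {n : ℤ} {p : ℕ} (hu : u ≠ 0) (hβ : β ≠ 0)
    (hfac : f = u ^ n * β ^ p * W) {h : F'} (hN : N f = h ^ p) :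
    (h / N β) ^ p = N u ^ n * N W := by
  have hNβ : N β ≠ 0 := Fermat.Agent.S33.L.PingPongAbs.map_ne_zero_of_ne N hβ
  rw [div_pow, ← hN, hfac, map_mul, map_mul, map_pow, map_zpow_of_ne N hu]
  field_simp

end Norm

/-! ### (a) The factorisation for an explicit `β` -/

section Main

variable {O K F R : Type*}
  [CommRing O] [IsDomain O] [IsDiscreteValuationRing O]
  [Field K] [Algebra O K] [IsFractionRing O K]
  [Field F] [Algebra K F] [Algebra O F] [IsScalarTower O K F]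
  [CommRing R] [IsDomain R] [IsNoetherianRing R] [IsIntegrallyClosed R]
  [Algebra R F] [IsFractionRing R F] [Algebra O R] [IsScalarTower O R F]

variable (V₁ V₂ : ValuationSubring F)
  (hV₁ : ∀ r : R, algebraMap R F r ∈ V₁) (hV₂ : ∀ r : R, algebraMap R F r ∈ V₂)
  {ϖ : O} (hϖ : Irreducible ϖ)
  (hϖ₁ : algebraMap O F ϖ ∈ V₁.nonunits) (hϖ₂ : algebraMap O F ϖ ∈ V₂.nonunits)
  (hsat : ∀ r : R, algebraMap R F r ∈ V₁.nonunits → algebraMap R F r ∈ V₂.nonunits →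
    algebraMap O R ϖ ∣ r)
  (𝔫 : Ideal R) [h𝔫 : 𝔫.IsPrime] (μ : F → ℤ)

include hV₁ hV₂ hϖ hϖ₁ hϖ₂ hsat in
/-- **(a) The factorisation for a given local generator `β`.** -/
theorem exists_factor_of_beta (ht₁ : Through V₁ 𝔫) (ht₂ : Through V₂ 𝔫)
    (hμmul : MuMul V₁ μ)
    (hμpos : ∀ r : R, r ∈ 𝔫 → V₁.valuation (algebraMap R F r) = 1 → 0 < μ (algebraMap R F r))
    (hμunit : ∀ r : R, r ∉ 𝔫 → μ (algebraMap R F r) = 0)
    {u : F} (hu₁ : V₁.valuation u = 1) (huQ : ∀ Q ∈ centredSet K 𝔫, Q.ord u = 0) (huμ : μ u = 1)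
    {f : F} (hf0 : f ≠ 0) (hf₁ : V₁.valuation f = 1) (p : ℕ) (D : Place K F → ℤ)
    (hfD : ∀ Q ∈ centredSet K 𝔫, Q.ord f = p * D Q)
    {β : F} (hβ0 : β ≠ 0) (hβ₁ : V₁.valuation β = 1)
    (hβQ : ∀ Q ∈ centredSet K 𝔫, Q.ord β = D Q) :
    ∃ W : F, IsUnitAt 𝔫 W ∧ f = u ^ (μ f - p * μ β) * β ^ p * W ∧
      V₂.valuation f = V₂.valuation u ^ (μ f - p * μ β) * V₂.valuation β ^ p := by
  have hβp0 : β ^ p ≠ 0 := pow_ne_zero _ hβ0
  have hβp₁ : V₁.valuation (β ^ p) = 1 := by rw [map_pow, hβ₁, one_pow]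
  have hg0 : f / β ^ p ≠ 0 := div_ne_zero hf0 hβp0
  have hg₁ : V₁.valuation (f / β ^ p) = 1 := by rw [map_div₀, hf₁, hβp₁, div_one]
  have hgQ : ∀ Q ∈ centredSet K 𝔫, Q.ord (f / β ^ p) = 0 := by
    intro Q hQ
    rw [div_eq_mul_inv, Q.ord_mul hf0 (inv_ne_zero hβp0), Q.ord_inv, hfD Q hQ, ← zpow_natCast,
      Q.ord_zpow, hβQ Q hQ]
    ring
  obtain ⟨W, hW, hgW, -⟩ := exists_zpow_mul_isUnitAt (K := K) V₁ V₂ hV₁ hV₂ hϖ hϖ₁ hϖ₂ hsat 𝔫 μ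
    ht₁ ht₂ hμmul hμpos hμunit hu₁ huQ huμ hg0 hg₁ hgQ
  have hμ : μ (f / β ^ p) = μ f - p * μ β := by
    rw [hμmul.mu_div hf₁ hβp₁, hμmul.mu_pow hβ₁]
  rw [hμ] at hgW
  have hfac : f = u ^ (μ f - p * μ β) * β ^ p * W := by
    have h1 : f = β ^ p * (f / β ^ p) := by field_simp
    calc f = β ^ p * (f / β ^ p) := h1
      _ = β ^ p * (u ^ (μ f - p * μ β) * W) := congrArg (fun t => β ^ p * t) hgW
      _ = u ^ (μ f - p * μ β) * β ^ p * W := by ring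
  refine ⟨W, hW, hfac, ?_⟩
  have h1 := congrArg V₂.valuation hfac
  rw [map_mul, map_mul, hW.valuation_eq_one hV₂ ht₂, mul_one, map_zpow₀, map_pow] at h1
  exact h1

include hV₁ hV₂ hϖ hϖ₁ hϖ₂ hsat in
/-- **(a) with the explicit product of local equations**: `β = (∏ P ∈ S, b P ^ D P) · ϖ ^ (-k)`. -/
theorem exists_factor_prod (ht₁ : Through V₁ 𝔫) (ht₂ : Through V₂ 𝔫)
    (hdisc₁ : ∀ b : F, b ≠ 0 → ∃ n : ℤ, V₁.valuation b = V₁.valuation (algebraMap O F ϖ) ^ n)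
    (hμmul : MuMul V₁ μ)
    (hμpos : ∀ r : R, r ∈ 𝔫 → V₁.valuation (algebraMap R F r) = 1 → 0 < μ (algebraMap R F r))
    (hμunit : ∀ r : R, r ∉ 𝔫 → μ (algebraMap R F r) = 0)
    {u : F} (hu₁ : V₁.valuation u = 1) (huQ : ∀ Q ∈ centredSet K 𝔫, Q.ord u = 0) (huμ : μ u = 1)
    {f : F} (hf0 : f ≠ 0) (hf₁ : V₁.valuation f = 1) (p : ℕ) (D : Place K F → ℤ)
    (hfD : ∀ Q ∈ centredSet K 𝔫, Q.ord f = p * D Q)
    (S : Finset (Place K F)) (hS : ∀ Q ∈ centredSet K 𝔫, Q ∉ S → D Q = 0)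
    (b : Place K F → F) (hb0 : ∀ P ∈ S, b P ≠ 0) (hb1 : ∀ P ∈ S, P.ord (b P) = 1)
    (hb2 : ∀ P ∈ S, ∀ Q ∈ centredSet K 𝔫, Q ≠ P → Q.ord (b P) = 0) :
    ∃ (k : ℤ) (β W : F), β = (∏ P ∈ S, b P ^ D P) * algebraMap O F ϖ ^ (-k) ∧ β ≠ 0 ∧
      V₁.valuation β = 1 ∧ (∀ Q ∈ centredSet K 𝔫, Q.ord β = D Q) ∧ IsUnitAt 𝔫 W ∧
      f = u ^ (μ f - p * μ β) * β ^ p * W ∧
      V₂.valuation f = V₂.valuation u ^ (μ f - p * μ β) * V₂.valuation β ^ p := by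
  classical
  have hϖF0 : algebraMap O F ϖ ≠ 0 := algebraMap_unif_ne_zero K hϖ
  have hv₁0 : V₁.valuation (algebraMap O F ϖ) ≠ 0 := (Valuation.ne_zero_iff _).2 hϖF0
  have hβ₀0 : (∏ P ∈ S, b P ^ D P) ≠ 0 :=
    Finset.prod_ne_zero_iff.2 fun P hP => zpow_ne_zero _ (hb0 P hP)
  have hβ₀Q : ∀ Q ∈ centredSet K 𝔫, Q.ord (∏ P ∈ S, b P ^ D P) = D Q := fun Q hQ =>
    Fermat.Agent.S40.M4.LGUnit.ord_prod_zpow_localEqs 𝔫 S D hS b hb0 hb1 hb2 hQ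
  obtain ⟨k, hk⟩ := hdisc₁ _ hβ₀0
  have hβ0 : (∏ P ∈ S, b P ^ D P) * algebraMap O F ϖ ^ (-k) ≠ 0 :=
    mul_ne_zero hβ₀0 (zpow_ne_zero _ hϖF0)
  have hβ₁ : V₁.valuation ((∏ P ∈ S, b P ^ D P) * algebraMap O F ϖ ^ (-k)) = 1 := by
    rw [map_mul, hk, map_zpow₀, ← zpow_add₀ hv₁0, add_neg_cancel, zpow_zero]
  have hβQ : ∀ Q ∈ centredSet K 𝔫,
      Q.ord ((∏ P ∈ S, b P ^ D P) * algebraMap O F ϖ ^ (-k)) = D Q := by
    intro Q hQ
    rw [Q.ord_mul hβ₀0 (zpow_ne_zero _ hϖF0), hβ₀Q Q hQ, Q.ord_zpow,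
      Fermat.Agent.S40.M4.LGUnit.ord_algebraMap_base' Q hϖ.ne_zero, mul_zero, add_zero]
  obtain ⟨W, hW, hfac, hval⟩ := exists_factor_of_beta (K := K) V₁ V₂ hV₁ hV₂ hϖ hϖ₁ hϖ₂ hsat 𝔫 μ
    ht₁ ht₂ hμmul hμpos hμunit hu₁ huQ huμ hf0 hf₁ p D hfD hβ0 hβ₁ hβQ
  exact ⟨k, _, W, rfl, hβ0, hβ₁, hβQ, hW, hfac, hval⟩

include hV₁ hV₂ hϖ hϖ₁ hϖ₂ hsat in
/-- **(a)+(b): the factorisation pushed through two norms.**  `N_α N_β : F →* F'` multiplicative,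
`N_α f = h_A ^ p`, `N_β f = h_B ^ p`, `β` a local generator as in `exists_factor_of_beta`: with
`n = μ f − p μ β` there is a unit `W` of `R_𝔫` with
`(h_A / N_α β) ^ p = (N_α u) ^ n · N_α W` and `(h_B / N_β β) ^ p = (N_β u) ^ n · N_β W`. -/
theorem norm_step {F' : Type*} [Field F'] (Nα Nβ : F →* F')
    (ht₁ : Through V₁ 𝔫) (ht₂ : Through V₂ 𝔫)
    (hμmul : MuMul V₁ μ)
    (hμpos : ∀ r : R, r ∈ 𝔫 → V₁.valuation (algebraMap R F r) = 1 → 0 < μ (algebraMap R F r))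
    (hμunit : ∀ r : R, r ∉ 𝔫 → μ (algebraMap R F r) = 0)
    {u : F} (hu₁ : V₁.valuation u = 1) (huQ : ∀ Q ∈ centredSet K 𝔫, Q.ord u = 0) (huμ : μ u = 1)
    {f : F} (hf0 : f ≠ 0) (hf₁ : V₁.valuation f = 1) (p : ℕ) (D : Place K F → ℤ)
    (hfD : ∀ Q ∈ centredSet K 𝔫, Q.ord f = p * D Q)
    {β : F} (hβ0 : β ≠ 0) (hβ₁ : V₁.valuation β = 1)
    (hβQ : ∀ Q ∈ centredSet K 𝔫, Q.ord β = D Q)
    {hA hB : F'} (hNα : Nα f = hA ^ p) (hNβ : Nβ f = hB ^ p) :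
    ∃ W : F, IsUnitAt 𝔫 W ∧ f = u ^ (μ f - p * μ β) * β ^ p * W ∧
      (hA / Nα β) ^ p = Nα u ^ (μ f - p * μ β) * Nα W ∧
      (hB / Nβ β) ^ p = Nβ u ^ (μ f - p * μ β) * Nβ W := by
  obtain ⟨W, hW, hfac, -⟩ := exists_factor_of_beta (K := K) V₁ V₂ hV₁ hV₂ hϖ hϖ₁ hϖ₂ hsat 𝔫 μ
    ht₁ ht₂ hμmul hμpos hμunit hu₁ huQ huμ hf0 hf₁ p D hfD hβ0 hβ₁ hβQ
  have hu0 : u ≠ 0 := ne_zero_of_valuation_eq_one hu₁
  exact ⟨W, hW, hfac, pow_div_norm_eq Nα hu0 hβ0 hfac hNα, pow_div_norm_eq Nβ hu0 hβ0 hfac hNβ⟩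

end Main

end Fermat.Agent.S40.M1.NodeNormStep
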