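/-
S40 / S44 (row 38), T6′ static route, block **R4-F** (helper25): **the factorisation at an honest node,
level instance**, and the facts about the node coordinates at the unramified sublevel.

Setting of `S40/M1/NodeHonest`: level `N ℓ`, finite charts `Rfin K₀ (N ℓ) O₀ → Rfin K (N ℓ) O`
(`φ = finMap f (N ℓ) O₀ O hOO'`), vertical valuation rings `V₁ = gaussVS`, `V₂ = S₂.V`, Gauss reduction
`redG`, `s` a place of `FF κ N` whose centre on the chart is the crossing point `𝔫`.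

* `muOrd s x` : the residue order `ord_s (redG x)` for units `x` of `V₁` (`0` otherwise), with the four
  facts consumed by helper18's `NodeFactor`/`NodeNormStep` (`muMul_muOrd`, `muOrd_pos`, `muOrd_unit`,
  `muOrd_u`);
* (F1) `factor` : `f = u ^ n · β ^ p · W`, `n = ord_s (redG f) − p · ord_s (redG β)`, `W` a unit
  at `𝔫`, for any local generator `β` of the horizontal divisor `D` of `f` near `𝔫`;
  `norm_step` : the same pushed through two multiplicative maps (the level norms);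
* (F2) `base` : the facts at the small level: `V₁⁰ u₀ = 1`, `V₂⁰ u₀ = V₂⁰ ℓ`, `V₂⁰ v₀ = 1`,
  `V₁⁰ v₀ = V₁⁰ ℓ`, `G₀ ∉ 𝔫₀`, no horizontal divisor of `u₀`, `v₀` through `𝔫₀ = 𝔫.comap φ`;
* levels `K₀ ≤ K` of `Q̄` (`K₀` unramified, `K` good): `factor_levels`, `norm_step_levels`, `base_levels`.
-/
import Mathlib
import Fermat.Agent.S40.M1.NodeHonest
import Fermat.Agent.S40.M1.NodeNormStep

set_option autoImplicit false
set_option linter.unusedSectionVars false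
set_option linter.unusedVariables false
set_option linter.style.haveILetI false

open ModularCurve Fermat.Agent.S28.Gauss Fermat.Agent.N4.Setting Fermat.Agent.N4.FibreEmbedding
open Fermat.Agent.N4.Chart
open Fermat.Agent.N4F.E.DegreeLevelRaise Fermat.Agent.N4F.E.GaussDVR AlgebraicCurve Polynomial
open Fermat.Agent.N4F.E IsLocalRing Fermat.Agent.P3G.RbarFin Fermat.Agent.P3G.TwoComponents
open Fermat.Agent.P3G.TwoComponentsFinal Fermat.Agent.P3G Fermat.Agent.P4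
open Fermat.Agent.P4.TwistRoots Fermat.Agent.P3G.UCrit
open Fermat.Agent.S40.W.F4Level
open Fermat.Agent.N4.BaseDescent Fermat.Agent.S19.Cech.LevelBasis
open Fermat.Agent.S40.M1.NodeHonest Fermat.Agent.S40.M1.NodeFactor

noncomputable section

namespace Fermat.Agent.S40.M1.NodeFactorLevel

/-! ### The residue order along the Gauss valuation at a place of the special fibre -/

section Mu

variable (K : Type) [Field K] [CharZero K] (N : ℕ) [NeZero N] (ℓ : ℕ) [Fact ℓ.Prime]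
  (O : Subring K) [IsDiscreteValuationRing ↥O] [IsFractionRing ↥O K]
  [CharP (IsLocalRing.ResidueField ↥O) ℓ] [PerfectRing (IsLocalRing.ResidueField ↥O) ℓ]

set_option quotPrecheck false in
local notation "κ" => IsLocalRing.ResidueField ↥O

set_option synthInstance.maxHeartbeats 400000

variable (hN : IsUnit ((N : ℕ) : ↥O)) (ι : K →+* ℂ) (hℓN : ¬ ℓ ∣ N)
  (hprime : (fibreIdeal K N O (Rfin K N O)).IsPrime)
  (hsmooth : IsDedekindDomain (↥(Rfin K N O) ⧸ fibreIdeal K N O (Rfin K N O)))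
  (hA2 : ∀ x : ↥(gaussSubalgebra K N O),
    theta K N O x ∈ modularFunctionFieldFullC (IsLocalRing.ResidueField ↥O) N)
  (S₂ : FibreTwo.SecondVal K N ℓ O)
  {ϖ : ↥O} (hϖ : Irreducible ϖ)

open Classical in
/-- The residue order at the place `s` of the special fibre: `ord_s (redG x)` for a unit `x` of the
Gauss valuation, `0` otherwise. -/
def muOrd (s : Place κ (FF κ N)) (x : FF K (N * ℓ)) : ℤ :=
  if h : (gaussVS K (N * ℓ) O).valuation x = 1 then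
    s.ord (redG K N ℓ O ι hℓN hA2 S₂ ⟨x, mem_gauss_of_valuation_eq_one K N ℓ O h⟩) else 0

theorem muOrd_eq (s : Place κ (FF κ N)) {x : FF K (N * ℓ)}
    (h : (gaussVS K (N * ℓ) O).valuation x = 1) :
    muOrd K N ℓ O ι hℓN hA2 S₂ s x =
      s.ord (redG K N ℓ O ι hℓN hA2 S₂ ⟨x, mem_gauss_of_valuation_eq_one K N ℓ O h⟩) :=
  dif_pos h

theorem muOrd_algebraMap (s : Place κ (FF κ N)) (r : ↥(Rfin K (N * ℓ) O))
    (h : (gaussVS K (N * ℓ) O).valuation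
      (algebraMap ↥(Rfin K (N * ℓ) O) (FF K (N * ℓ)) r) = 1) :
    muOrd K N ℓ O ι hℓN hA2 S₂ s (algebraMap ↥(Rfin K (N * ℓ) O) (FF K (N * ℓ)) r) =
      s.ord (redFinL K N ℓ O ι hℓN hA2 S₂ r) := by
  rw [muOrd_eq K N ℓ O ι hℓN hA2 S₂ s h]; rfl

theorem redFinL_ne_zero (r : ↥(Rfin K (N * ℓ) O))
    (h : (gaussVS K (N * ℓ) O).valuation
      (algebraMap ↥(Rfin K (N * ℓ) O) (FF K (N * ℓ)) r) = 1) :
    redFinL K N ℓ O ι hℓN hA2 S₂ r ≠ 0 := by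
  intro h0
  have := (gaussVS K (N * ℓ) O).mem_nonunits_iff.1
    ((redFinL_eq_zero_iff K N ℓ O hℓN ι hA2 S₂ r).1 h0)
  have h' : (gaussVS K (N * ℓ) O).valuation (r : FF K (N * ℓ)) = 1 := h
  rw [h'] at this
  exact lt_irrefl _ this

/-- `muOrd` is additive on the units of the Gauss valuation. -/
theorem muMul_muOrd (s : Place κ (FF κ N)) :
    MuMul (gaussVS K (N * ℓ) O) (muOrd K N ℓ O ι hℓN hA2 S₂ s) := by
  intro x y hx hy
  have hxy : (gaussVS K (N * ℓ) O).valuation (x * y) = 1 := by rw [map_mul, hx, hy, one_mul]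
  rw [muOrd_eq K N ℓ O ι hℓN hA2 S₂ s hxy, muOrd_eq K N ℓ O ι hℓN hA2 S₂ s hx,
    muOrd_eq K N ℓ O ι hℓN hA2 S₂ s hy]
  have e : (⟨x * y, mem_gauss_of_valuation_eq_one K N ℓ O hxy⟩ :
      ↥(gaussSubalgebra K (N * ℓ) O)) =
      ⟨x, mem_gauss_of_valuation_eq_one K N ℓ O hx⟩ *
        ⟨y, mem_gauss_of_valuation_eq_one K N ℓ O hy⟩ := Subtype.ext rfl
  rw [e, map_mul, s.ord_mul
    (Fermat.Agent.S40.W.F4Place.redG_ne_zero K N ℓ O ι hℓN hA2 S₂ hx)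
    (Fermat.Agent.S40.W.F4Place.redG_ne_zero K N ℓ O ι hℓN hA2 S₂ hy)]

/-- `muOrd` is positive on the `V₁`-units of the chart lying in `𝔫`. -/
theorem muOrd_pos (𝔫 : Ideal ↥(Rfin K (N * ℓ) O)) (s : Place κ (FF κ N))
    (hs𝔫 : ∀ r ∈ 𝔫, redFinL K N ℓ O ι hℓN hA2 S₂ r ∈ s.toValuationSubring.nonunits)
    (r : ↥(Rfin K (N * ℓ) O)) (hr : r ∈ 𝔫)
    (h : (gaussVS K (N * ℓ) O).valuation
      (algebraMap ↥(Rfin K (N * ℓ) O) (FF K (N * ℓ)) r) = 1) :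
    0 < muOrd K N ℓ O ι hℓN hA2 S₂ s (algebraMap ↥(Rfin K (N * ℓ) O) (FF K (N * ℓ)) r) := by
  rw [muOrd_algebraMap K N ℓ O ι hℓN hA2 S₂ s r h]
  exact Fermat.Agent.S24.PlaceExtend.ord_pos_of_mem_nonunits s
    (redFinL_ne_zero K N ℓ O ι hℓN hA2 S₂ r h) (hs𝔫 r hr)

include hN hprime hsmooth hϖ in
/-- `muOrd` vanishes on the chart elements outside `𝔫`. -/
theorem muOrd_unit (𝔫 : Ideal ↥(Rfin K (N * ℓ) O)) [h𝔫 : 𝔫.IsMaximal]
    (ht₁ : Through (gaussVS K (N * ℓ) O) 𝔫)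
    (s : Place κ (FF κ N)) (hj : jF κ N ∈ s.toValuationSubring)
    (hs𝔫 : ∀ r ∈ 𝔫, redFinL K N ℓ O ι hℓN hA2 S₂ r ∈ s.toValuationSubring.nonunits)
    (r : ↥(Rfin K (N * ℓ) O)) (hr : r ∉ 𝔫) :
    muOrd K N ℓ O ι hℓN hA2 S₂ s (algebraMap ↥(Rfin K (N * ℓ) O) (FF K (N * ℓ)) r) = 0 := by
  haveI := Fermat.Agent.N4.ModPolySetting.finiteDimensional_FF K (N * ℓ)
  have hjt := Fermat.Agent.N4.FFAlgebraic.transcendental_jF K (N * ℓ)
  haveI : IsFractionRing ↥(Rfin K (N * ℓ) O) (FF K (N * ℓ)) :=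
    Fermat.Agent.N4.Cover.Main.isFractionRing_chartAlg (O := ↥O) (K₀ := K) (jF K (N * ℓ)) hjt
  have hS := BranchNormalLevel.setup_fin K N ℓ O hN ι hℓN hprime hsmooth hA2 S₂ hϖ
  have h := valuation_eq_one_of_notMem hS.mem₁ ht₁ hr
  rw [muOrd_algebraMap K N ℓ O ι hℓN hA2 S₂ s r h]
  have hne := redFinL_ne_zero K N ℓ O ι hℓN hA2 S₂ r h
  have hmem : redFinL K N ℓ O ι hℓN hA2 S₂ r ∈ s.toValuationSubring :=
    Fermat.Agent.S40.W.F4Place.coe_chartAlg_mem_place s hj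
      ⟨_, redFinL_mem K N ℓ O ι hℓN hA2 S₂ r⟩
  refine le_antisymm (not_lt.1 fun hpos => hr ?_)
    ((Fermat.Agent.S24.PlaceExtend.mem_iff_ord_nonneg s hne).1 hmem)
  exact mem_of_redFinL_mem_nonunits K N ℓ O hℓN hN ι hprime hsmooth hA2 S₂ 𝔫 s hj hs𝔫
    (Fermat.Agent.S24.PlaceExtend.mem_nonunits_of_ord_pos s hne hpos)

/-- **The node data at one level** (used at the unramified sublevel): `u v = G ℓ`, `G` a unit at the
closed crossing point `𝔫`, `u` a unit of `V₁` with `V₂ u = V₂ ℓ`, `v` a unit of `V₂` with `V₁ v = V₁ ℓ`,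
no horizontal divisor of `u`, `v` through `𝔫`, and `(u, v)` generate `𝔫` locally. -/
structure BaseNode (𝔫 : Ideal ↥(Rfin K (N * ℓ) O)) (u v G : ↥(Rfin K (N * ℓ) O)) : Prop where
  isMaximal : 𝔫.IsMaximal
  through₁ : Through (gaussVS K (N * ℓ) O) 𝔫
  through₂ : Through S₂.V 𝔫
  mem_u : u ∈ 𝔫
  mem_v : v ∈ 𝔫
  unit_G : G ∉ 𝔫
  mul_eq : u * v = G * ((ℓ : ℕ) : ↥(Rfin K (N * ℓ) O))
  ne_zero_u : (u : FF K (N * ℓ)) ≠ 0
  ne_zero_v : (v : FF K (N * ℓ)) ≠ 0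
  val₁_u : (gaussVS K (N * ℓ) O).valuation (u : FF K (N * ℓ)) = 1
  val₂_v : S₂.V.valuation (v : FF K (N * ℓ)) = 1
  val₁_v : (gaussVS K (N * ℓ) O).valuation (v : FF K (N * ℓ)) =
    (gaussVS K (N * ℓ) O).valuation (((ℓ : ℕ) : FF K (N * ℓ)))
  val₂_u : S₂.V.valuation (u : FF K (N * ℓ)) = S₂.V.valuation (((ℓ : ℕ) : FF K (N * ℓ)))
  hor_u : ∀ Q ∈ centredSet (F := FF K (N * ℓ)) K 𝔫, Q.ord (u : FF K (N * ℓ)) = 0
  hor_v : ∀ Q ∈ centredSet (F := FF K (N * ℓ)) K 𝔫, Q.ord (v : FF K (N * ℓ)) = 0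
  gen : ∀ x ∈ 𝔫, ∃ s a b : ↥(Rfin K (N * ℓ) O), s ∉ 𝔫 ∧ s * x = a * u + b * v

end Mu

/-! ### Two levels: the factorisation at an honest node -/

section TwoLevels

variable (K₀ K : Type) [Field K₀] [CharZero K₀] [Field K] [CharZero K]
  (N : ℕ) [NeZero N] (ℓ : ℕ) [Fact ℓ.Prime]
  (O₀ : Subring K₀) [IsDiscreteValuationRing ↥O₀] [IsFractionRing ↥O₀ K₀]
  [CharP (IsLocalRing.ResidueField ↥O₀) ℓ] [PerfectRing (IsLocalRing.ResidueField ↥O₀) ℓ]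
  (O : Subring K) [IsDiscreteValuationRing ↥O] [IsFractionRing ↥O K]
  [CharP (IsLocalRing.ResidueField ↥O) ℓ] [PerfectRing (IsLocalRing.ResidueField ↥O) ℓ]
  (f : K₀ →+* K) (hOO' : ∀ a ∈ O₀, f a ∈ O)

set_option quotPrecheck false in
local notation "κ" => IsLocalRing.ResidueField ↥O

set_option synthInstance.maxHeartbeats 400000

variable (hℓN : ¬ ℓ ∣ N)
  (hN₀ : IsUnit ((N : ℕ) : ↥O₀)) (ι₀ : K₀ →+* ℂ)
  (hprime₀ : (fibreIdeal K₀ N O₀ (Rfin K₀ N O₀)).IsPrime)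
  (hsmooth₀ : IsDedekindDomain (↥(Rfin K₀ N O₀) ⧸ fibreIdeal K₀ N O₀ (Rfin K₀ N O₀)))
  (hA2₀ : ∀ x : ↥(gaussSubalgebra K₀ N O₀),
    theta K₀ N O₀ x ∈ modularFunctionFieldFullC (IsLocalRing.ResidueField ↥O₀) N)
  (T₂ : FibreTwo.SecondVal K₀ N ℓ O₀)
  {ϖ₀ : ↥O₀} (hϖ₀ : Irreducible ϖ₀)
  (hN : IsUnit ((N : ℕ) : ↥O)) (ι : K →+* ℂ)
  (hprime : (fibreIdeal K N O (Rfin K N O)).IsPrime)
  (hsmooth : IsDedekindDomain (↥(Rfin K N O) ⧸ fibreIdeal K N O (Rfin K N O)))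
  (hA2 : ∀ x : ↥(gaussSubalgebra K N O),
    theta K N O x ∈ modularFunctionFieldFullC (IsLocalRing.ResidueField ↥O) N)
  (S₂ : FibreTwo.SecondVal K N ℓ O)
  {ϖ : ↥O} (hϖ : Irreducible ϖ)

variable {K₀ K N ℓ O₀ O f hOO' T₂ S₂}

include hN hprime hsmooth in
/-- The residue order of the node coordinate `u` is `1`. -/
theorem muOrd_u {𝔫 : Ideal ↥(Rfin K (N * ℓ) O)} [h𝔫 : 𝔫.IsMaximal]
    {u₀ v₀ G₀ : ↥(Rfin K₀ (N * ℓ) O₀)}
    (hn : HonestNode K₀ K N ℓ O₀ O f hOO' S₂ 𝔫 u₀ v₀ G₀)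
    (H : LevelRestrictHyp K₀ K N ℓ O₀ O f hOO' T₂ S₂)
    (s : Place κ (FF κ N)) (hj : jF κ N ∈ s.toValuationSubring)
    (hs𝔫 : ∀ r ∈ 𝔫, redFinL K N ℓ O ι hℓN hA2 S₂ r ∈ s.toValuationSubring.nonunits) :
    muOrd K N ℓ O ι hℓN hA2 S₂ s
      (algebraMap ↥(Rfin K (N * ℓ) O) (FF K (N * ℓ)) (finMap f (N * ℓ) O₀ O hOO' u₀)) = 1 := by
  rw [muOrd_algebraMap K N ℓ O ι hℓN hA2 S₂ s _ hn.val₁_u]
  exact hn.ord_redFinL_eq_one hℓN hN ι hprime hsmooth hA2 H s hj hs𝔫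

set_option maxHeartbeats 1600000 in
include hN hprime hsmooth hϖ in
/-- **(F1) The factorisation at an honest node.**  `f` a unit of `V₁` with `ord_Q f = p · D Q` at the
places centred at `𝔫`, `β` a unit of `V₁` with `ord_Q β = D Q` there: `f = u ^ n · β ^ p · W` with `W` a
unit of `R_𝔫` and `n = ord_s (redG f) − p · ord_s (redG β)`; moreover
`V₂ f = V₂ ℓ ^ n · V₂ β ^ p`. -/
theorem factor {𝔫 : Ideal ↥(Rfin K (N * ℓ) O)} [h𝔫 : 𝔫.IsMaximal]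
    {u₀ v₀ G₀ : ↥(Rfin K₀ (N * ℓ) O₀)}
    (hn : HonestNode K₀ K N ℓ O₀ O f hOO' S₂ 𝔫 u₀ v₀ G₀)
    (H : LevelRestrictHyp K₀ K N ℓ O₀ O f hOO' T₂ S₂)
    (ht₁ : Through (gaussVS K (N * ℓ) O) 𝔫) (ht₂ : Through S₂.V 𝔫)
    (s : Place κ (FF κ N)) (hj : jF κ N ∈ s.toValuationSubring)
    (hs𝔫 : ∀ r ∈ 𝔫, redFinL K N ℓ O ι hℓN hA2 S₂ r ∈ s.toValuationSubring.nonunits)
    {g : FF K (N * ℓ)} (hg0 : g ≠ 0) (hg₁ : (gaussVS K (N * ℓ) O).valuation g = 1)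
    (p : ℕ) (D : Place K (FF K (N * ℓ)) → ℤ)
    (hgD : ∀ Q ∈ centredSet (F := FF K (N * ℓ)) K 𝔫, Q.ord g = p * D Q)
    {β : FF K (N * ℓ)} (hβ0 : β ≠ 0) (hβ₁ : (gaussVS K (N * ℓ) O).valuation β = 1)
    (hβQ : ∀ Q ∈ centredSet (F := FF K (N * ℓ)) K 𝔫, Q.ord β = D Q) :
    ∃ W : FF K (N * ℓ), IsUnitAt 𝔫 W ∧
      g = ((finMap f (N * ℓ) O₀ O hOO' u₀ : ↥(Rfin K (N * ℓ) O)) : FF K (N * ℓ)) ^
          (s.ord (redG K N ℓ O ι hℓN hA2 S₂ ⟨g, mem_gauss_of_valuation_eq_one K N ℓ O hg₁⟩) -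
            p * s.ord (redG K N ℓ O ι hℓN hA2 S₂ ⟨β, mem_gauss_of_valuation_eq_one K N ℓ O hβ₁⟩))
        * β ^ p * W ∧
      S₂.V.valuation g = S₂.V.valuation (((ℓ : ℕ) : FF K (N * ℓ))) ^
          (s.ord (redG K N ℓ O ι hℓN hA2 S₂ ⟨g, mem_gauss_of_valuation_eq_one K N ℓ O hg₁⟩) -
            p * s.ord (redG K N ℓ O ι hℓN hA2 S₂ ⟨β, mem_gauss_of_valuation_eq_one K N ℓ O hβ₁⟩))
        * S₂.V.valuation β ^ p := by
  haveI := Fermat.Agent.N4.ModPolySetting.finiteDimensional_FF K (N * ℓ)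
  have hjt := Fermat.Agent.N4.FFAlgebraic.transcendental_jF K (N * ℓ)
  haveI : IsNoetherianRing ↥(Rfin K (N * ℓ) O) :=
    Fermat.Agent.N4.IntClosure.isNoetherianRing_chartAlg (K := K) (jF K (N * ℓ)) hjt
  haveI : IsFractionRing ↥(Rfin K (N * ℓ) O) (FF K (N * ℓ)) :=
    Fermat.Agent.N4.Cover.Main.isFractionRing_chartAlg (O := ↥O) (K₀ := K) (jF K (N * ℓ)) hjt
  haveI : IsIntegrallyClosed ↥(Rfin K (N * ℓ) O) :=
    Fermat.Agent.N4.Cover.Main.isIntegrallyClosed_chartAlg (O := ↥O) (K₀ := K) (jF K (N * ℓ)) hjt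
  have hS := BranchNormalLevel.setup_fin K N ℓ O hN ι hℓN hprime hsmooth hA2 S₂ hϖ
  obtain ⟨W, hW, hfac, hval⟩ := Fermat.Agent.S40.M1.NodeNormStep.exists_factor_of_beta (K := K)
    (gaussVS K (N * ℓ) O) S₂.V hS.mem₁ hS.mem₂ hϖ (unif_mem_nonunits_of_setup hS).1
    (unif_mem_nonunits_of_setup hS).2 hS.sat 𝔫 (muOrd K N ℓ O ι hℓN hA2 S₂ s) ht₁ ht₂
    (muMul_muOrd K N ℓ O ι hℓN hA2 S₂ s)
    (muOrd_pos K N ℓ O ι hℓN hA2 S₂ 𝔫 s hs𝔫)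
    (muOrd_unit K N ℓ O hN ι hℓN hprime hsmooth hA2 S₂ hϖ 𝔫 ht₁ s hj hs𝔫)
    hn.val₁_u hn.hor_u (muOrd_u hℓN hN ι hprime hsmooth hA2 hn H s hj hs𝔫) hg0 hg₁ p D hgD hβ0
    hβ₁ hβQ
  rw [muOrd_eq K N ℓ O ι hℓN hA2 S₂ s hg₁, muOrd_eq K N ℓ O ι hℓN hA2 S₂ s hβ₁] at hfac hval
  refine ⟨W, hW, hfac, ?_⟩
  rw [hval, hn.val₂_u]

set_option maxHeartbeats 1600000 in
include hN hprime hsmooth hϖ in
/-- **(F1)+(b): the factorisation pushed through two multiplicative maps** (the two level norms):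
`N_α g = h_A ^ p`, `N_β g = h_B ^ p` ⇒ `(h_A / N_α β) ^ p = (N_α u) ^ n · N_α W`, same for `β`. -/
theorem norm_step {F' : Type*} [Field F'] (Nα Nβ : FF K (N * ℓ) →* F')
    {𝔫 : Ideal ↥(Rfin K (N * ℓ) O)} [h𝔫 : 𝔫.IsMaximal]
    {u₀ v₀ G₀ : ↥(Rfin K₀ (N * ℓ) O₀)}
    (hn : HonestNode K₀ K N ℓ O₀ O f hOO' S₂ 𝔫 u₀ v₀ G₀)
    (H : LevelRestrictHyp K₀ K N ℓ O₀ O f hOO' T₂ S₂)
    (ht₁ : Through (gaussVS K (N * ℓ) O) 𝔫) (ht₂ : Through S₂.V 𝔫)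
    (s : Place κ (FF κ N)) (hj : jF κ N ∈ s.toValuationSubring)
    (hs𝔫 : ∀ r ∈ 𝔫, redFinL K N ℓ O ι hℓN hA2 S₂ r ∈ s.toValuationSubring.nonunits)
    {g : FF K (N * ℓ)} (hg0 : g ≠ 0) (hg₁ : (gaussVS K (N * ℓ) O).valuation g = 1)
    (p : ℕ) (D : Place K (FF K (N * ℓ)) → ℤ)
    (hgD : ∀ Q ∈ centredSet (F := FF K (N * ℓ)) K 𝔫, Q.ord g = p * D Q)
    {β : FF K (N * ℓ)} (hβ0 : β ≠ 0) (hβ₁ : (gaussVS K (N * ℓ) O).valuation β = 1)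
    (hβQ : ∀ Q ∈ centredSet (F := FF K (N * ℓ)) K 𝔫, Q.ord β = D Q)
    {hA hB : F'} (hNα : Nα g = hA ^ p) (hNβ : Nβ g = hB ^ p) :
    ∃ W : FF K (N * ℓ), IsUnitAt 𝔫 W ∧
      g = ((finMap f (N * ℓ) O₀ O hOO' u₀ : ↥(Rfin K (N * ℓ) O)) : FF K (N * ℓ)) ^
          (s.ord (redG K N ℓ O ι hℓN hA2 S₂ ⟨g, mem_gauss_of_valuation_eq_one K N ℓ O hg₁⟩) -
            p * s.ord (redG K N ℓ O ι hℓN hA2 S₂ ⟨β, mem_gauss_of_valuation_eq_one K N ℓ O hβ₁⟩))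
        * β ^ p * W ∧
      (hA / Nα β) ^ p =
        Nα ((finMap f (N * ℓ) O₀ O hOO' u₀ : ↥(Rfin K (N * ℓ) O)) : FF K (N * ℓ)) ^
          (s.ord (redG K N ℓ O ι hℓN hA2 S₂ ⟨g, mem_gauss_of_valuation_eq_one K N ℓ O hg₁⟩) -
            p * s.ord (redG K N ℓ O ι hℓN hA2 S₂ ⟨β, mem_gauss_of_valuation_eq_one K N ℓ O hβ₁⟩))
        * Nα W ∧
      (hB / Nβ β) ^ p =
        Nβ ((finMap f (N * ℓ) O₀ O hOO' u₀ : ↥(Rfin K (N * ℓ) O)) : FF K (N * ℓ)) ^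
          (s.ord (redG K N ℓ O ι hℓN hA2 S₂ ⟨g, mem_gauss_of_valuation_eq_one K N ℓ O hg₁⟩) -
            p * s.ord (redG K N ℓ O ι hℓN hA2 S₂ ⟨β, mem_gauss_of_valuation_eq_one K N ℓ O hβ₁⟩))
        * Nβ W := by
  obtain ⟨W, hW, hfac, -⟩ := factor hℓN hN ι hprime hsmooth hA2 hϖ hn H ht₁ ht₂ s hj hs𝔫 hg0 hg₁ p D
    hgD hβ0 hβ₁ hβQ
  have hu0 : ((finMap f (N * ℓ) O₀ O hOO' u₀ : ↥(Rfin K (N * ℓ) O)) : FF K (N * ℓ)) ≠ 0 :=
    ne_zero_of_valuation_eq_one hn.val₁_u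
  exact ⟨W, hW, hfac, Fermat.Agent.S40.M1.NodeNormStep.pow_div_norm_eq Nα hu0 hβ0 hfac hNα,
    Fermat.Agent.S40.M1.NodeNormStep.pow_div_norm_eq Nβ hu0 hβ0 hfac hNβ⟩

set_option maxHeartbeats 1600000 in
include hℓN hN₀ ι₀ hprime₀ hsmooth₀ hA2₀ hϖ₀ in
/-- **(F2) The node data at the small level.**  The coordinates `u₀, v₀, G₀` of an honest node at `𝔫`
are node data at the point `𝔫.comap φ` of the small level: `V₁⁰ u₀ = 1`, `V₂⁰ u₀ = V₂⁰ ℓ`,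
`V₂⁰ v₀ = 1`, `V₁⁰ v₀ = V₁⁰ ℓ`, `G₀ ∉ 𝔫₀`, no horizontal divisor of `u₀`, `v₀` through `𝔫₀`. -/
theorem base {𝔫 : Ideal ↥(Rfin K (N * ℓ) O)} [h𝔫 : 𝔫.IsMaximal]
    {u₀ v₀ G₀ : ↥(Rfin K₀ (N * ℓ) O₀)}
    (hn : HonestNode K₀ K N ℓ O₀ O f hOO' S₂ 𝔫 u₀ v₀ G₀)
    (H : LevelRestrictHyp K₀ K N ℓ O₀ O f hOO' T₂ S₂)
    (ht₁ : Through (gaussVS K (N * ℓ) O) 𝔫) (ht₂ : Through S₂.V 𝔫) :
    BaseNode K₀ N ℓ O₀ T₂ (𝔫.comap (finMap f (N * ℓ) O₀ O hOO')) u₀ v₀ G₀ := by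
  haveI := Fermat.Agent.N4.ModPolySetting.finiteDimensional_FF K₀ (N * ℓ)
  have hjt := Fermat.Agent.N4.FFAlgebraic.transcendental_jF K₀ (N * ℓ)
  haveI : IsFractionRing ↥(Rfin K₀ (N * ℓ) O₀) (FF K₀ (N * ℓ)) :=
    Fermat.Agent.N4.Cover.Main.isFractionRing_chartAlg (O := ↥O₀) (K₀ := K₀) (jF K₀ (N * ℓ)) hjt
  have hS := BranchNormalLevel.setup_fin K₀ N ℓ O₀ hN₀ ι₀ hℓN hprime₀ hsmooth₀ hA2₀ T₂ hϖ₀
  set φ := finMap f (N * ℓ) O₀ O hOO' with hφ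
  have hT₁ := H.through₁ ht₁
  have hT₂ := H.through₂ ht₂
  have hG₀ : G₀ ∉ 𝔫.comap φ := fun h => hn.unit_G (Ideal.mem_comap.1 h)
  have hu1 : (gaussVS K₀ (N * ℓ) O₀).valuation (u₀ : FF K₀ (N * ℓ)) = 1 := by
    refine le_antisymm (((gaussVS K₀ (N * ℓ) O₀).valuation_le_one_iff _).2 (hS.mem₁ u₀)) ?_
    refine not_lt.1 fun hlt => ?_
    have := (H.gauss u₀).2 ((gaussVS K₀ (N * ℓ) O₀).mem_nonunits_iff.2 hlt)
    rw [(gaussVS K (N * ℓ) O).mem_nonunits_iff, hn.val₁_u] at this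
    exact lt_irrefl _ this
  have hv2 : T₂.V.valuation (v₀ : FF K₀ (N * ℓ)) = 1 := by
    refine le_antisymm ((T₂.V.valuation_le_one_iff _).2 (hS.mem₂ v₀)) ?_
    refine not_lt.1 fun hlt => ?_
    have := (H.second v₀).2 (T₂.V.mem_nonunits_iff.2 hlt)
    rw [S₂.V.mem_nonunits_iff, hn.val₂_v] at this
    exact lt_irrefl _ this
  have hGv₁ := valuation_eq_one_of_notMem hS.mem₁ hT₁ hG₀
  have hGv₂ := valuation_eq_one_of_notMem hS.mem₂ hT₂ hG₀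
  have hprodF : (u₀ : FF K₀ (N * ℓ)) * (v₀ : FF K₀ (N * ℓ)) =
      (G₀ : FF K₀ (N * ℓ)) * ((ℓ : ℕ) : FF K₀ (N * ℓ)) := by
    have h2 := congrArg (algebraMap ↥(Rfin K₀ (N * ℓ) O₀) (FF K₀ (N * ℓ))) hn.mul_eq
    rw [map_mul, map_mul, map_natCast] at h2
    exact h2
  have hv1 : (gaussVS K₀ (N * ℓ) O₀).valuation (v₀ : FF K₀ (N * ℓ)) =
      (gaussVS K₀ (N * ℓ) O₀).valuation (((ℓ : ℕ) : FF K₀ (N * ℓ))) := by
    have := congrArg (gaussVS K₀ (N * ℓ) O₀).valuation hprodF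
    rw [map_mul, map_mul, hu1, one_mul] at this
    rw [this]
    have h2 : (gaussVS K₀ (N * ℓ) O₀).valuation (G₀ : FF K₀ (N * ℓ)) = 1 := hGv₁
    rw [h2, one_mul]
  have hu2 : T₂.V.valuation (u₀ : FF K₀ (N * ℓ)) =
      T₂.V.valuation (((ℓ : ℕ) : FF K₀ (N * ℓ))) := by
    have := congrArg T₂.V.valuation hprodF
    rw [map_mul, map_mul, hv2, mul_one] at this
    rw [this]
    have h2 : T₂.V.valuation (G₀ : FF K₀ (N * ℓ)) = 1 := hGv₂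
    rw [h2, one_mul]
  have hu0 : (u₀ : FF K₀ (N * ℓ)) ≠ 0 := by
    intro h0; rw [h0, map_zero] at hu1; exact zero_ne_one hu1
  have hv0 : (v₀ : FF K₀ (N * ℓ)) ≠ 0 := by
    intro h0; rw [h0, map_zero] at hv2; exact zero_ne_one hv2
  have hhor : ∀ Q ∈ centredSet (F := FF K₀ (N * ℓ)) K₀ (𝔫.comap φ),
      Q.ord (u₀ : FF K₀ (N * ℓ)) = 0 ∧ Q.ord (v₀ : FF K₀ (N * ℓ)) = 0 := by
    intro Q hQ
    have hℓ0 : ((ℓ : ℕ) : K₀) ≠ 0 := Nat.cast_ne_zero.2 (Fact.out : ℓ.Prime).ne_zero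
    have hℓF : Q.ord (((ℓ : ℕ) : FF K₀ (N * ℓ))) = 0 := by
      have := Fermat.Agent.G.LocDataPlace.ord_algebraMap_eq_zero Q hℓ0
      rwa [map_natCast] at this
    have hℓF0 : (((ℓ : ℕ) : FF K₀ (N * ℓ))) ≠ 0 :=
      Nat.cast_ne_zero.2 (Fact.out : ℓ.Prime).ne_zero
    have hG0 : (G₀ : FF K₀ (N * ℓ)) ≠ 0 := by
      intro h0
      have h2 : T₂.V.valuation (G₀ : FF K₀ (N * ℓ)) = 1 := hGv₂
      rw [h0, map_zero] at h2; exact zero_ne_one h2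
    have hnn : ∀ r : ↥(Rfin K₀ (N * ℓ) O₀), (r : FF K₀ (N * ℓ)) ≠ 0 →
        0 ≤ Q.ord (r : FF K₀ (N * ℓ)) :=
      fun r hr => (Fermat.Agent.S24.PlaceExtend.mem_iff_ord_nonneg Q hr).1 (hQ.1 r)
    have hGord : Q.ord (G₀ : FF K₀ (N * ℓ)) = 0 := by
      refine le_antisymm (not_lt.1 fun hpos => hG₀ ?_) (hnn _ hG0)
      exact hQ.2 _ (Fermat.Agent.S24.PlaceExtend.mem_nonunits_of_ord_pos Q hG0 hpos)
    have hsum := congrArg Q.ord hprodF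
    rw [Q.ord_mul hu0 hv0, Q.ord_mul hG0 hℓF0, hGord, hℓF, add_zero] at hsum
    have h1 := hnn _ hu0
    have h2 := hnn _ hv0
    constructor <;> omega
  exact ⟨H.isMaximal_comap ht₁, hT₁, hT₂, Ideal.mem_comap.2 hn.mem_u, Ideal.mem_comap.2 hn.mem_v,
    hG₀, hn.mul_eq, hu0, hv0, hu1, hv2, hv1, hu2, fun Q hQ => (hhor Q hQ).1,
    fun Q hQ => (hhor Q hQ).2, hn.gen₀⟩

end TwoLevels

/-! ### Levels `K₀ ≤ K` of `Q̄`: `K₀` unramified, `K` good -/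

section Levels

open Fermat.Agent.N4.S18Glue Fermat.Agent.N4.BigDVR
  Fermat.Agent.P3G.Assembly.StepOfLevel Fermat.Agent.P3G.Assembly.LevelStep
  Fermat.Agent.N4F.C Fermat.Agent.N4F.C.Levels Fermat.Agent.N4F.C.Galois
  Fermat.Agent.S33.L.Contracts Fermat.Agent.N4F.C.ChartFibre
  Fermat.Agent.S36.Descent.UnramLevel Fermat.Agent.P3G.Gamma

local notation "Qbar" => AlgebraicClosure ℚ

variable (N p : ℕ) [NeZero N] [Fact p.Prime] (hpN : ¬ p ∣ N)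
  (A : ValuationSubring Qbar) (hA : A.LiesOverPrime p)
  {K₀ K : IntermediateField ℚ Qbar} (hKL : K₀ ≤ K)
  (hK₀ : IsUnramLevel A p K₀) (hK : IsGoodLevel A p K)
  [IsDiscreteValuationRing ↥(baseRing A K₀)] [IsDiscreteValuationRing ↥(baseRing A K)]
  [CharP (IsLocalRing.ResidueField ↥(baseRing A K₀)) p]
  [PerfectRing (IsLocalRing.ResidueField ↥(baseRing A K₀)) p]
  [CharP (IsLocalRing.ResidueField ↥(baseRing A K)) p]
  [PerfectRing (IsLocalRing.ResidueField ↥(baseRing A K)) p]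
  (hA2₀ : ∀ x : ↥(gaussSubalgebra (Lvl K₀) N (baseRing A K₀)),
    theta (Lvl K₀) N (baseRing A K₀) x ∈
      modularFunctionFieldFullC (IsLocalRing.ResidueField ↥(baseRing A K₀)) N)
  (hA2 : ∀ x : ↥(gaussSubalgebra (Lvl K) N (baseRing A K)),
    theta (Lvl K) N (baseRing A K) x ∈
      modularFunctionFieldFullC (IsLocalRing.ResidueField ↥(baseRing A K)) N)
  (T₂ : Fermat.Agent.P3G.FibreTwo.SecondVal (Lvl K₀) N p (baseRing A K₀))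
  (S₂ : Fermat.Agent.P3G.FibreTwo.SecondVal (Lvl K) N p (baseRing A K))

set_option maxHeartbeats 1600000 in
set_option synthInstance.maxHeartbeats 400000 in
include hpN hA hK₀ hK hA2₀ in
/-- **(F1) at levels: the factorisation at a crossing point of a good level.**  `g` a unit of the Gauss
valuation with `ord_Q g = e · D Q` at the places centred at `𝔫`, `β` a unit of the Gauss valuation with
`ord_Q β = D Q` there: `g = u ^ n · β ^ e · W`, `W` a unit of `R_𝔫`,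
`n = ord_s (redG g) − e · ord_s (redG β)`, and `V₂ g = V₂ p ^ n · V₂ β ^ e`. -/
theorem factor_levels {ϖ : ↥(baseRing A K)} (hϖ : Irreducible ϖ)
    {𝔫 : Ideal ↥(Rfin (Lvl K) (N * p) (baseRing A K))} [h𝔫 : 𝔫.IsMaximal]
    {u₀ v₀ G₀ : ↥(Rfin (Lvl K₀) (N * p) (baseRing A K₀))}
    (hn : HonestNode (Lvl K₀) (Lvl K) N p (baseRing A K₀) (baseRing A K) (lvlIncl hKL)
      (lvlIncl_mem A hKL) S₂ 𝔫 u₀ v₀ G₀)
    (ht₁ : Through (gaussVS (Lvl K) (N * p) (baseRing A K)) 𝔫) (ht₂ : Through S₂.V 𝔫)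
    (s : Place (IsLocalRing.ResidueField ↥(baseRing A K))
      (FF (IsLocalRing.ResidueField ↥(baseRing A K)) N))
    (hj : jF (IsLocalRing.ResidueField ↥(baseRing A K)) N ∈ s.toValuationSubring)
    (hs𝔫 : ∀ r ∈ 𝔫, redFinL (Lvl K) N p (baseRing A K)
      (Fermat.Agent.P3G.GammaV2.lvlToComplex K) hpN hA2 S₂ r ∈ s.toValuationSubring.nonunits)
    {g : FF (Lvl K) (N * p)} (hg0 : g ≠ 0)
    (hg₁ : (gaussVS (Lvl K) (N * p) (baseRing A K)).valuation g = 1)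
    (e : ℕ) (D : Place (Lvl K) (FF (Lvl K) (N * p)) → ℤ)
    (hgD : ∀ Q ∈ centredSet (F := FF (Lvl K) (N * p)) (Lvl K) 𝔫, Q.ord g = e * D Q)
    {β : FF (Lvl K) (N * p)} (hβ0 : β ≠ 0)
    (hβ₁ : (gaussVS (Lvl K) (N * p) (baseRing A K)).valuation β = 1)
    (hβQ : ∀ Q ∈ centredSet (F := FF (Lvl K) (N * p)) (Lvl K) 𝔫, Q.ord β = D Q) :
    ∃ W : FF (Lvl K) (N * p), IsUnitAt 𝔫 W ∧
      g = ((finIncl A (N * p) hKL u₀ : ↥(Rfin (Lvl K) (N * p) (baseRing A K))) :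
          FF (Lvl K) (N * p)) ^
        (s.ord (redG (Lvl K) N p (baseRing A K) (Fermat.Agent.P3G.GammaV2.lvlToComplex K) hpN hA2
            S₂ ⟨g, mem_gauss_of_valuation_eq_one (Lvl K) N p (baseRing A K) hg₁⟩) -
          e * s.ord (redG (Lvl K) N p (baseRing A K) (Fermat.Agent.P3G.GammaV2.lvlToComplex K) hpN
            hA2 S₂ ⟨β, mem_gauss_of_valuation_eq_one (Lvl K) N p (baseRing A K) hβ₁⟩))
        * β ^ e * W ∧
      S₂.V.valuation g = S₂.V.valuation (((p : ℕ) : FF (Lvl K) (N * p))) ^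
        (s.ord (redG (Lvl K) N p (baseRing A K) (Fermat.Agent.P3G.GammaV2.lvlToComplex K) hpN hA2
            S₂ ⟨g, mem_gauss_of_valuation_eq_one (Lvl K) N p (baseRing A K) hg₁⟩) -
          e * s.ord (redG (Lvl K) N p (baseRing A K) (Fermat.Agent.P3G.GammaV2.lvlToComplex K) hpN
            hA2 S₂ ⟨β, mem_gauss_of_valuation_eq_one (Lvl K) N p (baseRing A K) hβ₁⟩))
        * S₂.V.valuation β ^ e := by
  obtain ⟨-, hprime₀, -, -, -, -, -⟩ := levelFacts_unram N p hpN A hA K₀ hK₀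
  obtain ⟨hN, hprime, hsm, -, -, -⟩ := Fermat.Agent.S40.W.F4Good.levelFacts_good N p hpN A hA K hK
  obtain ⟨T₂⟩ := Fermat.Agent.P3G.FibreTwo.nonempty_secondVal (Lvl K₀) N p (baseRing A K₀)
    (Fermat.Agent.P3G.GammaV2.lvlToComplex K₀) hpN hprime₀ hA2₀
  have H := levelRestrictHyp_levels N p hpN A hA hKL hK₀ hK hA2₀ hA2 T₂ S₂
  exact factor hpN hN (Fermat.Agent.P3G.GammaV2.lvlToComplex K) hprime hsm hA2 hϖ hn H ht₁ ht₂ s hj
    hs𝔫 hg0 hg₁ e D hgD hβ0 hβ₁ hβQ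

set_option maxHeartbeats 1600000 in
set_option synthInstance.maxHeartbeats 400000 in
include hpN hA hK₀ hK hA2₀ in
/-- **(F1)+(b) at levels: the norm step at a crossing point of a good level** — exactly the
`hstepA hstepB` (with `hn : n = m − e k`, `m = ord_s (redG g)`, `k = ord_s (redG β)`) of
`NodeInv.exists_y_of_node`; `Nα Nβ` any two multiplicative maps (`normAlphaK K N p`,
`normBetaK K N p`). -/
theorem norm_step_levels {F' : Type*} [Field F'] (Nα Nβ : FF (Lvl K) (N * p) →* F')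
    {ϖ : ↥(baseRing A K)} (hϖ : Irreducible ϖ)
    {𝔫 : Ideal ↥(Rfin (Lvl K) (N * p) (baseRing A K))} [h𝔫 : 𝔫.IsMaximal]
    {u₀ v₀ G₀ : ↥(Rfin (Lvl K₀) (N * p) (baseRing A K₀))}
    (hn : HonestNode (Lvl K₀) (Lvl K) N p (baseRing A K₀) (baseRing A K) (lvlIncl hKL)
      (lvlIncl_mem A hKL) S₂ 𝔫 u₀ v₀ G₀)
    (ht₁ : Through (gaussVS (Lvl K) (N * p) (baseRing A K)) 𝔫) (ht₂ : Through S₂.V 𝔫)
    (s : Place (IsLocalRing.ResidueField ↥(baseRing A K))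
      (FF (IsLocalRing.ResidueField ↥(baseRing A K)) N))
    (hj : jF (IsLocalRing.ResidueField ↥(baseRing A K)) N ∈ s.toValuationSubring)
    (hs𝔫 : ∀ r ∈ 𝔫, redFinL (Lvl K) N p (baseRing A K)
      (Fermat.Agent.P3G.GammaV2.lvlToComplex K) hpN hA2 S₂ r ∈ s.toValuationSubring.nonunits)
    {g : FF (Lvl K) (N * p)} (hg0 : g ≠ 0)
    (hg₁ : (gaussVS (Lvl K) (N * p) (baseRing A K)).valuation g = 1)
    (e : ℕ) (D : Place (Lvl K) (FF (Lvl K) (N * p)) → ℤ)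
    (hgD : ∀ Q ∈ centredSet (F := FF (Lvl K) (N * p)) (Lvl K) 𝔫, Q.ord g = e * D Q)
    {β : FF (Lvl K) (N * p)} (hβ0 : β ≠ 0)
    (hβ₁ : (gaussVS (Lvl K) (N * p) (baseRing A K)).valuation β = 1)
    (hβQ : ∀ Q ∈ centredSet (F := FF (Lvl K) (N * p)) (Lvl K) 𝔫, Q.ord β = D Q)
    {hA' hB' : F'} (hNα : Nα g = hA' ^ e) (hNβ : Nβ g = hB' ^ e) :
    ∃ W : FF (Lvl K) (N * p), IsUnitAt 𝔫 W ∧
      g = ((finIncl A (N * p) hKL u₀ : ↥(Rfin (Lvl K) (N * p) (baseRing A K))) :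
          FF (Lvl K) (N * p)) ^
        (s.ord (redG (Lvl K) N p (baseRing A K) (Fermat.Agent.P3G.GammaV2.lvlToComplex K) hpN hA2
            S₂ ⟨g, mem_gauss_of_valuation_eq_one (Lvl K) N p (baseRing A K) hg₁⟩) -
          e * s.ord (redG (Lvl K) N p (baseRing A K) (Fermat.Agent.P3G.GammaV2.lvlToComplex K) hpN
            hA2 S₂ ⟨β, mem_gauss_of_valuation_eq_one (Lvl K) N p (baseRing A K) hβ₁⟩))
        * β ^ e * W ∧
      (hA' / Nα β) ^ e =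
        Nα ((finIncl A (N * p) hKL u₀ : ↥(Rfin (Lvl K) (N * p) (baseRing A K))) :
          FF (Lvl K) (N * p)) ^
        (s.ord (redG (Lvl K) N p (baseRing A K) (Fermat.Agent.P3G.GammaV2.lvlToComplex K) hpN hA2
            S₂ ⟨g, mem_gauss_of_valuation_eq_one (Lvl K) N p (baseRing A K) hg₁⟩) -
          e * s.ord (redG (Lvl K) N p (baseRing A K) (Fermat.Agent.P3G.GammaV2.lvlToComplex K) hpN
            hA2 S₂ ⟨β, mem_gauss_of_valuation_eq_one (Lvl K) N p (baseRing A K) hβ₁⟩))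
        * Nα W ∧
      (hB' / Nβ β) ^ e =
        Nβ ((finIncl A (N * p) hKL u₀ : ↥(Rfin (Lvl K) (N * p) (baseRing A K))) :
          FF (Lvl K) (N * p)) ^
        (s.ord (redG (Lvl K) N p (baseRing A K) (Fermat.Agent.P3G.GammaV2.lvlToComplex K) hpN hA2
            S₂ ⟨g, mem_gauss_of_valuation_eq_one (Lvl K) N p (baseRing A K) hg₁⟩) -
          e * s.ord (redG (Lvl K) N p (baseRing A K) (Fermat.Agent.P3G.GammaV2.lvlToComplex K) hpN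
            hA2 S₂ ⟨β, mem_gauss_of_valuation_eq_one (Lvl K) N p (baseRing A K) hβ₁⟩))
        * Nβ W := by
  obtain ⟨-, hprime₀, -, -, -, -, -⟩ := levelFacts_unram N p hpN A hA K₀ hK₀
  obtain ⟨hN, hprime, hsm, -, -, -⟩ := Fermat.Agent.S40.W.F4Good.levelFacts_good N p hpN A hA K hK
  obtain ⟨T₂⟩ := Fermat.Agent.P3G.FibreTwo.nonempty_secondVal (Lvl K₀) N p (baseRing A K₀)
    (Fermat.Agent.P3G.GammaV2.lvlToComplex K₀) hpN hprime₀ hA2₀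
  have H := levelRestrictHyp_levels N p hpN A hA hKL hK₀ hK hA2₀ hA2 T₂ S₂
  exact norm_step hpN hN (Fermat.Agent.P3G.GammaV2.lvlToComplex K) hprime hsm hA2 hϖ Nα Nβ hn H ht₁
    ht₂ s hj hs𝔫 hg0 hg₁ e D hgD hβ0 hβ₁ hβQ hNα hNβ

set_option maxHeartbeats 1600000 in
set_option synthInstance.maxHeartbeats 400000 in
include hpN hA hK₀ hK hA2₀ hA2 in
/-- **(F2) at levels: the node data at the unramified sublevel**, at the point
`𝔫.comap (finIncl A (N p) hKL)` below a crossing point `𝔫` of the good level (for ANY second valuation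
`T₂` of the small level). -/
theorem base_levels
    {𝔫 : Ideal ↥(Rfin (Lvl K) (N * p) (baseRing A K))} [h𝔫 : 𝔫.IsMaximal]
    {u₀ v₀ G₀ : ↥(Rfin (Lvl K₀) (N * p) (baseRing A K₀))}
    (hn : HonestNode (Lvl K₀) (Lvl K) N p (baseRing A K₀) (baseRing A K) (lvlIncl hKL)
      (lvlIncl_mem A hKL) S₂ 𝔫 u₀ v₀ G₀)
    (ht₁ : Through (gaussVS (Lvl K) (N * p) (baseRing A K)) 𝔫) (ht₂ : Through S₂.V 𝔫) :
    BaseNode (Lvl K₀) N p (baseRing A K₀) T₂ (𝔫.comap (finIncl A (N * p) hKL)) u₀ v₀ G₀ := by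
  obtain ⟨hN₀, hprime₀, hsm₀, -, -, -, -⟩ := levelFacts_unram N p hpN A hA K₀ hK₀
  have H := levelRestrictHyp_levels N p hpN A hA hKL hK₀ hK hA2₀ hA2 T₂ S₂
  exact base hpN hN₀ (Fermat.Agent.P3G.GammaV2.lvlToComplex K₀) hprime₀ hsm₀ hA2₀ hK₀.irred hn H
    ht₁ ht₂

end Levels

end Fermat.Agent.S40.M1.NodeFactorLevel
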