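/-
S40/S44 (row 38, `moonshots` row 67), leaf PLACE-TRANSPORT (helper20): **the approximate-root
statement (R5) at `padicPlace p` transported to an ARBITRARY place `A ∣ p` of `ℚ̄`.**

`Pack.T6Out` is required for every place `A` over `p`, and (R4) produces its element `y` together
with invariance under (part of) the inertia group of `A` and an `A`-adic approximation
`y ^ p / p ^ n ∈ 1 + c A`.  The local statement (R5) (`PeuApprox` + its global pack) lives at
`padicPlace p` with the norm of `padicEmbedding p`.  All places over `p` are conjugate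
(`S56/Places/Dict.exists_smul_padicPlace_eq`), inertia groups are conjugate, and the conditions
"fixes `ζ_p`", "fixes a Galois-stable `V` pointwise" are conjugation invariant; so (R5) at
`padicPlace p` implies (R5) at `A`.

* `mem_padicPlace_div_iff` : `z / c ∈ padicPlace p ↔ ‖ι z‖ ≤ ‖c‖` (`c ∈ ℚ^×`);
* ★ `dvd_of_approx_at` : the transport, abstract in a conjugation-invariant predicate `Fix` on `Γ`;
* `fixZetaV`, `fixZetaV_conj`, `fixV`, `fixV_conj` : the two predicates of record;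
* ★ `dvd_of_approx_at_zetaV`, `dvd_of_approx_at_V` : the instances.
-/
import Mathlib
import Fermat.Agent.S56.Places.Dict
import Fermat.Agent.S40.Top.Eigen

set_option autoImplicit false
set_option linter.unusedSectionVars false
set_option linter.unusedVariables false
set_option linter.style.haveILetI false

open scoped Pointwise

noncomputable section

namespace Fermat.Agent.S40.M1.PlaceTransport

open Fermat.Agent.S55.InertiaConj Fermat.Agent.S56.Places.Dict Fermat.Agent.N4F.Res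
  Fermat.Agent.S40.Top.Eigen

local notation "Qbar" => AlgebraicClosure ℚ
local notation "Γ" => (AlgebraicClosure ℚ ≃ₐ[ℚ] AlgebraicClosure ℚ)

variable {p : ℕ} [Fact p.Prime]

local notation "Ω" => PadicAlgCl p

/-! ### The norm form of membership in `c • padicPlace p` -/

/-- `z / c ∈ padicPlace p` iff `‖ι z‖ ≤ ‖c‖`, for a nonzero rational `c`. -/
theorem mem_padicPlace_div_iff {c : ℚ} (hc : c ≠ 0) (z : Qbar) :
    z / (c : Qbar) ∈ padicPlace p ↔ ‖padicEmbedding p z‖ ≤ ‖(c : Ω)‖ := by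
  have hc' : ‖(c : Ω)‖ ≠ 0 := by
    rw [Ne, norm_eq_zero]
    exact_mod_cast hc
  have hpos : 0 < ‖(c : Ω)‖ := lt_of_le_of_ne (norm_nonneg _) (Ne.symm hc')
  rw [mem_padicPlace_iff, ← NNReal.coe_le_coe, coe_nnnorm, NNReal.coe_one, map_div₀,
    map_ratCast, norm_div, div_le_one hpos]

/-! ### The transport -/

/-- ★ **(R5) at an arbitrary place over `p` from (R5) at `padicPlace p`.**  `Fix` is a
conjugation-invariant predicate on `Γ` ("fixes `ζ_p` and `V` pointwise"); `c ∈ ℚ^×` the precision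
(`c = p` in the application). -/
theorem dvd_of_approx_at (Fix : Γ → Prop) (hFix : ∀ g σ : Γ, Fix σ → Fix (g * σ * g⁻¹))
    {c : ℚ} (hc : c ≠ 0)
    (hR5 : ∀ y : Qbar, y ≠ 0 → ∀ n : ℤ,
      (∀ σ ∈ (padicPlace p).inertiaSubgroupIn ℚ, Fix σ → σ y = y) →
      ‖padicEmbedding p (y ^ p / (p : Qbar) ^ n - 1)‖ ≤ ‖(c : Ω)‖ → (p : ℤ) ∣ n)
    (A : ValuationSubring Qbar) (hA : A.LiesOverPrime p)
    {y : Qbar} (hy : y ≠ 0) (n : ℤ)
    (hinv : ∀ σ ∈ A.inertiaSubgroupIn ℚ, Fix σ → σ y = y)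
    (happ : (y ^ p / (p : Qbar) ^ n - 1) / (c : Qbar) ∈ A) : (p : ℤ) ∣ n := by
  obtain ⟨g, rfl⟩ := exists_smul_padicPlace_eq p hA
  -- the conjugate element
  have hy' : g.symm y ≠ 0 := (map_ne_zero _).mpr hy
  refine hR5 (g.symm y) hy' n ?_ ?_
  · intro σ hσ hσF
    have h1 := conj_mem_inertiaSubgroupIn (padicPlace p) g σ hσ
    have h2 := hinv _ h1 (hFix g σ hσF)
    have h3 : (g * σ * g⁻¹) y = g (σ (g.symm y)) := rfl
    rw [h3] at h2
    have h4 := congrArg g.symm h2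
    rwa [AlgEquiv.symm_apply_apply] at h4
  · rw [← mem_padicPlace_div_iff hc]
    have h1 := (mem_smul_iff (padicPlace p) g _).mp happ
    have h2 : g.symm ((y ^ p / (p : Qbar) ^ n - 1) / (c : Qbar)) =
        ((g.symm y) ^ p / (p : Qbar) ^ n - 1) / (c : Qbar) := by
      rw [map_div₀, map_sub, map_div₀, map_pow, map_zpow₀, map_natCast, map_one, map_ratCast]
    rwa [h2] at h1

/-! ### The predicates of record -/

section Predicates

variable {L : ℕ} [NeZero L]

/-- "`σ` fixes `ζ` and `V` pointwise". -/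
def fixZetaV (ζ : Qbar) (V : Submodule (ZMod p) (Jtors L p)) (σ : Γ) : Prop :=
  σ ζ = ζ ∧ ∀ x ∈ V, galTors L p σ x = x

/-- "`σ` fixes `V` pointwise". -/
def fixV (V : Submodule (ZMod p) (Jtors L p)) (σ : Γ) : Prop :=
  ∀ x ∈ V, galTors L p σ x = x

theorem galTors_inv_apply (g : Γ) (x : Jtors L p) :
    galTors L p g (galTors L p g⁻¹ x) = x := by
  rw [← Module.End.mul_apply, ← map_mul, mul_inv_cancel, map_one, Module.End.one_apply]

theorem fixV_conj {V : Submodule (ZMod p) (Jtors L p)} (hV : IsGalStable V) (g σ : Γ)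
    (h : fixV V σ) : fixV V (g * σ * g⁻¹) := by
  intro x hx
  rw [map_mul, map_mul, Module.End.mul_apply, Module.End.mul_apply, h _ (hV g⁻¹ x hx),
    galTors_inv_apply]

/-- A conjugate of a primitive `p`-th root of unity is a power of it. -/
theorem exists_pow_eq_apply {ζ : Qbar} (hζ : IsPrimitiveRoot ζ p) (g : Γ) :
    ∃ k : ℕ, g ζ = ζ ^ k := by
  have hp : 0 < p := (Fact.out : p.Prime).pos
  haveI : NeZero p := ⟨hp.ne'⟩
  have h1 : (g ζ) ^ p = 1 := by rw [← map_pow, hζ.pow_eq_one, map_one]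
  obtain ⟨k, -, hk⟩ := hζ.eq_pow_of_pow_eq_one h1
  exact ⟨k, hk.symm⟩

theorem fixZetaV_conj {ζ : Qbar} (hζ : IsPrimitiveRoot ζ p)
    {V : Submodule (ZMod p) (Jtors L p)} (hV : IsGalStable V) (g σ : Γ)
    (h : fixZetaV ζ V σ) : fixZetaV ζ V (g * σ * g⁻¹) := by
  refine ⟨?_, fixV_conj hV g σ h.2⟩
  obtain ⟨k, hk⟩ := exists_pow_eq_apply hζ g⁻¹
  have h1 : (g * σ * g⁻¹) ζ = g (σ (g⁻¹ ζ)) := rfl
  rw [h1, hk, map_pow, h.1, ← hk]
  exact g.apply_symm_apply ζ

end Predicates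

/-! ### The instances -/

section Instances

variable {L : ℕ} [NeZero L]

/-- ★ **Transport, invariance under the inertia elements fixing `ζ_p` and `V`.** -/
theorem dvd_of_approx_at_zetaV {ζ : Qbar} (hζ : IsPrimitiveRoot ζ p)
    {V : Submodule (ZMod p) (Jtors L p)} (hV : IsGalStable V) {c : ℚ} (hc : c ≠ 0)
    (hR5 : ∀ y : Qbar, y ≠ 0 → ∀ n : ℤ,
      (∀ σ ∈ (padicPlace p).inertiaSubgroupIn ℚ, σ ζ = ζ → (∀ x ∈ V, galTors L p σ x = x) →
        σ y = y) →
      ‖padicEmbedding p (y ^ p / (p : Qbar) ^ n - 1)‖ ≤ ‖(c : Ω)‖ → (p : ℤ) ∣ n)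
    (A : ValuationSubring Qbar) (hA : A.LiesOverPrime p)
    {y : Qbar} (hy : y ≠ 0) (n : ℤ)
    (hinv : ∀ σ ∈ A.inertiaSubgroupIn ℚ, σ ζ = ζ → (∀ x ∈ V, galTors L p σ x = x) → σ y = y)
    (happ : (y ^ p / (p : Qbar) ^ n - 1) / (c : Qbar) ∈ A) : (p : ℤ) ∣ n :=
  dvd_of_approx_at (fixZetaV ζ V) (fixZetaV_conj hζ hV) hc
    (fun y hy n h => hR5 y hy n fun σ hσ h1 h2 => h σ hσ ⟨h1, h2⟩) A hA hy n
    (fun σ hσ h => hinv σ hσ h.1 h.2) happ

/-- ★ **Transport, invariance under the inertia elements fixing `V`.** -/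
theorem dvd_of_approx_at_V
    {V : Submodule (ZMod p) (Jtors L p)} (hV : IsGalStable V) {c : ℚ} (hc : c ≠ 0)
    (hR5 : ∀ y : Qbar, y ≠ 0 → ∀ n : ℤ,
      (∀ σ ∈ (padicPlace p).inertiaSubgroupIn ℚ, (∀ x ∈ V, galTors L p σ x = x) → σ y = y) →
      ‖padicEmbedding p (y ^ p / (p : Qbar) ^ n - 1)‖ ≤ ‖(c : Ω)‖ → (p : ℤ) ∣ n)
    (A : ValuationSubring Qbar) (hA : A.LiesOverPrime p)
    {y : Qbar} (hy : y ≠ 0) (n : ℤ)
    (hinv : ∀ σ ∈ A.inertiaSubgroupIn ℚ, (∀ x ∈ V, galTors L p σ x = x) → σ y = y)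
    (happ : (y ^ p / (p : Qbar) ^ n - 1) / (c : Qbar) ∈ A) : (p : ℤ) ∣ n :=
  dvd_of_approx_at (fixV V) (fixV_conj hV) hc hR5 A hA hy n hinv happ

end Instances

end Fermat.Agent.S40.M1.PlaceTransport
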