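/-
S40/S44 (row 38, `moonshots` row 67), leaf (n6′)-GLUE (helper20): **`m^∞_s(f) = 0` at the
supersingular places**, i.e. the conjunct of `Norm` consumed by T5′
(`W/F4Place.isLocPthPowerOn_acInfF`, hypothesis `hss`), from the three leaf outputs

* (R4) the static node identity: at every supersingular place `s` there are `n ≡ − m^∞_s(f) (mod p)`
  and a witness of `E n` (in the application: `y ∈ ℚ̄ˣ`, fixed by the inertia elements fixing
  `ζ_p` and `V`, with `y ^ p / p ^ n ∈ 1 + p A`);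
* (R5) approximate (PEU): `E n → p ∣ n`;
* (AUX) the auxiliary level `N = lcm(4, M)`: over every supersingular place `s` of level `M` there is
  a supersingular place `s̃` of level `N` with `m^∞_{s̃}(f̃) = e · m^∞_s(f)`, `e ≠ 0` in `𝔽_p`.

Everything is stated in `ZMod p`, so the glue itself is arithmetic; the point of the file is to fix
the three interfaces.

Generic level `(K, O)` (binder block of `W/F4Place`):
* `SSVanishes` : the `hss` shape; `R4Out E` : the (R4) output, abstract in `E : ℤ → Prop`;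
* ★ `ssVanishes_of_r4Out` : (R4) + (R5) ⇒ `SSVanishes`;
* `AuxRel` : the (AUX) relation between two modular levels over the same `(K, O)`;
* ★ `ssVanishes_of_auxRel` : `SSVanishes` descends from the auxiliary level;
* ★ `ssVanishes_of_r4Out_aux` : the composition.

At a place `A` of `ℚ̄`:
* `ApproxRoot A Fix n` : `∃ y ≠ 0` fixed by the `σ ∈ I_A` with `Fix σ`, `(y ^ p / p ^ n − 1) / p ∈ A`;
* `dvd_of_approxRoot_padic` : (R5) for `ApproxRoot (padicPlace p) Fix` from the norm form of the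
  global pack (`padicEmbedding`), via `PlaceTransport.mem_padicPlace_div_iff`;
* `dvd_of_approxRoot_at` : (R5) at any place over `p` (`PlaceTransport.dvd_of_approx_at`).
-/
import Mathlib
import Fermat.Agent.S40.W.F4Node
import Fermat.Agent.S40.M1.PlaceTransport

set_option autoImplicit false
set_option linter.unusedSectionVars false
set_option linter.unusedVariables false
set_option linter.style.haveILetI false

open AlgebraicCurve
open Fermat.Agent.S24 Fermat.Agent.S40.W.F4Place Fermat.Agent.S40.W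

noncomputable section

namespace Fermat.Agent.S40.M1.SSVanish

/-! ### The generic level -/

section Level

open ModularCurve Fermat.Agent.S28.Gauss Fermat.Agent.N4.Setting Fermat.Agent.N4.FibreEmbedding
open Fermat.Agent.N4.Chart
open Fermat.Agent.N4F.E.DegreeLevelRaise Fermat.Agent.N4F.E.GaussDVR
open Fermat.Agent.N4F.E IsLocalRing Fermat.Agent.P3G Fermat.Agent.P4

variable (K : Type) [Field K] [CharZero K] (N : ℕ) [NeZero N] (ℓ : ℕ) [Fact ℓ.Prime]
  (O : Subring K) [IsDiscreteValuationRing ↥O] [IsFractionRing ↥O K]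
  [CharP (IsLocalRing.ResidueField ↥O) ℓ] [PerfectRing (IsLocalRing.ResidueField ↥O) ℓ]

set_option quotPrecheck false in
local notation "κ" => IsLocalRing.ResidueField ↥O

set_option synthInstance.maxHeartbeats 400000

variable (ι : K →+* ℂ) (hℓN : ¬ ℓ ∣ N)
  (hA2 : ∀ x : ↥(gaussSubalgebra K N O),
    theta K N O x ∈ modularFunctionFieldFullC (IsLocalRing.ResidueField ↥O) N)
  (S₂ : FibreTwo.SecondVal K N ℓ O)
  {ϖ : ↥O} (hϖ : Irreducible ϖ)

/-- **The conjunct (n6′) of `Norm`**: `m^∞_s(f) = 0` at every supersingular place of the finite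
chart (the hypothesis `hss` of `F4Place.isLocPthPowerOn_acInfF`). -/
def SSVanishes (f : FF K (N * ℓ)) : Prop :=
  ∀ s : Place κ (FF κ N), jF κ N ∈ s.toValuationSubring →
    IsSSFin K N ℓ O ι hℓN hA2 S₂ s →
    Lambda.mInf K N ℓ O (SecondValBridge.ofTwo S₂) ι hℓN hA2 hϖ s f = 0

/-- **The output of (R4)**, abstract in the arithmetic statement `E n` about the exponent `n`:
at every supersingular place `s` there is `n ≡ − m^∞_s(f) (mod ℓ)` with `E n`. -/
def R4Out (E : ℤ → Prop) (f : FF K (N * ℓ)) : Prop :=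
  ∀ s : Place κ (FF κ N), jF κ N ∈ s.toValuationSubring →
    IsSSFin K N ℓ O ι hℓN hA2 S₂ s →
    ∃ n : ℤ, ((n : ℤ) : ZMod ℓ) +
      Lambda.mInf K N ℓ O (SecondValBridge.ofTwo S₂) ι hℓN hA2 hϖ s f = 0 ∧ E n

/-- ★ **(R4) + (R5) ⇒ (n6′).** -/
theorem ssVanishes_of_r4Out {E : ℤ → Prop} (hR5 : ∀ n : ℤ, E n → (ℓ : ℤ) ∣ n)
    {f : FF K (N * ℓ)} (h : R4Out K N ℓ O ι hℓN hA2 S₂ hϖ E f) :
    SSVanishes K N ℓ O ι hℓN hA2 S₂ hϖ f := by
  intro s hj hs
  obtain ⟨n, hn, hE⟩ := h s hj hs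
  have h0 : ((n : ℤ) : ZMod ℓ) = 0 := (ZMod.intCast_zmod_eq_zero_iff_dvd n ℓ).mpr (hR5 n hE)
  rwa [h0, zero_add] at hn

/-- The (R4) output in the form "`n = (ℓ − 1) · m` with `m ≡ ord_s (f̄_∞) (mod ℓ)`". -/
theorem r4Out_of_pred {E : ℤ → Prop} {f : FF K (N * ℓ)}
    (h : ∀ s : Place κ (FF κ N), jF κ N ∈ s.toValuationSubring →
      IsSSFin K N ℓ O ι hℓN hA2 S₂ s →
      ∃ m : ℤ, ((m : ℤ) : ZMod ℓ) =
        Lambda.mInf K N ℓ O (SecondValBridge.ofTwo S₂) ι hℓN hA2 hϖ s f ∧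
        E (((ℓ : ℤ) - 1) * m)) :
    R4Out K N ℓ O ι hℓN hA2 S₂ hϖ E f := by
  intro s hj hs
  obtain ⟨m, hm, hE⟩ := h s hj hs
  refine ⟨((ℓ : ℤ) - 1) * m, ?_, hE⟩
  rw [← hm]
  push_cast
  rw [ZMod.natCast_self]
  ring

end Level

/-! ### Two modular levels over the same `(K, O)` -/

section Aux

open ModularCurve Fermat.Agent.S28.Gauss Fermat.Agent.N4.Setting Fermat.Agent.N4.FibreEmbedding
open Fermat.Agent.N4.Chart
open Fermat.Agent.N4F.E.DegreeLevelRaise Fermat.Agent.N4F.E.GaussDVR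
open Fermat.Agent.N4F.E IsLocalRing Fermat.Agent.P3G Fermat.Agent.P4

variable (K : Type) [Field K] [CharZero K] (M N : ℕ) [NeZero M] [NeZero N] (ℓ : ℕ)
  [Fact ℓ.Prime]
  (O : Subring K) [IsDiscreteValuationRing ↥O] [IsFractionRing ↥O K]
  [CharP (IsLocalRing.ResidueField ↥O) ℓ] [PerfectRing (IsLocalRing.ResidueField ↥O) ℓ]

set_option quotPrecheck false in
local notation "κ" => IsLocalRing.ResidueField ↥O

set_option synthInstance.maxHeartbeats 400000

variable (ι : K →+* ℂ) (hℓM : ¬ ℓ ∣ M) (hℓN : ¬ ℓ ∣ N)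
  (hA2M : ∀ x : ↥(gaussSubalgebra K M O),
    theta K M O x ∈ modularFunctionFieldFullC (IsLocalRing.ResidueField ↥O) M)
  (hA2N : ∀ x : ↥(gaussSubalgebra K N O),
    theta K N O x ∈ modularFunctionFieldFullC (IsLocalRing.ResidueField ↥O) N)
  (S₂ : FibreTwo.SecondVal K M ℓ O) (T₂ : FibreTwo.SecondVal K N ℓ O)
  {ϖ : ↥O} (hϖ : Irreducible ϖ)

/-- **(AUX)**: over every supersingular place `s` of level `M` there is a supersingular place `s̃`
of the auxiliary level `N` with `m^∞_{s̃}(f̃) = e · m^∞_s(f)` and `e ≠ 0` in `𝔽_ℓ`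
(`f̃` = the image of `f` in level `N ℓ`, `e` = the ramification index of `s̃ ∣ s`). -/
def AuxRel (f : FF K (M * ℓ)) (f' : FF K (N * ℓ)) : Prop :=
  ∀ s : Place κ (FF κ M), jF κ M ∈ s.toValuationSubring →
    IsSSFin K M ℓ O ι hℓM hA2M S₂ s →
    ∃ s' : Place κ (FF κ N), jF κ N ∈ s'.toValuationSubring ∧
      IsSSFin K N ℓ O ι hℓN hA2N T₂ s' ∧
      ∃ e : ZMod ℓ, e ≠ 0 ∧
        Lambda.mInf K N ℓ O (SecondValBridge.ofTwo T₂) ι hℓN hA2N hϖ s' f' =
          e * Lambda.mInf K M ℓ O (SecondValBridge.ofTwo S₂) ι hℓM hA2M hϖ s f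

/-- ★ **(n6′) descends from the auxiliary level.** -/
theorem ssVanishes_of_auxRel {f : FF K (M * ℓ)} {f' : FF K (N * ℓ)}
    (haux : AuxRel K M N ℓ O ι hℓM hℓN hA2M hA2N S₂ T₂ hϖ f f')
    (h : SSVanishes K N ℓ O ι hℓN hA2N T₂ hϖ f') :
    SSVanishes K M ℓ O ι hℓM hA2M S₂ hϖ f := by
  intro s hj hs
  obtain ⟨s', hj', hs', e, he, hrel⟩ := haux s hj hs
  have h0 := h s' hj' hs'
  rw [hrel] at h0
  rcases mul_eq_zero.mp h0 with h1 | h1
  · exact absurd h1 he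
  · exact h1

/-- ★ **(R4) at the auxiliary level + (R5) + (AUX) ⇒ (n6′) at level `M`.** -/
theorem ssVanishes_of_r4Out_aux {E : ℤ → Prop} (hR5 : ∀ n : ℤ, E n → (ℓ : ℤ) ∣ n)
    {f : FF K (M * ℓ)} {f' : FF K (N * ℓ)}
    (haux : AuxRel K M N ℓ O ι hℓM hℓN hA2M hA2N S₂ T₂ hϖ f f')
    (h : R4Out K N ℓ O ι hℓN hA2N T₂ hϖ E f') :
    SSVanishes K M ℓ O ι hℓM hA2M S₂ hϖ f :=
  ssVanishes_of_auxRel K M N ℓ O ι hℓM hℓN hA2M hA2N S₂ T₂ hϖ haux
    (ssVanishes_of_r4Out K N ℓ O ι hℓN hA2N T₂ hϖ hR5 h)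

/-- (AUX) at equal levels (no auxiliary level needed: `4 ∣ M` already). -/
theorem auxRel_self (f : FF K (M * ℓ)) :
    AuxRel K M M ℓ O ι hℓM hℓM hA2M hA2M S₂ S₂ hϖ f f :=
  fun s hj hs => ⟨s, hj, hs, 1, one_ne_zero, (one_mul _).symm⟩

end Aux

/-! ### The arithmetic statement `E n` at a place of `ℚ̄` -/

section Arith

open Fermat.Agent.S56.Places.Dict Fermat.Agent.S40.M1.PlaceTransport

local notation "Qbar" => AlgebraicClosure ℚ
local notation "Γ" => (AlgebraicClosure ℚ ≃ₐ[ℚ] AlgebraicClosure ℚ)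

variable {p : ℕ} [Fact p.Prime]

local notation "Ω" => PadicAlgCl p

/-- **The arithmetic output of (R4)** at a place `A` of `ℚ̄`: a nonzero `y`, fixed by the inertia
elements `σ` of `A` with `Fix σ`, such that `y ^ p / p ^ n ∈ 1 + p A`. -/
def ApproxRoot (p : ℕ) (A : ValuationSubring Qbar) (Fix : Γ → Prop) (n : ℤ) : Prop :=
  ∃ y : Qbar, y ≠ 0 ∧ (∀ σ ∈ A.inertiaSubgroupIn ℚ, Fix σ → σ y = y) ∧
    (y ^ p / (p : Qbar) ^ n - 1) / (p : Qbar) ∈ A

/-- (R5) for `ApproxRoot` at `padicPlace p` from the norm form of the global pack. -/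
theorem dvd_of_approxRoot_padic (Fix : Γ → Prop)
    (hR5 : ∀ y : Qbar, y ≠ 0 → ∀ n : ℤ,
      (∀ σ ∈ (padicPlace p).inertiaSubgroupIn ℚ, Fix σ → σ y = y) →
      ‖padicEmbedding p (y ^ p / (p : Qbar) ^ n - 1)‖ ≤ ‖(p : Ω)‖ → (p : ℤ) ∣ n)
    (n : ℤ) (h : ApproxRoot p (padicPlace p) Fix n) : (p : ℤ) ∣ n := by
  obtain ⟨y, hy, hinv, happ⟩ := h
  have hp0 : ((p : ℕ) : ℚ) ≠ 0 := by exact_mod_cast (Fact.out : p.Prime).ne_zero
  have h1 : (y ^ p / (p : Qbar) ^ n - 1) / (((p : ℕ) : ℚ) : Qbar) ∈ padicPlace p := by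
    simpa using happ
  have h2 := (mem_padicPlace_div_iff hp0 _).mp h1
  refine hR5 y hy n hinv ?_
  simpa using h2

/-- (R5) for `ApproxRoot` at ANY place over `p`, for a conjugation-invariant `Fix`. -/
theorem dvd_of_approxRoot_at (Fix : Γ → Prop) (hFix : ∀ g σ : Γ, Fix σ → Fix (g * σ * g⁻¹))
    (hR5 : ∀ y : Qbar, y ≠ 0 → ∀ n : ℤ,
      (∀ σ ∈ (padicPlace p).inertiaSubgroupIn ℚ, Fix σ → σ y = y) →
      ‖padicEmbedding p (y ^ p / (p : Qbar) ^ n - 1)‖ ≤ ‖(p : Ω)‖ → (p : ℤ) ∣ n)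
    (A : ValuationSubring Qbar) (hA : A.LiesOverPrime p)
    (n : ℤ) (h : ApproxRoot p A Fix n) : (p : ℤ) ∣ n := by
  obtain ⟨y, hy, hinv, happ⟩ := h
  have hp0 : ((p : ℕ) : ℚ) ≠ 0 := by exact_mod_cast (Fact.out : p.Prime).ne_zero
  refine dvd_of_approx_at Fix hFix hp0 (fun y hy n h1 h2 => hR5 y hy n h1 ?_) A hA hy n hinv ?_
  · simpa using h2
  · simpa using happ

end Arith

end Fermat.Agent.S40.M1.SSVanish
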