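/-
S40 / S44 (row 38), T6′ static route (`moonshots` row 67), block (R4), sub-team R4-I, piece (Q)
(helper4; statement list of helper5, board #3224): **from the level `K` to `ℚ̄`.**

The node identity (`NodeInv.exists_y_of_node`) produces, at a Galois-stable level `K` with the
valuation subring `𝒜 := lvlVS A K = A ∩ K` of `Lvl K` and `π := (p : Lvl K)`, an element

  `y : Lvl K`,  `y ≠ 0`,  `(y ^ p / π ^ n - 1) / π ∈ 𝒜`,

fixed by `levelAut K hK σ` for the inertia elements `σ` with some property `Fix σ`.  The consumer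
(helper20, `SSVanish.ApproxRoot` / `PlaceTransport.dvd_of_approx_at`) wants the same statement for
`(y : ℚ̄)` and the place `A` itself.  This file is that dictionary.

* `lvlVS A K` (`= tr A (Lvl K) = A.comap (algebraMap (Lvl K) ℚ̄)`; `baseRing A K` is its subring),
  `mem_lvlVS_iff`, `mem_nonunits_lvlVS_iff`, `mem_lvlVS_iff_mem_baseRing`,
  `algebraMap_baseRing_mem_lvlVS`, `natCast_mem_lvlVS`, `natCast_mem_nonunits_lvlVS`;
* `apply_coe` : `σ (y : ℚ̄) = (levelAut K hK σ y : ℚ̄)`; `apply_coe_eq_iff`;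
* ★ `qbar_of_lvl`, `qbar_of_lvl_iff` : the approximation goes to `ℚ̄`; `coe_ne_zero`;
* ★ `r4_qbar_form` : `ApproxRoot p A Fix n` from the level statement (any predicate `Fix`);
  `r4_qbar_form_zetaV`, `r4_qbar_form_V` : the two predicates of record, binders spelled out;
* ★ `approxRoot_of_node` : the same from the output shape of `NodeInv.exists_y_of_node` verbatim
  (`n = (p - 1) * m`), and `isPU_iff` : `IsPU 𝒜 π e ↔ (e - 1) / π ∈ 𝒜`.
-/
import Mathlib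
import Fermat.Agent.P3G.GammaAut
import Fermat.Agent.P3G.GammaUnits
import Fermat.Agent.S40.M1.SSVanish
import Fermat.Agent.S40.M1.NodeCore

set_option autoImplicit false
set_option linter.unusedSectionVars false
set_option linter.unusedVariables false
set_option linter.style.haveILetI false

noncomputable section

namespace Fermat.Agent.S40.M1.NodeQbar

open Fermat.Agent.N4.BigDVR Fermat.Agent.N4F.C Fermat.Agent.N4F.C.Levels
  Fermat.Agent.P3G.GammaAut Fermat.Agent.N4F.Res Fermat.Agent.S40.Top.Eigen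
  Fermat.Agent.S40.M1.SSVanish Fermat.Agent.S40.M1.PlaceTransport Fermat.Agent.S40.M1.NodeCore

local notation "Qbar" => AlgebraicClosure ℚ
local notation "Γ" => (AlgebraicClosure ℚ ≃ₐ[ℚ] AlgebraicClosure ℚ)

/-! ### The valuation subring `A ∩ K` of `Lvl K` -/

section LvlVS

variable (A : ValuationSubring Qbar) (K : IntermediateField ℚ Qbar)

/-- The trace of the place `A` of `ℚ̄` on the level `K`, as a valuation subring of `Lvl K`
(`baseRing A K` is its underlying subring). -/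
abbrev lvlVS : ValuationSubring (Lvl K) := tr A (Lvl K)

variable {A K}

theorem mem_lvlVS_iff {x : Lvl K} : x ∈ lvlVS A K ↔ algebraMap (Lvl K) Qbar x ∈ A :=
  mem_tr_iff A (Lvl K)

theorem mem_nonunits_lvlVS_iff {x : Lvl K} :
    x ∈ (lvlVS A K).nonunits ↔ algebraMap (Lvl K) Qbar x ∈ A.nonunits :=
  mem_tr_nonunits_iff A (Lvl K)

theorem mem_lvlVS_iff_mem_baseRing {x : Lvl K} : x ∈ lvlVS A K ↔ x ∈ baseRing A K := Iff.rfl

theorem coe_mem_lvlVS (a : ↥(baseRing A K)) : (a : Lvl K) ∈ lvlVS A K := a.2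

theorem algebraMap_baseRing_mem_lvlVS (a : ↥(baseRing A K)) :
    algebraMap ↥(baseRing A K) (Lvl K) a ∈ lvlVS A K := a.2

theorem natCast_mem_lvlVS (n : ℕ) : (n : Lvl K) ∈ lvlVS A K := natCast_mem _ n

/-- `p` lies in the maximal ideal of `A ∩ K`. -/
theorem natCast_mem_nonunits_lvlVS {p : ℕ} (hA : A.LiesOverPrime p) :
    (p : Lvl K) ∈ (lvlVS A K).nonunits :=
  Fermat.Agent.P3G.GammaUnits.natCast_mem_nonunits_tr (K := K) hA

theorem natCast_ne_zero_lvl {p : ℕ} (hp : p ≠ 0) : (p : Lvl K) ≠ 0 := Nat.cast_ne_zero.mpr hp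

theorem coe_ne_zero {y : Lvl K} (hy : y ≠ 0) : algebraMap (Lvl K) Qbar y ≠ 0 :=
  (map_ne_zero _).mpr hy

/-- The approximation expression commutes with `Lvl K → ℚ̄`. -/
theorem algebraMap_approx (y : Lvl K) (p : ℕ) (n : ℤ) :
    algebraMap (Lvl K) Qbar ((y ^ p / (p : Lvl K) ^ n - 1) / (p : Lvl K)) =
      ((algebraMap (Lvl K) Qbar y) ^ p / (p : Qbar) ^ n - 1) / (p : Qbar) := by
  rw [map_div₀, map_sub, map_div₀, map_pow, map_zpow₀, map_natCast, map_one]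

/-- ★ **The approximation goes to `ℚ̄`** (it is an equivalence). -/
theorem qbar_of_lvl_iff (y : Lvl K) (p : ℕ) (n : ℤ) :
    (y ^ p / (p : Lvl K) ^ n - 1) / (p : Lvl K) ∈ lvlVS A K ↔
      ((algebraMap (Lvl K) Qbar y) ^ p / (p : Qbar) ^ n - 1) / (p : Qbar) ∈ A := by
  rw [mem_lvlVS_iff, algebraMap_approx]

theorem qbar_of_lvl (y : Lvl K) (p : ℕ) (n : ℤ)
    (h : (y ^ p / (p : Lvl K) ^ n - 1) / (p : Lvl K) ∈ lvlVS A K) :
    ((algebraMap (Lvl K) Qbar y) ^ p / (p : Qbar) ^ n - 1) / (p : Qbar) ∈ A :=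
  (qbar_of_lvl_iff y p n).mp h

/-- `e ∈ 1 + π 𝒜 ↔ (e - 1) / π ∈ 𝒜` (`NodeCore.IsPU`), for `π ≠ 0`. -/
theorem isPU_iff {k : Type*} [Field k] (𝒜 : ValuationSubring k) {π : k} (hπ : π ≠ 0) (e : k) :
    IsPU 𝒜 π e ↔ (e - 1) / π ∈ 𝒜 := by
  constructor
  · rintro ⟨a, ha, rfl⟩
    have : (1 + π * a - 1) / π = a := by
      rw [add_sub_cancel_left, mul_div_cancel_left₀ _ hπ]
    rwa [this]
  · intro h
    refine ⟨(e - 1) / π, h, ?_⟩
    field_simp
    ring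

end LvlVS

/-! ### The Galois action -/

section Galois

variable (K : IntermediateField ℚ Qbar) (hK : ∀ (τ : Γ) (x : Qbar), x ∈ K → τ x ∈ K)

/-- `σ (y : ℚ̄) = (levelAut K hK σ y : ℚ̄)`. -/
theorem apply_coe (σ : Γ) (y : Lvl K) :
    σ (algebraMap (Lvl K) Qbar y) = algebraMap (Lvl K) Qbar (levelAut K hK σ y) :=
  (algebraMap_levelAut K hK σ y).symm

theorem apply_coe_eq_iff (σ : Γ) (y : Lvl K) :
    σ (algebraMap (Lvl K) Qbar y) = algebraMap (Lvl K) Qbar y ↔ levelAut K hK σ y = y := by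
  rw [apply_coe K hK]
  exact (algebraMap (Lvl K) Qbar).injective.eq_iff

theorem apply_coe_eq (σ : Γ) {y : Lvl K} (h : levelAut K hK σ y = y) :
    σ (algebraMap (Lvl K) Qbar y) = algebraMap (Lvl K) Qbar y :=
  (apply_coe_eq_iff K hK σ y).mpr h

theorem levelAut_natCast (σ : Γ) (n : ℕ) : levelAut K hK σ (n : Lvl K) = n := map_natCast _ n

end Galois

/-! ### The `ℚ̄`-form of the output of (R4) -/

section Output

variable {A : ValuationSubring Qbar} (K : IntermediateField ℚ Qbar)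
  (hK : ∀ (τ : Γ) (x : Qbar), x ∈ K → τ x ∈ K)

/-- ★ **(Q)**: the level statement of the node identity gives `SSVanish.ApproxRoot p A Fix n`
(`∃ y : ℚ̄, y ≠ 0 ∧ (∀ σ ∈ I_A, Fix σ → σ y = y) ∧ (y ^ p / p ^ n - 1) / p ∈ A`), for any predicate
`Fix` on `Γ`. -/
theorem r4_qbar_form (p : ℕ) (Fix : Γ → Prop) (n : ℤ)
    (h : ∃ y : Lvl K, y ≠ 0 ∧ (y ^ p / (p : Lvl K) ^ n - 1) / (p : Lvl K) ∈ lvlVS A K ∧
      ∀ σ ∈ A.inertiaSubgroupIn ℚ, Fix σ → levelAut K hK σ y = y) :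
    ApproxRoot p A Fix n := by
  obtain ⟨y, hy0, happ, hfix⟩ := h
  exact ⟨algebraMap (Lvl K) Qbar y, coe_ne_zero hy0,
    fun σ hσ hF => apply_coe_eq K hK σ (hfix σ hσ hF), qbar_of_lvl y p n happ⟩

/-- The predicate "fixes `ζ` and `V` pointwise", binders spelled out (helper20's shape #3175 (2)
verbatim). -/
theorem r4_qbar_form_zetaV {L : ℕ} [NeZero L] (p : ℕ) [Fact p.Prime] (ζ : Qbar)
    (V : Submodule (ZMod p) (Jtors L p)) (n : ℤ)
    (h : ∃ y : Lvl K, y ≠ 0 ∧ (y ^ p / (p : Lvl K) ^ n - 1) / (p : Lvl K) ∈ lvlVS A K ∧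
      ∀ σ ∈ A.inertiaSubgroupIn ℚ, σ ζ = ζ → (∀ z ∈ V, galTors L p σ z = z) →
        levelAut K hK σ y = y) :
    ∃ y : Qbar, y ≠ 0 ∧
      (∀ σ ∈ A.inertiaSubgroupIn ℚ, σ ζ = ζ → (∀ z ∈ V, galTors L p σ z = z) → σ y = y) ∧
      (y ^ p / (p : Qbar) ^ n - 1) / (p : Qbar) ∈ A := by
  obtain ⟨y, hy0, happ, hfix⟩ := h
  exact ⟨algebraMap (Lvl K) Qbar y, coe_ne_zero hy0,
    fun σ hσ h1 h2 => apply_coe_eq K hK σ (hfix σ hσ h1 h2), qbar_of_lvl y p n happ⟩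

/-- The same as an `ApproxRoot` for `PlaceTransport.fixZetaV`. -/
theorem approxRoot_zetaV {L : ℕ} [NeZero L] (p : ℕ) [Fact p.Prime] (ζ : Qbar)
    (V : Submodule (ZMod p) (Jtors L p)) (n : ℤ)
    (h : ∃ y : Lvl K, y ≠ 0 ∧ (y ^ p / (p : Lvl K) ^ n - 1) / (p : Lvl K) ∈ lvlVS A K ∧
      ∀ σ ∈ A.inertiaSubgroupIn ℚ, σ ζ = ζ → (∀ z ∈ V, galTors L p σ z = z) →
        levelAut K hK σ y = y) :
    ApproxRoot p A (fixZetaV ζ V) n := by
  obtain ⟨y, hy0, happ, hfix⟩ := h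
  exact r4_qbar_form K hK p _ n ⟨y, hy0, happ, fun σ hσ hF => hfix σ hσ hF.1 hF.2⟩

/-- The predicate "fixes `V` pointwise", binders spelled out. -/
theorem r4_qbar_form_V {L : ℕ} [NeZero L] (p : ℕ) [Fact p.Prime]
    (V : Submodule (ZMod p) (Jtors L p)) (n : ℤ)
    (h : ∃ y : Lvl K, y ≠ 0 ∧ (y ^ p / (p : Lvl K) ^ n - 1) / (p : Lvl K) ∈ lvlVS A K ∧
      ∀ σ ∈ A.inertiaSubgroupIn ℚ, (∀ z ∈ V, galTors L p σ z = z) → levelAut K hK σ y = y) :
    ∃ y : Qbar, y ≠ 0 ∧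
      (∀ σ ∈ A.inertiaSubgroupIn ℚ, (∀ z ∈ V, galTors L p σ z = z) → σ y = y) ∧
      (y ^ p / (p : Qbar) ^ n - 1) / (p : Qbar) ∈ A := by
  obtain ⟨y, hy0, happ, hfix⟩ := h
  exact ⟨algebraMap (Lvl K) Qbar y, coe_ne_zero hy0,
    fun σ hσ h2 => apply_coe_eq K hK σ (hfix σ hσ h2), qbar_of_lvl y p n happ⟩

/-- The same as an `ApproxRoot` for `PlaceTransport.fixV`. -/
theorem approxRoot_V {L : ℕ} [NeZero L] (p : ℕ) [Fact p.Prime]
    (V : Submodule (ZMod p) (Jtors L p)) (n : ℤ)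
    (h : ∃ y : Lvl K, y ≠ 0 ∧ (y ^ p / (p : Lvl K) ^ n - 1) / (p : Lvl K) ∈ lvlVS A K ∧
      ∀ σ ∈ A.inertiaSubgroupIn ℚ, (∀ z ∈ V, galTors L p σ z = z) → levelAut K hK σ y = y) :
    ApproxRoot p A (fixV V) n :=
  r4_qbar_form K hK p _ n h

/-- ★ **From the output of `NodeInv.exists_y_of_node` verbatim**: `π := (p : Lvl K)`,
`𝒜 := lvlVS A K`, exponent `(p - 1) * m`, together with the invariance of `y`
(`NodeInv.yNode_fixed` + `levelAut_natCast`). -/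
theorem approxRoot_of_node (p : ℕ) (Fix : Γ → Prop) (m : ℤ) {y : Lvl K} (hy0 : y ≠ 0)
    (happ : (y ^ p / (p : Lvl K) ^ (((p - 1 : ℕ) : ℤ) * m) - 1) / (p : Lvl K) ∈ lvlVS A K)
    (hfix : ∀ σ ∈ A.inertiaSubgroupIn ℚ, Fix σ → levelAut K hK σ y = y) :
    ApproxRoot p A Fix (((p - 1 : ℕ) : ℤ) * m) :=
  r4_qbar_form K hK p Fix _ ⟨y, hy0, happ, hfix⟩

/-- (R5) consumed: `p ∣ (p - 1) * m → p ∣ m`. -/
theorem dvd_of_dvd_pred_mul {p : ℕ} (hp : p.Prime) {m : ℤ}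
    (h : (p : ℤ) ∣ ((p - 1 : ℕ) : ℤ) * m) : (p : ℤ) ∣ m := by
  have hp' : Prime (p : ℤ) := Nat.prime_iff_prime_int.mp hp
  rcases hp'.dvd_or_dvd h with h1 | h1
  · exfalso
    have h2 : p ∣ p - 1 := by exact_mod_cast h1
    have h3 : p ≤ p - 1 := Nat.le_of_dvd (Nat.sub_pos_of_lt hp.one_lt) h2
    have := hp.pos
    omega
  · exact h1

/-- ★ **(R4) ∘ (Q) ∘ (R5)**: the node identity at a level (output of `NodeInv.exists_y_of_node` +
invariance), with (R5) at `padicPlace p` in the norm form of the global pack as a named hypothesis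
(`SSVanish.dvd_of_approxRoot_at`), gives `p ∣ m`.  `Fix` conjugation invariant
(`PlaceTransport.fixV_conj`, `fixZetaV_conj`). -/
theorem dvd_of_node_at {p : ℕ} [Fact p.Prime] (Fix : Γ → Prop)
    (hFix : ∀ g σ : Γ, Fix σ → Fix (g * σ * g⁻¹))
    (hR5 : ∀ y : Qbar, y ≠ 0 → ∀ n : ℤ,
      (∀ σ ∈ (padicPlace p).inertiaSubgroupIn ℚ, Fix σ → σ y = y) →
      ‖padicEmbedding p (y ^ p / (p : Qbar) ^ n - 1)‖ ≤
        ‖(p : PadicAlgCl p)‖ → (p : ℤ) ∣ n)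
    (hA : A.LiesOverPrime p) (m : ℤ) {y : Lvl K} (hy0 : y ≠ 0)
    (happ : (y ^ p / (p : Lvl K) ^ (((p - 1 : ℕ) : ℤ) * m) - 1) / (p : Lvl K) ∈ lvlVS A K)
    (hfix : ∀ σ ∈ A.inertiaSubgroupIn ℚ, Fix σ → levelAut K hK σ y = y) : (p : ℤ) ∣ m :=
  dvd_of_dvd_pred_mul Fact.out
    (dvd_of_approxRoot_at Fix hFix hR5 A hA _ (approxRoot_of_node K hK p Fix m hy0 happ hfix))

end Output

end Fermat.Agent.S40.M1.NodeQbar
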