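/-
S40 / S44 (row 38), T6′ static route (`moonshots` row 67), block (R4), LAYER 2 (helper5):
**the node identity at a crossing point, from NAMED hypotheses, in the `NodeFactor` binder block.**

Setting of `S40/M1/NodeNormStep` (chart `R` of the big level `F`, vertical valuation rings `V₁ V₂`,
crossing point `𝔫`, residue order `μ`, node coordinate `u`), two multiplicative maps
`N_α N_β : F →* F'` (the norms to the lower level), two rational places `Q_α Q_β` of `F' / K` (the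
test points), `𝒜` the valuation ring of the base in `K`, `π = p`.

* `betaS u S D c = ∏_{P ∈ S} (u − c P) ^ {D P}` : the canonical local generator (`c P = u(P)`),
  `betaS_ne_zero`, `valuation_betaS`, `ord_betaS` (from (H3)), `smul_betaS` (Galois invariance);
* ★ `r4_node_abs` : for a `V₁`-unit `f` with `ord_Q f = p · D Q` at the places centred at `𝔫` and
  `N_α f = h_A ^ p`, `N_β f = h_B ^ p`: from (H3) [honest (Loc-P) for `u − u(P)`], (R4a) [`N_α u (Q_α) =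
  π ^ p t_A ^ p e_A`, `N_β u (Q_β) = π t_B ^ p e_B`], (R4b) [`N_α W (Q_α) ≡ N_β W (Q_β)` modulo `π` for
  units `W` of `R_𝔫`] there is `y ∈ K^×` with

    `(y ^ p / π ^ ((p − 1) · μ f) − 1) / π ∈ 𝒜`,

  fixed by every pair `(σ, σ')` of semilinear automorphisms of `F`, `F'` commuting with the norms,
  fixing `u`, `h_A`, `h_B`, `Q_α`, `Q_β`, `t_A`, `t_B`, `π`, permuting `S` and compatible with `D`, `c`.
-/
import Mathlib
import Fermat.Agent.S40.M1.NodeNormStep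
import Fermat.Agent.S40.M1.NodeInv

set_option autoImplicit false
set_option linter.unusedSectionVars false
set_option linter.unusedVariables false
set_option linter.dupNamespace false
set_option linter.style.haveILetI false
set_option linter.style.longLine false

open AlgebraicCurve

noncomputable section

namespace Fermat.Agent.S40.M1.R4Node

open Fermat.Agent.P4.TwistRoots Fermat.Agent.P3G.UCrit Fermat.Agent.S40.M1.NodeFactor
  Fermat.Agent.S40.M1.NodeNormStep Fermat.Agent.S40.M1.NodeInv Fermat.Agent.S40.M1.NodeCore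

/-! ### The canonical local generator -/

section Beta

variable {K F : Type*} [Field K] [Field F] [Algebra K F]

/-- The canonical local generator `∏_{P ∈ S} (u − c P) ^ {D P}`. -/
def betaS (u : F) (S : Finset (Place K F)) (D : Place K F → ℤ) (c : Place K F → K) : F :=
  ∏ P ∈ S, (u - algebraMap K F (c P)) ^ D P

theorem betaS_ne_zero {u : F} {S : Finset (Place K F)} {D : Place K F → ℤ} {c : Place K F → K}
    (h0 : ∀ P ∈ S, u - algebraMap K F (c P) ≠ 0) : betaS u S D c ≠ 0 :=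
  Finset.prod_ne_zero_iff.2 fun P hP => zpow_ne_zero _ (h0 P hP)

theorem valuation_betaS (V : ValuationSubring F) {u : F} {S : Finset (Place K F)}
    {D : Place K F → ℤ} {c : Place K F → K}
    (h1 : ∀ P ∈ S, V.valuation (u - algebraMap K F (c P)) = 1) :
    V.valuation (betaS u S D c) = 1 := by
  unfold betaS
  rw [map_prod]
  refine Finset.prod_eq_one fun P hP => ?_
  rw [map_zpow₀, h1 P hP, one_zpow]

/-- **Galois invariance of the canonical local generator.** -/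
theorem smul_betaS (σ : SemilinearAut K F) {u : F} (hu : σ • u = u)
    (S : Finset (Place K F)) (hS : ∀ P ∈ S, σ • P ∈ S) (D : Place K F → ℤ)
    (hD : ∀ P ∈ S, D (σ • P) = D P) (c : Place K F → K)
    (hc : ∀ P ∈ S, c (σ • P) = SemilinearAut.baseAut σ (c P)) :
    σ • betaS u S D c = betaS u S D c :=
  smul_prod_sub_zpow σ hu S hS D hD c hc

end Beta

/-! ### The node identity from named hypotheses -/

section Main

variable {O K F R : Type*}
  [CommRing O] [IsDomain O] [IsDiscreteValuationRing O]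
  [Field K] [Algebra O K] [IsFractionRing O K]
  [Field F] [Algebra K F] [Algebra O F] [IsScalarTower O K F]
  [CommRing R] [IsDomain R] [IsNoetherianRing R] [IsIntegrallyClosed R]
  [Algebra R F] [IsFractionRing R F] [Algebra O R] [IsScalarTower O R F]

variable (V₁ V₂ : ValuationSubring F)
  (hV₁ : ∀ r : R, algebraMap R F r ∈ V₁) (hV₂ : ∀ r : R, algebraMap R F r ∈ V₂)
  {ϖ : O} (hϖ : Irreducible ϖ)
  (hϖ₁ : algebraMap O F ϖ ∈ V₁.nonunits) (hϖ₂ : algebraMap O F ϖ ∈ V₂.nonunits)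
  (hsat : ∀ r : R, algebraMap R F r ∈ V₁.nonunits → algebraMap R F r ∈ V₂.nonunits →
    algebraMap O R ϖ ∣ r)
  (𝔫 : Ideal R) [h𝔫 : 𝔫.IsPrime] (μ : F → ℤ)

omit [IsDiscreteValuationRing O] [IsIntegrallyClosed R] [IsNoetherianRing R] in
/-- Orders of the canonical local generator at the places centred at `𝔫`, from (H3). -/
theorem ord_betaS {u : F} (S : Finset (Place K F)) (D : Place K F → ℤ)
    (hS : ∀ Q ∈ centredSet K 𝔫, Q ∉ S → D Q = 0) (c : Place K F → K)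
    (h0 : ∀ P ∈ S, u - algebraMap K F (c P) ≠ 0)
    (hc1 : ∀ P ∈ S, P.ord (u - algebraMap K F (c P)) = 1)
    (hc2 : ∀ P ∈ S, ∀ Q ∈ centredSet K 𝔫, Q ≠ P → Q.ord (u - algebraMap K F (c P)) = 0)
    {Q : Place K F} (hQ : Q ∈ centredSet K 𝔫) : Q.ord (betaS u S D c) = D Q :=
  Fermat.Agent.S40.M4.LGUnit.ord_prod_zpow_localEqs 𝔫 S D hS
    (fun P => u - algebraMap K F (c P)) h0 hc1 hc2 hQ

include hV₁ hV₂ hϖ hϖ₁ hϖ₂ hsat in
/-- ★ **(R4) at a crossing point, from named hypotheses.** -/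
theorem r4_node_abs {F' : Type*} [Field F'] [Algebra K F'] (Nα Nβ : F →* F')
    (𝒜 : ValuationSubring K) {π : K} (hπ : π ∈ 𝒜.nonunits) (hπ0 : π ≠ 0) {p : ℕ} (hp : 0 < p)
    (Qα Qβ : Place K F')
    (hQα : Function.Bijective (algebraMap K Qα.ResidueField))
    (hQβ : Function.Bijective (algebraMap K Qβ.ResidueField))
    -- the `NodeFactor` block
    (ht₁ : Through V₁ 𝔫) (ht₂ : Through V₂ 𝔫) (hμmul : MuMul V₁ μ)
    (hμpos : ∀ r : R, r ∈ 𝔫 → V₁.valuation (algebraMap R F r) = 1 → 0 < μ (algebraMap R F r))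
    (hμunit : ∀ r : R, r ∉ 𝔫 → μ (algebraMap R F r) = 0)
    -- the node coordinate
    {u : F} (hu₁ : V₁.valuation u = 1) (huQ : ∀ Q ∈ centredSet K 𝔫, Q.ord u = 0) (huμ : μ u = 1)
    -- the function
    {f : F} (hf0 : f ≠ 0) (hf₁ : V₁.valuation f = 1) (D : Place K F → ℤ)
    (hfD : ∀ Q ∈ centredSet K 𝔫, Q.ord f = p * D Q)
    {hA hB : F'} (hNα : Nα f = hA ^ p) (hNβ : Nβ f = hB ^ p)
    -- (H3): honest (Loc-P) for `u − u(P)`
    (S : Finset (Place K F)) (hS : ∀ Q ∈ centredSet K 𝔫, Q ∉ S → D Q = 0) (c : Place K F → K)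
    (hc₁ : ∀ P ∈ S, V₁.valuation (u - algebraMap K F (c P)) = 1)
    (hc1 : ∀ P ∈ S, P.ord (u - algebraMap K F (c P)) = 1)
    (hc2 : ∀ P ∈ S, ∀ Q ∈ centredSet K 𝔫, Q ≠ P → Q.ord (u - algebraMap K F (c P)) = 0)
    -- (R4a): the norms of the node coordinate at the test points
    (hUα : Qα.toValuationSubring.valuation (Nα u) = 1)
    (hUβ : Qβ.toValuationSubring.valuation (Nβ u) = 1)
    {tA tB eA eB : K} (htA : tA ≠ 0) (htB : tB ≠ 0)
    (hUαv : valT Qα hQα (Nα u) = π ^ p * tA ^ p * eA) (heA : IsPU 𝒜 π eA)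
    (hUβv : valT Qβ hQβ (Nβ u) = π * tB ^ p * eB) (heB : IsPU 𝒜 π eB)
    -- (R4b): the norms of the units of `R_𝔫` at the test points
    (hW : ∀ W : F, IsUnitAt 𝔫 W →
      Qα.toValuationSubring.valuation (Nα W) = 1 ∧ Qβ.toValuationSubring.valuation (Nβ W) = 1 ∧
      (valT Qβ hQβ (Nβ W))⁻¹ ∈ 𝒜 ∧
      ∃ d ∈ 𝒜, valT Qα hQα (Nα W) = valT Qβ hQβ (Nβ W) + π * d) :
    ∃ y : K, y ≠ 0 ∧ (y ^ p / π ^ (((p - 1 : ℕ) : ℤ) * μ f) - 1) / π ∈ 𝒜 ∧
      ∀ (σ : SemilinearAut K F) (σ' : SemilinearAut K F'),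
        (∀ g : F, Nα (σ • g) = σ' • Nα g) → (∀ g : F, Nβ (σ • g) = σ' • Nβ g) →
        σ • u = u → (∀ P ∈ S, σ • P ∈ S) → (∀ P ∈ S, D (σ • P) = D P) →
        (∀ P ∈ S, c (σ • P) = SemilinearAut.baseAut σ (c P)) →
        σ' • hA = hA → σ' • hB = hB → σ' • Qα = Qα → σ' • Qβ = Qβ →
        SemilinearAut.baseAut σ' tA = tA → SemilinearAut.baseAut σ' tB = tB →
        SemilinearAut.baseAut σ' π = π →
        SemilinearAut.baseAut σ' y = y := by
  have h0 : ∀ P ∈ S, u - algebraMap K F (c P) ≠ 0 := fun P hP =>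
    NodeFactor.ne_zero_of_valuation_eq_one (hc₁ P hP)
  have hβ0 : betaS u S D c ≠ 0 := betaS_ne_zero h0
  have hβ₁ : V₁.valuation (betaS u S D c) = 1 := valuation_betaS V₁ hc₁
  have hβQ : ∀ Q ∈ centredSet K 𝔫, Q.ord (betaS u S D c) = D Q := fun Q hQ =>
    ord_betaS 𝔫 S D hS c h0 hc1 hc2 hQ
  obtain ⟨W, hWu, -, hstepA, hstepB⟩ := norm_step (K := K) V₁ V₂ hV₁ hV₂ hϖ hϖ₁ hϖ₂ hsat 𝔫 μ
    Nα Nβ ht₁ ht₂ hμmul hμpos hμunit hu₁ huQ huμ hf0 hf₁ p D hfD hβ0 hβ₁ hβQ hNα hNβ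
  obtain ⟨hWα, hWβ, hWinv, d, hd, hWd⟩ := hW W hWu
  have hWβ0 : valT Qβ hQβ (Nβ W) ≠ 0 := valT_ne_zero Qβ hQβ hWβ
  have hWq : IsPU 𝒜 π (valT Qα hQα (Nα W) / valT Qβ hQβ (Nβ W)) :=
    isPU_div_of_eq_add hWinv hWβ0 hd hWd
  obtain ⟨y, hy, hy0, hymem⟩ := exists_y_of_node (𝒜 := 𝒜) (hQα := hQα) (hQβ := hQβ) hπ hπ0 hp
    (n := μ f - p * μ (betaS u S D c)) (m := μ f) (k := μ (betaS u S D c)) rfl
    hstepA hstepB hUα hUβ hWα hWβ htA htB hUαv heA hUβv heB hWq
  refine ⟨y, hy0, hymem, ?_⟩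
  intro σ σ' hσα hσβ hσu hσS hσD hσc hσhA hσhB hσQα hσQβ hσtA hσtB hσπ
  have hβσ : σ • betaS u S D c = betaS u S D c := smul_betaS σ hσu S hσS D hσD c hσc
  have hfix := yNode_fixed (hQα := hQα) (hQβ := hQβ) σ σ' hσα hσβ hβσ hσhA hσhB hσQα hσQβ
    hσtA hσtB (μ f - p * μ (betaS u S D c))
  rw [hy, map_mul, map_zpow₀, hσπ, hfix]

end Main

end Fermat.Agent.S40.M1.R4Node
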