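/-
S40 / S44 (row 38), T6′ static route (`moonshots` row 67), block (R4), FINAL SEAM (helper25; dispatch
#3267 (a), pair of helper5): **`p ∣ ord_{s′} (red f̃)` at a supersingular place of a good level, from
the named inputs of (R4) in their owners' shapes.**

Good level `K ⊇ K₀` (`K₀` unramified), level `N p` (`4 ∣ N` is hidden in `hn`), `s` a supersingular
place of the finite chart of the special fibre `FF κ N`, `𝔫 = F4Node.centreFin s hj` its crossing point,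
`hn : HonestNode … 𝔫 u₀ v₀ G₀` the honest node (`NodeHonest.exists_honestNode_levels`,
`NodeHonestP.exists_honestNodeP_levels`), `u = finIncl u₀`, `f̃` a `V₁`-unit with `p ∣ div f̃` and exact
level norms `h_A ^ p`, `h_B ^ p`.

★ `dvd_ord_of_node` : `(p : ℤ) ∣ s.ord (redG f̃)` from

* [NF][U] — DISCHARGED here (`NodeFactorLevel.muMul_muOrd/muOrd_pos/muOrd_unit/muOrd_u`, `F4Node`);
* [H3] `hc₁ hc1 hc2` for `c := NodeGalois.cU u` on a finite set `S` with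
  `hSchar : P ∈ S ↔ P ∈ centredSet 𝔫 ∧ P.ord f̃ ≠ 0` (helper5 `NodeLocPChart`/`H3Level`);
* test places `Q_α Q_β` (rational), [R4a] `hUα hUβ hUαv heA hUβv heB`, [R4b] `hW`
  (helper18/helper2 `NormU(Base/Val)`, helper1 | team B `NodeD…`), VERBATIM as in `R4Node.r4_node_abs`
  at `F' := FF (Lvl K) N`, `N_α := normAlphaK K N p`, `𝒜 := NodeQbar.lvlVS A K`, `π := (p : Lvl K)`;
* [INV] for every `σ₀ ∈ I_A` with `Fix σ₀`: `σ • f̃ = f̃`, `σ' • h_A = h_A`, `σ' • h_B = h_B`,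
  `σ' • Q_α = Q_α`, `σ' • Q_β = Q_β`, `σ₀ t_A = t_A`, `σ₀ t_B = t_B` (helper13 `NodeGalois`, helper17
  `TestPointInv`); the other antecedents (`σ • u = u`, stability of `S`, `D`, `c`, norm equivariance,
  `σ₀ p = p`) are DISCHARGED here;
* (R5) in the norm form of the global pack (`NodeQbar.dvd_of_node_at`'s `hR5`, helper29
  `PeuApproxFrey`).
-/
import Mathlib
import Fermat.Agent.S40.M1.NodeFactorLevel
import Fermat.Agent.S40.M1.R4Node
import Fermat.Agent.S40.M1.NodeGalois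
import Fermat.Agent.S40.M1.NodeQbar
import Fermat.Agent.S40.W.F4Node

set_option autoImplicit false
set_option linter.unusedSectionVars false
set_option linter.unusedVariables false
set_option linter.style.haveILetI false
set_option linter.style.longLine false

open ModularCurve Fermat.Agent.S28.Gauss Fermat.Agent.N4.Setting Fermat.Agent.N4.FibreEmbedding
open Fermat.Agent.N4.Chart
open Fermat.Agent.N4F.E.DegreeLevelRaise Fermat.Agent.N4F.E.GaussDVR AlgebraicCurve Polynomial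
open Fermat.Agent.N4F.E IsLocalRing Fermat.Agent.P3G.RbarFin Fermat.Agent.P3G.TwoComponents
open Fermat.Agent.P3G.TwoComponentsFinal Fermat.Agent.P3G Fermat.Agent.P4
open Fermat.Agent.P4.TwistRoots Fermat.Agent.P3G.UCrit
open Fermat.Agent.S40.W.F4Level Fermat.Agent.S40.W.F4Place Fermat.Agent.S40.W.F4Node
open Fermat.Agent.N4.BaseDescent Fermat.Agent.S19.Cech.LevelBasis
open Fermat.Agent.S40.M1.NodeHonest Fermat.Agent.S40.M1.NodeFactor
open Fermat.Agent.S40.M1.NodeFactorLevel Fermat.Agent.S40.M1.NodeInv Fermat.Agent.S40.M1.NodeCore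
open Fermat.Agent.S40.M1.NodeGalois Fermat.Agent.S40.M1.NodeQbar
open Fermat.Agent.P4.FrobLevelStep Fermat.Agent.P3G.GammaAut

noncomputable section

namespace Fermat.Agent.S40.M1.R4Final

section Levels

open Fermat.Agent.N4.S18Glue Fermat.Agent.N4.BigDVR
  Fermat.Agent.P3G.Assembly.StepOfLevel Fermat.Agent.P3G.Assembly.LevelStep
  Fermat.Agent.N4F.C Fermat.Agent.N4F.C.Levels Fermat.Agent.N4F.C.Galois
  Fermat.Agent.S33.L.Contracts Fermat.Agent.N4F.C.ChartFibre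
  Fermat.Agent.S36.Descent.UnramLevel Fermat.Agent.P3G.Gamma

local notation "Qbar" => AlgebraicClosure ℚ
local notation "Γ" => (AlgebraicClosure ℚ ≃ₐ[ℚ] AlgebraicClosure ℚ)

variable (N p : ℕ) [NeZero N] [Fact p.Prime] (hpN : ¬ p ∣ N)
  (A : ValuationSubring Qbar) (hA : A.LiesOverPrime p)
  {K₀ K : IntermediateField ℚ Qbar} (hKL : K₀ ≤ K)
  (hK₀ : IsUnramLevel A p K₀) (hK : IsGoodLevel A p K)
  [IsDiscreteValuationRing ↥(baseRing A K₀)] [IsDiscreteValuationRing ↥(baseRing A K)]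
  [CharP (IsLocalRing.ResidueField ↥(baseRing A K₀)) p]
  [PerfectRing (IsLocalRing.ResidueField ↥(baseRing A K₀)) p]
  [CharP (IsLocalRing.ResidueField ↥(baseRing A K)) p]
  [PerfectRing (IsLocalRing.ResidueField ↥(baseRing A K)) p]
  (hA2₀ : ∀ x : ↥(gaussSubalgebra (Lvl K₀) N (baseRing A K₀)),
    theta (Lvl K₀) N (baseRing A K₀) x ∈
      modularFunctionFieldFullC (IsLocalRing.ResidueField ↥(baseRing A K₀)) N)
  (hA2 : ∀ x : ↥(gaussSubalgebra (Lvl K) N (baseRing A K)),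
    theta (Lvl K) N (baseRing A K) x ∈
      modularFunctionFieldFullC (IsLocalRing.ResidueField ↥(baseRing A K)) N)
  (S₂ : Fermat.Agent.P3G.FibreTwo.SecondVal (Lvl K) N p (baseRing A K))

set_option maxHeartbeats 3200000 in
set_option synthInstance.maxHeartbeats 400000 in
include hpN hA hK₀ hK hA2₀ in
/-- ★ **(R4) ∘ (Q) ∘ (R5) at a supersingular place of a good level, from the named inputs.** -/
theorem dvd_ord_of_node
    (Fix : Γ → Prop) (hFix : ∀ g σ : Γ, Fix σ → Fix (g * σ * g⁻¹))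
    (hR5 : ∀ y : Qbar, y ≠ 0 → ∀ n : ℤ,
      (∀ σ ∈ (padicPlace p).inertiaSubgroupIn ℚ, Fix σ → σ y = y) →
      ‖padicEmbedding p (y ^ p / (p : Qbar) ^ n - 1)‖ ≤ ‖(p : PadicAlgCl p)‖ → (p : ℤ) ∣ n)
    {ϖ : ↥(baseRing A K)} (hϖ : Irreducible ϖ)
    (s : Place (IsLocalRing.ResidueField ↥(baseRing A K))
      (FF (IsLocalRing.ResidueField ↥(baseRing A K)) N))
    (hj : jF (IsLocalRing.ResidueField ↥(baseRing A K)) N ∈ s.toValuationSubring)
    (hss : IsSSFin (Lvl K) N p (baseRing A K) (Fermat.Agent.P3G.GammaV2.lvlToComplex K) hpN hA2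
      S₂ s)
    {u₀ v₀ G₀ : ↥(Rfin (Lvl K₀) (N * p) (baseRing A K₀))}
    (hn : HonestNode (Lvl K₀) (Lvl K) N p (baseRing A K₀) (baseRing A K) (lvlIncl hKL)
      (lvlIncl_mem A hKL) S₂
      (centreFin (Lvl K) N p (baseRing A K) (Fermat.Agent.P3G.GammaV2.lvlToComplex K) hpN hA2 S₂
        s hj) u₀ v₀ G₀)
    -- the function
    {f : FF (Lvl K) (N * p)} (hf0 : f ≠ 0)
    (hf₁ : (gaussVS (Lvl K) (N * p) (baseRing A K)).valuation f = 1)
    (hdiv : ∀ Q : Place (Lvl K) (FF (Lvl K) (N * p)), (p : ℤ) ∣ Q.ord f)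
    {hA' hB' : FF (Lvl K) N} (hNα : normAlphaK K N p f = hA' ^ p)
    (hNβ : normBetaK K N p f = hB' ^ p)
    -- [H3]
    (S : Finset (Place (Lvl K) (FF (Lvl K) (N * p))))
    (hSchar : ∀ P, P ∈ S ↔
      P ∈ centredSet (F := FF (Lvl K) (N * p)) (Lvl K)
        (centreFin (Lvl K) N p (baseRing A K) (Fermat.Agent.P3G.GammaV2.lvlToComplex K) hpN hA2
          S₂ s hj) ∧ P.ord f ≠ 0)
    (hc₁ : ∀ P ∈ S, (gaussVS (Lvl K) (N * p) (baseRing A K)).valuation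
      (((finIncl A (N * p) hKL u₀ : ↥(Rfin (Lvl K) (N * p) (baseRing A K))) :
          FF (Lvl K) (N * p)) -
        algebraMap (Lvl K) (FF (Lvl K) (N * p))
          (cU ((finIncl A (N * p) hKL u₀ : ↥(Rfin (Lvl K) (N * p) (baseRing A K))) :
            FF (Lvl K) (N * p)) P)) = 1)
    (hc1 : ∀ P ∈ S, P.ord
      (((finIncl A (N * p) hKL u₀ : ↥(Rfin (Lvl K) (N * p) (baseRing A K))) :
          FF (Lvl K) (N * p)) -
        algebraMap (Lvl K) (FF (Lvl K) (N * p))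
          (cU ((finIncl A (N * p) hKL u₀ : ↥(Rfin (Lvl K) (N * p) (baseRing A K))) :
            FF (Lvl K) (N * p)) P)) = 1)
    (hc2 : ∀ P ∈ S, ∀ Q ∈ centredSet (F := FF (Lvl K) (N * p)) (Lvl K)
        (centreFin (Lvl K) N p (baseRing A K) (Fermat.Agent.P3G.GammaV2.lvlToComplex K) hpN hA2
          S₂ s hj), Q ≠ P → Q.ord
      (((finIncl A (N * p) hKL u₀ : ↥(Rfin (Lvl K) (N * p) (baseRing A K))) :
          FF (Lvl K) (N * p)) -
        algebraMap (Lvl K) (FF (Lvl K) (N * p))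
          (cU ((finIncl A (N * p) hKL u₀ : ↥(Rfin (Lvl K) (N * p) (baseRing A K))) :
            FF (Lvl K) (N * p)) P)) = 0)
    -- the test places
    (Qα Qβ : Place (Lvl K) (FF (Lvl K) N))
    (hQα : Function.Bijective (algebraMap (Lvl K) Qα.ResidueField))
    (hQβ : Function.Bijective (algebraMap (Lvl K) Qβ.ResidueField))
    -- [R4a]
    (hUα : Qα.toValuationSubring.valuation (normAlphaK K N p
      ((finIncl A (N * p) hKL u₀ : ↥(Rfin (Lvl K) (N * p) (baseRing A K))) :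
        FF (Lvl K) (N * p))) = 1)
    (hUβ : Qβ.toValuationSubring.valuation (normBetaK K N p
      ((finIncl A (N * p) hKL u₀ : ↥(Rfin (Lvl K) (N * p) (baseRing A K))) :
        FF (Lvl K) (N * p))) = 1)
    {tA tB eA eB : Lvl K} (htA : tA ≠ 0) (htB : tB ≠ 0)
    (hUαv : valT Qα hQα (normAlphaK K N p
      ((finIncl A (N * p) hKL u₀ : ↥(Rfin (Lvl K) (N * p) (baseRing A K))) :
        FF (Lvl K) (N * p))) = (p : Lvl K) ^ p * tA ^ p * eA)
    (heA : IsPU (lvlVS A K) (p : Lvl K) eA)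
    (hUβv : valT Qβ hQβ (normBetaK K N p
      ((finIncl A (N * p) hKL u₀ : ↥(Rfin (Lvl K) (N * p) (baseRing A K))) :
        FF (Lvl K) (N * p))) = (p : Lvl K) * tB ^ p * eB)
    (heB : IsPU (lvlVS A K) (p : Lvl K) eB)
    -- [R4b]
    (hW : ∀ W : FF (Lvl K) (N * p),
      IsUnitAt (centreFin (Lvl K) N p (baseRing A K) (Fermat.Agent.P3G.GammaV2.lvlToComplex K) hpN
        hA2 S₂ s hj) W →
      Qα.toValuationSubring.valuation (normAlphaK K N p W) = 1 ∧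
      Qβ.toValuationSubring.valuation (normBetaK K N p W) = 1 ∧
      (valT Qβ hQβ (normBetaK K N p W))⁻¹ ∈ lvlVS A K ∧
      ∃ d ∈ lvlVS A K, valT Qα hQα (normAlphaK K N p W) =
        valT Qβ hQβ (normBetaK K N p W) + (p : Lvl K) * d)
    -- [INV]
    (hinv : ∀ σ₀ ∈ A.inertiaSubgroupIn ℚ, Fix σ₀ →
      levelFF K hK.stable (N * p) σ₀ • f = f ∧
      levelFF K hK.stable N σ₀ • hA' = hA' ∧ levelFF K hK.stable N σ₀ • hB' = hB' ∧
      levelFF K hK.stable N σ₀ • Qα = Qα ∧ levelFF K hK.stable N σ₀ • Qβ = Qβ ∧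
      levelAut K hK.stable σ₀ tA = tA ∧ levelAut K hK.stable σ₀ tB = tB) :
    (p : ℤ) ∣ s.ord (redG (Lvl K) N p (baseRing A K) (Fermat.Agent.P3G.GammaV2.lvlToComplex K) hpN
      hA2 S₂ ⟨f, mem_gauss_of_valuation_eq_one (Lvl K) N p (baseRing A K) hf₁⟩) := by
  have hp : p.Prime := Fact.out
  obtain ⟨-, hprime₀, -, -, -, -, -⟩ := levelFacts_unram N p hpN A hA K₀ hK₀
  obtain ⟨hN, hprime, hsm, -, -, -⟩ := Fermat.Agent.S40.W.F4Good.levelFacts_good N p hpN A hA K hK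
  obtain ⟨T₂⟩ := Fermat.Agent.P3G.FibreTwo.nonempty_secondVal (Lvl K₀) N p (baseRing A K₀)
    (Fermat.Agent.P3G.GammaV2.lvlToComplex K₀) hpN hprime₀ hA2₀
  have H := levelRestrictHyp_levels N p hpN A hA hKL hK₀ hK hA2₀ hA2 T₂ S₂
  set ι := Fermat.Agent.P3G.GammaV2.lvlToComplex K with hι
  set 𝔫 := centreFin (Lvl K) N p (baseRing A K) ι hpN hA2 S₂ s hj with h𝔫def
  haveI h𝔫 : 𝔫.IsMaximal := centreFin_isMaximal (Lvl K) N p (baseRing A K) hN ι hpN hprime hsm hA2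
    S₂ s hj
  have ht₁ : Through (gaussVS (Lvl K) (N * p) (baseRing A K)) 𝔫 :=
    through_gauss_centreFin (Lvl K) N p (baseRing A K) ι hpN hA2 S₂ s hj
  have ht₂ : Through S₂.V 𝔫 := (isSSFin_iff_through (Lvl K) N p (baseRing A K) ι hpN hA2 S₂ s hj).1 hss
  have hs𝔫 : ∀ r ∈ 𝔫, redFinL (Lvl K) N p (baseRing A K) ι hpN hA2 S₂ r ∈
      s.toValuationSubring.nonunits := fun r hr =>
    (mem_centreFin_iff (Lvl K) N p (baseRing A K) ι hpN hA2 S₂ s hj r).1 hr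
  haveI := Fermat.Agent.N4.ModPolySetting.finiteDimensional_FF (Lvl K) (N * p)
  have hjt := Fermat.Agent.N4.FFAlgebraic.transcendental_jF (Lvl K) (N * p)
  haveI : IsNoetherianRing ↥(Rfin (Lvl K) (N * p) (baseRing A K)) :=
    Fermat.Agent.N4.IntClosure.isNoetherianRing_chartAlg (K := Lvl K) (jF (Lvl K) (N * p)) hjt
  haveI : IsFractionRing ↥(Rfin (Lvl K) (N * p) (baseRing A K)) (FF (Lvl K) (N * p)) :=
    Fermat.Agent.N4.Cover.Main.isFractionRing_chartAlg (O := ↥(baseRing A K)) (K₀ := Lvl K)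
      (jF (Lvl K) (N * p)) hjt
  haveI : IsIntegrallyClosed ↥(Rfin (Lvl K) (N * p) (baseRing A K)) :=
    Fermat.Agent.N4.Cover.Main.isIntegrallyClosed_chartAlg (O := ↥(baseRing A K)) (K₀ := Lvl K)
      (jF (Lvl K) (N * p)) hjt
  have hS := BranchNormalLevel.setup_fin (Lvl K) N p (baseRing A K) hN ι hpN hprime hsm hA2 S₂ hϖ
  set u : FF (Lvl K) (N * p) :=
    ((finIncl A (N * p) hKL u₀ : ↥(Rfin (Lvl K) (N * p) (baseRing A K))) : FF (Lvl K) (N * p))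
    with hu
  set μ := muOrd (Lvl K) N p (baseRing A K) ι hpN hA2 S₂ s with hμ
  set D : Place (Lvl K) (FF (Lvl K) (N * p)) → ℤ := fun Q => Q.ord f / (p : ℤ) with hD
  have hfD : ∀ Q ∈ centredSet (F := FF (Lvl K) (N * p)) (Lvl K) 𝔫, Q.ord f = p * D Q :=
    fun Q _ => (Int.mul_ediv_cancel' (hdiv Q)).symm
  have hSD : ∀ Q ∈ centredSet (F := FF (Lvl K) (N * p)) (Lvl K) 𝔫, Q ∉ S → D Q = 0 := by
    intro Q hQ hQS
    have h0 : Q.ord f = 0 := by
      by_contra h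
      exact hQS ((hSchar Q).2 ⟨hQ, h⟩)
    simp only [hD, h0, Int.zero_ediv]
  have hπ : ((p : ℕ) : Lvl K) ∈ (lvlVS A K).nonunits := natCast_mem_nonunits_lvlVS hA
  have hπ0 : ((p : ℕ) : Lvl K) ≠ 0 := Nat.cast_ne_zero.2 hp.ne_zero
  obtain ⟨y, hy0, hymem, hyfix⟩ := Fermat.Agent.S40.M1.R4Node.r4_node_abs (K := Lvl K)
    (gaussVS (Lvl K) (N * p) (baseRing A K)) S₂.V hS.mem₁ hS.mem₂ hϖ
    (unif_mem_nonunits_of_setup hS).1 (unif_mem_nonunits_of_setup hS).2 hS.sat 𝔫 μ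
    (normAlphaK K N p) (normBetaK K N p) (lvlVS A K) hπ hπ0 hp.pos Qα Qβ hQα hQβ ht₁ ht₂
    (muMul_muOrd (Lvl K) N p (baseRing A K) ι hpN hA2 S₂ s)
    (muOrd_pos (Lvl K) N p (baseRing A K) ι hpN hA2 S₂ 𝔫 s hs𝔫)
    (muOrd_unit (Lvl K) N p (baseRing A K) hN ι hpN hprime hsm hA2 S₂ hϖ 𝔫 ht₁ s hj hs𝔫)
    hn.val₁_u hn.hor_u (muOrd_u hpN hN ι hprime hsm hA2 hn H s hj hs𝔫) hf0 hf₁ D hfD hNα hNβ
    S hSD (cU u) hc₁ hc1 hc2 hUα hUβ htA htB hUαv heA hUβv heB hW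
  rw [hμ, muOrd_eq (Lvl K) N p (baseRing A K) ι hpN hA2 S₂ s hf₁] at hymem
  refine dvd_of_node_at K hK.stable Fix hFix hR5 hA _ hy0 hymem ?_
  intro σ₀ hσ₀ hFσ
  obtain ⟨hσf, hσA, hσB, hσQα, hσQβ, hσtA, hσtB⟩ := hinv σ₀ hσ₀ hFσ
  have hσu : levelFF K hK.stable (N * p) σ₀ • u = u :=
    levelFF_smul_finMap hKL hK.stable (N * p) A (fun y hy => hK₀.fixed σ₀ hσ₀ y hy) u₀
  have hcen : ∀ P ∈ centredSet (F := FF (Lvl K) (N * p)) (Lvl K) 𝔫,
      levelFF K hK.stable (N * p) σ₀ • P ∈ centredSet (F := FF (Lvl K) (N * p)) (Lvl K) 𝔫 :=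
    smul_mem_centredSet N p hpN A hA K hK hϖ hσ₀ 𝔫
      (unif_mem_centreFin (Lvl K) N p (baseRing A K) hN ι hpN hprime hsm hA2 S₂ hϖ s hj)
  have h := hyfix (levelFF K hK.stable (N * p) σ₀) (levelFF K hK.stable N σ₀)
    (normAlphaK_smul K hK.stable N p σ₀) (normBetaK_smul K hK.stable N p σ₀) hσu
    (smul_mem_of_centred _ hσf hcen S hSchar)
    (fun P _ => ediv_ord_smul _ hσf (p : ℤ) P)
    (fun P _ => cU_smul _ hσu P) hσA hσB hσQα hσQβ hσtA hσtB
    (Fermat.Agent.S40.M1.NodeGalois.levelAut_natCast K hK.stable σ₀ p)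
  exact h

end Levels

end Fermat.Agent.S40.M1.R4Final
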