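/-
S44/S40 (`moonshots` row 67; helper20; dispatch #3207 (2)): **the named leaf `M1/Main.SSLeaf`
((n6′) = (R4) ∘ (AUX) ∘ (R5′)) FROM THE TWO NAMED LEAVES (R4) AND (R5′).**

Setting of `M1/Main`: level `M p`, `p ∤ M`, `5 ≤ p`, `A` a place of `ℚ̄` over `p`, `L₀` the small
good level, `f₀` a representative over `L₀` with exact level norms.  `N` is the auxiliary level
(`M ∣ N`, `ψ(N) = ψ(M) c`, `c ∣ 6`; in the application `N = lcm(4, M)`), where all supersingular
crossing points are honest nodes (`k_s = 1`).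

For a good level `K ⊇ L₀, K₂`, put `f_K := ffMap f₀`, `f̃ := inclL f_K = ffMap (inclL f₀)`
(level `N p`).  Then `p ∣ ord_{s'} (red f̃)` at EVERY place `s'` of `FF κ N`:
* `s'` not supersingular: `W/F4Good.f4_place_good` at level `N` (inputs: `f̃` is a `V₁`-unit,
  `p ∣ div f̃`, zeros and poles `K`-rational — the latter from `K₂`);
* `s'` supersingular: (R4) `R4Leaf` gives `y` with `y ^ p / p ^ ((p-1) m) ∈ 1 + p A`,
  `m = ord_{s'} (red f̃)`, fixed by the inertia elements fixing `L₀` pointwise; (R5′) gives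
  `p ∣ (p - 1) m`.
Then helper6's `AuxOrd.dvd_ord_redG_of_forall_aux'` (`e := p`, `c ∣ 6`) descends to level `M`.

* `R4Leaf` : the (R4) named leaf (static node identity at the auxiliary level), level form;
* ★ `ssLeaf_of_leaves` : `SSLeaf M p hpM A L₀ V` from `R4Leaf N p hpN A L₀` and (R5′)
  (`∀ n, ApproxRoot p A (fixes V) n → p ∣ n`);
* ★ `ssLeaf_bigLevel` : the instance `L₀ = bigLevel A (smallField V)`.
-/
import Mathlib
import Fermat.Agent.S40.M1.Main
import Fermat.Agent.S40.M1.AuxOrd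
import Fermat.Agent.S40.M1.SSVanish

set_option autoImplicit false
set_option linter.unusedSectionVars false
set_option linter.unusedVariables false
set_option linter.dupNamespace false
set_option linter.style.haveILetI false
set_option synthInstance.maxHeartbeats 400000
set_option maxHeartbeats 1600000

open ModularCurve AlgebraicCurve IntermediateField

noncomputable section

namespace Fermat.Agent.S40.M1.SSLeafAsm

open Fermat.Agent.S28.Gauss
open Fermat.Agent.N4.Setting Fermat.Agent.N4.BaseDescent Fermat.Agent.N4.BigDVR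
  Fermat.Agent.N4.Chart Fermat.Agent.N4.S18Glue Fermat.Agent.N4.FibreEmbedding
  Fermat.Agent.P3G.Assembly.LevelStep Fermat.Agent.P3G.Assembly.StepOfLevel
  Fermat.Agent.P3G.GammaDict Fermat.Agent.P3G.GeomStep
  Fermat.Agent.P3G.Gamma Fermat.Agent.P3G.GammaAut
  Fermat.Agent.N4F.C Fermat.Agent.N4F.C.Levels Fermat.Agent.N4F.C.Galois
  Fermat.Agent.N4F.E.GaussDVR Fermat.Agent.N4F.C.ChartFibre
  Fermat.Agent.N4F.E.DegreeLevelRaise
  Fermat.Agent.N4F.Res Fermat.Agent.N4F.A.LevelMaps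
  Fermat.Agent.P4.Push Fermat.Agent.P4.FrobLevelStep
  Fermat.Agent.S19.Cech.LevelBasis
  Fermat.Agent.S33.L.Contracts
  Fermat.Agent.S40.Top.Eigen Fermat.Agent.S40.Top.CopyOfE
  Fermat.Agent.S40.W.F4Level Fermat.Agent.S40.W.F4Place Fermat.Agent.S40.W
  Fermat.Agent.S40.M4.Final Fermat.Agent.S40.New.Pack
  Fermat.Agent.S40.M1.SmallField Fermat.Agent.S40.M1.LevelUp Fermat.Agent.S40.M1.Main
  Fermat.Agent.S40.M1.AuxLevel Fermat.Agent.S40.M1.AuxVal Fermat.Agent.S40.M1.AuxOrd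
  Fermat.Agent.S40.M1.SSVanish
  Fermat.Agent.P3G

local notation "Qbar" => AlgebraicClosure ℚ
local notation "Γ" => (AlgebraicClosure ℚ ≃ₐ[ℚ] AlgebraicClosure ℚ)

/-! ### The (R4) named leaf -/

section Leaf

variable (N p : ℕ) [NeZero N] [Fact p.Prime] (hpN : ¬ p ∣ N) (A : ValuationSubring Qbar)

/-- **(R4), named leaf (level form)**: the static node identity at the (auxiliary) level `N p`.
`g₀` a nonzero function over the small level `L₀` with exact level norms over `L₀`.  There is a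
number field `K₃` such that at every good level `K ⊇ L₀, K₃`, for every second valuation `T₂`: if the
image `g` of `g₀` has divisor divisible by `p`, `K`-rational zeros and poles, and is a unit of both
vertical valuations, then at every supersingular place `s` of the finite chart there is
`y ∈ ℚ̄ˣ`, fixed by every element of the inertia group of `A` fixing `L₀` pointwise, with
`y ^ p / p ^ ((p - 1) m) ∈ 1 + p A`, `m = ord_s (red g)`. -/
def R4Leaf (L₀ : IntermediateField ℚ Qbar) : Prop :=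
  ∀ g₀ : FF (Lvl L₀) (N * p), g₀ ≠ 0 →
    (∃ a' : FF (Lvl L₀) N, normAlphaK L₀ N p g₀ = a' ^ p) →
    (∃ b' : FF (Lvl L₀) N, normBetaK L₀ N p g₀ = b' ^ p) →
    ∃ K₃ : IntermediateField ℚ Qbar, FiniteDimensional ℚ K₃ ∧
      ∀ (K : IntermediateField ℚ Qbar) (_ : IsGoodLevel A p K)
        [IsDiscreteValuationRing ↥(baseRing A K)]
        (T₂ : Fermat.Agent.P3G.FibreTwo.SecondVal (Lvl K) N p (baseRing A K))
        (hLK : L₀ ≤ K), K₃ ≤ K →
        (∀ Q : Place (Lvl K) (FF (Lvl K) (N * p)),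
          (p : ℤ) ∣ Q.ord (ffMap (lvlIncl hLK) (N * p) g₀)) →
        (∀ Q : Place (Lvl K) (FF (Lvl K) (N * p)),
          Q.ord (ffMap (lvlIncl hLK) (N * p) g₀) ≠ 0 →
          Function.Bijective (algebraMap (Lvl K) Q.ResidueField)) →
        T₂.V.valuation (ffMap (lvlIncl hLK) (N * p) g₀) = 1 →
        ∀ [CharP (IsLocalRing.ResidueField ↥(baseRing A K)) p]
          [PerfectRing (IsLocalRing.ResidueField ↥(baseRing A K)) p]
          (hA2 : ∀ x : ↥(gaussSubalgebra (Lvl K) N (baseRing A K)),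
            theta (Lvl K) N (baseRing A K) x ∈
              modularFunctionFieldFullC (IsLocalRing.ResidueField ↥(baseRing A K)) N)
          (hg₁ : (gaussVS (Lvl K) (N * p) (baseRing A K)).valuation
            (ffMap (lvlIncl hLK) (N * p) g₀) = 1)
          (s : Place (IsLocalRing.ResidueField ↥(baseRing A K))
            (FF (IsLocalRing.ResidueField ↥(baseRing A K)) N)),
          jF (IsLocalRing.ResidueField ↥(baseRing A K)) N ∈ s.toValuationSubring →
          IsSSFin (Lvl K) N p (baseRing A K) (Fermat.Agent.P3G.GammaV2.lvlToComplex K) hpN hA2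
            T₂ s →
          ∃ y : Qbar, y ≠ 0 ∧
            (∀ σ ∈ A.inertiaSubgroupIn ℚ, (∀ c ∈ L₀, σ c = c) → σ y = y) ∧
            (y ^ p / (p : Qbar) ^ (((p : ℤ) - 1) *
              s.ord (redG (Lvl K) N p (baseRing A K) (Fermat.Agent.P3G.GammaV2.lvlToComplex K)
                hpN hA2 T₂ ⟨ffMap (lvlIncl hLK) (N * p) g₀,
                  mem_gauss_of_valuation_eq_one (Lvl K) N p (baseRing A K) hg₁⟩)) - 1) /
              (p : Qbar) ∈ A

end Leaf

/-! ### Small lemmas -/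

section Small

/-- Change of modular level commutes with change of the base field. -/
theorem ffMap_inclF {K K' : Type} [Field K] [Field K'] (f : K →+* K') {M N : ℕ} [NeZero M]
    [NeZero N] (h : M ∣ N) (x : FF K M) :
    ffMap f N (inclF K h x) = inclF K' h (ffMap f M x) := by
  apply Subtype.ext
  rw [coe_ffMap, coe_inclF, coe_inclF, coe_ffMap]

/-- `p ∣ (p - 1) m → p ∣ m`. -/
theorem dvd_of_dvd_pred_mul {p : ℕ} (hp : p.Prime) {m : ℤ} (h : (p : ℤ) ∣ ((p : ℤ) - 1) * m) :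
    (p : ℤ) ∣ m := by
  have h1 : (p : ℤ) ∣ (p : ℤ) * m - ((p : ℤ) - 1) * m := dvd_sub (dvd_mul_right _ _) h
  have h2 : (p : ℤ) * m - ((p : ℤ) - 1) * m = m := by ring
  rwa [h2] at h1

end Small

/-! ### The assembly -/

section Asm

variable {M N p : ℕ} [NeZero M] [NeZero N] [NeZero p] [Fact p.Prime]
  {A : ValuationSubring Qbar}

/-- ★ **`SSLeaf` from (R4) at the auxiliary level and (R5′).** -/
theorem ssLeaf_of_leaves (hp5 : 5 ≤ p) (hpM : ¬ p ∣ M) (hpN : ¬ p ∣ N) (h : M ∣ N)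
    {c : ℕ} (hc : c ∣ 6) (hψ : dedekindPsi N = dedekindPsi M * c)
    (hA : A.LiesOverPrime p) (L₀ : IntermediateField ℚ Qbar)
    (V : Submodule (ZMod p) (Jtors (M * p) p))
    (hfixL : ∀ σ ∈ A.inertiaSubgroupIn ℚ, (∀ x ∈ V, galTors (M * p) p σ x = x) →
      ∀ c ∈ L₀, σ c = c)
    (hR4 : R4Leaf N p hpN A L₀)
    (hR5 : ∀ n : ℤ, ApproxRoot p A (fun σ => ∀ x ∈ V, galTors (M * p) p σ x = x) n →
      (p : ℤ) ∣ n) :
    SSLeaf M p hpM A L₀ V := by
  classical
  have hp : p.Prime := Fact.out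
  intro x hx f₀ hrep hnα hnβ
  obtain ⟨hf₀, -⟩ := Fermat.Agent.S40.M4.LGLevel.ne_zero_and_dvd_of_isRep hrep
  -- the function at the auxiliary level, over `L₀`
  set g₀ : FF (Lvl L₀) (N * p) := inclL (Lvl L₀) h p f₀ with hg₀def
  have hg₀ : g₀ ≠ 0 := (map_ne_zero _).mpr hf₀
  have hnα' : ∃ a' : FF (Lvl L₀) N, normAlphaK L₀ N p g₀ = a' ^ p := by
    obtain ⟨a', ha'⟩ := hnα
    exact ⟨inclF (Lvl L₀) h a', by rw [hg₀def, normAlphaK_inclL h p L₀ hpN, ha', map_pow]⟩
  have hnβ' : ∃ b' : FF (Lvl L₀) N, normBetaK L₀ N p g₀ = b' ^ p := by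
    obtain ⟨b', hb'⟩ := hnβ
    exact ⟨inclF (Lvl L₀) h b', by rw [hg₀def, normBetaK_inclL h p L₀ hpN, hb', map_pow]⟩
  obtain ⟨K₃, hK₃fin, hK₃⟩ := hR4 g₀ hg₀ hnα' hnβ'
  -- the field of definition of the zeros and poles at the auxiliary level
  haveI := Fermat.Agent.N4F.A.LevelMaps.hasPrincipalDivisors_bar (N * p)
  have hg₀' : levK (N * p) L₀ g₀ ≠ 0 := (map_ne_zero _).mpr hg₀
  obtain ⟨D', hD', -⟩ := HasPrincipalDivisors.exists_divisor (K := Qb) (levK (N * p) L₀ g₀) hg₀'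
  obtain ⟨K₄, hK₄fin, hK₄⟩ := exists_finiteDimensional_level (N * p) ∅ D'.support
  haveI := hK₃fin
  haveI := hK₄fin
  refine ⟨K₃ ⊔ K₄, IntermediateField.finiteDimensional_sup K₃ K₄, ?_⟩
  intro K hK _ S₂ hLK hle hrepK hnormK
  have h3 : K₃ ≤ K := le_sup_left.trans hle
  have h4 : K₄ ≤ K := le_sup_right.trans hle
  intro _ _ hA2 hf₁ s hj hs
  -- notation
  set fK : FF (Lvl K) (M * p) := ffMap (lvlIncl hLK) (M * p) f₀ with hfKdef
  obtain ⟨hfK0, hdivK⟩ := Fermat.Agent.S40.M4.LGLevel.ne_zero_and_dvd_of_isRep hrepK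
  obtain ⟨-, -, hv₂, -, -, hratK⟩ := hnormK
  -- level facts at `N` and `M`
  haveI : IsFractionRing ↥(baseRing A K) (Lvl K) := isFractionRing_trSubring A K
  obtain ⟨hNu, hprimeN, -, -, -, hA2N⟩ := Fermat.Agent.S40.W.F4Good.levelFacts_good N p hpN A hA K hK
  obtain ⟨-, hprimeM, -, -, -, -⟩ := Fermat.Agent.S40.W.F4Good.levelFacts_good M p hpM A hA K hK
  obtain ⟨T₂⟩ := Fermat.Agent.S33.L.PointsUniform.nonempty_secondVal_lvl N p hpN A hA K hK
  obtain ⟨ϖ, hϖ⟩ := IsDiscreteValuationRing.exists_irreducible ↥(baseRing A K)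
  -- the function at the auxiliary level, over `K`
  have hgK : inclL (Lvl K) h p fK = ffMap (lvlIncl hLK) (N * p) g₀ :=
    (ffMap_inclF (lvlIncl hLK) (Nat.mul_dvd_mul_right h p) f₀).symm
  have hg0 : ffMap (lvlIncl hLK) (N * p) g₀ ≠ 0 := (map_ne_zero _).mpr hg₀
  have hg₁ : (gaussVS (Lvl K) (N * p) (baseRing A K)).valuation
      (ffMap (lvlIncl hLK) (N * p) g₀) = 1 := by
    rw [← hgK]
    exact (valuation_gaussVS_inclF_eq_one_iff (Lvl K) (baseRing A K)
      (Nat.mul_dvd_mul_right h p)).2 hf₁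
  have hg₂ : T₂.V.valuation (ffMap (lvlIncl hLK) (N * p) g₀) = 1 := by
    rw [← hgK]
    exact (valuation_secondVal_inclL_eq_one_iff (Lvl K) (baseRing A K) h p T₂ S₂).2 hv₂
  have hdivg : ∀ Q : Place (Lvl K) (FF (Lvl K) (N * p)),
      (p : ℤ) ∣ Q.ord (ffMap (lvlIncl hLK) (N * p) g₀) := by
    intro Q
    rw [← hgK]
    exact dvd_ord_inclF_of_charZero (Lvl K) (Nat.mul_dvd_mul_right h p) (p : ℤ) hdivK Q
  have hratg : ∀ Q : Place (Lvl K) (FF (Lvl K) (N * p)),
      Q.ord (ffMap (lvlIncl hLK) (N * p) g₀) ≠ 0 →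
      Function.Bijective (algebraMap (Lvl K) Q.ResidueField) := by
    refine Fermat.Agent.P3G.Glue.LevelDict.bijective_of_ord_ne_zero (N * p) K _ (fun P hP => ?_)
    refine (hK₄ K h4).2 P ?_
    rw [levK_ffMap] at hP
    rw [Finsupp.mem_support_iff, hD' P]
    exact hP
  -- `p ∣ ord` at every place of the auxiliary level
  have haux : ∀ s' : Place (IsLocalRing.ResidueField ↥(baseRing A K))
      (FF (IsLocalRing.ResidueField ↥(baseRing A K)) N),
      (p : ℤ) ∣ s'.ord (redG (Lvl K) N p (baseRing A K)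
        (Fermat.Agent.P3G.GammaV2.lvlToComplex K) hpN hA2N T₂
        ⟨ffMap (lvlIncl hLK) (N * p) g₀,
          mem_gauss_of_valuation_eq_one (Lvl K) N p (baseRing A K) hg₁⟩) := by
    intro s'
    by_cases hss : jF (IsLocalRing.ResidueField ↥(baseRing A K)) N ∈ s'.toValuationSubring ∧
        IsSSFin (Lvl K) N p (baseRing A K) (Fermat.Agent.P3G.GammaV2.lvlToComplex K) hpN hA2N
          T₂ s'
    · obtain ⟨y, hy, hinv, happ⟩ :=
        hK₃ K hK T₂ hLK h3 hdivg hratg hg₂ hA2N hg₁ s' hss.1 hss.2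
      refine dvd_of_dvd_pred_mul hp (hR5 _ ⟨y, hy, fun σ hσ hfix => ?_, happ⟩)
      exact hinv σ hσ (hfixL σ hσ hfix)
    · exact Fermat.Agent.S40.W.F4Good.f4_place_good N p hpN A hA K hK hA2N T₂ ϖ hϖ hg0 hg₁
        hdivg hratg s' hss
  -- descent to level `M`
  haveI : PerfectField (IsLocalRing.ResidueField ↥(baseRing A K)) :=
    PerfectRing.toPerfectField _ p
  haveI := Fermat.Agent.S40.W.Sep.finiteDimensional_ratFunc
    (IsLocalRing.ResidueField ↥(baseRing A K)) N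
  haveI := Fermat.Agent.S40.W.Sep.isSeparable_ratFunc
    (IsLocalRing.ResidueField ↥(baseRing A K)) N
  have hcop : Nat.Coprime p c := coprime_of_dvd_six hp hp5 hc
  have hfmem : fK ∈ gaussSubalgebra (Lvl K) (M * p) (baseRing A K) :=
    mem_gauss_of_valuation_eq_one (Lvl K) M p (baseRing A K) hf₁
  refine dvd_ord_redG_of_forall_aux' (Lvl K) p (baseRing A K) h
    (Fermat.Agent.P3G.GammaV2.lvlToComplex K) hpN hpM hA2N hA2 T₂ S₂ hNu hprimeN hprimeM p c hψ
    hcop hfmem (fun s' => ?_) s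
  have h5 := haux s'
  have h6 : (⟨inclL (Lvl K) h p fK, inclF_mem_gaussSubalgebra (Lvl K) (baseRing A K)
      (Nat.mul_dvd_mul_right h p) hfmem⟩ : ↥(gaussSubalgebra (Lvl K) (N * p) (baseRing A K))) =
      ⟨ffMap (lvlIncl hLK) (N * p) g₀,
        mem_gauss_of_valuation_eq_one (Lvl K) N p (baseRing A K) hg₁⟩ := Subtype.ext hgK
  rw [h6]
  exact h5

/-- ★ **`SSLeaf` at the small good level `bigLevel A (smallField V)`.** -/
theorem ssLeaf_bigLevel (hp5 : 5 ≤ p) (hpM : ¬ p ∣ M) (hpN : ¬ p ∣ N) (h : M ∣ N)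
    {c : ℕ} (hc : c ∣ 6) (hψ : dedekindPsi N = dedekindPsi M * c)
    (hA : A.LiesOverPrime p) (V : Submodule (ZMod p) (Jtors (M * p) p))
    (hR4 : R4Leaf N p hpN A (bigLevel A (smallField V)))
    (hR5 : ∀ n : ℤ, ApproxRoot p A (fun σ => ∀ x ∈ V, galTors (M * p) p σ x = x) n →
      (p : ℤ) ∣ n) :
    SSLeaf M p hpM A (bigLevel A (smallField V)) V :=
  ssLeaf_of_leaves hp5 hpM hpN h hc hψ hA (bigLevel A (smallField V)) V
    (fun σ hσ hfix c hc =>
      apply_eq_of_mem_bigLevel_smallField (Fact.out : p.Prime) hA hσ hfix hc) hR4 hR5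

end Asm

end Fermat.Agent.S40.M1.SSLeafAsm
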