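/-
S40 / S44 (row 38), T6′ static route (`moonshots` row 67), block (R4), FINAL SEAM part B (helper25;
dispatch #3267 (a) / ruling #3288 (1)): **the named leaf `SSLeafAsm.R4Leaf` from the named inputs of
(R4).**

* `exists_y_level` : the `y`-form of `R4Final.dvd_ord_of_node` (before (Q) and (R5)): at a supersingular
  place `s` of a good level `K ⊇ K₀`, `∃ y : Lvl K, y ≠ 0 ∧ (y ^ p / p ^ ((p − 1) m) − 1) / p ∈ A ∩ K ∧`
  `∀ σ₀ ∈ I_A, Fix σ₀ → σ₀ y = y`, `m = ord_s (red f̃)`;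
* `NodeData N p hpN A K₀` — NAMED INPUT: a number field `K₃` such that at every crossing point `𝔫` of
  every good level `K ⊇ K₀, K₃` and every honest node `hn` at `𝔫` there are rational test places
  `Q_α Q_β` with [R4a] (`hUα hUβ hUαv heA hUβv heB`), [R4b] (`hW`) in the shapes of
  `R4Node.r4_node_abs` and fixed, with `t_A t_B`, by the inertia group (owners: helper29/helper6
  `R4Uniform`, helper2 `NormUValLevel`, helper28 `NodeDGoodB`, helper17 `TestPointInv(Up)`);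
* `H3Data N p A K₀` — NAMED INPUT: honest (Loc-P) for `u − u(P)` at the rational places centred at `𝔫`
  (helper5 `H3Level`, from `NodeLocPChart.locP_honest_chart`);
* ★ `r4Leaf` : `5 ≤ p`, `4 ∣ N`, `K₀ ≤ L₀` unramified: `NodeData → H3Data → SSLeafAsm.R4Leaf N p hpN A L₀`.
-/
import Mathlib
import Fermat.Agent.S40.M1.R4Final
import Fermat.Agent.S40.M1.R4F
import Fermat.Agent.S40.M1.SSLeafAsm
import Fermat.Agent.S19.Cech.GenFinal

set_option autoImplicit false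
set_option linter.unusedSectionVars false
set_option linter.unusedVariables false
set_option linter.style.haveILetI false
set_option linter.style.longLine false

open ModularCurve Fermat.Agent.S28.Gauss Fermat.Agent.N4.Setting Fermat.Agent.N4.FibreEmbedding
open Fermat.Agent.N4.Chart
open Fermat.Agent.N4F.E.DegreeLevelRaise Fermat.Agent.N4F.E.GaussDVR AlgebraicCurve Polynomial
open Fermat.Agent.N4F.E IsLocalRing Fermat.Agent.P3G.RbarFin Fermat.Agent.P3G.TwoComponents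
open Fermat.Agent.P3G.TwoComponentsFinal Fermat.Agent.P3G Fermat.Agent.P4
open Fermat.Agent.P4.TwistRoots Fermat.Agent.P3G.UCrit
open Fermat.Agent.S40.W.F4Level Fermat.Agent.S40.W.F4Place Fermat.Agent.S40.W.F4Node
open Fermat.Agent.N4.BaseDescent Fermat.Agent.S19.Cech.LevelBasis
open Fermat.Agent.S40.M1.NodeHonest Fermat.Agent.S40.M1.NodeFactor
open Fermat.Agent.S40.M1.NodeFactorLevel Fermat.Agent.S40.M1.NodeInv Fermat.Agent.S40.M1.NodeCore
open Fermat.Agent.S40.M1.NodeGalois Fermat.Agent.S40.M1.NodeQbar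
open Fermat.Agent.P4.FrobLevelStep Fermat.Agent.P3G.GammaAut

noncomputable section

namespace Fermat.Agent.S40.M1.R4Aux

open Fermat.Agent.N4.S18Glue Fermat.Agent.N4.BigDVR
  Fermat.Agent.P3G.Assembly.StepOfLevel Fermat.Agent.P3G.Assembly.LevelStep
  Fermat.Agent.N4F.C Fermat.Agent.N4F.C.Levels Fermat.Agent.N4F.C.Galois
  Fermat.Agent.S33.L.Contracts Fermat.Agent.N4F.C.ChartFibre
  Fermat.Agent.S36.Descent.UnramLevel Fermat.Agent.P3G.Gamma

local notation "Qbar" => AlgebraicClosure ℚ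
local notation "Γ" => (AlgebraicClosure ℚ ≃ₐ[ℚ] AlgebraicClosure ℚ)

/-! ### The `y`-form at a supersingular place -/

section Levels

variable (N p : ℕ) [NeZero N] [Fact p.Prime] (hpN : ¬ p ∣ N)
  (A : ValuationSubring Qbar) (hA : A.LiesOverPrime p)
  {K₀ K : IntermediateField ℚ Qbar} (hKL : K₀ ≤ K)
  (hK₀ : IsUnramLevel A p K₀) (hK : IsGoodLevel A p K)
  [IsDiscreteValuationRing ↥(baseRing A K₀)] [IsDiscreteValuationRing ↥(baseRing A K)]
  [CharP (IsLocalRing.ResidueField ↥(baseRing A K₀)) p]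
  [PerfectRing (IsLocalRing.ResidueField ↥(baseRing A K₀)) p]
  [CharP (IsLocalRing.ResidueField ↥(baseRing A K)) p]
  [PerfectRing (IsLocalRing.ResidueField ↥(baseRing A K)) p]
  (hA2₀ : ∀ x : ↥(gaussSubalgebra (Lvl K₀) N (baseRing A K₀)),
    theta (Lvl K₀) N (baseRing A K₀) x ∈
      modularFunctionFieldFullC (IsLocalRing.ResidueField ↥(baseRing A K₀)) N)
  (hA2 : ∀ x : ↥(gaussSubalgebra (Lvl K) N (baseRing A K)),
    theta (Lvl K) N (baseRing A K) x ∈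
      modularFunctionFieldFullC (IsLocalRing.ResidueField ↥(baseRing A K)) N)
  (S₂ : Fermat.Agent.P3G.FibreTwo.SecondVal (Lvl K) N p (baseRing A K))

set_option maxHeartbeats 3200000 in
set_option synthInstance.maxHeartbeats 400000 in
include hpN hA hK₀ hK hA2₀ in
/-- **(R4) at a supersingular place of a good level, `y`-form** (the hypotheses of
`R4Final.dvd_ord_of_node` without (R5)). -/
theorem exists_y_level (Fix : Γ → Prop)
    {ϖ : ↥(baseRing A K)} (hϖ : Irreducible ϖ)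
    (s : Place (IsLocalRing.ResidueField ↥(baseRing A K))
      (FF (IsLocalRing.ResidueField ↥(baseRing A K)) N))
    (hj : jF (IsLocalRing.ResidueField ↥(baseRing A K)) N ∈ s.toValuationSubring)
    (hss : IsSSFin (Lvl K) N p (baseRing A K) (Fermat.Agent.P3G.GammaV2.lvlToComplex K) hpN hA2
      S₂ s)
    {u₀ v₀ G₀ : ↥(Rfin (Lvl K₀) (N * p) (baseRing A K₀))}
    (hn : HonestNode (Lvl K₀) (Lvl K) N p (baseRing A K₀) (baseRing A K) (lvlIncl hKL)
      (lvlIncl_mem A hKL) S₂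
      (centreFin (Lvl K) N p (baseRing A K) (Fermat.Agent.P3G.GammaV2.lvlToComplex K) hpN hA2 S₂
        s hj) u₀ v₀ G₀)
    -- the function
    {f : FF (Lvl K) (N * p)} (hf0 : f ≠ 0)
    (hf₁ : (gaussVS (Lvl K) (N * p) (baseRing A K)).valuation f = 1)
    (hdiv : ∀ Q : Place (Lvl K) (FF (Lvl K) (N * p)), (p : ℤ) ∣ Q.ord f)
    {hA' hB' : FF (Lvl K) N} (hNα : normAlphaK K N p f = hA' ^ p)
    (hNβ : normBetaK K N p f = hB' ^ p)
    -- [H3]
    (S : Finset (Place (Lvl K) (FF (Lvl K) (N * p))))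
    (hSchar : ∀ P, P ∈ S ↔
      P ∈ centredSet (F := FF (Lvl K) (N * p)) (Lvl K)
        (centreFin (Lvl K) N p (baseRing A K) (Fermat.Agent.P3G.GammaV2.lvlToComplex K) hpN hA2
          S₂ s hj) ∧ P.ord f ≠ 0)
    (hc₁ : ∀ P ∈ S, (gaussVS (Lvl K) (N * p) (baseRing A K)).valuation
      (((finIncl A (N * p) hKL u₀ : ↥(Rfin (Lvl K) (N * p) (baseRing A K))) :
          FF (Lvl K) (N * p)) -
        algebraMap (Lvl K) (FF (Lvl K) (N * p))
          (cU ((finIncl A (N * p) hKL u₀ : ↥(Rfin (Lvl K) (N * p) (baseRing A K))) :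
            FF (Lvl K) (N * p)) P)) = 1)
    (hc1 : ∀ P ∈ S, P.ord
      (((finIncl A (N * p) hKL u₀ : ↥(Rfin (Lvl K) (N * p) (baseRing A K))) :
          FF (Lvl K) (N * p)) -
        algebraMap (Lvl K) (FF (Lvl K) (N * p))
          (cU ((finIncl A (N * p) hKL u₀ : ↥(Rfin (Lvl K) (N * p) (baseRing A K))) :
            FF (Lvl K) (N * p)) P)) = 1)
    (hc2 : ∀ P ∈ S, ∀ Q ∈ centredSet (F := FF (Lvl K) (N * p)) (Lvl K)
        (centreFin (Lvl K) N p (baseRing A K) (Fermat.Agent.P3G.GammaV2.lvlToComplex K) hpN hA2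
          S₂ s hj), Q ≠ P → Q.ord
      (((finIncl A (N * p) hKL u₀ : ↥(Rfin (Lvl K) (N * p) (baseRing A K))) :
          FF (Lvl K) (N * p)) -
        algebraMap (Lvl K) (FF (Lvl K) (N * p))
          (cU ((finIncl A (N * p) hKL u₀ : ↥(Rfin (Lvl K) (N * p) (baseRing A K))) :
            FF (Lvl K) (N * p)) P)) = 0)
    -- the test places
    (Qα Qβ : Place (Lvl K) (FF (Lvl K) N))
    (hQα : Function.Bijective (algebraMap (Lvl K) Qα.ResidueField))
    (hQβ : Function.Bijective (algebraMap (Lvl K) Qβ.ResidueField))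
    -- [R4a]
    (hUα : Qα.toValuationSubring.valuation (normAlphaK K N p
      ((finIncl A (N * p) hKL u₀ : ↥(Rfin (Lvl K) (N * p) (baseRing A K))) :
        FF (Lvl K) (N * p))) = 1)
    (hUβ : Qβ.toValuationSubring.valuation (normBetaK K N p
      ((finIncl A (N * p) hKL u₀ : ↥(Rfin (Lvl K) (N * p) (baseRing A K))) :
        FF (Lvl K) (N * p))) = 1)
    {tA tB eA eB : Lvl K} (htA : tA ≠ 0) (htB : tB ≠ 0)
    (hUαv : valT Qα hQα (normAlphaK K N p
      ((finIncl A (N * p) hKL u₀ : ↥(Rfin (Lvl K) (N * p) (baseRing A K))) :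
        FF (Lvl K) (N * p))) = (p : Lvl K) ^ p * tA ^ p * eA)
    (heA : IsPU (lvlVS A K) (p : Lvl K) eA)
    (hUβv : valT Qβ hQβ (normBetaK K N p
      ((finIncl A (N * p) hKL u₀ : ↥(Rfin (Lvl K) (N * p) (baseRing A K))) :
        FF (Lvl K) (N * p))) = (p : Lvl K) * tB ^ p * eB)
    (heB : IsPU (lvlVS A K) (p : Lvl K) eB)
    -- [R4b]
    (hW : ∀ W : FF (Lvl K) (N * p),
      IsUnitAt (centreFin (Lvl K) N p (baseRing A K) (Fermat.Agent.P3G.GammaV2.lvlToComplex K) hpN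
        hA2 S₂ s hj) W →
      Qα.toValuationSubring.valuation (normAlphaK K N p W) = 1 ∧
      Qβ.toValuationSubring.valuation (normBetaK K N p W) = 1 ∧
      (valT Qβ hQβ (normBetaK K N p W))⁻¹ ∈ lvlVS A K ∧
      ∃ d ∈ lvlVS A K, valT Qα hQα (normAlphaK K N p W) =
        valT Qβ hQβ (normBetaK K N p W) + (p : Lvl K) * d)
    -- [INV]
    (hinv : ∀ σ₀ ∈ A.inertiaSubgroupIn ℚ, Fix σ₀ →
      levelFF K hK.stable (N * p) σ₀ • f = f ∧
      levelFF K hK.stable N σ₀ • hA' = hA' ∧ levelFF K hK.stable N σ₀ • hB' = hB' ∧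
      levelFF K hK.stable N σ₀ • Qα = Qα ∧ levelFF K hK.stable N σ₀ • Qβ = Qβ ∧
      levelAut K hK.stable σ₀ tA = tA ∧ levelAut K hK.stable σ₀ tB = tB) :
    ∃ y : Lvl K, y ≠ 0 ∧
      (y ^ p / (p : Lvl K) ^ (((p - 1 : ℕ) : ℤ) *
        s.ord (redG (Lvl K) N p (baseRing A K) (Fermat.Agent.P3G.GammaV2.lvlToComplex K) hpN
          hA2 S₂ ⟨f, mem_gauss_of_valuation_eq_one (Lvl K) N p (baseRing A K) hf₁⟩)) - 1) /
        (p : Lvl K) ∈ lvlVS A K ∧
      ∀ σ₀ ∈ A.inertiaSubgroupIn ℚ, Fix σ₀ → levelAut K hK.stable σ₀ y = y := by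
  have hp : p.Prime := Fact.out
  obtain ⟨-, hprime₀, -, -, -, -, -⟩ := levelFacts_unram N p hpN A hA K₀ hK₀
  obtain ⟨hN, hprime, hsm, -, -, -⟩ := Fermat.Agent.S40.W.F4Good.levelFacts_good N p hpN A hA K hK
  obtain ⟨T₂⟩ := Fermat.Agent.P3G.FibreTwo.nonempty_secondVal (Lvl K₀) N p (baseRing A K₀)
    (Fermat.Agent.P3G.GammaV2.lvlToComplex K₀) hpN hprime₀ hA2₀
  have H := levelRestrictHyp_levels N p hpN A hA hKL hK₀ hK hA2₀ hA2 T₂ S₂
  set ι := Fermat.Agent.P3G.GammaV2.lvlToComplex K with hι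
  set 𝔫 := centreFin (Lvl K) N p (baseRing A K) ι hpN hA2 S₂ s hj with h𝔫def
  haveI h𝔫 : 𝔫.IsMaximal := centreFin_isMaximal (Lvl K) N p (baseRing A K) hN ι hpN hprime hsm hA2
    S₂ s hj
  have ht₁ : Through (gaussVS (Lvl K) (N * p) (baseRing A K)) 𝔫 :=
    through_gauss_centreFin (Lvl K) N p (baseRing A K) ι hpN hA2 S₂ s hj
  have ht₂ : Through S₂.V 𝔫 := (isSSFin_iff_through (Lvl K) N p (baseRing A K) ι hpN hA2 S₂ s hj).1 hss
  have hs𝔫 : ∀ r ∈ 𝔫, redFinL (Lvl K) N p (baseRing A K) ι hpN hA2 S₂ r ∈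
      s.toValuationSubring.nonunits := fun r hr =>
    (mem_centreFin_iff (Lvl K) N p (baseRing A K) ι hpN hA2 S₂ s hj r).1 hr
  haveI := Fermat.Agent.N4.ModPolySetting.finiteDimensional_FF (Lvl K) (N * p)
  have hjt := Fermat.Agent.N4.FFAlgebraic.transcendental_jF (Lvl K) (N * p)
  haveI : IsNoetherianRing ↥(Rfin (Lvl K) (N * p) (baseRing A K)) :=
    Fermat.Agent.N4.IntClosure.isNoetherianRing_chartAlg (K := Lvl K) (jF (Lvl K) (N * p)) hjt
  haveI : IsFractionRing ↥(Rfin (Lvl K) (N * p) (baseRing A K)) (FF (Lvl K) (N * p)) :=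
    Fermat.Agent.N4.Cover.Main.isFractionRing_chartAlg (O := ↥(baseRing A K)) (K₀ := Lvl K)
      (jF (Lvl K) (N * p)) hjt
  haveI : IsIntegrallyClosed ↥(Rfin (Lvl K) (N * p) (baseRing A K)) :=
    Fermat.Agent.N4.Cover.Main.isIntegrallyClosed_chartAlg (O := ↥(baseRing A K)) (K₀ := Lvl K)
      (jF (Lvl K) (N * p)) hjt
  have hS := BranchNormalLevel.setup_fin (Lvl K) N p (baseRing A K) hN ι hpN hprime hsm hA2 S₂ hϖ
  set u : FF (Lvl K) (N * p) :=
    ((finIncl A (N * p) hKL u₀ : ↥(Rfin (Lvl K) (N * p) (baseRing A K))) : FF (Lvl K) (N * p))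
    with hu
  set μ := muOrd (Lvl K) N p (baseRing A K) ι hpN hA2 S₂ s with hμ
  set D : Place (Lvl K) (FF (Lvl K) (N * p)) → ℤ := fun Q => Q.ord f / (p : ℤ) with hD
  have hfD : ∀ Q ∈ centredSet (F := FF (Lvl K) (N * p)) (Lvl K) 𝔫, Q.ord f = p * D Q :=
    fun Q _ => (Int.mul_ediv_cancel' (hdiv Q)).symm
  have hSD : ∀ Q ∈ centredSet (F := FF (Lvl K) (N * p)) (Lvl K) 𝔫, Q ∉ S → D Q = 0 := by
    intro Q hQ hQS
    have h0 : Q.ord f = 0 := by
      by_contra h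
      exact hQS ((hSchar Q).2 ⟨hQ, h⟩)
    simp only [hD, h0, Int.zero_ediv]
  have hπ : ((p : ℕ) : Lvl K) ∈ (lvlVS A K).nonunits := natCast_mem_nonunits_lvlVS hA
  have hπ0 : ((p : ℕ) : Lvl K) ≠ 0 := Nat.cast_ne_zero.2 hp.ne_zero
  obtain ⟨y, hy0, hymem, hyfix⟩ := Fermat.Agent.S40.M1.R4Node.r4_node_abs (K := Lvl K)
    (gaussVS (Lvl K) (N * p) (baseRing A K)) S₂.V hS.mem₁ hS.mem₂ hϖ
    (unif_mem_nonunits_of_setup hS).1 (unif_mem_nonunits_of_setup hS).2 hS.sat 𝔫 μ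
    (normAlphaK K N p) (normBetaK K N p) (lvlVS A K) hπ hπ0 hp.pos Qα Qβ hQα hQβ ht₁ ht₂
    (muMul_muOrd (Lvl K) N p (baseRing A K) ι hpN hA2 S₂ s)
    (muOrd_pos (Lvl K) N p (baseRing A K) ι hpN hA2 S₂ 𝔫 s hs𝔫)
    (muOrd_unit (Lvl K) N p (baseRing A K) hN ι hpN hprime hsm hA2 S₂ hϖ 𝔫 ht₁ s hj hs𝔫)
    hn.val₁_u hn.hor_u (muOrd_u hpN hN ι hprime hsm hA2 hn H s hj hs𝔫) hf0 hf₁ D hfD hNα hNβ
    S hSD (cU u) hc₁ hc1 hc2 hUα hUβ htA htB hUαv heA hUβv heB hW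
  rw [hμ, muOrd_eq (Lvl K) N p (baseRing A K) ι hpN hA2 S₂ s hf₁] at hymem
  refine ⟨y, hy0, hymem, ?_⟩
  intro σ₀ hσ₀ hFσ
  obtain ⟨hσf, hσA, hσB, hσQα, hσQβ, hσtA, hσtB⟩ := hinv σ₀ hσ₀ hFσ
  have hσu : levelFF K hK.stable (N * p) σ₀ • u = u :=
    levelFF_smul_finMap hKL hK.stable (N * p) A (fun y hy => hK₀.fixed σ₀ hσ₀ y hy) u₀
  have hcen : ∀ P ∈ centredSet (F := FF (Lvl K) (N * p)) (Lvl K) 𝔫,
      levelFF K hK.stable (N * p) σ₀ • P ∈ centredSet (F := FF (Lvl K) (N * p)) (Lvl K) 𝔫 :=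
    smul_mem_centredSet N p hpN A hA K hK hϖ hσ₀ 𝔫
      (unif_mem_centreFin (Lvl K) N p (baseRing A K) hN ι hpN hprime hsm hA2 S₂ hϖ s hj)
  have h := hyfix (levelFF K hK.stable (N * p) σ₀) (levelFF K hK.stable N σ₀)
    (normAlphaK_smul K hK.stable N p σ₀) (normBetaK_smul K hK.stable N p σ₀) hσu
    (smul_mem_of_centred _ hσf hcen S hSchar)
    (fun P _ => ediv_ord_smul _ hσf (p : ℤ) P)
    (fun P _ => cU_smul _ hσu P) hσA hσB hσQα hσQβ hσtA hσtB
    (Fermat.Agent.S40.M1.NodeGalois.levelAut_natCast K hK.stable σ₀ p)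
  exact h

end Levels

/-! ### The named inputs -/

section Named

variable (N p : ℕ) [NeZero N] [Fact p.Prime] (hpN : ¬ p ∣ N)
  (A : ValuationSubring Qbar) (K₀ : IntermediateField ℚ Qbar)

/-- **NAMED INPUT (test places, [R4a], [R4b], invariance)**: above a number field `K₃`, at every
crossing point `𝔫` of every good level `K ⊇ K₀`, for every honest node at `𝔫`: rational test places
`Q_α Q_β` of level `N` with the (R4a) and (R4b) clauses of `R4Node.r4_node_abs`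
(`N_α = normAlphaK K N p`, `𝒜 = lvlVS A K`, `π = p`), fixed together with `t_A t_B` by the inertia
group. -/
def NodeData : Prop :=
  ∃ K₃ : IntermediateField ℚ Qbar, FiniteDimensional ℚ K₃ ∧
    ∀ (K : IntermediateField ℚ Qbar) (hK : IsGoodLevel A p K)
      [IsDiscreteValuationRing ↥(baseRing A K)] (hKL : K₀ ≤ K), K₃ ≤ K →
      ∀ (S₂ : Fermat.Agent.P3G.FibreTwo.SecondVal (Lvl K) N p (baseRing A K))
        (𝔫 : Ideal ↥(Rfin (Lvl K) (N * p) (baseRing A K))) [𝔫.IsMaximal]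
        (_ : Through (gaussVS (Lvl K) (N * p) (baseRing A K)) 𝔫) (_ : Through S₂.V 𝔫)
        {u₀ v₀ G₀ : ↥(Rfin (Lvl K₀) (N * p) (baseRing A K₀))}
        (_ : HonestNode (Lvl K₀) (Lvl K) N p (baseRing A K₀) (baseRing A K) (lvlIncl hKL)
          (lvlIncl_mem A hKL) S₂ 𝔫 u₀ v₀ G₀),
        ∃ (Qα Qβ : Place (Lvl K) (FF (Lvl K) N))
          (hQα : Function.Bijective (algebraMap (Lvl K) Qα.ResidueField))
          (hQβ : Function.Bijective (algebraMap (Lvl K) Qβ.ResidueField))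
          (tA tB eA eB : Lvl K),
          Qα.toValuationSubring.valuation (normAlphaK K N p
            ((finIncl A (N * p) hKL u₀ : ↥(Rfin (Lvl K) (N * p) (baseRing A K))) :
            FF (Lvl K) (N * p))) = 1 ∧
          Qβ.toValuationSubring.valuation (normBetaK K N p
            ((finIncl A (N * p) hKL u₀ : ↥(Rfin (Lvl K) (N * p) (baseRing A K))) :
            FF (Lvl K) (N * p))) = 1 ∧
          tA ≠ 0 ∧ tB ≠ 0 ∧
          valT Qα hQα (normAlphaK K N p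
            ((finIncl A (N * p) hKL u₀ : ↥(Rfin (Lvl K) (N * p) (baseRing A K))) :
            FF (Lvl K) (N * p))) = (p : Lvl K) ^ p * tA ^ p * eA ∧
          IsPU (lvlVS A K) (p : Lvl K) eA ∧
          valT Qβ hQβ (normBetaK K N p
            ((finIncl A (N * p) hKL u₀ : ↥(Rfin (Lvl K) (N * p) (baseRing A K))) :
            FF (Lvl K) (N * p))) = (p : Lvl K) * tB ^ p * eB ∧
          IsPU (lvlVS A K) (p : Lvl K) eB ∧
          (∀ W : FF (Lvl K) (N * p), IsUnitAt 𝔫 W →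
            Qα.toValuationSubring.valuation (normAlphaK K N p W) = 1 ∧
            Qβ.toValuationSubring.valuation (normBetaK K N p W) = 1 ∧
            (valT Qβ hQβ (normBetaK K N p W))⁻¹ ∈ lvlVS A K ∧
            ∃ d ∈ lvlVS A K, valT Qα hQα (normAlphaK K N p W) =
              valT Qβ hQβ (normBetaK K N p W) + (p : Lvl K) * d) ∧
          ∀ σ₀ ∈ A.inertiaSubgroupIn ℚ,
            levelFF K hK.stable N σ₀ • Qα = Qα ∧ levelFF K hK.stable N σ₀ • Qβ = Qβ ∧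
            levelAut K hK.stable σ₀ tA = tA ∧ levelAut K hK.stable σ₀ tB = tB

/-- **NAMED INPUT [H3]**: at every crossing point `𝔫` of every good level `K ⊇ K₀`, for every honest
node at `𝔫` and every RATIONAL place `P` centred at `𝔫`: `V₁ (u − u(P)) = 1`, `ord_P (u − u(P)) = 1`,
`ord_Q (u − u(P)) = 0` at the other places centred at `𝔫` (`u(P) = valT P hP u`). -/
def H3Data : Prop :=
  ∀ (K : IntermediateField ℚ Qbar) (_ : IsGoodLevel A p K)
    [IsDiscreteValuationRing ↥(baseRing A K)] (hKL : K₀ ≤ K)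
    (S₂ : Fermat.Agent.P3G.FibreTwo.SecondVal (Lvl K) N p (baseRing A K))
    (𝔫 : Ideal ↥(Rfin (Lvl K) (N * p) (baseRing A K))) [𝔫.IsMaximal]
    (_ : Through (gaussVS (Lvl K) (N * p) (baseRing A K)) 𝔫) (_ : Through S₂.V 𝔫)
    {u₀ v₀ G₀ : ↥(Rfin (Lvl K₀) (N * p) (baseRing A K₀))}
    (_ : HonestNode (Lvl K₀) (Lvl K) N p (baseRing A K₀) (baseRing A K) (lvlIncl hKL)
      (lvlIncl_mem A hKL) S₂ 𝔫 u₀ v₀ G₀),
    ∀ P ∈ centredSet (F := FF (Lvl K) (N * p)) (Lvl K) 𝔫,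
      ∀ hP : Function.Bijective (algebraMap (Lvl K) P.ResidueField),
        (gaussVS (Lvl K) (N * p) (baseRing A K)).valuation
          (((finIncl A (N * p) hKL u₀ : ↥(Rfin (Lvl K) (N * p) (baseRing A K))) :
            FF (Lvl K) (N * p)) -
            algebraMap (Lvl K) (FF (Lvl K) (N * p)) (valT P hP
              ((finIncl A (N * p) hKL u₀ : ↥(Rfin (Lvl K) (N * p) (baseRing A K))) :
            FF (Lvl K) (N * p)))) = 1 ∧
        P.ord (((finIncl A (N * p) hKL u₀ : ↥(Rfin (Lvl K) (N * p) (baseRing A K))) :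
            FF (Lvl K) (N * p)) -
            algebraMap (Lvl K) (FF (Lvl K) (N * p)) (valT P hP
              ((finIncl A (N * p) hKL u₀ : ↥(Rfin (Lvl K) (N * p) (baseRing A K))) :
            FF (Lvl K) (N * p)))) = 1 ∧
        ∀ Q ∈ centredSet (F := FF (Lvl K) (N * p)) (Lvl K) 𝔫, Q ≠ P →
          Q.ord (((finIncl A (N * p) hKL u₀ : ↥(Rfin (Lvl K) (N * p) (baseRing A K))) :
            FF (Lvl K) (N * p)) -
            algebraMap (Lvl K) (FF (Lvl K) (N * p)) (valT P hP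
              ((finIncl A (N * p) hKL u₀ : ↥(Rfin (Lvl K) (N * p) (baseRing A K))) :
            FF (Lvl K) (N * p)))) = 0

end Named

/-! ### The named leaf `R4Leaf` -/

section Leaf

open Fermat.Agent.S40.M1.SSLeafAsm

variable {N p : ℕ} [NeZero N] [Fact p.Prime] {A : ValuationSubring Qbar}

set_option maxHeartbeats 3200000 in
set_option synthInstance.maxHeartbeats 400000 in
/-- ★ **`SSLeafAsm.R4Leaf` from the named inputs of (R4)** (`5 ≤ p`, `4 ∣ N`, `K₀ ≤ L₀` an unramified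
level). -/
theorem r4Leaf (hp5 : 5 ≤ p) (h4 : 4 ∣ N) (hpN : ¬ p ∣ N) (hA : A.LiesOverPrime p)
    {K₀ L₀ : IntermediateField ℚ Qbar} (hK₀ : IsUnramLevel A p K₀) (hK₀L : K₀ ≤ L₀)
    (hnode : NodeData N p A K₀) (hH3 : H3Data N p A K₀) : R4Leaf N p hpN A L₀ := by
  classical
  have hp : p.Prime := Fact.out
  rintro g₀ hg₀ ⟨a', ha'⟩ ⟨b', hb'⟩
  obtain ⟨K₃, hK₃fin, hK₃⟩ := hnode
  refine ⟨K₃, hK₃fin, ?_⟩
  intro K hK _ T₂ hLK hK₃K hdiv hrat hv₂ _ _ hA2 hg₁ s hj hss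
  have hKL : K₀ ≤ K := hK₀L.trans hLK
  haveI : IsDiscreteValuationRing ↥(baseRing A K₀) := hK₀.dvr
  obtain ⟨hN₀, hprime₀, hsm₀, -, -, hA2₀, hchar₀⟩ := levelFacts_unram N p hpN A hA K₀ hK₀
  haveI := hchar₀
  haveI : IsAlgClosed (IsLocalRing.ResidueField ↥(baseRing A K₀)) := hK₀.algClosed
  haveI : PerfectRing (IsLocalRing.ResidueField ↥(baseRing A K₀)) p := inferInstance
  obtain ⟨hN, hprime, hsm, -, -, -⟩ := Fermat.Agent.S40.W.F4Good.levelFacts_good N p hpN A hA K hK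
  obtain ⟨ϖ, hϖ⟩ := IsDiscreteValuationRing.exists_irreducible ↥(baseRing A K)
  haveI h𝔫 : (centreFin (Lvl K) N p (baseRing A K) (Fermat.Agent.P3G.GammaV2.lvlToComplex K) hpN
      hA2 T₂ s hj).IsMaximal :=
    centreFin_isMaximal (Lvl K) N p (baseRing A K) hN _ hpN hprime hsm hA2 T₂ s hj
  have ht₁ := through_gauss_centreFin (Lvl K) N p (baseRing A K)
    (Fermat.Agent.P3G.GammaV2.lvlToComplex K) hpN hA2 T₂ s hj
  have ht₂ := (isSSFin_iff_through (Lvl K) N p (baseRing A K)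
    (Fermat.Agent.P3G.GammaV2.lvlToComplex K) hpN hA2 T₂ s hj).1 hss
  obtain ⟨u₀, v₀, G₀, hn⟩ := exists_honestNode_levels N p hpN A hA hKL hK₀ hK hA2₀ hA2 T₂ hp5 h4
    hϖ _ ht₁ ht₂
  -- the [F] block
  obtain ⟨hf0, -, hNα, hNβ, hσF⟩ :=
    Fermat.Agent.S40.M1.R4F.fBlock hLK hK.stable hp hpN hg₀ ha' hb' hdiv
  -- the support of the horizontal divisor at `𝔫`
  haveI := Fermat.Agent.S19.Cech.GenFinal.hasPrincipalDivisors_level (N * p) K
  obtain ⟨Dv, hDv, -⟩ := HasPrincipalDivisors.exists_divisor (K := Lvl K)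
    (ffMap (lvlIncl hLK) (N * p) g₀) hf0
  have hSchar : ∀ P, P ∈ Dv.support.filter (fun P => P ∈ centredSet (F := FF (Lvl K) (N * p))
        (Lvl K) (centreFin (Lvl K) N p (baseRing A K) (Fermat.Agent.P3G.GammaV2.lvlToComplex K)
          hpN hA2 T₂ s hj)) ↔
      P ∈ centredSet (F := FF (Lvl K) (N * p)) (Lvl K)
        (centreFin (Lvl K) N p (baseRing A K) (Fermat.Agent.P3G.GammaV2.lvlToComplex K) hpN hA2
          T₂ s hj) ∧ P.ord (ffMap (lvlIncl hLK) (N * p) g₀) ≠ 0 := by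
    intro P
    rw [Finset.mem_filter, Finsupp.mem_support_iff, hDv P]
    tauto
  -- [H3]
  have hH := hH3 K hK hKL T₂ _ ht₁ ht₂ hn
  have hc : ∀ P ∈ Dv.support.filter (fun P => P ∈ centredSet (F := FF (Lvl K) (N * p))
        (Lvl K) (centreFin (Lvl K) N p (baseRing A K) (Fermat.Agent.P3G.GammaV2.lvlToComplex K)
          hpN hA2 T₂ s hj)),
      (gaussVS (Lvl K) (N * p) (baseRing A K)).valuation
          (((finIncl A (N * p) hKL u₀ : ↥(Rfin (Lvl K) (N * p) (baseRing A K))) :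
            FF (Lvl K) (N * p)) -
            algebraMap (Lvl K) (FF (Lvl K) (N * p)) (cU
              ((finIncl A (N * p) hKL u₀ : ↥(Rfin (Lvl K) (N * p) (baseRing A K))) :
            FF (Lvl K) (N * p)) P)) = 1 ∧
        P.ord (((finIncl A (N * p) hKL u₀ : ↥(Rfin (Lvl K) (N * p) (baseRing A K))) :
            FF (Lvl K) (N * p)) -
            algebraMap (Lvl K) (FF (Lvl K) (N * p)) (cU
              ((finIncl A (N * p) hKL u₀ : ↥(Rfin (Lvl K) (N * p) (baseRing A K))) :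
            FF (Lvl K) (N * p)) P)) = 1 ∧
        ∀ Q ∈ centredSet (F := FF (Lvl K) (N * p)) (Lvl K)
          (centreFin (Lvl K) N p (baseRing A K) (Fermat.Agent.P3G.GammaV2.lvlToComplex K) hpN hA2
            T₂ s hj), Q ≠ P →
          Q.ord (((finIncl A (N * p) hKL u₀ : ↥(Rfin (Lvl K) (N * p) (baseRing A K))) :
            FF (Lvl K) (N * p)) -
            algebraMap (Lvl K) (FF (Lvl K) (N * p)) (cU
              ((finIncl A (N * p) hKL u₀ : ↥(Rfin (Lvl K) (N * p) (baseRing A K))) :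
            FF (Lvl K) (N * p)) P)) = 0 := by
    intro P hPS
    obtain ⟨hPc, hP0⟩ := (hSchar P).1 hPS
    have hP := hrat P hP0
    rw [cU_of_bijective _ hP]
    exact hH P hPc hP
  -- test places, [R4a], [R4b]
  obtain ⟨Qα, Qβ, hQα, hQβ, tA, tB, eA, eB, hUα, hUβ, htA, htB, hUαv, heA, hUβv, heB, hW, hσT⟩ :=
    hK₃ K hK hKL hK₃K T₂ _ ht₁ ht₂ hn
  obtain ⟨y, hy0, hymem, hyfix⟩ := exists_y_level N p hpN A hA hKL hK₀ hK hA2₀ hA2 T₂
    (fun σ => ∀ c ∈ L₀, σ c = c) hϖ s hj hss hn hf0 hg₁ hdiv hNα hNβ _ hSchar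
    (fun P hP => (hc P hP).1) (fun P hP => (hc P hP).2.1) (fun P hP => (hc P hP).2.2)
    Qα Qβ hQα hQβ hUα hUβ htA htB hUαv heA hUβv heB hW
    (fun σ₀ hσ₀ hF => ⟨(hσF σ₀ hF).1, (hσF σ₀ hF).2.1, (hσF σ₀ hF).2.2.1, (hσT σ₀ hσ₀).1,
      (hσT σ₀ hσ₀).2.1, (hσT σ₀ hσ₀).2.2.1, (hσT σ₀ hσ₀).2.2.2⟩)
  refine ⟨algebraMap (Lvl K) Qbar y, coe_ne_zero hy0,
    fun σ hσ hF => apply_coe_eq K hK.stable σ (hyfix σ hσ hF), ?_⟩
  have h := qbar_of_lvl y p _ hymem
  rwa [Nat.cast_pred hp.pos] at h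

end Leaf

end Fermat.Agent.S40.M1.R4Aux
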