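/-
S40 / S44 (row 38), T6′ static route (`moonshots` row 67), block (R4), named input [H3] of
helper25's `R4Aux.r4Leaf` (helper9): **`R4Aux.H3Data N p A K₀` is a theorem** for every unramified
level `K₀`:

  `h3Data : ¬ p ∣ N → A.LiesOverPrime p → IsUnramLevel A p K₀ → R4Aux.H3Data N p A K₀`

= helper5's `H3Level.h3_honest` (honest (Loc-P) at the level from `HonestNode`) fed with helper25's
`NodeHonest.gen_levels` (`𝔫 R_𝔫 = (u, v, ϖ)` at a crossing point of a good level); the instances at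
`K₀`, `K` are those of `R4Aux.r4Leaf` (`levelFacts_unram`, `levelFacts_good`, `charP_good`,
`IsAlgClosed ⇒ PerfectRing`).
-/
import Mathlib
import Fermat.Agent.S40.M1.R4Aux
import Fermat.Agent.S40.M1.H3Level

set_option autoImplicit false
set_option linter.unusedSectionVars false
set_option linter.unusedVariables false
set_option linter.style.haveILetI false
set_option linter.style.longLine false

open ModularCurve Fermat.Agent.S28.Gauss Fermat.Agent.N4.Setting Fermat.Agent.N4.FibreEmbedding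
open Fermat.Agent.N4.Chart
open Fermat.Agent.N4F.E.GaussDVR AlgebraicCurve
open Fermat.Agent.N4F.E IsLocalRing Fermat.Agent.P3G
open Fermat.Agent.P4.TwistRoots Fermat.Agent.P3G.UCrit
open Fermat.Agent.N4.BaseDescent Fermat.Agent.S19.Cech.LevelBasis
open Fermat.Agent.S40.M1.NodeHonest Fermat.Agent.S40.M1.NodeInv

noncomputable section

namespace Fermat.Agent.S40.M1.H3DataLevel

open Fermat.Agent.N4.BigDVR
  Fermat.Agent.P3G.Assembly.StepOfLevel Fermat.Agent.P3G.Assembly.LevelStep
  Fermat.Agent.N4F.C Fermat.Agent.N4F.C.Levels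
  Fermat.Agent.S36.Descent.UnramLevel Fermat.Agent.P3G.Gamma

local notation "Qbar" => AlgebraicClosure ℚ

set_option maxHeartbeats 1600000 in
set_option synthInstance.maxHeartbeats 400000 in
/-- ★ **The named input [H3] of `R4Aux.r4Leaf` is a theorem.** -/
theorem h3Data (N p : ℕ) [NeZero N] [Fact p.Prime] (hpN : ¬ p ∣ N)
    (A : ValuationSubring Qbar) (hA : A.LiesOverPrime p)
    {K₀ : IntermediateField ℚ Qbar} (hK₀ : IsUnramLevel A p K₀) :
    Fermat.Agent.S40.M1.R4Aux.H3Data N p A K₀ := by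
  intro K hK _ hKL S₂ 𝔫 _ ht₁ ht₂ u₀ v₀ G₀ hn P hPc hP
  haveI : IsDiscreteValuationRing ↥(baseRing A K₀) := hK₀.dvr
  obtain ⟨-, -, -, -, -, hA2₀, hchar₀⟩ := levelFacts_unram N p hpN A hA K₀ hK₀
  haveI := hchar₀
  haveI : IsAlgClosed (IsLocalRing.ResidueField ↥(baseRing A K₀)) := hK₀.algClosed
  haveI : PerfectRing (IsLocalRing.ResidueField ↥(baseRing A K₀)) p := inferInstance
  haveI : IsAlgClosed (IsLocalRing.ResidueField ↥(baseRing A K)) := hK.algClosed
  haveI : CharP (IsLocalRing.ResidueField ↥(baseRing A K)) p :=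
    Fermat.Agent.S40.W.F4Good.charP_good N p hpN A K hK
  haveI : PerfectRing (IsLocalRing.ResidueField ↥(baseRing A K)) p := inferInstance
  obtain ⟨-, -, -, -, -, hA2⟩ := Fermat.Agent.S40.W.F4Good.levelFacts_good N p hpN A hA K hK
  obtain ⟨ϖ, hϖ⟩ := IsDiscreteValuationRing.exists_irreducible ↥(baseRing A K)
  exact Fermat.Agent.S40.M1.H3Level.h3_honest (Lvl K₀) (Lvl K) N p (baseRing A K₀) (baseRing A K)
    (lvlIncl hKL) (lvlIncl_mem A hKL) S₂ hϖ hn ht₁
    (gen_levels N p hpN A hA hKL hK₀ hK hA2₀ hA2 S₂ hϖ hn ht₁ ht₂) hP hPc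

end Fermat.Agent.S40.M1.H3DataLevel
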