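/-
S40 / T6′ static route, (R4) plumbing (helper21): **`ChartFactsProof.LevelPack A N K` at a good level and at
an unramified level** — the adapter between the good-level binder block (`IsGoodLevel A p K`,
`IsUnramLevel A p K₀`; `F4Good.levelFacts_good`, `NodeHonest.levelFacts_unram`) and the S19 `LevelBasis`
vocabulary (`LevelPack`, `finIncl`, `thFin`) used by `SmoothPoint` §Lvl, `TestPointUp`, `FibreLift`.

* `levelPack_of_isGoodLevel`, `levelPack_of_isUnramLevel`.
-/
import Mathlib
import Fermat.Agent.S40.M1.NodeHonest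
import Fermat.Agent.N4F.C.ChartFactsProof

set_option autoImplicit false
set_option linter.unusedSectionVars false
set_option linter.style.haveILetI false

open ModularCurve Fermat.Agent.N4.Setting Fermat.Agent.N4F.C.Levels
open Fermat.Agent.N4F.C.ChartFactsProof Fermat.Agent.P3G.Assembly.LevelStep
open Fermat.Agent.S36.Descent.UnramLevel

namespace Fermat.Agent.S40.M1.LevelPackGood

local notation "Qbar" => AlgebraicClosure ℚ

set_option maxHeartbeats 1600000 in
set_option synthInstance.maxHeartbeats 400000 in
/-- `LevelPack` at a good level. -/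
theorem levelPack_of_isGoodLevel (N p : ℕ) [NeZero N] [Fact p.Prime] (hpN : ¬ p ∣ N)
    (A : ValuationSubring Qbar) (hA : A.LiesOverPrime p)
    (K : IntermediateField ℚ Qbar) (hK : IsGoodLevel A p K)
    [IsDiscreteValuationRing ↥(baseRing A K)] : LevelPack A N K := by
  obtain ⟨hN, hprime, hsm, hprimeInf, hsmInf, -⟩ :=
    Fermat.Agent.S40.W.F4Good.levelFacts_good N p hpN A hA K hK
  exact ⟨inferInstance, hN, hK.bij, hprime, hprimeInf, hsm, hsmInf⟩

set_option maxHeartbeats 1600000 in
set_option synthInstance.maxHeartbeats 400000 in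
/-- `LevelPack` at an unramified level. -/
theorem levelPack_of_isUnramLevel (N p : ℕ) [NeZero N] [Fact p.Prime] (hpN : ¬ p ∣ N)
    (A : ValuationSubring Qbar) (hA : A.LiesOverPrime p)
    (K : IntermediateField ℚ Qbar) (hK : IsUnramLevel A p K)
    [IsDiscreteValuationRing ↥(baseRing A K)] : LevelPack A N K := by
  obtain ⟨hN, hprime, hsm, hprimeInf, hsmInf, -, -⟩ :=
    Fermat.Agent.S40.M1.NodeHonest.levelFacts_unram N p hpN A hA K hK
  exact ⟨inferInstance, hN, hK.bij, hprime, hprimeInf, hsm, hsmInf⟩

end Fermat.Agent.S40.M1.LevelPackGood
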