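/-
S40 / S44 (row 38), T6′ static route, block (R4-D) plumbing (dispatch helper8 #3226 (3); consumer
helper1 `NodeDChart`): **finiteness of the local ring at the node over the local ring at its image.**

`T → S` a finite ring map, `𝔫` a prime of `S`, `s̃ := 𝔫.comap`, and (D1)(b):
every `s ∉ 𝔫` divides the image of some `t ∉ s̃` (i.e. `𝔫` is the only prime over `s̃`).  Then
`S_𝔫` is the localisation of `S` at the image of `T ∖ s̃`, hence module-finite over `T_{s̃}`.

* `exists_mul_eq_of_unique_prime` : (D1)(b) from the unique-prime form (going-up);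
* `isLocalization_algebraMapSubmonoid` : `S_𝔫 = S ⊗_T T_{s̃}`;
* `moduleFinite_of_atPrime`, `ringHom_finite_of_atPrime` : the finiteness, for ANY models of the two
  localisations.

Mathlib only.
-/
import Mathlib

set_option autoImplicit false
set_option linter.style.haveILetI false

namespace Fermat.Agent.S40.M1.LocFinite

variable {T S : Type*} [CommRing T] [CommRing S] [Algebra T S]

/-- **(D1)(b) from the unique-prime form**: `S` integral over `T`, `𝔫` the only prime of `S` over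
`s̃ := 𝔫.comap`.  Then every `s ∉ 𝔫` divides the image of some `t ∉ s̃`. -/
theorem exists_mul_eq_of_unique_prime [Algebra.IsIntegral T S] (𝔫 : Ideal S) [𝔫.IsPrime]
    (huniq : ∀ 𝔮 : Ideal S, 𝔮.IsPrime →
      𝔮.comap (algebraMap T S) = 𝔫.comap (algebraMap T S) → 𝔮 = 𝔫)
    (s : S) (hs : s ∉ 𝔫) :
    ∃ t : T, t ∉ 𝔫.comap (algebraMap T S) ∧ ∃ x : S, s * x = algebraMap T S t := by
  classical
  by_contra hno
  push Not at hno
  set M : Submonoid S := Algebra.algebraMapSubmonoid S (𝔫.comap (algebraMap T S)).primeCompl with hM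
  have hdisj : Disjoint ((Ideal.span {s} : Ideal S) : Set S) (M : Set S) := by
    rw [Set.disjoint_left]
    rintro y hy ⟨t, ht, rfl⟩
    obtain ⟨x, hx⟩ := Ideal.mem_span_singleton'.1 hy
    exact hno t ht x (by rw [← hx, mul_comm])
  obtain ⟨𝔮, h𝔮, hle, h𝔮M⟩ := Ideal.exists_le_prime_disjoint (Ideal.span {s}) M hdisj
  have hcomap : 𝔮.comap (algebraMap T S) ≤ 𝔫.comap (algebraMap T S) := by
    intro t ht
    by_contra htn
    exact (Set.disjoint_left.1 h𝔮M) ht ⟨t, htn, rfl⟩
  obtain ⟨𝔮', hle', h𝔮', hover⟩ :=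
    Ideal.exists_ideal_over_prime_of_isIntegral (𝔫.comap (algebraMap T S)) 𝔮 hcomap
  have h1 : 𝔮' = 𝔫 := huniq 𝔮' h𝔮' hover
  exact hs (h1 ▸ hle' (hle (Ideal.mem_span_singleton_self s)))

/-- Under (D1)(b), the localisation of `S` at `𝔫` is the localisation of `S` at the image of
`T ∖ s̃`. -/
theorem isLocalization_algebraMapSubmonoid (𝔫 : Ideal S) [𝔫.IsPrime]
    (hD1 : ∀ s : S, s ∉ 𝔫 →
      ∃ t : T, t ∉ 𝔫.comap (algebraMap T S) ∧ ∃ x : S, s * x = algebraMap T S t)
    (Sl : Type*) [CommRing Sl] [Algebra S Sl] [IsLocalization.AtPrime Sl 𝔫] :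
    IsLocalization (Algebra.algebraMapSubmonoid S (𝔫.comap (algebraMap T S)).primeCompl) Sl where
  map_units := by
    rintro ⟨y, t, ht, rfl⟩
    exact IsLocalization.map_units Sl (⟨algebraMap T S t, ht⟩ : 𝔫.primeCompl)
  surj := by
    intro z
    obtain ⟨⟨a, ⟨s, hs⟩⟩, hz⟩ := IsLocalization.surj 𝔫.primeCompl z
    obtain ⟨t, ht, x, hx⟩ := hD1 s hs
    refine ⟨(a * x, ⟨algebraMap T S t, t, ht, rfl⟩), ?_⟩
    show z * algebraMap S Sl (algebraMap T S t) = algebraMap S Sl (a * x)
    have hz' : z * algebraMap S Sl s = algebraMap S Sl a := hz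
    rw [← hx, map_mul, map_mul, ← hz']
    ring
  exists_of_eq := by
    intro a b hab
    obtain ⟨⟨s, hs⟩, hsab⟩ := IsLocalization.exists_of_eq (M := 𝔫.primeCompl) hab
    obtain ⟨t, ht, x, hx⟩ := hD1 s hs
    refine ⟨⟨algebraMap T S t, t, ht, rfl⟩, ?_⟩
    show algebraMap T S t * a = algebraMap T S t * b
    have hsab' : s * a = s * b := hsab
    rw [← hx]
    calc s * x * a = x * (s * a) := by ring
      _ = x * (s * b) := by rw [hsab']
      _ = s * x * b := by ring

/-- **Finiteness of the local rings**, instance form: `T → S` module-finite, (D1)(b), `Tl`, `Sl` any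
models of `T_{s̃}`, `S_𝔫` with compatible algebra structures. -/
theorem moduleFinite_of_atPrime [Module.Finite T S] (𝔫 : Ideal S) [𝔫.IsPrime]
    (hD1 : ∀ s : S, s ∉ 𝔫 →
      ∃ t : T, t ∉ 𝔫.comap (algebraMap T S) ∧ ∃ x : S, s * x = algebraMap T S t)
    (Tl Sl : Type*) [CommRing Tl] [CommRing Sl] [Algebra T Tl] [Algebra T Sl] [Algebra S Sl]
    [Algebra Tl Sl] [IsScalarTower T S Sl] [IsScalarTower T Tl Sl]
    [IsLocalization.AtPrime Tl (𝔫.comap (algebraMap T S))] [IsLocalization.AtPrime Sl 𝔫] :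
    Module.Finite Tl Sl := by
  haveI := isLocalization_algebraMapSubmonoid (T := T) 𝔫 hD1 Sl
  exact Module.Finite.of_isLocalization T S (𝔫.comap (algebraMap T S)).primeCompl

/-- **Finiteness of the local rings**, ring-hom form: `φ : T →+* S` finite, `𝔫` prime in `S`,
(D1)(b); `Tl`, `Sl` any models of the localisations at `𝔫.comap φ`, `𝔫`; `φl : Tl →+* Sl` compatible
with `φ`.  Then `φl` is finite. -/
theorem ringHom_finite_of_atPrime {T S : Type*} [CommRing T] [CommRing S] (φ : T →+* S)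
    (hφ : φ.Finite) (𝔫 : Ideal S) [𝔫.IsPrime]
    (hD1 : ∀ s : S, s ∉ 𝔫 → ∃ t : T, t ∉ 𝔫.comap φ ∧ ∃ x : S, s * x = φ t)
    (Tl Sl : Type*) [CommRing Tl] [CommRing Sl] [Algebra T Tl] [Algebra S Sl]
    [IsLocalization.AtPrime Tl (𝔫.comap φ)] [IsLocalization.AtPrime Sl 𝔫]
    (φl : Tl →+* Sl) (hcomp : ∀ t : T, φl (algebraMap T Tl t) = algebraMap S Sl (φ t)) :
    φl.Finite := by
  letI : Algebra T S := φ.toAlgebra
  letI : Algebra Tl Sl := φl.toAlgebra
  letI : Algebra T Sl := ((algebraMap S Sl).comp φ).toAlgebra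
  haveI : IsScalarTower T S Sl := IsScalarTower.of_algebraMap_eq fun _ => rfl
  haveI : IsScalarTower T Tl Sl := IsScalarTower.of_algebraMap_eq fun t => (hcomp t).symm
  haveI : Module.Finite T S := hφ
  haveI : IsLocalization.AtPrime Tl (𝔫.comap (algebraMap T S)) :=
    (inferInstance : IsLocalization.AtPrime Tl (𝔫.comap φ))
  exact moduleFinite_of_atPrime (T := T) 𝔫 hD1 Tl Sl

end Fermat.Agent.S40.M1.LocFinite
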