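/-
S40 / S44 (row 38), T6′ static route, block (R4)(d) (helper1): **the fibre basis at a node.**

Abstract setting.  `Rt → R` a finite extension of local rings (`Rt` = the local ring of the smooth
model of level `M′` at the supersingular point `α(s)`, `R` = the local ring of the normal model of
level `M′ p` at the node `s`, via `α^*`):

* `𝔪_Rt = (z, ϖ)`  (`z` a coordinate of the smooth model, `ϖ` the uniformiser of the base);
* `𝔪_R = (u, v, ϖ)`, `u · v ∈ (ϖ)`  (honest node: `u v = G p`);
* `Rt / 𝔪_Rt → R / 𝔪_R` onto (same residue field);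
* **(ALPHA)** `α^* z = u · A + v ^ n · E`, `A`, `E` units of `R`, `1 ≤ n`
  (`α` is an isomorphism on the branch `v = 0`, purely inseparable of degree `n = p` on `u = 0`).

Then
* `pow_succ_mem` : `v ^ (n + 1) ∈ (z, u v) R` (explicit);
* `span_pow_eq_top` : `1, v, …, v ^ n` generate `R` as an `Rt`-module (Nakayama);
* `basisPow` : they form a BASIS as soon as `[Frac R : Frac Rt] = n + 1`, and all coordinates of
  `v ^ (n + 1)` lie in the ideal `(z) + (Rt ∩ (u v) R)`-part: in the form consumed by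
  `FibreNorm.map_norm_sub_map_norm_mem` — `repr_pow_succ_mem`: for every ideal `I` of `Rt` with
  `z ∈ I` and `u v ∈ I R`, the coordinates of `v ^ (n + 1)` lie in `I`.
Mathlib + `S40/M1/FibreNorm` only.
-/
import Mathlib
import Fermat.Agent.S40.M1.FibreNorm

set_option autoImplicit false
set_option linter.unusedSectionVars false
set_option linter.style.haveILetI false

noncomputable section

namespace Fermat.Agent.S40.M1.NodeAlg

open IsLocalRing

variable {Rt R : Type*} [CommRing Rt] [CommRing R] [Algebra Rt R]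
  {z ϖ : Rt} {u v A E : R} {n : ℕ}

/-! ### The explicit relation -/

/-- `v ^ (n + 1) · E = α^* z · v − A · (u v)`. -/
theorem pow_succ_mul_eq (hz : algebraMap Rt R z = u * A + v ^ n * E) :
    v ^ (n + 1) * E = algebraMap Rt R z * v - A * (u * v) := by
  rw [hz]; ring

/-- `v ^ (n + 1)` lies in every ideal of `R` containing `α^* z` and `u v`. -/
theorem pow_succ_mem (hz : algebraMap Rt R z = u * A + v ^ n * E) (hE : IsUnit E)
    (J : Ideal R) (hzJ : algebraMap Rt R z ∈ J) (huvJ : u * v ∈ J) : v ^ (n + 1) ∈ J := by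
  have h := pow_succ_mul_eq (Rt := Rt) (z := z) (u := u) (v := v) (A := A) (E := E) (n := n) hz
  have hmem : v ^ (n + 1) * E ∈ J := by
    rw [h]
    exact Ideal.sub_mem _ (Ideal.mul_mem_right _ _ hzJ) (Ideal.mul_mem_left _ _ huvJ)
  obtain ⟨E', hE'⟩ := hE.exists_right_inv
  have : v ^ (n + 1) = v ^ (n + 1) * E * E' := by rw [mul_assoc, hE', mul_one]
  rw [this]
  exact Ideal.mul_mem_right _ _ hmem

/-- `u` lies in every ideal of `R` containing `α^* z` and `v ^ n`. -/
theorem u_mem (hz : algebraMap Rt R z = u * A + v ^ n * E) (hA : IsUnit A)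
    (J : Ideal R) (hzJ : algebraMap Rt R z ∈ J) (hvJ : v ^ n ∈ J) : u ∈ J := by
  have hmem : u * A ∈ J := by
    have : u * A = algebraMap Rt R z - v ^ n * E := by rw [hz]; ring
    rw [this]
    exact Ideal.sub_mem _ hzJ (Ideal.mul_mem_right _ _ hvJ)
  obtain ⟨A', hA'⟩ := hA.exists_right_inv
  have : u = u * A * A' := by rw [mul_assoc, hA', mul_one]
  rw [this]
  exact Ideal.mul_mem_right _ _ hmem

/-! ### Generation modulo `(z, ϖ) R` -/

section Span

variable [IsLocalRing Rt] [IsLocalRing R]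
  (hm : maximalIdeal R = Ideal.span {u, v, algebraMap Rt R ϖ})
  (hres : ∀ r : R, ∃ c : Rt, r - algebraMap Rt R c ∈ maximalIdeal R)
  (hz : algebraMap Rt R z = u * A + v ^ n * E) (hA : IsUnit A) (hE : IsUnit E) (hn : 1 ≤ n)
  (huv : u * v ∈ Ideal.span {algebraMap Rt R ϖ})

/-- The ideal `(z, ϖ) R`. -/
def fibreIdeal (z ϖ : Rt) : Ideal R := Ideal.span {algebraMap Rt R z, algebraMap Rt R ϖ}

theorem z_mem_fibreIdeal : algebraMap Rt R z ∈ fibreIdeal (R := R) z ϖ :=
  Ideal.subset_span (by simp)

theorem pi_mem_fibreIdeal : algebraMap Rt R ϖ ∈ fibreIdeal (R := R) z ϖ :=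
  Ideal.subset_span (by simp)

include huv in
theorem uv_mem_fibreIdeal : u * v ∈ fibreIdeal (R := R) z ϖ :=
  Ideal.span_mono (by intro x hx; rw [Set.mem_singleton_iff] at hx; simp [hx]) huv

include hm hz hA hn in
/-- `𝔪_R ⊆ (z, ϖ) R + (v)`. -/
theorem maximalIdeal_le : maximalIdeal R ≤ fibreIdeal (R := R) z ϖ ⊔ Ideal.span {v} := by
  rw [hm, Ideal.span_le]
  have hv : v ∈ fibreIdeal (R := R) z ϖ ⊔ Ideal.span {v} :=
    Ideal.mem_sup_right (Ideal.subset_span rfl)
  have hvn : v ^ n ∈ fibreIdeal (R := R) z ϖ ⊔ Ideal.span {v} := by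
    obtain ⟨k, rfl⟩ : ∃ k, n = k + 1 := ⟨n - 1, by omega⟩
    rw [pow_succ]
    exact Ideal.mul_mem_left _ _ hv
  intro x hx
  rcases hx with rfl | rfl | rfl
  · exact u_mem hz hA _ (Ideal.mem_sup_left z_mem_fibreIdeal) hvn
  · exact hv
  · exact Ideal.mem_sup_left pi_mem_fibreIdeal

include hm hres hz hA hn in
/-- Every `r ∈ R` is a polynomial of degree `< k` in `v` with coefficients in `Rt`, modulo
`(z, ϖ) R + (v ^ k)`. -/
theorem exists_sum_pow (k : ℕ) (r : R) :
    ∃ c : ℕ → Rt, r - ∑ i ∈ Finset.range k, algebraMap Rt R (c i) * v ^ i ∈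
      fibreIdeal (R := R) z ϖ ⊔ Ideal.span {v ^ k} := by
  induction k generalizing r with
  | zero =>
    refine ⟨fun _ => 0, ?_⟩
    rw [pow_zero, Ideal.span_singleton_one]
    exact Submodule.mem_sup_right trivial
  | succ k ih =>
    obtain ⟨c₀, hc₀⟩ := hres r
    have h1 := maximalIdeal_le (R := R) (z := z) (ϖ := ϖ) hm hz hA hn hc₀
    obtain ⟨j, hj, w, hw, hjw⟩ := Submodule.mem_sup.1 h1
    obtain ⟨r', rfl⟩ := Ideal.mem_span_singleton'.1 hw
    obtain ⟨c', hc'⟩ := ih r'
    refine ⟨fun i => if i = 0 then c₀ else c' (i - 1), ?_⟩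
    rw [Finset.sum_range_succ']
    simp only [Nat.add_eq_zero_iff, one_ne_zero, and_false, if_false, Nat.add_sub_cancel, if_true,
      pow_zero, mul_one]
    have hr : r = algebraMap Rt R c₀ + j + r' * v := by
      have : r - algebraMap Rt R c₀ = j + r' * v := hjw.symm
      rw [← sub_eq_iff_eq_add'] at this ⊢
      rw [← this]; ring
    have key : r - (∑ i ∈ Finset.range k, algebraMap Rt R (c' i) * v ^ (i + 1) +
        algebraMap Rt R c₀) =
        j + v * (r' - ∑ i ∈ Finset.range k, algebraMap Rt R (c' i) * v ^ i) := by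
      rw [hr, mul_sub, Finset.mul_sum]
      have : ∑ i ∈ Finset.range k, v * (algebraMap Rt R (c' i) * v ^ i) =
          ∑ i ∈ Finset.range k, algebraMap Rt R (c' i) * v ^ (i + 1) :=
        Finset.sum_congr rfl fun i _ => by ring
      rw [this]; ring
    rw [key]
    refine Ideal.add_mem _ (Ideal.mem_sup_left hj) ?_
    obtain ⟨j', hj', w', hw', hjw'⟩ := Submodule.mem_sup.1 hc'
    rw [← hjw', mul_add]
    refine Ideal.add_mem _ (Ideal.mem_sup_left (Ideal.mul_mem_left _ _ hj')) ?_
    obtain ⟨r'', rfl⟩ := Ideal.mem_span_singleton'.1 hw'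
    refine Ideal.mem_sup_right (Ideal.mem_span_singleton'.2 ⟨r'', ?_⟩)
    ring

include hm hres hz hA hE hn huv in
/-- Every `r ∈ R` is `∑_{i ≤ n} c_i v ^ i` modulo `(z, ϖ) R`. -/
theorem exists_sum_pow_fibre (r : R) :
    ∃ c : ℕ → Rt, r - ∑ i ∈ Finset.range (n + 1), algebraMap Rt R (c i) * v ^ i ∈
      fibreIdeal (R := R) z ϖ := by
  obtain ⟨c, hc⟩ := exists_sum_pow (R := R) (z := z) (ϖ := ϖ) hm hres hz hA hn (n + 1) r
  refine ⟨c, ?_⟩
  have hle : fibreIdeal (R := R) z ϖ ⊔ Ideal.span {v ^ (n + 1)} ≤ fibreIdeal (R := R) z ϖ := by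
    refine sup_le le_rfl ?_
    rw [Ideal.span_le, Set.singleton_subset_iff]
    exact pow_succ_mem hz hE _ z_mem_fibreIdeal (uv_mem_fibreIdeal huv)
  exact hle hc

variable (hmt : maximalIdeal Rt = Ideal.span {z, ϖ}) [Module.Finite Rt R]

include hm hres hz hA hE hn huv hmt in
/-- **Nakayama**: `1, v, …, v ^ n` generate `R` over `Rt`. -/
theorem span_pow_eq_top :
    Submodule.span Rt (Set.range fun i : Fin (n + 1) => v ^ (i : ℕ)) = ⊤ := by
  rw [eq_top_iff]
  refine Submodule.le_of_le_smul_of_le_jacobson_bot (I := maximalIdeal Rt) (Module.Finite.fg_top)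
    (IsLocalRing.maximalIdeal_le_jacobson _) ?_
  intro r _
  obtain ⟨c, hc⟩ := exists_sum_pow_fibre (R := R) (z := z) (ϖ := ϖ) hm hres hz hA hE hn huv r
  have h1 : ∑ i ∈ Finset.range (n + 1), algebraMap Rt R (c i) * v ^ i ∈
      Submodule.span Rt (Set.range fun i : Fin (n + 1) => v ^ (i : ℕ)) := by
    refine Submodule.sum_mem _ fun i hi => ?_
    rw [← Algebra.smul_def]
    refine Submodule.smul_mem _ _ (Submodule.subset_span ⟨⟨i, Finset.mem_range.1 hi⟩, rfl⟩)
  have h2 : r - ∑ i ∈ Finset.range (n + 1), algebraMap Rt R (c i) * v ^ i ∈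
      maximalIdeal Rt • (⊤ : Submodule Rt R) := by
    -- `(z, ϖ) R = 𝔪_Rt • ⊤`
    have hle : (fibreIdeal (R := R) z ϖ).restrictScalars Rt ≤
        maximalIdeal Rt • (⊤ : Submodule Rt R) := by
      intro x hx
      have hx' : x ∈ fibreIdeal (R := R) z ϖ := hx
      unfold fibreIdeal at hx'
      rw [Ideal.mem_span_pair] at hx'
      obtain ⟨a, b, rfl⟩ := hx'
      refine Submodule.add_mem _ ?_ ?_
      · rw [mul_comm, ← Algebra.smul_def]
        exact Submodule.smul_mem_smul (by rw [hmt]; exact Ideal.subset_span (by simp)) trivial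
      · rw [mul_comm, ← Algebra.smul_def]
        exact Submodule.smul_mem_smul (by rw [hmt]; exact Ideal.subset_span (by simp)) trivial
    exact hle hc
  have : r = ∑ i ∈ Finset.range (n + 1), algebraMap Rt R (c i) * v ^ i +
      (r - ∑ i ∈ Finset.range (n + 1), algebraMap Rt R (c i) * v ^ i) := by ring
  rw [this]
  exact Submodule.add_mem_sup h1 h2

end Span

/-! ### The basis -/

section Basis

variable {Ft F : Type*} [Field Ft] [Field F] [Algebra Rt Ft] [IsFractionRing Rt Ft]
  [Algebra R F] [IsFractionRing R F] [Algebra Ft F] [Algebra Rt F] [IsScalarTower Rt Ft F]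
  [IsScalarTower Rt R F] [Module.Finite Rt R]

/-- If `1, v, …, v ^ n` generate `R` over `Rt`, their images generate `Frac R` over `Frac Rt`. -/
theorem span_field_eq_top
    (hspan : Submodule.span Rt (Set.range fun i : Fin (n + 1) => v ^ (i : ℕ)) = ⊤) :
    Submodule.span Ft (Set.range fun i : Fin (n + 1) => algebraMap R F (v ^ (i : ℕ))) = ⊤ := by
  classical
  haveI : IsDomain R := (IsFractionRing.injective R F).isDomain (algebraMap R F)
  set S : Submodule Ft F :=
    Submodule.span Ft (Set.range fun i : Fin (n + 1) => algebraMap R F (v ^ (i : ℕ))) with hS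
  -- the image of `R` lies in `S`
  have hR : ∀ r : R, algebraMap R F r ∈ S := by
    intro r
    have hr : r ∈ Submodule.span Rt (Set.range fun i : Fin (n + 1) => v ^ (i : ℕ)) := by
      rw [hspan]; trivial
    refine Submodule.span_induction (p := fun x _ => algebraMap R F x ∈ S) ?_ ?_ ?_ ?_ hr
    · rintro x ⟨i, rfl⟩
      exact Submodule.subset_span ⟨i, rfl⟩
    · simp
    · intro x y _ _ hx hy
      rw [map_add]; exact S.add_mem hx hy
    · intro a x _ hx
      have : algebraMap R F (a • x) = algebraMap Rt Ft a • algebraMap R F x := by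
        rw [Algebra.smul_def, map_mul, ← IsScalarTower.algebraMap_apply,
          IsScalarTower.algebraMap_apply Rt Ft F, Algebra.smul_def]
      rw [this]
      exact S.smul_mem _ hx
  -- the subalgebra generated by the image of `R` is `S`
  set T : Subalgebra Ft F := Algebra.adjoin Ft (Set.range (algebraMap R F)) with hT
  have hTS : ∀ x ∈ T, x ∈ S := by
    intro x hx
    have hx' : x ∈ Subalgebra.toSubmodule T := hx
    rw [hT, Algebra.adjoin_eq_span] at hx'
    have hcl : (Submonoid.closure (Set.range (algebraMap R F)) : Set F) =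
        Set.range (algebraMap R F) := by
      have : (Submonoid.closure (Set.range (algebraMap R F))) =
          (algebraMap R F).rangeS.toSubmonoid := by
        apply le_antisymm
        · rw [Submonoid.closure_le]
          rintro _ ⟨r, rfl⟩
          exact ⟨r, rfl⟩
        · rintro _ ⟨r, rfl⟩
          exact Submonoid.subset_closure ⟨r, rfl⟩
      rw [this]; rfl
    rw [hcl] at hx'
    refine Submodule.span_le.2 ?_ hx'
    rintro _ ⟨r, rfl⟩
    exact hR r
  rw [eq_top_iff]
  intro x _
  obtain ⟨a, b, hb, rfl⟩ := IsFractionRing.div_surjective (A := R) x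
  have hb0 : algebraMap R F b ≠ 0 := by
    intro h
    exact (mem_nonZeroDivisors_iff_ne_zero.1 hb) ((IsFractionRing.injective R F) (by rw [h, map_zero]))
  have ha : algebraMap R F a ∈ T := Algebra.subset_adjoin ⟨a, rfl⟩
  have hbT : algebraMap R F b ∈ T := Algebra.subset_adjoin ⟨b, rfl⟩
  have hint : IsIntegral Rt (algebraMap R F b) :=
    (Algebra.IsIntegral.isIntegral (R := Rt) b).map (IsScalarTower.toAlgHom Rt R F)
  have halg : IsAlgebraic Ft (algebraMap R F b) := (hint.tower_top (A := Ft)).isAlgebraic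
  have hinv : (algebraMap R F b)⁻¹ ∈ T := T.inv_mem_of_algebraic (x := ⟨_, hbT⟩) halg
  apply hTS
  rw [div_eq_mul_inv]
  exact T.mul_mem ha hinv

variable (hfin : Module.finrank Ft F = n + 1)
  (hspan : Submodule.span Rt (Set.range fun i : Fin (n + 1) => v ^ (i : ℕ)) = ⊤)

include hfin hspan in
/-- `1, v, …, v ^ n` are linearly independent over `Rt`. -/
theorem linearIndependent_pow :
    LinearIndependent Rt (fun i : Fin (n + 1) => v ^ (i : ℕ)) := by
  have h1 : LinearIndependent Ft (fun i : Fin (n + 1) => algebraMap R F (v ^ (i : ℕ))) :=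
    linearIndependent_of_top_le_span_of_card_eq_finrank
      (span_field_eq_top (Rt := Rt) (Ft := Ft) (F := F) hspan).ge (by rw [Fintype.card_fin, hfin])
  have h2 : LinearIndependent Rt (fun i : Fin (n + 1) => algebraMap R F (v ^ (i : ℕ))) := by
    refine h1.restrict_scalars ?_
    intro a b hab
    simp only [Algebra.smul_def, mul_one] at hab
    exact IsFractionRing.injective Rt Ft hab
  exact LinearIndependent.of_comp (IsScalarTower.toAlgHom Rt R F).toLinearMap h2

/-- **The fibre basis** `1, v, …, v ^ n` of `R` over `Rt`. -/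
def basisPow : Module.Basis (Fin (n + 1)) Rt R :=
  Module.Basis.mk (linearIndependent_pow (Ft := Ft) (F := F) hfin hspan) hspan.ge

theorem basisPow_apply (i : Fin (n + 1)) :
    basisPow (Ft := Ft) (F := F) hfin hspan i = v ^ (i : ℕ) := by
  unfold basisPow
  rw [Module.Basis.mk_apply]

/-- Coordinates (in any basis) of an element of `I R` lie in `I`. -/
theorem repr_mem_of_mem_map {ι : Type*} [Fintype ι] (b : Module.Basis ι Rt R) (I : Ideal Rt)
    {x : R} (hx : x ∈ I.map (algebraMap Rt R)) (i : ι) : b.repr x i ∈ I := by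
  classical
  unfold Ideal.map at hx
  refine Submodule.span_induction (p := fun y _ => ∀ i, b.repr y i ∈ I) ?_ ?_ ?_ ?_ hx i
  · rintro _ ⟨a, ha, rfl⟩ i
    have : algebraMap Rt R a = a • (1 : R) := by rw [Algebra.smul_def, mul_one]
    rw [this, map_smul, Finsupp.smul_apply, smul_eq_mul]
    exact Ideal.mul_mem_right _ _ ha
  · intro i; simp
  · intro y y' _ _ hy hy' i
    rw [map_add, Finsupp.add_apply]; exact Ideal.add_mem _ (hy i) (hy' i)
  · intro r y _ hy i
    rw [smul_eq_mul, mul_comm]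
    exact Fermat.Agent.S40.M1.FibreNorm.repr_mul_mem b I hy r i

/-- **Coordinates of `v ^ (n + 1)`**: for every ideal `I` of `Rt` containing `z` with `u v ∈ I R`, all
coordinates of `v ^ (n + 1)` in the fibre basis lie in `I`  (apply with `I = ev⁻¹ (p)`). -/
theorem repr_pow_succ_mem (hz : algebraMap Rt R z = u * A + v ^ n * E) (hE : IsUnit E)
    (I : Ideal Rt) (hzI : z ∈ I) (huvI : u * v ∈ I.map (algebraMap Rt R)) (i : Fin (n + 1)) :
    (basisPow (Ft := Ft) (F := F) hfin hspan).repr (v ^ (n + 1)) i ∈ I :=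
  repr_mem_of_mem_map _ I
    (pow_succ_mem hz hE _ (Ideal.mem_map_of_mem _ hzI) huvI) i

end Basis

end Fermat.Agent.S40.M1.NodeAlg
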