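/-
S40 / S44 (row 38), T6′ static route, block (R4), clause **(ALPHA)** = (H4) of `moonshots` row 67
(helper1): **the shape of `α^* z` and `β^* z′` at a supersingular node.**

Abstract setting of `P3G/Crossing` (`CrossingData`: `θ₁ ∘ α = θ`, `θ₂ ∘ β = θ`,
`θ₁ (β x) = ψ(θ x) ^ ℓ`, `θ₂ (α x) = ψ(θ x) ^ ℓ`, `Rb` the Dedekind special fibre of level `M`), `𝔫` a
crossing point of the chart `R` of level `M ℓ`, and honest node coordinates `u, v` in the shape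
delivered by `S36.R1.Unconditional.regular_fin`:

* `u, v ∈ 𝔫`, `θ₂ u = 0`, `θ₁ v = 0`;
* the branch `ker θ₂` is generated by `u` locally at `𝔫`, the branch `ker θ₁` by `v`;
* `𝔫 = (u, v)` locally at `𝔫`.

Then for `z` in the chart of level `M` whose reduction is a local parameter of the special fibre at
the image point (`θ z ∈ 𝔪ₓ ∖ 𝔪ₓ²`, `𝔪ₓ = θ₁(𝔫)`):

  **`s · α z = u · A + v ^ ℓ · E`,  `s, A, E ∉ 𝔫`**   (`alpha_decomp`)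

(`α` is an isomorphism on the branch `v = 0` and purely inseparable of degree `ℓ` on the branch
`u = 0`), and symmetrically `s · β z′ = v · A + u ^ ℓ · E` for `θ z′ ∈ 𝔪_y ∖ 𝔪_y²` (`beta_decomp`).
In the local ring `R_𝔫` this is the hypothesis `hz` of `S40/M1/NodeAlg` (fibre basis `1, v, …, v ^ ℓ`).
Mathlib + `P3G/Crossing` only.
-/
import Mathlib
import Fermat.Agent.P3G.Crossing

set_option autoImplicit false
set_option linter.unusedSectionVars false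
set_option linter.style.haveILetI false

namespace Fermat.Agent.S40.M1.NodeAlpha

open Fermat.Agent.P3G.Crossing

variable {RM R Rb : Type*} [CommRing RM] [CommRing R] [CommRing Rb] [IsDedekindDomain Rb]
  {ℓ : ℕ} {α β : RM → R} {θ : RM →+* Rb} {θ₁ θ₂ : R →+* Rb} {ψ : Rb ≃+* Rb}

/-- The crossing data with the two branches exchanged. -/
theorem CrossingData.swap (D : CrossingData ℓ α β θ θ₁ θ₂ ψ) : CrossingData ℓ β α θ θ₂ θ₁ ψ :=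
  ⟨D.two_le, D.surj, D.h2, D.h1, D.h4, D.h3⟩

/-- A ring automorphism maps `P ^ 2` onto `(ψ P) ^ 2`: membership form. -/
theorem psi_mem_sq_iff (P : Ideal Rb) (y : Rb) :
    ψ y ∈ (P.map (ψ : Rb →+* Rb)) ^ 2 ↔ y ∈ P ^ 2 := by
  rw [← Ideal.map_pow]
  constructor
  · intro h
    obtain ⟨x, hx, hxy⟩ := (Ideal.mem_map_iff_of_surjective (ψ : Rb →+* Rb) ψ.surjective).1 h
    have : x = y := ψ.injective hxy
    rwa [← this]
  · exact fun h => Ideal.mem_map_of_mem _ h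

variable (D : CrossingData ℓ α β θ θ₁ θ₂ ψ) (𝔫 : Ideal R) [h𝔫 : 𝔫.IsMaximal]
  (hk1 : RingHom.ker θ₁ ≤ 𝔫) (hk2 : RingHom.ker θ₂ ≤ 𝔫)
  {u v : R} (hu : u ∈ 𝔫) (hv : v ∈ 𝔫) (hu2 : θ₂ u = 0) (hv1 : θ₁ v = 0)
  (hK2 : ∀ r : R, θ₂ r = 0 → ∃ s c : R, s ∉ 𝔫 ∧ s * r = c * u)
  (hG : ∀ x ∈ 𝔫, ∃ s : R, s ∉ 𝔫 ∧ s * x ∈ Ideal.span {u, v})

include D hk1 hk2 hu hv hu2 hv1 hK2 hG in
/-- **(ALPHA)**: `s · α z = u · A + v ^ ℓ · E` with `s, A, E ∉ 𝔫`. -/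
theorem alpha_decomp (z : RM) (hz : θ z ∈ 𝔫.map θ₁) (hz2 : θ z ∉ (𝔫.map θ₁) ^ 2) :
    ∃ s A E : R, s ∉ 𝔫 ∧ A ∉ 𝔫 ∧ E ∉ 𝔫 ∧ s * α z = u * A + v ^ ℓ * E := by
  have hmx := D.isMaximal_mx 𝔫 hk1
  have hmy := D.isMaximal_my 𝔫 hk2
  have mem1 : ∀ r : R, θ₁ r ∈ 𝔫.map θ₁ ↔ r ∈ 𝔫 := map_mem_map_iff θ₁ D.surj₁ 𝔫 hk1
  have mem2 : ∀ r : R, θ₂ r ∈ 𝔫.map θ₂ ↔ r ∈ 𝔫 := map_mem_map_iff θ₂ D.surj₂ 𝔫 hk2
  have hℓ : 1 ≤ ℓ := le_trans (by norm_num) D.two_le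
  have hz0 : θ z ≠ 0 := fun h => hz2 (h ▸ Ideal.zero_mem _)
  -- Step 1: `α z ∈ 𝔫`, so `s₁ α z = a₁ u + b₁ v`
  have h1 : α z ∈ 𝔫 := (mem1 _).1 (by rw [D.h1]; exact hz)
  obtain ⟨s₁, hs₁, hsp⟩ := hG _ h1
  obtain ⟨a₁, b₁, hab⟩ := Ideal.mem_span_pair.1 hsp
  -- Step 2: `a₁ ∉ 𝔫`
  have ha₁ : a₁ ∉ 𝔫 := by
    intro ha
    have e1 : θ₁ a₁ * θ₁ u = θ₁ s₁ * θ z := by
      have := congrArg θ₁ hab
      rwa [map_add, map_mul, map_mul, map_mul, hv1, mul_zero, add_zero, D.h1] at this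
    obtain ⟨t, w, ht, htw⟩ := exists_mul_eq_mul_of_notMem_sq hz hz2 ((mem1 u).2 hu)
    have e2 : (t * θ₁ s₁ - θ₁ a₁ * w) * θ z = 0 := by
      have : t * (θ₁ s₁ * θ z) = θ₁ a₁ * (w * θ z) := by rw [← e1, ← htw]; ring
      linear_combination this
    have e3 : t * θ₁ s₁ = θ₁ a₁ * w := by
      rcases mul_eq_zero.1 e2 with h | h
      · exact sub_eq_zero.1 h
      · exact absurd h hz0
    have e4 : t * θ₁ s₁ ∈ 𝔫.map θ₁ := by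
      rw [e3]; exact Ideal.mul_mem_right _ _ ((mem1 a₁).2 ha)
    rcases hmx.isPrime.mem_or_mem e4 with h | h
    · exact ht h
    · exact hs₁ ((mem1 s₁).1 h)
  -- Step 3: the second branch
  set g₂ : Rb := ψ (θ z) with hg₂
  have hg₂m : g₂ ∈ 𝔫.map θ₂ := (D.mem_mx_iff 𝔫 hk1 hk2 _).1 hz
  have hg₂2 : g₂ ∉ (𝔫.map θ₂) ^ 2 := by
    rw [← D.map_psi_mx 𝔫 hk1 hk2]
    exact fun h => hz2 ((psi_mem_sq_iff _ _).1 h)
  have hg₂0 : g₂ ≠ 0 := fun h => hg₂2 (h ▸ Ideal.zero_mem _)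
  have e5 : θ₂ b₁ * θ₂ v = θ₂ s₁ * g₂ ^ ℓ := by
    have := congrArg θ₂ hab
    rwa [map_add, map_mul, map_mul, map_mul, hu2, mul_zero, zero_add, D.h4] at this
  -- `g₂` is a multiple of `θ₂ v` locally
  obtain ⟨x₀, hx₀, hx₀g⟩ := (Ideal.mem_map_iff_of_surjective θ₂ D.surj₂).1 hg₂m
  obtain ⟨s', hs', hsp'⟩ := hG _ hx₀
  obtain ⟨a', b', hab'⟩ := Ideal.mem_span_pair.1 hsp'
  have e6 : θ₂ s' * g₂ = θ₂ b' * θ₂ v := by
    have := congrArg θ₂ hab'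
    rw [map_add, map_mul, map_mul, map_mul, hu2, mul_zero, zero_add, hx₀g] at this
    exact this.symm
  have hs'2 : θ₂ s' ∉ 𝔫.map θ₂ := fun h => hs' ((mem2 s').1 h)
  have hs'0 : θ₂ s' ≠ 0 := fun h => hs'2 (h ▸ Ideal.zero_mem _)
  have hv0 : θ₂ v ≠ 0 := by
    intro h
    rw [h, mul_zero] at e6
    rcases mul_eq_zero.1 e6 with h' | h'
    · exact hs'0 h'
    · exact hg₂0 h'
  -- `b' ∉ 𝔫`
  have hb' : b' ∉ 𝔫 := by
    intro hb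
    obtain ⟨t₂, w₂, ht₂, htw₂⟩ := exists_mul_eq_mul_of_notMem_sq hg₂m hg₂2 ((mem2 v).2 hv)
    have e7 : (t₂ * θ₂ s' - θ₂ b' * w₂) * g₂ = 0 := by
      have : t₂ * (θ₂ s' * g₂) = θ₂ b' * (w₂ * g₂) := by rw [e6, ← htw₂]; ring
      linear_combination this
    have e8 : t₂ * θ₂ s' = θ₂ b' * w₂ := by
      rcases mul_eq_zero.1 e7 with h | h
      · exact sub_eq_zero.1 h
      · exact absurd h hg₂0
    have e9 : t₂ * θ₂ s' ∈ 𝔫.map θ₂ := by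
      rw [e8]; exact Ideal.mul_mem_right _ _ ((mem2 b').2 hb)
    rcases hmy.isPrime.mem_or_mem e9 with h | h
    · exact ht₂ h
    · exact hs'2 h
  -- `θ₂ (s' ^ ℓ b₁ - s₁ b' ^ ℓ v ^ (ℓ - 1)) = 0`
  obtain ⟨k, rfl⟩ : ∃ k, ℓ = k + 1 := ⟨ℓ - 1, by omega⟩
  have e10 : θ₂ (s' ^ (k + 1) * b₁ - s₁ * b' ^ (k + 1) * v ^ k) = 0 := by
    have h2 : θ₂ v * (θ₂ s' ^ (k + 1) * θ₂ b₁ - θ₂ s₁ * θ₂ b' ^ (k + 1) * θ₂ v ^ k) = 0 := by
      have : θ₂ s' ^ (k + 1) * (θ₂ b₁ * θ₂ v) = θ₂ s₁ * (θ₂ s' * g₂) ^ (k + 1) := by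
        rw [e5]; ring
      rw [e6] at this
      linear_combination this
    rcases mul_eq_zero.1 h2 with h | h
    · exact absurd h hv0
    · rw [map_sub, map_mul, map_mul, map_mul, map_pow, map_pow, map_pow]; exact h
  obtain ⟨s₃, c, hs₃, hsc⟩ := hK2 _ e10
  -- Step 4: assemble
  have hprime := h𝔫.isPrime
  refine ⟨s₃ * s' ^ (k + 1) * s₁, s₃ * s' ^ (k + 1) * a₁ + c * v, s₃ * s₁ * b' ^ (k + 1),
    ?_, ?_, ?_, ?_⟩
  · intro h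
    rcases hprime.mem_or_mem h with h | h
    · rcases hprime.mem_or_mem h with h | h
      · exact hs₃ h
      · exact hs' (hprime.mem_of_pow_mem _ h)
    · exact hs₁ h
  · intro h
    have h' : s₃ * s' ^ (k + 1) * a₁ ∈ 𝔫 := by
      have := Ideal.sub_mem _ h (Ideal.mul_mem_left _ c hv)
      simpa using this
    rcases hprime.mem_or_mem h' with h | h
    · rcases hprime.mem_or_mem h with h | h
      · exact hs₃ h
      · exact hs' (hprime.mem_of_pow_mem _ h)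
    · exact ha₁ h
  · intro h
    rcases hprime.mem_or_mem h with h | h
    · rcases hprime.mem_or_mem h with h | h
      · exact hs₃ h
      · exact hs₁ h
    · exact hb' (hprime.mem_of_pow_mem _ h)
  · have : s₃ * s' ^ (k + 1) * s₁ * α z = s₃ * s' ^ (k + 1) * (a₁ * u + b₁ * v) := by
      rw [hab]; ring
    rw [this]
    linear_combination v * hsc

variable (hK1 : ∀ r : R, θ₁ r = 0 → ∃ s c : R, s ∉ 𝔫 ∧ s * r = c * v)

include D hk1 hk2 hu hv hu2 hv1 hK1 hG in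
/-- **(BETA)**: `s · β z = v · A + u ^ ℓ · E` with `s, A, E ∉ 𝔫`. -/
theorem beta_decomp (z : RM) (hz : θ z ∈ 𝔫.map θ₂) (hz2 : θ z ∉ (𝔫.map θ₂) ^ 2) :
    ∃ s A E : R, s ∉ 𝔫 ∧ A ∉ 𝔫 ∧ E ∉ 𝔫 ∧ s * β z = v * A + u ^ ℓ * E := by
  refine alpha_decomp (CrossingData.swap D) 𝔫 hk2 hk1 hv hu hv1 hu2 hK1 ?_ z hz hz2
  intro x hx
  obtain ⟨s, hs, h⟩ := hG x hx
  refine ⟨s, hs, ?_⟩
  rwa [Set.pair_comm]

end Fermat.Agent.S40.M1.NodeAlpha
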