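/-
S40 / S44 (row 38), T6′ static route, block (R4), clause **(d)** (helper1): **the two fibre norms of a
unit at a supersingular node agree modulo `p` at the test points.**

Abstract local setting.  `O` the base ring of the (big) level, `p, ϖ ∈ O` with `p ∈ (ϖ)`;
`R` the local ring of the level-`Mℓ` chart at the node, `u, v` its node coordinates
(`𝔪_R = (u, v, ϖ)`, `u v = G p`, `G` a unit); `Rα`, `Rβ` the local rings of the level-`M` chart at the
two image points, `R` being an algebra over each of them (via `α`, via `β`), module-finite with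
fraction-field degree `n + 1` (`n = ℓ`); `zα`, `zβ` local parameters (`𝔪 = (z, ϖ)`) with

  `α^* zα = u A + v ^ n E`,   `β^* zβ = v A' + u ^ n E'`   (`S40/M1/NodeAlpha`),

and `evα : Rα → O`, `evβ : Rβ → O` two `O`-algebra evaluations ("test points") with `ev z ∈ (p)` and
`ker ev = (z − ev z)`.  Then `R` is free over `Rα` on `1, v, …, v ^ n` and over `Rβ` on `1, u, …, u ^ n`
(`S40/M1/NodeAlg`), and for EVERY `W ∈ R`

  **`evα (N_α W) ≡ evβ (N_β W)  (mod p)`**     (`map_norm_sub_map_norm_mem`)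

(both are `≡ w₀ ^ (n + 1)`, `w₀ ∈ O` the constant of `W` modulo `(u, v)`), by `S40/M1/FibreNorm`.  The
hypothesis "`(u, v) R ∩ O ⊆ (p)`" of `FibreNorm` is *derived* here from the fibre basis.
Mathlib + `FibreNorm` + `NodeAlg` only.
-/
import Mathlib
import Fermat.Agent.S40.M1.FibreNorm
import Fermat.Agent.S40.M1.NodeAlg

set_option autoImplicit false
set_option linter.unusedSectionVars false
set_option linter.style.haveILetI false

noncomputable section

namespace Fermat.Agent.S40.M1.NodeD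

open IsLocalRing Fermat.Agent.S40.M1

/-! ### One side -/

section OneSide

variable {O Rt R : Type*} [CommRing O] [CommRing Rt] [CommRing R]
  [Algebra O Rt] [Algebra O R] [Algebra Rt R] [IsScalarTower O Rt R]
  {p : O} {z : Rt} {u v A E G : R} {n : ℕ}

/-- `ι p ∈ (u, v)` when `u v = G p`, `G` a unit. -/
theorem algebraMap_p_mem (huv : u * v = G * algebraMap O R p) (hG : IsUnit G) :
    algebraMap O R p ∈ Ideal.span {u, v} := by
  obtain ⟨G', hG'⟩ := hG.exists_left_inv
  have : algebraMap O R p = G' * v * u := by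
    have h1 : G' * (u * v) = algebraMap O R p := by rw [huv, ← mul_assoc, hG', one_mul]
    rw [← h1]; ring
  rw [this]
  exact Ideal.mul_mem_left _ _ (Ideal.subset_span (by simp))

variable (ev : Rt →ₐ[O] O)

include ev in
/-- **`r ≡ ι (ev r)` modulo `(u, v)`** for `r` in the small local ring. -/
theorem algebraMap_sub_const_mem (hz : algebraMap Rt R z = u * A + v ^ n * E) (hn : 1 ≤ n)
    (huv : u * v = G * algebraMap O R p) (hG : IsUnit G)
    (hevz : ev z ∈ Ideal.span {p})
    (hker : ∀ r : Rt, ev r = 0 → ∃ q : Rt, r = q * (z - algebraMap O Rt (ev z)))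
    (r : Rt) : algebraMap Rt R r - algebraMap O R (ev r) ∈ Ideal.span {u, v} := by
  have h0 : ev (r - algebraMap O Rt (ev r)) = 0 := by
    rw [map_sub, AlgHom.commutes, Algebra.algebraMap_self_apply, sub_self]
  obtain ⟨q, hq⟩ := hker _ h0
  have h1 : algebraMap Rt R r - algebraMap O R (ev r) =
      algebraMap Rt R q * (algebraMap Rt R z - algebraMap O R (ev z)) := by
    have := congrArg (algebraMap Rt R) hq
    rw [map_sub, map_mul, map_sub, ← IsScalarTower.algebraMap_apply,
      ← IsScalarTower.algebraMap_apply] at this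
    exact this
  rw [h1]
  refine Ideal.mul_mem_left _ _ (Ideal.sub_mem _ ?_ ?_)
  · rw [hz]
    refine Ideal.add_mem _ (Ideal.mul_mem_right _ _ (Ideal.subset_span (by simp))) ?_
    obtain ⟨k, rfl⟩ : ∃ k, n = k + 1 := ⟨n - 1, by omega⟩
    rw [pow_succ]
    exact Ideal.mul_mem_right _ _ (Ideal.mul_mem_left _ _ (Ideal.subset_span (by simp)))
  · obtain ⟨d, hd⟩ := Ideal.mem_span_singleton'.1 hevz
    rw [← hd, map_mul]
    exact Ideal.mul_mem_left _ _ (algebraMap_p_mem huv hG)

variable (b : Module.Basis (Fin (n + 1)) Rt R) (hb : ∀ i : Fin (n + 1), b i = v ^ (i : ℕ))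

include hb in
/-- The constant coordinate of a constant. -/
theorem repr_algebraMap_zero (c : O) :
    b.repr (algebraMap O R c) 0 = algebraMap O Rt c := by
  have h1 : algebraMap O R c = algebraMap O Rt c • b 0 := by
    rw [hb 0, Fin.val_zero, pow_zero, Algebra.smul_def, mul_one, ← IsScalarTower.algebraMap_apply]
  rw [h1, map_smul, Module.Basis.repr_self, Finsupp.smul_apply, Finsupp.single_eq_same, smul_eq_mul,
    mul_one]

include hb in
/-- The constant coordinate of a multiple of `v` lies in `I` as soon as the coordinates of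
`v ^ (n + 1)` do. -/
theorem repr_mul_v_zero_mem (I : Ideal Rt) (hv : ∀ i, b.repr (v ^ (n + 1)) i ∈ I) (y : R) :
    b.repr (y * v) 0 ∈ I := by
  have hy : y * v = ∑ k, b.repr y k • (b k * v) := by
    conv_lhs => rw [← b.sum_repr y]
    rw [Finset.sum_mul]
    exact Finset.sum_congr rfl fun k _ => smul_mul_assoc _ _ _
  rw [hy, map_sum, Finsupp.coe_finsetSum, Finset.sum_apply]
  refine Ideal.sum_mem _ fun k _ => ?_
  rw [map_smul, Finsupp.smul_apply, smul_eq_mul, hb k, ← pow_succ]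
  have h2 := FibreNorm.repr_pow_sub_mem b v hb I hv ((k : ℕ) + 1) 0
  rw [if_neg (by simp), sub_zero] at h2
  exact Ideal.mul_mem_left _ _ h2

include hb ev in
/-- **`(u, v) R ∩ O ⊆ (p)`**, from the fibre basis. -/
theorem mem_span_of_algebraMap_mem (hz : algebraMap Rt R z = u * A + v ^ n * E) (hA : IsUnit A)
    (hn : 1 ≤ n) (hevz : ev z ∈ Ideal.span {p})
    (hv : ∀ i, ev (b.repr (v ^ (n + 1)) i) ∈ Ideal.span {p})
    (c : O) (hc : algebraMap O R c ∈ Ideal.span {u, v}) : c ∈ Ideal.span {p} := by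
  set I : Ideal Rt := (Ideal.span {p}).comap ev with hI
  -- `(u, v) ≤ (α^* z, v)`
  have hle : Ideal.span {u, v} ≤ Ideal.span {algebraMap Rt R z, v} := by
    rw [Ideal.span_le]
    intro x hx
    rcases hx with rfl | rfl
    · refine NodeAlg.u_mem hz hA _ (Ideal.subset_span (by simp)) ?_
      obtain ⟨k, rfl⟩ : ∃ k, n = k + 1 := ⟨n - 1, by omega⟩
      rw [pow_succ]
      exact Ideal.mul_mem_left _ _ (Ideal.subset_span (by simp))
    · exact Ideal.subset_span (by simp)
  obtain ⟨a, a', haa'⟩ := Ideal.mem_span_pair.1 (hle hc)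
  -- constant coordinate of both sides
  have h1 : b.repr (a * algebraMap Rt R z) 0 ∈ I := by
    have : a * algebraMap Rt R z = z • a := by rw [Algebra.smul_def, mul_comm]
    rw [this, map_smul, Finsupp.smul_apply, smul_eq_mul, hI, Ideal.mem_comap, map_mul]
    exact Ideal.mul_mem_right _ _ hevz
  have h2 : b.repr (a' * v) 0 ∈ I := repr_mul_v_zero_mem b hb I (fun i => hv i) a'
  have h3 : b.repr (algebraMap O R c) 0 ∈ I := by
    rw [← haa', map_add, Finsupp.add_apply]
    exact Ideal.add_mem _ h1 h2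
  rw [repr_algebraMap_zero b hb, hI, Ideal.mem_comap, AlgHom.commutes,
    Algebra.algebraMap_self_apply] at h3
  exact h3

end OneSide

/-! ### The basis on one side, from the node hypotheses -/

section Basis

variable {O Rt R : Type*} [CommRing O] [CommRing Rt] [CommRing R]
  [Algebra O Rt] [Algebra O R] [Algebra Rt R] [IsScalarTower O Rt R]
  [IsLocalRing Rt] [IsLocalRing R] [Module.Finite Rt R]
  {Ft F : Type*} [Field Ft] [Field F] [Algebra Rt Ft] [IsFractionRing Rt Ft]
  [Algebra R F] [IsFractionRing R F] [Algebra Ft F] [Algebra Rt F] [IsScalarTower Rt Ft F]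
  [IsScalarTower Rt R F]
  {p ϖ : O} {z : Rt} {u v A E G : R} {n : ℕ}

/-- Nakayama generation, in the `O`-algebra vocabulary. -/
theorem span_pow_eq_top (hpϖ : p ∈ Ideal.span {ϖ})
    (hm : maximalIdeal R = Ideal.span {u, v, algebraMap O R ϖ})
    (hmt : maximalIdeal Rt = Ideal.span {z, algebraMap O Rt ϖ})
    (hres : ∀ r : R, ∃ c : Rt, r - algebraMap Rt R c ∈ maximalIdeal R)
    (hz : algebraMap Rt R z = u * A + v ^ n * E) (hA : IsUnit A) (hE : IsUnit E) (hn : 1 ≤ n)
    (huv : u * v = G * algebraMap O R p) :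
    Submodule.span Rt (Set.range fun i : Fin (n + 1) => v ^ (i : ℕ)) = ⊤ := by
  have hϖ : algebraMap Rt R (algebraMap O Rt ϖ) = algebraMap O R ϖ :=
    (IsScalarTower.algebraMap_apply O Rt R ϖ).symm
  refine NodeAlg.span_pow_eq_top (ϖ := algebraMap O Rt ϖ) (by rw [hϖ]; exact hm) hres hz hA hE hn ?_
    hmt
  rw [hϖ, huv]
  obtain ⟨d, hd⟩ := Ideal.mem_span_singleton'.1 hpϖ
  rw [← hd, map_mul]
  exact Ideal.mul_mem_left _ _ (Ideal.mul_mem_left _ _ (Ideal.subset_span rfl))

variable (ev : Rt →ₐ[O] O)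

include ev in
/-- The coordinates of `v ^ (n + 1)` in the fibre basis are `≡ 0` modulo `p` at the test point. -/
theorem ev_repr_pow_succ_mem (hfin : Module.finrank Ft F = n + 1)
    (hspan : Submodule.span Rt (Set.range fun i : Fin (n + 1) => v ^ (i : ℕ)) = ⊤)
    (hz : algebraMap Rt R z = u * A + v ^ n * E) (hE : IsUnit E)
    (huv : u * v = G * algebraMap O R p) (hevz : ev z ∈ Ideal.span {p}) (i : Fin (n + 1)) :
    ev ((NodeAlg.basisPow (Ft := Ft) (F := F) hfin hspan).repr (v ^ (n + 1)) i) ∈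
      Ideal.span {p} := by
  have h := NodeAlg.repr_pow_succ_mem (Ft := Ft) (F := F) hfin hspan hz hE
    ((Ideal.span {p}).comap ev) (by rw [Ideal.mem_comap]; exact hevz) ?_ i
  · exact h
  · rw [huv, IsScalarTower.algebraMap_apply O Rt R p]
    refine Ideal.mul_mem_left _ _ (Ideal.mem_map_of_mem _ ?_)
    rw [Ideal.mem_comap, AlgHom.commutes, Algebra.algebraMap_self_apply]
    exact Ideal.subset_span rfl

end Basis

/-! ### The comparison -/

section Compare

variable {O Rα Rβ R : Type*} [CommRing O] [CommRing Rα] [CommRing Rβ] [CommRing R]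
  [Algebra O Rα] [Algebra O Rβ] [Algebra O R] [Algebra Rα R] [Algebra Rβ R]
  [IsScalarTower O Rα R] [IsScalarTower O Rβ R]
  [IsLocalRing Rα] [IsLocalRing Rβ] [IsLocalRing R] [Module.Finite Rα R] [Module.Finite Rβ R]
  {Fα Fβ F : Type*} [Field Fα] [Field Fβ] [Field F]
  [Algebra Rα Fα] [IsFractionRing Rα Fα] [Algebra Rβ Fβ] [IsFractionRing Rβ Fβ]
  [Algebra R F] [IsFractionRing R F]
  [Algebra Fα F] [Algebra Rα F] [IsScalarTower Rα Fα F] [IsScalarTower Rα R F]
  [Algebra Fβ F] [Algebra Rβ F] [IsScalarTower Rβ Fβ F] [IsScalarTower Rβ R F]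
  {p ϖ : O} {zα : Rα} {zβ : Rβ} {u v A E A' E' G : R} {n : ℕ}

/-- **(R4)(d), abstract**: at a node, `evα (N_α W) ≡ evβ (N_β W)` modulo `p` for every `W`. -/
theorem map_norm_sub_map_norm_mem (hpϖ : p ∈ Ideal.span {ϖ})
    (hm : maximalIdeal R = Ideal.span {u, v, algebraMap O R ϖ})
    (hmtα : maximalIdeal Rα = Ideal.span {zα, algebraMap O Rα ϖ})
    (hmtβ : maximalIdeal Rβ = Ideal.span {zβ, algebraMap O Rβ ϖ})
    (hresα : ∀ r : R, ∃ c : Rα, r - algebraMap Rα R c ∈ maximalIdeal R)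
    (hresβ : ∀ r : R, ∃ c : Rβ, r - algebraMap Rβ R c ∈ maximalIdeal R)
    (hzα : algebraMap Rα R zα = u * A + v ^ n * E) (hA : IsUnit A) (hE : IsUnit E)
    (hzβ : algebraMap Rβ R zβ = v * A' + u ^ n * E') (hA' : IsUnit A') (hE' : IsUnit E')
    (hn : 1 ≤ n) (huv : u * v = G * algebraMap O R p) (hG : IsUnit G)
    (hfinα : Module.finrank Fα F = n + 1) (hfinβ : Module.finrank Fβ F = n + 1)
    (evα : Rα →ₐ[O] O) (evβ : Rβ →ₐ[O] O)
    (hevzα : evα zα ∈ Ideal.span {p}) (hevzβ : evβ zβ ∈ Ideal.span {p})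
    (hkerα : ∀ r : Rα, evα r = 0 → ∃ q : Rα, r = q * (zα - algebraMap O Rα (evα zα)))
    (hkerβ : ∀ r : Rβ, evβ r = 0 → ∃ q : Rβ, r = q * (zβ - algebraMap O Rβ (evβ zβ)))
    (W : R) :
    evα (Algebra.norm Rα W) - evβ (Algebra.norm Rβ W) ∈ Ideal.span {p} := by
  have hvu : v * u = G * algebraMap O R p := by rw [mul_comm]; exact huv
  have hm' : maximalIdeal R = Ideal.span {v, u, algebraMap O R ϖ} := by
    rw [hm, Set.insert_comm]
  have hspanα := span_pow_eq_top hpϖ hm hmtα hresα hzα hA hE hn huv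
  have hspanβ := span_pow_eq_top hpϖ hm' hmtβ hresβ hzβ hA' hE' hn hvu
  set bα := NodeAlg.basisPow (Ft := Fα) (F := F) hfinα hspanα with hbα_def
  set bβ := NodeAlg.basisPow (Ft := Fβ) (F := F) hfinβ hspanβ with hbβ_def
  have hbα : ∀ i : Fin (n + 1), bα i = v ^ (i : ℕ) := NodeAlg.basisPow_apply hfinα hspanα
  have hbβ : ∀ i : Fin (n + 1), bβ i = u ^ (i : ℕ) := NodeAlg.basisPow_apply hfinβ hspanβ
  have hvα : ∀ i, evα (bα.repr (v ^ (n + 1)) i) ∈ Ideal.span {p} :=
    ev_repr_pow_succ_mem evα hfinα hspanα hzα hE huv hevzα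
  have hvβ : ∀ i, evβ (bβ.repr (u ^ (n + 1)) i) ∈ Ideal.span {p} :=
    ev_repr_pow_succ_mem evβ hfinβ hspanβ hzβ hE' hvu hevzβ
  have hevα : ∀ r : Rα, algebraMap Rα R r - (algebraMap O R) (evα r) ∈ Ideal.span {u, v} :=
    algebraMap_sub_const_mem evα hzα hn huv hG hevzα hkerα
  have hevβ : ∀ r : Rβ, algebraMap Rβ R r - (algebraMap O R) (evβ r) ∈ Ideal.span {u, v} := by
    intro r
    have := algebraMap_sub_const_mem evβ hzβ hn hvu hG hevzβ hkerβ r
    rwa [Set.pair_comm] at this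
  have hcap : ∀ c : O, algebraMap O R c ∈ Ideal.span {u, v} → c ∈ Ideal.span {p} :=
    mem_span_of_algebraMap_mem evα bα hbα hzα hA hn hevzα hvα
  exact FibreNorm.map_norm_sub_map_norm_mem bα bβ u v hbα hbβ (evα : Rα →+* O) (evβ : Rβ →+* O)
    (algebraMap O R) p hevα hevβ hvα hvβ hcap W

end Compare

end Fermat.Agent.S40.M1.NodeD
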