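/-
S40 / S44 (row 38), T6′ leaf (R4)(H4) support (helper14, dispatcher ruling #3174 (5)):
**norm (trace, characteristic matrix) of a finite free algebra commutes with specialisation.**

Mathlib only.  `C` a finite free `A`-algebra with basis `b`, `φ : A →+* A'`, `ψ : C →+* C'` over `φ`,
and `b' = ψ ∘ b` a basis of `C'` over `A'` (e.g. `C' = A' ⊗[A] C`, or `C' = C ⧸ I C` over `A ⧸ I`):

* `leftMulMatrix_map : leftMulMatrix b' (ψ W) = (leftMulMatrix b W).map φ`;
* **`norm_map : Algebra.norm A' (ψ W) = φ (Algebra.norm A W)`**, `trace_map`;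
* tensor form **`norm_tmul : Algebra.norm A' ((1 : A') ⊗ₜ[A] W) = algebraMap A A' (Algebra.norm A W)`**
  (`[Module.Free A C] [Module.Finite A C]`), `trace_tmul`;
* evaluation form `norm_tmul_eval` : the same for the `A`-algebra structure on `A'` given by a ring
  homomorphism `ev : A →+* A'` (a point);
* quotient form **`norm_quotient_mk : Algebra.norm (A ⧸ I) (mk (I C) W) = mk I (Algebra.norm A W)`**
  for an ARBITRARY ideal `I` (`mem_map_iff_repr`, `basisQuotientMap`), `trace_quotient_mk'`.

(For the passage from the free model to the function fields use Mathlib's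
`Algebra.norm_localization`.)
-/
import Mathlib

set_option autoImplicit false
set_option linter.unusedSectionVars false
set_option linter.style.longLine false

open Module TensorProduct

namespace Fermat.Agent.S40.M1.SpecNorm

noncomputable section

/-! ### Basis form -/

section Basis

variable {A A' C C' ι : Type*} [CommRing A] [CommRing A'] [CommRing C] [CommRing C']
  [Algebra A C] [Algebra A' C'] [Fintype ι] [DecidableEq ι]
  (φ : A →+* A') (ψ : C →+* C')

theorem map_smul_of_comm (hψ : ∀ a : A, ψ (algebraMap A C a) = algebraMap A' C' (φ a))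
    (a : A) (y : C) : ψ (a • y) = φ a • ψ y := by
  rw [Algebra.smul_def, map_mul, hψ, ← Algebra.smul_def]

/-- The matrix of multiplication by `ψ W` in the basis `ψ ∘ b` is the image of the matrix of
multiplication by `W` in the basis `b`. -/
theorem leftMulMatrix_map (hψ : ∀ a : A, ψ (algebraMap A C a) = algebraMap A' C' (φ a))
    (b : Basis ι A C) (b' : Basis ι A' C') (hb : ∀ i, b' i = ψ (b i)) (W : C) :
    Algebra.leftMulMatrix b' (ψ W) = (Algebra.leftMulMatrix b W).map φ := by
  ext i j
  rw [Matrix.map_apply, Algebra.leftMulMatrix_eq_repr_mul, Algebra.leftMulMatrix_eq_repr_mul]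
  have h1 : W * b j = ∑ l, b.repr (W * b j) l • b l := (b.sum_repr _).symm
  have h2 : ψ W * b' j = ∑ l, φ (b.repr (W * b j) l) • b' l := by
    rw [hb j, ← map_mul, h1, map_sum]
    refine Finset.sum_congr rfl fun l _ => ?_
    rw [map_smul_of_comm φ ψ hψ, hb l, ← h1]
  rw [h2, b'.repr_sum_self]

/-- **The norm commutes with specialisation** (basis form). -/
theorem norm_map (hψ : ∀ a : A, ψ (algebraMap A C a) = algebraMap A' C' (φ a))
    (b : Basis ι A C) (b' : Basis ι A' C') (hb : ∀ i, b' i = ψ (b i)) (W : C) :
    Algebra.norm A' (ψ W) = φ (Algebra.norm A W) := by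
  rw [Algebra.norm_eq_matrix_det b', Algebra.norm_eq_matrix_det b,
    leftMulMatrix_map φ ψ hψ b b' hb, ← RingHom.mapMatrix_apply, ← RingHom.map_det]

/-- **The trace commutes with specialisation** (basis form). -/
theorem trace_map (hψ : ∀ a : A, ψ (algebraMap A C a) = algebraMap A' C' (φ a))
    (b : Basis ι A C) (b' : Basis ι A' C') (hb : ∀ i, b' i = ψ (b i)) (W : C) :
    Algebra.trace A' C' (ψ W) = φ (Algebra.trace A C W) := by
  rw [Algebra.trace_eq_matrix_trace b', Algebra.trace_eq_matrix_trace b,
    leftMulMatrix_map φ ψ hψ b b' hb, Matrix.trace, Matrix.trace, map_sum]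
  rfl

end Basis

/-! ### Tensor form -/

section Tensor

variable {A A' C : Type*} [CommRing A] [CommRing A'] [CommRing C] [Algebra A C] [Algebra A A']
  [Module.Free A C] [Module.Finite A C]

/-- **`N_{A' ⊗ C / A'} (1 ⊗ W) = image of N_{C/A} (W)`.** -/
theorem norm_tmul (W : C) :
    Algebra.norm A' ((1 : A') ⊗ₜ[A] W) = algebraMap A A' (Algebra.norm A W) := by
  classical
  let b := Module.Free.chooseBasis A C
  have h := norm_map (algebraMap A A') (Algebra.TensorProduct.includeRight (R := A) (A := A') (B := C)).toRingHom
    (fun a => by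
      show (1 : A') ⊗ₜ[A] (algebraMap A C a) = algebraMap A' (A' ⊗[A] C) (algebraMap A A' a)
      rw [Algebra.TensorProduct.algebraMap_apply, Algebra.algebraMap_self, RingHom.id_apply,
        Algebra.algebraMap_eq_smul_one, Algebra.algebraMap_eq_smul_one (R := A) (A := A'),
        TensorProduct.tmul_smul, TensorProduct.smul_tmul'])
    b (Algebra.TensorProduct.basis A' b)
    (fun i => by
      rw [Algebra.TensorProduct.basis_apply]
      rfl) W
  exact h

/-- **`Tr_{A' ⊗ C / A'} (1 ⊗ W) = image of Tr_{C/A} (W)`.** -/
theorem trace_tmul (W : C) :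
    Algebra.trace A' (A' ⊗[A] C) ((1 : A') ⊗ₜ[A] W) = algebraMap A A' (Algebra.trace A C W) := by
  classical
  let b := Module.Free.chooseBasis A C
  have h := trace_map (algebraMap A A') (Algebra.TensorProduct.includeRight (R := A) (A := A') (B := C)).toRingHom
    (fun a => by
      show (1 : A') ⊗ₜ[A] (algebraMap A C a) = algebraMap A' (A' ⊗[A] C) (algebraMap A A' a)
      rw [Algebra.TensorProduct.algebraMap_apply, Algebra.algebraMap_self, RingHom.id_apply,
        Algebra.algebraMap_eq_smul_one, Algebra.algebraMap_eq_smul_one (R := A) (A := A'),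
        TensorProduct.tmul_smul, TensorProduct.smul_tmul'])
    b (Algebra.TensorProduct.basis A' b)
    (fun i => by
      rw [Algebra.TensorProduct.basis_apply]
      rfl) W
  exact h

end Tensor

section Eval

variable {A A' C : Type*} [CommRing A] [CommRing A'] [CommRing C] [Algebra A C]
  [Module.Free A C] [Module.Finite A C]

/-- Evaluation form: the `A`-algebra structure on `A'` is given by a point `ev : A →+* A'`. -/
theorem norm_tmul_eval (ev : A →+* A') (W : C) :
    letI := ev.toAlgebra
    Algebra.norm A' ((1 : A') ⊗ₜ[A] W) = ev (Algebra.norm A W) := by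
  let _ := ev.toAlgebra
  exact norm_tmul W

end Eval


/-! ### Quotient form -/

section Quotient

variable {A C ι : Type*} [CommRing A] [CommRing C] [Algebra A C] [Fintype ι] [DecidableEq ι]
  (I : Ideal A)

/-- `x ∈ I C` iff all coordinates of `x` in a basis lie in `I`. -/
theorem mem_map_iff_repr (b : Basis ι A C) (x : C) :
    x ∈ I.map (algebraMap A C) ↔ ∀ i, b.repr x i ∈ I := by
  constructor
  · intro hx
    have hx' : x ∈ I • (⊤ : Submodule A C) := by
      rw [Ideal.smul_top_eq_map]
      exact hx
    rw [← b.span_eq, Submodule.mem_ideal_smul_span_iff_exists_sum] at hx'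
    obtain ⟨a, ha, rfl⟩ := hx'
    intro i
    have : b.repr (a.sum fun i c => c • b i) = a := by
      have h := b.repr_linearCombination a
      rwa [Finsupp.linearCombination_apply] at h
    rw [this]
    exact ha i
  · intro h
    rw [← b.sum_repr x]
    refine Ideal.sum_mem _ fun i _ => ?_
    rw [Algebra.smul_def]
    exact Ideal.mul_mem_right _ _ (Ideal.mem_map_of_mem _ (h i))

theorem mk_smul_mk (a : A) (x : C) :
    (Ideal.Quotient.mk I a) • (Ideal.Quotient.mk (I.map (algebraMap A C)) x) =
      Ideal.Quotient.mk (I.map (algebraMap A C)) (a • x) := by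
  rw [Algebra.smul_def, Algebra.smul_def, map_mul]
  rfl

/-- The basis of `C ⧸ I C` over `A ⧸ I` induced by a basis of `C` over `A` (any ideal `I`). -/
def basisQuotientMap (b : Basis ι A C) :
    Basis ι (A ⧸ I) (C ⧸ I.map (algebraMap A C)) :=
  Basis.mk (v := fun i => Ideal.Quotient.mk (I.map (algebraMap A C)) (b i))
    (by
      rw [Fintype.linearIndependent_iff]
      intro g hg i
      choose a ha using fun i => Ideal.Quotient.mk_surjective (g i)
      have h1 : (∑ i, g i • Ideal.Quotient.mk (I.map (algebraMap A C)) (b i)) =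
          Ideal.Quotient.mk (I.map (algebraMap A C)) (∑ i, a i • b i) := by
        rw [map_sum]
        refine Finset.sum_congr rfl fun i _ => ?_
        rw [← ha i, mk_smul_mk]
      rw [h1, Ideal.Quotient.eq_zero_iff_mem, mem_map_iff_repr I b] at hg
      have h2 := hg i
      rw [b.repr_sum_self] at h2
      rw [← ha i, Ideal.Quotient.eq_zero_iff_mem]
      exact h2)
    (by
      rintro x -
      obtain ⟨y, rfl⟩ := Ideal.Quotient.mk_surjective x
      rw [← b.sum_repr y, map_sum]
      refine Submodule.sum_mem _ fun i _ => ?_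
      rw [← mk_smul_mk]
      exact Submodule.smul_mem _ _ (Submodule.subset_span ⟨i, rfl⟩))

theorem basisQuotientMap_apply (b : Basis ι A C) (i : ι) :
    basisQuotientMap I b i = Ideal.Quotient.mk (I.map (algebraMap A C)) (b i) := by
  rw [basisQuotientMap, Basis.mk_apply]

/-- **The norm commutes with reduction modulo an arbitrary ideal `I` of the base.** -/
theorem norm_quotient_mk (b : Basis ι A C) (W : C) :
    Algebra.norm (A ⧸ I) (Ideal.Quotient.mk (I.map (algebraMap A C)) W) =
      Ideal.Quotient.mk I (Algebra.norm A W) :=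
  norm_map (Ideal.Quotient.mk I) (Ideal.Quotient.mk (I.map (algebraMap A C)))
    (fun _ => rfl) b (basisQuotientMap I b) (basisQuotientMap_apply I b) W

/-- **The trace commutes with reduction modulo an arbitrary ideal `I` of the base.** -/
theorem trace_quotient_mk' (b : Basis ι A C) (W : C) :
    Algebra.trace (A ⧸ I) (C ⧸ I.map (algebraMap A C))
        (Ideal.Quotient.mk (I.map (algebraMap A C)) W) =
      Ideal.Quotient.mk I (Algebra.trace A C W) :=
  trace_map (Ideal.Quotient.mk I) (Ideal.Quotient.mk (I.map (algebraMap A C)))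
    (fun _ => rfl) b (basisQuotientMap I b) (basisQuotientMap_apply I b) W

end Quotient

end

end Fermat.Agent.S40.M1.SpecNorm
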