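/-
S40 / S44 (row 38), T6′ static route, block (R4), sub-block **R4-D** (helper1): **clause (d) for
charts.**

`S40/M1/NodeD` proves `evα (N_α W) ≡ evβ (N_β W) (mod p)` for abstract local rings `Rα, Rβ → R`.
Here the local rings are produced from CHARTS, in the subring-of-the-function-field model
`G/PointsLoc.locAlg` :  `T ⊂ FM` the chart of level `M`, `S ⊂ FN` the chart of level `M ℓ`,
`a : FM → FN` a degeneracy embedding (`alphaF` or `betaF`) with `a(T) ⊆ S` (`aT = alphaR / betaR`),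
`𝔫 ⊂ S` the node, `𝔪 = 𝔫 ∩ T` its image point.  All hypotheses are chart-level facts in the
"`c ∉ 𝔫`" vocabulary.

* `locMap : locAlg T 𝔪 →ₐ[O] locAlg S 𝔫`, the algebra structures `algLoc`, `algLocField` and the
  scalar towers (all restrictions of `a`);
* `finite_loc` : `locAlg S 𝔫` is module-finite over `locAlg T 𝔪` when `S` is finite over `T` and every
  `s ∉ 𝔫` divides the image of some `t ∉ 𝔪`  (i.e. `𝔫` is the only prime of `S` over `𝔪`);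
* `maximalIdeal_eq_span₃`, `maximalIdeal_eq_span₂`, `exists_sub_mem_maximalIdeal`, `hz_loc` : the
  hypotheses `hm`, `hmt`, `hres`, `hz` of `NodeD` from their chart forms;
* `norm_loc` : `N_{FN/FM}(W) = N_{R/Rα}(W)` for `W ∈ R = locAlg S 𝔫` (so the field norm of an element of
  `R` lies in `Rα`);
* ★ `Side` / `side_of_chart` : the one-sided package (fibre basis `1, v, …, v ^ n` of `R` over `Rα` and
  its three properties at the test point);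
* ★ `map_normAlong_sub_mem` : the two-sided statement
  `evα (N_α W) − evβ (N_β W) ∈ (p)` for `W ∈ locAlg S 𝔫`, with the FIELD norms `normAlong a`, `normAlong b`.
-/
import Mathlib
import Fermat.Agent.S40.M1.NodeD
import Fermat.Agent.S40.M1.SpecNorm
import Fermat.Agent.S40.M1.NodeGen
import Fermat.Agent.G.PointsLoc
import Fermat.Agent.P4.FrobStep

set_option autoImplicit false
set_option linter.unusedSectionVars false
set_option linter.style.haveILetI false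
set_option linter.style.longLine false

open AlgebraicCurve IsLocalRing

noncomputable section

namespace Fermat.Agent.S40.M1.NodeDChart

open Fermat.Agent.G.Points Fermat.Agent.G.PointsLoc Fermat.Agent.S40.M1 Fermat.Agent.P4.FrobStep

variable {O K : Type*} [CommRing O] [IsDomain O] [IsDiscreteValuationRing O]
  [Field K] [Algebra O K] [IsFractionRing O K]
  {FM FN : Type*} [Field FM] [Field FN]
  [Algebra K FM] [Algebra O FM] [IsScalarTower O K FM]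
  [Algebra K FN] [Algebra O FN] [IsScalarTower O K FN]

/-! ### The map of local rings -/

section LocMap

variable (T : Subalgebra O FM) (S : Subalgebra O FN) (a : FM →ₐ[K] FN) (aT : ↥T →ₐ[O] ↥S)
  (haT : ∀ x : T, ((aT x : S) : FN) = a (x : FM))
  (𝔫 : Ideal ↥S) [h𝔫 : 𝔫.IsPrime] (𝔪 : Ideal ↥T) [h𝔪 : 𝔪.IsPrime]
  (hcomap : ∀ x : T, x ∈ 𝔪 ↔ aT x ∈ 𝔫)

omit [IsDomain O] [IsDiscreteValuationRing O] [IsFractionRing O K] in
theorem map_algebraMap (c : O) : a (algebraMap O FM c) = algebraMap O FN c := by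
  rw [IsScalarTower.algebraMap_apply O K FM, IsScalarTower.algebraMap_apply O K FN, AlgHom.commutes]

include haT hcomap in
theorem map_mem_locAlg {x : FM} (hx : x ∈ locAlg T 𝔪) : a x ∈ locAlg S 𝔫 := by
  obtain ⟨r, b, hb, hxb⟩ := hx
  refine ⟨aT r, aT b, fun h => hb ((hcomap b).2 h), ?_⟩
  rw [haT, haT, ← hxb, map_mul]

/-- The map of local rings induced by `a`. -/
def locMap : ↥(locAlg T 𝔪) →ₐ[O] ↥(locAlg S 𝔫) where
  toFun x := ⟨a (x : FM), map_mem_locAlg T S a aT haT 𝔫 𝔪 hcomap x.2⟩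
  map_one' := Subtype.ext (by simp)
  map_mul' x y := Subtype.ext (by simp)
  map_zero' := Subtype.ext (by simp)
  map_add' x y := Subtype.ext (by simp)
  commutes' c := Subtype.ext (by
    show a ((algebraMap O ↥(locAlg T 𝔪) c : ↥(locAlg T 𝔪)) : FM) = _
    rw [algebraMap_locAlg_coe', map_algebraMap, algebraMap_locAlg_coe'])

theorem locMap_coe (x : ↥(locAlg T 𝔪)) :
    ((locMap T S a aT haT 𝔫 𝔪 hcomap x : ↥(locAlg S 𝔫)) : FN) = a (x : FM) := rfl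

/-- `locAlg S 𝔫` as an algebra over `locAlg T 𝔪`, along `a`. -/
@[reducible] def algLoc : Algebra ↥(locAlg T 𝔪) ↥(locAlg S 𝔫) :=
  (locMap T S a aT haT 𝔫 𝔪 hcomap).toRingHom.toAlgebra

/-- `FN` as an algebra over `locAlg T 𝔪`, along `a`. -/
@[reducible] def algLocField : Algebra ↥(locAlg T 𝔪) FN :=
  (a.toRingHom.comp (algebraMap ↥(locAlg T 𝔪) FM)).toAlgebra

end LocMap

/-! ### The one-sided package, abstractly -/

section Abs

variable {O Rt R : Type*} [CommRing O] [CommRing Rt] [CommRing R]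
  [Algebra O Rt] [Algebra O R] [Algebra Rt R] [IsScalarTower O Rt R]
  [IsLocalRing Rt] [IsLocalRing R] [Module.Finite Rt R]
  {Ft F : Type*} [Field Ft] [Field F] [Algebra Rt Ft] [IsFractionRing Rt Ft]
  [Algebra R F] [IsFractionRing R F] [Algebra Ft F] [Algebra Rt F] [IsScalarTower Rt Ft F]
  [IsScalarTower Rt R F]
  {p ϖ : O} {z : Rt} {u v A E G : R} {n : ℕ}

/-- The one-sided package: a fibre basis `1, v, …, v ^ n` of `R` over `Rt` whose behaviour at the test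
point `ev` is controlled, the two congruences modulo `(u, v)`, and the compatibility of the norm with
the norm of the fraction fields. -/
def Side (ev : Rt →+* O) (p : O) (u v : R) (n : ℕ) : Prop :=
  ∃ b : Module.Basis (Fin (n + 1)) Rt R, (∀ i : Fin (n + 1), b i = v ^ (i : ℕ)) ∧
    (∀ i, ev (b.repr (v ^ (n + 1)) i) ∈ Ideal.span {p}) ∧
    (∀ r : Rt, algebraMap Rt R r - algebraMap O R (ev r) ∈ Ideal.span {u, v}) ∧
    (∀ c : O, algebraMap O R c ∈ Ideal.span {u, v} → c ∈ Ideal.span {p})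

/-- **The one-sided package from the node hypotheses** (`S40/M1/NodeD`), together with the
compatibility of the norm with the norm of the fraction fields. -/
theorem side_abs (hpϖ : p ∈ Ideal.span {ϖ})
    (hm : maximalIdeal R = Ideal.span {u, v, algebraMap O R ϖ})
    (hmt : maximalIdeal Rt = Ideal.span {z, algebraMap O Rt ϖ})
    (hres : ∀ r : R, ∃ c : Rt, r - algebraMap Rt R c ∈ maximalIdeal R)
    (hz : algebraMap Rt R z = u * A + v ^ n * E) (hA : IsUnit A) (hE : IsUnit E) (hn : 1 ≤ n)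
    (huv : u * v = G * algebraMap O R p) (hG : IsUnit G)
    (hfin : Module.finrank Ft F = n + 1)
    (ev : Rt →ₐ[O] O) (hevz : ev z ∈ Ideal.span {p})
    (hker : ∀ r : Rt, ev r = 0 → ∃ q : Rt, r = q * (z - algebraMap O Rt (ev z))) :
    Side (ev : Rt →+* O) p u v n ∧
      ∀ W : R, algebraMap Rt Ft (Algebra.norm Rt W) = Algebra.norm Ft (algebraMap R F W) := by
  classical
  have hspan := NodeD.span_pow_eq_top hpϖ hm hmt hres hz hA hE hn huv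
  set b := NodeAlg.basisPow (Ft := Ft) (F := F) hfin hspan with hb_def
  have hb : ∀ i : Fin (n + 1), b i = v ^ (i : ℕ) := NodeAlg.basisPow_apply hfin hspan
  have hv : ∀ i, ev (b.repr (v ^ (n + 1)) i) ∈ Ideal.span {p} :=
    NodeD.ev_repr_pow_succ_mem ev hfin hspan hz hE huv hevz
  refine ⟨⟨b, hb, hv, NodeD.algebraMap_sub_const_mem ev hz hn huv hG hevz hker,
    NodeD.mem_span_of_algebraMap_mem ev b hb hz hA hn hevz hv⟩, ?_⟩
  -- the norm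
  have hspanF := NodeAlg.span_field_eq_top (Rt := Rt) (Ft := Ft) (F := F) hspan
  have hli : LinearIndependent Ft (fun i : Fin (n + 1) => algebraMap R F (v ^ (i : ℕ))) :=
    linearIndependent_of_top_le_span_of_card_eq_finrank hspanF.ge
      (by rw [Fintype.card_fin, hfin])
  set b' : Module.Basis (Fin (n + 1)) Ft F := Module.Basis.mk hli hspanF.ge with hb'_def
  have hb' : ∀ i, b' i = algebraMap R F (b i) := by
    intro i
    rw [hb'_def, Module.Basis.mk_apply, hb i]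
  intro W
  have hψ : ∀ x : Rt, algebraMap R F (algebraMap Rt R x) = algebraMap Ft F (algebraMap Rt Ft x) := by
    intro x
    rw [← IsScalarTower.algebraMap_apply Rt R F, ← IsScalarTower.algebraMap_apply Rt Ft F]
  exact (SpecNorm.norm_map (algebraMap Rt Ft) (algebraMap R F) hψ b b' hb' W).symm

end Abs

/-- **Two sides ⇒ (d)**: `evα (N_α W) ≡ evβ (N_β W)` modulo `p`. -/
theorem compare_of_sides {O Rα Rβ R : Type*} [CommRing O] [CommRing Rα] [CommRing Rβ] [CommRing R]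
    [Algebra O R] [Algebra Rα R] [Algebra Rβ R] {evα : Rα →+* O} {evβ : Rβ →+* O} {p : O} {u v : R}
    {n : ℕ} (hα : Side evα p u v n) (hβ : Side evβ p v u n) (W : R) :
    evα (Algebra.norm Rα W) - evβ (Algebra.norm Rβ W) ∈ Ideal.span {p} := by
  obtain ⟨bα, hbα, hvα, hevα, hcap⟩ := hα
  obtain ⟨bβ, hbβ, hvβ, hevβ, -⟩ := hβ
  refine FibreNorm.map_norm_sub_map_norm_mem bα bβ u v hbα hbβ evα evβ (algebraMap O R) p hevα
    ?_ hvα hvβ hcap W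
  intro r
  have := hevβ r
  rwa [Set.pair_comm] at this

/-! ### Local rings of charts: general facts -/

section LocFacts

variable {F : Type*} [Field F] [Algebra K F] [Algebra O F] [IsScalarTower O K F]
  (R : Subalgebra O F) (𝔫 : Ideal ↥R) [h𝔫 : 𝔫.IsPrime]

instance isScalarTower_locAlg_field : IsScalarTower ↥R ↥(locAlg R 𝔫) F :=
  IsScalarTower.of_algebraMap_eq fun _ => rfl

/-- The local ring of a chart has the same fraction field. -/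
theorem isFractionRing_locAlg [IsFractionRing ↥R F] : IsFractionRing ↥(locAlg R 𝔫) F :=
  IsFractionRing.isFractionRing_of_isDomain_of_isLocalization 𝔫.primeCompl ↥(locAlg R 𝔫) F

/-- Elements outside `𝔫` become units of the local ring. -/
theorem isUnit_algebraMap_of_notMem {s : R} (hs : s ∉ 𝔫) :
    IsUnit (algebraMap ↥R ↥(locAlg R 𝔫) s) :=
  IsLocalization.map_units ↥(locAlg R 𝔫) (⟨s, hs⟩ : 𝔫.primeCompl)

/-- A quotient `r / a` of two elements outside `𝔫` is a unit of the local ring. -/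
theorem isUnit_of_mul_eq {x : F} {b r : R} (hb : b ∉ 𝔫) (hr : r ∉ 𝔫)
    (h : x * (b : F) = (r : F)) :
    ∃ hx : x ∈ locAlg R 𝔫, IsUnit (⟨x, hx⟩ : ↥(locAlg R 𝔫)) := by
  have hx : x ∈ locAlg R 𝔫 := ⟨r, b, hb, h⟩
  refine ⟨hx, ?_⟩
  have h' : (⟨x, hx⟩ : ↥(locAlg R 𝔫)) * algebraMap ↥R ↥(locAlg R 𝔫) b =
      algebraMap ↥R ↥(locAlg R 𝔫) r := Subtype.ext h
  have h1 : IsUnit ((⟨x, hx⟩ : ↥(locAlg R 𝔫)) * algebraMap ↥R ↥(locAlg R 𝔫) b) := by
    rw [h']; exact isUnit_algebraMap_of_notMem R 𝔫 hr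
  exact isUnit_of_mul_isUnit_left h1

/-- `y · b = n₁` with `b ∉ 𝔫`, `n₁ ∈ 𝔫` forces `y ∈ 𝔪_{R_𝔫}`. -/
theorem mem_maximalIdeal_of_mul_eq {y : ↥(locAlg R 𝔫)} {b n₁ : R} (hb : b ∉ 𝔫) (hn₁ : n₁ ∈ 𝔫)
    (h : (y : F) * (b : F) = (n₁ : F)) : y ∈ maximalIdeal ↥(locAlg R 𝔫) := by
  rw [mem_maximalIdeal, mem_nonunits_iff]
  intro hy
  have h' : y * algebraMap ↥R ↥(locAlg R 𝔫) b = algebraMap ↥R ↥(locAlg R 𝔫) n₁ := Subtype.ext h
  have h1 : IsUnit (algebraMap ↥R ↥(locAlg R 𝔫) n₁) := by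
    rw [← h']
    exact hy.mul (isUnit_algebraMap_of_notMem R 𝔫 hb)
  have h2 := (algebraMap_mem_maximalIdeal_locAlg_iff R 𝔫 n₁).2 hn₁
  rw [mem_maximalIdeal, mem_nonunits_iff] at h2
  exact h2 h1

/-- **`hres`**: every element of the local ring at a point with residue field `O / 𝔪_O` is congruent to
a constant. -/
theorem exists_sub_algebraMap_mem_maximalIdeal
    (hO𝔫 : ∀ o : O, o ∈ maximalIdeal O → algebraMap O ↥R o ∈ 𝔫)
    (hres : ∀ r : R, ∃ o : O, r - algebraMap O ↥R o ∈ 𝔫) (y : ↥(locAlg R 𝔫)) :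
    ∃ c : O, y - algebraMap O ↥(locAlg R 𝔫) c ∈ maximalIdeal ↥(locAlg R 𝔫) := by
  obtain ⟨r₁, b, hb, hyb⟩ := y.2
  obtain ⟨o₁, ho₁⟩ := hres r₁
  obtain ⟨o₂, ho₂⟩ := hres b
  have ho₂u : IsUnit o₂ := by
    by_contra hnu
    have h1 : algebraMap O ↥R o₂ ∈ 𝔫 := hO𝔫 o₂ ((mem_maximalIdeal o₂).2 (mem_nonunits_iff.2 hnu))
    apply hb
    have := 𝔫.add_mem ho₂ h1
    rwa [sub_add_cancel] at this
  obtain ⟨o₂', ho₂'⟩ := ho₂u.exists_left_inv
  refine ⟨o₁ * o₂', ?_⟩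
  refine mem_maximalIdeal_of_mul_eq R 𝔫 (b := b) (n₁ := r₁ - algebraMap O ↥R (o₁ * o₂') * b) hb ?_ ?_
  · -- `r₁ - c b ∈ 𝔫`
    have h1 : r₁ - algebraMap O ↥R (o₁ * o₂') * b =
        (r₁ - algebraMap O ↥R o₁) - algebraMap O ↥R (o₁ * o₂') * (b - algebraMap O ↥R o₂) := by
      have : algebraMap O ↥R (o₁ * o₂') * algebraMap O ↥R o₂ = algebraMap O ↥R o₁ := by
        rw [← map_mul, mul_assoc, ho₂', mul_one]
      linear_combination (-1 : ↥R) * this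
    rw [h1]
    exact 𝔫.sub_mem ho₁ (𝔫.mul_mem_left _ ho₂)
  · push_cast
    rw [sub_mul, hyb]

end LocFacts

/-! ### Generators of the maximal ideals -/

section Gen

variable {F : Type*} [Field F] [Algebra K F] [Algebra O F] [IsScalarTower O K F]
  (R : Subalgebra O F) (𝔫 : Ideal ↥R) [h𝔫 : 𝔫.IsPrime]

/-- **`hm`**: `𝔪_{R_𝔫} = (u, v, ϖ)` from the chart form of (GEN). -/
theorem maximalIdeal_eq_span₃ {u v : R} {ϖ : O} (hu : u ∈ 𝔫) (hv : v ∈ 𝔫)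
    (hϖ : algebraMap O ↥R ϖ ∈ 𝔫)
    (hgen : ∃ c, c ∉ 𝔫 ∧ ∀ r ∈ 𝔫, ∃ a b d, c * r = a * u + b * v + d * algebraMap O ↥R ϖ) :
    maximalIdeal ↥(locAlg R 𝔫) = Ideal.span {algebraMap ↥R ↥(locAlg R 𝔫) u,
      algebraMap ↥R ↥(locAlg R 𝔫) v, algebraMap O ↥(locAlg R 𝔫) ϖ} := by
  rw [maximalIdeal_locAlg, NodeGen.map_eq_span (𝔫 := 𝔫) (ϖ := algebraMap O ↥R ϖ) (u := u) (v := v)
    (S := ↥(locAlg R 𝔫)) hu hv hϖ hgen, ← IsScalarTower.algebraMap_apply O ↥R ↥(locAlg R 𝔫)]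

/-- **`hmt`**: `𝔪_{R_𝔪} = (z, ϖ)` from the chart form of smoothness. -/
theorem maximalIdeal_eq_span₂ {z : R} {ϖ : O} (hz : z ∈ 𝔫) (hϖ : algebraMap O ↥R ϖ ∈ 𝔫)
    (hgen : ∃ c, c ∉ 𝔫 ∧ ∀ r ∈ 𝔫, ∃ a d, c * r = a * z + d * algebraMap O ↥R ϖ) :
    maximalIdeal ↥(locAlg R 𝔫) = Ideal.span {algebraMap ↥R ↥(locAlg R 𝔫) z,
      algebraMap O ↥(locAlg R 𝔫) ϖ} := by
  obtain ⟨c, hc, hgen⟩ := hgen
  rw [maximalIdeal_locAlg]
  apply le_antisymm
  · rw [Ideal.map_le_iff_le_comap]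
    intro r hr
    rw [Ideal.mem_comap]
    obtain ⟨a, d, h⟩ := hgen r hr
    have hcu := isUnit_algebraMap_of_notMem R 𝔫 hc
    have hmem : algebraMap ↥R ↥(locAlg R 𝔫) c * algebraMap ↥R ↥(locAlg R 𝔫) r ∈
        Ideal.span {algebraMap ↥R ↥(locAlg R 𝔫) z, algebraMap O ↥(locAlg R 𝔫) ϖ} := by
      rw [← map_mul, h, map_add, map_mul, map_mul,
        ← IsScalarTower.algebraMap_apply O ↥R ↥(locAlg R 𝔫)]
      exact Ideal.add_mem _ (Ideal.mul_mem_left _ _ (Ideal.subset_span (by simp)))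
        (Ideal.mul_mem_left _ _ (Ideal.subset_span (by simp)))
    obtain ⟨w, hw⟩ := hcu
    have : algebraMap ↥R ↥(locAlg R 𝔫) r =
        ↑w⁻¹ * (algebraMap ↥R ↥(locAlg R 𝔫) c * algebraMap ↥R ↥(locAlg R 𝔫) r) := by
      rw [← hw, ← mul_assoc, Units.inv_mul, one_mul]
    rw [this]
    exact Ideal.mul_mem_left _ _ hmem
  · rw [Ideal.span_le]
    intro x hx
    simp only [Set.mem_insert_iff, Set.mem_singleton_iff] at hx
    rcases hx with rfl | rfl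
    · exact Ideal.mem_map_of_mem _ hz
    · rw [IsScalarTower.algebraMap_apply O ↥R ↥(locAlg R 𝔫)]
      exact Ideal.mem_map_of_mem _ hϖ

end Gen

/-! ### The pair of local rings of a degeneracy map -/

section Chart

variable (T : Subalgebra O FM) (S : Subalgebra O FN) (a : FM →ₐ[K] FN) (aT : ↥T →ₐ[O] ↥S)
  (haT : ∀ x : T, ((aT x : S) : FN) = a (x : FM))
  (𝔫 : Ideal ↥S) [h𝔫 : 𝔫.IsPrime] (𝔪 : Ideal ↥T) [h𝔪 : 𝔪.IsPrime]
  (hcomap : ∀ x : T, x ∈ 𝔪 ↔ aT x ∈ 𝔫)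

theorem isScalarTower_loc :
    letI := algLoc T S a aT haT 𝔫 𝔪 hcomap
    IsScalarTower O ↥(locAlg T 𝔪) ↥(locAlg S 𝔫) := by
  letI := algLoc T S a aT haT 𝔫 𝔪 hcomap
  exact IsScalarTower.of_algebraMap_eq fun c => ((locMap T S a aT haT 𝔫 𝔪 hcomap).commutes c).symm

theorem algebraMap_loc_coe (x : ↥(locAlg T 𝔪)) :
    letI := algLoc T S a aT haT 𝔫 𝔪 hcomap
    ((algebraMap ↥(locAlg T 𝔪) ↥(locAlg S 𝔫) x : ↥(locAlg S 𝔫)) : FN) = a (x : FM) := rfl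

/-- The image of a chart element, in the local ring upstairs. -/
theorem algebraMap_loc_algebraMap (t : T) :
    letI := algLoc T S a aT haT 𝔫 𝔪 hcomap
    algebraMap ↥(locAlg T 𝔪) ↥(locAlg S 𝔫) (algebraMap ↥T ↥(locAlg T 𝔪) t) =
      algebraMap ↥S ↥(locAlg S 𝔫) (aT t) := by
  letI := algLoc T S a aT haT 𝔫 𝔪 hcomap
  apply Subtype.ext
  rw [algebraMap_loc_coe, algebraMap_locAlg_coe, algebraMap_locAlg_coe, haT]

theorem isScalarTower_loc_field :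
    letI := algLoc T S a aT haT 𝔫 𝔪 hcomap
    letI := algLocField T a 𝔪
    IsScalarTower ↥(locAlg T 𝔪) ↥(locAlg S 𝔫) FN := by
  letI := algLoc T S a aT haT 𝔫 𝔪 hcomap
  letI := algLocField T a 𝔪
  exact IsScalarTower.of_algebraMap_eq fun _ => rfl

theorem isScalarTower_loc_field' :
    letI := algebraAlong a
    letI := algLocField T a 𝔪
    IsScalarTower ↥(locAlg T 𝔪) FM FN := by
  letI := algebraAlong a
  letI := algLocField T a 𝔪
  exact IsScalarTower.of_algebraMap_eq fun _ => rfl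

/-- **(FIN) for the local rings**: if `S` is module-finite over `T` and every `s ∉ 𝔫` divides the image
of some `t ∉ 𝔪`, then `S_𝔫` is module-finite over `T_𝔪`. -/
theorem finite_loc (hfinite : aT.toRingHom.Finite)
    (hunique : ∀ s : S, s ∉ 𝔫 → ∃ t : T, t ∉ 𝔪 ∧ ∃ x : S, s * x = aT t) :
    letI := algLoc T S a aT haT 𝔫 𝔪 hcomap
    Module.Finite ↥(locAlg T 𝔪) ↥(locAlg S 𝔫) := by
  classical
  letI := algLoc T S a aT haT 𝔫 𝔪 hcomap
  letI := aT.toRingHom.toAlgebra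
  haveI : Module.Finite ↥T ↥S := hfinite
  obtain ⟨m, g, hg⟩ := Module.Finite.exists_fin (R := ↥T) (M := ↥S)
  refine ⟨⟨Finset.univ.image fun i => algebraMap ↥S ↥(locAlg S 𝔫) (g i), ?_⟩⟩
  rw [Finset.coe_image, Finset.coe_univ, Set.image_univ, eq_top_iff]
  intro x _
  obtain ⟨r, b, hb, hxb⟩ := x.2
  obtain ⟨t, ht, y, hy⟩ := hunique b hb
  have hry : r * y ∈ Submodule.span ↥T (Set.range g) := by rw [hg]; trivial
  obtain ⟨c, hc⟩ := (Submodule.mem_span_range_iff_exists_fun ↥T).1 hry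
  -- `x · a t = Σ a (c i) · g i`
  have ht0 : (t : FM) ≠ 0 := by
    intro h0
    apply ht
    have : t = 0 := Subtype.ext h0
    rw [this]; exact 𝔪.zero_mem
  have hat0 : a (t : FM) ≠ 0 := by
    rw [Ne, map_eq_zero]; exact ht0
  have h1 : (x : FN) * a (t : FM) = ∑ i, a (c i : FM) * (g i : FN) := by
    have h2 : ((r * y : S) : FN) = ∑ i, a (c i : FM) * (g i : FN) := by
      rw [← hc]
      push_cast
      refine Finset.sum_congr rfl fun i _ => ?_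
      show ((aT (c i) * g i : S) : FN) = _
      push_cast
      rw [haT]
    rw [← h2, ← haT t, ← hy]
    push_cast
    rw [← hxb]; ring
  -- the coefficients `c i / t`
  have hinv : ((t : FM))⁻¹ ∈ locAlg T 𝔪 := inv_mem_locAlg T 𝔪 ht
  set d : Fin m → ↥(locAlg T 𝔪) := fun i =>
    ⟨(c i : FM) * ((t : FM))⁻¹, (locAlg T 𝔪).mul_mem (le_locAlg T 𝔪 (c i).2) hinv⟩ with hd
  have hx : x = ∑ i, d i • algebraMap ↥S ↥(locAlg S 𝔫) (g i) := by
    apply Subtype.ext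
    have h3 : (x : FN) = ∑ i, a ((c i : FM) * ((t : FM))⁻¹) * (g i : FN) := by
      have : (x : FN) = (x : FN) * a (t : FM) * (a (t : FM))⁻¹ := by
        rw [mul_assoc, mul_inv_cancel₀ hat0, mul_one]
      rw [this, h1, Finset.sum_mul]
      refine Finset.sum_congr rfl fun i _ => ?_
      rw [map_mul, map_inv₀]; ring
    rw [h3]
    rw [AddSubmonoidClass.coe_finsetSum]
    refine Finset.sum_congr rfl fun i _ => ?_
    rw [Algebra.smul_def]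
    rfl
  rw [hx]
  exact Submodule.sum_mem _ fun i _ =>
    Submodule.smul_mem _ _ (Submodule.subset_span ⟨i, rfl⟩)

/-- **`hz`** in the local rings, from the chart form of (ALPHA). -/
theorem hz_loc {u v : S} {z : T} {n : ℕ}
    (halpha : ∃ s A E : S, s ∉ 𝔫 ∧ A ∉ 𝔫 ∧ E ∉ 𝔫 ∧ s * aT z = u * A + v ^ n * E) :
    letI := algLoc T S a aT haT 𝔫 𝔪 hcomap
    ∃ A' E' : ↥(locAlg S 𝔫), IsUnit A' ∧ IsUnit E' ∧
      algebraMap ↥(locAlg T 𝔪) ↥(locAlg S 𝔫) (algebraMap ↥T ↥(locAlg T 𝔪) z) =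
        algebraMap ↥S ↥(locAlg S 𝔫) u * A' + algebraMap ↥S ↥(locAlg S 𝔫) v ^ n * E' := by
  letI := algLoc T S a aT haT 𝔫 𝔪 hcomap
  obtain ⟨s, A, E, hs, hA, hE, h⟩ := halpha
  obtain ⟨ws, hws⟩ := isUnit_algebraMap_of_notMem S 𝔫 hs
  refine ⟨algebraMap ↥S ↥(locAlg S 𝔫) A * ↑ws⁻¹, algebraMap ↥S ↥(locAlg S 𝔫) E * ↑ws⁻¹,
    (isUnit_algebraMap_of_notMem S 𝔫 hA).mul (Units.isUnit _),
    (isUnit_algebraMap_of_notMem S 𝔫 hE).mul (Units.isUnit _), ?_⟩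
  rw [algebraMap_loc_algebraMap]
  have h' := congrArg (algebraMap ↥S ↥(locAlg S 𝔫)) h
  rw [map_mul, map_add, map_mul, map_mul, map_pow, ← hws] at h'
  have : algebraMap ↥S ↥(locAlg S 𝔫) (aT z) =
      ↑ws⁻¹ * ((ws : ↥(locAlg S 𝔫)) * algebraMap ↥S ↥(locAlg S 𝔫) (aT z)) := by
    rw [← mul_assoc, Units.inv_mul, one_mul]
  rw [this, h']
  ring

/-- **The one-sided package for charts.**  All hypotheses are chart-level facts. -/
theorem side_chart [IsFractionRing ↥T FM] [IsFractionRing ↥S FN]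
    (hfinite : aT.toRingHom.Finite)
    (hunique : ∀ s : S, s ∉ 𝔫 → ∃ t : T, t ∉ 𝔪 ∧ ∃ x : S, s * x = aT t)
    {n : ℕ} (hdeg : letI := algebraAlong a; Module.finrank FM FN = n + 1) (hn : 1 ≤ n)
    {p ϖ : O} (hpϖ : p ∈ Ideal.span {ϖ}) (hϖO : ϖ ∈ maximalIdeal O)
    (hO𝔫 : ∀ o : O, o ∈ maximalIdeal O → algebraMap O ↥S o ∈ 𝔫)
    {u v G : S} {z : T} (hu : u ∈ 𝔫) (hv : v ∈ 𝔫) (hz𝔪 : z ∈ 𝔪)
    (hgen : ∃ c, c ∉ 𝔫 ∧ ∀ r ∈ 𝔫, ∃ a b d, c * r = a * u + b * v + d * algebraMap O ↥S ϖ)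
    (hsm : ∃ c, c ∉ 𝔪 ∧ ∀ r ∈ 𝔪, ∃ a d, c * r = a * z + d * algebraMap O ↥T ϖ)
    (hres : ∀ r : S, ∃ o : O, r - algebraMap O ↥S o ∈ 𝔫)
    (halpha : ∃ s A E : S, s ∉ 𝔫 ∧ A ∉ 𝔫 ∧ E ∉ 𝔫 ∧ s * aT z = u * A + v ^ n * E)
    (huv : u * v = G * algebraMap O ↥S p) (hG : G ∉ 𝔫)
    (ev : ↥(locAlg T 𝔪) →ₐ[O] O)
    (hevz : ev (algebraMap ↥T ↥(locAlg T 𝔪) z) ∈ Ideal.span {p})
    (hker : ∀ x : ↥(locAlg T 𝔪), ev x = 0 → ∃ q : ↥(locAlg T 𝔪),
      x = q * (algebraMap ↥T ↥(locAlg T 𝔪) z -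
        algebraMap O ↥(locAlg T 𝔪) (ev (algebraMap ↥T ↥(locAlg T 𝔪) z)))) :
    letI := algLoc T S a aT haT 𝔫 𝔪 hcomap
    Side (ev : ↥(locAlg T 𝔪) →+* O) p (algebraMap ↥S ↥(locAlg S 𝔫) u)
        (algebraMap ↥S ↥(locAlg S 𝔫) v) n ∧
      ∀ W : ↥(locAlg S 𝔫),
        ((Algebra.norm ↥(locAlg T 𝔪) W : ↥(locAlg T 𝔪)) : FM) = normAlong a (W : FN) := by
  letI := algLoc T S a aT haT 𝔫 𝔪 hcomap
  letI := algebraAlong a
  letI := algLocField T a 𝔪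
  haveI i1 : IsScalarTower O ↥(locAlg T 𝔪) ↥(locAlg S 𝔫) :=
    isScalarTower_loc T S a aT haT 𝔫 𝔪 hcomap
  haveI i2 : @IsScalarTower ↥(locAlg T 𝔪) ↥(locAlg S 𝔫) FN Algebra.toSMul Algebra.toSMul
      Algebra.toSMul := IsScalarTower.of_algebraMap_eq fun _ => rfl
  haveI i3 : @IsScalarTower ↥(locAlg T 𝔪) FM FN Algebra.toSMul Algebra.toSMul Algebra.toSMul :=
    IsScalarTower.of_algebraMap_eq fun _ => rfl
  haveI i4 : Module.Finite ↥(locAlg T 𝔪) ↥(locAlg S 𝔫) :=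
    finite_loc T S a aT haT 𝔫 𝔪 hcomap hfinite hunique
  haveI i5 : IsFractionRing ↥(locAlg T 𝔪) FM := isFractionRing_locAlg T 𝔪
  haveI i6 : IsFractionRing ↥(locAlg S 𝔫) FN := isFractionRing_locAlg S 𝔫
  have hϖ𝔫 : algebraMap O ↥S ϖ ∈ 𝔫 := hO𝔫 ϖ hϖO
  have hϖ𝔪 : algebraMap O ↥T ϖ ∈ 𝔪 := by
    rw [hcomap, AlgHom.commutes]; exact hϖ𝔫
  obtain ⟨A', E', hA', hE', hz'⟩ := hz_loc T S a aT haT 𝔫 𝔪 hcomap halpha
  have hm := maximalIdeal_eq_span₃ S 𝔫 hu hv hϖ𝔫 hgen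
  have hmt := maximalIdeal_eq_span₂ T 𝔪 hz𝔪 hϖ𝔪 hsm
  have hres' : ∀ r : ↥(locAlg S 𝔫), ∃ c : ↥(locAlg T 𝔪),
      r - algebraMap ↥(locAlg T 𝔪) ↥(locAlg S 𝔫) c ∈ maximalIdeal ↥(locAlg S 𝔫) := by
    intro r
    obtain ⟨c, hc⟩ := exists_sub_algebraMap_mem_maximalIdeal S 𝔫 hO𝔫 hres r
    exact ⟨algebraMap O ↥(locAlg T 𝔪) c, by
      rwa [← IsScalarTower.algebraMap_apply O ↥(locAlg T 𝔪) ↥(locAlg S 𝔫)]⟩
  have huv' : algebraMap ↥S ↥(locAlg S 𝔫) u * algebraMap ↥S ↥(locAlg S 𝔫) v =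
      algebraMap ↥S ↥(locAlg S 𝔫) G * algebraMap O ↥(locAlg S 𝔫) p := by
    rw [← map_mul, huv, map_mul, ← IsScalarTower.algebraMap_apply O ↥S ↥(locAlg S 𝔫)]
  obtain ⟨hside, hnorm⟩ := side_abs (Ft := FM) (F := FN) hpϖ hm hmt hres' hz' hA' hE' hn huv'
    (isUnit_algebraMap_of_notMem S 𝔫 hG) hdeg ev hevz hker
  exact ⟨hside, fun W => hnorm W⟩

end Chart

/-! ### The two-sided statement for charts -/

section Two

variable (T : Subalgebra O FM) (S : Subalgebra O FN)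
  (a b : FM →ₐ[K] FN) (aT bT : ↥T →ₐ[O] ↥S)
  (haT : ∀ x : T, ((aT x : S) : FN) = a (x : FM)) (hbT : ∀ x : T, ((bT x : S) : FN) = b (x : FM))
  (𝔫 : Ideal ↥S) [h𝔫 : 𝔫.IsPrime] (𝔪α 𝔪β : Ideal ↥T) [h𝔪α : 𝔪α.IsPrime] [h𝔪β : 𝔪β.IsPrime]
  (hcomapα : ∀ x : T, x ∈ 𝔪α ↔ aT x ∈ 𝔫) (hcomapβ : ∀ x : T, x ∈ 𝔪β ↔ bT x ∈ 𝔫)

/-- **(R4)(d) for charts, from the two one-sided packages**: for `W` in the local ring of the node, the
field norms `N_α W`, `N_β W` lie in the local rings of the two image points and their values at the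
test points agree modulo `p`. -/
theorem map_normAlong_sub_mem_of_sides {p : O} {u v : S} {n : ℕ}
    (evα : ↥(locAlg T 𝔪α) →ₐ[O] O) (evβ : ↥(locAlg T 𝔪β) →ₐ[O] O)
    (hα : letI := algLoc T S a aT haT 𝔫 𝔪α hcomapα
      Side (evα : ↥(locAlg T 𝔪α) →+* O) p (algebraMap ↥S ↥(locAlg S 𝔫) u)
          (algebraMap ↥S ↥(locAlg S 𝔫) v) n ∧
        ∀ W : ↥(locAlg S 𝔫),
          ((Algebra.norm ↥(locAlg T 𝔪α) W : ↥(locAlg T 𝔪α)) : FM) = normAlong a (W : FN))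
    (hβ : letI := algLoc T S b bT hbT 𝔫 𝔪β hcomapβ
      Side (evβ : ↥(locAlg T 𝔪β) →+* O) p (algebraMap ↥S ↥(locAlg S 𝔫) v)
          (algebraMap ↥S ↥(locAlg S 𝔫) u) n ∧
        ∀ W : ↥(locAlg S 𝔫),
          ((Algebra.norm ↥(locAlg T 𝔪β) W : ↥(locAlg T 𝔪β)) : FM) = normAlong b (W : FN))
    (W : FN) (hW : W ∈ locAlg S 𝔫) :
    ∃ (hA : normAlong a W ∈ locAlg T 𝔪α) (hB : normAlong b W ∈ locAlg T 𝔪β),
      evα ⟨normAlong a W, hA⟩ - evβ ⟨normAlong b W, hB⟩ ∈ Ideal.span {p} ∧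
      (IsUnit (⟨W, hW⟩ : ↥(locAlg S 𝔫)) →
        IsUnit (evα ⟨normAlong a W, hA⟩) ∧ IsUnit (evβ ⟨normAlong b W, hB⟩)) := by
  letI iα := algLoc T S a aT haT 𝔫 𝔪α hcomapα
  letI iβ := algLoc T S b bT hbT 𝔫 𝔪β hcomapβ
  obtain ⟨hsα, hnα⟩ := hα
  obtain ⟨hsβ, hnβ⟩ := hβ
  have key := compare_of_sides hsα hsβ (⟨W, hW⟩ : ↥(locAlg S 𝔫))
  have hA : normAlong a W ∈ locAlg T 𝔪α := by
    rw [← hnα ⟨W, hW⟩]; exact Subtype.property _
  have hB : normAlong b W ∈ locAlg T 𝔪β := by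
    rw [← hnβ ⟨W, hW⟩]; exact Subtype.property _
  refine ⟨hA, hB, ?_⟩
  have eA : (⟨normAlong a W, hA⟩ : ↥(locAlg T 𝔪α)) =
      Algebra.norm ↥(locAlg T 𝔪α) (⟨W, hW⟩ : ↥(locAlg S 𝔫)) :=
    Subtype.ext (hnα ⟨W, hW⟩).symm
  have eB : (⟨normAlong b W, hB⟩ : ↥(locAlg T 𝔪β)) =
      Algebra.norm ↥(locAlg T 𝔪β) (⟨W, hW⟩ : ↥(locAlg S 𝔫)) :=
    Subtype.ext (hnβ ⟨W, hW⟩).symm
  rw [eA, eB]
  refine ⟨key, fun hu => ⟨?_, ?_⟩⟩
  · exact (hu.map (Algebra.norm ↥(locAlg T 𝔪α))).map evα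
  · exact (hu.map (Algebra.norm ↥(locAlg T 𝔪β))).map evβ

end Two

end Fermat.Agent.S40.M1.NodeDChart
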