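/-
S40 / S44 (row 38), T6′ static route, block (R4) (helper14, spec = helper22 #3191, dispatch #3193 (a); re-landed
at this path per ruling #3253 — `S40/M1/NodeLocal.lean` is helper22's `locAlg`-model file):
**the localisation bridge** between the charts and the local rings of `NodeAlg` / `FibreNorm` /
`NodeLocP` / `NodeGen`.

Setting.  Charts `A` (level `N`), `B` (level `N ℓ`), a ring homomorphism `f : A →+* B` (`α^*` or
`β^*`: there are TWO such maps, so `f` is explicit and nothing here is a global instance), a prime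
`𝔫` of `B` (the node), `𝔪 = f⁻¹ 𝔫`; `Rt = A_𝔪`, `R = B_𝔫` (abstractly: `IsLocalization.AtPrime`,
with an algebra structure `Rt → R` satisfying
`hcomp : ∀ a, algebraMap Rt R (algebraMap A Rt a) = algebraMap B R (f a)`).

* **(ii)** `finite_of_forall_prime_eq` / `finite_of_forall_maximal_eq` : `Module.Finite Rt R` from
  `f.Finite` + "`𝔫` is the only prime (maximal ideal) of `B` over `𝔪`"
  (`exists_dvd_map_of_notMem`, `isLocalization_map_primeCompl` : `B_𝔫 = (A ∖ 𝔪)⁻¹ B`);
* **(iii)** dictionary: `isUnit_algebraMap` (`b ∉ 𝔫 ⇒ IsUnit`), `isUnitAt_iff`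
  (`P4.TwistRoots.IsUnitAt 𝔫 x` unfolded ↔ image of a unit of `R`), `maximalIdeal_eq_span`
  ((GEN) of `NodeGen` ⇒ `hm : 𝔪_R = (u, v, ϖ)`), `exists_sub_mem_maximalIdeal` (`hres`),
  `exists_isUnit_decomp` (`hz_of_chart`: `s * f z = u A′ + v ^ n E` ⇒ `hz` with units),
  `map_mul_eq` (`u v = G p`);
* **(iv)** `algebraMap_norm`, `algebraMap_norm_of_basis` (+ trace, `finrank_eq_card_of_basis`) :
  `algebraMap Rt Ft (Algebra.norm Rt r) = Algebra.norm Ft (algebraMap R F r)` in the binder block of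
  `NodeAlg` (section `Basis`);
* **(i)** the instance package for `Localization.AtPrime`, as reducible defs to install with `letI`:
  `locHom`, `locAlgebra f 𝔫 : Algebra A_𝔪 B_𝔫` (+ `locAlgebra_comp` = `hcomp`),
  `fracAlgebra 𝔪 Rt KA : Algebra Rt (Frac A)` (+ `fracAlgebra_isScalarTower`,
  `fracAlgebra_isFractionRing`, `isFractionRing_of_tower`), `topAlgebra`, `isScalarTower_top`
  (`IsScalarTower Rt R L`), and the end-to-end check `algebraMap_norm_chart`;
* the hypotheses of `NodeAlg` VERBATIM for `Rt = Localization.AtPrime (𝔫.comap f)`,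
  `R = Localization.AtPrime 𝔫` under `letI := locAlgebra f 𝔫` : `finite_locAlgebra`,
  `maximalIdeal_eq_span_loc` (`hm`), `exists_sub_mem_maximalIdeal_loc` (`hres`),
  `exists_isUnit_decomp_loc` (`hz`).
Mathlib + `S40/M1/NodeGen` (itself Mathlib only).
-/
import Mathlib
import Fermat.Agent.S40.M1.NodeGen

set_option autoImplicit false
set_option linter.unusedSectionVars false
set_option linter.style.longLine false
set_option linter.style.haveILetI false

noncomputable section

namespace Fermat.Agent.S40.M1.NodeLocalAt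

open IsLocalRing nonZeroDivisors

/-! ### (ii) finiteness -/

section Abstract

variable {A B Rt R : Type*} [CommRing A] [CommRing B] [CommRing Rt] [CommRing R]
  [Algebra A Rt] [Algebra B R] [Algebra Rt R]
  (f : A →+* B) (𝔪 : Ideal A) [h𝔪p : 𝔪.IsPrime] (𝔫 : Ideal B) [h𝔫p : 𝔫.IsPrime]
  [IsLocalization.AtPrime Rt 𝔪] [IsLocalization.AtPrime R 𝔫]

/-- Every `b ∉ 𝔫` divides the image of some `a ∉ 𝔪`, if `B` is integral over `A` and `𝔫` is the only
prime of `B` over `𝔪`. -/
theorem exists_dvd_map_of_notMem (hint : f.IsIntegral)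
    (hone : ∀ 𝔮 : Ideal B, 𝔮.IsPrime → 𝔮.comap f = 𝔪 → 𝔮 = 𝔫) {b : B} (hb : b ∉ 𝔫) :
    ∃ a : A, a ∉ 𝔪 ∧ b ∣ f a := by
  letI : Algebra A B := f.toAlgebra
  haveI : Algebra.IsIntegral A B := ⟨hint⟩
  by_contra hcon
  push Not at hcon
  have hle : (Ideal.span {b}).comap (algebraMap A B) ≤ 𝔪 := by
    intro a ha
    by_contra ha𝔪
    exact hcon a ha𝔪 (Ideal.mem_span_singleton.1 ha)
  obtain ⟨Q, hQ, hQp, hQc⟩ := Ideal.exists_ideal_over_prime_of_isIntegral 𝔪 (Ideal.span {b}) hle
  have := hone Q hQp hQc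
  exact hb (this ▸ hQ (Ideal.mem_span_singleton_self b))

/-- If `𝔫` is the only prime of `B` over `𝔪 = f⁻¹ 𝔫` and `B` is integral over `A`, then `B_𝔫` is the
localisation of `B` at (the image of) `A ∖ 𝔪`. -/
theorem isLocalization_map_primeCompl (h𝔪 : 𝔫.comap f = 𝔪) (hint : f.IsIntegral)
    (hone : ∀ 𝔮 : Ideal B, 𝔮.IsPrime → 𝔮.comap f = 𝔪 → 𝔮 = 𝔫) :
    IsLocalization (𝔪.primeCompl.map f) R := by
  refine (IsLocalization.iff_of_le_of_exists_dvd (𝔪.primeCompl.map f) 𝔫.primeCompl ?_ ?_).2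
    (inferInstance : IsLocalization.AtPrime R 𝔫)
  · rintro _ ⟨a, ha, rfl⟩
    intro h
    apply ha
    rw [← h𝔪]
    exact h
  · intro b hb
    obtain ⟨a, ha, hdvd⟩ := exists_dvd_map_of_notMem f 𝔪 𝔫 hint hone hb
    exact ⟨f a, ⟨a, ha, rfl⟩, hdvd⟩

/-- **(ii)** `B_𝔫` is module-finite over `A_𝔪`, if `B` is finite over `A` and `𝔫` is the only prime of
`B` over `𝔪 = f⁻¹ 𝔫`. -/
theorem finite_of_forall_prime_eq (h𝔪 : 𝔫.comap f = 𝔪)
    (hcomp : ∀ a : A, algebraMap Rt R (algebraMap A Rt a) = algebraMap B R (f a))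
    (hfin : f.Finite) (hone : ∀ 𝔮 : Ideal B, 𝔮.IsPrime → 𝔮.comap f = 𝔪 → 𝔮 = 𝔫) :
    Module.Finite Rt R := by
  letI : Algebra A B := f.toAlgebra
  letI : Algebra A R := ((algebraMap B R).comp f).toAlgebra
  haveI : IsScalarTower A B R := IsScalarTower.of_algebraMap_eq' rfl
  haveI : IsScalarTower A Rt R := IsScalarTower.of_algebraMap_eq fun a => (hcomp a).symm
  haveI : Module.Finite A B := hfin
  haveI : IsLocalization (Algebra.algebraMapSubmonoid B 𝔪.primeCompl) R :=
    isLocalization_map_primeCompl f 𝔪 𝔫 h𝔪 hfin.to_isIntegral hone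
  exact Module.Finite.of_isLocalization A B 𝔪.primeCompl

/-- **(ii)**, maximal form: if `𝔪` is maximal it is enough that `𝔫` is the only MAXIMAL ideal over `𝔪`. -/
theorem finite_of_forall_maximal_eq [𝔪.IsMaximal] (h𝔪 : 𝔫.comap f = 𝔪)
    (hcomp : ∀ a : A, algebraMap Rt R (algebraMap A Rt a) = algebraMap B R (f a))
    (hfin : f.Finite) (hone : ∀ 𝔮 : Ideal B, 𝔮.IsMaximal → 𝔮.comap f = 𝔪 → 𝔮 = 𝔫) :
    Module.Finite Rt R := by
  refine finite_of_forall_prime_eq f 𝔪 𝔫 h𝔪 hcomp hfin fun 𝔮 h𝔮 h𝔮c => hone 𝔮 ?_ h𝔮c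
  letI : Algebra A B := f.toAlgebra
  haveI : Algebra.IsIntegral A B := ⟨hfin.to_isIntegral⟩
  haveI := h𝔮
  refine Ideal.isMaximal_of_isIntegral_of_isMaximal_comap (R := A) 𝔮 ?_
  change (𝔮.comap f).IsMaximal
  rw [h𝔮c]; infer_instance

end Abstract

/-! ### (iii) the dictionary -/

section Dictionary

variable {A B Rt R : Type*} [CommRing A] [CommRing B] [CommRing Rt] [CommRing R]
  [Algebra A Rt] [Algebra B R] [Algebra Rt R]
  (f : A →+* B) (𝔪 : Ideal A) [h𝔪p : 𝔪.IsPrime] (𝔫 : Ideal B) [h𝔫p : 𝔫.IsPrime]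
  [IsLocalization.AtPrime Rt 𝔪] [IsLocalization.AtPrime R 𝔫]

/-- Elements of the chart outside `𝔫` are units of `B_𝔫`. -/
theorem isUnit_algebraMap {b : B} (hb : b ∉ 𝔫) : IsUnit (algebraMap B R b) :=
  IsLocalization.map_units R (⟨b, hb⟩ : 𝔫.primeCompl)

theorem isUnit_algebraMap_iff {b : B} : IsUnit (algebraMap B R b) ↔ b ∉ 𝔫 :=
  IsLocalization.AtPrime.isUnit_to_map_iff R 𝔫 b

theorem algebraMap_mem_maximalIdeal_iff [IsLocalRing R] {b : B} :
    algebraMap B R b ∈ maximalIdeal R ↔ b ∈ 𝔫 :=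
  IsLocalization.AtPrime.to_map_mem_maximal_iff R 𝔫 b

/-- Every unit of `B_𝔫` is `r / a` with `a r ∉ 𝔫`. -/
theorem exists_of_isUnit {w : R} (hw : IsUnit w) :
    ∃ a r : B, a ∉ 𝔫 ∧ r ∉ 𝔫 ∧ w * algebraMap B R a = algebraMap B R r := by
  obtain ⟨r, a, rfl⟩ := IsLocalization.exists_mk'_eq 𝔫.primeCompl w
  refine ⟨a, r, a.2, (IsLocalization.AtPrime.isUnit_mk'_iff R 𝔫 r a).1 hw, ?_⟩
  rw [IsLocalization.mk'_spec]

/-- **(iii) unit dictionary** (`P4.TwistRoots.IsUnitAt 𝔫 x` unfolded): `x ∈ L` is `r / a` with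
`a r ∉ 𝔫` iff it is the image of a unit of `B_𝔫`.  (`L` any commutative `B_𝔫`-algebra.) -/
theorem isUnitAt_iff {L : Type*} [CommRing L] [Algebra B L] [Algebra R L] [IsScalarTower B R L]
    {x : L} :
    (∃ a r : B, a ∉ 𝔫 ∧ r ∉ 𝔫 ∧ x * algebraMap B L a = algebraMap B L r) ↔
      ∃ w : Rˣ, algebraMap R L (w : R) = x := by
  constructor
  · rintro ⟨a, r, ha, hr, h⟩
    obtain ⟨wa, hwa⟩ := isUnit_algebraMap (R := R) 𝔫 ha
    obtain ⟨wr, hwr⟩ := isUnit_algebraMap (R := R) 𝔫 hr
    refine ⟨wr * wa⁻¹, ?_⟩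
    have h1 : algebraMap R L ((wa : R)) = algebraMap B L a := by
      rw [hwa, ← IsScalarTower.algebraMap_apply]
    have h2 : algebraMap R L ((wr : R)) = algebraMap B L r := by
      rw [hwr, ← IsScalarTower.algebraMap_apply]
    have h3 : algebraMap R L ((wa⁻¹ : Rˣ) : R) * algebraMap B L a = 1 := by
      rw [← h1, ← map_mul, Units.inv_mul, map_one]
    rw [Units.val_mul, map_mul, h2, ← h]
    calc x * algebraMap B L a * algebraMap R L ((wa⁻¹ : Rˣ) : R)
        = x * (algebraMap R L ((wa⁻¹ : Rˣ) : R) * algebraMap B L a) := by ring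
      _ = x := by rw [h3, mul_one]
  · rintro ⟨w, rfl⟩
    obtain ⟨a, r, ha, hr, h⟩ := exists_of_isUnit (R := R) 𝔫 w.isUnit
    refine ⟨a, r, ha, hr, ?_⟩
    rw [IsScalarTower.algebraMap_apply B R L a, IsScalarTower.algebraMap_apply B R L r, ← map_mul, h]

variable [IsLocalRing R]

/-- **(iii) (GEN)** in the local ring: `𝔪_{B_𝔫} = (u, v, ϖ)`. -/
theorem maximalIdeal_eq_span
    (hcomp : ∀ a : A, algebraMap Rt R (algebraMap A Rt a) = algebraMap B R (f a))
    {u v : B} {ϖ : A} (hu : u ∈ 𝔫) (hv : v ∈ 𝔫) (hϖ : f ϖ ∈ 𝔫)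
    (hgen : ∃ c, c ∉ 𝔫 ∧ ∀ r ∈ 𝔫, ∃ a b d, c * r = a * u + b * v + d * f ϖ) :
    maximalIdeal R =
      Ideal.span {algebraMap B R u, algebraMap B R v, algebraMap Rt R (algebraMap A Rt ϖ)} := by
  rw [hcomp, ← IsLocalization.AtPrime.map_eq_maximalIdeal 𝔫 R]
  exact NodeGen.map_eq_span 𝔫 (f ϖ) u v R hu hv hϖ hgen

/-- **(iii) `hres`**: equal residue fields in the charts ⇒ equal residue fields of the local
rings. -/
theorem exists_sub_mem_maximalIdeal (h𝔪 : 𝔫.comap f = 𝔪)
    (hcomp : ∀ a : A, algebraMap Rt R (algebraMap A Rt a) = algebraMap B R (f a))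
    (hsurj : ∀ b : B, ∃ a : A, b - f a ∈ 𝔫) (r : R) :
    ∃ c : Rt, r - algebraMap Rt R c ∈ maximalIdeal R := by
  obtain ⟨b, s, rfl⟩ := IsLocalization.exists_mk'_eq 𝔫.primeCompl r
  obtain ⟨ab, hab⟩ := hsurj b
  obtain ⟨as, has⟩ := hsurj s
  have has𝔫 : f as ∉ 𝔫 := by
    intro h
    apply s.2
    have := 𝔫.add_mem has h
    rwa [sub_add_cancel] at this
  have has𝔪 : as ∉ 𝔪 := by
    rw [← h𝔪]; exact has𝔫
  refine ⟨IsLocalization.mk' Rt ab (⟨as, has𝔪⟩ : 𝔪.primeCompl), ?_⟩
  -- multiply by the unit `s * f as`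
  have hus : IsUnit (algebraMap B R (s : B)) := isUnit_algebraMap 𝔫 s.2
  have hua : IsUnit (algebraMap B R (f as)) := isUnit_algebraMap 𝔫 has𝔫
  have key : (IsLocalization.mk' R b s - algebraMap Rt R (IsLocalization.mk' Rt ab
      (⟨as, has𝔪⟩ : 𝔪.primeCompl))) * (algebraMap B R (s : B) * algebraMap B R (f as)) =
      algebraMap B R (b * f as - f ab * s) := by
    have e1 : IsLocalization.mk' R b s * algebraMap B R (s : B) = algebraMap B R b :=
      IsLocalization.mk'_spec R b s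
    have e2 : algebraMap Rt R (IsLocalization.mk' Rt ab (⟨as, has𝔪⟩ : 𝔪.primeCompl)) *
        algebraMap B R (f as) = algebraMap B R (f ab) := by
      rw [← hcomp, ← hcomp, ← map_mul]
      congr 1
      exact IsLocalization.mk'_spec Rt ab (⟨as, has𝔪⟩ : 𝔪.primeCompl)
    rw [map_sub, map_mul, map_mul]
    linear_combination (algebraMap B R (f as)) * e1 - (algebraMap B R (s : B)) * e2
  have hmem : algebraMap B R (b * f as - f ab * s) ∈ maximalIdeal R := by
    rw [algebraMap_mem_maximalIdeal_iff 𝔫]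
    have : b * f as - f ab * s = (b - f ab) * f as - f ab * ((s : B) - f as) := by ring
    rw [this]
    exact 𝔫.sub_mem (𝔫.mul_mem_right _ hab) (𝔫.mul_mem_left _ has)
  rw [← key] at hmem
  exact ((Ideal.IsPrime.mem_or_mem (maximalIdeal.isMaximal R).isPrime hmem).resolve_right
    (fun h => (mem_maximalIdeal _).1 h (hus.mul hua)))

/-- **(iii) `hz_of_chart`**: a chart relation `s * f z = u * A' + v ^ n * E` with `s A' E ∉ 𝔫`
becomes `z = u * A₁ + v ^ n * E₁` in `B_𝔫` with units `A₁ E₁`. -/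
theorem exists_isUnit_decomp
    (hcomp : ∀ a : A, algebraMap Rt R (algebraMap A Rt a) = algebraMap B R (f a))
    {z : A} {s u v A' E : B} {n : ℕ} (hs : s ∉ 𝔫) (hA : A' ∉ 𝔫) (hE : E ∉ 𝔫)
    (h : s * f z = u * A' + v ^ n * E) :
    ∃ A₁ E₁ : R, IsUnit A₁ ∧ IsUnit E₁ ∧
      algebraMap Rt R (algebraMap A Rt z) =
        algebraMap B R u * A₁ + algebraMap B R v ^ n * E₁ := by
  obtain ⟨ws, hws⟩ := isUnit_algebraMap (R := R) 𝔫 hs
  refine ⟨algebraMap B R A' * ((ws⁻¹ : Rˣ) : R), algebraMap B R E * ((ws⁻¹ : Rˣ) : R),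
    (isUnit_algebraMap 𝔫 hA).mul (Units.isUnit _), (isUnit_algebraMap 𝔫 hE).mul (Units.isUnit _), ?_⟩
  rw [hcomp]
  have h' := congrArg (algebraMap B R) h
  rw [map_mul, map_add, map_mul, map_mul, map_pow, ← hws] at h'
  have hinv : ((ws⁻¹ : Rˣ) : R) * (ws : R) = 1 := Units.inv_mul ws
  linear_combination ((ws⁻¹ : Rˣ) : R) * h' - (algebraMap B R (f z)) * hinv

/-- The node equation in the local ring: `u v = G p` with `G` a unit. -/
theorem map_mul_eq
    (hcomp : ∀ a : A, algebraMap Rt R (algebraMap A Rt a) = algebraMap B R (f a))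
    {p : A} {u v G : B} (h : u * v = G * f p) :
    algebraMap B R u * algebraMap B R v =
      algebraMap B R G * algebraMap Rt R (algebraMap A Rt p) := by
  rw [hcomp, ← map_mul, ← map_mul, h]

end Dictionary

/-! ### (iv) norms -/

section Norm

variable {Rt R : Type*} (Ft F : Type*) [CommRing Rt] [CommRing R] [Algebra Rt R] [Field Ft] [Field F]
  [Algebra Rt Ft] [IsFractionRing Rt Ft] [Algebra R F] [IsFractionRing R F] [Algebra Ft F]
  [Algebra Rt F] [IsScalarTower Rt Ft F] [IsScalarTower Rt R F]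

include Ft F in
/-- `Rt → R` is injective (both embed in `F`). -/
theorem algebraMap_injective : Function.Injective (algebraMap Rt R) := by
  have h : Function.Injective (algebraMap Rt F) := by
    rw [IsScalarTower.algebraMap_eq Rt Ft F]
    exact (algebraMap Ft F).injective.comp (IsFractionRing.injective Rt Ft)
  rw [IsScalarTower.algebraMap_eq Rt R F] at h
  exact Function.Injective.of_comp h

include Ft in
/-- `Frac R` is the localisation of `R` at the nonzero elements of `Rt`, if `R` is integral over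
`Rt`. -/
theorem isLocalization_algebraMapSubmonoid [Algebra.IsIntegral Rt R] :
    IsLocalization (Algebra.algebraMapSubmonoid R Rt⁰) F := by
  haveI : IsDomain R := (IsFractionRing.injective R F).isDomain (algebraMap R F)
  haveI : IsDomain Rt := (IsFractionRing.injective Rt Ft).isDomain (algebraMap Rt Ft)
  haveI : FaithfulSMul Rt R :=
    (faithfulSMul_iff_algebraMap_injective Rt R).2 (algebraMap_injective Ft F)
  infer_instance

variable {Ft F}

/-- **(iv)** the norm of `R / Rt` is the restriction of the field norm. -/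
theorem algebraMap_norm [Module.Free Rt R] [Module.Finite Rt R] (r : R) :
    algebraMap Rt Ft (Algebra.norm Rt r) = Algebra.norm Ft (algebraMap R F r) := by
  haveI := isLocalization_algebraMapSubmonoid (Rt := Rt) (R := R) Ft F
  exact (Algebra.norm_localization Rt Rt⁰ r).symm

/-- **(iv)**, basis form (e.g. `NodeAlg.basisPow`). -/
theorem algebraMap_norm_of_basis {ι : Type*} [Finite ι] (b : Module.Basis ι Rt R) (r : R) :
    algebraMap Rt Ft (Algebra.norm Rt r) = Algebra.norm Ft (algebraMap R F r) := by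
  haveI := Module.Free.of_basis b
  haveI := Module.Finite.of_basis b
  exact algebraMap_norm r

/-- The same for the trace. -/
theorem algebraMap_trace_of_basis {ι : Type*} [Finite ι] (b : Module.Basis ι Rt R) (r : R) :
    algebraMap Rt Ft (Algebra.trace Rt R r) = Algebra.trace Ft F (algebraMap R F r) := by
  haveI := Module.Free.of_basis b
  haveI := Module.Finite.of_basis b
  haveI := isLocalization_algebraMapSubmonoid (Rt := Rt) (R := R) Ft F
  exact (Algebra.trace_localization Rt Rt⁰ r).symm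

variable (Ft F) in
/-- The degree of the fraction fields is the rank of the basis. -/
theorem finrank_eq_card_of_basis {ι : Type*} [Fintype ι] (b : Module.Basis ι Rt R) :
    Module.finrank Ft F = Fintype.card ι := by
  classical
  haveI := Module.Finite.of_basis b
  haveI := isLocalization_algebraMapSubmonoid (Rt := Rt) (R := R) Ft F
  rw [Module.finrank_eq_card_basis (b.localizationLocalization Ft Rt⁰ F)]

end Norm

/-! ### (i) the instance package -/

section Instances

variable {A B : Type*} [CommRing A] [CommRing B] (f : A →+* B) (𝔫 : Ideal B) [𝔫.IsPrime]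

/-- **(i)** the local homomorphism `A_𝔪 → B_𝔫`, `𝔪 = f⁻¹ 𝔫`. -/
def locHom : Localization.AtPrime (𝔫.comap f) →+* Localization.AtPrime 𝔫 :=
  Localization.localRingHom (𝔫.comap f) 𝔫 f rfl

@[simp]
theorem locHom_algebraMap (a : A) :
    locHom f 𝔫 (algebraMap A (Localization.AtPrime (𝔫.comap f)) a) =
      algebraMap B (Localization.AtPrime 𝔫) (f a) :=
  Localization.localRingHom_to_map _ _ _ _ _

theorem isLocalHom_locHom : IsLocalHom (locHom f 𝔫) :=
  Localization.isLocalHom_localRingHom _ _ _ _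

/-- `B_𝔫` as an `A_𝔪`-algebra.  NOT an instance (there are two such maps `α`, `β`): install with
`letI := locAlgebra f 𝔫`. -/
@[reducible] def locAlgebra :
    Algebra (Localization.AtPrime (𝔫.comap f)) (Localization.AtPrime 𝔫) :=
  (locHom f 𝔫).toAlgebra

/-- The compatibility `hcomp` of the abstract sections for `locAlgebra`. -/
theorem locAlgebra_comp (a : A) :
    letI := locAlgebra f 𝔫
    algebraMap (Localization.AtPrime (𝔫.comap f)) (Localization.AtPrime 𝔫)
      (algebraMap A (Localization.AtPrime (𝔫.comap f)) a) =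
      algebraMap B (Localization.AtPrime 𝔫) (f a) :=
  locHom_algebraMap f 𝔫 a

end Instances

section Frac

variable {A : Type*} [CommRing A] [IsDomain A] (𝔪 : Ideal A) [𝔪.IsPrime]
  (Rt : Type*) [CommRing Rt] [Algebra A Rt] [IsLocalization.AtPrime Rt 𝔪]
  (KA : Type*) [Field KA] [Algebra A KA] [IsFractionRing A KA]

/-- **(i)** the fraction field of the chart as an algebra over the local ring `A_𝔪`. -/
@[reducible] def fracAlgebra : Algebra Rt KA :=
  IsLocalization.localizationAlgebraOfSubmonoidLe Rt KA 𝔪.primeCompl A⁰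
    𝔪.primeCompl_le_nonZeroDivisors

theorem fracAlgebra_isScalarTower :
    letI := fracAlgebra 𝔪 Rt KA
    IsScalarTower A Rt KA :=
  IsLocalization.localization_isScalarTower_of_submonoid_le Rt KA 𝔪.primeCompl A⁰
    𝔪.primeCompl_le_nonZeroDivisors

theorem fracAlgebra_algebraMap (a : A) :
    letI := fracAlgebra 𝔪 Rt KA
    algebraMap Rt KA (algebraMap A Rt a) = algebraMap A KA a := by
  letI := fracAlgebra 𝔪 Rt KA
  haveI := fracAlgebra_isScalarTower 𝔪 Rt KA
  exact (IsScalarTower.algebraMap_apply A Rt KA a).symm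

theorem fracAlgebra_isFractionRing :
    letI := fracAlgebra 𝔪 Rt KA
    IsFractionRing Rt KA := by
  letI := fracAlgebra 𝔪 Rt KA
  haveI := fracAlgebra_isScalarTower 𝔪 Rt KA
  exact IsFractionRing.isFractionRing_of_isDomain_of_isLocalization 𝔪.primeCompl Rt KA

include 𝔪 in
/-- Any `A`-compatible algebra structure of `A_𝔪` on `Frac A` makes it the fraction field. -/
theorem isFractionRing_of_tower [Algebra Rt KA] [IsScalarTower A Rt KA] : IsFractionRing Rt KA :=
  IsFractionRing.isFractionRing_of_isDomain_of_isLocalization 𝔪.primeCompl Rt KA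

end Frac

section Top

variable {A B Rt R KA L : Type*} [CommRing A] [CommRing B] [CommRing Rt] [CommRing R]
  [CommRing KA] [CommRing L]
  [Algebra A Rt] [Algebra B R] [Algebra Rt R] [Algebra A KA] [Algebra Rt KA] [IsScalarTower A Rt KA]
  [Algebra B L] [Algebra R L] [IsScalarTower B R L] [Algebra KA L] [Algebra Rt L]
  [IsScalarTower Rt KA L]
  (f : A →+* B) (𝔪 : Ideal A) [𝔪.IsPrime] [IsLocalization.AtPrime Rt 𝔪]

include 𝔪 in
/-- **(i)** the last tower `A_𝔪 → B_𝔫 → Frac B`, from the compatibility of the two squares. -/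
theorem isScalarTower_top
    (hcomp : ∀ a : A, algebraMap Rt R (algebraMap A Rt a) = algebraMap B R (f a))
    (hφ : ∀ a : A, algebraMap KA L (algebraMap A KA a) = algebraMap B L (f a)) :
    IsScalarTower Rt R L := by
  refine IsScalarTower.of_algebraMap_eq' ?_
  refine IsLocalization.ringHom_ext 𝔪.primeCompl ?_
  ext a
  simp only [RingHom.comp_apply]
  rw [hcomp, ← IsScalarTower.algebraMap_apply B R L, IsScalarTower.algebraMap_apply Rt KA L,
    ← IsScalarTower.algebraMap_apply A Rt KA, hφ]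

end Top

/-! ### The concrete local rings `Localization.AtPrime`: the hypotheses of `NodeAlg` verbatim -/

section Concrete

variable {A B : Type*} [CommRing A] [CommRing B] (f : A →+* B) (𝔫 : Ideal B) [𝔫.IsPrime]

/-- **(ii)** for `locAlgebra`. -/
theorem finite_locAlgebra (hfin : f.Finite)
    (hone : ∀ 𝔮 : Ideal B, 𝔮.IsPrime → 𝔮.comap f = 𝔫.comap f → 𝔮 = 𝔫) :
    letI := locAlgebra f 𝔫
    Module.Finite (Localization.AtPrime (𝔫.comap f)) (Localization.AtPrime 𝔫) := by
  letI := locAlgebra f 𝔫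
  exact finite_of_forall_prime_eq f (𝔫.comap f) 𝔫 rfl (locAlgebra_comp f 𝔫) hfin hone

/-- **`hm`** of `NodeAlg` for `locAlgebra`. -/
theorem maximalIdeal_eq_span_loc {u v : B} {ϖ : A} (hu : u ∈ 𝔫) (hv : v ∈ 𝔫) (hϖ : f ϖ ∈ 𝔫)
    (hgen : ∃ c, c ∉ 𝔫 ∧ ∀ r ∈ 𝔫, ∃ a b d, c * r = a * u + b * v + d * f ϖ) :
    letI := locAlgebra f 𝔫
    maximalIdeal (Localization.AtPrime 𝔫) =
      Ideal.span {algebraMap B (Localization.AtPrime 𝔫) u, algebraMap B (Localization.AtPrime 𝔫) v,
        algebraMap (Localization.AtPrime (𝔫.comap f)) (Localization.AtPrime 𝔫)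
          (algebraMap A (Localization.AtPrime (𝔫.comap f)) ϖ)} := by
  letI := locAlgebra f 𝔫
  exact maximalIdeal_eq_span f 𝔫 (locAlgebra_comp f 𝔫) hu hv hϖ hgen

/-- **`hres`** of `NodeAlg` for `locAlgebra`. -/
theorem exists_sub_mem_maximalIdeal_loc (hsurj : ∀ b : B, ∃ a : A, b - f a ∈ 𝔫)
    (r : Localization.AtPrime 𝔫) :
    letI := locAlgebra f 𝔫
    ∃ c : Localization.AtPrime (𝔫.comap f),
      r - algebraMap (Localization.AtPrime (𝔫.comap f)) (Localization.AtPrime 𝔫) c ∈
        maximalIdeal (Localization.AtPrime 𝔫) := by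
  letI := locAlgebra f 𝔫
  exact exists_sub_mem_maximalIdeal f (𝔫.comap f) 𝔫 rfl (locAlgebra_comp f 𝔫) hsurj r

/-- **`hz`** of `NodeAlg` for `locAlgebra`, from the chart relation of `NodeAlpha.alpha_decomp`. -/
theorem exists_isUnit_decomp_loc {z : A} {s u v A' E : B} {n : ℕ} (hs : s ∉ 𝔫) (hA : A' ∉ 𝔫)
    (hE : E ∉ 𝔫) (h : s * f z = u * A' + v ^ n * E) :
    letI := locAlgebra f 𝔫
    ∃ A₁ E₁ : Localization.AtPrime 𝔫, IsUnit A₁ ∧ IsUnit E₁ ∧
      algebraMap (Localization.AtPrime (𝔫.comap f)) (Localization.AtPrime 𝔫)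
          (algebraMap A (Localization.AtPrime (𝔫.comap f)) z) =
        algebraMap B (Localization.AtPrime 𝔫) u * A₁ +
          algebraMap B (Localization.AtPrime 𝔫) v ^ n * E₁ := by
  letI := locAlgebra f 𝔫
  exact exists_isUnit_decomp f 𝔫 (locAlgebra_comp f 𝔫) hs hA hE h

end Concrete

section Chart

variable {A B : Type*} [CommRing A] [CommRing B] [IsDomain A] [IsDomain B] (f : A →+* B)
  (𝔫 : Ideal B) [𝔫.IsPrime]
  (KA L : Type*) [Field KA] [Field L] [Algebra A KA] [IsFractionRing A KA] [Algebra B L]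
  [IsFractionRing B L] (φ : KA →+* L)

/-- **(i)** `Frac B` as an algebra over `A_𝔪`, through `φ : Frac A → Frac B`. -/
@[reducible] def topAlgebra : Algebra (Localization.AtPrime (𝔫.comap f)) L :=
  letI := fracAlgebra (𝔫.comap f) (Localization.AtPrime (𝔫.comap f)) KA
  (φ.comp (algebraMap (Localization.AtPrime (𝔫.comap f)) KA)).toAlgebra

/-- **End-to-end check of the instance package (i) + (iv)**: from chart-level data only. -/
theorem algebraMap_norm_chart (hφ : ∀ a : A, φ (algebraMap A KA a) = algebraMap B L (f a))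
    {ι : Type*} [Finite ι] :
    letI := locAlgebra f 𝔫
    letI := fracAlgebra (𝔫.comap f) (Localization.AtPrime (𝔫.comap f)) KA
    letI := fracAlgebra 𝔫 (Localization.AtPrime 𝔫) L
    letI := φ.toAlgebra
    ∀ (_ : Module.Basis ι (Localization.AtPrime (𝔫.comap f)) (Localization.AtPrime 𝔫))
      (r : Localization.AtPrime 𝔫),
      algebraMap (Localization.AtPrime (𝔫.comap f)) KA
          (Algebra.norm (Localization.AtPrime (𝔫.comap f)) r) =
        Algebra.norm KA (algebraMap (Localization.AtPrime 𝔫) L r) := by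
  letI := locAlgebra f 𝔫
  letI := fracAlgebra (𝔫.comap f) (Localization.AtPrime (𝔫.comap f)) KA
  letI := fracAlgebra 𝔫 (Localization.AtPrime 𝔫) L
  letI := φ.toAlgebra
  letI := topAlgebra f 𝔫 KA L φ
  haveI := fracAlgebra_isScalarTower (𝔫.comap f) (Localization.AtPrime (𝔫.comap f)) KA
  haveI := fracAlgebra_isScalarTower 𝔫 (Localization.AtPrime 𝔫) L
  haveI := fracAlgebra_isFractionRing (𝔫.comap f) (Localization.AtPrime (𝔫.comap f)) KA
  haveI := fracAlgebra_isFractionRing 𝔫 (Localization.AtPrime 𝔫) L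
  haveI : IsScalarTower (Localization.AtPrime (𝔫.comap f)) KA L :=
    IsScalarTower.of_algebraMap_eq' rfl
  haveI : IsScalarTower (Localization.AtPrime (𝔫.comap f)) (Localization.AtPrime 𝔫) L :=
    isScalarTower_top f (𝔫.comap f) (locAlgebra_comp f 𝔫) hφ
  intro b r
  exact algebraMap_norm_of_basis b r

end Chart

end Fermat.Agent.S40.M1.NodeLocalAt
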