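/-
S40 / S44 (row 38), T6′ static route, block (R4b), team B (helper14; lead helper26 #3261):
**(R4b) for ABSTRACT charts** = `NodeD.map_norm_sub_map_norm_mem` ∘ `NodeLocalAt` ∘ `EvalLocAt` ∘
`KerEval`, in chart-level vocabulary only.

Setting: `O` a DVR, `K = Frac O`, function fields `F'` (level `N`) and `F` (level `N ℓ`) over `K`,
charts `T : Subalgebra O F'`, `S : Subalgebra O F` (with `IsFractionRing`, `T` Noetherian), the two
degeneracy maps `φα φβ : F' →ₐ[K] F` restricting to `fα fβ : T →ₐ[O] S`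
(`hfα : ∀ t, (fα t : F) = φα t`; at the level `Rfin K N O`, `Rfin K (N*ℓ) O`, `alphaF`, `betaF`,
`alphaR`, `betaR`, `hfα := fun _ => rfl`), `𝔫` a prime of `S` (the node).

* `toFrac 𝔫 R : R →+* F` for any model `R` of `S_𝔫`;
* `side` : ONE side (generic models `Rt` of `T_{centre h}`, `R` of `S_𝔫` with a compatible algebra
  structure): from the chart facts (D1) `f.Finite` + unique prime, (D4) equal residue fields, (D6)
  `u v = G p`, (D3) `𝔫 = (u, v, ϖ)` locally, (D2) `centre h = (z, ϖ)` locally, (D5)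
  `s * f z = u A + v ^ n E`, (D8) `[F : F'] = n + 1`, (D7) a section `h` through `f⁻¹ 𝔫` with
  `z(h) ∈ (p)`: the fibre basis `1, v, …, v ^ n` with all the inputs of
  `FibreNorm.map_norm_sub_map_norm_mem`, and `toF (N_{R/Rt} W) = normAlong φ (W)`;
* ★ `r4b_chart` : both sides: for every `W ∈ F` which is a unit at `𝔫`
  (`∃ a r ∉ 𝔫, W * a = r`, i.e. `P4.TwistRoots.IsUnitAt 𝔫 W` unfolded):
  `Qα.val (normAlong φα W) = 1 ∧ Qβ.val (normAlong φβ W) = 1 ∧ ∃ a b d : O, IsUnit a ∧ IsUnit b ∧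
   valT Qα (normAlong φα W) = a ∧ valT Qβ (normAlong φβ W) = b ∧ a = b + p * d`
  (= `NodeDLevelB.r4b_fin` of helper26 #3261 with (D1), (D4), (D8), `ϖ ∈ 𝔫`, `p ∈ (ϖ)` as
  hypotheses; the local rings are `Localization.AtPrime`, chosen INSIDE the proof, so no instance on
  a concrete chart is ever searched).
-/
import Mathlib
import Fermat.Agent.P4.FrobStep
import Fermat.Agent.S40.M1.NodeD
import Fermat.Agent.S40.M1.NodeLocalAt
import Fermat.Agent.S40.M1.EvalLocAt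

set_option autoImplicit false
set_option linter.unusedSectionVars false
set_option linter.unusedVariables false
set_option linter.style.longLine false
set_option linter.style.haveILetI false

open AlgebraicCurve IsLocalRing

noncomputable section

namespace Fermat.Agent.S40.M1.NodeDChartB

open Fermat.Agent.G.Points Fermat.Agent.G.PointsLoc Fermat.Agent.S40.M1.NodeInv
  Fermat.Agent.S40.M1.EvalLocAt Fermat.Agent.S40.M1 Fermat.Agent.P4.FrobStep

section Side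

variable {O K F' F : Type*} [CommRing O] [IsDomain O] [IsDiscreteValuationRing O]
  [Field K] [Algebra O K] [IsFractionRing O K]
  [Field F'] [Algebra K F'] [Algebra O F'] [IsScalarTower O K F']
  [Field F] [Algebra K F] [Algebra O F] [IsScalarTower O K F]
  {T : Subalgebra O F'} {S : Subalgebra O F} [IsFractionRing ↥T F'] [IsFractionRing ↥S F]

/-- The embedding `S_𝔫 → Frac S`, for any model `R` of the localisation. -/
def toFrac (𝔫 : Ideal ↥S) [𝔫.IsPrime] (R : Type*) [CommRing R] [Algebra ↥S R]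
    [IsLocalization.AtPrime R 𝔫] : R →+* F :=
  @algebraMap R F _ _ (NodeLocalAt.fracAlgebra 𝔫 R F)

theorem toFrac_algebraMap (𝔫 : Ideal ↥S) [𝔫.IsPrime] (R : Type*) [CommRing R] [Algebra ↥S R]
    [IsLocalization.AtPrime R 𝔫] (s : S) : toFrac 𝔫 R (algebraMap ↥S R s) = (s : F) :=
  NodeLocalAt.fracAlgebra_algebraMap 𝔫 R F s

variable (φ : F' →ₐ[K] F) (f : ↥T →ₐ[O] ↥S) (hf : ∀ t : T, ((f t : S) : F) = φ (t : F'))
  (𝔫 : Ideal ↥S) [𝔫.IsPrime]
  {Q : Place K F'} {hQ : Function.Bijective (algebraMap K Q.ResidueField)}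
  (h : IsSection T Q hQ) (hc : centre h = 𝔫.comap (f : ↥T →+* ↥S))
  (Rt R : Type*) [CommRing Rt] [CommRing R] [Algebra ↥T Rt] [Algebra ↥S R]
  [IsLocalization.AtPrime Rt (centre h)] [IsLocalization.AtPrime R 𝔫]
  [Algebra O Rt] [IsScalarTower O ↥T Rt] [Algebra O R] [IsScalarTower O ↥S R]
  [Algebra Rt R] (hcomp : ∀ t : T, algebraMap Rt R (algebraMap ↥T Rt t) = algebraMap ↥S R (f t))
  [IsLocalRing Rt] [IsLocalRing R] [IsNoetherianRing Rt]

include hf hc hcomp in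
/-- **One side of (R4b)**: the fibre basis of `S_𝔫` over `T_{centre h}` and everything
`FibreNorm.map_norm_sub_map_norm_mem` needs about it, from chart-level facts. -/
theorem side {n : ℕ} (hn : 1 ≤ n) {p ϖ : O} (hpϖ : p ∈ Ideal.span {ϖ}) (hϖ0 : ϖ ≠ 0)
    (hfin : (f : ↥T →+* ↥S).Finite)
    (hone : ∀ 𝔮 : Ideal ↥S, 𝔮.IsPrime → 𝔮.comap (f : ↥T →+* ↥S) = centre h → 𝔮 = 𝔫)
    (hres : ∀ s : S, ∃ t : T, s - f t ∈ 𝔫)
    {u v G : S} (hu : u ∈ 𝔫) (hv : v ∈ 𝔫) (hG : G ∉ 𝔫) (huv : u * v = G * algebraMap O ↥S p)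
    (hϖ𝔫 : algebraMap O ↥S ϖ ∈ 𝔫)
    (hgen : ∃ c, c ∉ 𝔫 ∧ ∀ r ∈ 𝔫, ∃ a b d, c * r = a * u + b * v + d * algebraMap O ↥S ϖ)
    {z : T} (hz𝔪 : z ∈ centre h)
    (hgen2 : ∃ c, c ∉ centre h ∧ ∀ r ∈ centre h, ∃ a d, c * r = a * z + d * algebraMap O ↥T ϖ)
    (hz : ∃ s A E : S, s ∉ 𝔫 ∧ A ∉ 𝔫 ∧ E ∉ 𝔫 ∧ s * f z = u * A + v ^ n * E)
    (hdeg : letI := algebraAlong φ; Module.finrank F' F = n + 1)
    (hev : ev h z ∈ Ideal.span {p}) :
    ∃ b : Module.Basis (Fin (n + 1)) Rt R, (∀ i, b i = algebraMap ↥S R v ^ (i : ℕ)) ∧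
      (∀ i, evAt h Rt (b.repr (algebraMap ↥S R v ^ (n + 1)) i) ∈ Ideal.span {p}) ∧
      (∀ r : Rt, algebraMap Rt R r - algebraMap O R (evAt h Rt r) ∈
        Ideal.span {algebraMap ↥S R u, algebraMap ↥S R v}) ∧
      (∀ c : O, algebraMap O R c ∈ Ideal.span {algebraMap ↥S R u, algebraMap ↥S R v} →
        c ∈ Ideal.span {p}) ∧
      (∀ W : R, toF h Rt (Algebra.norm Rt W) = normAlong φ (toFrac 𝔫 R W)) := by
  -- the instance package
  haveI hOtower : IsScalarTower O Rt R := IsScalarTower.of_algebraMap_eq fun a => by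
    rw [IsScalarTower.algebraMap_apply O ↥T Rt, hcomp, AlgHom.commutes,
      ← IsScalarTower.algebraMap_apply O ↥S R]
  letI aRtF' : Algebra Rt F' := NodeLocalAt.fracAlgebra (centre h) Rt F'
  haveI : IsScalarTower ↥T Rt F' := NodeLocalAt.fracAlgebra_isScalarTower (centre h) Rt F'
  haveI : IsFractionRing Rt F' := NodeLocalAt.fracAlgebra_isFractionRing (centre h) Rt F'
  letI aRF : Algebra R F := NodeLocalAt.fracAlgebra 𝔫 R F
  haveI : IsScalarTower ↥S R F := NodeLocalAt.fracAlgebra_isScalarTower 𝔫 R F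
  haveI : IsFractionRing R F := NodeLocalAt.fracAlgebra_isFractionRing 𝔫 R F
  letI aF'F : Algebra F' F := algebraAlong φ
  letI aRtF : Algebra Rt F := ((algebraMap F' F).comp (algebraMap Rt F')).toAlgebra
  haveI : IsScalarTower Rt F' F := IsScalarTower.of_algebraMap_eq' rfl
  have hφ : ∀ a : T, algebraMap F' F (algebraMap ↥T F' a) = algebraMap ↥S F ((f : ↥T →+* ↥S) a) :=
    fun a => (hf a).symm
  haveI : IsScalarTower Rt R F :=
    NodeLocalAt.isScalarTower_top (f : ↥T →+* ↥S) (centre h) hcomp hφ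
  haveI : Module.Finite Rt R :=
    NodeLocalAt.finite_of_forall_prime_eq (f : ↥T →+* ↥S) (centre h) 𝔫 hc.symm hcomp hfin hone
  -- images in the local rings
  set u' : R := algebraMap ↥S R u with hu'
  set v' : R := algebraMap ↥S R v with hv'
  set z' : Rt := algebraMap ↥T Rt z with hz'
  have hϖT : (f : ↥T →+* ↥S) (algebraMap O ↥T ϖ) = algebraMap O ↥S ϖ := f.commutes ϖ
  have hϖ𝔪 : algebraMap O ↥T ϖ ∈ centre h := by
    rw [hc, Ideal.mem_comap, hϖT]; exact hϖ𝔫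
  -- `hm`
  have hm : maximalIdeal R = Ideal.span {u', v', algebraMap O R ϖ} := by
    rw [← IsLocalization.AtPrime.map_eq_maximalIdeal 𝔫 R, IsScalarTower.algebraMap_apply O ↥S R]
    exact NodeGen.map_eq_span 𝔫 (algebraMap O ↥S ϖ) u v R hu hv hϖ𝔫 hgen
  -- `hmt`
  have hmt : maximalIdeal Rt = Ideal.span {z', algebraMap O Rt ϖ} := by
    rw [IsScalarTower.algebraMap_apply O ↥T Rt]
    exact KerEval.maximalIdeal_eq_span_pair (centre h) Rt hz𝔪 hϖ𝔪 hgen2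
  -- `hres`
  have hres' : ∀ r : R, ∃ c : Rt, r - algebraMap Rt R c ∈ maximalIdeal R :=
    NodeLocalAt.exists_sub_mem_maximalIdeal (f : ↥T →+* ↥S) (centre h) 𝔫 hc.symm hcomp hres
  -- `hz`
  obtain ⟨s, A, E, hs, hA, hE, hsz⟩ := hz
  obtain ⟨A₁, E₁, hA₁, hE₁, hz₁⟩ :=
    NodeLocalAt.exists_isUnit_decomp (Rt := Rt) (R := R) (f : ↥T →+* ↥S) 𝔫 hcomp hs hA hE hsz
  -- `huv`
  have hG' : IsUnit (algebraMap ↥S R G) := NodeLocalAt.isUnit_algebraMap 𝔫 hG
  have huv' : u' * v' = algebraMap ↥S R G * algebraMap O R p := by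
    rw [hu', hv', ← map_mul, huv, map_mul, ← IsScalarTower.algebraMap_apply O ↥S R]
  have hdeg' : Module.finrank F' F = n + 1 := hdeg
  -- the basis
  have hspan := NodeD.span_pow_eq_top (O := O) (Rt := Rt) (R := R) hpϖ hm hmt hres' hz₁ hA₁ hE₁ hn
    huv'
  set b := NodeAlg.basisPow (Ft := F') (F := F) hdeg' hspan with hb_def
  have hb : ∀ i : Fin (n + 1), b i = v' ^ (i : ℕ) := NodeAlg.basisPow_apply hdeg' hspan
  -- the evaluation
  have hevz : evAt h Rt z' ∈ Ideal.span {p} := by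
    rw [hz', evAt_algebraMap]; exact hev
  have hevzϖ : evAt h Rt z' ∈ Ideal.span {ϖ} :=
    (Ideal.span_singleton_le_iff_mem _ |>.2 hpϖ) hevz
  have hker : ∀ r : Rt, evAt h Rt r = 0 →
      ∃ q : Rt, r = q * (z' - algebraMap O Rt (evAt h Rt z')) :=
    EvalLocAt.exists_eq_mul_sub h Rt hϖ0 hmt hevzϖ
  have hvb : ∀ i, evAt h Rt (b.repr (v' ^ (n + 1)) i) ∈ Ideal.span {p} :=
    NodeD.ev_repr_pow_succ_mem (evAt h Rt) hdeg' hspan hz₁ hE₁ huv' hevz
  have hevr : ∀ r : Rt, algebraMap Rt R r - algebraMap O R (evAt h Rt r) ∈ Ideal.span {u', v'} :=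
    NodeD.algebraMap_sub_const_mem (evAt h Rt) hz₁ hn huv' hG' hevz hker
  have hcap : ∀ c : O, algebraMap O R c ∈ Ideal.span {u', v'} → c ∈ Ideal.span {p} :=
    NodeD.mem_span_of_algebraMap_mem (evAt h Rt) b hb hz₁ hA₁ hn hevz hvb
  refine ⟨b, hb, hvb, hevr, hcap, fun W => ?_⟩
  rw [EvalLocAt.toF_eq_algebraMap h Rt,
    NodeLocalAt.algebraMap_norm_of_basis (Ft := F') (F := F) b W]
  rfl

end Side

/-! ### The two sides together -/

section Main

variable {O K F' F : Type*} [CommRing O] [IsDomain O] [IsDiscreteValuationRing O]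
  [Field K] [Algebra O K] [IsFractionRing O K]
  [Field F'] [Algebra K F'] [Algebra O F'] [IsScalarTower O K F']
  [Field F] [Algebra K F] [Algebra O F] [IsScalarTower O K F]
  {T : Subalgebra O F'} {S : Subalgebra O F} [IsFractionRing ↥T F'] [IsFractionRing ↥S F]
  [IsNoetherianRing ↥T]
  (φα φβ : F' →ₐ[K] F) (fα fβ : ↥T →ₐ[O] ↥S)
  (hfα : ∀ t : T, ((fα t : S) : F) = φα (t : F')) (hfβ : ∀ t : T, ((fβ t : S) : F) = φβ (t : F'))
  (𝔫 : Ideal ↥S) [𝔫.IsPrime]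

set_option maxHeartbeats 800000 in
include hfα hfβ in
/-- **(R4b) for abstract charts**: at a node `𝔫` of the chart `S` (level `N ℓ`) lying over the points
`𝔫.comap fα`, `𝔫.comap fβ` of the smooth chart `T` (level `N`), the two fibre norms of a unit at `𝔫`
are units at the test places `Qα`, `Qβ` and their values agree modulo `p`. -/
theorem r4b_chart {n : ℕ} (hn : 1 ≤ n) {p ϖ : O} (hpϖ : p ∈ Ideal.span {ϖ}) (hϖ0 : ϖ ≠ 0)
    -- (D1)
    (hfinα : (fα : ↥T →+* ↥S).Finite) (hfinβ : (fβ : ↥T →+* ↥S).Finite)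
    (honeα : ∀ 𝔮 : Ideal ↥S, 𝔮.IsPrime →
      𝔮.comap (fα : ↥T →+* ↥S) = 𝔫.comap (fα : ↥T →+* ↥S) → 𝔮 = 𝔫)
    (honeβ : ∀ 𝔮 : Ideal ↥S, 𝔮.IsPrime →
      𝔮.comap (fβ : ↥T →+* ↥S) = 𝔫.comap (fβ : ↥T →+* ↥S) → 𝔮 = 𝔫)
    -- (D4)
    (hresα : ∀ s : S, ∃ t : T, s - fα t ∈ 𝔫) (hresβ : ∀ s : S, ∃ t : T, s - fβ t ∈ 𝔫)
    -- (D6), (D3)
    {u v G : S} (hu : u ∈ 𝔫) (hv : v ∈ 𝔫) (hG : G ∉ 𝔫) (huv : u * v = G * algebraMap O ↥S p)
    (hϖ𝔫 : algebraMap O ↥S ϖ ∈ 𝔫)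
    (hgen : ∃ c, c ∉ 𝔫 ∧ ∀ r ∈ 𝔫, ∃ a b d, c * r = a * u + b * v + d * algebraMap O ↥S ϖ)
    -- (D2)
    {zα zβ : T} (hzα𝔪 : zα ∈ 𝔫.comap (fα : ↥T →+* ↥S))
    (hgenα : ∃ c, c ∉ 𝔫.comap (fα : ↥T →+* ↥S) ∧ ∀ r ∈ 𝔫.comap (fα : ↥T →+* ↥S),
      ∃ a d, c * r = a * zα + d * algebraMap O ↥T ϖ)
    (hzβ𝔪 : zβ ∈ 𝔫.comap (fβ : ↥T →+* ↥S))
    (hgenβ : ∃ c, c ∉ 𝔫.comap (fβ : ↥T →+* ↥S) ∧ ∀ r ∈ 𝔫.comap (fβ : ↥T →+* ↥S),
      ∃ a d, c * r = a * zβ + d * algebraMap O ↥T ϖ)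
    -- (D5)
    (hzα : ∃ s A E : S, s ∉ 𝔫 ∧ A ∉ 𝔫 ∧ E ∉ 𝔫 ∧ s * fα zα = u * A + v ^ n * E)
    (hzβ : ∃ s A E : S, s ∉ 𝔫 ∧ A ∉ 𝔫 ∧ E ∉ 𝔫 ∧ s * fβ zβ = v * A + u ^ n * E)
    -- (D8)
    (hdegα : letI := algebraAlong φα; Module.finrank F' F = n + 1)
    (hdegβ : letI := algebraAlong φβ; Module.finrank F' F = n + 1)
    -- (D7)
    {Qα Qβ : Place K F'} {hQα : Function.Bijective (algebraMap K Qα.ResidueField)}
    {hQβ : Function.Bijective (algebraMap K Qβ.ResidueField)}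
    (hα : IsSection T Qα hQα) (hβ : IsSection T Qβ hQβ)
    (hcα : centre hα = 𝔫.comap (fα : ↥T →+* ↥S)) (hcβ : centre hβ = 𝔫.comap (fβ : ↥T →+* ↥S))
    (hevα : ev hα zα ∈ Ideal.span {p}) (hevβ : ev hβ zβ ∈ Ideal.span {p})
    (W : F) (hW : ∃ a r : S, a ∉ 𝔫 ∧ r ∉ 𝔫 ∧ W * (a : F) = (r : F)) :
    Qα.toValuationSubring.valuation (normAlong φα W) = 1 ∧
      Qβ.toValuationSubring.valuation (normAlong φβ W) = 1 ∧
      ∃ a b d : O, IsUnit a ∧ IsUnit b ∧ valT Qα hQα (normAlong φα W) = algebraMap O K a ∧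
        valT Qβ hQβ (normAlong φβ W) = algebraMap O K b ∧ a = b + p * d := by
  -- the three local rings
  letI aα : Algebra (Localization.AtPrime (centre hα)) (Localization.AtPrime 𝔫) :=
    (Localization.localRingHom (centre hα) 𝔫 (fα : ↥T →+* ↥S) hcα).toAlgebra
  letI aβ : Algebra (Localization.AtPrime (centre hβ)) (Localization.AtPrime 𝔫) :=
    (Localization.localRingHom (centre hβ) 𝔫 (fβ : ↥T →+* ↥S) hcβ).toAlgebra
  have hcompα : ∀ t : T, algebraMap (Localization.AtPrime (centre hα)) (Localization.AtPrime 𝔫)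
      (algebraMap ↥T (Localization.AtPrime (centre hα)) t) =
      algebraMap ↥S (Localization.AtPrime 𝔫) (fα t) := fun t =>
    Localization.localRingHom_to_map _ _ _ _ _
  have hcompβ : ∀ t : T, algebraMap (Localization.AtPrime (centre hβ)) (Localization.AtPrime 𝔫)
      (algebraMap ↥T (Localization.AtPrime (centre hβ)) t) =
      algebraMap ↥S (Localization.AtPrime 𝔫) (fβ t) := fun t =>
    Localization.localRingHom_to_map _ _ _ _ _
  haveI : IsNoetherianRing (Localization.AtPrime (centre hα)) :=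
    IsLocalization.isNoetherianRing (centre hα).primeCompl _ inferInstance
  haveI : IsNoetherianRing (Localization.AtPrime (centre hβ)) :=
    IsLocalization.isNoetherianRing (centre hβ).primeCompl _ inferInstance
  -- side α
  obtain ⟨bα, hbα, hvα, hevα', hcap, hNα⟩ := side φα fα hfα 𝔫 hα hcα
    (Localization.AtPrime (centre hα)) (Localization.AtPrime 𝔫) hcompα hn hpϖ hϖ0 hfinα
    (fun 𝔮 h𝔮 h => honeα 𝔮 h𝔮 (h.trans hcα)) hresα hu hv hG huv hϖ𝔫 hgen (hcα ▸ hzα𝔪)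
    (hcα ▸ hgenα) hzα hdegα hevα
  -- side β (`u` and `v` exchanged)
  have hvu : v * u = G * algebraMap O ↥S p := by rw [mul_comm]; exact huv
  have hgen' : ∃ c, c ∉ 𝔫 ∧ ∀ r ∈ 𝔫, ∃ a b d, c * r = a * v + b * u + d * algebraMap O ↥S ϖ := by
    obtain ⟨c, hc, hg⟩ := hgen
    refine ⟨c, hc, fun r hr => ?_⟩
    obtain ⟨a, b, d, e⟩ := hg r hr
    exact ⟨b, a, d, by rw [e]; ring⟩
  obtain ⟨bβ, hbβ, hvβ, hevβ', -, hNβ⟩ := side φβ fβ hfβ 𝔫 hβ hcβ
    (Localization.AtPrime (centre hβ)) (Localization.AtPrime 𝔫) hcompβ hn hpϖ hϖ0 hfinβ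
    (fun 𝔮 h𝔮 h => honeβ 𝔮 h𝔮 (h.trans hcβ)) hresβ hv hu hG hvu hϖ𝔫 hgen' (hcβ ▸ hzβ𝔪)
    (hcβ ▸ hgenβ) hzβ hdegβ hevβ
  have hevβ'' : ∀ r : Localization.AtPrime (centre hβ),
      algebraMap (Localization.AtPrime (centre hβ)) (Localization.AtPrime 𝔫) r -
        algebraMap O (Localization.AtPrime 𝔫) (evAt hβ (Localization.AtPrime (centre hβ)) r) ∈
      Ideal.span {algebraMap ↥S (Localization.AtPrime 𝔫) u,
        algebraMap ↥S (Localization.AtPrime 𝔫) v} := by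
    intro r
    have := hevβ' r
    rwa [Set.pair_comm] at this
  -- `W` as a unit of the local ring at the node
  letI aRF : Algebra (Localization.AtPrime 𝔫) F :=
    NodeLocalAt.fracAlgebra 𝔫 (Localization.AtPrime 𝔫) F
  haveI : IsScalarTower ↥S (Localization.AtPrime 𝔫) F :=
    NodeLocalAt.fracAlgebra_isScalarTower 𝔫 (Localization.AtPrime 𝔫) F
  obtain ⟨w, hw⟩ := (NodeLocalAt.isUnitAt_iff (R := Localization.AtPrime 𝔫) 𝔫 (L := F)).1 hW
  have hwW : toFrac 𝔫 (Localization.AtPrime 𝔫) (w : Localization.AtPrime 𝔫) = W := hw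
  -- the comparison
  have key := FibreNorm.map_norm_sub_map_norm_mem bα bβ
    (algebraMap ↥S (Localization.AtPrime 𝔫) u) (algebraMap ↥S (Localization.AtPrime 𝔫) v) hbα hbβ
    (evAt hα (Localization.AtPrime (centre hα)) : Localization.AtPrime (centre hα) →+* O)
    (evAt hβ (Localization.AtPrime (centre hβ)) : Localization.AtPrime (centre hβ) →+* O)
    (algebraMap O (Localization.AtPrime 𝔫)) p hevα' hevβ'' hvα hvβ hcap
    (w : Localization.AtPrime 𝔫)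
  have huα : IsUnit (Algebra.norm (Localization.AtPrime (centre hα))
      (w : Localization.AtPrime 𝔫)) := w.isUnit.map _
  have huβ : IsUnit (Algebra.norm (Localization.AtPrime (centre hβ))
      (w : Localization.AtPrime 𝔫)) := w.isUnit.map _
  have eα := hNα (w : Localization.AtPrime 𝔫)
  have eβ := hNβ (w : Localization.AtPrime 𝔫)
  rw [hwW] at eα eβ
  refine ⟨?_, ?_, evAt hα _ (Algebra.norm (Localization.AtPrime (centre hα))
      (w : Localization.AtPrime 𝔫)), evAt hβ _ (Algebra.norm (Localization.AtPrime (centre hβ))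
      (w : Localization.AtPrime 𝔫)), ?_⟩
  · rw [← eα]; exact valuation_toF_eq_one hα _ huα
  · rw [← eβ]; exact valuation_toF_eq_one hβ _ huβ
  · obtain ⟨d, hd⟩ := Ideal.mem_span_singleton'.1 key
    refine ⟨d, huα.map (evAt hα _), huβ.map (evAt hβ _), ?_, ?_, ?_⟩
    · rw [← eα, algebraMap_evAt]
    · rw [← eβ, algebraMap_evAt]
    · have : ∀ x y : O, x - y = d * p → x = y + p * d := fun x y e => by
        rw [mul_comm p d, ← e]; ring
      exact this _ _ hd.symm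

end Main

end Fermat.Agent.S40.M1.NodeDChartB
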