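import Mathlib
import Fermat.Agent.P3G.Crossing
import Fermat.Agent.P4.BranchNormalLevel
import Fermat.Agent.N4F.E.BetaSide

set_option autoImplicit false
set_option linter.unusedSectionVars false
set_option linter.style.haveILetI false

open ModularCurve Fermat.Agent.S28.Gauss Fermat.Agent.N4.Setting Fermat.Agent.N4.FibreEmbedding
open Fermat.Agent.N4.Chart
open Fermat.Agent.N4F.E.DegreeLevelRaise Fermat.Agent.N4F.E.GaussDVR AlgebraicCurve Polynomial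
open Fermat.Agent.N4F.E IsLocalRing Fermat.Agent.P3G.RbarFin Fermat.Agent.P3G.TwoComponents
open Fermat.Agent.P3G.TwoComponentsFinal Fermat.Agent.P3G Fermat.Agent.P4
open Fermat.Agent.P4.TwistRoots

noncomputable section

namespace Fermat.Agent.S40.M1.NodeFinite

open Fermat.Agent.P3G.Crossing

/-! ### Abstract: a crossing point is the only point over its image under `α` (resp. `β`) -/

section Abstract

variable {RM R Rb : Type*} [CommRing RM] [CommRing R] [CommRing Rb]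
  {ℓ : ℕ} {α β : RM →+* R} {θ : RM →+* Rb} {θ₁ θ₂ : R →+* Rb} {ψ : Rb ≃+* Rb}

/-- On the first component, a prime through `ker θ₁` is determined by its contraction along `α`. -/
theorem map_theta₁_eq_of_comap_alpha_eq (D : CrossingData ℓ α β θ θ₁ θ₂ ψ)
    (𝔫 𝔫' : Ideal R) (hk : RingHom.ker θ₁ ≤ 𝔫) (hk' : RingHom.ker θ₁ ≤ 𝔫')
    (h : 𝔫'.comap α = 𝔫.comap α) : 𝔫'.map θ₁ = 𝔫.map θ₁ := by
  ext y
  obtain ⟨x, rfl⟩ := D.surj y
  rw [← D.h1 x, map_mem_map_iff θ₁ D.surj₁ 𝔫' hk', map_mem_map_iff θ₁ D.surj₁ 𝔫 hk,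
    ← Ideal.mem_comap, ← Ideal.mem_comap, h]

/-- On the second component, a prime through `ker θ₂` is determined by its contraction along
`α` (which is the Frobenius twist of the reduction there). -/
theorem map_theta₂_eq_of_comap_alpha_eq (D : CrossingData ℓ α β θ θ₁ θ₂ ψ)
    (𝔫 𝔫' : Ideal R) [h𝔫 : 𝔫.IsPrime] [h𝔫' : 𝔫'.IsPrime]
    (hk : RingHom.ker θ₂ ≤ 𝔫) (hk' : RingHom.ker θ₂ ≤ 𝔫')
    (h : 𝔫'.comap α = 𝔫.comap α) : 𝔫'.map θ₂ = 𝔫.map θ₂ := by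
  have hℓ : ℓ ≠ 0 := D.ell_ne_zero
  have key : ∀ (𝔪 : Ideal R) [𝔪.IsPrime], RingHom.ker θ₂ ≤ 𝔪 → ∀ x : RM,
      ψ (θ x) ∈ 𝔪.map θ₂ ↔ x ∈ 𝔪.comap α := by
    intro 𝔪 h𝔪 hk𝔪 x
    haveI : (𝔪.map θ₂).IsPrime := Ideal.map_isPrime_of_surjective D.surj₂ hk𝔪
    rw [Ideal.mem_comap, ← map_mem_map_iff θ₂ D.surj₂ 𝔪 hk𝔪, D.h4 x]
    exact ⟨fun hx => Ideal.pow_mem_of_mem _ hx _ (Nat.pos_of_ne_zero hℓ),
      fun hx => Ideal.IsPrime.mem_of_pow_mem inferInstance _ hx⟩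
  ext y
  obtain ⟨z, rfl⟩ := ψ.surjective y
  obtain ⟨x, rfl⟩ := D.surj z
  rw [key 𝔫' hk' x, key 𝔫 hk x, h]

/-- **A crossing point is the only prime of the special fibre with its contraction along `α`.** -/
theorem eq_of_comap_alpha_eq (D : CrossingData ℓ α β θ θ₁ θ₂ ψ)
    (𝔫 𝔫' : Ideal R) [h𝔫 : 𝔫.IsPrime] [h𝔫' : 𝔫'.IsPrime]
    (hk1 : RingHom.ker θ₁ ≤ 𝔫) (hk2 : RingHom.ker θ₂ ≤ 𝔫)
    (hk' : RingHom.ker θ₁ ≤ 𝔫' ∨ RingHom.ker θ₂ ≤ 𝔫')
    (h : 𝔫'.comap α = 𝔫.comap α) : 𝔫' = 𝔫 := by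
  rcases hk' with hk' | hk'
  · have := map_theta₁_eq_of_comap_alpha_eq D 𝔫 𝔫' hk1 hk' h
    ext r
    rw [← map_mem_map_iff θ₁ D.surj₁ 𝔫' hk', ← map_mem_map_iff θ₁ D.surj₁ 𝔫 hk1, this]
  · have := map_theta₂_eq_of_comap_alpha_eq D 𝔫 𝔫' hk2 hk' h
    ext r
    rw [← map_mem_map_iff θ₂ D.surj₂ 𝔫' hk', ← map_mem_map_iff θ₂ D.surj₂ 𝔫 hk2, this]

/-- The symmetric crossing data. -/
theorem crossingData_symm (D : CrossingData ℓ α β θ θ₁ θ₂ ψ) :
    CrossingData ℓ β α θ θ₂ θ₁ ψ :=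
  ⟨D.two_le, D.surj, D.h2, D.h1, D.h4, D.h3⟩

/-- **A crossing point is the only prime of the special fibre with its contraction along `β`.** -/
theorem eq_of_comap_beta_eq (D : CrossingData ℓ α β θ θ₁ θ₂ ψ)
    (𝔫 𝔫' : Ideal R) [h𝔫 : 𝔫.IsPrime] [h𝔫' : 𝔫'.IsPrime]
    (hk1 : RingHom.ker θ₁ ≤ 𝔫) (hk2 : RingHom.ker θ₂ ≤ 𝔫)
    (hk' : RingHom.ker θ₁ ≤ 𝔫' ∨ RingHom.ker θ₂ ≤ 𝔫')
    (h : 𝔫'.comap β = 𝔫.comap β) : 𝔫' = 𝔫 :=
  eq_of_comap_alpha_eq (crossingData_symm D) 𝔫 𝔫' hk2 hk1 hk'.symm h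

end Abstract

/-! ### Abstract: finiteness of the integral closure, in `RingHom` clothes -/

section Finiteness

variable {A F F' C : Type*} [CommRing A] [IsDomain A] [IsIntegrallyClosed A] [IsNoetherianRing A]
  [Field F] [Algebra A F] [IsFractionRing A F] [Field F'] [CommRing C] [Algebra C F']

/-- `A` a noetherian integrally closed domain with fraction field `F`, `φ : F → F'` a finite
separable field extension, `C ⊆ F'` the ring of elements integral over `φ(A)`, `f : A → C` the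
restriction of `φ`: then `f` is a finite ring homomorphism. -/
theorem finite_of_isIntegralElem_iff (φ : F →+* F')
    (hfin : letI := φ.toAlgebra; FiniteDimensional F F')
    (hsep : letI := φ.toAlgebra; Algebra.IsSeparable F F')
    (f : A →+* C) (hf : ∀ a, algebraMap C F' (f a) = φ (algebraMap A F a))
    (hinj : Function.Injective (algebraMap C F'))
    (hC : ∀ x : F', (φ.comp (algebraMap A F)).IsIntegralElem x ↔ ∃ c : C, algebraMap C F' c = x) :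
    f.Finite := by
  letI : Algebra F F' := φ.toAlgebra
  letI : Algebra A F' := (φ.comp (algebraMap A F)).toAlgebra
  letI : Algebra A C := f.toAlgebra
  haveI : IsScalarTower A F F' := IsScalarTower.of_algebraMap_eq fun _ => rfl
  haveI : IsScalarTower A C F' := IsScalarTower.of_algebraMap_eq fun a => (hf a).symm
  haveI : IsIntegralClosure C A F' := ⟨hinj, fun {x} => hC x⟩
  haveI : FiniteDimensional F F' := hfin
  haveI : Algebra.IsSeparable F F' := hsep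
  have h : Module.Finite A C := IsIntegralClosure.finite A F F' C
  exact RingHom.finite_algebraMap.mpr h

end Finiteness

/-! ### Level `(K, O)`: the finite chart of level `N ℓ` is module-finite over that of level `N` -/

section LevelFinite

variable (K : Type) [Field K] [CharZero K] (N : ℕ) [NeZero N] (ℓ : ℕ) [Fact ℓ.Prime]
  (O : Subring K) [IsDiscreteValuationRing ↥O] [IsFractionRing ↥O K]

/-- Generic form: `γ = α` or `β`, `γR` its restriction to the finite charts. -/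
theorem finite_of_chartHom (γ : FF K N →ₐ[K] FF K (N * ℓ))
    (hfin : FiniteAlong K γ)
    (γR : ↥(Rfin K N O) →+* ↥(Rfin K (N * ℓ) O))
    (hγR : ∀ x : ↥(Rfin K N O), ((γR x : ↥(Rfin K (N * ℓ) O)) : FF K (N * ℓ)) = γ (x : FF K N))
    (hint : ∀ x ∈ Rfin K (N * ℓ) O, IsIntegral (Algebra.adjoin ↥O {γ (jF K N)}) x) :
    γR.Finite := by
  haveI := Fermat.Agent.N4.ModPolySetting.finiteDimensional_FF K N
  have hj := Fermat.Agent.N4.FFAlgebraic.transcendental_jF K N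
  haveI : IsNoetherianRing ↥(Rfin K N O) :=
    Fermat.Agent.N4.IntClosure.isNoetherianRing_chartAlg (K := K) (jF K N) hj
  haveI : IsFractionRing ↥(Rfin K N O) (FF K N) :=
    Fermat.Agent.N4.Cover.Main.isFractionRing_chartAlg (O := ↥O) (K₀ := K) (jF K N) hj
  haveI : IsIntegrallyClosed ↥(Rfin K N O) :=
    Fermat.Agent.N4.Cover.Main.isIntegrallyClosed_chartAlg (O := ↥O) (K₀ := K) (jF K N) hj
  haveI : CharZero (FF K N) := AlphaSide.charZero_FF K N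
  refine finite_of_isIntegralElem_iff (A := ↥(Rfin K N O)) (F := FF K N) (F' := FF K (N * ℓ))
    (C := ↥(Rfin K (N * ℓ) O)) γ.toRingHom hfin ?_ γR hγR Subtype.val_injective ?_
  · letI : Algebra (FF K N) (FF K (N * ℓ)) := γ.toRingHom.toAlgebra
    haveI : FiniteDimensional (FF K N) (FF K (N * ℓ)) := hfin
    infer_instance
  · intro x
    constructor
    · rintro ⟨p, hp, hpx⟩
      have hx : IsIntegral ↥(Rfin K (N * ℓ) O) x := by
        refine ⟨p.map γR, hp.map _, ?_⟩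
        rw [Polynomial.eval₂_map]
        have hcomp : (algebraMap ↥(Rfin K (N * ℓ) O) (FF K (N * ℓ))).comp γR =
            γ.toRingHom.comp (algebraMap ↥(Rfin K N O) (FF K N)) :=
          RingHom.ext fun a => hγR a
        rw [hcomp]
        exact hpx
      exact ⟨⟨x, isIntegral_chartAlg_iff.mp hx⟩, rfl⟩
    · rintro ⟨c, rfl⟩
      have hc := hint _ c.2
      letI : Algebra ↥(Rfin K N O) (FF K (N * ℓ)) :=
        (γ.toRingHom.comp (algebraMap ↥(Rfin K N O) (FF K N))).toAlgebra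
      have hmap : (Algebra.adjoin ↥O {jF K N}).map (γ.restrictScalars ↥O) =
          Algebra.adjoin ↥O {γ (jF K N)} := by
        rw [AlgHom.map_adjoin, Set.image_singleton]
        rfl
      have key : IsIntegral ↥(Rfin K N O)
          (algebraMap ↥(Rfin K (N * ℓ) O) (FF K (N * ℓ)) c) := by
        refine Fermat.Agent.N4.Cover.Main.isIntegral_of_forall_exists
          (A := ↥(Algebra.adjoin ↥O {γ (jF K N)})) (B := ↥(Rfin K N O)) (L := FF K (N * ℓ))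
          ?_ ?_ hc
        · intro a b hab
          exact Subtype.ext (γ.injective hab)
        · rintro ⟨a, ha⟩
          rw [← hmap] at ha
          obtain ⟨b, hb, rfl⟩ := ha
          exact ⟨⟨b, adjoin_le_chartAlg _ hb⟩, rfl⟩
      exact key

variable (ι : K →+* ℂ) (hℓN : ¬ ℓ ∣ N)

include ι hℓN in
/-- **`Rfin K (N ℓ) O` is module-finite over `Rfin K N O` along `α`.** -/
theorem alphaR_finite : (LevelIntegrality.alphaR K N ℓ O).toRingHom.Finite := by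
  refine finite_of_chartHom K N ℓ O (alphaF K N ℓ) (AlphaSide.finiteAlong_alpha K N ℓ ι hℓN)
    _ (fun _ => rfl) fun x hx => ?_
  rw [alphaF_jF]
  exact hx

include ι hℓN in
/-- **`Rfin K (N ℓ) O` is module-finite over `Rfin K N O` along `β`.** -/
theorem betaR_finite : (LevelIntegrality.betaR K N ℓ O).toRingHom.Finite := by
  refine finite_of_chartHom K N ℓ O (betaF K N ℓ) (BetaSide.finiteDimensional_beta K N ℓ ι hℓN)
    _ (fun _ => rfl) fun x hx => ?_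
  rw [mem_chartAlg_iff, ← alphaF_jF K N ℓ] at hx
  exact Integrality.isIntegral_adjoin_trans (Integrality.isIntegral_alphaF_jF K N ℓ O) hx

end LevelFinite

/-! ### Level `(K, O)`: a crossing point is the only prime over its image along `α` (resp. `β`) -/

section LevelUnique

variable (K : Type) [Field K] [CharZero K] (N : ℕ) [NeZero N] (ℓ : ℕ) [Fact ℓ.Prime]
  (O : Subring K) [IsDiscreteValuationRing ↥O] [IsFractionRing ↥O K]
  [CharP (IsLocalRing.ResidueField ↥O) ℓ] [PerfectRing (IsLocalRing.ResidueField ↥O) ℓ]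

set_option synthInstance.maxHeartbeats 400000

variable (hN : IsUnit ((N : ℕ) : ↥O)) (ι : K →+* ℂ) (hℓN : ¬ ℓ ∣ N)
  (hprime : (fibreIdeal K N O (Rfin K N O)).IsPrime)
  (hsmooth : IsDedekindDomain (↥(Rfin K N O) ⧸ fibreIdeal K N O (Rfin K N O)))
  (hA2 : ∀ x : ↥(gaussSubalgebra K N O),
    theta K N O x ∈ modularFunctionFieldFullC (IsLocalRing.ResidueField ↥O) N)
  (S₂ : FibreTwo.SecondVal K N ℓ O)
  {ϖ : ↥O} (hϖ : Irreducible ϖ)

include hN ι hℓN hprime hsmooth hA2 in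
/-- `ker θ₁ ≤ 𝔫` iff the Gauss valuation ring passes through `𝔫`. -/
theorem ker_res_thetaFin_le_iff (𝔫 : Ideal ↥(Rfin K (N * ℓ) O)) :
    RingHom.ker (CrossingLaurent.res (RbarFin K N O) (thetaFin K (N * ℓ) O)
        (thetaFin_mem_rbar K N ℓ O hN ι hℓN hprime hsmooth hA2 S₂)) ≤ 𝔫 ↔
      Through (gaussVS K (N * ℓ) O) 𝔫 := by
  constructor
  · intro h r hr
    exact h (RingHom.mem_ker.mpr
      ((BranchNormalLevel.res_thetaFin_eq_zero_iff K N ℓ O hN ι hℓN hprime hsmooth hA2 S₂ r).mpr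
        hr))
  · intro h r hr
    exact h r
      ((BranchNormalLevel.res_thetaFin_eq_zero_iff K N ℓ O hN ι hℓN hprime hsmooth hA2 S₂ r).mp
        (RingHom.mem_ker.mp hr))

include hN hprime hsmooth hA2 in
/-- `ker θ₂ ≤ 𝔫` iff the second valuation ring passes through `𝔫`. -/
theorem ker_res_theta2S_le_iff (𝔫 : Ideal ↥(Rfin K (N * ℓ) O)) :
    RingHom.ker (CrossingLaurent.res (RbarFin K N O) (theta2S K N ℓ O S₂)
        (theta2S_mem_rbar K N ℓ O hN hprime hsmooth hA2 S₂)) ≤ 𝔫 ↔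
      Through S₂.V 𝔫 := by
  constructor
  · intro h r hr
    exact h (RingHom.mem_ker.mpr
      ((BranchNormalLevel.res_theta2S_eq_zero_iff K N ℓ O hN hprime hsmooth hA2 S₂ r).mpr hr))
  · intro h r hr
    exact h r
      ((BranchNormalLevel.res_theta2S_eq_zero_iff K N ℓ O hN hprime hsmooth hA2 S₂ r).mp
        (RingHom.mem_ker.mp hr))

include hN ι hℓN hprime hsmooth hA2 hϖ in
/-- A prime of the special fibre of the finite chart lies on one of the two components. -/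
theorem through_or_through_fin (𝔫 : Ideal ↥(Rfin K (N * ℓ) O)) [h𝔫 : 𝔫.IsPrime]
    (hϖ𝔫 : algebraMap ↥O ↥(Rfin K (N * ℓ) O) ϖ ∈ 𝔫) :
    Through (gaussVS K (N * ℓ) O) 𝔫 ∨ Through S₂.V 𝔫 := by
  have hS := BranchNormalLevel.setup_fin K N ℓ O hN ι hℓN hprime hsmooth hA2 S₂ hϖ
  by_contra hcon
  rw [not_or] at hcon
  obtain ⟨r₁, hr₁, hr₁𝔫⟩ := not_through_iff.1 hcon.1
  obtain ⟨r₂, hr₂, hr₂𝔫⟩ := not_through_iff.1 hcon.2
  have h1 : algebraMap ↥(Rfin K (N * ℓ) O) (FF K (N * ℓ)) (r₁ * r₂) ∈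
      (gaussVS K (N * ℓ) O).nonunits := by
    rw [map_mul]
    exact nonunits_mul_mem hr₁ (hS.mem₁ r₂)
  have h2 : algebraMap ↥(Rfin K (N * ℓ) O) (FF K (N * ℓ)) (r₁ * r₂) ∈ S₂.V.nonunits := by
    rw [mul_comm r₁ r₂, map_mul]
    exact nonunits_mul_mem hr₂ (hS.mem₂ r₁)
  obtain ⟨y, hy⟩ := hS.sat _ h1 h2
  have : r₁ * r₂ ∈ 𝔫 := by rw [hy]; exact Ideal.mul_mem_right _ _ hϖ𝔫
  exact (h𝔫.mem_or_mem this).elim hr₁𝔫 hr₂𝔫

include hN ι hℓN hprime hsmooth hA2 hϖ in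
/-- **A crossing point `𝔫` of the finite chart of level `N ℓ` is the only prime with its
contraction along `α`.** -/
theorem eq_of_comap_alphaR_eq (𝔫 : Ideal ↥(Rfin K (N * ℓ) O)) [h𝔫 : 𝔫.IsPrime]
    (ht₁ : Through (gaussVS K (N * ℓ) O) 𝔫) (ht₂ : Through S₂.V 𝔫)
    (𝔫' : Ideal ↥(Rfin K (N * ℓ) O)) [h𝔫' : 𝔫'.IsPrime]
    (h : 𝔫'.comap (LevelIntegrality.alphaR K N ℓ O).toRingHom =
      𝔫.comap (LevelIntegrality.alphaR K N ℓ O).toRingHom) : 𝔫' = 𝔫 := by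
  have hS := BranchNormalLevel.setup_fin K N ℓ O hN ι hℓN hprime hsmooth hA2 S₂ hϖ
  have hD := crossingData_fin K N ℓ O hN ι hℓN hprime hsmooth hA2 S₂
  have hϖ𝔫 : algebraMap ↥O ↥(Rfin K (N * ℓ) O) ϖ ∈ 𝔫 := ht₁ _ hS.pi₁
  have hϖ𝔫' : algebraMap ↥O ↥(Rfin K (N * ℓ) O) ϖ ∈ 𝔫' := by
    have h1 : algebraMap ↥O ↥(Rfin K N O) ϖ ∈
        𝔫.comap (LevelIntegrality.alphaR K N ℓ O).toRingHom := by
      rw [Ideal.mem_comap]
      have := (LevelIntegrality.alphaR K N ℓ O).commutes ϖ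
      rw [show (LevelIntegrality.alphaR K N ℓ O).toRingHom (algebraMap ↥O ↥(Rfin K N O) ϖ) =
        algebraMap ↥O ↥(Rfin K (N * ℓ) O) ϖ from this]
      exact hϖ𝔫
    rw [← h, Ideal.mem_comap] at h1
    have := (LevelIntegrality.alphaR K N ℓ O).commutes ϖ
    rw [show (LevelIntegrality.alphaR K N ℓ O).toRingHom (algebraMap ↥O ↥(Rfin K N O) ϖ) =
      algebraMap ↥O ↥(Rfin K (N * ℓ) O) ϖ from this] at h1
    exact h1
  refine eq_of_comap_alpha_eq hD 𝔫 𝔫'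
    ((ker_res_thetaFin_le_iff K N ℓ O hN ι hℓN hprime hsmooth hA2 S₂ 𝔫).mpr ht₁)
    ((ker_res_theta2S_le_iff K N ℓ O hN hprime hsmooth hA2 S₂ 𝔫).mpr ht₂) ?_ h
  rcases through_or_through_fin K N ℓ O hN ι hℓN hprime hsmooth hA2 S₂ hϖ 𝔫' hϖ𝔫' with h' | h'
  · exact Or.inl ((ker_res_thetaFin_le_iff K N ℓ O hN ι hℓN hprime hsmooth hA2 S₂ 𝔫').mpr h')
  · exact Or.inr ((ker_res_theta2S_le_iff K N ℓ O hN hprime hsmooth hA2 S₂ 𝔫').mpr h')

include hN ι hℓN hprime hsmooth hA2 hϖ in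
/-- **A crossing point `𝔫` of the finite chart of level `N ℓ` is the only prime with its
contraction along `β`.** -/
theorem eq_of_comap_betaR_eq (𝔫 : Ideal ↥(Rfin K (N * ℓ) O)) [h𝔫 : 𝔫.IsPrime]
    (ht₁ : Through (gaussVS K (N * ℓ) O) 𝔫) (ht₂ : Through S₂.V 𝔫)
    (𝔫' : Ideal ↥(Rfin K (N * ℓ) O)) [h𝔫' : 𝔫'.IsPrime]
    (h : 𝔫'.comap (LevelIntegrality.betaR K N ℓ O).toRingHom =
      𝔫.comap (LevelIntegrality.betaR K N ℓ O).toRingHom) : 𝔫' = 𝔫 := by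
  have hS := BranchNormalLevel.setup_fin K N ℓ O hN ι hℓN hprime hsmooth hA2 S₂ hϖ
  have hD := crossingData_fin K N ℓ O hN ι hℓN hprime hsmooth hA2 S₂
  have hϖ𝔫 : algebraMap ↥O ↥(Rfin K (N * ℓ) O) ϖ ∈ 𝔫 := ht₁ _ hS.pi₁
  have hϖ𝔫' : algebraMap ↥O ↥(Rfin K (N * ℓ) O) ϖ ∈ 𝔫' := by
    have h1 : algebraMap ↥O ↥(Rfin K N O) ϖ ∈
        𝔫.comap (LevelIntegrality.betaR K N ℓ O).toRingHom := by
      rw [Ideal.mem_comap]
      have := (LevelIntegrality.betaR K N ℓ O).commutes ϖ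
      rw [show (LevelIntegrality.betaR K N ℓ O).toRingHom (algebraMap ↥O ↥(Rfin K N O) ϖ) =
        algebraMap ↥O ↥(Rfin K (N * ℓ) O) ϖ from this]
      exact hϖ𝔫
    rw [← h, Ideal.mem_comap] at h1
    have := (LevelIntegrality.betaR K N ℓ O).commutes ϖ
    rw [show (LevelIntegrality.betaR K N ℓ O).toRingHom (algebraMap ↥O ↥(Rfin K N O) ϖ) =
      algebraMap ↥O ↥(Rfin K (N * ℓ) O) ϖ from this] at h1
    exact h1
  refine eq_of_comap_beta_eq hD 𝔫 𝔫'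
    ((ker_res_thetaFin_le_iff K N ℓ O hN ι hℓN hprime hsmooth hA2 S₂ 𝔫).mpr ht₁)
    ((ker_res_theta2S_le_iff K N ℓ O hN hprime hsmooth hA2 S₂ 𝔫).mpr ht₂) ?_ h
  rcases through_or_through_fin K N ℓ O hN ι hℓN hprime hsmooth hA2 S₂ hϖ 𝔫' hϖ𝔫' with h' | h'
  · exact Or.inl ((ker_res_thetaFin_le_iff K N ℓ O hN ι hℓN hprime hsmooth hA2 S₂ 𝔫').mpr h')
  · exact Or.inr ((ker_res_theta2S_le_iff K N ℓ O hN hprime hsmooth hA2 S₂ 𝔫').mpr h')

end LevelUnique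

/-! ### Packaged forms: `Algebra` instances, `primesOver`, denominators, localisations -/

section Package

variable (K : Type) [Field K] [CharZero K] (N : ℕ) [NeZero N] (ℓ : ℕ) [Fact ℓ.Prime]
  (O : Subring K) [IsDiscreteValuationRing ↥O] [IsFractionRing ↥O K]

/-- `Rfin K (N ℓ) O` as an algebra over `Rfin K N O` along `α` (to be installed locally). -/
@[reducible] def algAlphaR : Algebra ↥(Rfin K N O) ↥(Rfin K (N * ℓ) O) :=
  (LevelIntegrality.alphaR K N ℓ O).toRingHom.toAlgebra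

/-- `Rfin K (N ℓ) O` as an algebra over `Rfin K N O` along `β` (to be installed locally). -/
@[reducible] def algBetaR : Algebra ↥(Rfin K N O) ↥(Rfin K (N * ℓ) O) :=
  (LevelIntegrality.betaR K N ℓ O).toRingHom.toAlgebra

theorem algebraMap_algAlphaR :
    (letI := algAlphaR K N ℓ O; algebraMap ↥(Rfin K N O) ↥(Rfin K (N * ℓ) O)) =
      (LevelIntegrality.alphaR K N ℓ O).toRingHom := rfl

theorem algebraMap_algBetaR :
    (letI := algBetaR K N ℓ O; algebraMap ↥(Rfin K N O) ↥(Rfin K (N * ℓ) O)) =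
      (LevelIntegrality.betaR K N ℓ O).toRingHom := rfl

variable (ι : K →+* ℂ) (hℓN : ¬ ℓ ∣ N)

include ι hℓN in
theorem moduleFinite_alphaR :
    letI := algAlphaR K N ℓ O
    Module.Finite ↥(Rfin K N O) ↥(Rfin K (N * ℓ) O) :=
  letI := algAlphaR K N ℓ O
  RingHom.finite_algebraMap.mp (alphaR_finite K N ℓ O ι hℓN)

include ι hℓN in
theorem moduleFinite_betaR :
    letI := algBetaR K N ℓ O
    Module.Finite ↥(Rfin K N O) ↥(Rfin K (N * ℓ) O) :=
  letI := algBetaR K N ℓ O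
  RingHom.finite_algebraMap.mp (betaR_finite K N ℓ O ι hℓN)

variable [CharP (IsLocalRing.ResidueField ↥O) ℓ] [PerfectRing (IsLocalRing.ResidueField ↥O) ℓ]

set_option synthInstance.maxHeartbeats 400000

variable (hN : IsUnit ((N : ℕ) : ↥O))
  (hprime : (fibreIdeal K N O (Rfin K N O)).IsPrime)
  (hsmooth : IsDedekindDomain (↥(Rfin K N O) ⧸ fibreIdeal K N O (Rfin K N O)))
  (hA2 : ∀ x : ↥(gaussSubalgebra K N O),
    theta K N O x ∈ modularFunctionFieldFullC (IsLocalRing.ResidueField ↥O) N)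
  (S₂ : FibreTwo.SecondVal K N ℓ O)
  {ϖ : ↥O} (hϖ : Irreducible ϖ)
  (𝔫 : Ideal ↥(Rfin K (N * ℓ) O)) [h𝔫 : 𝔫.IsPrime]
  (ht₁ : Through (gaussVS K (N * ℓ) O) 𝔫) (ht₂ : Through S₂.V 𝔫)

include hN ι hℓN hprime hsmooth hA2 hϖ ht₁ ht₂ in
/-- **`𝔫` is the only prime of `Rfin K (N ℓ) O` over `𝔫 ∩ α(Rfin K N O)`.** -/
theorem primesOver_alphaR :
    letI := algAlphaR K N ℓ O
    (𝔫.under ↥(Rfin K N O)).primesOver ↥(Rfin K (N * ℓ) O) = {𝔫} := by
  letI := algAlphaR K N ℓ O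
  ext 𝔫'
  simp only [Ideal.primesOver, Set.mem_ofPred_eq, Set.mem_singleton_iff]
  constructor
  · rintro ⟨hp, hlo⟩
    haveI := hp
    exact eq_of_comap_alphaR_eq K N ℓ O hN ι hℓN hprime hsmooth hA2 S₂ hϖ 𝔫 ht₁ ht₂ 𝔫'
      hlo.over.symm
  · rintro rfl
    exact ⟨h𝔫, ⟨rfl⟩⟩

include hN ι hℓN hprime hsmooth hA2 hϖ ht₁ ht₂ in
/-- **`𝔫` is the only prime of `Rfin K (N ℓ) O` over `𝔫 ∩ β(Rfin K N O)`.** -/
theorem primesOver_betaR :
    letI := algBetaR K N ℓ O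
    (𝔫.under ↥(Rfin K N O)).primesOver ↥(Rfin K (N * ℓ) O) = {𝔫} := by
  letI := algBetaR K N ℓ O
  ext 𝔫'
  simp only [Ideal.primesOver, Set.mem_ofPred_eq, Set.mem_singleton_iff]
  constructor
  · rintro ⟨hp, hlo⟩
    haveI := hp
    exact eq_of_comap_betaR_eq K N ℓ O hN ι hℓN hprime hsmooth hA2 S₂ hϖ 𝔫 ht₁ ht₂ 𝔫'
      hlo.over.symm
  · rintro rfl
    exact ⟨h𝔫, ⟨rfl⟩⟩

include hN ι hℓN hprime hsmooth hA2 hϖ ht₁ ht₂ in
/-- **Denominators along `α`**: every `c ∉ 𝔫` divides `α t` for some `t` with `α t ∉ 𝔫`, so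
`(Rfin K (N ℓ) O)_𝔫` is the localisation of `Rfin K (N ℓ) O` at `α (Rfin K N O ∖ 𝔫.comap α)`. -/
theorem exists_mul_eq_alphaR {c : ↥(Rfin K (N * ℓ) O)} (hc : c ∉ 𝔫) :
    ∃ (d : ↥(Rfin K (N * ℓ) O)) (t : ↥(Rfin K N O)),
      LevelIntegrality.alphaR K N ℓ O t ∉ 𝔫 ∧ c * d = LevelIntegrality.alphaR K N ℓ O t := by
  letI := algAlphaR K N ℓ O
  haveI := moduleFinite_alphaR K N ℓ O ι hℓN
  haveI : (𝔫.under ↥(Rfin K N O)).IsPrime := Ideal.IsPrime.under _ 𝔫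
  obtain ⟨t, ht, d, hd⟩ := Ideal.exists_notMem_dvd_algebraMap_of_primesOver_eq_singleton
    (primesOver_alphaR K N ℓ O ι hℓN hN hprime hsmooth hA2 S₂ hϖ 𝔫 ht₁ ht₂) c hc
  exact ⟨d, t, fun h => ht h, hd.symm⟩

include hN ι hℓN hprime hsmooth hA2 hϖ ht₁ ht₂ in
/-- **Denominators along `β`.** -/
theorem exists_mul_eq_betaR {c : ↥(Rfin K (N * ℓ) O)} (hc : c ∉ 𝔫) :
    ∃ (d : ↥(Rfin K (N * ℓ) O)) (t : ↥(Rfin K N O)),
      LevelIntegrality.betaR K N ℓ O t ∉ 𝔫 ∧ c * d = LevelIntegrality.betaR K N ℓ O t := by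
  letI := algBetaR K N ℓ O
  haveI := moduleFinite_betaR K N ℓ O ι hℓN
  haveI : (𝔫.under ↥(Rfin K N O)).IsPrime := Ideal.IsPrime.under _ 𝔫
  obtain ⟨t, ht, d, hd⟩ := Ideal.exists_notMem_dvd_algebraMap_of_primesOver_eq_singleton
    (primesOver_betaR K N ℓ O ι hℓN hN hprime hsmooth hA2 S₂ hϖ 𝔫 ht₁ ht₂) c hc
  exact ⟨d, t, fun h => ht h, hd.symm⟩

include hN ι hℓN hprime hsmooth hA2 hϖ ht₁ ht₂ in
/-- **(FIN), `α`-side: `(Rfin K (N ℓ) O)_𝔫` is module-finite over `(Rfin K N O)_{𝔫 ∩ α}`.** -/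
theorem finite_localization_alphaR :
    letI := algAlphaR K N ℓ O
    haveI : (𝔫.under ↥(Rfin K N O)).IsPrime := Ideal.IsPrime.under _ 𝔫
    letI := Localization.AtPrime.algebraOfLiesOver (𝔫.under ↥(Rfin K N O)) 𝔫
    Module.Finite (Localization.AtPrime (𝔫.under ↥(Rfin K N O))) (Localization.AtPrime 𝔫) := by
  letI := algAlphaR K N ℓ O
  haveI := moduleFinite_alphaR K N ℓ O ι hℓN
  haveI : (𝔫.under ↥(Rfin K N O)).IsPrime := Ideal.IsPrime.under _ 𝔫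
  letI := Localization.AtPrime.algebraOfLiesOver (𝔫.under ↥(Rfin K N O)) 𝔫
  exact Localization.finite_of_primesOver_eq_singleton
    (primesOver_alphaR K N ℓ O ι hℓN hN hprime hsmooth hA2 S₂ hϖ 𝔫 ht₁ ht₂)

include hN ι hℓN hprime hsmooth hA2 hϖ ht₁ ht₂ in
/-- **(FIN), `β`-side: `(Rfin K (N ℓ) O)_𝔫` is module-finite over `(Rfin K N O)_{𝔫 ∩ β}`.** -/
theorem finite_localization_betaR :
    letI := algBetaR K N ℓ O
    haveI : (𝔫.under ↥(Rfin K N O)).IsPrime := Ideal.IsPrime.under _ 𝔫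
    letI := Localization.AtPrime.algebraOfLiesOver (𝔫.under ↥(Rfin K N O)) 𝔫
    Module.Finite (Localization.AtPrime (𝔫.under ↥(Rfin K N O))) (Localization.AtPrime 𝔫) := by
  letI := algBetaR K N ℓ O
  haveI := moduleFinite_betaR K N ℓ O ι hℓN
  haveI : (𝔫.under ↥(Rfin K N O)).IsPrime := Ideal.IsPrime.under _ 𝔫
  letI := Localization.AtPrime.algebraOfLiesOver (𝔫.under ↥(Rfin K N O)) 𝔫
  exact Localization.finite_of_primesOver_eq_singleton
    (primesOver_betaR K N ℓ O ι hℓN hN hprime hsmooth hA2 S₂ hϖ 𝔫 ht₁ ht₂)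

end Package

end Fermat.Agent.S40.M1.NodeFinite
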