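/-
S40 / S44 (row 38), block [M1]/T6′, static route (R4), leaf **(D1)** of helper1's R4-D list (helper26):
`S40/M1/NodeFinite` in the θ-language of `S36/R1/CrossingRegular.regular_fin` /
`S40/M1/AlphaNodeLevel` (`hk1 : ker (thetaFin K (N ℓ) O) ≤ 𝔫`, `hk2 : ker (theta2S K N ℓ O S₂) ≤ 𝔫`),
with no uniformiser in the statements.

* `through_gauss_of_ker`, `through_second_of_ker`, `ker_thetaFin_le_of_through`,
  `ker_theta2S_le_of_through` : `ker θᵢ ≤ 𝔫 ↔ Through Vᵢ 𝔫`;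
* `eq_of_comap_alphaR_eq_of_ker`, `eq_of_comap_betaR_eq_of_ker` : a crossing point is the only prime
  with its contraction along `α` (resp. `β`);
* ★ `exists_alphaR_of_notMem`, `exists_betaR_of_notMem` : **(D1)(b)**: for `s ∉ 𝔫` there is
  `t ∉ 𝔫.comap α` (resp. `β`) with `s ∣ α t` (resp. `β t`).
-/
import Mathlib
import Fermat.Agent.S40.M1.NodeFinite

set_option autoImplicit false
set_option linter.unusedSectionVars false
set_option linter.style.haveILetI false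

open ModularCurve Fermat.Agent.S28.Gauss Fermat.Agent.N4.Setting Fermat.Agent.N4.FibreEmbedding
open Fermat.Agent.N4.Chart
open Fermat.Agent.N4F.E.DegreeLevelRaise Fermat.Agent.N4F.E.GaussDVR AlgebraicCurve Polynomial
open Fermat.Agent.N4F.E IsLocalRing Fermat.Agent.P3G.RbarFin Fermat.Agent.P3G.TwoComponents
open Fermat.Agent.P3G.TwoComponentsFinal Fermat.Agent.P3G Fermat.Agent.P4
open Fermat.Agent.P4.TwistRoots

noncomputable section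

namespace Fermat.Agent.S40.M1.NodeFiniteKer

open Fermat.Agent.S40.M1.NodeFinite

variable (K : Type) [Field K] [CharZero K] (N : ℕ) [NeZero N] (ℓ : ℕ) [Fact ℓ.Prime]
  (O : Subring K) [IsDiscreteValuationRing ↥O] [IsFractionRing ↥O K]
  [CharP (IsLocalRing.ResidueField ↥O) ℓ] [PerfectRing (IsLocalRing.ResidueField ↥O) ℓ]

set_option synthInstance.maxHeartbeats 400000

variable (hN : IsUnit ((N : ℕ) : ↥O)) (ι : K →+* ℂ) (hℓN : ¬ ℓ ∣ N)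
  (hprime : (fibreIdeal K N O (Rfin K N O)).IsPrime)
  (hsmooth : IsDedekindDomain (↥(Rfin K N O) ⧸ fibreIdeal K N O (Rfin K N O)))
  (hA2 : ∀ x : ↥(gaussSubalgebra K N O),
    theta K N O x ∈ modularFunctionFieldFullC (IsLocalRing.ResidueField ↥O) N)
  (S₂ : FibreTwo.SecondVal K N ℓ O)
  (𝔫 : Ideal ↥(Rfin K (N * ℓ) O))

include hN ι hℓN hprime hsmooth hA2 S₂ in
theorem through_gauss_of_ker (hk1 : RingHom.ker (thetaFin K (N * ℓ) O) ≤ 𝔫) :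
    Through (gaussVS K (N * ℓ) O) 𝔫 :=
  (ker_res_thetaFin_le_iff K N ℓ O hN ι hℓN hprime hsmooth hA2 S₂ 𝔫).mp
    (by rw [CrossingLaurent.ker_res]; exact hk1)

include hN ι hℓN hprime hsmooth hA2 S₂ in
theorem ker_thetaFin_le_of_through (ht₁ : Through (gaussVS K (N * ℓ) O) 𝔫) :
    RingHom.ker (thetaFin K (N * ℓ) O) ≤ 𝔫 := by
  have := (ker_res_thetaFin_le_iff K N ℓ O hN ι hℓN hprime hsmooth hA2 S₂ 𝔫).mpr ht₁
  rwa [CrossingLaurent.ker_res] at this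

include hN hprime hsmooth hA2 in
theorem through_second_of_ker (hk2 : RingHom.ker (theta2S K N ℓ O S₂) ≤ 𝔫) :
    Through S₂.V 𝔫 :=
  (ker_res_theta2S_le_iff K N ℓ O hN hprime hsmooth hA2 S₂ 𝔫).mp
    (by rw [CrossingLaurent.ker_res]; exact hk2)

include hN hprime hsmooth hA2 in
theorem ker_theta2S_le_of_through (ht₂ : Through S₂.V 𝔫) :
    RingHom.ker (theta2S K N ℓ O S₂) ≤ 𝔫 := by
  have := (ker_res_theta2S_le_iff K N ℓ O hN hprime hsmooth hA2 S₂ 𝔫).mpr ht₂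
  rwa [CrossingLaurent.ker_res] at this

variable [h𝔫 : 𝔫.IsPrime]

include hN ι hℓN hprime hsmooth hA2 in
/-- A crossing point is the only prime with its contraction along `α` (θ-language). -/
theorem eq_of_comap_alphaR_eq_of_ker (hk1 : RingHom.ker (thetaFin K (N * ℓ) O) ≤ 𝔫)
    (hk2 : RingHom.ker (theta2S K N ℓ O S₂) ≤ 𝔫)
    (𝔫' : Ideal ↥(Rfin K (N * ℓ) O)) [h𝔫' : 𝔫'.IsPrime]
    (h : 𝔫'.comap (LevelIntegrality.alphaR K N ℓ O).toRingHom =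
      𝔫.comap (LevelIntegrality.alphaR K N ℓ O).toRingHom) : 𝔫' = 𝔫 := by
  obtain ⟨ϖ, hϖ⟩ := IsDiscreteValuationRing.exists_irreducible ↥O
  exact eq_of_comap_alphaR_eq K N ℓ O hN ι hℓN hprime hsmooth hA2 S₂ hϖ 𝔫
    (through_gauss_of_ker K N ℓ O hN ι hℓN hprime hsmooth hA2 S₂ 𝔫 hk1)
    (through_second_of_ker K N ℓ O hN hprime hsmooth hA2 S₂ 𝔫 hk2) 𝔫' h

include hN ι hℓN hprime hsmooth hA2 in
/-- A crossing point is the only prime with its contraction along `β` (θ-language). -/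
theorem eq_of_comap_betaR_eq_of_ker (hk1 : RingHom.ker (thetaFin K (N * ℓ) O) ≤ 𝔫)
    (hk2 : RingHom.ker (theta2S K N ℓ O S₂) ≤ 𝔫)
    (𝔫' : Ideal ↥(Rfin K (N * ℓ) O)) [h𝔫' : 𝔫'.IsPrime]
    (h : 𝔫'.comap (LevelIntegrality.betaR K N ℓ O).toRingHom =
      𝔫.comap (LevelIntegrality.betaR K N ℓ O).toRingHom) : 𝔫' = 𝔫 := by
  obtain ⟨ϖ, hϖ⟩ := IsDiscreteValuationRing.exists_irreducible ↥O
  exact eq_of_comap_betaR_eq K N ℓ O hN ι hℓN hprime hsmooth hA2 S₂ hϖ 𝔫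
    (through_gauss_of_ker K N ℓ O hN ι hℓN hprime hsmooth hA2 S₂ 𝔫 hk1)
    (through_second_of_ker K N ℓ O hN hprime hsmooth hA2 S₂ 𝔫 hk2) 𝔫' h

include hN ι hℓN hprime hsmooth hA2 in
/-- **(D1)(b), `α`-side**: at a crossing point `𝔫`, every `s ∉ 𝔫` divides `α t` for some
`t ∉ 𝔫.comap α`. -/
theorem exists_alphaR_of_notMem (hk1 : RingHom.ker (thetaFin K (N * ℓ) O) ≤ 𝔫)
    (hk2 : RingHom.ker (theta2S K N ℓ O S₂) ≤ 𝔫) :
    ∀ s : ↥(Rfin K (N * ℓ) O), s ∉ 𝔫 →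
      ∃ t : ↥(Rfin K N O), t ∉ 𝔫.comap (LevelIntegrality.alphaR K N ℓ O).toRingHom ∧
        ∃ x : ↥(Rfin K (N * ℓ) O), s * x = LevelIntegrality.alphaR K N ℓ O t := by
  intro s hs
  obtain ⟨ϖ, hϖ⟩ := IsDiscreteValuationRing.exists_irreducible ↥O
  obtain ⟨d, t, ht, hd⟩ := exists_mul_eq_alphaR K N ℓ O ι hℓN hN hprime hsmooth hA2 S₂ hϖ 𝔫
    (through_gauss_of_ker K N ℓ O hN ι hℓN hprime hsmooth hA2 S₂ 𝔫 hk1)
    (through_second_of_ker K N ℓ O hN hprime hsmooth hA2 S₂ 𝔫 hk2) hs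
  exact ⟨t, fun h => ht (Ideal.mem_comap.mp h), d, hd⟩

include hN ι hℓN hprime hsmooth hA2 in
/-- **(D1)(b), `β`-side**: at a crossing point `𝔫`, every `s ∉ 𝔫` divides `β t` for some
`t ∉ 𝔫.comap β`. -/
theorem exists_betaR_of_notMem (hk1 : RingHom.ker (thetaFin K (N * ℓ) O) ≤ 𝔫)
    (hk2 : RingHom.ker (theta2S K N ℓ O S₂) ≤ 𝔫) :
    ∀ s : ↥(Rfin K (N * ℓ) O), s ∉ 𝔫 →
      ∃ t : ↥(Rfin K N O), t ∉ 𝔫.comap (LevelIntegrality.betaR K N ℓ O).toRingHom ∧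
        ∃ x : ↥(Rfin K (N * ℓ) O), s * x = LevelIntegrality.betaR K N ℓ O t := by
  intro s hs
  obtain ⟨ϖ, hϖ⟩ := IsDiscreteValuationRing.exists_irreducible ↥O
  obtain ⟨d, t, ht, hd⟩ := exists_mul_eq_betaR K N ℓ O ι hℓN hN hprime hsmooth hA2 S₂ hϖ 𝔫
    (through_gauss_of_ker K N ℓ O hN ι hℓN hprime hsmooth hA2 S₂ 𝔫 hk1)
    (through_second_of_ker K N ℓ O hN hprime hsmooth hA2 S₂ 𝔫 hk2) hs
  exact ⟨t, fun h => ht (Ideal.mem_comap.mp h), d, hd⟩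

end Fermat.Agent.S40.M1.NodeFiniteKer
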