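/-
S40 / S44 (row 38), T6′ static route, block (R4), clause (d) AT A LEVEL, **team B** (helper26, dispatch
#3233/#3240): the two fibre norms of a unit at a supersingular node agree modulo `p` at the test
points, in the `Localization.AtPrime` model (`S40/M1/NodeLocalAt`), from chart-level hypotheses only.

* `evAt h 𝔪 hc : Localization.AtPrime 𝔪 →ₐ[O] O` : the evaluation at a section `h` of the chart `T`
  with centre `𝔪`, on the local ring of the chart; `valT_algebraMap` (compatibility with the total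
  evaluation `NodeInv.valT`), `valuation_algebraMap_eq_one` (units of the local ring are units at
  the place);
* `oneSide` : the one-sided package (abstract): fibre basis, `hev`, `hv`, `hcap`, norm and value
  compatibility;
* `r4b_fin` : **(R4b) at one level `(K, O)`**.
-/
import Mathlib
import Fermat.Agent.G.PointsLoc
import Fermat.Agent.S40.M1.NodeLocalAt
import Fermat.Agent.S40.M1.NodeD
import Fermat.Agent.S40.M1.KerEval
import Fermat.Agent.S40.M1.NodeInv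
import Fermat.Agent.S40.M1.NodeFiniteKer
import Fermat.Agent.P4.FrobStep

set_option autoImplicit false
set_option linter.unusedSectionVars false
set_option linter.style.haveILetI false
set_option linter.style.longLine false

noncomputable section

namespace Fermat.Agent.S40.M1.NodeDLevelB

open IsLocalRing AlgebraicCurve
open Fermat.Agent.N4F.E.PlaceValue
open Fermat.Agent.G.Points Fermat.Agent.S40.M1.NodeLocalAt Fermat.Agent.S40.M1.NodeInv

/-! ### Evaluation at a section, on the local ring of the chart -/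

section EvAt

variable {O K F : Type*} [CommRing O] [IsDomain O] [IsDiscreteValuationRing O]
  [Field K] [Algebra O K] [IsFractionRing O K]
  [Field F] [Algebra K F] [Algebra O F] [IsScalarTower O K F]
  {T : Subalgebra O F} {Q : Place K F} {hQ : Function.Bijective (algebraMap K Q.ResidueField)}
  (h : IsSection T Q hQ) (𝔪 : Ideal ↥T) [h𝔪 : 𝔪.IsPrime] (hc : centre h = 𝔪)

include hc in
theorem isUnit_ev_of_notMem (y : 𝔪.primeCompl) : IsUnit (ev h (y : ↥T)) := by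
  refine (not_mem_centre_iff h y).1 ?_
  rw [hc]
  exact y.2

/-- Evaluation at the section `h`, on the local ring of the chart at its centre `𝔪`. -/
def evAt : Localization.AtPrime 𝔪 →ₐ[O] O :=
  IsLocalization.liftAlgHom (M := 𝔪.primeCompl) (f := ev h) (isUnit_ev_of_notMem h 𝔪 hc)

theorem evAt_algebraMap (t : ↥T) :
    evAt h 𝔪 hc (algebraMap ↥T (Localization.AtPrime 𝔪) t) = ev h t := by
  unfold evAt
  rw [IsLocalization.liftAlgHom_apply, IsLocalization.lift_eq]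
  rfl

variable [IsFractionRing ↥T F]

/-- The value of an element of the chart at the place. -/
theorem valT_coe (t : ↥T) : valT Q hQ (t : F) = algebraMap O K (ev h t) := by
  rw [valT_of_mem Q hQ (h.mem t), algebraMap_ev]

/-- An element of the chart outside the centre is a unit at the place. -/
theorem valuation_coe_eq_one (hcm : centre h = 𝔪) {s : ↥T} (hs : s ∉ 𝔪) :
    Q.toValuationSubring.valuation (s : F) = 1 := by
  have hmem := h.mem s
  by_contra hne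
  have hlt : Q.toValuationSubring.valuation (s : F) < 1 :=
    lt_of_le_of_ne ((Q.toValuationSubring.valuation_le_one_iff _).2 hmem) hne
  have h0 : ev h s = 0 := (ev_eq_zero_iff h s).2 ((ValuationSubring.mem_nonunits_iff _).2 hlt)
  have hu : IsUnit (ev h s) := (not_mem_centre_iff h s).1 (by rw [hcm]; exact hs)
  rw [h0] at hu
  exact not_isUnit_zero hu

include hc in
/-- **Compatibility of `evAt` with the total evaluation at the place.** -/
theorem valT_algebraMap (x : Localization.AtPrime 𝔪) :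
    letI := fracAlgebra 𝔪 (Localization.AtPrime 𝔪) F
    algebraMap (Localization.AtPrime 𝔪) F x ∈ Q.toValuationSubring ∧
      valT Q hQ (algebraMap (Localization.AtPrime 𝔪) F x) = algebraMap O K (evAt h 𝔪 hc x) := by
  letI := fracAlgebra 𝔪 (Localization.AtPrime 𝔪) F
  haveI := fracAlgebra_isScalarTower 𝔪 (Localization.AtPrime 𝔪) F
  obtain ⟨t, s, rfl⟩ := IsLocalization.exists_mk'_eq 𝔪.primeCompl x
  set X : F := algebraMap (Localization.AtPrime 𝔪) F (IsLocalization.mk' _ t s) with hX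
  have hs1 : Q.toValuationSubring.valuation ((s : ↥T) : F) = 1 := valuation_coe_eq_one h 𝔪 hc s.2
  have hs0 : ((s : ↥T) : F) ≠ 0 := ne_zero_of_valuation_eq_one hs1
  have hXs : X * ((s : ↥T) : F) = (t : F) := by
    have h1 := IsLocalization.mk'_spec (Localization.AtPrime 𝔪) t s
    have h2 := congrArg (algebraMap (Localization.AtPrime 𝔪) F) h1
    rw [map_mul, ← IsScalarTower.algebraMap_apply, ← IsScalarTower.algebraMap_apply] at h2
    exact h2
  have hXeq : X = (t : F) * ((s : ↥T) : F)⁻¹ := by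
    rw [← hXs, mul_assoc, mul_inv_cancel₀ hs0, mul_one]
  have hsinv : Q.toValuationSubring.valuation (((s : ↥T) : F)⁻¹) = 1 := valuation_inv_eq_one hs1
  have hXmem : X ∈ Q.toValuationSubring := by
    rw [hXeq]
    exact mul_mem (h.mem t) (mem_of_valuation_eq_one hsinv)
  refine ⟨hXmem, ?_⟩
  have hev : evAt h 𝔪 hc (IsLocalization.mk' _ t s) * ev h (s : ↥T) = ev h t := by
    rw [← evAt_algebraMap h 𝔪 hc (s : ↥T), ← map_mul, IsLocalization.mk'_spec, evAt_algebraMap]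
  have h3 : valT Q hQ X * valT Q hQ ((s : ↥T) : F) = valT Q hQ (t : F) := by
    rw [← valT_mul Q hQ hXmem (h.mem s), hXs]
  rw [valT_coe h, valT_coe h, ← hev, map_mul] at h3
  have hs_ne : algebraMap O K (ev h (s : ↥T)) ≠ 0 := by
    have := valT_ne_zero Q hQ hs1
    rwa [valT_coe h] at this
  exact mul_right_cancel₀ hs_ne h3

include hc in
/-- Units of the local ring of the chart are units at the place. -/
theorem valuation_algebraMap_eq_one {x : Localization.AtPrime 𝔪} (hx : IsUnit x) :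
    letI := fracAlgebra 𝔪 (Localization.AtPrime 𝔪) F
    Q.toValuationSubring.valuation (algebraMap (Localization.AtPrime 𝔪) F x) = 1 := by
  letI := fracAlgebra 𝔪 (Localization.AtPrime 𝔪) F
  obtain ⟨y, hy⟩ := hx.exists_right_inv
  have h1 := (valT_algebraMap h 𝔪 hc x).1
  have h2 := (valT_algebraMap h 𝔪 hc y).1
  have h3 : algebraMap (Localization.AtPrime 𝔪) F x * algebraMap (Localization.AtPrime 𝔪) F y = 1 := by
    rw [← map_mul, hy, map_one]
  have hx1 := (Q.toValuationSubring.valuation_le_one_iff _).2 h1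
  have hy1 := (Q.toValuationSubring.valuation_le_one_iff _).2 h2
  have h4 : Q.toValuationSubring.valuation (algebraMap (Localization.AtPrime 𝔪) F x) *
      Q.toValuationSubring.valuation (algebraMap (Localization.AtPrime 𝔪) F y) = 1 := by
    rw [← map_mul, h3, map_one]
  refine le_antisymm hx1 ?_
  calc (1 : _) = Q.toValuationSubring.valuation (algebraMap (Localization.AtPrime 𝔪) F x) *
        Q.toValuationSubring.valuation (algebraMap (Localization.AtPrime 𝔪) F y) := h4.symm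
    _ ≤ Q.toValuationSubring.valuation (algebraMap (Localization.AtPrime 𝔪) F x) * 1 :=
        mul_le_mul_right hy1 _
    _ = _ := mul_one _

end EvAt

/-! ### The one-sided package (abstract) -/

section OneSide

variable {O K F' : Type*} [CommRing O] [IsDomain O] [IsDiscreteValuationRing O]
  [Field K] [Algebra O K] [IsFractionRing O K]
  [Field F'] [Algebra K F'] [Algebra O F'] [IsScalarTower O K F']
  {T : Subalgebra O F'} [IsFractionRing ↥T F'] [IsNoetherianRing ↥T]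
  {S F : Type*} [CommRing S] [IsDomain S] [Field F] [Algebra O S] [Algebra S F] [IsFractionRing S F]
  (f : ↥T →+* S) (hfO : ∀ a : O, f (algebraMap O ↥T a) = algebraMap O S a)
  (γ : F' →+* F) (hfγ : ∀ a : ↥T, algebraMap S F (f a) = γ (a : F'))
  (𝔫 : Ideal S) [h𝔫 : 𝔫.IsPrime]

include hfO in
/-- The tower `O → A_𝔪 → B_𝔫` for `locAlgebra`. -/
theorem isScalarTower_base :
    letI := locAlgebra f 𝔫
    IsScalarTower O (Localization.AtPrime (𝔫.comap f)) (Localization.AtPrime 𝔫) := by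
  letI := locAlgebra f 𝔫
  refine IsScalarTower.of_algebraMap_eq fun a => ?_
  rw [IsScalarTower.algebraMap_apply O ↥T (Localization.AtPrime (𝔫.comap f)), locAlgebra_comp f 𝔫,
    hfO, ← IsScalarTower.algebraMap_apply O S (Localization.AtPrime 𝔫)]

include hfO hfγ in
/-- **The one-sided package**: fibre basis `1, y, …, y ^ n` of `B_𝔫` over `A_𝔪`, the evaluation `e`
at the test section, the three hypotheses of `FibreNorm.map_norm_sub_map_norm_mem` for this side,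
and the compatibility of the ring norm with the field norm and the values at the test place. -/
theorem oneSide {n : ℕ} (hn : 1 ≤ n)
    (hfin : f.Finite)
    (hone : ∀ 𝔮 : Ideal S, 𝔮.IsPrime → 𝔮.comap f = 𝔫.comap f → 𝔮 = 𝔫)
    (hdeg : letI := γ.toAlgebra; Module.finrank F' F = n + 1)
    (hsurj : ∀ b : S, ∃ a : ↥T, b - f a ∈ 𝔫)
    {p ϖ : O} (hpϖ : p ∈ Ideal.span {ϖ}) (hϖ0 : ϖ ≠ 0) (hϖ𝔫 : algebraMap O S ϖ ∈ 𝔫)
    {x y G : S} (hx : x ∈ 𝔫) (hy : y ∈ 𝔫) (hG : G ∉ 𝔫) (hxy : x * y = G * algebraMap O S p)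
    (hgen : ∃ c, c ∉ 𝔫 ∧ ∀ r ∈ 𝔫, ∃ a b d, c * r = a * x + b * y + d * algebraMap O S ϖ)
    {z : ↥T} (hz𝔪 : z ∈ 𝔫.comap f)
    (hgen₂ : ∃ c, c ∉ 𝔫.comap f ∧ ∀ r ∈ 𝔫.comap f, ∃ a d,
      c * r = a * z + d * algebraMap O ↥T ϖ)
    (hz : ∃ s A E : S, s ∉ 𝔫 ∧ A ∉ 𝔫 ∧ E ∉ 𝔫 ∧ s * f z = x * A + y ^ n * E)
    (Q : Place K F') (hQ : Function.Bijective (algebraMap K Q.ResidueField))
    (h : IsSection T Q hQ) (hc : centre h = 𝔫.comap f) (hev : ev h z ∈ Ideal.span {p}) :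
    letI := locAlgebra f 𝔫
    letI := fracAlgebra 𝔫 (Localization.AtPrime 𝔫) F
    letI := γ.toAlgebra
    ∃ (b : Module.Basis (Fin (n + 1)) (Localization.AtPrime (𝔫.comap f)) (Localization.AtPrime 𝔫))
      (e : Localization.AtPrime (𝔫.comap f) →ₐ[O] O),
      (∀ i : Fin (n + 1), b i = algebraMap S (Localization.AtPrime 𝔫) y ^ (i : ℕ)) ∧
      (∀ r : Localization.AtPrime (𝔫.comap f),
        algebraMap (Localization.AtPrime (𝔫.comap f)) (Localization.AtPrime 𝔫) r -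
          algebraMap O (Localization.AtPrime 𝔫) (e r) ∈
        Ideal.span {algebraMap S (Localization.AtPrime 𝔫) x,
          algebraMap S (Localization.AtPrime 𝔫) y}) ∧
      (∀ i, e (b.repr (algebraMap S (Localization.AtPrime 𝔫) y ^ (n + 1)) i) ∈ Ideal.span {p}) ∧
      (∀ c : O, algebraMap O (Localization.AtPrime 𝔫) c ∈
        Ideal.span {algebraMap S (Localization.AtPrime 𝔫) x,
          algebraMap S (Localization.AtPrime 𝔫) y} → c ∈ Ideal.span {p}) ∧
      (∀ w : Localization.AtPrime 𝔫, IsUnit w →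
        Q.toValuationSubring.valuation (Algebra.norm F' (algebraMap (Localization.AtPrime 𝔫) F w)) = 1 ∧
        valT Q hQ (Algebra.norm F' (algebraMap (Localization.AtPrime 𝔫) F w)) =
          algebraMap O K (e (Algebra.norm (Localization.AtPrime (𝔫.comap f)) w))) := by
  -- the instance package
  letI := locAlgebra f 𝔫
  letI := fracAlgebra 𝔫 (Localization.AtPrime 𝔫) F
  letI := γ.toAlgebra
  letI := fracAlgebra (𝔫.comap f) (Localization.AtPrime (𝔫.comap f)) F'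
  letI := topAlgebra f 𝔫 F' F γ
  haveI := fracAlgebra_isScalarTower (𝔫.comap f) (Localization.AtPrime (𝔫.comap f)) F'
  haveI := fracAlgebra_isScalarTower 𝔫 (Localization.AtPrime 𝔫) F
  haveI := fracAlgebra_isFractionRing (𝔫.comap f) (Localization.AtPrime (𝔫.comap f)) F'
  haveI := fracAlgebra_isFractionRing 𝔫 (Localization.AtPrime 𝔫) F
  haveI : IsScalarTower (Localization.AtPrime (𝔫.comap f)) F' F :=
    IsScalarTower.of_algebraMap_eq' rfl
  haveI : IsScalarTower (Localization.AtPrime (𝔫.comap f)) (Localization.AtPrime 𝔫) F :=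
    isScalarTower_top f (𝔫.comap f) (locAlgebra_comp f 𝔫) (fun a => (hfγ a).symm)
  haveI := isScalarTower_base f hfO 𝔫
  haveI : Module.Finite (Localization.AtPrime (𝔫.comap f)) (Localization.AtPrime 𝔫) :=
    finite_locAlgebra f 𝔫 hfin hone
  haveI : IsNoetherianRing (Localization.AtPrime (𝔫.comap f)) :=
    IsLocalization.isNoetherianRing (𝔫.comap f).primeCompl _ inferInstance
  -- abbreviations
  set Rt := Localization.AtPrime (𝔫.comap f) with hRt
  set R := Localization.AtPrime 𝔫 with hR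
  have hϖ𝔪 : algebraMap O ↥T ϖ ∈ 𝔫.comap f := by
    rw [Ideal.mem_comap, hfO]; exact hϖ𝔫
  -- `hm`
  have hm : maximalIdeal R =
      Ideal.span {algebraMap S R x, algebraMap S R y, algebraMap O R ϖ} := by
    have hgen' : ∃ c, c ∉ 𝔫 ∧ ∀ r ∈ 𝔫, ∃ a b d,
        c * r = a * x + b * y + d * f (algebraMap O ↥T ϖ) := by
      obtain ⟨c, hc, hg⟩ := hgen
      refine ⟨c, hc, fun r hr => ?_⟩
      obtain ⟨a, b, d, habd⟩ := hg r hr
      exact ⟨a, b, d, by rw [hfO]; exact habd⟩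
    have := maximalIdeal_eq_span_loc f 𝔫 hx hy (by rw [hfO]; exact hϖ𝔫) hgen'
    rw [this, ← IsScalarTower.algebraMap_apply O ↥T Rt, ← IsScalarTower.algebraMap_apply O Rt R]
  -- `hmt`
  have hmt : maximalIdeal Rt = Ideal.span {algebraMap ↥T Rt z, algebraMap O Rt ϖ} := by
    have := KerEval.maximalIdeal_eq_span_pair (𝔫.comap f) Rt hz𝔪 hϖ𝔪 hgen₂
    rw [this, ← IsScalarTower.algebraMap_apply O ↥T Rt]
  -- `hres`
  have hres : ∀ r : R, ∃ c : Rt, r - algebraMap Rt R c ∈ maximalIdeal R :=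
    fun r => exists_sub_mem_maximalIdeal_loc f 𝔫 hsurj r
  -- `hz`
  obtain ⟨s, A', E', hs, hA', hE', hzrel⟩ := hz
  obtain ⟨A₁, E₁, hA₁, hE₁, hz'⟩ := exists_isUnit_decomp_loc f 𝔫 hs hA' hE' hzrel
  -- `huv`, `hG`
  have huv : algebraMap S R x * algebraMap S R y = algebraMap S R G * algebraMap O R p := by
    rw [← map_mul, hxy, map_mul, ← IsScalarTower.algebraMap_apply O S R]
  have hGu : IsUnit (algebraMap S R G) := isUnit_algebraMap 𝔫 hG
  -- the span and the basis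
  have hspan := NodeD.span_pow_eq_top (O := O) (Rt := Rt) (R := R) hpϖ hm hmt hres hz' hA₁ hE₁ hn huv
  set b := NodeAlg.basisPow (Ft := F') (F := F) hdeg hspan with hb_def
  have hb : ∀ i : Fin (n + 1), b i = algebraMap S R y ^ (i : ℕ) :=
    NodeAlg.basisPow_apply hdeg hspan
  -- the evaluation
  set e : Rt →ₐ[O] O := evAt h (𝔫.comap f) hc with he_def
  have hez : e (algebraMap ↥T Rt z) = ev h z := evAt_algebraMap h (𝔫.comap f) hc z
  have hevz : e (algebraMap ↥T Rt z) ∈ Ideal.span {p} := by rw [hez]; exact hev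
  have hker : ∀ r : Rt, e r = 0 →
      ∃ q : Rt, r = q * (algebraMap ↥T Rt z - algebraMap O Rt (e (algebraMap ↥T Rt z))) := by
    intro r hr
    have hcspan : algebraMap O ↥T (ev h z) ∈ Ideal.span {algebraMap O ↥T ϖ} := by
      obtain ⟨d, hd⟩ := Ideal.mem_span_singleton'.1 (Ideal.span_singleton_le_span_singleton.2
        (Ideal.mem_span_singleton.1 hpϖ) hev)
      rw [← hd, map_mul]
      exact Ideal.mul_mem_left _ _ (Ideal.mem_span_singleton_self _)
    obtain ⟨q, hq⟩ := KerEval.exists_eq_mul_sub_of_chart (𝔫.comap f) Rt (e : Rt →+* O) hz𝔪 hϖ𝔪 hgen₂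
      hcspan (by
        show e (algebraMap ↥T Rt z) = e (algebraMap ↥T Rt (algebraMap O ↥T (ev h z)))
        rw [hez, ← IsScalarTower.algebraMap_apply O ↥T Rt, AlgHom.commutes]
        rfl)
      (by
        show e (algebraMap ↥T Rt (algebraMap O ↥T ϖ)) ≠ 0
        rw [← IsScalarTower.algebraMap_apply O ↥T Rt, AlgHom.commutes]
        exact hϖ0) hr
    refine ⟨q, ?_⟩
    rw [hq, hez, ← IsScalarTower.algebraMap_apply O ↥T Rt]
  -- the three hypotheses
  have hev' := NodeD.algebraMap_sub_const_mem (O := O) (Rt := Rt) (R := R) e hz' hn huv hGu hevz hker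
  have hv' := NodeD.ev_repr_pow_succ_mem (O := O) (Rt := Rt) (R := R) (Ft := F') (F := F) e hdeg hspan
    hz' hE₁ huv hevz
  have hcap := NodeD.mem_span_of_algebraMap_mem (O := O) (Rt := Rt) (R := R) e b hb hz' hA₁ hn hevz hv'
  refine ⟨b, e, hb, hev', hv', hcap, fun w hw => ?_⟩
  -- norms and values
  have hnorm : algebraMap Rt F' (Algebra.norm Rt w) = Algebra.norm F' (algebraMap R F w) :=
    algebraMap_norm_of_basis b w
  have hNu : IsUnit (Algebra.norm Rt w) := hw.map (Algebra.norm Rt)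
  rw [← hnorm]
  exact ⟨valuation_algebraMap_eq_one h (𝔫.comap f) hc hNu,
    (valT_algebraMap h (𝔫.comap f) hc (Algebra.norm Rt w)).2⟩

end OneSide

/-! ### Both sides (abstract) -/

section TwoSides

variable {O K F' : Type*} [CommRing O] [IsDomain O] [IsDiscreteValuationRing O]
  [Field K] [Algebra O K] [IsFractionRing O K]
  [Field F'] [Algebra K F'] [Algebra O F'] [IsScalarTower O K F']
  {T : Subalgebra O F'} [IsFractionRing ↥T F'] [IsNoetherianRing ↥T]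
  {S F : Type*} [CommRing S] [IsDomain S] [Field F] [Algebra O S] [Algebra S F] [IsFractionRing S F]
  (fα fβ : ↥T →+* S) (hfOα : ∀ a : O, fα (algebraMap O ↥T a) = algebraMap O S a)
  (hfOβ : ∀ a : O, fβ (algebraMap O ↥T a) = algebraMap O S a)
  (γα γβ : F' →+* F) (hfγα : ∀ a : ↥T, algebraMap S F (fα a) = γα (a : F'))
  (hfγβ : ∀ a : ↥T, algebraMap S F (fβ a) = γβ (a : F'))
  (𝔫 : Ideal S) [h𝔫 : 𝔫.IsPrime]

include hfOα hfOβ hfγα hfγβ in
/-- **(R4)(d) from chart-level data (abstract)**: for every unit `w` of `B_𝔫`, the two field norms of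
(the image of) `w` are units at the two test places, with values in `Oˣ` congruent modulo `p`. -/
theorem twoSides {n : ℕ} (hn : 1 ≤ n)
    (hfinα : fα.Finite) (hfinβ : fβ.Finite)
    (honeα : ∀ 𝔮 : Ideal S, 𝔮.IsPrime → 𝔮.comap fα = 𝔫.comap fα → 𝔮 = 𝔫)
    (honeβ : ∀ 𝔮 : Ideal S, 𝔮.IsPrime → 𝔮.comap fβ = 𝔫.comap fβ → 𝔮 = 𝔫)
    (hdegα : letI := γα.toAlgebra; Module.finrank F' F = n + 1)
    (hdegβ : letI := γβ.toAlgebra; Module.finrank F' F = n + 1)
    (hsurjα : ∀ b : S, ∃ a : ↥T, b - fα a ∈ 𝔫) (hsurjβ : ∀ b : S, ∃ a : ↥T, b - fβ a ∈ 𝔫)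
    {p ϖ : O} (hpϖ : p ∈ Ideal.span {ϖ}) (hϖ0 : ϖ ≠ 0) (hϖ𝔫 : algebraMap O S ϖ ∈ 𝔫)
    {u v G : S} (hu : u ∈ 𝔫) (hv : v ∈ 𝔫) (hG : G ∉ 𝔫) (huv : u * v = G * algebraMap O S p)
    (hgen : ∃ c, c ∉ 𝔫 ∧ ∀ r ∈ 𝔫, ∃ a b d, c * r = a * u + b * v + d * algebraMap O S ϖ)
    {zα zβ : ↥T} (hzα𝔪 : zα ∈ 𝔫.comap fα) (hzβ𝔪 : zβ ∈ 𝔫.comap fβ)
    (hgenα : ∃ c, c ∉ 𝔫.comap fα ∧ ∀ r ∈ 𝔫.comap fα, ∃ a d,
      c * r = a * zα + d * algebraMap O ↥T ϖ)
    (hgenβ : ∃ c, c ∉ 𝔫.comap fβ ∧ ∀ r ∈ 𝔫.comap fβ, ∃ a d,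
      c * r = a * zβ + d * algebraMap O ↥T ϖ)
    (hzα : ∃ s A E : S, s ∉ 𝔫 ∧ A ∉ 𝔫 ∧ E ∉ 𝔫 ∧ s * fα zα = u * A + v ^ n * E)
    (hzβ : ∃ s A E : S, s ∉ 𝔫 ∧ A ∉ 𝔫 ∧ E ∉ 𝔫 ∧ s * fβ zβ = v * A + u ^ n * E)
    (Qα Qβ : Place K F') (hQα : Function.Bijective (algebraMap K Qα.ResidueField))
    (hQβ : Function.Bijective (algebraMap K Qβ.ResidueField))
    (hα : IsSection T Qα hQα) (hβ : IsSection T Qβ hQβ)
    (hcα : centre hα = 𝔫.comap fα) (hcβ : centre hβ = 𝔫.comap fβ)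
    (hevα : ev hα zα ∈ Ideal.span {p}) (hevβ : ev hβ zβ ∈ Ideal.span {p}) :
    letI := fracAlgebra 𝔫 (Localization.AtPrime 𝔫) F
    ∀ w : Localization.AtPrime 𝔫, IsUnit w →
      Qα.toValuationSubring.valuation
        (@Algebra.norm F' F _ _ γα.toAlgebra (algebraMap (Localization.AtPrime 𝔫) F w)) = 1 ∧
      Qβ.toValuationSubring.valuation
        (@Algebra.norm F' F _ _ γβ.toAlgebra (algebraMap (Localization.AtPrime 𝔫) F w)) = 1 ∧
      ∃ a b d : O, IsUnit a ∧ IsUnit b ∧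
        valT Qα hQα
          (@Algebra.norm F' F _ _ γα.toAlgebra (algebraMap (Localization.AtPrime 𝔫) F w)) =
            algebraMap O K a ∧
        valT Qβ hQβ
          (@Algebra.norm F' F _ _ γβ.toAlgebra (algebraMap (Localization.AtPrime 𝔫) F w)) =
            algebraMap O K b ∧
        a = b + p * d := by
  letI := fracAlgebra 𝔫 (Localization.AtPrime 𝔫) F
  letI := locAlgebra fα 𝔫
  letI := locAlgebra fβ 𝔫
  have hvu : v * u = G * algebraMap O S p := by rw [mul_comm]; exact huv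
  have hgen' : ∃ c, c ∉ 𝔫 ∧ ∀ r ∈ 𝔫, ∃ a b d, c * r = a * v + b * u + d * algebraMap O S ϖ := by
    obtain ⟨c, hc, hg⟩ := hgen
    refine ⟨c, hc, fun r hr => ?_⟩
    obtain ⟨a, b, d, habd⟩ := hg r hr
    exact ⟨b, a, d, by rw [habd]; ring⟩
  obtain ⟨bα, eα, hbα, hevα', hvα, hcap, hNα⟩ := oneSide fα hfOα γα hfγα 𝔫 hn hfinα honeα hdegα
    hsurjα hpϖ hϖ0 hϖ𝔫 hu hv hG huv hgen hzα𝔪 hgenα hzα Qα hQα hα hcα hevα
  obtain ⟨bβ, eβ, hbβ, hevβ', hvβ, -, hNβ⟩ := oneSide fβ hfOβ γβ hfγβ 𝔫 hn hfinβ honeβ hdegβ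
    hsurjβ hpϖ hϖ0 hϖ𝔫 hv hu hG hvu hgen' hzβ𝔪 hgenβ hzβ Qβ hQβ hβ hcβ hevβ
  intro w hw
  obtain ⟨h1α, h2α⟩ := hNα w hw
  obtain ⟨h1β, h2β⟩ := hNβ w hw
  refine ⟨h1α, h1β, ?_⟩
  have hevβ'' : ∀ r : Localization.AtPrime (𝔫.comap fβ),
      algebraMap (Localization.AtPrime (𝔫.comap fβ)) (Localization.AtPrime 𝔫) r -
        algebraMap O (Localization.AtPrime 𝔫) (eβ r) ∈
      Ideal.span {algebraMap S (Localization.AtPrime 𝔫) u,
        algebraMap S (Localization.AtPrime 𝔫) v} := by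
    intro r
    have := hevβ' r
    rwa [Set.pair_comm] at this
  have key := FibreNorm.map_norm_sub_map_norm_mem bα bβ
    (algebraMap S (Localization.AtPrime 𝔫) u) (algebraMap S (Localization.AtPrime 𝔫) v) hbα hbβ
    (eα : Localization.AtPrime (𝔫.comap fα) →+* O) (eβ : Localization.AtPrime (𝔫.comap fβ) →+* O)
    (algebraMap O (Localization.AtPrime 𝔫)) p hevα' hevβ'' hvα hvβ hcap w
  obtain ⟨d, hd⟩ := Ideal.mem_span_singleton'.1 key
  refine ⟨eα (Algebra.norm (Localization.AtPrime (𝔫.comap fα)) w),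
    eβ (Algebra.norm (Localization.AtPrime (𝔫.comap fβ)) w), d,
    (hw.map (Algebra.norm (Localization.AtPrime (𝔫.comap fα)))).map eα,
    (hw.map (Algebra.norm (Localization.AtPrime (𝔫.comap fβ)))).map eβ, h2α, h2β, ?_⟩
  have hd' : eα (Algebra.norm (Localization.AtPrime (𝔫.comap fα)) w) -
      eβ (Algebra.norm (Localization.AtPrime (𝔫.comap fβ)) w) = d * p := hd.symm
  linear_combination hd'

end TwoSides

/-! ### One level `(K, O)` -/

section Level

open ModularCurve Fermat.Agent.S28.Gauss Fermat.Agent.N4.Setting Fermat.Agent.N4.FibreEmbedding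
open Fermat.Agent.N4.Chart
open Fermat.Agent.N4F.E.DegreeLevelRaise Fermat.Agent.N4F.E.GaussDVR
open Fermat.Agent.N4F.E Fermat.Agent.P3G.RbarFin Fermat.Agent.P3G.TwoComponents
open Fermat.Agent.P3G.TwoComponentsFinal Fermat.Agent.P3G Fermat.Agent.P4
open Fermat.Agent.P4.TwistRoots Fermat.Agent.P4.FrobStep

variable (K : Type) [Field K] [CharZero K] (N : ℕ) [NeZero N] (ℓ : ℕ) [Fact ℓ.Prime]
  (O : Subring K) [IsDiscreteValuationRing ↥O] [IsFractionRing ↥O K]
  [CharP (IsLocalRing.ResidueField ↥O) ℓ] [PerfectRing (IsLocalRing.ResidueField ↥O) ℓ]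

set_option synthInstance.maxHeartbeats 400000

variable (hN : IsUnit ((N : ℕ) : ↥O)) (ι : K →+* ℂ) (hℓN : ¬ ℓ ∣ N)
  (hprime : (fibreIdeal K N O (Rfin K N O)).IsPrime)
  (hsmooth : IsDedekindDomain (↥(Rfin K N O) ⧸ fibreIdeal K N O (Rfin K N O)))
  (hA2 : ∀ x : ↥(gaussSubalgebra K N O),
    theta K N O x ∈ modularFunctionFieldFullC (IsLocalRing.ResidueField ↥O) N)
  (S₂ : FibreTwo.SecondVal K N ℓ O)
  {ϖ : ↥O} (hϖ : Irreducible ϖ)
  (𝔫 : Ideal ↥(Rfin K (N * ℓ) O)) [h𝔫 : 𝔫.IsPrime]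
  (hk1 : RingHom.ker (thetaFin K (N * ℓ) O) ≤ 𝔫)
  (hk2 : RingHom.ker (theta2S K N ℓ O S₂) ≤ 𝔫)

include hN ι hℓN hprime hsmooth hA2 S₂ hk1 in
/-- `hres`, `α`-side, chart form: `θ₁ ∘ α = θ` is onto. -/
theorem exists_sub_alphaR_mem (b : ↥(Rfin K (N * ℓ) O)) :
    ∃ a : ↥(Rfin K N O), b - (LevelIntegrality.alphaR K N ℓ O).toRingHom a ∈ 𝔫 := by
  have hD := crossingData_fin K N ℓ O hN ι hℓN hprime hsmooth hA2 S₂
  obtain ⟨a, ha⟩ := hD.surj (CrossingLaurent.res (RbarFin K N O) (thetaFin K (N * ℓ) O)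
    (thetaFin_mem_rbar K N ℓ O hN ι hℓN hprime hsmooth hA2 S₂) b)
  refine ⟨a, ?_⟩
  have hk1' := (NodeFinite.ker_res_thetaFin_le_iff K N ℓ O hN ι hℓN hprime hsmooth hA2 S₂ 𝔫).mpr
    (NodeFiniteKer.through_gauss_of_ker K N ℓ O hN ι hℓN hprime hsmooth hA2 S₂ 𝔫 hk1)
  apply hk1'
  rw [RingHom.mem_ker, map_sub, hD.h1, ha, sub_self]

include hN ι hℓN hprime hsmooth hA2 hk2 in
/-- `hres`, `β`-side, chart form: `θ₂ ∘ β = θ` is onto. -/
theorem exists_sub_betaR_mem (b : ↥(Rfin K (N * ℓ) O)) :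
    ∃ a : ↥(Rfin K N O), b - (LevelIntegrality.betaR K N ℓ O).toRingHom a ∈ 𝔫 := by
  have hD := crossingData_fin K N ℓ O hN ι hℓN hprime hsmooth hA2 S₂
  obtain ⟨a, ha⟩ := hD.surj (CrossingLaurent.res (RbarFin K N O) (theta2S K N ℓ O S₂)
    (theta2S_mem_rbar K N ℓ O hN hprime hsmooth hA2 S₂) b)
  refine ⟨a, ?_⟩
  have hk2' := (NodeFinite.ker_res_theta2S_le_iff K N ℓ O hN hprime hsmooth hA2 S₂ 𝔫).mpr
    (NodeFiniteKer.through_second_of_ker K N ℓ O hN hprime hsmooth hA2 S₂ 𝔫 hk2)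
  apply hk2'
  rw [RingHom.mem_ker, map_sub, hD.h2, ha, sub_self]

include hϖ in
/-- The residue characteristic lies in `(ϖ)`. -/
theorem natCast_mem_span_uniformiser : ((ℓ : ℕ) : ↥O) ∈ Ideal.span {ϖ} := by
  rw [← hϖ.maximalIdeal_eq, ← IsLocalRing.residue_eq_zero_iff, map_natCast]
  exact CharP.cast_eq_zero _ ℓ

include hN ι hℓN hprime hsmooth hA2 hϖ hk1 hk2 in
/-- **(R4b) at one level `(K, O)`**, from chart-level data: (D6) the node equation `u v = G ℓ`,
(D3) `𝔫 = (u, v, ϖ)` locally, (D2) local parameters `zα`, `zβ` at the two image points, (D5) the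
expansions of `α zα`, `β zβ`, (D7) two test sections through the image points at which `zα`, `zβ`
take values in `ℓ O`.  For every unit `W` of the local ring at `𝔫`: the norms of `W` along `α` and
`β` are units at the test places, their values lie in `Oˣ` and are congruent modulo `ℓ`. -/
theorem r4b_fin
    {u v G : ↥(Rfin K (N * ℓ) O)} (hu : u ∈ 𝔫) (hv : v ∈ 𝔫) (hG : G ∉ 𝔫)
    (huv : u * v = G * algebraMap ↥O ↥(Rfin K (N * ℓ) O) ((ℓ : ℕ) : ↥O))
    (hgen : ∃ c, c ∉ 𝔫 ∧ ∀ r ∈ 𝔫, ∃ a b d,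
      c * r = a * u + b * v + d * algebraMap ↥O ↥(Rfin K (N * ℓ) O) ϖ)
    {zα zβ : ↥(Rfin K N O)}
    (hzα𝔪 : zα ∈ 𝔫.comap (LevelIntegrality.alphaR K N ℓ O).toRingHom)
    (hzβ𝔪 : zβ ∈ 𝔫.comap (LevelIntegrality.betaR K N ℓ O).toRingHom)
    (hgenα : ∃ c, c ∉ 𝔫.comap (LevelIntegrality.alphaR K N ℓ O).toRingHom ∧
      ∀ r ∈ 𝔫.comap (LevelIntegrality.alphaR K N ℓ O).toRingHom, ∃ a d,
        c * r = a * zα + d * algebraMap ↥O ↥(Rfin K N O) ϖ)
    (hgenβ : ∃ c, c ∉ 𝔫.comap (LevelIntegrality.betaR K N ℓ O).toRingHom ∧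
      ∀ r ∈ 𝔫.comap (LevelIntegrality.betaR K N ℓ O).toRingHom, ∃ a d,
        c * r = a * zβ + d * algebraMap ↥O ↥(Rfin K N O) ϖ)
    (hzα : ∃ s A E : ↥(Rfin K (N * ℓ) O), s ∉ 𝔫 ∧ A ∉ 𝔫 ∧ E ∉ 𝔫 ∧
      s * LevelIntegrality.alphaR K N ℓ O zα = u * A + v ^ ℓ * E)
    (hzβ : ∃ s A E : ↥(Rfin K (N * ℓ) O), s ∉ 𝔫 ∧ A ∉ 𝔫 ∧ E ∉ 𝔫 ∧
      s * LevelIntegrality.betaR K N ℓ O zβ = v * A + u ^ ℓ * E)
    (Qα Qβ : Place K (FF K N)) (hQα : Function.Bijective (algebraMap K Qα.ResidueField))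
    (hQβ : Function.Bijective (algebraMap K Qβ.ResidueField))
    (hα : IsSection (Rfin K N O) Qα hQα) (hβ : IsSection (Rfin K N O) Qβ hQβ)
    (hcα : centre hα = 𝔫.comap (LevelIntegrality.alphaR K N ℓ O).toRingHom)
    (hcβ : centre hβ = 𝔫.comap (LevelIntegrality.betaR K N ℓ O).toRingHom)
    (hevα : ev hα zα ∈ Ideal.span {((ℓ : ℕ) : ↥O)})
    (hevβ : ev hβ zβ ∈ Ideal.span {((ℓ : ℕ) : ↥O)}) :
    ∀ W : FF K (N * ℓ), IsUnitAt 𝔫 W →
      Qα.toValuationSubring.valuation (normAlong (alphaF K N ℓ) W) = 1 ∧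
      Qβ.toValuationSubring.valuation (normAlong (betaF K N ℓ) W) = 1 ∧
      ∃ a b d : ↥O, IsUnit a ∧ IsUnit b ∧
        valT Qα hQα (normAlong (alphaF K N ℓ) W) = algebraMap ↥O K a ∧
        valT Qβ hQβ (normAlong (betaF K N ℓ) W) = algebraMap ↥O K b ∧
        a = b + ((ℓ : ℕ) : ↥O) * d := by
  haveI := Fermat.Agent.N4.ModPolySetting.finiteDimensional_FF K N
  haveI := Fermat.Agent.N4.ModPolySetting.finiteDimensional_FF K (N * ℓ)
  have hj := Fermat.Agent.N4.FFAlgebraic.transcendental_jF K N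
  have hj' := Fermat.Agent.N4.FFAlgebraic.transcendental_jF K (N * ℓ)
  haveI : IsNoetherianRing ↥(Rfin K N O) :=
    Fermat.Agent.N4.IntClosure.isNoetherianRing_chartAlg (K := K) (jF K N) hj
  haveI : IsFractionRing ↥(Rfin K N O) (FF K N) :=
    Fermat.Agent.N4.Cover.Main.isFractionRing_chartAlg (O := ↥O) (K₀ := K) (jF K N) hj
  haveI : IsFractionRing ↥(Rfin K (N * ℓ) O) (FF K (N * ℓ)) :=
    Fermat.Agent.N4.Cover.Main.isFractionRing_chartAlg (O := ↥O) (K₀ := K) (jF K (N * ℓ)) hj'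
  have hS := BranchNormalLevel.setup_fin K N ℓ O hN ι hℓN hprime hsmooth hA2 S₂ hϖ
  have ht₁ := NodeFiniteKer.through_gauss_of_ker K N ℓ O hN ι hℓN hprime hsmooth hA2 S₂ 𝔫 hk1
  have hϖ𝔫 : algebraMap ↥O ↥(Rfin K (N * ℓ) O) ϖ ∈ 𝔫 := ht₁ _ hS.pi₁
  have hℓ1 : 1 ≤ ℓ := (Fact.out : ℓ.Prime).one_lt.le
  have key := twoSides (O := ↥O) (K := K) (F' := FF K N) (T := Rfin K N O)
    (S := ↥(Rfin K (N * ℓ) O)) (F := FF K (N * ℓ))
    (LevelIntegrality.alphaR K N ℓ O).toRingHom (LevelIntegrality.betaR K N ℓ O).toRingHom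
    (fun a => (LevelIntegrality.alphaR K N ℓ O).commutes a)
    (fun a => (LevelIntegrality.betaR K N ℓ O).commutes a)
    (alphaF K N ℓ).toRingHom (betaF K N ℓ).toRingHom (fun _ => rfl) (fun _ => rfl) 𝔫 hℓ1
    (NodeFinite.alphaR_finite K N ℓ O ι hℓN) (NodeFinite.betaR_finite K N ℓ O ι hℓN)
    (fun 𝔮 h𝔮 h => by
      haveI := h𝔮
      exact NodeFiniteKer.eq_of_comap_alphaR_eq_of_ker K N ℓ O hN ι hℓN hprime hsmooth hA2 S₂ 𝔫
        hk1 hk2 𝔮 h)
    (fun 𝔮 h𝔮 h => by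
      haveI := h𝔮
      exact NodeFiniteKer.eq_of_comap_betaR_eq_of_ker K N ℓ O hN ι hℓN hprime hsmooth hA2 S₂ 𝔫
        hk1 hk2 𝔮 h)
    (AlphaSide.finrank_alpha K N ℓ ι hℓN) (BetaSide.finrank_beta K N ℓ ι hℓN)
    (exists_sub_alphaR_mem K N ℓ O hN ι hℓN hprime hsmooth hA2 S₂ 𝔫 hk1)
    (exists_sub_betaR_mem K N ℓ O hN ι hℓN hprime hsmooth hA2 S₂ 𝔫 hk2)
    (natCast_mem_span_uniformiser K ℓ O hϖ) hϖ.ne_zero hϖ𝔫 hu hv hG huv hgen hzα𝔪 hzβ𝔪 hgenα hgenβ
    hzα hzβ Qα Qβ hQα hQβ hα hβ hcα hcβ hevα hevβ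
  intro W hW
  letI := fracAlgebra 𝔫 (Localization.AtPrime 𝔫) (FF K (N * ℓ))
  haveI := fracAlgebra_isScalarTower 𝔫 (Localization.AtPrime 𝔫) (FF K (N * ℓ))
  obtain ⟨w, rfl⟩ := (isUnitAt_iff (R := Localization.AtPrime 𝔫) 𝔫 (L := FF K (N * ℓ))
    (x := W)).1 hW
  exact key (w : Localization.AtPrime 𝔫) w.isUnit

end Level

end Fermat.Agent.S40.M1.NodeDLevelB
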