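/-
S44 / S40 (row 38), T6′ / (R4), referee flag (X1) of dispatch #3216, parts (a) + (b) (helper3):
**the crossing points of the finite chart of level `N ℓ` are FINITE in number, and every crossing
point of a big level lies over one of the small level.**

* `crossingSet K N ℓ O S₂` : the maximal ideals `𝔫` of `Rfin K (N ℓ) O` with
  `Through (gaussVS K (N ℓ) O) 𝔫 ∧ Through S₂.V 𝔫` (the supersingular points of the finite chart);
  `unif_mem_of_mem_crossingSet`, `ker_le_of_mem_crossingSet₁/₂` (the `hk1 hk2` of `crossingData_fin`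
  consumers), `mem_crossingSet_of_ker_le`;
* `sepR` : the separating element `α j − (β j) ^ ℓ` as an element of the chart; it lies in every
  crossing point and its Gauss reduction is `≠ 0`;
* ★ `finite_crossingSet` : **(a)** the set of crossing points is finite (they inject, via `θ₁`,
  into the maximal ideals of the Dedekind domain `RbarFin K N O` containing `θ₁ (sepR) ≠ 0`);
  `finite_maximal_of_mem` (Dedekind domains, Mathlib only);
* ★ `comap_mem_crossingSet` : **(b)** for two levels `K₀ ≤ K` of `Q̄` (big residue field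
  algebraically closed, residue field of `K₀` onto `κ(A)`): `𝔫 ∈ crossingSet (K) ⟹
  𝔫.comap finIncl ∈ crossingSet (K₀)` (= `LevelComap.crossing_comap`);
* ★ `exists_finiteDimensional_forall_of_finite`, `exists_level_forall_crossing`,
  `exists_level_forall_crossing_above` : a number field `K₁` chosen for each of the finitely many
  crossing points `𝔫₀` of the small level can be chosen UNIFORMLY, and then serves every crossing
  point `𝔫` of every bigger level through `𝔫₀ = 𝔫.comap finIncl` (quantifier order of `T6Out`).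
-/
import Mathlib
import Fermat.Agent.S40.M1.LevelComap
import Fermat.Agent.P3G.TwoComponentsFinal
import Fermat.Agent.P3G.LevelIntegrality

set_option autoImplicit false
set_option linter.unusedSectionVars false
set_option linter.unusedVariables false
set_option linter.style.haveILetI false
set_option synthInstance.maxHeartbeats 400000
set_option maxHeartbeats 800000

open ModularCurve AlgebraicCurve

noncomputable section

namespace Fermat.Agent.S40.M1.SSFinite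

/-! ### Dedekind domains: finitely many maximal ideals contain a nonzero element -/

theorem finite_maximal_of_mem {D : Type*} [CommRing D] [IsDedekindDomain D] {y : D}
    (hy : y ≠ 0) : {P : Ideal D | P.IsMaximal ∧ y ∈ P}.Finite := by
  classical
  have hI : Ideal.span {y} ≠ 0 := by
    rw [Ne, Ideal.zero_eq_bot, Ideal.span_singleton_eq_bot]
    exact hy
  have hfin := Ideal.finite_factors hI
  refine (hfin.image (fun v => v.asIdeal)).subset ?_
  rintro P ⟨hP, hyP⟩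
  have hPne : P ≠ ⊥ := by
    intro h
    rw [h, Ideal.mem_bot] at hyP
    exact hy hyP
  refine ⟨⟨P, hP.isPrime, hPne⟩, ?_, rfl⟩
  show P ∣ Ideal.span {y}
  rw [Ideal.dvd_iff_le, Ideal.span_singleton_le_iff_mem]
  exact hyP

/-! ### Number fields chosen over a finite set can be chosen uniformly -/

local notation "Qb" => AlgebraicClosure ℚ

theorem exists_finiteDimensional_forall_of_finite {ι : Type*} {s : Set ι} (hs : s.Finite)
    {P : ι → IntermediateField ℚ Qb → Prop}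
    (hmono : ∀ i (K₁ K₂ : IntermediateField ℚ Qb), K₁ ≤ K₂ → P i K₁ → P i K₂)
    (h : ∀ i ∈ s, ∃ K₁ : IntermediateField ℚ Qb, FiniteDimensional ℚ K₁ ∧ P i K₁) :
    ∃ K₁ : IntermediateField ℚ Qb, FiniteDimensional ℚ K₁ ∧ ∀ i ∈ s, P i K₁ := by
  induction s, hs using Set.Finite.induction_on with
  | empty => exact ⟨⊥, inferInstance, fun i hi => absurd hi (Set.notMem_empty i)⟩
  | @insert a t hat ht ih =>
    obtain ⟨K₁, hK₁, hP₁⟩ := ih (fun i hi => h i (Set.mem_insert_of_mem a hi))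
    obtain ⟨K₂, hK₂, hP₂⟩ := h a (Set.mem_insert a t)
    refine ⟨K₁ ⊔ K₂, inferInstance, fun i hi => ?_⟩
    rcases hi with rfl | hi
    · exact hmono _ K₂ _ le_sup_right hP₂
    · exact hmono i K₁ _ le_sup_left (hP₁ i hi)

open Fermat.Agent.N4.Setting Fermat.Agent.N4.Chart Fermat.Agent.N4.BaseDescent
  Fermat.Agent.N4.FibreEmbedding Fermat.Agent.S28.Gauss
  Fermat.Agent.N4F.C Fermat.Agent.N4F.C.Levels Fermat.Agent.N4F.C.LevelCharts
  Fermat.Agent.N4F.E.DegreeLevelRaise Fermat.Agent.N4F.E.GaussDVR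
  Fermat.Agent.S19.Cech.LevelBasis
  Fermat.Agent.P3G Fermat.Agent.P3G.FibreTwo Fermat.Agent.P4.TwistRoots
  Fermat.Agent.P3G.RbarFin Fermat.Agent.P3G.LevelIntegrality
  Fermat.Agent.P3G.TwoComponentsFinal

/-! ### One level -/

section OneLevel

variable (K : Type) [Field K] [CharZero K] (N : ℕ) [NeZero N] (ℓ : ℕ) [Fact ℓ.Prime]
  (O : Subring K) [IsDiscreteValuationRing ↥O] [IsFractionRing ↥O K]
  [CharP (IsLocalRing.ResidueField ↥O) ℓ] [PerfectRing (IsLocalRing.ResidueField ↥O) ℓ]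
  (S₂ : FibreTwo.SecondVal K N ℓ O)

/-- **The crossing points** (supersingular points) of the finite chart of level `N ℓ`. -/
def crossingSet : Set (Ideal ↥(Rfin K (N * ℓ) O)) :=
  {𝔫 | 𝔫.IsMaximal ∧ Through (gaussVS K (N * ℓ) O) 𝔫 ∧ Through S₂.V 𝔫}

theorem mem_crossingSet_iff {𝔫 : Ideal ↥(Rfin K (N * ℓ) O)} :
    𝔫 ∈ crossingSet K N ℓ O S₂ ↔
      𝔫.IsMaximal ∧ Through (gaussVS K (N * ℓ) O) 𝔫 ∧ Through S₂.V 𝔫 := Iff.rfl

/-- The uniformiser lies in every ideal through the centre of `V₁`. -/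
theorem unif_mem_of_through {𝔫 : Ideal ↥(Rfin K (N * ℓ) O)}
    (h : Through (gaussVS K (N * ℓ) O) 𝔫) {ϖ : ↥O} (hϖ : Irreducible ϖ) :
    algebraMap ↥O ↥(Rfin K (N * ℓ) O) ϖ ∈ 𝔫 := by
  apply h
  have hmem : algebraMap ↥O (FF K (N * ℓ)) ϖ ∈ gaussSubalgebra K (N * ℓ) O :=
    (gaussSubalgebra K (N * ℓ) O).algebraMap_mem ϖ
  exact (mem_nonunits_gaussVS_iff K (N * ℓ) O hmem).mpr (theta_unif K (N * ℓ) O hϖ)

theorem unif_mem_of_mem_crossingSet {𝔫 : Ideal ↥(Rfin K (N * ℓ) O)}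
    (h : 𝔫 ∈ crossingSet K N ℓ O S₂) {ϖ : ↥O} (hϖ : Irreducible ϖ) :
    algebraMap ↥O ↥(Rfin K (N * ℓ) O) ϖ ∈ 𝔫 :=
  unif_mem_of_through K N ℓ O h.2.1 hϖ

/-- `Through V₁ 𝔫 ↔ ker θ₁ ≤ 𝔫`. -/
theorem through_gaussVS_iff {𝔫 : Ideal ↥(Rfin K (N * ℓ) O)} :
    Through (gaussVS K (N * ℓ) O) 𝔫 ↔ RingHom.ker (thetaFin K (N * ℓ) O) ≤ 𝔫 := by
  constructor
  · intro h r hr
    apply h
    have hmem : (r : FF K (N * ℓ)) ∈ gaussSubalgebra K (N * ℓ) O :=
      chartAlg_le_gaussSubalgebra K (N * ℓ) O (sFin_le_gauss K (N * ℓ) O) r.2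
    exact (mem_nonunits_gaussVS_iff K (N * ℓ) O hmem).mpr hr
  · intro h r hr
    apply h
    have hmem : (r : FF K (N * ℓ)) ∈ gaussSubalgebra K (N * ℓ) O :=
      chartAlg_le_gaussSubalgebra K (N * ℓ) O (sFin_le_gauss K (N * ℓ) O) r.2
    exact (mem_nonunits_gaussVS_iff K (N * ℓ) O hmem).mp hr

/-- `Through V₂ 𝔫 ↔ ker θ₂ ≤ 𝔫`. -/
theorem through_secondVal_iff {𝔫 : Ideal ↥(Rfin K (N * ℓ) O)} :
    Through S₂.V 𝔫 ↔ RingHom.ker (theta2S K N ℓ O S₂) ≤ 𝔫 := by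
  constructor
  · intro h r hr
    apply h
    have e := theta2S_apply K N ℓ O S₂ r
    rw [(RingHom.mem_ker).1 hr] at e
    exact (S₂.ev_eq_zero_iff _).1 e.symm
  · intro h r hr
    apply h
    rw [RingHom.mem_ker, theta2S_apply]
    exact (S₂.ev_eq_zero_iff _).2 hr

theorem mem_crossingSet_iff_ker_le {𝔫 : Ideal ↥(Rfin K (N * ℓ) O)} :
    𝔫 ∈ crossingSet K N ℓ O S₂ ↔ 𝔫.IsMaximal ∧ RingHom.ker (thetaFin K (N * ℓ) O) ≤ 𝔫 ∧
      RingHom.ker (theta2S K N ℓ O S₂) ≤ 𝔫 := by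
  rw [mem_crossingSet_iff, through_gaussVS_iff, through_secondVal_iff]

/-- The separating element `α j − (β j) ^ ℓ` as an element of the finite chart. -/
def sepR : ↥(Rfin K (N * ℓ) O) :=
  alphaR K N ℓ O (jFin K N O) - betaR K N ℓ O (jFin K N O) ^ ℓ

theorem coe_sepR : ((sepR K N ℓ O : ↥(Rfin K (N * ℓ) O)) : FF K (N * ℓ)) =
    LevelComap.sepElt K N ℓ := rfl

theorem sepR_mem_of_through {𝔫 : Ideal ↥(Rfin K (N * ℓ) O)} (h : Through S₂.V 𝔫) :
    sepR K N ℓ O ∈ 𝔫 :=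
  h _ (LevelComap.sepElt_mem_nonunits_secondVal K N ℓ O S₂)

theorem thetaFin_sepR_ne_zero : thetaFin K (N * ℓ) O (sepR K N ℓ O) ≠ 0 := by
  rw [thetaFin_apply]
  exact LevelComap.theta_sepElt_ne_zero K N ℓ O

variable (hN : IsUnit ((N : ℕ) : ↥O)) (ι : K →+* ℂ) (hℓN : ¬ ℓ ∣ N)
  (hprime : (fibreIdeal K N O (Rfin K N O)).IsPrime)
  (hsmooth : IsDedekindDomain (↥(Rfin K N O) ⧸ fibreIdeal K N O (Rfin K N O)))
  (hA2 : ∀ x : ↥(gaussSubalgebra K N O),
    theta K N O x ∈ modularFunctionFieldFullC (IsLocalRing.ResidueField ↥O) N)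

include hN ι hℓN hprime hsmooth hA2 in
/-- ★ **(a) The crossing points of the finite chart of level `N ℓ` are finite in number.** -/
theorem finite_crossingSet : (crossingSet K N ℓ O S₂).Finite := by
  haveI : IsDedekindDomain ↥(RbarFin K N O) := isDedekindDomain_RbarFin K N O hprime hsmooth
  have hD := crossingData_fin K N ℓ O hN ι hℓN hprime hsmooth hA2 S₂
  have hy : CrossingLaurent.res (RbarFin K N O) (thetaFin K (N * ℓ) O)
      (thetaFin_mem_rbar K N ℓ O hN ι hℓN hprime hsmooth hA2 S₂) (sepR K N ℓ O) ≠ 0 :=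
    fun h => thetaFin_sepR_ne_zero K N ℓ O (congrArg Subtype.val h)
  have hfin := finite_maximal_of_mem hy
  refine (hfin.image (fun P => P.comap (CrossingLaurent.res (RbarFin K N O)
    (thetaFin K (N * ℓ) O)
    (thetaFin_mem_rbar K N ℓ O hN ι hℓN hprime hsmooth hA2 S₂)))).subset ?_
  rintro 𝔫 ⟨h𝔫, ht₁, ht₂⟩
  have hk : RingHom.ker (CrossingLaurent.res (RbarFin K N O) (thetaFin K (N * ℓ) O)
      (thetaFin_mem_rbar K N ℓ O hN ι hℓN hprime hsmooth hA2 S₂)) ≤ 𝔫 := by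
    rw [CrossingLaurent.ker_res]
    exact (through_gaussVS_iff K N ℓ O).1 ht₁
  refine ⟨𝔫.map (CrossingLaurent.res (RbarFin K N O) (thetaFin K (N * ℓ) O)
    (thetaFin_mem_rbar K N ℓ O hN ι hℓN hprime hsmooth hA2 S₂)),
    ⟨Crossing.isMaximal_map _ hD.surj₁ 𝔫 hk,
      Ideal.mem_map_of_mem _ (sepR_mem_of_through K N ℓ O S₂ ht₂)⟩, ?_⟩
  show (𝔫.map _).comap _ = 𝔫
  rw [Ideal.comap_map_of_surjective _ hD.surj₁, ← RingHom.ker_eq_comap_bot]
  exact sup_eq_left.2 hk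

end OneLevel

/-! ### Two levels `K₀ ≤ K` of `Q̄` -/

section TwoLevels

variable {K₀ K : IntermediateField ℚ Qb} (hKK : K₀ ≤ K) (A : ValuationSubring Qb)
  [IsDiscreteValuationRing ↥(baseRing A K₀)] [IsDiscreteValuationRing ↥(baseRing A K)]
  [IsFractionRing ↥(baseRing A K₀) (Lvl K₀)] [IsFractionRing ↥(baseRing A K) (Lvl K)]
  (N : ℕ) [NeZero N] (ℓ : ℕ) [hℓ : Fact ℓ.Prime]
  [CharP (IsLocalRing.ResidueField ↥(baseRing A K₀)) ℓ]
  [CharP (IsLocalRing.ResidueField ↥(baseRing A K)) ℓ]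
  (S : SecondVal (Lvl K) N ℓ (baseRing A K)) (S₀ : SecondVal (Lvl K₀) N ℓ (baseRing A K₀))

/-- ★ **(b) Every crossing point of the big level lies over a crossing point of the small
level.** -/
theorem comap_mem_crossingSet [IsAlgClosed (IsLocalRing.ResidueField ↥(baseRing A K))]
    (hb₀ : Function.Surjective (IsLocalRing.ResidueField.map (baseIncl A K₀)))
    {𝔫 : Ideal ↥(Rfin (Lvl K) (N * ℓ) (baseRing A K))}
    (h : 𝔫 ∈ crossingSet (Lvl K) N ℓ (baseRing A K) S) :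
    𝔫.comap (finIncl A (N * ℓ) hKK) ∈ crossingSet (Lvl K₀) N ℓ (baseRing A K₀) S₀ := by
  obtain ⟨ϖ, hϖ⟩ := IsDiscreteValuationRing.exists_irreducible ↥(baseRing A K)
  haveI := h.1
  obtain ⟨h1, -, h3, h4⟩ := LevelComap.crossing_comap hKK A N ℓ S S₀ 𝔫 hb₀ hϖ
    (unif_mem_of_mem_crossingSet (Lvl K) N ℓ (baseRing A K) S h hϖ) h.2.1 h.2.2
  exact ⟨h1, h3, h4⟩

variable [PerfectRing (IsLocalRing.ResidueField ↥(baseRing A K₀)) ℓ]
  (hN : IsUnit ((N : ℕ) : ↥(baseRing A K₀))) (ι : Lvl K₀ →+* ℂ) (hℓN : ¬ ℓ ∣ N)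
  (hprime : (fibreIdeal (Lvl K₀) N (baseRing A K₀) (Rfin (Lvl K₀) N (baseRing A K₀))).IsPrime)
  (hsmooth : IsDedekindDomain (↥(Rfin (Lvl K₀) N (baseRing A K₀)) ⧸
    fibreIdeal (Lvl K₀) N (baseRing A K₀) (Rfin (Lvl K₀) N (baseRing A K₀))))
  (hA2 : ∀ x : ↥(gaussSubalgebra (Lvl K₀) N (baseRing A K₀)),
    theta (Lvl K₀) N (baseRing A K₀) x ∈
      modularFunctionFieldFullC (IsLocalRing.ResidueField ↥(baseRing A K₀)) N)

include hN ι hℓN hprime hsmooth hA2 in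
omit [IsDiscreteValuationRing ↥(baseRing A K)] [IsFractionRing ↥(baseRing A K) (Lvl K)]
  [CharP (IsLocalRing.ResidueField ↥(baseRing A K)) ℓ] in
/-- ★ A number field chosen for each crossing point of the small level can be chosen uniformly. -/
theorem exists_level_forall_crossing
    {P : Ideal ↥(Rfin (Lvl K₀) (N * ℓ) (baseRing A K₀)) → IntermediateField ℚ Qb → Prop}
    (hmono : ∀ 𝔫₀ (K₁ K₂ : IntermediateField ℚ Qb), K₁ ≤ K₂ → P 𝔫₀ K₁ → P 𝔫₀ K₂)
    (h : ∀ 𝔫₀ ∈ crossingSet (Lvl K₀) N ℓ (baseRing A K₀) S₀,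
      ∃ K₁ : IntermediateField ℚ Qb, FiniteDimensional ℚ K₁ ∧ P 𝔫₀ K₁) :
    ∃ K₁ : IntermediateField ℚ Qb, FiniteDimensional ℚ K₁ ∧
      ∀ 𝔫₀ ∈ crossingSet (Lvl K₀) N ℓ (baseRing A K₀) S₀, P 𝔫₀ K₁ :=
  exists_finiteDimensional_forall_of_finite
    (finite_crossingSet (Lvl K₀) N ℓ (baseRing A K₀) S₀ hN ι hℓN hprime hsmooth hA2) hmono h

end TwoLevels

/-- ★ **The quantifier order of `T6Out`**: data `P 𝔫₀ K₁` (monotone in the number field `K₁`)
available for each of the finitely many crossing points `𝔫₀` of the small level `K₀` give ONE number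
field `K₁` such that for every bigger level `K ⊇ K₁` (DVR, algebraically closed residue field, any
second valuation) and every crossing point `𝔫` of `K`: `P (𝔫.comap finIncl) K`. -/
theorem exists_level_forall_crossing_above {K₀ : IntermediateField ℚ Qb} (A : ValuationSubring Qb)
    [IsDiscreteValuationRing ↥(baseRing A K₀)] [IsFractionRing ↥(baseRing A K₀) (Lvl K₀)]
    (N : ℕ) [NeZero N] (ℓ : ℕ) [hℓ : Fact ℓ.Prime]
    [CharP (IsLocalRing.ResidueField ↥(baseRing A K₀)) ℓ]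
    [PerfectRing (IsLocalRing.ResidueField ↥(baseRing A K₀)) ℓ]
    (S₀ : SecondVal (Lvl K₀) N ℓ (baseRing A K₀))
    (hb₀ : Function.Surjective (IsLocalRing.ResidueField.map (baseIncl A K₀)))
    (hN : IsUnit ((N : ℕ) : ↥(baseRing A K₀))) (ι : Lvl K₀ →+* ℂ) (hℓN : ¬ ℓ ∣ N)
    (hprime : (fibreIdeal (Lvl K₀) N (baseRing A K₀) (Rfin (Lvl K₀) N (baseRing A K₀))).IsPrime)
    (hsmooth : IsDedekindDomain (↥(Rfin (Lvl K₀) N (baseRing A K₀)) ⧸
      fibreIdeal (Lvl K₀) N (baseRing A K₀) (Rfin (Lvl K₀) N (baseRing A K₀))))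
    (hA2 : ∀ x : ↥(gaussSubalgebra (Lvl K₀) N (baseRing A K₀)),
      theta (Lvl K₀) N (baseRing A K₀) x ∈
        modularFunctionFieldFullC (IsLocalRing.ResidueField ↥(baseRing A K₀)) N)
    {P : Ideal ↥(Rfin (Lvl K₀) (N * ℓ) (baseRing A K₀)) → IntermediateField ℚ Qb → Prop}
    (hmono : ∀ 𝔫₀ (K₁ K₂ : IntermediateField ℚ Qb), K₁ ≤ K₂ → P 𝔫₀ K₁ → P 𝔫₀ K₂)
    (h : ∀ 𝔫₀ ∈ crossingSet (Lvl K₀) N ℓ (baseRing A K₀) S₀,
      ∃ K₁ : IntermediateField ℚ Qb, FiniteDimensional ℚ K₁ ∧ P 𝔫₀ K₁) :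
    ∃ K₁ : IntermediateField ℚ Qb, FiniteDimensional ℚ K₁ ∧
      ∀ (K : IntermediateField ℚ Qb) (hKK : K₀ ≤ K) [IsDiscreteValuationRing ↥(baseRing A K)]
        [IsFractionRing ↥(baseRing A K) (Lvl K)]
        [CharP (IsLocalRing.ResidueField ↥(baseRing A K)) ℓ]
        [IsAlgClosed (IsLocalRing.ResidueField ↥(baseRing A K))]
        (S : SecondVal (Lvl K) N ℓ (baseRing A K)), K₁ ≤ K →
        ∀ 𝔫 ∈ crossingSet (Lvl K) N ℓ (baseRing A K) S, P (𝔫.comap (finIncl A (N * ℓ) hKK)) K := by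
  obtain ⟨K₁, hK₁, hP⟩ := exists_finiteDimensional_forall_of_finite
    (finite_crossingSet (Lvl K₀) N ℓ (baseRing A K₀) S₀ hN ι hℓN hprime hsmooth hA2) hmono h
  refine ⟨K₁, hK₁, fun K hKK _ _ _ _ S hK₁K 𝔫 h𝔫 => ?_⟩
  exact hmono _ K₁ K hK₁K (hP _ (comap_mem_crossingSet hKK A N ℓ S S₀ hb₀ h𝔫))

end Fermat.Agent.S40.M1.SSFinite
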