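/-
S40 / S44 (row 38), block [M1]/T6′, static route (R4), clause (d), TEAM B (helper27, dispatch #3240):
**the fields `hmtα hmtβ` and `hzα hzβ` of `S40/M1/NodeD.map_norm_sub_map_norm_mem` at a crossing point
of a BIG level, with the local parameters `zα zβ` coming from the SMALL (unramified) level.**

Two levels `(K, O) → (K', O')` (small → big), `φ_M := finMap f M O O' hOO'`; `𝔫'` a prime of the finite
chart `Rfin K' (N ℓ) O'` of level `N ℓ` of the big level, `𝔫₀ := 𝔫'.comap φ_{N ℓ}` the point below it.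

* `th_mem_map_alpha/_beta`, `th_notMem_map_alpha/_beta` : the hypotheses `hz hz2` in the shape of
  `AlphaNodeLevel.exists_local_parameter_alpha/_beta` (relative to `𝔫₀.map th₁`, `𝔫₀.map th₂`) give those
  of `SmoothPoint.maximalIdeal_eq_span_finMap` at the points `𝔫'.comap α`, `𝔫'.comap β` of level `N`;
* ★ `maximalIdeal_eq_span_alpha/_beta` : **`hmtα`, `hmtβ` verbatim** — for ANY model `Rα` of the
  localisation of `Rfin K' N O'` at `𝔫'.comap α` (with a compatible `O'`-algebra structure),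
  `maximalIdeal Rα = (φ_N zα₀, ϖ')`;
* ★ `alpha_up/beta_up` : the chart identity (ALPHA) `s · α z₀ = u₀ A + v₀ ^ n E` (`s, A, E ∉ 𝔫₀`) of the
  small level goes up to the big level (input of `NodeLocal.exists_isUnit_decomp` ⇒ `hzα hA hE`);
* ★ `exists_parameters` : from the outputs of `S36/R1/Unconditional.regular_fin` for `u₀ v₀` at `𝔫₀`:
  `zα₀ zβ₀` with all of the above at once (`exists_parameters_val` : valuation language);
* the same for two levels `K₁ ≤ L` of `Q̄` (`finIncl A · hKL`, `LevelPack`s).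
-/
import Mathlib
import Fermat.Agent.S40.M1.SmoothPoint
import Fermat.Agent.S40.M1.NodeLocal
import Fermat.Agent.S40.M1.NodeHonest
import Fermat.Agent.S40.M1.NodeFiniteKer
import Fermat.Agent.S40.M1.SSFinite

set_option autoImplicit false
set_option linter.unusedSectionVars false
set_option linter.unusedVariables false
set_option linter.style.haveILetI false
set_option linter.style.longLine false

namespace Fermat.Agent.S40.M1.NodeFieldsB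

open ModularCurve Fermat.Agent.S28.Gauss Fermat.Agent.N4.Setting Fermat.Agent.N4.FibreEmbedding
open Fermat.Agent.N4.Chart IsLocalRing Fermat.Agent.P3G.RbarFin Fermat.Agent.P3G
open Fermat.Agent.P3G.TwoComponents Fermat.Agent.P3G.TwoComponentsFinal
open Fermat.Agent.S36.R1.CrossingRegular
open Fermat.Agent.S40.M1.AlphaNodeLevel Fermat.Agent.S19.Cech.LevelBasis
open Fermat.Agent.N4.BaseDescent
open Fermat.Agent.P3G.LevelIntegrality Fermat.Agent.N4F.E.DegreeLevelRaise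
open Fermat.Agent.N4F.E.GaussDVR

/-! ### Two levels, generic -/

section Generic

variable (K : Type) [Field K] [CharZero K] (K' : Type) [Field K'] [CharZero K'] (f : K →+* K')
  (N : ℕ) [NeZero N] (ℓ : ℕ) [Fact ℓ.Prime]
  (O : Subring K) [IsDiscreteValuationRing ↥O] [IsFractionRing ↥O K]
  [CharP (IsLocalRing.ResidueField ↥O) ℓ] [PerfectRing (IsLocalRing.ResidueField ↥O) ℓ]
  (O' : Subring K') [IsDiscreteValuationRing ↥O'] [IsFractionRing ↥O' K']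
  (hOO' : ∀ a ∈ O, f a ∈ O')

set_option synthInstance.maxHeartbeats 400000

variable (hN : IsUnit ((N : ℕ) : ↥O)) (ι : K →+* ℂ) (hℓN : ¬ ℓ ∣ N)
  (hprime : (fibreIdeal K N O (Rfin K N O)).IsPrime)
  (hsmooth : IsDedekindDomain (↥(Rfin K N O) ⧸ fibreIdeal K N O (Rfin K N O)))
  (hA2 : ∀ x : ↥(gaussSubalgebra K N O),
    theta K N O x ∈ modularFunctionFieldFullC (IsLocalRing.ResidueField ↥O) N)
  (S₂ : FibreTwo.SecondVal K N ℓ O)

/-! #### The chart identities (ALPHA) go up -/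

omit [CharZero K] [CharZero K'] [IsDiscreteValuationRing ↥O] [IsFractionRing ↥O K]
  [CharP (IsLocalRing.ResidueField ↥O) ℓ] [PerfectRing (IsLocalRing.ResidueField ↥O) ℓ]
  [IsDiscreteValuationRing ↥O'] [IsFractionRing ↥O' K'] in
/-- **(ALPHA) at the big level** from (ALPHA) at the small level, for `u = φ u₀`, `v = φ v₀`,
`z = φ z₀`. -/
theorem alpha_up (𝔫' : Ideal ↥(Rfin K' (N * ℓ) O')) {z₀ : ↥(Rfin K N O)}
    {u₀ v₀ : ↥(Rfin K (N * ℓ) O)} {n : ℕ}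
    (h : ∃ s A E : ↥(Rfin K (N * ℓ) O), s ∉ 𝔫'.comap (finMap f (N * ℓ) O O' hOO') ∧
      A ∉ 𝔫'.comap (finMap f (N * ℓ) O O' hOO') ∧ E ∉ 𝔫'.comap (finMap f (N * ℓ) O O' hOO') ∧
      s * alphaR K N ℓ O z₀ = u₀ * A + v₀ ^ n * E) :
    ∃ s A E : ↥(Rfin K' (N * ℓ) O'), s ∉ 𝔫' ∧ A ∉ 𝔫' ∧ E ∉ 𝔫' ∧
      s * alphaR K' N ℓ O' (finMap f N O O' hOO' z₀) =
        finMap f (N * ℓ) O O' hOO' u₀ * A + finMap f (N * ℓ) O O' hOO' v₀ ^ n * E := by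
  obtain ⟨s, A, E, hs, hA, hE, h⟩ := h
  refine ⟨finMap f (N * ℓ) O O' hOO' s, finMap f (N * ℓ) O O' hOO' A,
    finMap f (N * ℓ) O O' hOO' E, fun h' => hs (Ideal.mem_comap.2 h'),
    fun h' => hA (Ideal.mem_comap.2 h'), fun h' => hE (Ideal.mem_comap.2 h'), ?_⟩
  rw [← SmoothPoint.finMap_alphaR K K' f N O O' hOO' ℓ z₀, ← map_mul, h, map_add, map_mul, map_mul,
    map_pow]

omit [CharZero K] [CharZero K'] [IsDiscreteValuationRing ↥O] [IsFractionRing ↥O K]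
  [CharP (IsLocalRing.ResidueField ↥O) ℓ] [PerfectRing (IsLocalRing.ResidueField ↥O) ℓ]
  [IsDiscreteValuationRing ↥O'] [IsFractionRing ↥O' K'] in
/-- **(ALPHA), mirror, at the big level.** -/
theorem beta_up (𝔫' : Ideal ↥(Rfin K' (N * ℓ) O')) {z₀ : ↥(Rfin K N O)}
    {u₀ v₀ : ↥(Rfin K (N * ℓ) O)} {n : ℕ}
    (h : ∃ s A E : ↥(Rfin K (N * ℓ) O), s ∉ 𝔫'.comap (finMap f (N * ℓ) O O' hOO') ∧
      A ∉ 𝔫'.comap (finMap f (N * ℓ) O O' hOO') ∧ E ∉ 𝔫'.comap (finMap f (N * ℓ) O O' hOO') ∧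
      s * betaR K N ℓ O z₀ = v₀ * A + u₀ ^ n * E) :
    ∃ s A E : ↥(Rfin K' (N * ℓ) O'), s ∉ 𝔫' ∧ A ∉ 𝔫' ∧ E ∉ 𝔫' ∧
      s * betaR K' N ℓ O' (finMap f N O O' hOO' z₀) =
        finMap f (N * ℓ) O O' hOO' v₀ * A + finMap f (N * ℓ) O O' hOO' u₀ ^ n * E := by
  obtain ⟨s, A, E, hs, hA, hE, h⟩ := h
  refine ⟨finMap f (N * ℓ) O O' hOO' s, finMap f (N * ℓ) O O' hOO' A,
    finMap f (N * ℓ) O O' hOO' E, fun h' => hs (Ideal.mem_comap.2 h'),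
    fun h' => hA (Ideal.mem_comap.2 h'), fun h' => hE (Ideal.mem_comap.2 h'), ?_⟩
  rw [← SmoothPoint.finMap_betaR K K' f N O O' hOO' ℓ z₀, ← map_mul, h, map_add, map_mul, map_mul,
    map_pow]

/-! #### The points `α(s)`, `β(s)` of level `N` below a point of level `N ℓ` -/

include hN ι hℓN hprime hsmooth hA2 in
/-- `θ((𝔫'.comap α').comap φ_N) = θ₁(𝔫₀)`. -/
theorem map_comap_alpha_finMap (𝔫' : Ideal ↥(Rfin K' (N * ℓ) O'))
    (hk1 : RingHom.ker (thetaFin K (N * ℓ) O) ≤ 𝔫'.comap (finMap f (N * ℓ) O O' hOO')) :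
    (((𝔫'.comap (alphaR K' N ℓ O').toRingHom).comap (finMap f N O O' hOO')).map (th K N O)) =
      (𝔫'.comap (finMap f (N * ℓ) O O' hOO')).map
        (th₁ K N ℓ O hN ι hℓN hprime hsmooth hA2 S₂) := by
  rw [SmoothPoint.comap_alphaR_comap_finMap K K' f N O O' hOO' ℓ 𝔫']
  exact map_comap_alpha (crossingData_fin K N ℓ O hN ι hℓN hprime hsmooth hA2 S₂) _
    (by rw [CrossingLaurent.ker_res]; exact hk1)

include hN ι hℓN hprime hsmooth hA2 in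
/-- `θ((𝔫'.comap β').comap φ_N) = θ₂(𝔫₀)`. -/
theorem map_comap_beta_finMap (𝔫' : Ideal ↥(Rfin K' (N * ℓ) O'))
    (hk2 : RingHom.ker (theta2S K N ℓ O S₂) ≤ 𝔫'.comap (finMap f (N * ℓ) O O' hOO')) :
    (((𝔫'.comap (betaR K' N ℓ O').toRingHom).comap (finMap f N O O' hOO')).map (th K N O)) =
      (𝔫'.comap (finMap f (N * ℓ) O O' hOO')).map
        (th₂ K N ℓ O hN hprime hsmooth hA2 S₂) := by
  rw [SmoothPoint.comap_betaR_comap_finMap K K' f N O O' hOO' ℓ 𝔫']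
  exact map_comap_beta (crossingData_fin K N ℓ O hN ι hℓN hprime hsmooth hA2 S₂) _
    (by rw [CrossingLaurent.ker_res]; exact hk2)

omit [CharZero K] [CharZero K'] [IsDiscreteValuationRing ↥O] [IsFractionRing ↥O K]
  [CharP (IsLocalRing.ResidueField ↥O) ℓ] [PerfectRing (IsLocalRing.ResidueField ↥O) ℓ]
  [IsDiscreteValuationRing ↥O'] [IsFractionRing ↥O' K'] in
/-- The uniformiser of the big base lies in `𝔫'.comap α'`. -/
theorem unif_mem_comap_alphaR (𝔫' : Ideal ↥(Rfin K' (N * ℓ) O')) {ϖ' : ↥O'}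
    (hϖ𝔫 : algebraMap ↥O' ↥(Rfin K' (N * ℓ) O') ϖ' ∈ 𝔫') :
    algebraMap ↥O' ↥(Rfin K' N O') ϖ' ∈ 𝔫'.comap (alphaR K' N ℓ O').toRingHom := by
  rw [Ideal.mem_comap]
  have : (alphaR K' N ℓ O').toRingHom (algebraMap ↥O' ↥(Rfin K' N O') ϖ') =
      algebraMap ↥O' ↥(Rfin K' (N * ℓ) O') ϖ' := (alphaR K' N ℓ O').commutes ϖ'
  rw [this]
  exact hϖ𝔫

omit [CharZero K] [CharZero K'] [IsDiscreteValuationRing ↥O] [IsFractionRing ↥O K]
  [CharP (IsLocalRing.ResidueField ↥O) ℓ] [PerfectRing (IsLocalRing.ResidueField ↥O) ℓ]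
  [IsDiscreteValuationRing ↥O'] [IsFractionRing ↥O' K'] in
/-- The uniformiser of the big base lies in `𝔫'.comap β'`. -/
theorem unif_mem_comap_betaR (𝔫' : Ideal ↥(Rfin K' (N * ℓ) O')) {ϖ' : ↥O'}
    (hϖ𝔫 : algebraMap ↥O' ↥(Rfin K' (N * ℓ) O') ϖ' ∈ 𝔫') :
    algebraMap ↥O' ↥(Rfin K' N O') ϖ' ∈ 𝔫'.comap (betaR K' N ℓ O').toRingHom := by
  rw [Ideal.mem_comap]
  have : (betaR K' N ℓ O').toRingHom (algebraMap ↥O' ↥(Rfin K' N O') ϖ') =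
      algebraMap ↥O' ↥(Rfin K' (N * ℓ) O') ϖ' := (betaR K' N ℓ O').commutes ϖ'
  rw [this]
  exact hϖ𝔫

/-! #### `hmtα`, `hmtβ` -/

include hN ι hℓN hprime hsmooth hA2 in
/-- ★ **`hmtα` of `NodeD`** at a point `𝔫'` of the big level: for ANY model `Rα` of the local ring of
the chart of level `N` at `𝔫'.comap α'`, `maximalIdeal Rα = (φ_N zα₀, ϖ')`, `zα₀` a local parameter
of the SMALL level at the point `α(𝔫₀)` (shape of `AlphaNodeLevel.exists_local_parameter_alpha`). -/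
theorem maximalIdeal_eq_span_alpha {ϖ : ↥O} (hϖ : Irreducible ϖ) {ϖ' : ↥O'}
    (hϖϖ' : ϖ' ∣ oMap f O O' hOO' ϖ)
    (hlift : ∀ r' : ↥(Rfin K' N O'), ∃ r₀ : ↥(Rfin K N O),
      finMap f N O O' hOO' r₀ - r' ∈ Ideal.span {algebraMap ↥O' ↥(Rfin K' N O') ϖ'})
    (𝔫' : Ideal ↥(Rfin K' (N * ℓ) O')) [𝔫'.IsPrime]
    (hϖ𝔫 : algebraMap ↥O' ↥(Rfin K' (N * ℓ) O') ϖ' ∈ 𝔫')
    (hk1 : RingHom.ker (thetaFin K (N * ℓ) O) ≤ 𝔫'.comap (finMap f (N * ℓ) O O' hOO'))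
    (Rα : Type*) [CommRing Rα] [Algebra ↥(Rfin K' N O') Rα]
    [IsLocalization.AtPrime Rα (𝔫'.comap (alphaR K' N ℓ O').toRingHom)] [IsLocalRing Rα]
    [Algebra ↥O' Rα] [IsScalarTower ↥O' ↥(Rfin K' N O') Rα]
    {z₀ : ↥(Rfin K N O)}
    (hz : th K N O z₀ ∈ (𝔫'.comap (finMap f (N * ℓ) O O' hOO')).map
      (th₁ K N ℓ O hN ι hℓN hprime hsmooth hA2 S₂))
    (hz2 : th K N O z₀ ∉ ((𝔫'.comap (finMap f (N * ℓ) O O' hOO')).map
      (th₁ K N ℓ O hN ι hℓN hprime hsmooth hA2 S₂)) ^ 2) :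
    maximalIdeal Rα = Ideal.span {algebraMap ↥(Rfin K' N O') Rα (finMap f N O O' hOO' z₀),
      algebraMap ↥O' Rα ϖ'} := by
  have e := map_comap_alpha_finMap K K' f N ℓ O O' hOO' hN ι hℓN hprime hsmooth hA2 S₂ 𝔫' hk1
  rw [IsScalarTower.algebraMap_apply ↥O' ↥(Rfin K' N O') Rα ϖ']
  exact SmoothPoint.maximalIdeal_eq_span_finMap K K' f N O O' hOO' hprime hsmooth hϖ hϖϖ' hlift
    (𝔫'.comap (alphaR K' N ℓ O').toRingHom) (unif_mem_comap_alphaR K' N ℓ O' 𝔫' hϖ𝔫) Rα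
    (by rw [e]; exact hz) (by rw [e]; exact hz2)

include hN ι hℓN hprime hsmooth hA2 in
/-- ★ **`hmtβ` of `NodeD`** at a point `𝔫'` of the big level. -/
theorem maximalIdeal_eq_span_beta {ϖ : ↥O} (hϖ : Irreducible ϖ) {ϖ' : ↥O'}
    (hϖϖ' : ϖ' ∣ oMap f O O' hOO' ϖ)
    (hlift : ∀ r' : ↥(Rfin K' N O'), ∃ r₀ : ↥(Rfin K N O),
      finMap f N O O' hOO' r₀ - r' ∈ Ideal.span {algebraMap ↥O' ↥(Rfin K' N O') ϖ'})
    (𝔫' : Ideal ↥(Rfin K' (N * ℓ) O')) [𝔫'.IsPrime]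
    (hϖ𝔫 : algebraMap ↥O' ↥(Rfin K' (N * ℓ) O') ϖ' ∈ 𝔫')
    (hk2 : RingHom.ker (theta2S K N ℓ O S₂) ≤ 𝔫'.comap (finMap f (N * ℓ) O O' hOO'))
    (Rβ : Type*) [CommRing Rβ] [Algebra ↥(Rfin K' N O') Rβ]
    [IsLocalization.AtPrime Rβ (𝔫'.comap (betaR K' N ℓ O').toRingHom)] [IsLocalRing Rβ]
    [Algebra ↥O' Rβ] [IsScalarTower ↥O' ↥(Rfin K' N O') Rβ]
    {z₀ : ↥(Rfin K N O)}
    (hz : th K N O z₀ ∈ (𝔫'.comap (finMap f (N * ℓ) O O' hOO')).map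
      (th₂ K N ℓ O hN hprime hsmooth hA2 S₂))
    (hz2 : th K N O z₀ ∉ ((𝔫'.comap (finMap f (N * ℓ) O O' hOO')).map
      (th₂ K N ℓ O hN hprime hsmooth hA2 S₂)) ^ 2) :
    maximalIdeal Rβ = Ideal.span {algebraMap ↥(Rfin K' N O') Rβ (finMap f N O O' hOO' z₀),
      algebraMap ↥O' Rβ ϖ'} := by
  have e := map_comap_beta_finMap K K' f N ℓ O O' hOO' hN ι hℓN hprime hsmooth hA2 S₂ 𝔫' hk2
  rw [IsScalarTower.algebraMap_apply ↥O' ↥(Rfin K' N O') Rβ ϖ']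
  exact SmoothPoint.maximalIdeal_eq_span_finMap K K' f N O O' hOO' hprime hsmooth hϖ hϖϖ' hlift
    (𝔫'.comap (betaR K' N ℓ O').toRingHom) (unif_mem_comap_betaR K' N ℓ O' 𝔫' hϖ𝔫) Rβ
    (by rw [e]; exact hz) (by rw [e]; exact hz2)


/-! #### `(GEN₂)` at the points `α(𝔫')`, `β(𝔫')` (chart form of `hmtα`, `hmtβ`) -/

include hN ι hℓN hprime hsmooth hA2 in
/-- ★ **(D2), chart form, `α`-side**: `φ_N zα₀ ∈ 𝔫'.comap α'` and `(GEN₂)` there. -/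
theorem gen_alpha {ϖ : ↥O} (hϖ : Irreducible ϖ) {ϖ' : ↥O'}
    (hϖϖ' : ϖ' ∣ oMap f O O' hOO' ϖ)
    (hlift : ∀ r' : ↥(Rfin K' N O'), ∃ r₀ : ↥(Rfin K N O),
      finMap f N O O' hOO' r₀ - r' ∈ Ideal.span {algebraMap ↥O' ↥(Rfin K' N O') ϖ'})
    (𝔫' : Ideal ↥(Rfin K' (N * ℓ) O'))
    (hϖ𝔫 : algebraMap ↥O' ↥(Rfin K' (N * ℓ) O') ϖ' ∈ 𝔫')
    (hk1 : RingHom.ker (thetaFin K (N * ℓ) O) ≤ 𝔫'.comap (finMap f (N * ℓ) O O' hOO'))
    {z₀ : ↥(Rfin K N O)}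
    (hz : th K N O z₀ ∈ (𝔫'.comap (finMap f (N * ℓ) O O' hOO')).map
      (th₁ K N ℓ O hN ι hℓN hprime hsmooth hA2 S₂))
    (hz2 : th K N O z₀ ∉ ((𝔫'.comap (finMap f (N * ℓ) O O' hOO')).map
      (th₁ K N ℓ O hN ι hℓN hprime hsmooth hA2 S₂)) ^ 2) :
    finMap f N O O' hOO' z₀ ∈ 𝔫'.comap (alphaR K' N ℓ O').toRingHom ∧
      ∃ c, c ∉ 𝔫'.comap (alphaR K' N ℓ O').toRingHom ∧
        ∀ r ∈ 𝔫'.comap (alphaR K' N ℓ O').toRingHom, ∃ a d,
          c * r = a * finMap f N O O' hOO' z₀ + d * algebraMap ↥O' ↥(Rfin K' N O') ϖ' := by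
  have e := map_comap_alpha_finMap K K' f N ℓ O O' hOO' hN ι hℓN hprime hsmooth hA2 S₂ 𝔫' hk1
  have hϖ𝔪 := unif_mem_comap_alphaR K' N ℓ O' 𝔫' hϖ𝔫
  have hz' : th K N O z₀ ∈ ((𝔫'.comap (alphaR K' N ℓ O').toRingHom).comap
      (finMap f N O O' hOO')).map (th K N O) := by rw [e]; exact hz
  have hz2' : th K N O z₀ ∉ (((𝔫'.comap (alphaR K' N ℓ O').toRingHom).comap
      (finMap f N O O' hOO')).map (th K N O)) ^ 2 := by rw [e]; exact hz2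
  refine ⟨?_, SmoothPoint.gen_finMap K K' f N O O' hOO' hprime hsmooth hϖ hϖϖ' hlift _ hϖ𝔪
    hz' hz2'⟩
  have hϖ₀ : algebraMap ↥O ↥(Rfin K N O) ϖ ∈
      (𝔫'.comap (alphaR K' N ℓ O').toRingHom).comap (finMap f N O O' hOO') := by
    rw [Ideal.mem_comap]
    obtain ⟨e', he'⟩ := hϖϖ'
    have h1 : finMap f N O O' hOO' (algebraMap ↥O ↥(Rfin K N O) ϖ) =
        algebraMap ↥O' ↥(Rfin K' N O') (oMap f O O' hOO' ϖ) := by
      apply Subtype.ext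
      rw [coe_finMap]
      exact ffMap_algebraMap_base f N O O' hOO' ϖ
    rw [h1, he', map_mul]
    exact Ideal.mul_mem_right _ _ hϖ𝔪
  exact Ideal.mem_comap.1 (SmoothPoint.mem_of_th_mem K N O hprime hϖ _ hϖ₀ hz')

include hN ι hℓN hprime hsmooth hA2 in
/-- ★ **(D2), chart form, `β`-side.** -/
theorem gen_beta {ϖ : ↥O} (hϖ : Irreducible ϖ) {ϖ' : ↥O'}
    (hϖϖ' : ϖ' ∣ oMap f O O' hOO' ϖ)
    (hlift : ∀ r' : ↥(Rfin K' N O'), ∃ r₀ : ↥(Rfin K N O),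
      finMap f N O O' hOO' r₀ - r' ∈ Ideal.span {algebraMap ↥O' ↥(Rfin K' N O') ϖ'})
    (𝔫' : Ideal ↥(Rfin K' (N * ℓ) O'))
    (hϖ𝔫 : algebraMap ↥O' ↥(Rfin K' (N * ℓ) O') ϖ' ∈ 𝔫')
    (hk2 : RingHom.ker (theta2S K N ℓ O S₂) ≤ 𝔫'.comap (finMap f (N * ℓ) O O' hOO'))
    {z₀ : ↥(Rfin K N O)}
    (hz : th K N O z₀ ∈ (𝔫'.comap (finMap f (N * ℓ) O O' hOO')).map
      (th₂ K N ℓ O hN hprime hsmooth hA2 S₂))
    (hz2 : th K N O z₀ ∉ ((𝔫'.comap (finMap f (N * ℓ) O O' hOO')).map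
      (th₂ K N ℓ O hN hprime hsmooth hA2 S₂)) ^ 2) :
    finMap f N O O' hOO' z₀ ∈ 𝔫'.comap (betaR K' N ℓ O').toRingHom ∧
      ∃ c, c ∉ 𝔫'.comap (betaR K' N ℓ O').toRingHom ∧
        ∀ r ∈ 𝔫'.comap (betaR K' N ℓ O').toRingHom, ∃ a d,
          c * r = a * finMap f N O O' hOO' z₀ + d * algebraMap ↥O' ↥(Rfin K' N O') ϖ' := by
  have e := map_comap_beta_finMap K K' f N ℓ O O' hOO' hN ι hℓN hprime hsmooth hA2 S₂ 𝔫' hk2
  have hϖ𝔪 := unif_mem_comap_betaR K' N ℓ O' 𝔫' hϖ𝔫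
  have hz' : th K N O z₀ ∈ ((𝔫'.comap (betaR K' N ℓ O').toRingHom).comap
      (finMap f N O O' hOO')).map (th K N O) := by rw [e]; exact hz
  have hz2' : th K N O z₀ ∉ (((𝔫'.comap (betaR K' N ℓ O').toRingHom).comap
      (finMap f N O O' hOO')).map (th K N O)) ^ 2 := by rw [e]; exact hz2
  refine ⟨?_, SmoothPoint.gen_finMap K K' f N O O' hOO' hprime hsmooth hϖ hϖϖ' hlift _ hϖ𝔪
    hz' hz2'⟩
  have hϖ₀ : algebraMap ↥O ↥(Rfin K N O) ϖ ∈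
      (𝔫'.comap (betaR K' N ℓ O').toRingHom).comap (finMap f N O O' hOO') := by
    rw [Ideal.mem_comap]
    obtain ⟨e', he'⟩ := hϖϖ'
    have h1 : finMap f N O O' hOO' (algebraMap ↥O ↥(Rfin K N O) ϖ) =
        algebraMap ↥O' ↥(Rfin K' N O') (oMap f O O' hOO' ϖ) := by
      apply Subtype.ext
      rw [coe_finMap]
      exact ffMap_algebraMap_base f N O O' hOO' ϖ
    rw [h1, he', map_mul]
    exact Ideal.mul_mem_right _ _ hϖ𝔪
  exact Ideal.mem_comap.1 (SmoothPoint.mem_of_th_mem K N O hprime hϖ _ hϖ₀ hz')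

/-! #### Everything about `zα zβ` at once -/

include hN ι hℓN hprime hsmooth hA2 in
/-- ★ **The local parameters `zα₀ zβ₀` of the small level and the two (ALPHA) identities at the big
level**, from the outputs of `S36/R1/Unconditional.regular_fin` for `u₀ v₀` at `𝔫₀ = 𝔫'.comap φ`
(θ-language). -/
theorem exists_parameters (𝔫' : Ideal ↥(Rfin K' (N * ℓ) O'))
    [h𝔫₀ : (𝔫'.comap (finMap f (N * ℓ) O O' hOO')).IsMaximal]
    (hk1 : RingHom.ker (thetaFin K (N * ℓ) O) ≤ 𝔫'.comap (finMap f (N * ℓ) O O' hOO'))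
    (hk2 : RingHom.ker (theta2S K N ℓ O S₂) ≤ 𝔫'.comap (finMap f (N * ℓ) O O' hOO'))
    {u₀ v₀ : ↥(Rfin K (N * ℓ) O)}
    (hu𝔫 : u₀ ∈ 𝔫'.comap (finMap f (N * ℓ) O O' hOO'))
    (hv𝔫 : v₀ ∈ 𝔫'.comap (finMap f (N * ℓ) O O' hOO'))
    (hu2 : theta2S K N ℓ O S₂ u₀ = 0) (hv1 : thetaFin K (N * ℓ) O v₀ = 0)
    (hp2 : ∀ r : ↥(Rfin K (N * ℓ) O), theta2S K N ℓ O S₂ r = 0 →
      ∃ s c' : ↥(Rfin K (N * ℓ) O), s ∉ 𝔫'.comap (finMap f (N * ℓ) O O' hOO') ∧ s * r = c' * u₀)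
    (hp1 : ∀ r : ↥(Rfin K (N * ℓ) O), thetaFin K (N * ℓ) O r = 0 →
      ∃ s c' : ↥(Rfin K (N * ℓ) O), s ∉ 𝔫'.comap (finMap f (N * ℓ) O O' hOO') ∧ s * r = c' * v₀)
    (hgen : ∀ x ∈ 𝔫'.comap (finMap f (N * ℓ) O O' hOO'), ∃ s a b : ↥(Rfin K (N * ℓ) O),
      s ∉ 𝔫'.comap (finMap f (N * ℓ) O O' hOO') ∧ s * x = a * u₀ + b * v₀) :
    ∃ zα₀ zβ₀ : ↥(Rfin K N O),
      (th K N O zα₀ ∈ (𝔫'.comap (finMap f (N * ℓ) O O' hOO')).map
          (th₁ K N ℓ O hN ι hℓN hprime hsmooth hA2 S₂) ∧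
        th K N O zα₀ ∉ ((𝔫'.comap (finMap f (N * ℓ) O O' hOO')).map
          (th₁ K N ℓ O hN ι hℓN hprime hsmooth hA2 S₂)) ^ 2) ∧
      (th K N O zβ₀ ∈ (𝔫'.comap (finMap f (N * ℓ) O O' hOO')).map
          (th₂ K N ℓ O hN hprime hsmooth hA2 S₂) ∧
        th K N O zβ₀ ∉ ((𝔫'.comap (finMap f (N * ℓ) O O' hOO')).map
          (th₂ K N ℓ O hN hprime hsmooth hA2 S₂)) ^ 2) ∧
      (∃ s A E : ↥(Rfin K' (N * ℓ) O'), s ∉ 𝔫' ∧ A ∉ 𝔫' ∧ E ∉ 𝔫' ∧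
        s * alphaR K' N ℓ O' (finMap f N O O' hOO' zα₀) =
          finMap f (N * ℓ) O O' hOO' u₀ * A + finMap f (N * ℓ) O O' hOO' v₀ ^ ℓ * E) ∧
      (∃ s A E : ↥(Rfin K' (N * ℓ) O'), s ∉ 𝔫' ∧ A ∉ 𝔫' ∧ E ∉ 𝔫' ∧
        s * betaR K' N ℓ O' (finMap f N O O' hOO' zβ₀) =
          finMap f (N * ℓ) O O' hOO' v₀ * A + finMap f (N * ℓ) O O' hOO' u₀ ^ ℓ * E) := by
  obtain ⟨zα₀, hzα, hzα2⟩ := exists_local_parameter_alpha K N ℓ O hN ι hℓN hprime hsmooth hA2 S₂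
    (𝔫'.comap (finMap f (N * ℓ) O O' hOO')) hk1
  obtain ⟨zβ₀, hzβ, hzβ2⟩ := exists_local_parameter_beta K N ℓ O hN ι hℓN hprime hsmooth hA2 S₂
    (𝔫'.comap (finMap f (N * ℓ) O O' hOO')) hk2
  refine ⟨zα₀, zβ₀, ⟨hzα, hzα2⟩, ⟨hzβ, hzβ2⟩, ?_, ?_⟩
  · exact alpha_up K K' f N ℓ O O' hOO' 𝔫'
      (alpha_eq_fin K N ℓ O hN ι hℓN hprime hsmooth hA2 S₂ _ hk1 hk2 hu𝔫 hv𝔫 hu2 hv1 hp2 hgen
        hzα hzα2)
  · exact beta_up K K' f N ℓ O O' hOO' 𝔫'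
      (beta_eq_fin K N ℓ O hN ι hℓN hprime hsmooth hA2 S₂ _ hk1 hk2 hu𝔫 hv𝔫 hu2 hv1 hp1 hgen
        hzβ hzβ2)

end Generic

/-! ### `K₀` unramified `≤ K` good: the binder block of `NodeHonest.slope_levels` -/

section Good

open Fermat.Agent.N4.S18Glue Fermat.Agent.N4.BigDVR
  Fermat.Agent.P3G.Assembly.StepOfLevel Fermat.Agent.P3G.Assembly.LevelStep
  Fermat.Agent.N4F.C Fermat.Agent.N4F.C.Levels Fermat.Agent.N4F.C.Galois
  Fermat.Agent.S33.L.Contracts Fermat.Agent.N4F.C.ChartFibre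
  Fermat.Agent.S36.Descent.UnramLevel Fermat.Agent.P3G.Gamma
  Fermat.Agent.S40.M1.NodeHonest Fermat.Agent.P4.TwistRoots
  Fermat.Agent.N4F.C.LevelCharts Fermat.Agent.N4F.C.ChartFactsProof

local notation "Qbar" => AlgebraicClosure ℚ

variable (N p : ℕ) [NeZero N] [Fact p.Prime] (hpN : ¬ p ∣ N)
  (A : ValuationSubring Qbar) (hA : A.LiesOverPrime p)
  {K₀ K : IntermediateField ℚ Qbar} (hKL : K₀ ≤ K)
  (hK₀ : IsUnramLevel A p K₀) (hK : IsGoodLevel A p K)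
  [IsDiscreteValuationRing ↥(baseRing A K₀)] [IsDiscreteValuationRing ↥(baseRing A K)]
  [CharP (IsLocalRing.ResidueField ↥(baseRing A K₀)) p]
  [PerfectRing (IsLocalRing.ResidueField ↥(baseRing A K₀)) p]
  [CharP (IsLocalRing.ResidueField ↥(baseRing A K)) p]
  [PerfectRing (IsLocalRing.ResidueField ↥(baseRing A K)) p]
  (hA2₀ : ∀ x : ↥(gaussSubalgebra (Lvl K₀) N (baseRing A K₀)),
    theta (Lvl K₀) N (baseRing A K₀) x ∈
      modularFunctionFieldFullC (IsLocalRing.ResidueField ↥(baseRing A K₀)) N)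
  (hA2 : ∀ x : ↥(gaussSubalgebra (Lvl K) N (baseRing A K)),
    theta (Lvl K) N (baseRing A K) x ∈
      modularFunctionFieldFullC (IsLocalRing.ResidueField ↥(baseRing A K)) N)
  (T₂ : Fermat.Agent.P3G.FibreTwo.SecondVal (Lvl K₀) N p (baseRing A K₀))
  (S₂ : Fermat.Agent.P3G.FibreTwo.SecondVal (Lvl K) N p (baseRing A K))

set_option maxHeartbeats 1600000 in
set_option synthInstance.maxHeartbeats 400000 in
include hpN hA hK₀ in
/-- The `LevelPack` of an unramified level. -/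
theorem levelPack_unram : LevelPack A N K₀ := by
  obtain ⟨hN₀, hprime₀, hsm₀, hprimeInf₀, hsmInf₀, -, -⟩ := levelFacts_unram N p hpN A hA K₀ hK₀
  exact ⟨inferInstance, hN₀, hK₀.bij, hprime₀, hprimeInf₀, hsm₀, hsmInf₀⟩

set_option maxHeartbeats 1600000 in
set_option synthInstance.maxHeartbeats 400000 in
include hpN hA hK in
/-- The `LevelPack` of a good level. -/
theorem levelPack_good : LevelPack A N K := by
  obtain ⟨hN, hprime, hsm, hprimeInf, hsmInf, -⟩ :=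
    Fermat.Agent.S40.W.F4Good.levelFacts_good N p hpN A hA K hK
  exact ⟨inferInstance, hN, hK.bij, hprime, hprimeInf, hsm, hsmInf⟩

set_option maxHeartbeats 1600000 in
set_option synthInstance.maxHeartbeats 400000 in
/-- The point `α(𝔫₀)` of the small level below the point `α(𝔫)` of the big level. -/
theorem comap_alphaR_comap_finIncl (𝔫 : Ideal ↥(Rfin (Lvl K) (N * p) (baseRing A K))) :
    (𝔫.comap (alphaR (Lvl K) N p (baseRing A K)).toRingHom).comap (finIncl A N hKL) =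
      (𝔫.comap (finIncl A (N * p) hKL)).comap (alphaR (Lvl K₀) N p (baseRing A K₀)).toRingHom :=
  SmoothPoint.comap_alphaR_comap_finMap (Lvl K₀) (Lvl K) (lvlIncl hKL) N (baseRing A K₀)
    (baseRing A K) (lvlIncl_mem A hKL) p 𝔫

set_option maxHeartbeats 1600000 in
set_option synthInstance.maxHeartbeats 400000 in
/-- The point `β(𝔫₀)` of the small level below the point `β(𝔫)` of the big level. -/
theorem comap_betaR_comap_finIncl (𝔫 : Ideal ↥(Rfin (Lvl K) (N * p) (baseRing A K))) :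
    (𝔫.comap (betaR (Lvl K) N p (baseRing A K)).toRingHom).comap (finIncl A N hKL) =
      (𝔫.comap (finIncl A (N * p) hKL)).comap (betaR (Lvl K₀) N p (baseRing A K₀)).toRingHom :=
  SmoothPoint.comap_betaR_comap_finMap (Lvl K₀) (Lvl K) (lvlIncl hKL) N (baseRing A K₀)
    (baseRing A K) (lvlIncl_mem A hKL) p 𝔫

set_option maxHeartbeats 1600000 in
set_option synthInstance.maxHeartbeats 400000 in
include hpN hA hK₀ hK hA2₀ hA2 T₂ S₂ in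
/-- ★ **(D2) `α`-side at a crossing point of a good level**, `zα₀` from the unramified level:
`hzα𝔪` and `hgenα` of `NodeDLevelB.r4b_fin` for `zα := finIncl zα₀`.  The hypotheses `hz hz2` say that
`zα₀` reduces to a local parameter of the special fibre of level `N` at the point `α(𝔫₀)`,
`𝔫₀ = 𝔫.comap finIncl` (for `zα₀` from `AlphaNodeLevel.exists_local_parameter_alpha` at `𝔫₀` rewrite
with `AlphaNodeLevel.map_comap_alphaR`). -/
theorem gen_alpha_good {ϖ : ↥(baseRing A K)} (hϖ : Irreducible ϖ)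
    (𝔫 : Ideal ↥(Rfin (Lvl K) (N * p) (baseRing A K)))
    (ht₁ : Through (gaussVS (Lvl K) (N * p) (baseRing A K)) 𝔫)
    {zα₀ : ↥(Rfin (Lvl K₀) N (baseRing A K₀))}
    (hz : th (Lvl K₀) N (baseRing A K₀) zα₀ ∈
      ((𝔫.comap (finIncl A (N * p) hKL)).comap
        (alphaR (Lvl K₀) N p (baseRing A K₀)).toRingHom).map (th (Lvl K₀) N (baseRing A K₀)))
    (hz2 : th (Lvl K₀) N (baseRing A K₀) zα₀ ∉
      (((𝔫.comap (finIncl A (N * p) hKL)).comap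
        (alphaR (Lvl K₀) N p (baseRing A K₀)).toRingHom).map
          (th (Lvl K₀) N (baseRing A K₀))) ^ 2) :
    finIncl A N hKL zα₀ ∈ 𝔫.comap (alphaR (Lvl K) N p (baseRing A K)).toRingHom ∧
      ∃ c, c ∉ 𝔫.comap (alphaR (Lvl K) N p (baseRing A K)).toRingHom ∧
        ∀ r ∈ 𝔫.comap (alphaR (Lvl K) N p (baseRing A K)).toRingHom, ∃ a d,
          c * r = a * finIncl A N hKL zα₀ +
            d * algebraMap ↥(baseRing A K) ↥(Rfin (Lvl K) N (baseRing A K)) ϖ := by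
  obtain ⟨hN₀, hprime₀, hsm₀, -, -, -, -⟩ := levelFacts_unram N p hpN A hA K₀ hK₀
  have P₁ := levelPack_unram N p hpN A hA hK₀
  have P₂ := levelPack_good N p hpN A hA hK
  have H := levelRestrictHyp_levels N p hpN A hA hKL hK₀ hK hA2₀ hA2 T₂ S₂
  have hk1 : RingHom.ker (thetaFin (Lvl K₀) (N * p) (baseRing A K₀)) ≤
      𝔫.comap (finIncl A (N * p) hKL) :=
    (SSFinite.through_gaussVS_iff (Lvl K₀) N p (baseRing A K₀)).1 (H.through₁ ht₁)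
  have hϖ𝔫 := SSFinite.unif_mem_of_through (Lvl K) N p (baseRing A K) ht₁ hϖ
  have e := map_comap_alpha (crossingData_fin (Lvl K₀) N p (baseRing A K₀) hN₀
    (Fermat.Agent.P3G.GammaV2.lvlToComplex K₀) hpN hprime₀ hsm₀ hA2₀ T₂)
    (𝔫.comap (finIncl A (N * p) hKL)) (by rw [CrossingLaurent.ker_res]; exact hk1)
  exact gen_alpha (Lvl K₀) (Lvl K) (lvlIncl hKL) N p (baseRing A K₀) (baseRing A K)
    (lvlIncl_mem A hKL) hN₀ (Fermat.Agent.P3G.GammaV2.lvlToComplex K₀) hpN hprime₀ hsm₀ hA2₀ T₂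
    hK₀.irred (dvd_baseMapIncl_irreducible A hKL hK₀.irred hϖ)
    (SmoothPoint.exists_finIncl_sub_mem_span A N hKL P₁ P₂ hϖ) 𝔫 hϖ𝔫 hk1
    (by rw [← e]; exact hz) (by rw [← e]; exact hz2)

set_option maxHeartbeats 1600000 in
set_option synthInstance.maxHeartbeats 400000 in
include hpN hA hK₀ hK hA2₀ hA2 T₂ S₂ in
/-- ★ **(D2) `β`-side at a crossing point of a good level.** -/
theorem gen_beta_good {ϖ : ↥(baseRing A K)} (hϖ : Irreducible ϖ)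
    (𝔫 : Ideal ↥(Rfin (Lvl K) (N * p) (baseRing A K)))
    (ht₁ : Through (gaussVS (Lvl K) (N * p) (baseRing A K)) 𝔫) (ht₂ : Through S₂.V 𝔫)
    {zβ₀ : ↥(Rfin (Lvl K₀) N (baseRing A K₀))}
    (hz : th (Lvl K₀) N (baseRing A K₀) zβ₀ ∈
      ((𝔫.comap (finIncl A (N * p) hKL)).comap
        (betaR (Lvl K₀) N p (baseRing A K₀)).toRingHom).map (th (Lvl K₀) N (baseRing A K₀)))
    (hz2 : th (Lvl K₀) N (baseRing A K₀) zβ₀ ∉
      (((𝔫.comap (finIncl A (N * p) hKL)).comap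
        (betaR (Lvl K₀) N p (baseRing A K₀)).toRingHom).map
          (th (Lvl K₀) N (baseRing A K₀))) ^ 2) :
    finIncl A N hKL zβ₀ ∈ 𝔫.comap (betaR (Lvl K) N p (baseRing A K)).toRingHom ∧
      ∃ c, c ∉ 𝔫.comap (betaR (Lvl K) N p (baseRing A K)).toRingHom ∧
        ∀ r ∈ 𝔫.comap (betaR (Lvl K) N p (baseRing A K)).toRingHom, ∃ a d,
          c * r = a * finIncl A N hKL zβ₀ +
            d * algebraMap ↥(baseRing A K) ↥(Rfin (Lvl K) N (baseRing A K)) ϖ := by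
  obtain ⟨hN₀, hprime₀, hsm₀, -, -, -, -⟩ := levelFacts_unram N p hpN A hA K₀ hK₀
  have P₁ := levelPack_unram N p hpN A hA hK₀
  have P₂ := levelPack_good N p hpN A hA hK
  have H := levelRestrictHyp_levels N p hpN A hA hKL hK₀ hK hA2₀ hA2 T₂ S₂
  have hk2 : RingHom.ker (theta2S (Lvl K₀) N p (baseRing A K₀) T₂) ≤
      𝔫.comap (finIncl A (N * p) hKL) :=
    (SSFinite.through_secondVal_iff (Lvl K₀) N p (baseRing A K₀) T₂).1 (H.through₂ ht₂)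
  have hϖ𝔫 := SSFinite.unif_mem_of_through (Lvl K) N p (baseRing A K) ht₁ hϖ
  have e := map_comap_beta (crossingData_fin (Lvl K₀) N p (baseRing A K₀) hN₀
    (Fermat.Agent.P3G.GammaV2.lvlToComplex K₀) hpN hprime₀ hsm₀ hA2₀ T₂)
    (𝔫.comap (finIncl A (N * p) hKL)) (by rw [CrossingLaurent.ker_res]; exact hk2)
  exact gen_beta (Lvl K₀) (Lvl K) (lvlIncl hKL) N p (baseRing A K₀) (baseRing A K)
    (lvlIncl_mem A hKL) hN₀ (Fermat.Agent.P3G.GammaV2.lvlToComplex K₀) hpN hprime₀ hsm₀ hA2₀ T₂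
    hK₀.irred (dvd_baseMapIncl_irreducible A hKL hK₀.irred hϖ)
    (SmoothPoint.exists_finIncl_sub_mem_span A N hKL P₁ P₂ hϖ) 𝔫 hϖ𝔫 hk2
    (by rw [← e]; exact hz) (by rw [← e]; exact hz2)

set_option maxHeartbeats 1600000 in
set_option synthInstance.maxHeartbeats 400000 in
include hpN hA hK₀ hK hA2₀ hA2 in
/-- ★ **(D5) `α`-side at a crossing point of a good level**: `hzα` of `NodeDLevelB.r4b_fin` for
`u := finIncl u₀`, `v := finIncl v₀`, `zα := finIncl zα₀`, from `hn : HonestNode …` and the clauses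
`hu2₀ hv1₀ hp2₀` of `regular_fin_val` at `𝔫₀ = 𝔫.comap finIncl` (`NodeHonestP`). -/
theorem alpha_good
    (𝔫 : Ideal ↥(Rfin (Lvl K) (N * p) (baseRing A K))) [h𝔫 : 𝔫.IsMaximal]
    (ht₁ : Through (gaussVS (Lvl K) (N * p) (baseRing A K)) 𝔫) (ht₂ : Through S₂.V 𝔫)
    {u₀ v₀ G₀ : ↥(Rfin (Lvl K₀) (N * p) (baseRing A K₀))}
    (hn : HonestNode (Lvl K₀) (Lvl K) N p (baseRing A K₀) (baseRing A K) (lvlIncl hKL)
      (lvlIncl_mem A hKL) S₂ 𝔫 u₀ v₀ G₀)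
    (hu2₀ : (u₀ : FF (Lvl K₀) (N * p)) ∈ T₂.V.nonunits)
    (hv1₀ : (v₀ : FF (Lvl K₀) (N * p)) ∈ (gaussVS (Lvl K₀) (N * p) (baseRing A K₀)).nonunits)
    (hp2₀ : ∀ r : ↥(Rfin (Lvl K₀) (N * p) (baseRing A K₀)),
      (r : FF (Lvl K₀) (N * p)) ∈ T₂.V.nonunits →
      ∃ s c' : ↥(Rfin (Lvl K₀) (N * p) (baseRing A K₀)),
        s ∉ 𝔫.comap (finIncl A (N * p) hKL) ∧ s * r = c' * u₀)
    {zα₀ : ↥(Rfin (Lvl K₀) N (baseRing A K₀))}
    (hz : th (Lvl K₀) N (baseRing A K₀) zα₀ ∈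
      ((𝔫.comap (finIncl A (N * p) hKL)).comap
        (alphaR (Lvl K₀) N p (baseRing A K₀)).toRingHom).map (th (Lvl K₀) N (baseRing A K₀)))
    (hz2 : th (Lvl K₀) N (baseRing A K₀) zα₀ ∉
      (((𝔫.comap (finIncl A (N * p) hKL)).comap
        (alphaR (Lvl K₀) N p (baseRing A K₀)).toRingHom).map
          (th (Lvl K₀) N (baseRing A K₀))) ^ 2) :
    ∃ s A' E : ↥(Rfin (Lvl K) (N * p) (baseRing A K)), s ∉ 𝔫 ∧ A' ∉ 𝔫 ∧ E ∉ 𝔫 ∧
      s * alphaR (Lvl K) N p (baseRing A K) (finIncl A N hKL zα₀) =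
        finIncl A (N * p) hKL u₀ * A' + finIncl A (N * p) hKL v₀ ^ p * E := by
  obtain ⟨hN₀, hprime₀, hsm₀, -, -, -, -⟩ := levelFacts_unram N p hpN A hA K₀ hK₀
  have H := levelRestrictHyp_levels N p hpN A hA hKL hK₀ hK hA2₀ hA2 T₂ S₂
  haveI h𝔫₀ : (𝔫.comap (finIncl A (N * p) hKL)).IsMaximal := H.isMaximal_comap ht₁
  have hk1 : RingHom.ker (thetaFin (Lvl K₀) (N * p) (baseRing A K₀)) ≤
      𝔫.comap (finIncl A (N * p) hKL) :=
    (SSFinite.through_gaussVS_iff (Lvl K₀) N p (baseRing A K₀)).1 (H.through₁ ht₁)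
  have e := map_comap_alpha (crossingData_fin (Lvl K₀) N p (baseRing A K₀) hN₀
    (Fermat.Agent.P3G.GammaV2.lvlToComplex K₀) hpN hprime₀ hsm₀ hA2₀ T₂)
    (𝔫.comap (finIncl A (N * p) hKL)) (by rw [CrossingLaurent.ker_res]; exact hk1)
  refine alpha_up (Lvl K₀) (Lvl K) (lvlIncl hKL) N p (baseRing A K₀) (baseRing A K)
    (lvlIncl_mem A hKL) 𝔫 ?_
  exact alpha_eq_fin_val (Lvl K₀) N p (baseRing A K₀) hN₀
    (Fermat.Agent.P3G.GammaV2.lvlToComplex K₀) hpN hprime₀ hsm₀ hA2₀ T₂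
    (𝔫.comap (finIncl A (N * p) hKL)) (H.through₁ ht₁) (H.through₂ ht₂)
    (Ideal.mem_comap.2 hn.mem_u) (Ideal.mem_comap.2 hn.mem_v) hu2₀ hv1₀ hp2₀ hn.gen₀
    (by rw [← e]; exact hz) (by rw [← e]; exact hz2)

set_option maxHeartbeats 1600000 in
set_option synthInstance.maxHeartbeats 400000 in
include hpN hA hK₀ hK hA2₀ hA2 in
/-- ★ **(D5) `β`-side at a crossing point of a good level.** -/
theorem beta_good
    (𝔫 : Ideal ↥(Rfin (Lvl K) (N * p) (baseRing A K))) [h𝔫 : 𝔫.IsMaximal]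
    (ht₁ : Through (gaussVS (Lvl K) (N * p) (baseRing A K)) 𝔫) (ht₂ : Through S₂.V 𝔫)
    {u₀ v₀ G₀ : ↥(Rfin (Lvl K₀) (N * p) (baseRing A K₀))}
    (hn : HonestNode (Lvl K₀) (Lvl K) N p (baseRing A K₀) (baseRing A K) (lvlIncl hKL)
      (lvlIncl_mem A hKL) S₂ 𝔫 u₀ v₀ G₀)
    (hu2₀ : (u₀ : FF (Lvl K₀) (N * p)) ∈ T₂.V.nonunits)
    (hv1₀ : (v₀ : FF (Lvl K₀) (N * p)) ∈ (gaussVS (Lvl K₀) (N * p) (baseRing A K₀)).nonunits)
    (hp1₀ : ∀ r : ↥(Rfin (Lvl K₀) (N * p) (baseRing A K₀)),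
      (r : FF (Lvl K₀) (N * p)) ∈ (gaussVS (Lvl K₀) (N * p) (baseRing A K₀)).nonunits →
      ∃ s c' : ↥(Rfin (Lvl K₀) (N * p) (baseRing A K₀)),
        s ∉ 𝔫.comap (finIncl A (N * p) hKL) ∧ s * r = c' * v₀)
    {zβ₀ : ↥(Rfin (Lvl K₀) N (baseRing A K₀))}
    (hz : th (Lvl K₀) N (baseRing A K₀) zβ₀ ∈
      ((𝔫.comap (finIncl A (N * p) hKL)).comap
        (betaR (Lvl K₀) N p (baseRing A K₀)).toRingHom).map (th (Lvl K₀) N (baseRing A K₀)))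
    (hz2 : th (Lvl K₀) N (baseRing A K₀) zβ₀ ∉
      (((𝔫.comap (finIncl A (N * p) hKL)).comap
        (betaR (Lvl K₀) N p (baseRing A K₀)).toRingHom).map
          (th (Lvl K₀) N (baseRing A K₀))) ^ 2) :
    ∃ s A' E : ↥(Rfin (Lvl K) (N * p) (baseRing A K)), s ∉ 𝔫 ∧ A' ∉ 𝔫 ∧ E ∉ 𝔫 ∧
      s * betaR (Lvl K) N p (baseRing A K) (finIncl A N hKL zβ₀) =
        finIncl A (N * p) hKL v₀ * A' + finIncl A (N * p) hKL u₀ ^ p * E := by
  obtain ⟨hN₀, hprime₀, hsm₀, -, -, -, -⟩ := levelFacts_unram N p hpN A hA K₀ hK₀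
  have H := levelRestrictHyp_levels N p hpN A hA hKL hK₀ hK hA2₀ hA2 T₂ S₂
  haveI h𝔫₀ : (𝔫.comap (finIncl A (N * p) hKL)).IsMaximal := H.isMaximal_comap ht₁
  have hk2 : RingHom.ker (theta2S (Lvl K₀) N p (baseRing A K₀) T₂) ≤
      𝔫.comap (finIncl A (N * p) hKL) :=
    (SSFinite.through_secondVal_iff (Lvl K₀) N p (baseRing A K₀) T₂).1 (H.through₂ ht₂)
  have e := map_comap_beta (crossingData_fin (Lvl K₀) N p (baseRing A K₀) hN₀
    (Fermat.Agent.P3G.GammaV2.lvlToComplex K₀) hpN hprime₀ hsm₀ hA2₀ T₂)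
    (𝔫.comap (finIncl A (N * p) hKL)) (by rw [CrossingLaurent.ker_res]; exact hk2)
  refine beta_up (Lvl K₀) (Lvl K) (lvlIncl hKL) N p (baseRing A K₀) (baseRing A K)
    (lvlIncl_mem A hKL) 𝔫 ?_
  exact beta_eq_fin_val (Lvl K₀) N p (baseRing A K₀) hN₀
    (Fermat.Agent.P3G.GammaV2.lvlToComplex K₀) hpN hprime₀ hsm₀ hA2₀ T₂
    (𝔫.comap (finIncl A (N * p) hKL)) (H.through₁ ht₁) (H.through₂ ht₂)
    (Ideal.mem_comap.2 hn.mem_u) (Ideal.mem_comap.2 hn.mem_v) hu2₀ hv1₀ hp1₀ hn.gen₀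
    (by rw [← e]; exact hz) (by rw [← e]; exact hz2)

set_option maxHeartbeats 1600000 in
set_option synthInstance.maxHeartbeats 400000 in
include hpN hA hK₀ hK hA2₀ hA2 T₂ S₂ in
/-- **Local parameters `zα₀ zβ₀` exist at the unramified level**, in the shape of the hypotheses
`hz hz2` above (and of `SmoothPoint.maximalIdeal_eq_span_finIncl` / `TestPointUp` after rewriting with
`comap_alphaR_comap_finIncl`). -/
theorem exists_local_parameters_good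
    (𝔫 : Ideal ↥(Rfin (Lvl K) (N * p) (baseRing A K))) [h𝔫 : 𝔫.IsMaximal]
    (ht₁ : Through (gaussVS (Lvl K) (N * p) (baseRing A K)) 𝔫) (ht₂ : Through S₂.V 𝔫) :
    ∃ zα₀ zβ₀ : ↥(Rfin (Lvl K₀) N (baseRing A K₀)),
      (th (Lvl K₀) N (baseRing A K₀) zα₀ ∈
          ((𝔫.comap (finIncl A (N * p) hKL)).comap
            (alphaR (Lvl K₀) N p (baseRing A K₀)).toRingHom).map
              (th (Lvl K₀) N (baseRing A K₀)) ∧
        th (Lvl K₀) N (baseRing A K₀) zα₀ ∉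
          (((𝔫.comap (finIncl A (N * p) hKL)).comap
            (alphaR (Lvl K₀) N p (baseRing A K₀)).toRingHom).map
              (th (Lvl K₀) N (baseRing A K₀))) ^ 2) ∧
      (th (Lvl K₀) N (baseRing A K₀) zβ₀ ∈
          ((𝔫.comap (finIncl A (N * p) hKL)).comap
            (betaR (Lvl K₀) N p (baseRing A K₀)).toRingHom).map
              (th (Lvl K₀) N (baseRing A K₀)) ∧
        th (Lvl K₀) N (baseRing A K₀) zβ₀ ∉
          (((𝔫.comap (finIncl A (N * p) hKL)).comap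
            (betaR (Lvl K₀) N p (baseRing A K₀)).toRingHom).map
              (th (Lvl K₀) N (baseRing A K₀))) ^ 2) := by
  obtain ⟨hN₀, hprime₀, hsm₀, -, -, -, -⟩ := levelFacts_unram N p hpN A hA K₀ hK₀
  have H := levelRestrictHyp_levels N p hpN A hA hKL hK₀ hK hA2₀ hA2 T₂ S₂
  haveI h𝔫₀ : (𝔫.comap (finIncl A (N * p) hKL)).IsMaximal := H.isMaximal_comap ht₁
  have hk1 : RingHom.ker (thetaFin (Lvl K₀) (N * p) (baseRing A K₀)) ≤
      𝔫.comap (finIncl A (N * p) hKL) :=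
    (SSFinite.through_gaussVS_iff (Lvl K₀) N p (baseRing A K₀)).1 (H.through₁ ht₁)
  have hk2 : RingHom.ker (theta2S (Lvl K₀) N p (baseRing A K₀) T₂) ≤
      𝔫.comap (finIncl A (N * p) hKL) :=
    (SSFinite.through_secondVal_iff (Lvl K₀) N p (baseRing A K₀) T₂).1 (H.through₂ ht₂)
  have e₁ := map_comap_alpha (crossingData_fin (Lvl K₀) N p (baseRing A K₀) hN₀
    (Fermat.Agent.P3G.GammaV2.lvlToComplex K₀) hpN hprime₀ hsm₀ hA2₀ T₂)
    (𝔫.comap (finIncl A (N * p) hKL)) (by rw [CrossingLaurent.ker_res]; exact hk1)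
  have e₂ := map_comap_beta (crossingData_fin (Lvl K₀) N p (baseRing A K₀) hN₀
    (Fermat.Agent.P3G.GammaV2.lvlToComplex K₀) hpN hprime₀ hsm₀ hA2₀ T₂)
    (𝔫.comap (finIncl A (N * p) hKL)) (by rw [CrossingLaurent.ker_res]; exact hk2)
  obtain ⟨zα₀, hzα, hzα2⟩ := exists_local_parameter_alpha (Lvl K₀) N p (baseRing A K₀) hN₀
    (Fermat.Agent.P3G.GammaV2.lvlToComplex K₀) hpN hprime₀ hsm₀ hA2₀ T₂
    (𝔫.comap (finIncl A (N * p) hKL)) hk1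
  obtain ⟨zβ₀, hzβ, hzβ2⟩ := exists_local_parameter_beta (Lvl K₀) N p (baseRing A K₀) hN₀
    (Fermat.Agent.P3G.GammaV2.lvlToComplex K₀) hpN hprime₀ hsm₀ hA2₀ T₂
    (𝔫.comap (finIncl A (N * p) hKL)) hk2
  exact ⟨zα₀, zβ₀, ⟨by rw [e₁]; exact hzα, by rw [e₁]; exact hzα2⟩,
    ⟨by rw [e₂]; exact hzβ, by rw [e₂]; exact hzβ2⟩⟩

end Good

end Fermat.Agent.S40.M1.NodeFieldsB
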