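/-
S40 / S44 (row 38), T6′ static route, block (R4)(d), TEAM B (helper28; cut of helper26 #3261):
**the good-level wrapper of the one-level theorem `NodeDLevelB.r4b_fin`** — the inputs (D6), (D3) of
`r4b_fin` from the honest node of `S40/M1/NodeHonest` and the conversion of its conclusion into the
named hypothesis (R4b) of `S40/M1/R4Node.r4_node_abs` (helper5), VERBATIM.

* generic (Mathlib only): `exists_uniform_three` / `exists_uniform_two` — in a noetherian ring, a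
  per-element denominator `∀ r ∈ 𝔫, ∃ s ∉ 𝔫, s r ∈ (u, v, w)` gives a uniform one
  `∃ c ∉ 𝔫, ∀ r ∈ 𝔫, c r ∈ (u, v, w)` (`𝔫` prime);
  `r4b_shape` — `a = b + π d` in `O` with `a, b` units ⇒ `(↑b)⁻¹ ∈ 𝒜 ∧ ∃ d ∈ 𝒜, ↑a = ↑b + ↑π d` in any
  valuation subring `𝒜 ⊇ O` of `K`;
* level (binder block of `NodeHonest.slope_levels`): `honest_mem_u`, `honest_mem_v`, `honest_unit_G`,
  `honest_mul_eq` (= D6: `u v = G · p` in the chart at `K`, `u = finIncl u₀`, …), `honest_gen` (= D3 with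
  a uniform denominator), `ker_le_of_through` (`hk1 hk2` from `ht₁ ht₂`);
* `r4b_good_of_fin` : the conclusion of `r4b_fin` at `(Lvl K, baseRing A K)` ⇒ **(R4b) VERBATIM** for
  `normAlphaK K N p`, `normBetaK K N p`, `π = (p : Lvl K)` and any `𝒜 ⊇ baseRing A K`;
* ★★ `r4b_good` : **(R4b) VERBATIM at a crossing point `𝔫` of a good level `K ⊇ K₀`** (`K₀` unramified)
  from `hn : HonestNode … 𝔫 u₀ v₀ G₀`, `ht₁ ht₂`, local parameters `zα₀ zβ₀` of the unramified level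
  (hypotheses `hz hz2` in the form of `NodeFieldsB.exists_local_parameters_good`) and the two test
  sections (D7: `hα hβ hcα hcβ hevα hevβ`, the shape of `TestPointLevel.exists_testPoint`) —
  (D1)–(D6), (D8) are discharged: `NodeDLevelB.r4b_fin` (helper26) fed with (D6)/(D3) above,
  (D2) `NodeFieldsB.gen_alpha_good/gen_beta_good` (helper27), (D5) `AlphaNodeUp.alpha_eq_levels/
  beta_eq_levels` (helper22), instance block from `F4Good.levelFacts_good`.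
-/
import Mathlib
import Fermat.Agent.S40.M1.NodeHonest
import Fermat.Agent.S40.M1.NodeInv
import Fermat.Agent.S40.M1.NodeFiniteKer
import Fermat.Agent.P4.FrobLevelStep
import Fermat.Agent.S40.M1.NodeDLevelB
import Fermat.Agent.S40.M1.NodeFieldsB
import Fermat.Agent.S40.M1.AlphaNodeUp

set_option autoImplicit false
set_option linter.unusedSectionVars false
set_option linter.unusedVariables false
set_option linter.style.haveILetI false
set_option linter.style.longLine false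

open ModularCurve Fermat.Agent.S28.Gauss Fermat.Agent.N4.Setting Fermat.Agent.N4.FibreEmbedding
open Fermat.Agent.N4.Chart
open Fermat.Agent.N4F.E.DegreeLevelRaise Fermat.Agent.N4F.E.GaussDVR AlgebraicCurve Polynomial
open Fermat.Agent.N4F.E IsLocalRing Fermat.Agent.P3G.RbarFin Fermat.Agent.P3G.TwoComponents
open Fermat.Agent.P3G.TwoComponentsFinal Fermat.Agent.P3G Fermat.Agent.P4
open Fermat.Agent.P4.TwistRoots Fermat.Agent.P3G.UCrit
open Fermat.Agent.S40.W.F4Level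
open Fermat.Agent.N4.BaseDescent Fermat.Agent.S19.Cech.LevelBasis

noncomputable section

namespace Fermat.Agent.S40.M1.NodeDGoodB

/-! ### Generic: uniform denominators -/

section Uniform

variable {S : Type*} [CommRing S]

/-- In a noetherian ring, if every element of the prime `𝔫` is carried into the ideal `J` by some
element outside `𝔫`, one element outside `𝔫` carries all of `𝔫` into `J`. -/
theorem exists_uniform_mul_mem [IsNoetherianRing S] (𝔫 : Ideal S) [h𝔫 : 𝔫.IsPrime] (J : Ideal S)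
    (h : ∀ r ∈ 𝔫, ∃ s : S, s ∉ 𝔫 ∧ s * r ∈ J) :
    ∃ c : S, c ∉ 𝔫 ∧ ∀ r ∈ 𝔫, c * r ∈ J := by
  classical
  obtain ⟨T, hT⟩ := (isNoetherianRing_iff_ideal_fg S).1 inferInstance 𝔫
  have hT𝔫 : ∀ g ∈ T, g ∈ 𝔫 := fun g hg => by
    rw [← hT]; exact Ideal.subset_span hg
  choose! σ hσ using h
  refine ⟨∏ g ∈ T, σ g, ?_, ?_⟩
  · intro hmem
    obtain ⟨g, hg, hgm⟩ := Ideal.IsPrime.prod_mem_iff.1 hmem
    exact (hσ g (hT𝔫 g hg)).1 hgm
  · intro r hr
    rw [← hT] at hr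
    refine Submodule.span_induction (p := fun x _ => (∏ g ∈ T, σ g) * x ∈ J) ?_ ?_ ?_ ?_ hr
    · intro g hg
      have hg' : g ∈ T := hg
      rw [← Finset.mul_prod_erase T σ hg', mul_assoc, mul_comm (∏ x ∈ T.erase g, σ x), ← mul_assoc]
      exact Ideal.mul_mem_right _ _ (hσ g (hT𝔫 g hg')).2
    · simp
    · intro x y _ _ hx hy
      rw [mul_add]; exact Ideal.add_mem _ hx hy
    · intro a x _ hx
      rw [smul_eq_mul, mul_left_comm]
      exact Ideal.mul_mem_left _ _ hx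

/-- Three generators: per-element denominators ⇒ a uniform denominator. -/
theorem exists_uniform_three [IsNoetherianRing S] (𝔫 : Ideal S) [h𝔫 : 𝔫.IsPrime] {u v w : S}
    (h : ∀ r ∈ 𝔫, ∃ s a b c : S, s ∉ 𝔫 ∧ s * r = a * u + b * v + c * w) :
    ∃ c : S, c ∉ 𝔫 ∧ ∀ r ∈ 𝔫, ∃ a b d : S, c * r = a * u + b * v + d * w := by
  obtain ⟨c, hc, hcJ⟩ := exists_uniform_mul_mem 𝔫 (Ideal.span {u, v, w}) (fun r hr => by
    obtain ⟨s, a, b, c, hs, e⟩ := h r hr
    refine ⟨s, hs, ?_⟩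
    rw [e]
    exact Ideal.add_mem _ (Ideal.add_mem _
      (Ideal.mul_mem_left _ _ (Ideal.subset_span (by simp)))
      (Ideal.mul_mem_left _ _ (Ideal.subset_span (by simp))))
      (Ideal.mul_mem_left _ _ (Ideal.subset_span (by simp))))
  refine ⟨c, hc, fun r hr => ?_⟩
  obtain ⟨a, y, hy, e⟩ := Ideal.mem_span_insert.1 (hcJ r hr)
  obtain ⟨b, z, hz, e'⟩ := Ideal.mem_span_insert.1 hy
  obtain ⟨d, rfl⟩ := Ideal.mem_span_singleton'.1 hz
  exact ⟨a, b, d, by rw [e, e']; ring⟩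

/-- Two generators: per-element denominators ⇒ a uniform denominator. -/
theorem exists_uniform_two [IsNoetherianRing S] (𝔫 : Ideal S) [h𝔫 : 𝔫.IsPrime] {z w : S}
    (h : ∀ r ∈ 𝔫, ∃ s a d : S, s ∉ 𝔫 ∧ s * r = a * z + d * w) :
    ∃ c : S, c ∉ 𝔫 ∧ ∀ r ∈ 𝔫, ∃ a d : S, c * r = a * z + d * w := by
  obtain ⟨c, hc, hcJ⟩ := exists_uniform_mul_mem 𝔫 (Ideal.span {z, w}) (fun r hr => by
    obtain ⟨s, a, d, hs, e⟩ := h r hr
    refine ⟨s, hs, ?_⟩
    rw [e]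
    exact Ideal.add_mem _
      (Ideal.mul_mem_left _ _ (Ideal.subset_span (by simp)))
      (Ideal.mul_mem_left _ _ (Ideal.subset_span (by simp))))
  refine ⟨c, hc, fun r hr => ?_⟩
  obtain ⟨a, y, hy, e⟩ := Ideal.mem_span_insert.1 (hcJ r hr)
  obtain ⟨d, rfl⟩ := Ideal.mem_span_singleton'.1 hy
  exact ⟨a, d, by rw [e]⟩

end Uniform

/-! ### Generic: the output shape -/

section Shape

variable {O K : Type*} [CommRing O] [Field K] [Algebra O K]

/-- `a = b + π d` in `O` with `b` a unit ⇒ the (R4b) shape in any valuation subring `𝒜 ⊇ O`. -/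
theorem r4b_shape (𝒜 : ValuationSubring K) (h𝒜 : ∀ a : O, algebraMap O K a ∈ 𝒜) {x y : K} {π : O}
    (h : ∃ a b d : O, IsUnit a ∧ IsUnit b ∧ x = algebraMap O K a ∧ y = algebraMap O K b ∧
      a = b + π * d) :
    y⁻¹ ∈ 𝒜 ∧ ∃ d ∈ 𝒜, x = y + algebraMap O K π * d := by
  obtain ⟨a, b, d, -, hb, rfl, rfl, e⟩ := h
  refine ⟨?_, algebraMap O K d, h𝒜 d, by rw [e, map_add, map_mul]⟩
  obtain ⟨b', hb'⟩ := hb.exists_right_inv
  have h1 : algebraMap O K b * algebraMap O K b' = 1 := by rw [← map_mul, hb', map_one]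
  rw [inv_eq_of_mul_eq_one_right h1]
  exact h𝒜 b'

end Shape

/-! ### Levels `K₀ ≤ K` of `Q̄`: `K₀` unramified, `K` good -/

section Levels

open Fermat.Agent.N4.S18Glue Fermat.Agent.N4.BigDVR
  Fermat.Agent.P3G.Assembly.StepOfLevel Fermat.Agent.P3G.Assembly.LevelStep
  Fermat.Agent.N4F.C Fermat.Agent.N4F.C.Levels Fermat.Agent.N4F.C.Galois
  Fermat.Agent.S33.L.Contracts Fermat.Agent.N4F.C.ChartFibre
  Fermat.Agent.S36.Descent.UnramLevel Fermat.Agent.P3G.Gamma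
  Fermat.Agent.S40.M1.NodeHonest Fermat.Agent.S40.M1.NodeInv Fermat.Agent.P4.FrobLevelStep
  Fermat.Agent.P4.FrobStep

local notation "Qbar" => AlgebraicClosure ℚ

variable (N p : ℕ) [NeZero N] [Fact p.Prime] (hpN : ¬ p ∣ N)
  (A : ValuationSubring Qbar) (hA : A.LiesOverPrime p)
  {K₀ K : IntermediateField ℚ Qbar} (hKL : K₀ ≤ K)
  (hK₀ : IsUnramLevel A p K₀) (hK : IsGoodLevel A p K)
  [IsDiscreteValuationRing ↥(baseRing A K₀)] [IsDiscreteValuationRing ↥(baseRing A K)]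
  [CharP (IsLocalRing.ResidueField ↥(baseRing A K₀)) p]
  [PerfectRing (IsLocalRing.ResidueField ↥(baseRing A K₀)) p]
  [CharP (IsLocalRing.ResidueField ↥(baseRing A K)) p]
  [PerfectRing (IsLocalRing.ResidueField ↥(baseRing A K)) p]
  (hA2₀ : ∀ x : ↥(gaussSubalgebra (Lvl K₀) N (baseRing A K₀)),
    theta (Lvl K₀) N (baseRing A K₀) x ∈
      modularFunctionFieldFullC (IsLocalRing.ResidueField ↥(baseRing A K₀)) N)
  (hA2 : ∀ x : ↥(gaussSubalgebra (Lvl K) N (baseRing A K)),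
    theta (Lvl K) N (baseRing A K) x ∈
      modularFunctionFieldFullC (IsLocalRing.ResidueField ↥(baseRing A K)) N)
  (S₂ : Fermat.Agent.P3G.FibreTwo.SecondVal (Lvl K) N p (baseRing A K))

/-! #### (D6): the honest node in the chart at `K` -/

section D6

variable {N p A hKL S₂}
variable {𝔫 : Ideal ↥(Rfin (Lvl K) (N * p) (baseRing A K))}
  {u₀ v₀ G₀ : ↥(Rfin (Lvl K₀) (N * p) (baseRing A K₀))}
  (hn : HonestNode (Lvl K₀) (Lvl K) N p (baseRing A K₀) (baseRing A K) (lvlIncl hKL)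
    (lvlIncl_mem A hKL) S₂ 𝔫 u₀ v₀ G₀)

include hn

theorem honest_mem_u : finIncl A (N * p) hKL u₀ ∈ 𝔫 := hn.mem_u

theorem honest_mem_v : finIncl A (N * p) hKL v₀ ∈ 𝔫 := hn.mem_v

theorem honest_unit_G : finIncl A (N * p) hKL G₀ ∉ 𝔫 := hn.unit_G

/-- **(D6)** `u v = G · p` in the chart at the big level. -/
theorem honest_mul_eq :
    finIncl A (N * p) hKL u₀ * finIncl A (N * p) hKL v₀ =
      finIncl A (N * p) hKL G₀ *
        algebraMap ↥(baseRing A K) ↥(Rfin (Lvl K) (N * p) (baseRing A K))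
          (((p : ℕ) : ↥(baseRing A K))) := by
  rw [← map_mul, hn.mul_eq, map_mul, map_natCast, map_natCast]

end D6

/-! #### (D3): `𝔫 R_𝔫 = (u, v, ϖ)` with a uniform denominator; `hk1`, `hk2` -/

set_option maxHeartbeats 1600000 in
set_option synthInstance.maxHeartbeats 400000 in
include hpN hA hK₀ hK hA2₀ hA2 in
/-- **(D3)** in the shape of `NodeDLevelB.r4b_fin`: ONE denominator for all of `𝔫`. -/
theorem honest_gen {ϖ : ↥(baseRing A K)} (hϖ : Irreducible ϖ)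
    {𝔫 : Ideal ↥(Rfin (Lvl K) (N * p) (baseRing A K))} [h𝔫 : 𝔫.IsMaximal]
    {u₀ v₀ G₀ : ↥(Rfin (Lvl K₀) (N * p) (baseRing A K₀))}
    (hn : HonestNode (Lvl K₀) (Lvl K) N p (baseRing A K₀) (baseRing A K) (lvlIncl hKL)
      (lvlIncl_mem A hKL) S₂ 𝔫 u₀ v₀ G₀)
    (ht₁ : Through (gaussVS (Lvl K) (N * p) (baseRing A K)) 𝔫) (ht₂ : Through S₂.V 𝔫) :
    ∃ c : ↥(Rfin (Lvl K) (N * p) (baseRing A K)), c ∉ 𝔫 ∧ ∀ r ∈ 𝔫,
      ∃ a b d : ↥(Rfin (Lvl K) (N * p) (baseRing A K)),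
        c * r = a * finIncl A (N * p) hKL u₀ + b * finIncl A (N * p) hKL v₀ +
          d * algebraMap ↥(baseRing A K) ↥(Rfin (Lvl K) (N * p) (baseRing A K)) ϖ := by
  haveI := Fermat.Agent.N4F.C.ChartDataLevel.isNoetherianRing_Rfin (Lvl K) (N * p) (baseRing A K)
  exact exists_uniform_three 𝔫
    (gen_levels N p hpN A hA hKL hK₀ hK hA2₀ hA2 S₂ hϖ hn ht₁ ht₂)

set_option maxHeartbeats 1600000 in
set_option synthInstance.maxHeartbeats 400000 in
include hpN hA hK hA2 in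
/-- `hk1`, `hk2` of `r4b_fin` from `ht₁`, `ht₂`. -/
theorem ker_le_of_through
    (𝔫 : Ideal ↥(Rfin (Lvl K) (N * p) (baseRing A K)))
    (ht₁ : Through (gaussVS (Lvl K) (N * p) (baseRing A K)) 𝔫) (ht₂ : Through S₂.V 𝔫) :
    RingHom.ker (thetaFin (Lvl K) (N * p) (baseRing A K)) ≤ 𝔫 ∧
      RingHom.ker (theta2S (Lvl K) N p (baseRing A K) S₂) ≤ 𝔫 := by
  obtain ⟨hN, hprime, hsm, -, -, -⟩ := Fermat.Agent.S40.W.F4Good.levelFacts_good N p hpN A hA K hK
  exact ⟨Fermat.Agent.S40.M1.NodeFiniteKer.ker_thetaFin_le_of_through (Lvl K) N p (baseRing A K) hN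
      (Fermat.Agent.P3G.GammaV2.lvlToComplex K) hpN hprime hsm hA2 S₂ 𝔫 ht₁,
    Fermat.Agent.S40.M1.NodeFiniteKer.ker_theta2S_le_of_through (Lvl K) N p (baseRing A K) hN
      hprime hsm hA2 S₂ 𝔫 ht₂⟩

/-! #### The output: (R4b) VERBATIM from the conclusion of `r4b_fin` -/

/-- ★ **(R4b) of `R4Node.r4_node_abs` at a good level, from the conclusion of the one-level theorem
`NodeDLevelB.r4b_fin`** at `(Lvl K, baseRing A K)`: `𝒜` any valuation subring of `Lvl K` containing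
the base ring, `π = p`. -/
theorem r4b_good_of_fin
    {𝔫 : Ideal ↥(Rfin (Lvl K) (N * p) (baseRing A K))}
    (Qα Qβ : Place (Lvl K) (FF (Lvl K) N))
    (hQα : Function.Bijective (algebraMap (Lvl K) Qα.ResidueField))
    (hQβ : Function.Bijective (algebraMap (Lvl K) Qβ.ResidueField))
    (𝒜 : ValuationSubring (Lvl K)) (h𝒜 : ∀ a : ↥(baseRing A K), (a : Lvl K) ∈ 𝒜)
    (hfin : ∀ W : FF (Lvl K) (N * p), IsUnitAt 𝔫 W →
      Qα.toValuationSubring.valuation (normAlong (alphaF (Lvl K) N p) W) = 1 ∧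
      Qβ.toValuationSubring.valuation (normAlong (betaF (Lvl K) N p) W) = 1 ∧
      ∃ a b d : ↥(baseRing A K), IsUnit a ∧ IsUnit b ∧
        valT Qα hQα (normAlong (alphaF (Lvl K) N p) W) = algebraMap ↥(baseRing A K) (Lvl K) a ∧
        valT Qβ hQβ (normAlong (betaF (Lvl K) N p) W) = algebraMap ↥(baseRing A K) (Lvl K) b ∧
        a = b + ((p : ℕ) : ↥(baseRing A K)) * d) :
    ∀ W : FF (Lvl K) (N * p), IsUnitAt 𝔫 W →
      Qα.toValuationSubring.valuation (normAlphaK K N p W) = 1 ∧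
      Qβ.toValuationSubring.valuation (normBetaK K N p W) = 1 ∧
      (valT Qβ hQβ (normBetaK K N p W))⁻¹ ∈ 𝒜 ∧
      ∃ d ∈ 𝒜, valT Qα hQα (normAlphaK K N p W) =
        valT Qβ hQβ (normBetaK K N p W) + ((p : ℕ) : Lvl K) * d := by
  intro W hW
  obtain ⟨h1, h2, h3⟩ := hfin W hW
  refine ⟨h1, h2, ?_⟩
  have h := r4b_shape (O := ↥(baseRing A K)) (K := Lvl K) 𝒜 h𝒜 h3
  rw [map_natCast] at h
  exact h

/-! #### ★ The good-level theorem -/

open Fermat.Agent.G.Points in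
set_option maxHeartbeats 3200000 in
set_option synthInstance.maxHeartbeats 400000 in
include hpN hA hK₀ hK hA2₀ hA2 in
/-- ★★ **(R4b) of `R4Node.r4_node_abs` at a crossing point of a good level `K ⊇ K₀`** (`K₀`
unramified), VERBATIM, with (D1)–(D6), (D8) discharged: the only inputs are the honest node
`hn` (`NodeHonest.exists_honestNode_levels`), the local parameters `zα₀ zβ₀` of the unramified level
(`NodeFieldsB.exists_local_parameters_good`) and the two test sections (D7) through `α(𝔫)`, `β(𝔫)` at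
which `finIncl zα₀`, `finIncl zβ₀` take values in `p · O`. -/
theorem r4b_good {ϖ : ↥(baseRing A K)} (hϖ : Irreducible ϖ)
    {𝔫 : Ideal ↥(Rfin (Lvl K) (N * p) (baseRing A K))} [h𝔫 : 𝔫.IsMaximal]
    {u₀ v₀ G₀ : ↥(Rfin (Lvl K₀) (N * p) (baseRing A K₀))}
    (hn : HonestNode (Lvl K₀) (Lvl K) N p (baseRing A K₀) (baseRing A K) (lvlIncl hKL)
      (lvlIncl_mem A hKL) S₂ 𝔫 u₀ v₀ G₀)
    (ht₁ : Through (gaussVS (Lvl K) (N * p) (baseRing A K)) 𝔫) (ht₂ : Through S₂.V 𝔫)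
    {zα₀ zβ₀ : ↥(Rfin (Lvl K₀) N (baseRing A K₀))}
    (hzα : Fermat.Agent.S40.M1.AlphaNodeLevel.th (Lvl K₀) N (baseRing A K₀) zα₀ ∈
      ((𝔫.comap (finIncl A (N * p) hKL)).comap
        (LevelIntegrality.alphaR (Lvl K₀) N p (baseRing A K₀)).toRingHom).map
          (Fermat.Agent.S40.M1.AlphaNodeLevel.th (Lvl K₀) N (baseRing A K₀)))
    (hzα2 : Fermat.Agent.S40.M1.AlphaNodeLevel.th (Lvl K₀) N (baseRing A K₀) zα₀ ∉
      (((𝔫.comap (finIncl A (N * p) hKL)).comap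
        (LevelIntegrality.alphaR (Lvl K₀) N p (baseRing A K₀)).toRingHom).map
          (Fermat.Agent.S40.M1.AlphaNodeLevel.th (Lvl K₀) N (baseRing A K₀))) ^ 2)
    (hzβ : Fermat.Agent.S40.M1.AlphaNodeLevel.th (Lvl K₀) N (baseRing A K₀) zβ₀ ∈
      ((𝔫.comap (finIncl A (N * p) hKL)).comap
        (LevelIntegrality.betaR (Lvl K₀) N p (baseRing A K₀)).toRingHom).map
          (Fermat.Agent.S40.M1.AlphaNodeLevel.th (Lvl K₀) N (baseRing A K₀)))
    (hzβ2 : Fermat.Agent.S40.M1.AlphaNodeLevel.th (Lvl K₀) N (baseRing A K₀) zβ₀ ∉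
      (((𝔫.comap (finIncl A (N * p) hKL)).comap
        (LevelIntegrality.betaR (Lvl K₀) N p (baseRing A K₀)).toRingHom).map
          (Fermat.Agent.S40.M1.AlphaNodeLevel.th (Lvl K₀) N (baseRing A K₀))) ^ 2)
    (Qα Qβ : Place (Lvl K) (FF (Lvl K) N))
    (hQα : Function.Bijective (algebraMap (Lvl K) Qα.ResidueField))
    (hQβ : Function.Bijective (algebraMap (Lvl K) Qβ.ResidueField))
    (hα : IsSection (Rfin (Lvl K) N (baseRing A K)) Qα hQα)
    (hβ : IsSection (Rfin (Lvl K) N (baseRing A K)) Qβ hQβ)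
    (hcα : centre hα = 𝔫.comap (LevelIntegrality.alphaR (Lvl K) N p (baseRing A K)).toRingHom)
    (hcβ : centre hβ = 𝔫.comap (LevelIntegrality.betaR (Lvl K) N p (baseRing A K)).toRingHom)
    (hevα : ev hα (finIncl A N hKL zα₀) ∈ Ideal.span {((p : ℕ) : ↥(baseRing A K))})
    (hevβ : ev hβ (finIncl A N hKL zβ₀) ∈ Ideal.span {((p : ℕ) : ↥(baseRing A K))})
    (𝒜 : ValuationSubring (Lvl K)) (h𝒜 : ∀ a : ↥(baseRing A K), (a : Lvl K) ∈ 𝒜) :
    ∀ W : FF (Lvl K) (N * p), IsUnitAt 𝔫 W →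
      Qα.toValuationSubring.valuation (normAlphaK K N p W) = 1 ∧
      Qβ.toValuationSubring.valuation (normBetaK K N p W) = 1 ∧
      (valT Qβ hQβ (normBetaK K N p W))⁻¹ ∈ 𝒜 ∧
      ∃ d ∈ 𝒜, valT Qα hQα (normAlphaK K N p W) =
        valT Qβ hQβ (normBetaK K N p W) + ((p : ℕ) : Lvl K) * d := by
  obtain ⟨hN, hprime, hsm, -, -, -⟩ := Fermat.Agent.S40.W.F4Good.levelFacts_good N p hpN A hA K hK
  obtain ⟨-, hprime₀, -, -, -, -, -⟩ := levelFacts_unram N p hpN A hA K₀ hK₀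
  obtain ⟨T₂⟩ := Fermat.Agent.P3G.FibreTwo.nonempty_secondVal (Lvl K₀) N p (baseRing A K₀)
    (Fermat.Agent.P3G.GammaV2.lvlToComplex K₀) hpN hprime₀ hA2₀
  obtain ⟨hk1, hk2⟩ := ker_le_of_through N p hpN A hA hK hA2 S₂ 𝔫 ht₁ ht₂
  obtain ⟨hzα𝔪, hgenα⟩ := Fermat.Agent.S40.M1.NodeFieldsB.gen_alpha_good N p hpN A hA hKL hK₀ hK
    hA2₀ hA2 T₂ S₂ hϖ 𝔫 ht₁ hzα hzα2
  obtain ⟨hzβ𝔪, hgenβ⟩ := Fermat.Agent.S40.M1.NodeFieldsB.gen_beta_good N p hpN A hA hKL hK₀ hK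
    hA2₀ hA2 T₂ S₂ hϖ 𝔫 ht₁ ht₂ hzβ hzβ2
  have hD5α := Fermat.Agent.S40.M1.AlphaNodeUp.alpha_eq_levels N p hpN A hA hKL hK₀ hK hA2₀ hA2 S₂
    hn ht₁ ht₂ (z₀ := zα₀)
    (by rw [Fermat.Agent.S40.M1.NodeFieldsB.comap_alphaR_comap_finIncl]; exact hzα)
    (by rw [Fermat.Agent.S40.M1.NodeFieldsB.comap_alphaR_comap_finIncl]; exact hzα2)
  have hD5β := Fermat.Agent.S40.M1.AlphaNodeUp.beta_eq_levels N p hpN A hA hKL hK₀ hK hA2₀ hA2 S₂
    hn ht₁ ht₂ (z₀' := zβ₀)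
    (by rw [Fermat.Agent.S40.M1.NodeFieldsB.comap_betaR_comap_finIncl]; exact hzβ)
    (by rw [Fermat.Agent.S40.M1.NodeFieldsB.comap_betaR_comap_finIncl]; exact hzβ2)
  have hfin := Fermat.Agent.S40.M1.NodeDLevelB.r4b_fin (Lvl K) N p (baseRing A K) hN
    (Fermat.Agent.P3G.GammaV2.lvlToComplex K) hpN hprime hsm hA2 S₂ hϖ 𝔫 hk1 hk2
    (honest_mem_u hn) (honest_mem_v hn) (honest_unit_G hn) (honest_mul_eq hn)
    (honest_gen N p hpN A hA hKL hK₀ hK hA2₀ hA2 S₂ hϖ hn ht₁ ht₂)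
    hzα𝔪 hzβ𝔪 hgenα hgenβ hD5α hD5β Qα Qβ hQα hQβ hα hβ hcα hcβ hevα hevβ
  exact r4b_good_of_fin N p A Qα Qβ hQα hQβ 𝒜 h𝒜 hfin

end Levels

end Fermat.Agent.S40.M1.NodeDGoodB
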