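/-
S40 / S44 (row 38), T6′ static route, block (R4), sub-block **R4-D** (helper1): **clause (d) at a
level `(K, O)`.**

Level instance of `S40/M1/NodeDChart` :  `T := Rfin K N O`, `S := Rfin K (N ℓ) O`, `a := alphaF`,
`b := betaF`, `𝔫` a crossing point of the chart of level `N ℓ` (`hk1 hk2`), `p := ℓ`.
Inputs (all chart-level, all on main):

* (D1) `NodeFinite.alphaR_finite/betaR_finite`, `NodeFiniteKer.exists_alphaR_of_notMem/_betaR_` (helper26);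
* (D8) `AlphaSide.finrank_alpha`, `BetaSide.finrank_beta`;
* hypotheses of the statement, in the shapes delivered by their owners:
  (D3) `hgen` (`NodeGenLevel` helper3 / `NodeHonest.gen_levels` helper25), (D6) `huv hG` (`NodeHonest`),
  (D2) `hsmα hsmβ` (`SmoothPoint.gen_fin` helper27), (D5) `halpha hbeta` (`AlphaNodeLevel` helper22),
  (D4) `hres` (`RbarFin.exists_sub_algebraMap_mem`), (D7) the two test sections with their kernel clauses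
  (`TestPointLevel.exists_testPoint` helper21).

★ `r4d_fin` : for `W` in the local ring of the node, `N_α W`, `N_β W` (FIELD norms `normAlong`) lie in the
local rings at the centres of the two test sections, and
`evLocAlg hα (N_α W) − evLocAlg hβ (N_β W) ∈ (ℓ)`; both values are units of `O` when `W` is a unit.
-/
import Mathlib
import Fermat.Agent.S40.M1.NodeDChart
import Fermat.Agent.S40.M1.NodeFiniteKer
import Fermat.Agent.S40.M1.TestPointLevel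

set_option autoImplicit false
set_option linter.unusedSectionVars false
set_option linter.style.haveILetI false
set_option linter.style.longLine false

open ModularCurve Fermat.Agent.S28.Gauss Fermat.Agent.N4.Setting Fermat.Agent.N4.FibreEmbedding
open Fermat.Agent.N4.Chart
open Fermat.Agent.N4F.E.DegreeLevelRaise Fermat.Agent.N4F.E.GaussDVR AlgebraicCurve Polynomial
open Fermat.Agent.N4F.E IsLocalRing Fermat.Agent.P3G.RbarFin Fermat.Agent.P3G.TwoComponents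
open Fermat.Agent.P3G.TwoComponentsFinal Fermat.Agent.P3G Fermat.Agent.P4

noncomputable section

namespace Fermat.Agent.S40.M1.NodeDLevel

open Fermat.Agent.G.Points Fermat.Agent.G.PointsLoc Fermat.Agent.P4.FrobStep
open Fermat.Agent.S40.M1.NodeDChart Fermat.Agent.P3G.LevelIntegrality

variable (K : Type) [Field K] [CharZero K] (N : ℕ) [NeZero N] (ℓ : ℕ) [Fact ℓ.Prime]
  (O : Subring K) [IsDiscreteValuationRing ↥O] [IsFractionRing ↥O K]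
  [CharP (IsLocalRing.ResidueField ↥O) ℓ] [PerfectRing (IsLocalRing.ResidueField ↥O) ℓ]

set_option synthInstance.maxHeartbeats 400000

variable (hN : IsUnit ((N : ℕ) : ↥O)) (ι : K →+* ℂ) (hℓN : ¬ ℓ ∣ N)
  (hprime : (fibreIdeal K N O (Rfin K N O)).IsPrime)
  (hsmooth : IsDedekindDomain (↥(Rfin K N O) ⧸ fibreIdeal K N O (Rfin K N O)))
  (hA2 : ∀ x : ↥(gaussSubalgebra K N O),
    theta K N O x ∈ modularFunctionFieldFullC (IsLocalRing.ResidueField ↥O) N)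
  (S₂ : FibreTwo.SecondVal K N ℓ O)
  (𝔫 : Ideal ↥(Rfin K (N * ℓ) O)) [h𝔫 : 𝔫.IsMaximal]

include hN ι hℓN hprime hsmooth hA2 S₂ in
/-- **(R4)(d) at a level**. -/
theorem r4d_fin (hk1 : RingHom.ker (thetaFin K (N * ℓ) O) ≤ 𝔫)
    (hk2 : RingHom.ker (theta2S K N ℓ O S₂) ≤ 𝔫)
    {ϖ : ↥O} (hϖ : Irreducible ϖ) (hϖ𝔫 : algebraMap ↥O ↥(Rfin K (N * ℓ) O) ϖ ∈ 𝔫)
    (hℓϖ : ((ℓ : ℕ) : ↥O) ∈ Ideal.span {ϖ})
    (hres : ∀ r : ↥(Rfin K (N * ℓ) O), ∃ o : ↥O, r - algebraMap ↥O ↥(Rfin K (N * ℓ) O) o ∈ 𝔫)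
    {u v G : ↥(Rfin K (N * ℓ) O)} {zα zβ : ↥(Rfin K N O)} (hu : u ∈ 𝔫) (hv : v ∈ 𝔫)
    (hgen : ∃ c, c ∉ 𝔫 ∧ ∀ r ∈ 𝔫, ∃ a b d,
      c * r = a * u + b * v + d * algebraMap ↥O ↥(Rfin K (N * ℓ) O) ϖ)
    (huv : u * v = G * algebraMap ↥O ↥(Rfin K (N * ℓ) O) ((ℓ : ℕ) : ↥O)) (hG : G ∉ 𝔫)
    (hzα𝔪 : zα ∈ 𝔫.comap (alphaR K N ℓ O).toRingHom)
    (hzβ𝔪 : zβ ∈ 𝔫.comap (betaR K N ℓ O).toRingHom)
    (hsmα : ∃ c, c ∉ 𝔫.comap (alphaR K N ℓ O).toRingHom ∧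
      ∀ r ∈ 𝔫.comap (alphaR K N ℓ O).toRingHom, ∃ a d,
        c * r = a * zα + d * algebraMap ↥O ↥(Rfin K N O) ϖ)
    (hsmβ : ∃ c, c ∉ 𝔫.comap (betaR K N ℓ O).toRingHom ∧
      ∀ r ∈ 𝔫.comap (betaR K N ℓ O).toRingHom, ∃ a d,
        c * r = a * zβ + d * algebraMap ↥O ↥(Rfin K N O) ϖ)
    (halpha : ∃ s A E : ↥(Rfin K (N * ℓ) O), s ∉ 𝔫 ∧ A ∉ 𝔫 ∧ E ∉ 𝔫 ∧
      s * alphaR K N ℓ O zα = u * A + v ^ ℓ * E)
    (hbeta : ∃ s A E : ↥(Rfin K (N * ℓ) O), s ∉ 𝔫 ∧ A ∉ 𝔫 ∧ E ∉ 𝔫 ∧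
      s * betaR K N ℓ O zβ = v * A + u ^ ℓ * E)
    {Qα Qβ : Place K (FF K N)} {hQα : Function.Bijective (algebraMap K Qα.ResidueField)}
    {hQβ : Function.Bijective (algebraMap K Qβ.ResidueField)}
    (hα : IsSection (Rfin K N O) Qα hQα) (hβ : IsSection (Rfin K N O) Qβ hQβ)
    (hcα : centre hα = 𝔫.comap (alphaR K N ℓ O).toRingHom)
    (hcβ : centre hβ = 𝔫.comap (betaR K N ℓ O).toRingHom)
    (hevα : ev hα zα ∈ Ideal.span {((ℓ : ℕ) : ↥O)}) (hevβ : ev hβ zβ ∈ Ideal.span {((ℓ : ℕ) : ↥O)})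
    (hkerα : ∀ x : ↥(locAlg (Rfin K N O) (centre hα)), evLocAlg hα x = 0 →
      ∃ q : ↥(locAlg (Rfin K N O) (centre hα)),
        x = q * (algebraMap ↥(Rfin K N O) ↥(locAlg (Rfin K N O) (centre hα)) zα -
          algebraMap ↥O ↥(locAlg (Rfin K N O) (centre hα)) (ev hα zα)))
    (hkerβ : ∀ x : ↥(locAlg (Rfin K N O) (centre hβ)), evLocAlg hβ x = 0 →
      ∃ q : ↥(locAlg (Rfin K N O) (centre hβ)),
        x = q * (algebraMap ↥(Rfin K N O) ↥(locAlg (Rfin K N O) (centre hβ)) zβ -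
          algebraMap ↥O ↥(locAlg (Rfin K N O) (centre hβ)) (ev hβ zβ)))
    (W : FF K (N * ℓ)) (hW : W ∈ locAlg (Rfin K (N * ℓ) O) 𝔫) :
    ∃ (hA : normAlong (alphaF K N ℓ) W ∈ locAlg (Rfin K N O) (centre hα))
      (hB : normAlong (betaF K N ℓ) W ∈ locAlg (Rfin K N O) (centre hβ)),
      evLocAlg hα ⟨normAlong (alphaF K N ℓ) W, hA⟩ - evLocAlg hβ ⟨normAlong (betaF K N ℓ) W, hB⟩ ∈
        Ideal.span {((ℓ : ℕ) : ↥O)} ∧
      (IsUnit (⟨W, hW⟩ : ↥(locAlg (Rfin K (N * ℓ) O) 𝔫)) →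
        IsUnit (evLocAlg hα ⟨normAlong (alphaF K N ℓ) W, hA⟩) ∧
          IsUnit (evLocAlg hβ ⟨normAlong (betaF K N ℓ) W, hB⟩)) := by
  haveI := TestPointLevel.isFractionRing_Rfin K N O
  haveI := TestPointLevel.isFractionRing_Rfin K (N * ℓ) O
  have hℓ1 : 1 ≤ ℓ := (Fact.out : ℓ.Prime).one_lt.le
  have hcomapα : ∀ x : ↥(Rfin K N O), x ∈ centre hα ↔ alphaR K N ℓ O x ∈ 𝔫 := by
    intro x; rw [hcα]; exact Iff.rfl
  have hcomapβ : ∀ x : ↥(Rfin K N O), x ∈ centre hβ ↔ betaR K N ℓ O x ∈ 𝔫 := by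
    intro x; rw [hcβ]; exact Iff.rfl
  have hϖO : ϖ ∈ maximalIdeal ↥O := by
    rw [hϖ.maximalIdeal_eq]; exact Ideal.subset_span rfl
  have hO𝔫 : ∀ o : ↥O, o ∈ maximalIdeal ↥O → algebraMap ↥O ↥(Rfin K (N * ℓ) O) o ∈ 𝔫 := by
    intro o ho
    rw [hϖ.maximalIdeal_eq] at ho
    obtain ⟨k, rfl⟩ := Ideal.mem_span_singleton'.1 ho
    rw [map_mul]
    exact 𝔫.mul_mem_left _ hϖ𝔫
  have hvu : v * u = G * algebraMap ↥O ↥(Rfin K (N * ℓ) O) ((ℓ : ℕ) : ↥O) :=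
    (mul_comm v u).trans huv
  have hgen' : ∃ c, c ∉ 𝔫 ∧ ∀ r ∈ 𝔫, ∃ a b d,
      c * r = a * v + b * u + d * algebraMap ↥O ↥(Rfin K (N * ℓ) O) ϖ := by
    obtain ⟨c, hc, h⟩ := hgen
    refine ⟨c, hc, fun r hr => ?_⟩
    obtain ⟨a, b, d, habd⟩ := h r hr
    exact ⟨b, a, d, by rw [habd]; ring⟩
  -- the α side
  have sideα := side_chart (Rfin K N O) (Rfin K (N * ℓ) O) (alphaF K N ℓ) (alphaR K N ℓ O)
    (fun x => coe_alphaR K N ℓ O x) 𝔫 (centre hα) hcomapα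
    (NodeFinite.alphaR_finite K N ℓ O ι hℓN)
    (by
      intro s hs
      obtain ⟨t, ht, x, hx⟩ := NodeFiniteKer.exists_alphaR_of_notMem K N ℓ O hN ι hℓN hprime hsmooth
        hA2 S₂ 𝔫 hk1 hk2 s hs
      exact ⟨t, by rw [hcα]; exact ht, x, hx⟩)
    (n := ℓ) (AlphaSide.finrank_alpha K N ℓ ι hℓN) hℓ1 hℓϖ hϖO hO𝔫 hu hv
    (by rw [hcα]; exact hzα𝔪) hgen (by rw [hcα]; exact hsmα) hres halpha huv hG
    (evLocAlg hα) (by rw [evLocAlg_algebraMap]; exact hevα)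
    (by
      intro x hx
      obtain ⟨q, hq⟩ := hkerα x hx
      exact ⟨q, by rw [evLocAlg_algebraMap]; exact hq⟩)
  -- the β side
  have sideβ := side_chart (Rfin K N O) (Rfin K (N * ℓ) O) (betaF K N ℓ) (betaR K N ℓ O)
    (fun x => coe_betaR K N ℓ O x) 𝔫 (centre hβ) hcomapβ
    (NodeFinite.betaR_finite K N ℓ O ι hℓN)
    (by
      intro s hs
      obtain ⟨t, ht, x, hx⟩ := NodeFiniteKer.exists_betaR_of_notMem K N ℓ O hN ι hℓN hprime hsmooth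
        hA2 S₂ 𝔫 hk1 hk2 s hs
      exact ⟨t, by rw [hcβ]; exact ht, x, hx⟩)
    (n := ℓ) (BetaSide.finrank_beta K N ℓ ι hℓN) hℓ1 hℓϖ hϖO hO𝔫 hv hu
    (by rw [hcβ]; exact hzβ𝔪) hgen' (by rw [hcβ]; exact hsmβ) hres hbeta hvu hG
    (evLocAlg hβ) (by rw [evLocAlg_algebraMap]; exact hevβ)
    (by
      intro x hx
      obtain ⟨q, hq⟩ := hkerβ x hx
      exact ⟨q, by rw [evLocAlg_algebraMap]; exact hq⟩)
  exact map_normAlong_sub_mem_of_sides (Rfin K N O) (Rfin K (N * ℓ) O) (alphaF K N ℓ) (betaF K N ℓ)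
    (alphaR K N ℓ O) (betaR K N ℓ O) (fun x => coe_alphaR K N ℓ O x) (fun x => coe_betaR K N ℓ O x)
    𝔫 (centre hα) (centre hβ) hcomapα hcomapβ (evLocAlg hα) (evLocAlg hβ) sideα sideβ W hW

end Fermat.Agent.S40.M1.NodeDLevel
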