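/-
S40 / S44 (row 38), T6′ static route, block (R4), sub-block **R4-D** (helper1): **clause (R4b) of
`S40/M1/R4Node.r4_node_abs`, at a level `(K, O)`**, in the `valT` vocabulary of `S40/M1/NodeInv`.

From `NodeDLevel.r4d_fin` : for the two test sections `hα`, `hβ` (places `Qα`, `Qβ` of `FF K N` centred at
the image points `α(s)`, `β(s)` of the crossing point `𝔫`), for every unit `W` of the local ring of `𝔫`
(`IsUnitAt 𝔫 W`):

  `Qα.val (N_α W) = 1`,  `Qβ.val (N_β W) = 1`,  `(valT Qβ (N_β W))⁻¹ ∈ 𝒜`,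
  `∃ d ∈ 𝒜, valT Qα (N_α W) = valT Qβ (N_β W) + ℓ · d`

for every valuation subring `𝒜` of `K` containing `O`.
-/
import Mathlib
import Fermat.Agent.S40.M1.NodeDLevel
import Fermat.Agent.S40.M1.NodeInv
import Fermat.Agent.P4.TwistRoots

set_option autoImplicit false
set_option linter.unusedSectionVars false
set_option linter.style.haveILetI false
set_option linter.style.longLine false

open ModularCurve Fermat.Agent.S28.Gauss Fermat.Agent.N4.Setting Fermat.Agent.N4.FibreEmbedding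
open Fermat.Agent.N4.Chart
open Fermat.Agent.N4F.E.DegreeLevelRaise Fermat.Agent.N4F.E.GaussDVR AlgebraicCurve Polynomial
open Fermat.Agent.N4F.E IsLocalRing Fermat.Agent.P3G.RbarFin Fermat.Agent.P3G.TwoComponents
open Fermat.Agent.P3G.TwoComponentsFinal Fermat.Agent.P3G Fermat.Agent.P4

noncomputable section

namespace Fermat.Agent.S40.M1.NodeDR4b

open Fermat.Agent.G.Points Fermat.Agent.G.PointsLoc Fermat.Agent.P4.FrobStep
open Fermat.Agent.S40.M1.NodeDChart Fermat.Agent.P3G.LevelIntegrality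
open Fermat.Agent.S40.M1.NodeInv Fermat.Agent.P4.TwistRoots

/-! ### The bridge `evLocAlg` ↔ `valT` -/

section Bridge

variable {O K F : Type*} [CommRing O] [IsDomain O] [IsDiscreteValuationRing O]
  [Field K] [Algebra O K] [IsFractionRing O K]
  [Field F] [Algebra K F] [Algebra O F] [IsScalarTower O K F]
  {R : Subalgebra O F} {v : Place K F} {hv : Function.Bijective (algebraMap K v.ResidueField)}
  (h : IsSection R v hv)

theorem coe_mem_place (x : ↥(locAlg R (centre h))) : (x : F) ∈ v.toValuationSubring :=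
  (isSection_locAlg h).mem x

/-- The value of `evLocAlg` is the value at the place. -/
theorem algebraMap_evLocAlg (x : ↥(locAlg R (centre h))) :
    algebraMap O K (evLocAlg h x) = valT v hv (x : F) := by
  rw [valT_of_mem v hv (coe_mem_place h x), evLocAlg, algebraMap_ev]

/-- An element of the local ring with unit value is a unit at the place. -/
theorem valuation_eq_one_of_isUnit_evLocAlg {x : ↥(locAlg R (centre h))}
    (hx : IsUnit (evLocAlg h x)) : v.toValuationSubring.valuation (x : F) = 1 := by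
  have h1 : (x : F) ∉ v.toValuationSubring.nonunits := by
    intro hmem
    have h0 := (evLocAlg_eq_zero_iff h x).2 hmem
    rw [h0] at hx
    exact not_isUnit_zero hx
  rw [ValuationSubring.mem_nonunits_iff, not_lt] at h1
  exact le_antisymm ((v.toValuationSubring.valuation_le_one_iff _).2 (coe_mem_place h x)) h1

end Bridge

/-! ### (R4b) at a level -/

variable (K : Type) [Field K] [CharZero K] (N : ℕ) [NeZero N] (ℓ : ℕ) [Fact ℓ.Prime]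
  (O : Subring K) [IsDiscreteValuationRing ↥O] [IsFractionRing ↥O K]
  [CharP (IsLocalRing.ResidueField ↥O) ℓ] [PerfectRing (IsLocalRing.ResidueField ↥O) ℓ]

set_option synthInstance.maxHeartbeats 400000

variable (hN : IsUnit ((N : ℕ) : ↥O)) (ι : K →+* ℂ) (hℓN : ¬ ℓ ∣ N)
  (hprime : (fibreIdeal K N O (Rfin K N O)).IsPrime)
  (hsmooth : IsDedekindDomain (↥(Rfin K N O) ⧸ fibreIdeal K N O (Rfin K N O)))
  (hA2 : ∀ x : ↥(gaussSubalgebra K N O),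
    theta K N O x ∈ modularFunctionFieldFullC (IsLocalRing.ResidueField ↥O) N)
  (S₂ : FibreTwo.SecondVal K N ℓ O)
  (𝔫 : Ideal ↥(Rfin K (N * ℓ) O)) [h𝔫 : 𝔫.IsMaximal]

include hN ι hℓN hprime hsmooth hA2 S₂ in
/-- **(R4b) at a level**, in the shape of the hypothesis `hW` of `R4Node.r4_node_abs`. -/
theorem r4b_fin (hk1 : RingHom.ker (thetaFin K (N * ℓ) O) ≤ 𝔫)
    (hk2 : RingHom.ker (theta2S K N ℓ O S₂) ≤ 𝔫)
    {ϖ : ↥O} (hϖ : Irreducible ϖ) (hϖ𝔫 : algebraMap ↥O ↥(Rfin K (N * ℓ) O) ϖ ∈ 𝔫)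
    (hℓϖ : ((ℓ : ℕ) : ↥O) ∈ Ideal.span {ϖ})
    (hres : ∀ r : ↥(Rfin K (N * ℓ) O), ∃ o : ↥O, r - algebraMap ↥O ↥(Rfin K (N * ℓ) O) o ∈ 𝔫)
    {u v G : ↥(Rfin K (N * ℓ) O)} {zα zβ : ↥(Rfin K N O)} (hu : u ∈ 𝔫) (hv : v ∈ 𝔫)
    (hgen : ∃ c, c ∉ 𝔫 ∧ ∀ r ∈ 𝔫, ∃ a b d,
      c * r = a * u + b * v + d * algebraMap ↥O ↥(Rfin K (N * ℓ) O) ϖ)
    (huv : u * v = G * algebraMap ↥O ↥(Rfin K (N * ℓ) O) ((ℓ : ℕ) : ↥O)) (hG : G ∉ 𝔫)
    (hzα𝔪 : zα ∈ 𝔫.comap (alphaR K N ℓ O).toRingHom)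
    (hzβ𝔪 : zβ ∈ 𝔫.comap (betaR K N ℓ O).toRingHom)
    (hsmα : ∃ c, c ∉ 𝔫.comap (alphaR K N ℓ O).toRingHom ∧
      ∀ r ∈ 𝔫.comap (alphaR K N ℓ O).toRingHom, ∃ a d,
        c * r = a * zα + d * algebraMap ↥O ↥(Rfin K N O) ϖ)
    (hsmβ : ∃ c, c ∉ 𝔫.comap (betaR K N ℓ O).toRingHom ∧
      ∀ r ∈ 𝔫.comap (betaR K N ℓ O).toRingHom, ∃ a d,
        c * r = a * zβ + d * algebraMap ↥O ↥(Rfin K N O) ϖ)
    (halpha : ∃ s A E : ↥(Rfin K (N * ℓ) O), s ∉ 𝔫 ∧ A ∉ 𝔫 ∧ E ∉ 𝔫 ∧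
      s * alphaR K N ℓ O zα = u * A + v ^ ℓ * E)
    (hbeta : ∃ s A E : ↥(Rfin K (N * ℓ) O), s ∉ 𝔫 ∧ A ∉ 𝔫 ∧ E ∉ 𝔫 ∧
      s * betaR K N ℓ O zβ = v * A + u ^ ℓ * E)
    {Qα Qβ : Place K (FF K N)} {hQα : Function.Bijective (algebraMap K Qα.ResidueField)}
    {hQβ : Function.Bijective (algebraMap K Qβ.ResidueField)}
    (hα : IsSection (Rfin K N O) Qα hQα) (hβ : IsSection (Rfin K N O) Qβ hQβ)
    (hcα : centre hα = 𝔫.comap (alphaR K N ℓ O).toRingHom)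
    (hcβ : centre hβ = 𝔫.comap (betaR K N ℓ O).toRingHom)
    (hevα : ev hα zα ∈ Ideal.span {((ℓ : ℕ) : ↥O)}) (hevβ : ev hβ zβ ∈ Ideal.span {((ℓ : ℕ) : ↥O)})
    (hkerα : ∀ x : ↥(locAlg (Rfin K N O) (centre hα)), evLocAlg hα x = 0 →
      ∃ q : ↥(locAlg (Rfin K N O) (centre hα)),
        x = q * (algebraMap ↥(Rfin K N O) ↥(locAlg (Rfin K N O) (centre hα)) zα -
          algebraMap ↥O ↥(locAlg (Rfin K N O) (centre hα)) (ev hα zα)))
    (hkerβ : ∀ x : ↥(locAlg (Rfin K N O) (centre hβ)), evLocAlg hβ x = 0 →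
      ∃ q : ↥(locAlg (Rfin K N O) (centre hβ)),
        x = q * (algebraMap ↥(Rfin K N O) ↥(locAlg (Rfin K N O) (centre hβ)) zβ -
          algebraMap ↥O ↥(locAlg (Rfin K N O) (centre hβ)) (ev hβ zβ)))
    (𝒜 : ValuationSubring K) (h𝒜 : ∀ o : ↥O, (o : K) ∈ 𝒜) :
    ∀ W : FF K (N * ℓ), IsUnitAt 𝔫 W →
      Qα.toValuationSubring.valuation (normAlong (alphaF K N ℓ) W) = 1 ∧
      Qβ.toValuationSubring.valuation (normAlong (betaF K N ℓ) W) = 1 ∧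
      (valT Qβ hQβ (normAlong (betaF K N ℓ) W))⁻¹ ∈ 𝒜 ∧
      ∃ d ∈ 𝒜, valT Qα hQα (normAlong (alphaF K N ℓ) W) =
        valT Qβ hQβ (normAlong (betaF K N ℓ) W) + ((ℓ : ℕ) : K) * d := by
  intro W hWu
  obtain ⟨a, r, ha, hr, hWar⟩ := hWu
  obtain ⟨hW, hWunit⟩ := isUnit_of_mul_eq (Rfin K (N * ℓ) O) 𝔫 (x := W) ha hr hWar
  obtain ⟨hA, hB, hmem, hunits⟩ := NodeDLevel.r4d_fin K N ℓ O hN ι hℓN hprime hsmooth hA2 S₂ 𝔫 hk1 hk2
    hϖ hϖ𝔫 hℓϖ hres hu hv hgen huv hG hzα𝔪 hzβ𝔪 hsmα hsmβ halpha hbeta hα hβ hcα hcβ hevα hevβ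
    hkerα hkerβ W hW
  obtain ⟨huα, huβ⟩ := hunits hWunit
  refine ⟨valuation_eq_one_of_isUnit_evLocAlg hα huα, valuation_eq_one_of_isUnit_evLocAlg hβ huβ,
    ?_, ?_⟩
  · -- the inverse of the value
    have hval := algebraMap_evLocAlg hβ ⟨normAlong (betaF K N ℓ) W, hB⟩
    obtain ⟨e', he'⟩ := huβ.exists_right_inv
    have h1 : valT Qβ hQβ (normAlong (betaF K N ℓ) W) * algebraMap ↥O K e' = 1 := by
      rw [← hval, ← map_mul, he', map_one]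
    rw [inv_eq_of_mul_eq_one_right h1]
    exact h𝒜 e'
  · obtain ⟨d, hd⟩ := Ideal.mem_span_singleton'.1 hmem
    refine ⟨(d : K), h𝒜 d, ?_⟩
    have hvalα := algebraMap_evLocAlg hα ⟨normAlong (alphaF K N ℓ) W, hA⟩
    have hvalβ := algebraMap_evLocAlg hβ ⟨normAlong (betaF K N ℓ) W, hB⟩
    have h2 : evLocAlg hα ⟨normAlong (alphaF K N ℓ) W, hA⟩ =
        evLocAlg hβ ⟨normAlong (betaF K N ℓ) W, hB⟩ + ((ℓ : ℕ) : ↥O) * d := by
      linear_combination (-1 : ↥O) * hd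
    have h3 := congrArg (algebraMap ↥O K) h2
    rw [map_add, map_mul, hvalα, hvalβ] at h3
    rw [h3, map_natCast]
    rfl

end Fermat.Agent.S40.M1.NodeDR4b
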