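/-
S40 / S44 (row 38), block [M1]/T6′, leaf **(R4a)** (helper18; ruling helper8 #3174 (4)): **the norm of a
function which is vertical-only at the crossing point `s` is vertical-only at `s̃ = α(s)`
(resp. `β(s)`), i.e. `N g = ε · ϖ ^ n` with `ε` a unit of the LOCAL RING of the level-`N` chart.**

Part 1 (abstract).  `F ⊆ F'` a finite separable extension of function fields over `K`, `R ⊆ F`,
`R' ⊆ F'` charts with `R → R'` integral, `𝔫` a prime of `R'` which is the ONLY prime of `R'` over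
`𝔪 = 𝔫 ∩ R`.

* `isIntegral_of_fiber`, `ord_norm_eq_zero_of_fiber` : `ord_v (N g) = 0` if `ord_w g = 0` at all places
  `w ∣ v` (no `HasPrincipalDivisors`: the integral closure `B_v` of `O_v` is Dedekind);
* `mem_centredSet_of_restrict` : a place `w` of `F'` whose restriction to `F` is centred at `𝔪` is
  centred at `𝔫` (integrality + going-up + uniqueness of the prime over `𝔪`);
* ★ `ord_norm_eq_zero_of_centred` : if `g` has no zero or pole centred at `𝔫` then `N_{F'/F} g` has no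
  zero or pole centred at `𝔪`;
* `le_of_comap_eq` : uniqueness of the point above `s̃` in the vocabulary of `P3G/Crossing`.

Part 2 (abstract).  `isUnitAt_of_vertical` : the unit criterion on a chart with ONE vertical valuation
(`P3G/UCrit`); ★ `isUnitAt_of_norm_eq` : `N g = ε · c ^ n`, `c` a constant, `ε` a unit of the vertical
valuation ring ⇒ `ε` is a unit of `R_𝔪`.

Part 3 (level; binder block of `S36/R1/Unconditional.regular_fin_val`).  `𝔫` a prime of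
`Rfin K (N ℓ) O` through which both `V₁ = gaussVS` and `V₂ = S₂.V` pass:

* `le_of_comap_alphaR_eq`, `le_of_comap_betaR_eq` : `𝔫` is the only prime over `𝔫 ∩ α(Rfin K N O)`,
  resp. over `𝔫 ∩ β(Rfin K N O)`;
* ★ `isUnitAt_normAlong_alpha`, `isUnitAt_normAlong_beta` : for `g` without zero or pole centred at
  `𝔫`, `V₁(g) = V₁(ϖ)^{n₁}`, `V₂(g) = V₂(ϖ)^{n₂}`: `N_α g = ε ϖ^{n₁ + ℓ n₂}`, `N_β g = ε ϖ^{ℓ n₁ + n₂}`
  with `IsUnitAt (𝔫.comap alphaR) ε` resp. `IsUnitAt (𝔫.comap betaR) ε` (valuations: helper12's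
  `NormValLevel`);
* ★ `normAlong_node_coords` : for node coordinates `u v = G ϖ`, `G ∉ 𝔫`, `u ∈ V₁^×`, `v ∈ V₂^×`:
  `N_α u = ε ϖ^ℓ`, `N_β u = ε ϖ`, `N_α v = ε ϖ`, `N_β v = ε ϖ^ℓ`.
-/
import Mathlib
import Fermat.Agent.N4F.A.PlaceFiber
import Fermat.Agent.S24.PlaceExtend
import Fermat.Agent.N4.BigDVR
import Fermat.Agent.P3G.UCrit
import Fermat.Agent.P4.TwistRoots
import Fermat.Agent.S36.R2.ChartMaps
import Fermat.Agent.S36.R1.CrossingRegular
import Fermat.Agent.S40.M1.NormValLevel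

set_option autoImplicit false
set_option linter.unusedSectionVars false
set_option linter.dupNamespace false
set_option linter.style.haveILetI false
set_option linter.style.longLine false

open AlgebraicCurve

noncomputable section

namespace Fermat.Agent.S40.M1.NormU

open Fermat.Agent.P3G.UCrit Fermat.Agent.N4F.A.PlaceFiber

/-! ### Part 1: abstract -/

section Abs

variable {K F F' : Type*} [Field K] [Field F] [Field F']
  [Algebra K F] [Algebra K F'] [Algebra F F'] [IsScalarTower K F F']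
  [FiniteDimensional F F'] [Algebra.IsSeparable F F']

/-- A function of `F'` without zero or pole above the place `v` of `F` is integral over `O_v`
(the integral closure `B_v` of `O_v` in `F'` is a Dedekind domain whose primes are the places above
`v`). -/
theorem isIntegral_of_fiber (v : Place K F) {g : F'} (hg : g ≠ 0)
    (h : ∀ w : Place K F', w.restrict F = v → w.ord g = 0) :
    IsIntegral v.toValuationSubring g := by
  have hval : ∀ Q : IsDedekindDomain.HeightOneSpectrum (Bv F' v), Q.valuation F' g ≤ 1 := by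
    intro Q
    have h1 := h (placeOfPrime v Q) (restrict_placeOfPrime v Q)
    have h2 : (placeOfPrime v Q).ord g = -(WithZero.log (Q.valuation F' g)) :=
      Fermat.Agent.S24.ord_ofHeightOneSpectrum Q g
    rw [h2, neg_eq_zero] at h1
    have hne : Q.valuation F' g ≠ 0 := (Valuation.ne_zero_iff _).2 hg
    rw [← WithZero.exp_log hne, h1, WithZero.exp_zero]
  obtain ⟨b, hb⟩ := IsDedekindDomain.HeightOneSpectrum.mem_integers_of_valuation_le_one F' g hval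
  rw [← hb]
  exact b.2

/-- `ord_v (N g) = 0` if `ord_w g = 0` at every place `w` above `v`. -/
theorem ord_norm_eq_zero_of_fiber (v : Place K F) {g : F'} (hg : g ≠ 0)
    (h : ∀ w : Place K F', w.restrict F = v → w.ord g = 0) :
    v.ord (Algebra.norm F g) = 0 := by
  have hN0 : Algebra.norm F g ≠ 0 := fun h0 => hg (Algebra.norm_eq_zero_iff.mp h0)
  have hmem : ∀ y : F', IsIntegral v.toValuationSubring y →
      Algebra.norm F y ∈ v.toValuationSubring := by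
    intro y hy
    have h1 : IsIntegral v.toValuationSubring (Algebra.norm F y) := Algebra.isIntegral_norm F hy
    obtain ⟨z, hz⟩ := IsIntegrallyClosed.isIntegral_iff.mp h1
    rw [← hz]
    exact z.2
  have h1 := hmem g (isIntegral_of_fiber v hg h)
  have h2 := hmem g⁻¹ (isIntegral_of_fiber v (inv_ne_zero hg) fun w hw => by
    rw [w.ord_inv, h w hw, neg_zero])
  have h3 : Algebra.norm F g⁻¹ = (Algebra.norm F g)⁻¹ := by
    have h4 : Algebra.norm F g * Algebra.norm F g⁻¹ = 1 := by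
      rw [← map_mul, mul_inv_cancel₀ hg, map_one]
    exact eq_inv_of_mul_eq_one_right h4
  rw [h3] at h2
  have h5 := (Fermat.Agent.S24.PlaceExtend.mem_iff_ord_nonneg v hN0).1 h1
  have h6 := (Fermat.Agent.S24.PlaceExtend.mem_iff_ord_nonneg v (inv_ne_zero hN0)).1 h2
  rw [v.ord_inv] at h6
  omega

variable {R R' : Type*} [CommRing R] [IsDomain R] [IsNoetherianRing R] [Algebra R F]
  [IsFractionRing R F]
  [CommRing R'] [IsDomain R'] [IsNoetherianRing R'] [Algebra R' F'] [IsFractionRing R' F']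
  [Algebra R R'] [Algebra.IsIntegral R R']
  (hcomp : ∀ r : R, algebraMap R' F' (algebraMap R R' r) = algebraMap F F' (algebraMap R F r))

include hcomp in
/-- A place of `F'` whose restriction to `F` contains the chart `R` contains the chart `R'`
(integrality). -/
theorem algebraMap_mem_of_restrict (w : Place K F')
    (hw : ∀ r : R, algebraMap R F r ∈ (w.restrict F).toValuationSubring) (r' : R') :
    algebraMap R' F' r' ∈ w.toValuationSubring := by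
  obtain ⟨p, hp, hpx⟩ := Algebra.IsIntegral.isIntegral (R := R) r'
  let ι : R →+* w.toValuationSubring :=
    ((algebraMap R' F').comp (algebraMap R R')).codRestrict w.toValuationSubring.toSubring
      (fun r => by
        rw [RingHom.comp_apply, hcomp]
        exact hw r)
  have hint : IsIntegral w.toValuationSubring (algebraMap R' F' r') := by
    refine ⟨p.map ι, hp.map ι, ?_⟩
    rw [Polynomial.eval₂_map]
    have h1 : (algebraMap w.toValuationSubring F').comp ι =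
        (algebraMap R' F').comp (algebraMap R R') := by
      ext r; rfl
    rw [h1, ← Polynomial.hom_eval₂, hpx, map_zero]
  obtain ⟨y, hy⟩ := IsIntegrallyClosed.isIntegral_iff.mp hint
  rw [← hy]
  exact y.2

include hcomp in
/-- **A place of `F'` whose restriction to `F` is centred at `𝔪` is centred at `𝔫`**, when `𝔫` is the
only prime of `R'` over `𝔪`. -/
theorem mem_centredSet_of_restrict (𝔫 : Ideal R') (𝔪 : Ideal R) [h𝔪 : 𝔪.IsPrime]
    (huniq : ∀ 𝔮 : Ideal R', 𝔮.IsPrime → 𝔮.comap (algebraMap R R') = 𝔪 → 𝔮 ≤ 𝔫)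
    {w : Place K F'} (hw : w.restrict F ∈ centredSet K 𝔪) : w ∈ centredSet K 𝔫 := by
  have hmem := algebraMap_mem_of_restrict hcomp w hw.1
  refine ⟨hmem, ?_⟩
  -- the centre of `w` on `R'`
  let j : R' →+* w.toValuationSubring :=
    (algebraMap R' F').codRestrict w.toValuationSubring.toSubring hmem
  let 𝔮 : Ideal R' := (IsLocalRing.maximalIdeal w.toValuationSubring).comap j
  have hmem𝔮 : ∀ r' : R', r' ∈ 𝔮 ↔ algebraMap R' F' r' ∈ w.toValuationSubring.nonunits := by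
    intro r'
    rw [ValuationSubring.mem_nonunits_iff_exists_mem_maximalIdeal]
    constructor
    · intro h; exact ⟨hmem r', h⟩
    · rintro ⟨_, h⟩; exact h
  have h𝔮le : 𝔮.comap (algebraMap R R') ≤ 𝔪 := by
    intro r hr
    rw [Ideal.mem_comap, hmem𝔮, hcomp] at hr
    exact hw.2 r ((Fermat.Agent.N4.BigDVR.mem_tr_nonunits_iff w.toValuationSubring F).2 hr)
  obtain ⟨Q, hQ𝔮, hQp, hQ⟩ := Ideal.exists_ideal_over_prime_of_isIntegral 𝔪 𝔮 h𝔮le
  intro r' hr'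
  exact huniq Q hQp hQ (hQ𝔮 ((hmem𝔮 r').2 hr'))

include hcomp in
/-- ★ **The norm of a function without zero or pole centred at `𝔫` has no zero or pole centred at
`𝔪 = 𝔫 ∩ R`**, when `𝔫` is the only prime of `R'` over `𝔪`. -/
theorem ord_norm_eq_zero_of_centred (𝔫 : Ideal R') (𝔪 : Ideal R) [h𝔪 : 𝔪.IsPrime]
    (huniq : ∀ 𝔮 : Ideal R', 𝔮.IsPrime → 𝔮.comap (algebraMap R R') = 𝔪 → 𝔮 ≤ 𝔫)
    {g : F'} (hg : g ≠ 0) (hgQ : ∀ w ∈ centredSet K 𝔫, w.ord g = 0) :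
    ∀ v ∈ centredSet K 𝔪, v.ord (Algebra.norm F g) = 0 := by
  intro v hv
  refine ord_norm_eq_zero_of_fiber v hg fun w hwv => ?_
  exact hgQ w (mem_centredSet_of_restrict hcomp 𝔫 𝔪 huniq (by rw [hwv]; exact hv))

/-- **Uniqueness of the point above `s̃`** at a crossing point, in the vocabulary of `P3G/Crossing`:
`a : R_M → R` a level map with `θ₁ ∘ a = θ` (isomorphism on the first branch) and
`θ₂ ∘ a = Frob ∘ ψ ∘ θ` (Frobenius on the second branch), `θ` onto, `𝔫` a prime through both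
branches.  A prime `𝔮 ∋ ϖ` of `R` with the same contraction to `R_M` as `𝔫` is contained in `𝔫`. -/
theorem le_of_comap_eq {RM R Rb : Type*} [CommRing RM] [CommRing R] [CommRing Rb]
    (a : RM →+* R) (θ : RM →+* Rb) (θ₁ θ₂ : R →+* Rb) (ψ : Rb ≃+* Rb) {ℓ : ℕ}
    (hsurj : Function.Surjective θ) (h1 : ∀ x, θ₁ (a x) = θ x)
    (h2 : ∀ x, θ₂ (a x) = (ψ (θ x)) ^ ℓ)
    (𝔫 𝔮 : Ideal R) [h𝔫 : 𝔫.IsPrime] [h𝔮 : 𝔮.IsPrime]
    (hk1 : RingHom.ker θ₁ ≤ 𝔫) (hk2 : RingHom.ker θ₂ ≤ 𝔫)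
    (hinf : RingHom.ker θ₁ ⊓ RingHom.ker θ₂ ≤ 𝔮)
    (hcomap : 𝔮.comap a = 𝔫.comap a) : 𝔮 ≤ 𝔫 := by
  rcases (Ideal.IsPrime.inf_le h𝔮).1 hinf with hq1 | hq2
  · -- first branch: `θ₁ ∘ a = θ` is onto
    intro x hx
    obtain ⟨y, hy⟩ := hsurj (θ₁ x)
    have hker : x - a y ∈ RingHom.ker θ₁ := by
      rw [RingHom.mem_ker, map_sub, h1, hy, sub_self]
    have hay𝔮 : a y ∈ 𝔮 := by
      have := 𝔮.sub_mem hx (hq1 hker)
      rwa [sub_sub_cancel] at this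
    have hay𝔫 : a y ∈ 𝔫 := by
      have h3 : y ∈ 𝔮.comap a := hay𝔮
      rw [hcomap] at h3
      exact h3
    have := 𝔫.add_mem (hk1 hker) hay𝔫
    rwa [sub_add_cancel] at this
  · -- second branch: `θ₂ ∘ a = Frob ∘ ψ ∘ θ` reaches the `ℓ`-th powers
    intro x hx
    obtain ⟨y, hy⟩ := hsurj (ψ.symm (θ₂ x))
    have hker : x ^ ℓ - a y ∈ RingHom.ker θ₂ := by
      rw [RingHom.mem_ker, map_sub, h2, hy, RingEquiv.apply_symm_apply, map_pow, sub_self]
    have hay𝔮 : a y ∈ 𝔮 := by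
      have := 𝔮.sub_mem (𝔮.pow_mem_of_mem hx ℓ (Nat.pos_of_ne_zero ?_)) (hq2 hker)
      · rwa [sub_sub_cancel] at this
      · rintro rfl
        -- `ℓ = 0`: then `θ₂ (a y) = 1` for all `y`, in particular for `y = 0`
        have h0 := h2 0
        rw [map_zero, map_zero, map_zero, pow_zero] at h0
        have h1' : (1 : Rb) = 0 := h0.symm
        have : (1 : R) ∈ RingHom.ker θ₂ := by
          rw [RingHom.mem_ker, map_one, h1']
        exact h𝔫.ne_top ((Ideal.eq_top_iff_one _).2 (hk2 this))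
    have hay𝔫 : a y ∈ 𝔫 := by
      have h3 : y ∈ 𝔮.comap a := hay𝔮
      rw [hcomap] at h3
      exact h3
    have hxℓ : x ^ ℓ ∈ 𝔫 := by
      have := 𝔫.add_mem (hk2 hker) hay𝔫
      rwa [sub_add_cancel] at this
    exact h𝔫.mem_of_pow_mem ℓ hxℓ

end Abs

/-! ### Part 2: the unit criterion on the lower chart (one vertical valuation) -/

section UnitCrit

open Fermat.Agent.P4.TwistRoots

variable {O K F R : Type*}
  [CommRing O] [IsDomain O] [IsDiscreteValuationRing O]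
  [Field K] [Algebra O K] [IsFractionRing O K]
  [Field F] [Algebra K F] [Algebra O F] [IsScalarTower O K F]
  [CommRing R] [IsDomain R] [IsNoetherianRing R]
  [Algebra R F] [IsFractionRing R F] [Algebra O R] [IsScalarTower O R F]

omit [CommRing O] [IsDomain O] [IsDiscreteValuationRing O] [Algebra O K] [IsFractionRing O K]
  [Algebra O F] [IsScalarTower O K F] [CommRing R] [IsDomain R] [IsNoetherianRing R] [Algebra R F]
  [IsFractionRing R F] [Algebra O R] [IsScalarTower O R F] in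
/-- Nonzero constants have order zero at every place of `F / K`. -/
theorem ord_algebraMap_const (Q : Place K F) {c : K} (hc : c ≠ 0) :
    Q.ord (algebraMap K F c) = 0 := by
  have hu : IsUnit (⟨algebraMap K F c, Q.algebraMap_mem' _⟩ : Q.toValuationSubring) := by
    refine isUnit_iff_exists_inv.mpr ⟨⟨algebraMap K F c⁻¹, Q.algebraMap_mem' _⟩, ?_⟩
    apply Subtype.ext
    show algebraMap K F c * algebraMap K F c⁻¹ = 1
    rw [← map_mul, mul_inv_cancel₀ hc, map_one]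
  exact Q.ord_coe_unit hu.unit

/-- **The unit criterion at a point `𝔪` of a chart with ONE vertical valuation ring `V`**
(`P3G/UCrit.hcrit_strong` for the one-element family): a function without zero or pole centred at
`𝔪` which is a unit of `V` is a unit of the local ring `R_𝔪`. -/
theorem isUnitAt_of_vertical [IsIntegrallyClosed R] (V : ValuationSubring F)
    (hV : ∀ r : R, algebraMap R F r ∈ V) {ϖ : O} (hϖ : Irreducible ϖ)
    (hϖV : algebraMap R F (algebraMap O R ϖ) ∈ V.nonunits)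
    (hsat : ∀ r : R, algebraMap R F r ∈ V.nonunits → algebraMap O R ϖ ∣ r)
    (𝔪 : Ideal R) [h𝔪 : 𝔪.IsPrime] {x : F} (hx0 : x ≠ 0)
    (hxC : ∀ Q ∈ centredSet K 𝔪, Q.ord x = 0) (hxV : V.valuation x = 1) : IsUnitAt 𝔪 x :=
  hcrit_strong (K := K) (fun _ : Unit => V) (fun _ => hV) hϖ (fun _ => hϖV)
    (fun r hr => hsat r (hr ())) 𝔪 x hx0 hxC (fun _ => hxV)

variable {F' R' : Type*} [Field F'] [Algebra K F'] [Algebra F F'] [IsScalarTower K F F']
  [FiniteDimensional F F'] [Algebra.IsSeparable F F']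
  [CommRing R'] [IsDomain R'] [IsNoetherianRing R'] [Algebra R' F'] [IsFractionRing R' F']
  [Algebra R R'] [Algebra.IsIntegral R R']
  (hcomp : ∀ r : R, algebraMap R' F' (algebraMap R R' r) = algebraMap F F' (algebraMap R F r))

include hcomp in
/-- ★ **(R4a), abstract**: `𝔫` a prime of the upper chart `R'` which is the only prime over
`𝔪 = 𝔫 ∩ R`, `g ∈ F'` without zero or pole centred at `𝔫`.  If `N_{F'/F} g = ε · c ^ n` with `c` a
nonzero constant and `ε` a unit of the vertical valuation ring `V` of the lower chart, then `ε` is a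
unit of the LOCAL RING `R_𝔪`. -/
theorem isUnitAt_of_norm_eq [IsIntegrallyClosed R] (V : ValuationSubring F)
    (hV : ∀ r : R, algebraMap R F r ∈ V) {ϖ : O} (hϖ : Irreducible ϖ)
    (hϖV : algebraMap R F (algebraMap O R ϖ) ∈ V.nonunits)
    (hsat : ∀ r : R, algebraMap R F r ∈ V.nonunits → algebraMap O R ϖ ∣ r)
    (𝔫 : Ideal R') (𝔪 : Ideal R) [h𝔪 : 𝔪.IsPrime]
    (huniq : ∀ 𝔮 : Ideal R', 𝔮.IsPrime → 𝔮.comap (algebraMap R R') = 𝔪 → 𝔮 ≤ 𝔫)
    {g : F'} (hg : g ≠ 0) (hgQ : ∀ w ∈ centredSet K 𝔫, w.ord g = 0)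
    {ε : F} {c : K} (hc : c ≠ 0) {n : ℤ}
    (hN : Algebra.norm F g = ε * algebraMap K F c ^ n) (hεV : V.valuation ε = 1) :
    IsUnitAt 𝔪 ε := by
  have hN0 : Algebra.norm F g ≠ 0 := fun h0 => hg (Algebra.norm_eq_zero_iff.mp h0)
  have hε0 : ε ≠ 0 := by
    rintro rfl
    rw [zero_mul] at hN
    exact hN0 hN
  have hc0 : algebraMap K F c ≠ 0 := (_root_.map_ne_zero _).2 hc
  refine isUnitAt_of_vertical (K := K) V hV hϖ hϖV hsat 𝔪 hε0 (fun Q hQ => ?_) hεV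
  have h1 := ord_norm_eq_zero_of_centred hcomp 𝔫 𝔪 huniq hg hgQ Q hQ
  rw [hN, Q.ord_mul hε0 (zpow_ne_zero _ hc0), Q.ord_zpow, ord_algebraMap_const Q hc, mul_zero,
    add_zero] at h1
  exact h1

end UnitCrit

/-! ### Part 3: the level -/

section Level

open ModularCurve Fermat.Agent.S28.Gauss Fermat.Agent.N4.Setting Fermat.Agent.N4.FibreEmbedding
open Fermat.Agent.N4.Chart
open Fermat.Agent.N4F.E.DegreeLevelRaise Fermat.Agent.N4F.E.GaussDVR Polynomial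
open Fermat.Agent.N4F.E IsLocalRing Fermat.Agent.P3G.RbarFin Fermat.Agent.P3G.TwoComponents
open Fermat.Agent.P3G.TwoComponentsFinal Fermat.Agent.P3G
open Fermat.Agent.S36.R1.CrossingRegular Fermat.Agent.S36.R2.ChartMaps
open Fermat.Agent.P4.TwistRoots Fermat.Agent.P4.FrobStep

set_option synthInstance.maxHeartbeats 400000

attribute [local instance] isNoetherianRing_Rfin isIntegrallyClosed_Rfin isFractionRing_Rfin

/-! #### One vertical valuation: the chart of a level of good reduction -/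

section One

variable (K : Type) [Field K] [CharZero K] (M : ℕ) [NeZero M]
  (O : Subring K) [IsDiscreteValuationRing ↥O] [IsFractionRing ↥O K]

/-- The finite chart lies in the Gauss valuation ring. -/
theorem algebraMap_mem_gaussVS (r : ↥(Rfin K M O)) :
    algebraMap ↥(Rfin K M O) (FF K M) r ∈ gaussVS K M O :=
  chartAlg_le_gaussSubalgebra K M O (sFin_le_gauss K M O) r.2

/-- `r ∈ 𝔪(V) ↔ θ r = 0` on the finite chart of any level. -/
theorem mem_nonunits_gaussVS_iff_thetaFin' (r : ↥(Rfin K M O)) :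
    algebraMap ↥(Rfin K M O) (FF K M) r ∈ (gaussVS K M O).nonunits ↔ thetaFin K M O r = 0 := by
  rw [thetaFin_apply]
  exact FibreTwo.mem_nonunits_gaussVS_iff K M O _

/-- The uniformiser is a non-unit of the Gauss valuation ring. -/
theorem algebraMap_unif_mem_nonunits {ϖ : ↥O} (hϖ : Irreducible ϖ) :
    algebraMap ↥(Rfin K M O) (FF K M) (algebraMap ↥O ↥(Rfin K M O) ϖ) ∈
      (gaussVS K M O).nonunits := by
  rw [mem_nonunits_gaussVS_iff_thetaFin', thetaFin_apply]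
  exact theta_unif K M O hϖ

/-- **Saturation on the chart of a level of good reduction**: `𝔪(V) ∩ R = ϖ R`. -/
theorem dvd_of_mem_nonunits_gaussVS (hprime : (fibreIdeal K M O (Rfin K M O)).IsPrime) {ϖ : ↥O}
    (hϖ : Irreducible ϖ) (r : ↥(Rfin K M O))
    (hr : algebraMap ↥(Rfin K M O) (FF K M) r ∈ (gaussVS K M O).nonunits) :
    algebraMap ↥O ↥(Rfin K M O) ϖ ∣ r := by
  have h2 : r ∈ RingHom.ker (thetaFin K M O) :=
    (mem_nonunits_gaussVS_iff_thetaFin' K M O r).1 hr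
  rw [ker_thetaFin K M O hprime, fibreIdeal_eq_span K M O hϖ, Ideal.mem_span_singleton] at h2
  exact h2

end One

variable (K : Type) [Field K] [CharZero K] (N : ℕ) [NeZero N] (ℓ : ℕ) [Fact ℓ.Prime]
  (O : Subring K) [IsDiscreteValuationRing ↥O] [IsFractionRing ↥O K]
  [CharP (IsLocalRing.ResidueField ↥O) ℓ] [PerfectRing (IsLocalRing.ResidueField ↥O) ℓ]

variable (hN : IsUnit ((N : ℕ) : ↥O)) (ι : K →+* ℂ) (hℓN : ¬ ℓ ∣ N)
  (hprime : (fibreIdeal K N O (Rfin K N O)).IsPrime)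
  (hsmooth : IsDedekindDomain (↥(Rfin K N O) ⧸ fibreIdeal K N O (Rfin K N O)))
  (hA2 : ∀ x : ↥(gaussSubalgebra K N O),
    theta K N O x ∈ modularFunctionFieldFullC (IsLocalRing.ResidueField ↥O) N)
  (S₂ : FibreTwo.SecondVal K N ℓ O)
  {ϖ : ↥O} (hϖ : Irreducible ϖ)

/-! #### The crossing point is the only point above its images -/

include hN ι hℓN hprime hsmooth hA2 hϖ in
/-- The kernels of the two reductions lie in a crossing point, and it contains `ϖ`. -/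
theorem ker_le_of_through (𝔫 : Ideal ↥(Rfin K (N * ℓ) O))
    (ht₁ : Through (gaussVS K (N * ℓ) O) 𝔫) (ht₂ : Through S₂.V 𝔫) :
    RingHom.ker (CrossingLaurent.res (RbarFin K N O) (thetaFin K (N * ℓ) O)
        (thetaFin_mem_rbar K N ℓ O hN ι hℓN hprime hsmooth hA2 S₂)) ≤ 𝔫 ∧
      RingHom.ker (CrossingLaurent.res (RbarFin K N O) (theta2S K N ℓ O S₂)
        (theta2S_mem_rbar K N ℓ O hN hprime hsmooth hA2 S₂)) ≤ 𝔫 ∧
      algebraMap ↥O ↥(Rfin K (N * ℓ) O) ϖ ∈ 𝔫 := by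
  have hk1 : RingHom.ker (CrossingLaurent.res (RbarFin K N O) (thetaFin K (N * ℓ) O)
      (thetaFin_mem_rbar K N ℓ O hN ι hℓN hprime hsmooth hA2 S₂)) ≤ 𝔫 := by
    rw [CrossingLaurent.ker_res]
    intro r hr
    exact ht₁ r ((mem_nonunits_gaussVS_iff_thetaFin K N ℓ O r).2 hr)
  have hk2 : RingHom.ker (CrossingLaurent.res (RbarFin K N O) (theta2S K N ℓ O S₂)
      (theta2S_mem_rbar K N ℓ O hN hprime hsmooth hA2 S₂)) ≤ 𝔫 := by
    rw [CrossingLaurent.ker_res]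
    intro r hr
    exact ht₂ r ((mem_nonunits_secondVal_iff_theta2S K N ℓ O S₂ r).2 hr)
  refine ⟨hk1, hk2, hk1 ?_⟩
  have hinf := ker_inf_ker_eq_fin K N ℓ O hN ι hℓN hprime hsmooth hA2 S₂ hϖ
  have h3 : algebraMap ↥O ↥(Rfin K (N * ℓ) O) ϖ ∈
      Ideal.span {algebraMap ↥O ↥(Rfin K (N * ℓ) O) ϖ} := Ideal.mem_span_singleton_self _
  rw [← hinf] at h3
  exact h3.1

include hN ι hℓN hprime hsmooth hA2 hϖ in
/-- **A crossing point `𝔫` of level `N ℓ` is the only point above `α(𝔫)`** (`θ₁ ∘ α = θ` is onto,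
`θ₂ ∘ α` reaches all `ℓ`-th powers). -/
theorem le_of_comap_alphaR_eq (𝔫 𝔮 : Ideal ↥(Rfin K (N * ℓ) O)) [h𝔫 : 𝔫.IsPrime] [h𝔮 : 𝔮.IsPrime]
    (ht₁ : Through (gaussVS K (N * ℓ) O) 𝔫) (ht₂ : Through S₂.V 𝔫)
    (hcomap : 𝔮.comap (LevelIntegrality.alphaR K N ℓ O).toRingHom =
      𝔫.comap (LevelIntegrality.alphaR K N ℓ O).toRingHom) : 𝔮 ≤ 𝔫 := by
  have hD := crossingData_fin K N ℓ O hN ι hℓN hprime hsmooth hA2 S₂
  obtain ⟨hk1, hk2, hϖ𝔫⟩ := ker_le_of_through K N ℓ O hN ι hℓN hprime hsmooth hA2 S₂ hϖ 𝔫 ht₁ ht₂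
  have hinf := ker_inf_ker_eq_fin K N ℓ O hN ι hℓN hprime hsmooth hA2 S₂ hϖ
  have hϖ𝔮 : algebraMap ↥O ↥(Rfin K (N * ℓ) O) ϖ ∈ 𝔮 := by
    have h1 : algebraMap ↥O ↥(Rfin K N O) ϖ ∈
        𝔫.comap (LevelIntegrality.alphaR K N ℓ O).toRingHom := by
      rw [Ideal.mem_comap]
      show LevelIntegrality.alphaR K N ℓ O (algebraMap ↥O ↥(Rfin K N O) ϖ) ∈ 𝔫
      rw [AlgHom.commutes]
      exact hϖ𝔫
    rw [← hcomap, Ideal.mem_comap] at h1
    have h2 : (LevelIntegrality.alphaR K N ℓ O).toRingHom (algebraMap ↥O ↥(Rfin K N O) ϖ) =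
        algebraMap ↥O ↥(Rfin K (N * ℓ) O) ϖ := AlgHom.commutes _ _
    rwa [h2] at h1
  refine le_of_comap_eq (LevelIntegrality.alphaR K N ℓ O).toRingHom _ _ _ _ hD.surj hD.h1 hD.h4
    𝔫 𝔮 hk1 hk2 ?_ hcomap
  rw [hinf, Ideal.span_singleton_le_iff_mem]
  exact hϖ𝔮

include hN ι hℓN hprime hsmooth hA2 hϖ in
/-- **A crossing point `𝔫` of level `N ℓ` is the only point above `β(𝔫)`.** -/
theorem le_of_comap_betaR_eq (𝔫 𝔮 : Ideal ↥(Rfin K (N * ℓ) O)) [h𝔫 : 𝔫.IsPrime] [h𝔮 : 𝔮.IsPrime]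
    (ht₁ : Through (gaussVS K (N * ℓ) O) 𝔫) (ht₂ : Through S₂.V 𝔫)
    (hcomap : 𝔮.comap (LevelIntegrality.betaR K N ℓ O).toRingHom =
      𝔫.comap (LevelIntegrality.betaR K N ℓ O).toRingHom) : 𝔮 ≤ 𝔫 := by
  have hD := crossingData_fin K N ℓ O hN ι hℓN hprime hsmooth hA2 S₂
  obtain ⟨hk1, hk2, hϖ𝔫⟩ := ker_le_of_through K N ℓ O hN ι hℓN hprime hsmooth hA2 S₂ hϖ 𝔫 ht₁ ht₂
  have hinf := ker_inf_ker_eq_fin K N ℓ O hN ι hℓN hprime hsmooth hA2 S₂ hϖ
  have hϖ𝔮 : algebraMap ↥O ↥(Rfin K (N * ℓ) O) ϖ ∈ 𝔮 := by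
    have h1 : algebraMap ↥O ↥(Rfin K N O) ϖ ∈
        𝔫.comap (LevelIntegrality.betaR K N ℓ O).toRingHom := by
      rw [Ideal.mem_comap]
      show LevelIntegrality.betaR K N ℓ O (algebraMap ↥O ↥(Rfin K N O) ϖ) ∈ 𝔫
      rw [AlgHom.commutes]
      exact hϖ𝔫
    rw [← hcomap, Ideal.mem_comap] at h1
    have h2 : (LevelIntegrality.betaR K N ℓ O).toRingHom (algebraMap ↥O ↥(Rfin K N O) ϖ) =
        algebraMap ↥O ↥(Rfin K (N * ℓ) O) ϖ := AlgHom.commutes _ _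
    rwa [h2] at h1
  refine le_of_comap_eq (LevelIntegrality.betaR K N ℓ O).toRingHom _ _ _ _ hD.surj hD.h2 hD.h3
    𝔫 𝔮 hk2 hk1 ?_ hcomap
  rw [inf_comm, hinf, Ideal.span_singleton_le_iff_mem]
  exact hϖ𝔮

/-! #### (R4a): the norm of a vertical function at a crossing point -/

set_option maxHeartbeats 800000 in
include hN ι hℓN hprime hsmooth hA2 hϖ in
/-- ★ **(R4a) along `α`.**  `𝔫` a crossing point of the finite chart of level `N ℓ` (both vertical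
valuation rings `V₁ = gaussVS`, `V₂ = S₂.V` pass through `𝔫`), `g` a function without zero or pole
centred at `𝔫`, `V₁(g) = V₁(ϖ)^{n₁}`, `V₂(g) = V₂(ϖ)^{n₂}`.  Then
`N_α g = ε · ϖ ^ (n₁ + ℓ n₂)` with `ε` a unit of the LOCAL RING of the level-`N` chart at the point
`s̃ = α(s) = 𝔫 ∩ α(Rfin K N O)` (and a unit of the Gauss valuation ring of level `N`). -/
theorem isUnitAt_normAlong_alpha (𝔫 : Ideal ↥(Rfin K (N * ℓ) O)) [h𝔫 : 𝔫.IsPrime]
    (ht₁ : Through (gaussVS K (N * ℓ) O) 𝔫) (ht₂ : Through S₂.V 𝔫)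
    {g : FF K (N * ℓ)} (hg : g ≠ 0) (hgQ : ∀ Q ∈ centredSet K 𝔫, Q.ord g = 0) {n₁ n₂ : ℤ}
    (h₁ : (gaussVS K (N * ℓ) O).valuation g =
      (gaussVS K (N * ℓ) O).valuation (algebraMap K (FF K (N * ℓ)) (ϖ : K)) ^ n₁)
    (h₂ : S₂.V.valuation g = S₂.V.valuation (algebraMap K (FF K (N * ℓ)) (ϖ : K)) ^ n₂) :
    ∃ ε : FF K N,
      IsUnitAt (𝔫.comap (LevelIntegrality.alphaR K N ℓ O).toRingHom) ε ∧
      (gaussVS K N O).valuation ε = 1 ∧
      normAlong (alphaF K N ℓ) g =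
        ε * algebraMap K (FF K N) (ϖ : K) ^ (n₁ + (ℓ : ℤ) * n₂) := by
  obtain ⟨ε, hε⟩ := Fermat.Agent.S40.M1.NormValLevel.normAlong_alpha_eq_unit_mul K N ℓ O
    (SecondValBridge.ofTwo S₂) ι hℓN hϖ hg h₁ h₂
  refine ⟨((ε : ↥(gaussSubalgebra K N O)) : FF K N), ?_,
    Fermat.Agent.S40.M1.NormValLevel.valuation_gaussVS_unit K O N ε, hε⟩
  letI : Algebra (FF K N) (FF K (N * ℓ)) := algebraAlong (alphaF K N ℓ)
  haveI : IsScalarTower K (FF K N) (FF K (N * ℓ)) := isScalarTower_along (alphaF K N ℓ)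
  haveI : FiniteDimensional (FF K N) (FF K (N * ℓ)) :=
    AlphaSide.finiteDimensional_alpha K N ℓ ι hℓN
  haveI : Algebra.IsSeparable (FF K N) (FF K (N * ℓ)) := inferInstance
  letI : Algebra ↥(Rfin K N O) ↥(Rfin K (N * ℓ) O) :=
    (LevelIntegrality.alphaR K N ℓ O).toRingHom.toAlgebra
  haveI : Algebra.IsIntegral ↥(Rfin K N O) ↥(Rfin K (N * ℓ) O) :=
    ⟨(chartMap_alphaR K N ℓ O).integral⟩
  have hϖK : ((ϖ : ↥O) : K) ≠ 0 := fun h0 => hϖ.ne_zero (Subtype.ext h0)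
  exact isUnitAt_of_norm_eq (K := K) (F := FF K N) (F' := FF K (N * ℓ)) (R := ↥(Rfin K N O))
    (R' := ↥(Rfin K (N * ℓ) O)) (chartMap_alphaR K N ℓ O).compat (gaussVS K N O)
    (algebraMap_mem_gaussVS K N O) hϖ (algebraMap_unif_mem_nonunits K N O hϖ)
    (dvd_of_mem_nonunits_gaussVS K N O hprime hϖ) 𝔫
    (𝔫.comap (LevelIntegrality.alphaR K N ℓ O).toRingHom)
    (fun 𝔮 h𝔮 hcomap => by
      haveI := h𝔮
      exact le_of_comap_alphaR_eq K N ℓ O hN ι hℓN hprime hsmooth hA2 S₂ hϖ 𝔫 𝔮 ht₁ ht₂ hcomap)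
    hg hgQ hϖK hε (Fermat.Agent.S40.M1.NormValLevel.valuation_gaussVS_unit K O N ε)

set_option maxHeartbeats 800000 in
include hN ι hℓN hprime hsmooth hA2 hϖ in
/-- ★ **(R4a) along `β`.**  Same setting: `N_β g = ε · ϖ ^ (ℓ n₁ + n₂)` with `ε` a unit of the local
ring of the level-`N` chart at the point `s̃' = β(s) = 𝔫 ∩ β(Rfin K N O)`. -/
theorem isUnitAt_normAlong_beta (𝔫 : Ideal ↥(Rfin K (N * ℓ) O)) [h𝔫 : 𝔫.IsPrime]
    (ht₁ : Through (gaussVS K (N * ℓ) O) 𝔫) (ht₂ : Through S₂.V 𝔫)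
    {g : FF K (N * ℓ)} (hg : g ≠ 0) (hgQ : ∀ Q ∈ centredSet K 𝔫, Q.ord g = 0) {n₁ n₂ : ℤ}
    (h₁ : (gaussVS K (N * ℓ) O).valuation g =
      (gaussVS K (N * ℓ) O).valuation (algebraMap K (FF K (N * ℓ)) (ϖ : K)) ^ n₁)
    (h₂ : S₂.V.valuation g = S₂.V.valuation (algebraMap K (FF K (N * ℓ)) (ϖ : K)) ^ n₂) :
    ∃ ε : FF K N,
      IsUnitAt (𝔫.comap (LevelIntegrality.betaR K N ℓ O).toRingHom) ε ∧
      (gaussVS K N O).valuation ε = 1 ∧
      normAlong (betaF K N ℓ) g =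
        ε * algebraMap K (FF K N) (ϖ : K) ^ ((ℓ : ℤ) * n₁ + n₂) := by
  obtain ⟨ε, hε⟩ := Fermat.Agent.S40.M1.NormValLevel.normAlong_beta_eq_unit_mul K N ℓ O
    (SecondValBridge.ofTwo S₂) ι hℓN hϖ hg h₁ h₂
  refine ⟨((ε : ↥(gaussSubalgebra K N O)) : FF K N), ?_,
    Fermat.Agent.S40.M1.NormValLevel.valuation_gaussVS_unit K O N ε, hε⟩
  letI : Algebra (FF K N) (FF K (N * ℓ)) := algebraAlong (betaF K N ℓ)
  haveI : IsScalarTower K (FF K N) (FF K (N * ℓ)) := isScalarTower_along (betaF K N ℓ)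
  haveI : FiniteDimensional (FF K N) (FF K (N * ℓ)) :=
    BetaSide.finiteDimensional_beta K N ℓ ι hℓN
  haveI : Algebra.IsSeparable (FF K N) (FF K (N * ℓ)) := inferInstance
  letI : Algebra ↥(Rfin K N O) ↥(Rfin K (N * ℓ) O) :=
    (LevelIntegrality.betaR K N ℓ O).toRingHom.toAlgebra
  haveI : Algebra.IsIntegral ↥(Rfin K N O) ↥(Rfin K (N * ℓ) O) :=
    ⟨(chartMap_betaR K N ℓ O).integral⟩
  have hϖK : ((ϖ : ↥O) : K) ≠ 0 := fun h0 => hϖ.ne_zero (Subtype.ext h0)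
  exact isUnitAt_of_norm_eq (K := K) (F := FF K N) (F' := FF K (N * ℓ)) (R := ↥(Rfin K N O))
    (R' := ↥(Rfin K (N * ℓ) O)) (chartMap_betaR K N ℓ O).compat (gaussVS K N O)
    (algebraMap_mem_gaussVS K N O) hϖ (algebraMap_unif_mem_nonunits K N O hϖ)
    (dvd_of_mem_nonunits_gaussVS K N O hprime hϖ) 𝔫
    (𝔫.comap (LevelIntegrality.betaR K N ℓ O).toRingHom)
    (fun 𝔮 h𝔮 hcomap => by
      haveI := h𝔮
      exact le_of_comap_betaR_eq K N ℓ O hN ι hℓN hprime hsmooth hA2 S₂ hϖ 𝔫 𝔮 ht₁ ht₂ hcomap)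
    hg hgQ hϖK hε (Fermat.Agent.S40.M1.NormValLevel.valuation_gaussVS_unit K O N ε)

/-! #### The node coordinates -/

/-- The node coordinates `u v` (`u v = G ϖ`, `G ∉ 𝔫`, `u` a unit of `V₁`, `v` a unit of `V₂`) have no
zero or pole centred at `𝔫`, and `V₂(u) = V₂(ϖ)`, `V₁(v) = V₁(ϖ)`. -/
theorem node_coords_facts (𝔫 : Ideal ↥(Rfin K (N * ℓ) O)) [𝔫.IsPrime]
    (ht₁ : Through (gaussVS K (N * ℓ) O) 𝔫) (ht₂ : Through S₂.V 𝔫)
    {ϖ : ↥O} (hϖ0 : ϖ ≠ 0) {u v G : ↥(Rfin K (N * ℓ) O)}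
    (hu₁ : (u : FF K (N * ℓ)) ∉ (gaussVS K (N * ℓ) O).nonunits)
    (hv₂ : (v : FF K (N * ℓ)) ∉ S₂.V.nonunits)
    (huv : u * v = G * algebraMap ↥O ↥(Rfin K (N * ℓ) O) ϖ) (hG : G ∉ 𝔫) :
    (u : FF K (N * ℓ)) ≠ 0 ∧ (v : FF K (N * ℓ)) ≠ 0 ∧
    (∀ Q ∈ centredSet K 𝔫, Q.ord (u : FF K (N * ℓ)) = 0 ∧ Q.ord (v : FF K (N * ℓ)) = 0) ∧
    (gaussVS K (N * ℓ) O).valuation (u : FF K (N * ℓ)) = 1 ∧
    S₂.V.valuation (u : FF K (N * ℓ)) =
      S₂.V.valuation (algebraMap K (FF K (N * ℓ)) (ϖ : K)) ∧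
    (gaussVS K (N * ℓ) O).valuation (v : FF K (N * ℓ)) =
      (gaussVS K (N * ℓ) O).valuation (algebraMap K (FF K (N * ℓ)) (ϖ : K)) ∧
    S₂.V.valuation (v : FF K (N * ℓ)) = 1 := by
  have hϖK : ((ϖ : ↥O) : K) ≠ 0 := fun h0 => hϖ0 (Subtype.ext h0)
  have hϖF : algebraMap K (FF K (N * ℓ)) (ϖ : K) ≠ 0 := (_root_.map_ne_zero _).2 hϖK
  have hV₁ : ∀ r : ↥(Rfin K (N * ℓ) O),
      algebraMap ↥(Rfin K (N * ℓ) O) (FF K (N * ℓ)) r ∈ gaussVS K (N * ℓ) O :=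
    algebraMap_mem_gaussVS K (N * ℓ) O
  have hV₂ : ∀ r : ↥(Rfin K (N * ℓ) O),
      algebraMap ↥(Rfin K (N * ℓ) O) (FF K (N * ℓ)) r ∈ S₂.V :=
    fun r => SecondValBridge.Rfin_le_V K N ℓ O S₂ r.2
  have hG0 : (G : FF K (N * ℓ)) ≠ 0 := algebraMap_ne_zero_of_notMem 𝔫 hG
  have hmul : (u : FF K (N * ℓ)) * (v : FF K (N * ℓ)) =
      (G : FF K (N * ℓ)) * algebraMap K (FF K (N * ℓ)) (ϖ : K) := by
    have h := congrArg (fun x : ↥(Rfin K (N * ℓ) O) => (x : FF K (N * ℓ))) huv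
    exact h
  have hu0 : (u : FF K (N * ℓ)) ≠ 0 := fun h0 => by
    rw [h0, zero_mul] at hmul
    exact mul_ne_zero hG0 hϖF hmul.symm
  have hv0 : (v : FF K (N * ℓ)) ≠ 0 := fun h0 => by
    rw [h0, mul_zero] at hmul
    exact mul_ne_zero hG0 hϖF hmul.symm
  have hG₁ : (gaussVS K (N * ℓ) O).valuation (G : FF K (N * ℓ)) = 1 :=
    valuation_eq_one_of_notMem hV₁ ht₁ hG
  have hG₂ : S₂.V.valuation (G : FF K (N * ℓ)) = 1 := valuation_eq_one_of_notMem hV₂ ht₂ hG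
  have hu₁' : (gaussVS K (N * ℓ) O).valuation (u : FF K (N * ℓ)) = 1 :=
    le_antisymm (((gaussVS K (N * ℓ) O).valuation_le_one_iff _).2 (hV₁ u))
      (not_lt.1 fun h => hu₁ (((gaussVS K (N * ℓ) O).mem_nonunits_iff).2 h))
  have hv₂' : S₂.V.valuation (v : FF K (N * ℓ)) = 1 :=
    le_antisymm ((S₂.V.valuation_le_one_iff _).2 (hV₂ v))
      (not_lt.1 fun h => hv₂ ((S₂.V.mem_nonunits_iff).2 h))
  refine ⟨hu0, hv0, fun Q hQ => ?_, hu₁', ?_, ?_, hv₂'⟩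
  · have h1 : 0 ≤ Q.ord (u : FF K (N * ℓ)) :=
      (Fermat.Agent.S24.PlaceExtend.mem_iff_ord_nonneg Q hu0).1 (hQ.1 u)
    have h2 : 0 ≤ Q.ord (v : FF K (N * ℓ)) :=
      (Fermat.Agent.S24.PlaceExtend.mem_iff_ord_nonneg Q hv0).1 (hQ.1 v)
    have h3 := congrArg Q.ord hmul
    have h4 : Q.ord (G : FF K (N * ℓ)) = 0 := ord_eq_zero_of_notMem hQ hG
    rw [Q.ord_mul hu0 hv0, Q.ord_mul hG0 hϖF, ord_algebraMap_const Q hϖK, h4, add_zero] at h3
    constructor <;> omega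
  · have h3 := congrArg S₂.V.valuation hmul
    rwa [map_mul, map_mul, hv₂', hG₂, mul_one, one_mul] at h3
  · have h3 := congrArg (gaussVS K (N * ℓ) O).valuation hmul
    rwa [map_mul, map_mul, hu₁', hG₁, one_mul, one_mul] at h3

set_option maxHeartbeats 800000 in
include hN ι hℓN hprime hsmooth hA2 hϖ in
/-- ★ **(R4a) for the node coordinates**: `N_α u = ε ϖ^ℓ`, `N_β u = ε ϖ`, `N_α v = ε ϖ`,
`N_β v = ε ϖ^ℓ`, with `ε` a unit of the local ring of the level-`N` chart at `α(s)` resp. `β(s)`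
each time. -/
theorem normAlong_node_coords (𝔫 : Ideal ↥(Rfin K (N * ℓ) O)) [h𝔫 : 𝔫.IsPrime]
    (ht₁ : Through (gaussVS K (N * ℓ) O) 𝔫) (ht₂ : Through S₂.V 𝔫)
    {u v G : ↥(Rfin K (N * ℓ) O)}
    (hu₁ : (u : FF K (N * ℓ)) ∉ (gaussVS K (N * ℓ) O).nonunits)
    (hv₂ : (v : FF K (N * ℓ)) ∉ S₂.V.nonunits)
    (huv : u * v = G * algebraMap ↥O ↥(Rfin K (N * ℓ) O) ϖ) (hG : G ∉ 𝔫) :
    (∃ ε : FF K N, IsUnitAt (𝔫.comap (LevelIntegrality.alphaR K N ℓ O).toRingHom) ε ∧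
      (gaussVS K N O).valuation ε = 1 ∧
      normAlong (alphaF K N ℓ) (u : FF K (N * ℓ)) = ε * algebraMap K (FF K N) (ϖ : K) ^ ℓ) ∧
    (∃ ε : FF K N, IsUnitAt (𝔫.comap (LevelIntegrality.betaR K N ℓ O).toRingHom) ε ∧
      (gaussVS K N O).valuation ε = 1 ∧
      normAlong (betaF K N ℓ) (u : FF K (N * ℓ)) = ε * algebraMap K (FF K N) (ϖ : K)) ∧
    (∃ ε : FF K N, IsUnitAt (𝔫.comap (LevelIntegrality.alphaR K N ℓ O).toRingHom) ε ∧
      (gaussVS K N O).valuation ε = 1 ∧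
      normAlong (alphaF K N ℓ) (v : FF K (N * ℓ)) = ε * algebraMap K (FF K N) (ϖ : K)) ∧
    (∃ ε : FF K N, IsUnitAt (𝔫.comap (LevelIntegrality.betaR K N ℓ O).toRingHom) ε ∧
      (gaussVS K N O).valuation ε = 1 ∧
      normAlong (betaF K N ℓ) (v : FF K (N * ℓ)) = ε * algebraMap K (FF K N) (ϖ : K) ^ ℓ) := by
  obtain ⟨hu0, hv0, hQ, hu₁', hu₂', hv₁', hv₂'⟩ :=
    node_coords_facts K N ℓ O S₂ 𝔫 ht₁ ht₂ hϖ.ne_zero hu₁ hv₂ huv hG
  have hu₁z : (gaussVS K (N * ℓ) O).valuation (u : FF K (N * ℓ)) =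
      (gaussVS K (N * ℓ) O).valuation (algebraMap K (FF K (N * ℓ)) (ϖ : K)) ^ (0 : ℤ) := by
    rw [zpow_zero, hu₁']
  have hu₂z : S₂.V.valuation (u : FF K (N * ℓ)) =
      S₂.V.valuation (algebraMap K (FF K (N * ℓ)) (ϖ : K)) ^ (1 : ℤ) := by
    rw [zpow_one, hu₂']
  have hv₁z : (gaussVS K (N * ℓ) O).valuation (v : FF K (N * ℓ)) =
      (gaussVS K (N * ℓ) O).valuation (algebraMap K (FF K (N * ℓ)) (ϖ : K)) ^ (1 : ℤ) := by
    rw [zpow_one, hv₁']
  have hv₂z : S₂.V.valuation (v : FF K (N * ℓ)) =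
      S₂.V.valuation (algebraMap K (FF K (N * ℓ)) (ϖ : K)) ^ (0 : ℤ) := by
    rw [zpow_zero, hv₂']
  refine ⟨?_, ?_, ?_, ?_⟩
  · obtain ⟨ε, h1, h2, h3⟩ := isUnitAt_normAlong_alpha K N ℓ O hN ι hℓN hprime hsmooth hA2 S₂ hϖ 𝔫
      ht₁ ht₂ hu0 (fun Q hQ' => (hQ Q hQ').1) hu₁z hu₂z
    refine ⟨ε, h1, h2, ?_⟩
    rw [h3, zero_add, mul_one, zpow_natCast]
  · obtain ⟨ε, h1, h2, h3⟩ := isUnitAt_normAlong_beta K N ℓ O hN ι hℓN hprime hsmooth hA2 S₂ hϖ 𝔫
      ht₁ ht₂ hu0 (fun Q hQ' => (hQ Q hQ').1) hu₁z hu₂z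
    refine ⟨ε, h1, h2, ?_⟩
    rw [h3, mul_zero, zero_add, zpow_one]
  · obtain ⟨ε, h1, h2, h3⟩ := isUnitAt_normAlong_alpha K N ℓ O hN ι hℓN hprime hsmooth hA2 S₂ hϖ 𝔫
      ht₁ ht₂ hv0 (fun Q hQ' => (hQ Q hQ').2) hv₁z hv₂z
    refine ⟨ε, h1, h2, ?_⟩
    rw [h3, mul_zero, add_zero, zpow_one]
  · obtain ⟨ε, h1, h2, h3⟩ := isUnitAt_normAlong_beta K N ℓ O hN ι hℓN hprime hsmooth hA2 S₂ hϖ 𝔫
      ht₁ ht₂ hv0 (fun Q hQ' => (hQ Q hQ').2) hv₁z hv₂z
    refine ⟨ε, h1, h2, ?_⟩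
    rw [h3, mul_one, add_zero, zpow_natCast]

end Level

end Fermat.Agent.S40.M1.NormU
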