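/-
S40 / S44 (row 38), block [M1]/T6′, leaf **(R4a)**, level instance (helper18; dispatch helper8 #3265 (b)):
**the norms of the honest node coordinates.**

* one level `(K, O)`, UNRAMIFIED (`ℓ` irreducible in `O`), `BaseNode K N ℓ O S₂ 𝔫 u v G` of
  `S40/M1/NodeFactorLevel` (= `u v = G ℓ`, `G ∉ 𝔫`, `u ∈ V₁^×`, `v ∈ V₂^×`, …):
  `normAlong_of_baseNode` : `N_α u = ε ℓ^ℓ`, `N_β u = ε ℓ`, `N_α v = ε ℓ`, `N_β v = ε ℓ^ℓ`, each `ε` a unit
  of the local ring of the level-`N` chart at `α(𝔫)` resp. `β(𝔫)` (`S40/M1/NormU`);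
* levels `K₀ ≤ K` of `Q̄`, `K₀` unramified, `K` good, `hn : HonestNode … 𝔫 u₀ v₀ G₀` of
  `S40/M1/NodeHonest`:
  `normAlphaK_ffMap`, `normBetaK_ffMap` : the level norms commute with the change of level;
  `isUnitAt_ffMap_alpha`, `isUnitAt_ffMap_beta` : a unit of the local ring at `α(𝔫₀)` over `K₀`
  is a unit of the local ring at `α(𝔫)` over `K` (`𝔫₀ = 𝔫 ∩ Rfin_{K₀}`);
  ★ `norm_u_levels` : `∃ εα εβ : FF (Lvl K₀) N`, units at `α(𝔫₀)`, `β(𝔫₀)`, with
  `normAlphaK K₀ N p u₀ = εα p^p`, `normBetaK K₀ N p u₀ = εβ p`, and at the level `K`: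
  `normAlphaK K N p (finIncl u₀) = ffMap εα · p^p`, `normBetaK K N p (finIncl u₀) = ffMap εβ · p`,
  `ffMap εα`, `ffMap εβ` units at `α(𝔫)`, `β(𝔫)`;  `norm_v_levels` : the mirror for `v₀`.
-/
import Mathlib
import Fermat.Agent.S40.M1.NormU
import Fermat.Agent.S40.M1.NodeFactorLevel
import Fermat.Agent.P4.FrobLevelStep

set_option autoImplicit false
set_option linter.unusedSectionVars false
set_option linter.unusedVariables false
set_option linter.style.haveILetI false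
set_option linter.style.longLine false

open ModularCurve Fermat.Agent.S28.Gauss Fermat.Agent.N4.Setting Fermat.Agent.N4.FibreEmbedding
open Fermat.Agent.N4.Chart
open Fermat.Agent.N4F.E.DegreeLevelRaise Fermat.Agent.N4F.E.GaussDVR AlgebraicCurve Polynomial
open Fermat.Agent.N4F.E IsLocalRing Fermat.Agent.P3G.RbarFin Fermat.Agent.P3G.TwoComponents
open Fermat.Agent.P3G.TwoComponentsFinal Fermat.Agent.P3G Fermat.Agent.P4
open Fermat.Agent.P4.TwistRoots Fermat.Agent.P3G.UCrit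
open Fermat.Agent.N4.BaseDescent Fermat.Agent.S19.Cech.LevelBasis
open Fermat.Agent.S40.M1.NodeHonest Fermat.Agent.S40.M1.NodeFactorLevel
open Fermat.Agent.P4.FrobStep Fermat.Agent.S36.R2.ChartMaps

noncomputable section

namespace Fermat.Agent.S40.M1.NormUBase

attribute [local instance] isNoetherianRing_Rfin isIntegrallyClosed_Rfin isFractionRing_Rfin

/-! ### One unramified level -/

section One

variable (K : Type) [Field K] [CharZero K] (N : ℕ) [NeZero N] (ℓ : ℕ) [Fact ℓ.Prime]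
  (O : Subring K) [IsDiscreteValuationRing ↥O] [IsFractionRing ↥O K]
  [CharP (IsLocalRing.ResidueField ↥O) ℓ] [PerfectRing (IsLocalRing.ResidueField ↥O) ℓ]

set_option synthInstance.maxHeartbeats 400000

variable (hN : IsUnit ((N : ℕ) : ↥O)) (ι : K →+* ℂ) (hℓN : ¬ ℓ ∣ N)
  (hprime : (fibreIdeal K N O (Rfin K N O)).IsPrime)
  (hsmooth : IsDedekindDomain (↥(Rfin K N O) ⧸ fibreIdeal K N O (Rfin K N O)))
  (hA2 : ∀ x : ↥(gaussSubalgebra K N O),
    theta K N O x ∈ modularFunctionFieldFullC (IsLocalRing.ResidueField ↥O) N)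
  (S₂ : FibreTwo.SecondVal K N ℓ O)

/-- The constant `ℓ` of `O`, seen in a function field. -/
theorem algebraMap_natCast_base (M : ℕ) [NeZero M] :
    algebraMap K (FF K M) ((((ℓ : ℕ) : ↥O) : ↥O) : K) = ((ℓ : ℕ) : FF K M) := by
  rw [Subring.coe_natCast, map_natCast]

set_option maxHeartbeats 800000 in
include hN ι hℓN hprime hsmooth hA2 in
/-- **(R4a) at an unramified level**: the norms of the node coordinates of a `BaseNode`. -/
theorem normAlong_of_baseNode (hirr : Irreducible (((ℓ : ℕ) : ↥O)))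
    {𝔫 : Ideal ↥(Rfin K (N * ℓ) O)} {u v G : ↥(Rfin K (N * ℓ) O)}
    (hb : BaseNode K N ℓ O S₂ 𝔫 u v G) :
    (∃ ε : FF K N, IsUnitAt (𝔫.comap (LevelIntegrality.alphaR K N ℓ O).toRingHom) ε ∧
      (gaussVS K N O).valuation ε = 1 ∧
      normAlong (alphaF K N ℓ) (u : FF K (N * ℓ)) = ε * ((ℓ : ℕ) : FF K N) ^ ℓ) ∧
    (∃ ε : FF K N, IsUnitAt (𝔫.comap (LevelIntegrality.betaR K N ℓ O).toRingHom) ε ∧
      (gaussVS K N O).valuation ε = 1 ∧
      normAlong (betaF K N ℓ) (u : FF K (N * ℓ)) = ε * ((ℓ : ℕ) : FF K N)) ∧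
    (∃ ε : FF K N, IsUnitAt (𝔫.comap (LevelIntegrality.alphaR K N ℓ O).toRingHom) ε ∧
      (gaussVS K N O).valuation ε = 1 ∧
      normAlong (alphaF K N ℓ) (v : FF K (N * ℓ)) = ε * ((ℓ : ℕ) : FF K N)) ∧
    (∃ ε : FF K N, IsUnitAt (𝔫.comap (LevelIntegrality.betaR K N ℓ O).toRingHom) ε ∧
      (gaussVS K N O).valuation ε = 1 ∧
      normAlong (betaF K N ℓ) (v : FF K (N * ℓ)) = ε * ((ℓ : ℕ) : FF K N) ^ ℓ) := by
  haveI : 𝔫.IsPrime := hb.isMaximal.isPrime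
  have hu₁ : (u : FF K (N * ℓ)) ∉ (gaussVS K (N * ℓ) O).nonunits := by
    rw [ValuationSubring.mem_nonunits_iff, hb.val₁_u]
    exact lt_irrefl _
  have hv₂ : (v : FF K (N * ℓ)) ∉ S₂.V.nonunits := by
    rw [ValuationSubring.mem_nonunits_iff, hb.val₂_v]
    exact lt_irrefl _
  have huv : u * v = G * algebraMap ↥O ↥(Rfin K (N * ℓ) O) (((ℓ : ℕ) : ↥O)) := by
    rw [map_natCast]
    exact hb.mul_eq
  have key := Fermat.Agent.S40.M1.NormU.normAlong_node_coords K N ℓ O hN ι hℓN hprime hsmooth hA2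
    S₂ hirr 𝔫 hb.through₁ hb.through₂ hu₁ hv₂ huv hb.unit_G
  rw [algebraMap_natCast_base K ℓ O N] at key
  exact key

end One

/-! ### Levels `K₀ ≤ K` of `Q̄` -/

section Levels

open Fermat.Agent.N4.S18Glue Fermat.Agent.N4.BigDVR
  Fermat.Agent.P3G.Assembly.StepOfLevel Fermat.Agent.P3G.Assembly.LevelStep
  Fermat.Agent.N4F.C Fermat.Agent.N4F.C.Levels Fermat.Agent.N4F.C.Galois
  Fermat.Agent.S33.L.Contracts Fermat.Agent.N4F.C.ChartFibre
  Fermat.Agent.S36.Descent.UnramLevel Fermat.Agent.P3G.Gamma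
  Fermat.Agent.P4.FrobLevelStep

local notation "Qbar" => AlgebraicClosure ℚ

/-! #### The level norms commute with the change of level -/

section Transport

variable {M q : ℕ} [NeZero M] [NeZero q] {K₀ K : IntermediateField ℚ Qbar} (hKL : K₀ ≤ K)

/-- The norm along `α` commutes with the change of level. -/
theorem normAlphaK_ffMap (hq : q.Prime) (hqM : ¬ q ∣ M) (x : FF (Lvl K₀) (M * q)) :
    normAlphaK K M q (ffMap (lvlIncl hKL) (M * q) x) =
      ffMap (lvlIncl hKL) M (normAlphaK K₀ M q x) := by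
  apply (levK M K).toRingHom.injective
  show levK M K (normAlphaK K M q (ffMap (lvlIncl hKL) (M * q) x)) =
    levK M K (ffMap (lvlIncl hKL) M (normAlphaK K₀ M q x))
  rw [levK_normAlphaK K M q hq hqM, levK_ffMap, levK_ffMap, levK_normAlphaK K₀ M q hq hqM]

/-- The norm along `β` commutes with the change of level. -/
theorem normBetaK_ffMap (hq : q.Prime) (hqM : ¬ q ∣ M) (x : FF (Lvl K₀) (M * q)) :
    normBetaK K M q (ffMap (lvlIncl hKL) (M * q) x) =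
      ffMap (lvlIncl hKL) M (normBetaK K₀ M q x) := by
  apply (levK M K).toRingHom.injective
  show levK M K (normBetaK K M q (ffMap (lvlIncl hKL) (M * q) x)) =
    levK M K (ffMap (lvlIncl hKL) M (normBetaK K₀ M q x))
  rw [levK_normBetaK K M q hq hqM, levK_ffMap, levK_ffMap, levK_normBetaK K₀ M q hq hqM]

variable (A : ValuationSubring Qbar)
  [IsDiscreteValuationRing ↥(baseRing A K₀)] [IsDiscreteValuationRing ↥(baseRing A K)]

set_option synthInstance.maxHeartbeats 400000 in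
/-- `α` commutes with the change of level on the finite charts. -/
theorem finIncl_alphaR (a : ↥(Rfin (Lvl K₀) M (baseRing A K₀))) :
    finIncl A (M * q) hKL (LevelIntegrality.alphaR (Lvl K₀) M q (baseRing A K₀) a) =
      LevelIntegrality.alphaR (Lvl K) M q (baseRing A K) (finIncl A M hKL a) :=
  Subtype.ext (Fermat.Agent.S40.M1.LevelComap.ffMap_alphaF (lvlIncl hKL) M q _)

set_option synthInstance.maxHeartbeats 400000 in
/-- `β` commutes with the change of level on the finite charts. -/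
theorem finIncl_betaR (a : ↥(Rfin (Lvl K₀) M (baseRing A K₀))) :
    finIncl A (M * q) hKL (LevelIntegrality.betaR (Lvl K₀) M q (baseRing A K₀) a) =
      LevelIntegrality.betaR (Lvl K) M q (baseRing A K) (finIncl A M hKL a) :=
  Subtype.ext (Fermat.Agent.S40.M1.LevelComap.ffMap_betaF (lvlIncl hKL) M q _)

set_option synthInstance.maxHeartbeats 400000 in
/-- A unit of the local ring of the level-`M` chart over `K₀` at `α(𝔫₀)`, `𝔫₀ = 𝔫 ∩ Rfin_{K₀}`, is a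
unit of the local ring of the level-`M` chart over `K` at `α(𝔫)`. -/
theorem isUnitAt_ffMap_alpha {𝔫 : Ideal ↥(Rfin (Lvl K) (M * q) (baseRing A K))}
    {ε : FF (Lvl K₀) M}
    (h : IsUnitAt ((𝔫.comap (finIncl A (M * q) hKL)).comap
      (LevelIntegrality.alphaR (Lvl K₀) M q (baseRing A K₀)).toRingHom) ε) :
    IsUnitAt (𝔫.comap (LevelIntegrality.alphaR (Lvl K) M q (baseRing A K)).toRingHom)
      (ffMap (lvlIncl hKL) M ε) := by
  obtain ⟨a, r, ha, hr, har⟩ := h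
  refine ⟨finIncl A M hKL a, finIncl A M hKL r, fun hmem => ha ?_, fun hmem => hr ?_, ?_⟩
  · rw [Ideal.mem_comap, Ideal.mem_comap]
    show finIncl A (M * q) hKL (LevelIntegrality.alphaR (Lvl K₀) M q (baseRing A K₀) a) ∈ 𝔫
    rw [finIncl_alphaR hKL A a]
    exact hmem
  · rw [Ideal.mem_comap, Ideal.mem_comap]
    show finIncl A (M * q) hKL (LevelIntegrality.alphaR (Lvl K₀) M q (baseRing A K₀) r) ∈ 𝔫
    rw [finIncl_alphaR hKL A r]
    exact hmem
  · have h1 := congrArg (ffMap (lvlIncl hKL) M) har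
    rw [map_mul] at h1
    exact h1

set_option synthInstance.maxHeartbeats 400000 in
/-- The mirror along `β`. -/
theorem isUnitAt_ffMap_beta {𝔫 : Ideal ↥(Rfin (Lvl K) (M * q) (baseRing A K))}
    {ε : FF (Lvl K₀) M}
    (h : IsUnitAt ((𝔫.comap (finIncl A (M * q) hKL)).comap
      (LevelIntegrality.betaR (Lvl K₀) M q (baseRing A K₀)).toRingHom) ε) :
    IsUnitAt (𝔫.comap (LevelIntegrality.betaR (Lvl K) M q (baseRing A K)).toRingHom)
      (ffMap (lvlIncl hKL) M ε) := by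
  obtain ⟨a, r, ha, hr, har⟩ := h
  refine ⟨finIncl A M hKL a, finIncl A M hKL r, fun hmem => ha ?_, fun hmem => hr ?_, ?_⟩
  · rw [Ideal.mem_comap, Ideal.mem_comap]
    show finIncl A (M * q) hKL (LevelIntegrality.betaR (Lvl K₀) M q (baseRing A K₀) a) ∈ 𝔫
    rw [finIncl_betaR hKL A a]
    exact hmem
  · rw [Ideal.mem_comap, Ideal.mem_comap]
    show finIncl A (M * q) hKL (LevelIntegrality.betaR (Lvl K₀) M q (baseRing A K₀) r) ∈ 𝔫
    rw [finIncl_betaR hKL A r]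
    exact hmem
  · have h1 := congrArg (ffMap (lvlIncl hKL) M) har
    rw [map_mul] at h1
    exact h1

end Transport

/-! #### The norms of the honest node coordinates -/

variable (N p : ℕ) [NeZero N] [Fact p.Prime] (hpN : ¬ p ∣ N)
  (A : ValuationSubring Qbar) (hA : A.LiesOverPrime p)
  {K₀ K : IntermediateField ℚ Qbar} (hKL : K₀ ≤ K)
  (hK₀ : IsUnramLevel A p K₀) (hK : IsGoodLevel A p K)
  [IsDiscreteValuationRing ↥(baseRing A K₀)] [IsDiscreteValuationRing ↥(baseRing A K)]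
  [CharP (IsLocalRing.ResidueField ↥(baseRing A K₀)) p]
  [PerfectRing (IsLocalRing.ResidueField ↥(baseRing A K₀)) p]
  [CharP (IsLocalRing.ResidueField ↥(baseRing A K)) p]
  [PerfectRing (IsLocalRing.ResidueField ↥(baseRing A K)) p]
  (hA2₀ : ∀ x : ↥(gaussSubalgebra (Lvl K₀) N (baseRing A K₀)),
    theta (Lvl K₀) N (baseRing A K₀) x ∈
      modularFunctionFieldFullC (IsLocalRing.ResidueField ↥(baseRing A K₀)) N)
  (hA2 : ∀ x : ↥(gaussSubalgebra (Lvl K) N (baseRing A K)),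
    theta (Lvl K) N (baseRing A K) x ∈
      modularFunctionFieldFullC (IsLocalRing.ResidueField ↥(baseRing A K)) N)
  (S₂ : Fermat.Agent.P3G.FibreTwo.SecondVal (Lvl K) N p (baseRing A K))

set_option maxHeartbeats 1600000 in
set_option synthInstance.maxHeartbeats 400000 in
include hpN hA hK₀ hK hA2₀ hA2 in
/-- ★ **(R4a) at levels, the coordinate `u`**: `K₀` unramified, `K ⊇ K₀` good, `𝔫` a crossing point of
the finite chart of level `N p` over `O_K` with an honest node `(u₀, v₀, G₀)` defined over `K₀`.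
There are `εα, εβ ∈ FF (Lvl K₀) N`, units of the local rings of the level-`N` chart OVER `K₀` at
`α(𝔫₀)`, `β(𝔫₀)` (`𝔫₀ = 𝔫 ∩ Rfin_{K₀}`), with `N_α u₀ = εα p^p`, `N_β u₀ = εβ p`; at the level `K`:
`N_α u = ffMap εα · p^p`, `N_β u = ffMap εβ · p` with `ffMap εα`, `ffMap εβ` units at `α(𝔫)`, `β(𝔫)`. -/
theorem norm_u_levels
    {𝔫 : Ideal ↥(Rfin (Lvl K) (N * p) (baseRing A K))} [h𝔫 : 𝔫.IsMaximal]
    {u₀ v₀ G₀ : ↥(Rfin (Lvl K₀) (N * p) (baseRing A K₀))}
    (hn : HonestNode (Lvl K₀) (Lvl K) N p (baseRing A K₀) (baseRing A K) (lvlIncl hKL)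
      (lvlIncl_mem A hKL) S₂ 𝔫 u₀ v₀ G₀)
    (ht₁ : Through (gaussVS (Lvl K) (N * p) (baseRing A K)) 𝔫) (ht₂ : Through S₂.V 𝔫) :
    ∃ εα εβ : FF (Lvl K₀) N,
      IsUnitAt ((𝔫.comap (finIncl A (N * p) hKL)).comap
        (LevelIntegrality.alphaR (Lvl K₀) N p (baseRing A K₀)).toRingHom) εα ∧
      IsUnitAt ((𝔫.comap (finIncl A (N * p) hKL)).comap
        (LevelIntegrality.betaR (Lvl K₀) N p (baseRing A K₀)).toRingHom) εβ ∧
      (gaussVS (Lvl K₀) N (baseRing A K₀)).valuation εα = 1 ∧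
      (gaussVS (Lvl K₀) N (baseRing A K₀)).valuation εβ = 1 ∧
      normAlphaK K₀ N p (u₀ : FF (Lvl K₀) (N * p)) = εα * ((p : ℕ) : FF (Lvl K₀) N) ^ p ∧
      normBetaK K₀ N p (u₀ : FF (Lvl K₀) (N * p)) = εβ * ((p : ℕ) : FF (Lvl K₀) N) ∧
      IsUnitAt (𝔫.comap (LevelIntegrality.alphaR (Lvl K) N p (baseRing A K)).toRingHom)
        (ffMap (lvlIncl hKL) N εα) ∧
      IsUnitAt (𝔫.comap (LevelIntegrality.betaR (Lvl K) N p (baseRing A K)).toRingHom)
        (ffMap (lvlIncl hKL) N εβ) ∧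
      normAlphaK K N p ((finIncl A (N * p) hKL u₀ : ↥(Rfin (Lvl K) (N * p) (baseRing A K))) :
          FF (Lvl K) (N * p)) =
        ffMap (lvlIncl hKL) N εα * ((p : ℕ) : FF (Lvl K) N) ^ p ∧
      normBetaK K N p ((finIncl A (N * p) hKL u₀ : ↥(Rfin (Lvl K) (N * p) (baseRing A K))) :
          FF (Lvl K) (N * p)) =
        ffMap (lvlIncl hKL) N εβ * ((p : ℕ) : FF (Lvl K) N) := by
  have hp : p.Prime := Fact.out
  obtain ⟨hN₀, hprime₀, hsm₀, -, -, -, -⟩ := levelFacts_unram N p hpN A hA K₀ hK₀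
  obtain ⟨T₂⟩ := Fermat.Agent.P3G.FibreTwo.nonempty_secondVal (Lvl K₀) N p (baseRing A K₀)
    (Fermat.Agent.P3G.GammaV2.lvlToComplex K₀) hpN hprime₀ hA2₀
  have hb := base_levels N p hpN A hA hKL hK₀ hK hA2₀ hA2 T₂ S₂ hn ht₁ ht₂
  obtain ⟨⟨εα, hα1, hα2, hα3⟩, ⟨εβ, hβ1, hβ2, hβ3⟩, -, -⟩ :=
    normAlong_of_baseNode (Lvl K₀) N p (baseRing A K₀) hN₀
      (Fermat.Agent.P3G.GammaV2.lvlToComplex K₀) hpN hprime₀ hsm₀ hA2₀ T₂ hK₀.irred hb
  refine ⟨εα, εβ, hα1, hβ1, hα2, hβ2, hα3, hβ3, isUnitAt_ffMap_alpha hKL A hα1,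
    isUnitAt_ffMap_beta hKL A hβ1, ?_, ?_⟩
  · have h1 := normAlphaK_ffMap hKL hp hpN (u₀ : FF (Lvl K₀) (N * p))
    have h2 : normAlphaK K₀ N p (u₀ : FF (Lvl K₀) (N * p)) =
        εα * ((p : ℕ) : FF (Lvl K₀) N) ^ p := hα3
    rw [h2, map_mul, map_pow, map_natCast] at h1
    exact h1
  · have h1 := normBetaK_ffMap hKL hp hpN (u₀ : FF (Lvl K₀) (N * p))
    have h2 : normBetaK K₀ N p (u₀ : FF (Lvl K₀) (N * p)) =
        εβ * ((p : ℕ) : FF (Lvl K₀) N) := hβ3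
    rw [h2, map_mul, map_natCast] at h1
    exact h1

set_option maxHeartbeats 1600000 in
set_option synthInstance.maxHeartbeats 400000 in
include hpN hA hK₀ hK hA2₀ hA2 in
/-- **(R4a) at levels, the coordinate `v`** (mirror of `norm_u_levels`): `N_α v₀ = εα p`,
`N_β v₀ = εβ p^p`. -/
theorem norm_v_levels
    {𝔫 : Ideal ↥(Rfin (Lvl K) (N * p) (baseRing A K))} [h𝔫 : 𝔫.IsMaximal]
    {u₀ v₀ G₀ : ↥(Rfin (Lvl K₀) (N * p) (baseRing A K₀))}
    (hn : HonestNode (Lvl K₀) (Lvl K) N p (baseRing A K₀) (baseRing A K) (lvlIncl hKL)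
      (lvlIncl_mem A hKL) S₂ 𝔫 u₀ v₀ G₀)
    (ht₁ : Through (gaussVS (Lvl K) (N * p) (baseRing A K)) 𝔫) (ht₂ : Through S₂.V 𝔫) :
    ∃ εα εβ : FF (Lvl K₀) N,
      IsUnitAt ((𝔫.comap (finIncl A (N * p) hKL)).comap
        (LevelIntegrality.alphaR (Lvl K₀) N p (baseRing A K₀)).toRingHom) εα ∧
      IsUnitAt ((𝔫.comap (finIncl A (N * p) hKL)).comap
        (LevelIntegrality.betaR (Lvl K₀) N p (baseRing A K₀)).toRingHom) εβ ∧
      (gaussVS (Lvl K₀) N (baseRing A K₀)).valuation εα = 1 ∧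
      (gaussVS (Lvl K₀) N (baseRing A K₀)).valuation εβ = 1 ∧
      normAlphaK K₀ N p (v₀ : FF (Lvl K₀) (N * p)) = εα * ((p : ℕ) : FF (Lvl K₀) N) ∧
      normBetaK K₀ N p (v₀ : FF (Lvl K₀) (N * p)) = εβ * ((p : ℕ) : FF (Lvl K₀) N) ^ p ∧
      IsUnitAt (𝔫.comap (LevelIntegrality.alphaR (Lvl K) N p (baseRing A K)).toRingHom)
        (ffMap (lvlIncl hKL) N εα) ∧
      IsUnitAt (𝔫.comap (LevelIntegrality.betaR (Lvl K) N p (baseRing A K)).toRingHom)
        (ffMap (lvlIncl hKL) N εβ) ∧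
      normAlphaK K N p ((finIncl A (N * p) hKL v₀ : ↥(Rfin (Lvl K) (N * p) (baseRing A K))) :
          FF (Lvl K) (N * p)) =
        ffMap (lvlIncl hKL) N εα * ((p : ℕ) : FF (Lvl K) N) ∧
      normBetaK K N p ((finIncl A (N * p) hKL v₀ : ↥(Rfin (Lvl K) (N * p) (baseRing A K))) :
          FF (Lvl K) (N * p)) =
        ffMap (lvlIncl hKL) N εβ * ((p : ℕ) : FF (Lvl K) N) ^ p := by
  have hp : p.Prime := Fact.out
  obtain ⟨hN₀, hprime₀, hsm₀, -, -, -, -⟩ := levelFacts_unram N p hpN A hA K₀ hK₀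
  obtain ⟨T₂⟩ := Fermat.Agent.P3G.FibreTwo.nonempty_secondVal (Lvl K₀) N p (baseRing A K₀)
    (Fermat.Agent.P3G.GammaV2.lvlToComplex K₀) hpN hprime₀ hA2₀
  have hb := base_levels N p hpN A hA hKL hK₀ hK hA2₀ hA2 T₂ S₂ hn ht₁ ht₂
  obtain ⟨-, -, ⟨εα, hα1, hα2, hα3⟩, ⟨εβ, hβ1, hβ2, hβ3⟩⟩ :=
    normAlong_of_baseNode (Lvl K₀) N p (baseRing A K₀) hN₀
      (Fermat.Agent.P3G.GammaV2.lvlToComplex K₀) hpN hprime₀ hsm₀ hA2₀ T₂ hK₀.irred hb
  refine ⟨εα, εβ, hα1, hβ1, hα2, hβ2, hα3, hβ3, isUnitAt_ffMap_alpha hKL A hα1,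
    isUnitAt_ffMap_beta hKL A hβ1, ?_, ?_⟩
  · have h1 := normAlphaK_ffMap hKL hp hpN (v₀ : FF (Lvl K₀) (N * p))
    have h2 : normAlphaK K₀ N p (v₀ : FF (Lvl K₀) (N * p)) =
        εα * ((p : ℕ) : FF (Lvl K₀) N) := hα3
    rw [h2, map_mul, map_natCast] at h1
    exact h1
  · have h1 := normBetaK_ffMap hKL hp hpN (v₀ : FF (Lvl K₀) (N * p))
    have h2 : normBetaK K₀ N p (v₀ : FF (Lvl K₀) (N * p)) =
        εβ * ((p : ℕ) : FF (Lvl K₀) N) ^ p := hβ3
    rw [h2, map_mul, map_pow, map_natCast] at h1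
    exact h1

end Levels

end Fermat.Agent.S40.M1.NormUBase
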