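/-
S40 / S44 (row 38), T6′ static route, (R4) final step, leaf (EPS) (dispatch helper8 #3193 (b)):
**how the units `ε_α(Q̃)`, `ε_β(Q̃′)` disappear.**

`R` a local ring whose residue field is perfect of characteristic `p` (in the form: every element
of `R` is a `p`-th power modulo `𝔪_R`), `𝔪_R = (t, p)`, `ev : R →+* O′` a ring homomorphism with
`ev t ∈ (p)` (evaluation at a test point `Q̃` with `t(Q̃) ∈ p O₀`).  Then for every unit `ε` of `R`
there are a unit `r` of `R` and `d : O′` with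

  `ev ε = ev r ^ p * (1 + p * d)`.

Mathlib only.
-/
import Mathlib

set_option autoImplicit false
set_option linter.style.haveILetI false

namespace Fermat.Agent.S40.M1.UnitPow

open IsLocalRing

variable {R O' : Type*} [CommRing R] [IsLocalRing R] [CommRing O']

/-- **(EPS), core form.** -/
theorem exists_pow_mul_of_frob {p : ℕ} {t : R}
    (hm : maximalIdeal R = Ideal.span {t, (p : R)})
    (hfrob : ∀ x : R, ∃ y : R, x - y ^ p ∈ maximalIdeal R)
    (ev : R →+* O') (hev : ev t ∈ Ideal.span {(p : O')}) {ε : R} (hε : IsUnit ε) :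
    ∃ r : R, IsUnit r ∧ ∃ d : O', ev ε = ev r ^ p * (1 + (p : O') * d) := by
  -- `p ≠ 0`
  have hp0 : p ≠ 0 := by
    rintro rfl
    obtain ⟨y, hy⟩ := hfrob (0 : R)
    rw [pow_zero, zero_sub] at hy
    have h1 : (1 : R) ∈ maximalIdeal R := by
      have := (maximalIdeal R).neg_mem hy
      rwa [neg_neg] at this
    exact ((mem_maximalIdeal (1 : R)).1 h1) isUnit_one
  obtain ⟨r, hr⟩ := hfrob ε
  -- `r` is a unit
  have hru : IsUnit r := by
    by_contra hnu
    have hrm : r ∈ maximalIdeal R := (mem_maximalIdeal r).2 hnu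
    have hrp : r ^ p ∈ maximalIdeal R := Ideal.pow_mem_of_mem _ hrm p (Nat.pos_of_ne_zero hp0)
    have hεm : ε ∈ maximalIdeal R := by
      have := (maximalIdeal R).add_mem hr hrp
      rwa [sub_add_cancel] at this
    exact ((mem_maximalIdeal ε).1 hεm) hε
  refine ⟨r, hru, ?_⟩
  rw [hm, Ideal.mem_span_pair] at hr
  obtain ⟨a, b, hab⟩ := hr
  obtain ⟨t', ht'⟩ := Ideal.mem_span_singleton'.1 hev
  obtain ⟨s, hs⟩ := hru.exists_right_inv
  have hevs : ev r * ev s = 1 := by rw [← map_mul, hs, map_one]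
  refine ⟨(ev a * t' + ev b) * ev s ^ p, ?_⟩
  have h1 : ev ε = ev r ^ p + (p : O') * (ev a * t' + ev b) := by
    have h2 : ε = r ^ p + (a * t + b * (p : R)) := by rw [hab]; ring
    rw [h2, map_add, map_pow, map_add, map_mul, map_mul, map_natCast, ← ht']
    ring
  have h3 : ev r ^ p * ev s ^ p = 1 := by rw [← mul_pow, hevs, one_pow]
  rw [h1]
  calc ev r ^ p + (p : O') * (ev a * t' + ev b)
      = ev r ^ p + (ev r ^ p * ev s ^ p) * ((p : O') * (ev a * t' + ev b)) := by
        rw [h3, one_mul]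
    _ = ev r ^ p * (1 + (p : O') * ((ev a * t' + ev b) * ev s ^ p)) := by ring

/-- Every element of a local ring with perfect residue field of characteristic `p` is a `p`-th
power modulo the maximal ideal. -/
theorem exists_sub_pow_mem (p : ℕ) [Fact p.Prime] [CharP (ResidueField R) p]
    [PerfectRing (ResidueField R) p] (x : R) : ∃ y : R, x - y ^ p ∈ maximalIdeal R := by
  obtain ⟨c, hc⟩ := surjective_frobenius (ResidueField R) p (residue R x)
  obtain ⟨y, rfl⟩ := residue_surjective c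
  refine ⟨y, ?_⟩
  rw [← residue_eq_zero_iff, map_sub, map_pow, ← hc, frobenius_def, sub_self]

/-- **(EPS)** for a perfect residue field of characteristic `p`. -/
theorem exists_pow_mul (p : ℕ) [Fact p.Prime] [CharP (ResidueField R) p]
    [PerfectRing (ResidueField R) p] {t : R}
    (hm : maximalIdeal R = Ideal.span {t, (p : R)})
    (ev : R →+* O') (hev : ev t ∈ Ideal.span {(p : O')}) {ε : R} (hε : IsUnit ε) :
    ∃ r : R, IsUnit r ∧ ∃ d : O', ev ε = ev r ^ p * (1 + (p : O') * d) :=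
  exists_pow_mul_of_frob hm (exists_sub_pow_mem p) ev hev hε

/-! ### The group `1 + p O′` (bookkeeping for the consumer) -/

/-- `x ∈ 1 + p O′`. -/
def IsOneAddP (p : ℕ) (x : O') : Prop := ∃ d : O', x = 1 + (p : O') * d

theorem IsOneAddP.one (p : ℕ) : IsOneAddP p (1 : O') := ⟨0, by rw [mul_zero, add_zero]⟩

theorem IsOneAddP.mul {p : ℕ} {x y : O'} (hx : IsOneAddP p x) (hy : IsOneAddP p y) :
    IsOneAddP p (x * y) := by
  obtain ⟨d, rfl⟩ := hx
  obtain ⟨d', rfl⟩ := hy
  exact ⟨d + d' + (p : O') * d * d', by ring⟩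

theorem IsOneAddP.pow {p : ℕ} {x : O'} (hx : IsOneAddP p x) (n : ℕ) : IsOneAddP p (x ^ n) := by
  induction n with
  | zero => rw [pow_zero]; exact IsOneAddP.one p
  | succ n ih => rw [pow_succ]; exact ih.mul hx

/-- An inverse of an element of `1 + p O′` lies in `1 + p O′`. -/
theorem IsOneAddP.of_mul_eq_one {p : ℕ} {x y : O'} (hx : IsOneAddP p x) (hxy : x * y = 1) :
    IsOneAddP p y := by
  obtain ⟨d, rfl⟩ := hx
  refine ⟨-(d * y), ?_⟩
  have : y = 1 - (p : O') * d * y := by
    have h := hxy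
    rw [add_mul, one_mul] at h
    rw [← h]; ring
  calc y = 1 - (p : O') * d * y := this
    _ = 1 + (p : O') * -(d * y) := by ring

/-- **(EPS) for a quotient of two evaluated units**, in `IsOneAddP` form: if `x = a ^ p * x₁`,
`y = b ^ p * y₁` with `x₁, y₁ ∈ 1 + p O′` and `y * y' = 1`, `b * b' = 1`, then
`x * y' = (a * b') ^ p * z` with `z ∈ 1 + p O′`. -/
theorem exists_ratio {p : ℕ} {x y y' a b b' x₁ y₁ : O'} (hx : x = a ^ p * x₁)
    (hy : y = b ^ p * y₁) (hx₁ : IsOneAddP p x₁) (hy₁ : IsOneAddP p y₁) (hyy' : y * y' = 1)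
    (hbb' : b * b' = 1) : ∃ z : O', IsOneAddP p z ∧ x * y' = (a * b') ^ p * z := by
  -- `y₁` is invertible with inverse `b ^ p * y'`
  have h1 : y₁ * (b ^ p * y') = 1 := by
    rw [← hyy', hy]; ring
  have hinv : IsOneAddP p (b ^ p * y') := hy₁.of_mul_eq_one h1
  refine ⟨x₁ * (b ^ p * y'), hx₁.mul hinv, ?_⟩
  have h2 : b ^ p * b' ^ p = 1 := by rw [← mul_pow, hbb', one_pow]
  rw [hx, mul_pow]
  calc a ^ p * x₁ * y' = a ^ p * (b ^ p * b' ^ p) * x₁ * y' := by rw [h2, mul_one]
    _ = a ^ p * b' ^ p * (x₁ * (b ^ p * y')) := by ring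

end Fermat.Agent.S40.M1.UnitPow
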