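/-
S40 / S44 (row 38), T6′ static route (`moonshots` row 67), block (R4), leaf (E) = (R4a)-VALUES
(helper2; statement list helper5 #3224 (E), dispatch helper8 #3226):
**the values of the norms of the node coordinate at the test points.**

Seam between (F3) [`N_α u = ε_α · p ^ p`, `N_β u = ε_β · p`, `ε_α, ε_β` units of the local ring of the
smooth level-`N` chart over the UNRAMIFIED level `K₀` at `s̃₀`, `s̃₀′`] and the named hypotheses
`hUα hUβ hUαv heA hUβv heB htA htB` of `R4Node.r4_node_abs` / `NodeInv.yNode_spec`, and the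
hypotheses `baseAut σ' tA = tA`, `baseAut σ' tB = tB` of the invariance clause.

ABSTRACT CORE.  `K` a field, `F' / K` a function field, `Q` a RATIONAL place of `F' / K` (the test
point), `𝒜` a valuation ring of `K`, `p` a natural number.

* §1 `valT` bookkeeping: `valT_add'`, `valT_zero'`, `valT_natCast'`, `valuation_algebraMap_eq_one`,
  `evHom` (the evaluation `R₀ →+* 𝒜` of a ring `R₀ →+* F'` landing in `O_Q` with values in `𝒜`).
* §2 LOCAL RING FORM.  `R₀` local, `𝔪 = (t, p)`, every element a `p`-th power modulo `𝔪`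
  (`frob_of_res`: from "residue field = the perfect residue field of the base"), `φ : R₀ →+* F'`
  landing in `O_Q`, values in `𝒜`, `t(Q) ∈ p 𝒜`.  For every unit `ε` of `R₀`:
  `exists_unit_pow_mul_isPU : ∃ r unit, ∃ e ∈ 1 + p 𝒜, (φ ε)(Q) = (φ r)(Q) ^ p · e`;
  ★ `exists_value_mul_const` : for `Nu = φ ε · c`, `c ∈ K^×`: `Nu` is a unit at `Q` and
  `Nu(Q) = c · t ^ p · e`, `t = (φ r)(Q) ≠ 0`, `e ∈ 1 + p 𝒜`, and `t` is fixed by every semilinear
  automorphism `σ'` of `F'` fixing `Q` and the image of `φ`.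
* §3 LOCALISATION FORM.  `T₀` a ring, `𝔰` a prime, `S = (T₀)_𝔰`, `ψ : T₀ →+* F'` landing in `O_Q`
  with values in `𝒜`, values of elements outside `𝔰` units of `𝒜` (`Q` is a section through a point
  over `𝔰`): `liftAt`, `liftAt_mem`, `valT_liftAt_mem`, and
  ★ `exists_value_of_isUnitAt` : the same conclusion for `Nu = E · c`, `E · ψ a = ψ r`, `a, r ∉ 𝔰`
  (`TwistRoots.IsUnitAt` shape), ★ `r4a_alpha`, `r4a_beta` : `c = p ^ p`, `c = p` in the shape of
  `yNode_spec` VERBATIM.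
Mathlib + `S40/M1/NodeInv` + `S40/M1/UnitPow`.
-/
import Mathlib
import Fermat.Agent.S40.M1.NodeInv
import Fermat.Agent.S40.M1.UnitPow

set_option autoImplicit false
set_option linter.unusedSectionVars false
set_option linter.unusedVariables false
set_option linter.style.longLine false
set_option linter.style.haveILetI false

open AlgebraicCurve IsLocalRing

noncomputable section

namespace Fermat.Agent.S40.M1.NormUVal

open Fermat.Agent.N4F.E.PlaceValue Fermat.Agent.N4F.C.CoeffAut Fermat.Agent.S40.M1.NodeCore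
  Fermat.Agent.S40.M1.NodeInv Fermat.Agent.S40.M1.UnitPow

/-! ### §1 Bookkeeping for `valT` -/

section ValT

variable {K F' : Type*} [Field K] [Field F'] [Algebra K F']
  (Q : Place K F') (hQ : Function.Bijective (algebraMap K Q.ResidueField))

theorem valT_add' {g h : F'} (hg : g ∈ Q.toValuationSubring) (hh : h ∈ Q.toValuationSubring) :
    valT Q hQ (g + h) = valT Q hQ g + valT Q hQ h := by
  rw [valT_of_mem Q hQ (add_mem hg hh), valT_of_mem Q hQ hg, valT_of_mem Q hQ hh, valueAt_add]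

theorem valT_zero' : valT Q hQ (0 : F') = 0 := by
  have := valT_algebraMap Q hQ (0 : K)
  rwa [map_zero] at this

theorem valT_natCast' (n : ℕ) : valT Q hQ (n : F') = (n : K) := by
  have := valT_algebraMap Q hQ (n : K)
  rwa [map_natCast] at this

/-- Nonzero constants are units at every place. -/
theorem valuation_algebraMap_eq_one {c : K} (hc : c ≠ 0) :
    Q.toValuationSubring.valuation (algebraMap K F' c) = 1 := by
  have h1 : Q.toValuationSubring.valuation (algebraMap K F' c) ≤ 1 :=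
    (Q.toValuationSubring.valuation_le_one_iff _).2 (Q.algebraMap_mem' c)
  have h2 : Q.toValuationSubring.valuation (algebraMap K F' c⁻¹) ≤ 1 :=
    (Q.toValuationSubring.valuation_le_one_iff _).2 (Q.algebraMap_mem' c⁻¹)
  have h3 : Q.toValuationSubring.valuation (algebraMap K F' c) *
      Q.toValuationSubring.valuation (algebraMap K F' c⁻¹) = 1 := by
    rw [← map_mul, ← map_mul, mul_inv_cancel₀ hc, map_one, map_one]
  refine le_antisymm h1 ?_
  by_contra h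
  rw [not_le] at h
  have h4 : Q.toValuationSubring.valuation (algebraMap K F' c) *
      Q.toValuationSubring.valuation (algebraMap K F' c⁻¹) < 1 :=
    mul_lt_one_of_nonneg_of_lt_one_left zero_le h h2
  exact h4.ne h3

/-- A ring homomorphism landing in `O_Q` sends units to units of `O_Q`. -/
theorem valuation_map_eq_one {R₀ : Type*} [CommRing R₀] (φ : R₀ →+* F')
    (hmem : ∀ r, φ r ∈ Q.toValuationSubring) {ε : R₀} (hε : IsUnit ε) :
    Q.toValuationSubring.valuation (φ ε) = 1 := by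
  obtain ⟨ε', hε'⟩ := hε.exists_right_inv
  have h1 : Q.toValuationSubring.valuation (φ ε) ≤ 1 :=
    (Q.toValuationSubring.valuation_le_one_iff _).2 (hmem ε)
  have h2 : Q.toValuationSubring.valuation (φ ε') ≤ 1 :=
    (Q.toValuationSubring.valuation_le_one_iff _).2 (hmem ε')
  have h3 : Q.toValuationSubring.valuation (φ ε) * Q.toValuationSubring.valuation (φ ε') = 1 := by
    rw [← map_mul, ← map_mul, hε', map_one, map_one]
  refine le_antisymm h1 ?_
  by_contra h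
  rw [not_le] at h
  have h4 : Q.toValuationSubring.valuation (φ ε) * Q.toValuationSubring.valuation (φ ε') < 1 :=
    mul_lt_one_of_nonneg_of_lt_one_left zero_le h h2
  exact h4.ne h3

/-- The evaluation `R₀ →+* 𝒜` at a rational place `Q`, for `φ : R₀ →+* F'` landing in `O_Q` with
values in `𝒜`. -/
def evHom (𝒜 : ValuationSubring K) {R₀ : Type*} [CommRing R₀] (φ : R₀ →+* F')
    (hmem : ∀ r, φ r ∈ Q.toValuationSubring) (hval : ∀ r, valT Q hQ (φ r) ∈ 𝒜) : R₀ →+* 𝒜 where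
  toFun r := ⟨valT Q hQ (φ r), hval r⟩
  map_one' := Subtype.ext (by
    show valT Q hQ (φ 1) = 1
    rw [map_one, valT_one])
  map_mul' a b := Subtype.ext (by
    show valT Q hQ (φ (a * b)) = valT Q hQ (φ a) * valT Q hQ (φ b)
    rw [map_mul, valT_mul Q hQ (hmem a) (hmem b)])
  map_zero' := Subtype.ext (by
    show valT Q hQ (φ 0) = 0
    rw [map_zero, valT_zero'])
  map_add' a b := Subtype.ext (by
    show valT Q hQ (φ (a + b)) = valT Q hQ (φ a) + valT Q hQ (φ b)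
    rw [map_add, valT_add' Q hQ (hmem a) (hmem b)])

theorem coe_evHom (𝒜 : ValuationSubring K) {R₀ : Type*} [CommRing R₀] (φ : R₀ →+* F')
    (hmem : ∀ r, φ r ∈ Q.toValuationSubring) (hval : ∀ r, valT Q hQ (φ r) ∈ 𝒜) (r : R₀) :
    ((evHom Q hQ 𝒜 φ hmem hval r : 𝒜) : K) = valT Q hQ (φ r) := rfl

/-- Values at a fixed place of fixed functions are fixed. -/
theorem baseAut_valT_of_fixed (σ' : SemilinearAut K F') (hσQ : σ' • Q = Q) {g : F'}
    (hg : σ' • g = g) : SemilinearAut.baseAut σ' (valT Q hQ g) = valT Q hQ g := by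
  rw [← valT_smul_of_fixed Q hQ σ' hσQ, hg]

end ValT

/-! ### §2 The local ring form -/

section LocalRing

variable {K F' : Type*} [Field K] [Field F'] [Algebra K F']
  (Q : Place K F') (hQ : Function.Bijective (algebraMap K Q.ResidueField))
  (𝒜 : ValuationSubring K) {p : ℕ}
  {R₀ : Type*} [CommRing R₀] [IsLocalRing R₀]

/-- "Every element is a `p`-th power modulo `𝔪`" from "the residue field is that of a base ring
with perfect residue field of characteristic `p`". -/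
theorem frob_of_res {O₀ : Type*} [CommRing O₀] [IsLocalRing O₀] (p : ℕ) [Fact p.Prime]
    [CharP (ResidueField O₀) p] [PerfectRing (ResidueField O₀) p] (g : O₀ →+* R₀)
    (hg : ∀ c ∈ maximalIdeal O₀, g c ∈ maximalIdeal R₀)
    (hres : ∀ x : R₀, ∃ c : O₀, x - g c ∈ maximalIdeal R₀) (x : R₀) :
    ∃ y : R₀, x - y ^ p ∈ maximalIdeal R₀ := by
  obtain ⟨c, hc⟩ := hres x
  obtain ⟨c', hc'⟩ := exists_sub_pow_mem p c
  refine ⟨g c', ?_⟩
  have h : x - g c' ^ p = (x - g c) + g (c - c' ^ p) := by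
    rw [map_sub, map_pow]; ring
  rw [h]
  exact (maximalIdeal R₀).add_mem hc (hg _ hc')

variable {Q hQ 𝒜}

/-- **(EPS) at a rational place.** -/
theorem exists_unit_pow_mul_isPU {t : R₀}
    (hm : maximalIdeal R₀ = Ideal.span {t, (p : R₀)})
    (hfrob : ∀ x : R₀, ∃ y : R₀, x - y ^ p ∈ maximalIdeal R₀)
    (φ : R₀ →+* F') (hmem : ∀ r, φ r ∈ Q.toValuationSubring)
    (hval : ∀ r, valT Q hQ (φ r) ∈ 𝒜)
    (ht : ∃ a ∈ 𝒜, valT Q hQ (φ t) = (p : K) * a) {ε : R₀} (hε : IsUnit ε) :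
    ∃ r : R₀, IsUnit r ∧ ∃ e : K, IsPU 𝒜 (p : K) e ∧
      valT Q hQ (φ ε) = valT Q hQ (φ r) ^ p * e := by
  obtain ⟨a, ha, hta⟩ := ht
  have hev : evHom Q hQ 𝒜 φ hmem hval t ∈ Ideal.span {((p : ℕ) : 𝒜)} := by
    refine Ideal.mem_span_singleton'.2 ⟨⟨a, ha⟩, Subtype.ext ?_⟩
    show a * (((p : ℕ) : 𝒜) : K) = valT Q hQ (φ t)
    rw [hta, mul_comm]
    congr 1
  obtain ⟨r, hr, d, hd⟩ := exists_pow_mul_of_frob hm hfrob (evHom Q hQ 𝒜 φ hmem hval) hev hε
  refine ⟨r, hr, 1 + (p : K) * (d : K), ⟨(d : K), d.2, rfl⟩, ?_⟩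
  have h := congrArg 𝒜.subtype hd
  simp only [map_mul, map_pow, map_add, map_one, map_natCast] at h
  exact h

/-- ★ **(R4a)-VALUES, local ring form.**  For `Nu = φ ε · c` with `ε` a unit of `R₀` and `c` a
nonzero constant: `Nu` is a unit at `Q`, `Nu(Q) = c · t ^ p · e` with `t ≠ 0`, `e ∈ 1 + p 𝒜`, and
`t` is fixed by every `σ'` fixing `Q` and the image of `φ`. -/
theorem exists_value_mul_const {t : R₀}
    (hm : maximalIdeal R₀ = Ideal.span {t, (p : R₀)})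
    (hfrob : ∀ x : R₀, ∃ y : R₀, x - y ^ p ∈ maximalIdeal R₀)
    (φ : R₀ →+* F') (hmem : ∀ r, φ r ∈ Q.toValuationSubring)
    (hval : ∀ r, valT Q hQ (φ r) ∈ 𝒜)
    (ht : ∃ a ∈ 𝒜, valT Q hQ (φ t) = (p : K) * a) {ε : R₀} (hε : IsUnit ε)
    {c : K} (hc : c ≠ 0) {Nu : F'} (hNu : Nu = φ ε * algebraMap K F' c) :
    Q.toValuationSubring.valuation Nu = 1 ∧
      ∃ tA eA : K, tA ≠ 0 ∧ IsPU 𝒜 (p : K) eA ∧ valT Q hQ Nu = c * tA ^ p * eA ∧
        ∀ σ' : SemilinearAut K F', σ' • Q = Q → (∀ x : R₀, σ' • φ x = φ x) →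
          SemilinearAut.baseAut σ' tA = tA := by
  have hεv : Q.toValuationSubring.valuation (φ ε) = 1 := valuation_map_eq_one Q φ hmem hε
  have hcv : Q.toValuationSubring.valuation (algebraMap K F' c) = 1 :=
    valuation_algebraMap_eq_one Q hc
  refine ⟨by rw [hNu]; exact valuation_mul_eq_one hεv hcv, ?_⟩
  obtain ⟨r, hr, e, he, hre⟩ := exists_unit_pow_mul_isPU (Q := Q) (hQ := hQ) (𝒜 := 𝒜) hm hfrob φ
    hmem hval ht hε
  refine ⟨valT Q hQ (φ r), e, valT_ne_zero Q hQ (valuation_map_eq_one Q φ hmem hr), he, ?_, ?_⟩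
  · rw [hNu, valT_mul Q hQ (hmem ε) (Q.algebraMap_mem' c), valT_algebraMap, hre]
    ring
  · intro σ' hσQ hσφ
    exact baseAut_valT_of_fixed Q hQ σ' hσQ (hσφ r)

end LocalRing

/-! ### §3 The localisation form -/

section Localisation

variable {K F' : Type*} [Field K] [Field F'] [Algebra K F']
  (Q : Place K F') (hQ : Function.Bijective (algebraMap K Q.ResidueField))
  (𝒜 : ValuationSubring K) {p : ℕ}
  {T₀ : Type*} [CommRing T₀] (𝔰 : Ideal T₀) [h𝔰 : 𝔰.IsPrime]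
  (S : Type*) [CommRing S] [Algebra T₀ S] [IsLocalization.AtPrime S 𝔰]
  (ψ : T₀ →+* F')

/-- Hypothesis: "`Q` is an `𝒜`-section through a point over `𝔰`": `ψ` lands in `O_Q`, the values
lie in `𝒜`, and the values of the elements outside `𝔰` are units of `𝒜`. -/
structure IsSectionThrough : Prop where
  mem : ∀ x : T₀, ψ x ∈ Q.toValuationSubring
  val : ∀ x : T₀, valT Q hQ (ψ x) ∈ 𝒜
  ne_zero : ∀ x : T₀, x ∉ 𝔰 → valT Q hQ (ψ x) ≠ 0
  inv : ∀ x : T₀, x ∉ 𝔰 → (valT Q hQ (ψ x))⁻¹ ∈ 𝒜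

variable {Q hQ 𝒜 𝔰 ψ}

omit h𝔰 in
theorem IsSectionThrough.valuation_eq_one (h : IsSectionThrough Q hQ 𝒜 𝔰 ψ) {x : T₀}
    (hx : x ∉ 𝔰) : Q.toValuationSubring.valuation (ψ x) = 1 := by
  have h0 := h.ne_zero x hx
  rw [valT_of_mem Q hQ (h.mem x), Ne, valueAt_eq_zero_iff] at h0
  have h1 : Q.toValuationSubring.valuation (ψ x) ≤ 1 :=
    (Q.toValuationSubring.valuation_le_one_iff _).2 (h.mem x)
  rcases h1.lt_or_eq with h2 | h2
  · exact absurd ((ValuationSubring.mem_nonunits_iff (A := Q.toValuationSubring)).2 h2) h0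
  · exact h2

theorem IsSectionThrough.isUnit (h : IsSectionThrough Q hQ 𝒜 𝔰 ψ) (y : 𝔰.primeCompl) :
    IsUnit (ψ y) := by
  refine IsUnit.mk0 _ ?_
  exact ne_zero_of_valuation_eq_one (h.valuation_eq_one y.2)

/-- The extension of `ψ` to the local ring `S = (T₀)_𝔰`. -/
def liftAt (h : IsSectionThrough Q hQ 𝒜 𝔰 ψ) : S →+* F' :=
  IsLocalization.lift (M := 𝔰.primeCompl) (g := ψ) h.isUnit

theorem liftAt_algebraMap (h : IsSectionThrough Q hQ 𝒜 𝔰 ψ) (x : T₀) :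
    liftAt S h (algebraMap T₀ S x) = ψ x :=
  IsLocalization.lift_eq _ x

theorem liftAt_mul_eq (h : IsSectionThrough Q hQ 𝒜 𝔰 ψ) (x : T₀) (y : 𝔰.primeCompl) :
    liftAt S h (IsLocalization.mk' S x y) * ψ y = ψ x := by
  rw [← liftAt_algebraMap S h (y : T₀), ← map_mul, IsLocalization.mk'_spec, liftAt_algebraMap]

theorem liftAt_mk' (h : IsSectionThrough Q hQ 𝒜 𝔰 ψ) (x : T₀) (y : 𝔰.primeCompl) :
    liftAt S h (IsLocalization.mk' S x y) = ψ x * (ψ y)⁻¹ := by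
  have h0 : ψ y ≠ 0 := ne_zero_of_valuation_eq_one (h.valuation_eq_one y.2)
  rw [← liftAt_mul_eq S h x y, mul_assoc, mul_inv_cancel₀ h0, mul_one]

theorem liftAt_mem (h : IsSectionThrough Q hQ 𝒜 𝔰 ψ) (r : S) :
    liftAt S h r ∈ Q.toValuationSubring := by
  obtain ⟨x, y, rfl⟩ := IsLocalization.exists_mk'_eq 𝔰.primeCompl r
  rw [liftAt_mk']
  exact mul_mem (h.mem x)
    (mem_of_valuation_eq_one (valuation_inv_eq_one (h.valuation_eq_one y.2)))

theorem valT_liftAt_mk' (h : IsSectionThrough Q hQ 𝒜 𝔰 ψ) (x : T₀) (y : 𝔰.primeCompl) :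
    valT Q hQ (liftAt S h (IsLocalization.mk' S x y)) =
      valT Q hQ (ψ x) * (valT Q hQ (ψ y))⁻¹ := by
  have hy := h.valuation_eq_one y.2
  rw [liftAt_mk', valT_mul Q hQ (h.mem x) (mem_of_valuation_eq_one (valuation_inv_eq_one hy)),
    valT_inv Q hQ hy]

theorem valT_liftAt_mem (h : IsSectionThrough Q hQ 𝒜 𝔰 ψ) (r : S) :
    valT Q hQ (liftAt S h r) ∈ 𝒜 := by
  obtain ⟨x, y, rfl⟩ := IsLocalization.exists_mk'_eq 𝔰.primeCompl r
  rw [valT_liftAt_mk']
  exact mul_mem (h.val x) (h.inv y y.2)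

/-- Functions fixed on `T₀` are fixed on `S`. -/
theorem smul_liftAt (h : IsSectionThrough Q hQ 𝒜 𝔰 ψ) (σ' : SemilinearAut K F')
    (hσ : ∀ x : T₀, σ' • ψ x = ψ x) (r : S) : σ' • liftAt S h r = liftAt S h r := by
  obtain ⟨x, y, rfl⟩ := IsLocalization.exists_mk'_eq 𝔰.primeCompl r
  rw [liftAt_mk', SemilinearAut.smul_def, map_mul, map_inv₀, ← SemilinearAut.smul_def,
    ← SemilinearAut.smul_def, hσ x, hσ y]

/-- An element `E` of `F'` of the shape `TwistRoots.IsUnitAt` (`E · ψ a = ψ r`, `a, r ∉ 𝔰`) is the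
image of a unit of `S`. -/
theorem exists_isUnit_liftAt_eq (h : IsSectionThrough Q hQ 𝒜 𝔰 ψ) {E : F'} {a r : T₀}
    (ha : a ∉ 𝔰) (hr : r ∉ 𝔰) (hE : E * ψ a = ψ r) :
    ∃ ε : S, IsUnit ε ∧ liftAt S h ε = E := by
  refine ⟨IsLocalization.mk' S r (⟨a, ha⟩ : 𝔰.primeCompl), ?_, ?_⟩
  · exact IsUnit.of_mul_eq_one (IsLocalization.mk' S a (⟨r, hr⟩ : 𝔰.primeCompl))
      (IsLocalization.mk'_mul_mk'_eq_one (S := S) (⟨r, hr⟩ : 𝔰.primeCompl)
        (⟨a, ha⟩ : 𝔰.primeCompl))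
  · have h0 : ψ a ≠ 0 := ne_zero_of_valuation_eq_one (h.valuation_eq_one ha)
    rw [liftAt_mk', ← hE, mul_assoc, mul_inv_cancel₀ h0, mul_one]

variable [IsLocalRing S]

/-- ★ **(R4a)-VALUES, localisation form.**  `S = (T₀)_𝔰` with `𝔪_S = (z, p)`, every element of `S` a
`p`-th power modulo `𝔪_S`, `Q` an `𝒜`-section through a point over `𝔰` with `z(Q) ∈ p 𝒜`.  For
`Nu = E · c`, `E` a unit at `𝔰` (`TwistRoots.IsUnitAt` shape along `ψ`), `c ∈ K^×`:
`Nu` is a unit at `Q` and `Nu(Q) = c · tA ^ p · eA` with `tA ≠ 0`, `eA ∈ 1 + p 𝒜`, `tA` fixed by every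
`σ'` fixing `Q` and `ψ T₀`. -/
theorem exists_value_of_isUnitAt (h : IsSectionThrough Q hQ 𝒜 𝔰 ψ) {z : T₀}
    (hm : maximalIdeal S = Ideal.span {algebraMap T₀ S z, (p : S)})
    (hfrob : ∀ x : S, ∃ y : S, x - y ^ p ∈ maximalIdeal S)
    (hz : ∃ a ∈ 𝒜, valT Q hQ (ψ z) = (p : K) * a)
    {E : F'} (hE : ∃ a r : T₀, a ∉ 𝔰 ∧ r ∉ 𝔰 ∧ E * ψ a = ψ r)
    {c : K} (hc : c ≠ 0) {Nu : F'} (hNu : Nu = E * algebraMap K F' c) :
    Q.toValuationSubring.valuation Nu = 1 ∧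
      ∃ tA eA : K, tA ≠ 0 ∧ IsPU 𝒜 (p : K) eA ∧ valT Q hQ Nu = c * tA ^ p * eA ∧
        ∀ σ' : SemilinearAut K F', σ' • Q = Q → (∀ x : T₀, σ' • ψ x = ψ x) →
          SemilinearAut.baseAut σ' tA = tA := by
  obtain ⟨a, r, ha, hr, hEar⟩ := hE
  obtain ⟨ε, hε, hεE⟩ := exists_isUnit_liftAt_eq S h ha hr hEar
  have hz' : ∃ a ∈ 𝒜, valT Q hQ (liftAt S h (algebraMap T₀ S z)) = (p : K) * a := by
    rw [liftAt_algebraMap]; exact hz
  obtain ⟨hv, tA, eA, htA, heA, hval, hfix⟩ := exists_value_mul_const (Q := Q) (hQ := hQ)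
    (𝒜 := 𝒜) hm hfrob (liftAt S h) (liftAt_mem S h) (valT_liftAt_mem S h) hz' hε hc
    (Nu := Nu) (by rw [hεE]; exact hNu)
  exact ⟨hv, tA, eA, htA, heA, hval, fun σ' hσQ hσψ => hfix σ' hσQ (smul_liftAt S h σ' hσψ)⟩

/-- ★ **(R4a) for `N_α u = ε_α · p ^ p`**, in the shape of `NodeInv.yNode_spec` / `R4Node.r4_node_abs`
(`hUα`, `htA`, `hUαv`, `heA`) plus the invariance of `tA`. -/
theorem r4a_alpha (h : IsSectionThrough Q hQ 𝒜 𝔰 ψ) {z : T₀}
    (hm : maximalIdeal S = Ideal.span {algebraMap T₀ S z, (p : S)})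
    (hfrob : ∀ x : S, ∃ y : S, x - y ^ p ∈ maximalIdeal S)
    (hz : ∃ a ∈ 𝒜, valT Q hQ (ψ z) = (p : K) * a) (hp0 : (p : K) ≠ 0)
    {E : F'} (hE : ∃ a r : T₀, a ∉ 𝔰 ∧ r ∉ 𝔰 ∧ E * ψ a = ψ r)
    {Nu : F'} (hNu : Nu = E * (p : F') ^ p) :
    Q.toValuationSubring.valuation Nu = 1 ∧
      ∃ tA eA : K, tA ≠ 0 ∧ IsPU 𝒜 (p : K) eA ∧
        valT Q hQ Nu = (p : K) ^ p * tA ^ p * eA ∧
        ∀ σ' : SemilinearAut K F', σ' • Q = Q → (∀ x : T₀, σ' • ψ x = ψ x) →
          SemilinearAut.baseAut σ' tA = tA :=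
  exists_value_of_isUnitAt S h hm hfrob hz hE (pow_ne_zero p hp0)
    (by rw [hNu, map_pow, map_natCast])

/-- ★ **(R4a) for `N_β u = ε_β · p`** (`hUβ`, `htB`, `hUβv`, `heB`) plus the invariance of `tB`. -/
theorem r4a_beta (h : IsSectionThrough Q hQ 𝒜 𝔰 ψ) {z : T₀}
    (hm : maximalIdeal S = Ideal.span {algebraMap T₀ S z, (p : S)})
    (hfrob : ∀ x : S, ∃ y : S, x - y ^ p ∈ maximalIdeal S)
    (hz : ∃ a ∈ 𝒜, valT Q hQ (ψ z) = (p : K) * a) (hp0 : (p : K) ≠ 0)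
    {E : F'} (hE : ∃ a r : T₀, a ∉ 𝔰 ∧ r ∉ 𝔰 ∧ E * ψ a = ψ r)
    {Nu : F'} (hNu : Nu = E * (p : F')) :
    Q.toValuationSubring.valuation Nu = 1 ∧
      ∃ tB eB : K, tB ≠ 0 ∧ IsPU 𝒜 (p : K) eB ∧
        valT Q hQ Nu = (p : K) * tB ^ p * eB ∧
        ∀ σ' : SemilinearAut K F', σ' • Q = Q → (∀ x : T₀, σ' • ψ x = ψ x) →
          SemilinearAut.baseAut σ' tB = tB :=
  exists_value_of_isUnitAt S h hm hfrob hz hE hp0 (by rw [hNu, map_natCast])

end Localisation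

end Fermat.Agent.S40.M1.NormUVal
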