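/-
S40 / S44 (row 38), T6′ static route, block (R4), leaf (E) = (R4a)-VALUES, LEVEL INPUTS (helper2):
**the two local-ring hypotheses `hm`, `hfrob` of `NormUVal.exists_value_of_isUnitAt` at a level
`(K, O)` where `p` is a uniformiser** (an unramified level `K₀`), for ANY model `S` of the local ring
of the smooth chart `Rfin K N O` at a closed point `𝔪 ∋ p` of the special fibre:

* `algebraMap_mem_maximalIdeal_of_mem` : `𝔪_O` maps into `𝔪_S`;
* `exists_sub_algebraMap_mem_loc` : every element of `S` is congruent to a constant of `O` modulo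
  `𝔪_S` (closed points are rational: `κ` algebraically closed);
* ★ `frob_fin` : every element of `S` is a `p`-th power modulo `𝔪_S` (`hfrob`);
* ★ `maximalIdeal_eq_span_natCast` : `𝔪_S = (z, p)` for `z` reducing to a local parameter of the
  special fibre at `𝔪` (`hm`; helper27 `SmoothPoint.maximalIdeal_eq_span_fin` with `ϖ = p`).
-/
import Mathlib
import Fermat.Agent.S40.M1.NormUVal
import Fermat.Agent.S40.M1.SmoothPoint
import Fermat.Agent.P3G.CrossingLocal
import Fermat.Agent.P3G.RbarFin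

set_option autoImplicit false
set_option linter.unusedSectionVars false
set_option linter.unusedVariables false
set_option linter.style.longLine false
set_option linter.style.haveILetI false

open ModularCurve Fermat.Agent.N4.Setting Fermat.Agent.N4.FibreEmbedding
open Fermat.Agent.N4.Chart IsLocalRing Fermat.Agent.P3G.RbarFin Fermat.Agent.P3G
open Fermat.Agent.S40.M1.AlphaNodeLevel

namespace Fermat.Agent.S40.M1.NormUValFrob

variable (K : Type) [Field K] [CharZero K] (N : ℕ) [NeZero N]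
  (O : Subring K) [IsDiscreteValuationRing ↥O] [IsFractionRing ↥O K]

section Loc

variable {ϖ : ↥O} (hϖ : Irreducible ϖ) (𝔪 : Ideal ↥(Rfin K N O)) [h𝔪 : 𝔪.IsMaximal]
  (hϖ𝔪 : algebraMap ↥O ↥(Rfin K N O) ϖ ∈ 𝔪)
  (S : Type*) [CommRing S] [Algebra ↥(Rfin K N O) S] [IsLocalization.AtPrime S 𝔪] [IsLocalRing S]

include hϖ hϖ𝔪 in
/-- `𝔪_O` maps into `𝔪_S`. -/
theorem algebraMap_mem_maximalIdeal_of_mem {c : ↥O} (hc : c ∈ maximalIdeal ↥O) :
    algebraMap ↥(Rfin K N O) S (algebraMap ↥O ↥(Rfin K N O) c) ∈ maximalIdeal S := by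
  rw [hϖ.maximalIdeal_eq] at hc
  obtain ⟨d, rfl⟩ := Ideal.mem_span_singleton'.1 hc
  apply CrossingLocal.algebraMap_mem_maximalIdeal 𝔪
  rw [map_mul]
  exact 𝔪.mul_mem_left _ hϖ𝔪

include hϖ hϖ𝔪 in
/-- Closed points of the special fibre are rational: every element of the local ring is congruent
to a constant. -/
theorem exists_sub_algebraMap_mem_loc [IsAlgClosed (ResidueField ↥O)] (x : S) :
    ∃ c : ↥O, x - algebraMap ↥(Rfin K N O) S (algebraMap ↥O ↥(Rfin K N O) c) ∈ maximalIdeal S := by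
  obtain ⟨r, hr⟩ := CrossingLocal.exists_sub_algebraMap_mem 𝔪 x
  obtain ⟨c, hc⟩ := RbarFin.exists_sub_algebraMap_mem K N O hϖ 𝔪 hϖ𝔪 r
  refine ⟨c, ?_⟩
  have h : x - algebraMap ↥(Rfin K N O) S (algebraMap ↥O ↥(Rfin K N O) c) =
      (x - algebraMap ↥(Rfin K N O) S r) +
        algebraMap ↥(Rfin K N O) S (r - algebraMap ↥O ↥(Rfin K N O) c) := by
    rw [map_sub]; ring
  rw [h]
  exact (maximalIdeal S).add_mem hr (CrossingLocal.algebraMap_mem_maximalIdeal 𝔪 hc)

include hϖ hϖ𝔪 in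
/-- ★ **`hfrob`**: every element of the local ring of the smooth chart at a closed point of the
special fibre is a `p`-th power modulo the maximal ideal. -/
theorem frob_fin [IsAlgClosed (ResidueField ↥O)] (p : ℕ) [Fact p.Prime]
    [CharP (ResidueField ↥O) p] [PerfectRing (ResidueField ↥O) p] (x : S) :
    ∃ y : S, x - y ^ p ∈ maximalIdeal S :=
  NormUVal.frob_of_res p ((algebraMap ↥(Rfin K N O) S).comp (algebraMap ↥O ↥(Rfin K N O)))
    (fun c hc => algebraMap_mem_maximalIdeal_of_mem K N O hϖ 𝔪 hϖ𝔪 S hc)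
    (fun x => exists_sub_algebraMap_mem_loc K N O hϖ 𝔪 hϖ𝔪 S x) x

end Loc

/-- ★ **`hm`**: at a level where `p` is a uniformiser, `𝔪_S = (z, p)`. -/
theorem maximalIdeal_eq_span_natCast
    (hprime : (fibreIdeal K N O (Rfin K N O)).IsPrime)
    (hsmooth : IsDedekindDomain (↥(Rfin K N O) ⧸ fibreIdeal K N O (Rfin K N O)))
    {p : ℕ} (hp : Irreducible ((p : ℕ) : ↥O)) (𝔪 : Ideal ↥(Rfin K N O)) [𝔪.IsPrime]
    (hp𝔪 : ((p : ℕ) : ↥(Rfin K N O)) ∈ 𝔪)
    (S : Type*) [CommRing S] [Algebra ↥(Rfin K N O) S] [IsLocalization.AtPrime S 𝔪] [IsLocalRing S]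
    {z : ↥(Rfin K N O)} (hz : th K N O z ∈ 𝔪.map (th K N O))
    (hz2 : th K N O z ∉ (𝔪.map (th K N O)) ^ 2) :
    maximalIdeal S = Ideal.span {algebraMap ↥(Rfin K N O) S z, ((p : ℕ) : S)} := by
  have h := SmoothPoint.maximalIdeal_eq_span_fin K N O hprime hsmooth hp 𝔪
    (by rw [map_natCast]; exact hp𝔪) S hz hz2
  rw [h, map_natCast, map_natCast]

end Fermat.Agent.S40.M1.NormUValFrob
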