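/-
S40 / S44 (row 38), T6′ static route, block (R4a)-VALUES = piece (E) of helper5's list #3224,
generic core (helper9, dispatch helper8 #3281): **the value at a test place of a unit coming from the
SMALL (unramified) level is a `p`-th power times an element of `1 + p O`.**

Two levels.  Big level: `T : Subalgebra O F` a chart over the DVR `O ⊆ K`, `Q` a rational place of
`F / K` which is an `O`-point of `T` (`h : IsSection T Q hQ`), `centre h` its closed point.  Small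
level: a ring `T₀` with a ring map `φ : T₀ →+* T` (`finIncl`), a field `F₀ ⊇ T₀` with a field map
`ψ : F₀ →+* F` (`ffMap`) compatible with `φ`, `s₀ = φ⁻¹ (centre h)`, `L₀` ANY model of the local ring
`(T₀)_{s₀}` whose maximal ideal is `(z₀, π₀)` with `z₀(Q), π₀(Q) ∈ p O` (at an unramified small level
`π₀ = p` up to a unit) and in which every element is a `p`-th power modulo the maximal ideal.  Then
for every `ε₀ ∈ F₀` which is a unit at `s₀` (shape of `P4.TwistRoots.IsUnitAt s₀ ε₀`, verbatim)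
there is `ρ₀ ∈ F₀`, a unit at `s₀`, and `d ∈ O` with

  `valT Q hQ (ψ ε₀) = valT Q hQ (ψ ρ₀) ^ p * (1 + p * d)`.

* §1 ring level: `exists_pow_mul_of_frob₂` (= helper19's `UnitPow.exists_pow_mul_of_frob` for
  `𝔪 = (t, π)`, `ev t, ev π ∈ (p)`), `frob_of_chart`, `frob_chart_of_res`, `frob_of_res`
  (the `p`-th power hypothesis from rational closed points + perfect residue field of the base);
* §2 values of units at the centre of a section: `valT_coe`, `valuation_coe_eq_one`,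
  `valT_mul_coe`, `exists_valT_eq_of_mul_eq`, `valT_mul_algebraMap`;
* §3 the evaluation `evSmall : L₀ →+* O` of the small local ring at the big test place
  (`evSmall_algebraMap`, `valT_psi_eq_evSmall`, `isUnit_evSmall`), ★ `exists_valT_eq_pow_mul`,
  ★ `exists_valT_eq_pow_mul_isPU` (`NodeCore.IsPU` packaging for `NodeInv.yNode_spec`).

Mathlib + `G/Points` + `NodeInv` (`valT`) + `NodeCore` (`IsPU`) only.
-/
import Mathlib
import Fermat.Agent.G.Points
import Fermat.Agent.S40.M1.NodeInv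
import Fermat.Agent.S40.M1.NodeCore
import Fermat.Agent.S40.M1.SmoothPoint
import Fermat.Agent.P4.TwistRoots

set_option autoImplicit false
set_option linter.unusedSectionVars false
set_option linter.unusedVariables false
set_option linter.style.longLine false
set_option linter.style.haveILetI false

open AlgebraicCurve IsLocalRing

noncomputable section

namespace Fermat.Agent.S40.M1.NormUValCore

open Fermat.Agent.N4F.E.PlaceValue Fermat.Agent.G.Points Fermat.Agent.S40.M1.NodeInv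
  Fermat.Agent.S40.M1.NodeCore

/-! ### §1 Ring level -/

section Ring

variable {R O' : Type*} [CommRing R] [IsLocalRing R] [CommRing O']

/-- **(EPS), core form with two generators**: `𝔪_R = (t, π)`, `ev t, ev π ∈ (p)`, every element of
`R` a `p`-th power modulo `𝔪_R`; then `ev ε = ev r ^ p * (1 + p d)` for every unit `ε`. -/
theorem exists_pow_mul_of_frob₂ {p : ℕ} {t π : R}
    (hm : maximalIdeal R = Ideal.span {t, π})
    (hfrob : ∀ x : R, ∃ y : R, x - y ^ p ∈ maximalIdeal R)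
    (ev : R →+* O') (hevt : ev t ∈ Ideal.span {(p : O')}) (hevπ : ev π ∈ Ideal.span {(p : O')})
    {ε : R} (hε : IsUnit ε) :
    ∃ r : R, IsUnit r ∧ ∃ d : O', ev ε = ev r ^ p * (1 + (p : O') * d) := by
  have hp0 : p ≠ 0 := by
    rintro rfl
    obtain ⟨y, hy⟩ := hfrob (0 : R)
    rw [pow_zero, zero_sub] at hy
    have h1 : (1 : R) ∈ maximalIdeal R := by
      have := (maximalIdeal R).neg_mem hy
      rwa [neg_neg] at this
    exact ((mem_maximalIdeal (1 : R)).1 h1) isUnit_one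
  obtain ⟨r, hr⟩ := hfrob ε
  have hru : IsUnit r := by
    by_contra hnu
    have hrm : r ∈ maximalIdeal R := (mem_maximalIdeal r).2 hnu
    have hrp : r ^ p ∈ maximalIdeal R := Ideal.pow_mem_of_mem _ hrm p (Nat.pos_of_ne_zero hp0)
    have hεm : ε ∈ maximalIdeal R := by
      have := (maximalIdeal R).add_mem hr hrp
      rwa [sub_add_cancel] at this
    exact ((mem_maximalIdeal ε).1 hεm) hε
  refine ⟨r, hru, ?_⟩
  rw [hm, Ideal.mem_span_pair] at hr
  obtain ⟨a, b, hab⟩ := hr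
  obtain ⟨t', ht'⟩ := Ideal.mem_span_singleton'.1 hevt
  obtain ⟨π', hπ'⟩ := Ideal.mem_span_singleton'.1 hevπ
  obtain ⟨s, hs⟩ := hru.exists_right_inv
  have hevs : ev r * ev s = 1 := by rw [← map_mul, hs, map_one]
  refine ⟨(ev a * t' + ev b * π') * ev s ^ p, ?_⟩
  have h1 : ev ε = ev r ^ p + (p : O') * (ev a * t' + ev b * π') := by
    have h2 : ε = r ^ p + (a * t + b * π) := by rw [hab]; ring
    rw [h2, map_add, map_pow, map_add, map_mul, map_mul, ← ht', ← hπ']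
    ring
  have h3 : ev r ^ p * ev s ^ p = 1 := by rw [← mul_pow, hevs, one_pow]
  rw [h1]
  calc ev r ^ p + (p : O') * (ev a * t' + ev b * π')
      = ev r ^ p + (ev r ^ p * ev s ^ p) * ((p : O') * (ev a * t' + ev b * π')) := by
        rw [h3, one_mul]
    _ = ev r ^ p * (1 + (p : O') * ((ev a * t' + ev b * π') * ev s ^ p)) := by ring

end Ring

section Frob

variable {T₀ : Type*} [CommRing T₀] (s₀ : Ideal T₀)

/-- `p`-th powers modulo the maximal ideal of the local ring at a MAXIMAL ideal `s₀`, from `p`-th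
powers modulo `s₀` in the chart. -/
theorem frob_of_chart [hs₀ : s₀.IsMaximal] (L₀ : Type*) [CommRing L₀] [Algebra T₀ L₀]
    [IsLocalization.AtPrime L₀ s₀] [IsLocalRing L₀] (p : ℕ)
    (hchart : ∀ t : T₀, ∃ y : T₀, t - y ^ p ∈ s₀) (x : L₀) :
    ∃ y : L₀, x - y ^ p ∈ maximalIdeal L₀ := by
  obtain ⟨t, a, rfl⟩ := IsLocalization.exists_mk'_eq s₀.primeCompl x
  obtain ⟨a', i, hi, hai⟩ := hs₀.exists_inv a.2
  obtain ⟨y, hy⟩ := hchart (t * a')
  refine ⟨algebraMap T₀ L₀ y, ?_⟩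
  have e : IsLocalization.mk' L₀ t a - algebraMap T₀ L₀ y ^ p =
      IsLocalization.mk' L₀ (t - y ^ p * (a : T₀)) a := by
    rw [IsLocalization.eq_mk'_iff_mul_eq, sub_mul, IsLocalization.mk'_spec, map_sub, map_mul,
      map_pow]
  rw [e, IsLocalization.AtPrime.mk'_mem_maximal_iff L₀ s₀]
  have e2 : t - y ^ p * (a : T₀) = t * i + (t * a' - y ^ p) * (a : T₀) := by
    have : i = 1 - a' * (a : T₀) := by rw [← hai]; ring
    rw [this]; ring
  rw [e2]
  exact s₀.add_mem (s₀.mul_mem_left _ hi) (s₀.mul_mem_right _ hy)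

/-- `p`-th powers modulo `s₀` in the chart, from: closed point rational over a local base ring `O₀`
with perfect residue field of characteristic `p`. -/
theorem frob_chart_of_res {O₀ : Type*} [CommRing O₀] [IsLocalRing O₀] [Algebra O₀ T₀] (p : ℕ)
    [Fact p.Prime] [CharP (ResidueField O₀) p] [PerfectRing (ResidueField O₀) p]
    (hO₀ : ∀ c ∈ maximalIdeal O₀, algebraMap O₀ T₀ c ∈ s₀)
    (hres : ∀ t : T₀, ∃ c : O₀, t - algebraMap O₀ T₀ c ∈ s₀) (t : T₀) :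
    ∃ y : T₀, t - y ^ p ∈ s₀ := by
  obtain ⟨c, hc⟩ := hres t
  obtain ⟨b, hb⟩ := surjective_frobenius (ResidueField O₀) p (residue O₀ c)
  obtain ⟨b₀, rfl⟩ := residue_surjective b
  have h1 : c - b₀ ^ p ∈ maximalIdeal O₀ := by
    rw [← residue_eq_zero_iff, map_sub, map_pow, ← hb, frobenius_def, sub_self]
  refine ⟨algebraMap O₀ T₀ b₀, ?_⟩
  have e : t - algebraMap O₀ T₀ b₀ ^ p =
      (t - algebraMap O₀ T₀ c) + algebraMap O₀ T₀ (c - b₀ ^ p) := by
    rw [map_sub, map_pow]; ring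
  rw [e]
  exact s₀.add_mem hc (hO₀ _ h1)

/-- The `hfrob` hypothesis of `exists_valT_eq_pow_mul` from: `s₀` a closed point, rational over
a local base ring `O₀` with perfect residue field of characteristic `p`. -/
theorem frob_of_res [s₀.IsMaximal] (L₀ : Type*) [CommRing L₀] [Algebra T₀ L₀]
    [IsLocalization.AtPrime L₀ s₀] [IsLocalRing L₀]
    {O₀ : Type*} [CommRing O₀] [IsLocalRing O₀] [Algebra O₀ T₀] (p : ℕ)
    [Fact p.Prime] [CharP (ResidueField O₀) p] [PerfectRing (ResidueField O₀) p]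
    (hO₀ : ∀ c ∈ maximalIdeal O₀, algebraMap O₀ T₀ c ∈ s₀)
    (hres : ∀ t : T₀, ∃ c : O₀, t - algebraMap O₀ T₀ c ∈ s₀) (x : L₀) :
    ∃ y : L₀, x - y ^ p ∈ maximalIdeal L₀ :=
  frob_of_chart s₀ L₀ p (frob_chart_of_res s₀ p hO₀ hres) x

end Frob

/-! ### §2 Values of units at the centre of a section -/

section Place

variable {O K F : Type*} [CommRing O] [IsDomain O] [IsDiscreteValuationRing O]
  [Field K] [Algebra O K] [IsFractionRing O K]
  [Field F] [Algebra K F] [Algebra O F] [IsScalarTower O K F]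
  {T : Subalgebra O F} {Q : Place K F} {hQ : Function.Bijective (algebraMap K Q.ResidueField)}
  (h : IsSection T Q hQ)

theorem valT_coe (r : T) : valT Q hQ (r : F) = algebraMap O K (ev h r) := by
  rw [valT_of_mem Q hQ (h.mem r), ← algebraMap_ev]

/-- An element of the chart outside the centre is a unit at the place. -/
theorem valuation_coe_eq_one {a : T} (ha : a ∉ centre h) :
    Q.toValuationSubring.valuation (a : F) = 1 := by
  have h1 : Q.toValuationSubring.valuation (a : F) ≤ 1 :=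
    (Q.toValuationSubring.valuation_le_one_iff _).2 (h.mem a)
  have h2 : ¬ Q.toValuationSubring.valuation (a : F) < 1 := by
    intro hlt
    have h3 : (a : F) ∈ Q.toValuationSubring.nonunits :=
      (Q.toValuationSubring.mem_nonunits_iff).2 hlt
    have h4 : ev h a = 0 := (ev_eq_zero_iff h a).2 h3
    have h5 : IsUnit (ev h a) := (not_mem_centre_iff h a).1 ha
    rw [h4] at h5
    exact not_isUnit_zero h5
  exact le_antisymm h1 (not_lt.1 h2)

theorem algebraMap_ev_ne_zero {a : T} (ha : a ∉ centre h) : algebraMap O K (ev h a) ≠ 0 := by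
  have h5 : IsUnit (ev h a) := (not_mem_centre_iff h a).1 ha
  intro h0
  have h6 : ev h a = 0 := IsFractionRing.injective O K (by rw [h0, map_zero])
  rw [h6] at h5
  exact not_isUnit_zero h5

/-- `x = r / a`, `a ∉ centre`: `x` is regular at the place and `x(Q) · a(Q) = r(Q)`. -/
theorem valT_mul_coe {x : F} {a r : T} (ha : a ∉ centre h) (hx : x * (a : F) = (r : F)) :
    x ∈ Q.toValuationSubring ∧
      valT Q hQ x * algebraMap O K (ev h a) = algebraMap O K (ev h r) := by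
  have hva := valuation_coe_eq_one h ha
  have ha0 : (a : F) ≠ 0 := ne_zero_of_valuation_eq_one hva
  have hxm : x ∈ Q.toValuationSubring := by
    have e : x = (r : F) * (a : F)⁻¹ := by
      rw [← hx, mul_assoc, mul_inv_cancel₀ ha0, mul_one]
    rw [e]
    exact mul_mem (h.mem r) (mem_of_valuation_eq_one (valuation_inv_eq_one hva))
  refine ⟨hxm, ?_⟩
  rw [← valT_coe h a, ← valT_coe h r, ← valT_mul Q hQ hxm (h.mem a), hx]

/-- `x = r / a` with `a, r ∉ centre`: `x(Q)` is (the image of) a unit of `O` and `x` is a unit at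
the place. -/
theorem exists_valT_eq_of_mul_eq {x : F} {a r : T} (ha : a ∉ centre h) (hr : r ∉ centre h)
    (hx : x * (a : F) = (r : F)) :
    ∃ b : O, IsUnit b ∧ valT Q hQ x = algebraMap O K b ∧
      Q.toValuationSubring.valuation x = 1 := by
  obtain ⟨hxm, hval⟩ := valT_mul_coe h ha hx
  have hua : IsUnit (ev h a) := (not_mem_centre_iff h a).1 ha
  have hur : IsUnit (ev h r) := (not_mem_centre_iff h r).1 hr
  obtain ⟨a', ha'⟩ := hua.exists_right_inv
  refine ⟨ev h r * a', hur.mul (IsUnit.of_mul_eq_one _ (by rw [mul_comm]; exact ha')), ?_, ?_⟩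
  · have h0 := algebraMap_ev_ne_zero h ha
    apply mul_right_cancel₀ h0
    rw [hval, ← map_mul, mul_assoc, mul_comm a', ha', mul_one]
  · have hva := valuation_coe_eq_one h ha
    have hvr := valuation_coe_eq_one h hr
    have := congrArg Q.toValuationSubring.valuation hx
    rwa [map_mul, hva, hvr, mul_one] at this

/-- Multiplying by a constant. -/
theorem valT_mul_algebraMap {x : F} (hx : x ∈ Q.toValuationSubring) (c : K) :
    valT Q hQ (x * algebraMap K F c) = valT Q hQ x * c := by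
  rw [valT_mul Q hQ hx (Q.algebraMap_mem' c), valT_algebraMap]

end Place

/-! ### §3 Two levels -/

section TwoLevels

variable {O K F : Type*} [CommRing O] [IsDomain O] [IsDiscreteValuationRing O]
  [Field K] [Algebra O K] [IsFractionRing O K]
  [Field F] [Algebra K F] [Algebra O F] [IsScalarTower O K F]
  {T : Subalgebra O F} {Q : Place K F} {hQ : Function.Bijective (algebraMap K Q.ResidueField)}
  (h : IsSection T Q hQ)
  {T₀ F₀ : Type*} [CommRing T₀] [Field F₀] [Algebra T₀ F₀]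
  (φ : T₀ →+* ↥T) (ψ : F₀ →+* F)
  (hφψ : ∀ t : T₀, ((φ t : ↥T) : F) = ψ (algebraMap T₀ F₀ t))
  (s₀ : Ideal T₀) [s₀.IsPrime] (hs₀ : s₀ = (centre h).comap φ)
  (L₀ : Type*) [CommRing L₀] [Algebra T₀ L₀] [IsLocalization.AtPrime L₀ s₀]

include hs₀ in
theorem not_mem_centre_of_not_mem {a : T₀} (ha : a ∉ s₀) : φ a ∉ centre h := by
  intro h1
  exact ha (by rw [hs₀, Ideal.mem_comap]; exact h1)

include hs₀ in
theorem isUnit_ev_comp (y : s₀.primeCompl) :
    IsUnit (((ev h : ↥T →ₐ[O] O) : ↥T →+* O).comp φ (y : T₀)) :=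
  (not_mem_centre_iff h _).1 (not_mem_centre_of_not_mem h φ s₀ hs₀ y.2)

/-- **Evaluation of the small local ring at the big test place.** -/
def evSmall : L₀ →+* O :=
  IsLocalization.lift (M := s₀.primeCompl) (S := L₀)
    (g := ((ev h : ↥T →ₐ[O] O) : ↥T →+* O).comp φ) (isUnit_ev_comp h φ s₀ hs₀)

@[simp]
theorem evSmall_algebraMap (t : T₀) :
    evSmall h φ s₀ hs₀ L₀ (algebraMap T₀ L₀ t) = ev h (φ t) :=
  IsLocalization.lift_eq _ t

theorem evSmall_mk'_mul (r : T₀) (a : s₀.primeCompl) :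
    evSmall h φ s₀ hs₀ L₀ (IsLocalization.mk' L₀ r a) * ev h (φ (a : T₀)) = ev h (φ r) := by
  rw [← evSmall_algebraMap h φ s₀ hs₀ L₀ (a : T₀), ← map_mul, IsLocalization.mk'_spec,
    evSmall_algebraMap]

theorem isUnit_evSmall {x : L₀} (hx : IsUnit x) : IsUnit (evSmall h φ s₀ hs₀ L₀ x) :=
  hx.map _

include hφψ in
/-- The value at the big test place of (the image of) `x₀ = r / a ∈ F₀`, `a ∉ s₀`, is the
evaluation of the element `r / a` of the small local ring. -/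
theorem valT_psi_eq_evSmall {x₀ : F₀} {a r : T₀} (ha : a ∉ s₀)
    (hx : x₀ * algebraMap T₀ F₀ a = algebraMap T₀ F₀ r) :
    ψ x₀ ∈ Q.toValuationSubring ∧
    valT Q hQ (ψ x₀) =
      algebraMap O K (evSmall h φ s₀ hs₀ L₀
        (IsLocalization.mk' L₀ r (⟨a, ha⟩ : s₀.primeCompl))) := by
  have ha' := not_mem_centre_of_not_mem h φ s₀ hs₀ ha
  have hx' : ψ x₀ * ((φ a : ↥T) : F) = ((φ r : ↥T) : F) := by
    rw [hφψ, hφψ, ← map_mul, hx]
  obtain ⟨hm, hv⟩ := valT_mul_coe h ha' hx'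
  refine ⟨hm, ?_⟩
  apply mul_right_cancel₀ (algebraMap_ev_ne_zero h ha')
  rw [hv, ← map_mul]
  congr 1
  exact (evSmall_mk'_mul h φ s₀ hs₀ L₀ r ⟨a, ha⟩).symm

include hφψ hs₀ in
/-- ★ **(E), generic core.**  `ε₀ ∈ F₀` a unit at `s₀` (shape of `P4.TwistRoots.IsUnitAt`):
`ε₀(Q) = ρ₀(Q) ^ p * (1 + p d)` with `ρ₀ ∈ F₀` a unit at `s₀`, `d ∈ O`. -/
theorem exists_valT_eq_pow_mul [IsLocalRing L₀] (p : ℕ)
    (hfrob : ∀ x : L₀, ∃ y : L₀, x - y ^ p ∈ maximalIdeal L₀)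
    {z₀ π₀ : T₀}
    (hmt₀ : maximalIdeal L₀ = Ideal.span {algebraMap T₀ L₀ z₀, algebraMap T₀ L₀ π₀})
    (hz : ev h (φ z₀) ∈ Ideal.span {(p : O)}) (hπ : ev h (φ π₀) ∈ Ideal.span {(p : O)})
    {ε₀ : F₀}
    (hε₀ : ∃ a r : T₀, a ∉ s₀ ∧ r ∉ s₀ ∧ ε₀ * algebraMap T₀ F₀ a = algebraMap T₀ F₀ r) :
    ∃ ρ₀ : F₀,
      (∃ a r : T₀, a ∉ s₀ ∧ r ∉ s₀ ∧ ρ₀ * algebraMap T₀ F₀ a = algebraMap T₀ F₀ r) ∧
      ∃ d : O, valT Q hQ (ψ ε₀) =
        valT Q hQ (ψ ρ₀) ^ p * (1 + (p : K) * algebraMap O K d) := by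
  obtain ⟨a, r, ha, hr, hε⟩ := hε₀
  have hεu : IsUnit (IsLocalization.mk' L₀ r (⟨a, ha⟩ : s₀.primeCompl)) :=
    (IsLocalization.AtPrime.isUnit_mk'_iff L₀ s₀ r ⟨a, ha⟩).2 hr
  obtain ⟨ρ, hρu, d, hd⟩ := exists_pow_mul_of_frob₂ hmt₀ hfrob (evSmall h φ s₀ hs₀ L₀)
    (by rw [evSmall_algebraMap]; exact hz) (by rw [evSmall_algebraMap]; exact hπ) hεu
  obtain ⟨r', a', rfl⟩ := IsLocalization.exists_mk'_eq s₀.primeCompl ρ
  have hr' : r' ∉ s₀ := (IsLocalization.AtPrime.isUnit_mk'_iff L₀ s₀ r' a').1 hρu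
  have ha'c := not_mem_centre_of_not_mem h φ s₀ hs₀ a'.2
  -- `a'` is nonzero in `F₀`
  have ha'0 : algebraMap T₀ F₀ (a' : T₀) ≠ 0 := by
    intro h0
    have h1 := valuation_coe_eq_one h ha'c
    rw [hφψ, h0, map_zero, map_zero] at h1
    exact zero_ne_one h1
  refine ⟨algebraMap T₀ F₀ r' / algebraMap T₀ F₀ (a' : T₀),
    ⟨a', r', a'.2, hr', div_mul_cancel₀ _ ha'0⟩, d, ?_⟩
  rw [(valT_psi_eq_evSmall h φ ψ hφψ s₀ hs₀ L₀ ha hε).2,
    (valT_psi_eq_evSmall h φ ψ hφψ s₀ hs₀ L₀ a'.2 (div_mul_cancel₀ _ ha'0)).2, hd, map_mul,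
    map_pow, map_add, map_one, map_mul, map_natCast]

include hφψ hs₀ in
/-- ★ **(E), generic core, `IsPU` packaging** (`𝒜 ⊇ O` any valuation subring of `K`, e.g.
`NodeQbar.lvlVS A K`): the shape of `hUαv heA` / `hUβv heB` / `htA htB` of
`NodeInv.yNode_spec`. -/
theorem exists_valT_eq_pow_mul_isPU [IsLocalRing L₀] (p : ℕ)
    (𝒜 : ValuationSubring K) (h𝒜 : ∀ a : O, algebraMap O K a ∈ 𝒜)
    (hfrob : ∀ x : L₀, ∃ y : L₀, x - y ^ p ∈ maximalIdeal L₀)
    {z₀ π₀ : T₀}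
    (hmt₀ : maximalIdeal L₀ = Ideal.span {algebraMap T₀ L₀ z₀, algebraMap T₀ L₀ π₀})
    (hz : ev h (φ z₀) ∈ Ideal.span {(p : O)}) (hπ : ev h (φ π₀) ∈ Ideal.span {(p : O)})
    {ε₀ : F₀}
    (hε₀ : ∃ a r : T₀, a ∉ s₀ ∧ r ∉ s₀ ∧ ε₀ * algebraMap T₀ F₀ a = algebraMap T₀ F₀ r) :
    ∃ ρ₀ : F₀,
      (∃ a r : T₀, a ∉ s₀ ∧ r ∉ s₀ ∧ ρ₀ * algebraMap T₀ F₀ a = algebraMap T₀ F₀ r) ∧
      Q.toValuationSubring.valuation (ψ ε₀) = 1 ∧ Q.toValuationSubring.valuation (ψ ρ₀) = 1 ∧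
      valT Q hQ (ψ ρ₀) ≠ 0 ∧ valT Q hQ (ψ ρ₀) ∈ 𝒜 ∧ (valT Q hQ (ψ ρ₀))⁻¹ ∈ 𝒜 ∧
      ∃ e : K, IsPU 𝒜 (p : K) e ∧ valT Q hQ (ψ ε₀) = valT Q hQ (ψ ρ₀) ^ p * e := by
  obtain ⟨ρ₀, hρ₀, d, hd⟩ :=
    exists_valT_eq_pow_mul h φ ψ hφψ s₀ hs₀ L₀ p hfrob hmt₀ hz hπ hε₀
  obtain ⟨a, r, ha, hr, hε⟩ := hε₀
  obtain ⟨a', r', ha', hr', hρ⟩ := hρ₀
  have hε' : ψ ε₀ * ((φ a : ↥T) : F) = ((φ r : ↥T) : F) := by
    rw [hφψ, hφψ, ← map_mul, hε]
  have hρ' : ψ ρ₀ * ((φ a' : ↥T) : F) = ((φ r' : ↥T) : F) := by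
    rw [hφψ, hφψ, ← map_mul, hρ]
  obtain ⟨-, -, -, hvε⟩ := exists_valT_eq_of_mul_eq h
    (not_mem_centre_of_not_mem h φ s₀ hs₀ ha) (not_mem_centre_of_not_mem h φ s₀ hs₀ hr) hε'
  obtain ⟨b, hbu, hb, hvρ⟩ := exists_valT_eq_of_mul_eq h
    (not_mem_centre_of_not_mem h φ s₀ hs₀ ha') (not_mem_centre_of_not_mem h φ s₀ hs₀ hr') hρ'
  obtain ⟨b', hb'⟩ := hbu.exists_right_inv
  have hbb' : algebraMap O K b * algebraMap O K b' = 1 := by rw [← map_mul, hb', map_one]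
  refine ⟨ρ₀, ⟨a', r', ha', hr', hρ⟩, hvε, hvρ, ?_, ?_, ?_, 1 + (p : K) * algebraMap O K d,
    ⟨algebraMap O K d, h𝒜 d, rfl⟩, hd⟩
  · rw [hb]; exact left_ne_zero_of_mul_eq_one hbb'
  · rw [hb]; exact h𝒜 b
  · rw [hb, ← eq_inv_of_mul_eq_one_right hbb']
    exact h𝒜 b'

end TwoLevels

/-! ### §4 Two levels of the modular tower -/

section Level

open ModularCurve Fermat.Agent.N4.Setting Fermat.Agent.N4.FibreEmbedding
open Fermat.Agent.N4.Chart Fermat.Agent.P3G.RbarFin Fermat.Agent.P3G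
open Fermat.Agent.S19.Cech.LevelBasis Fermat.Agent.N4.BaseDescent
open Fermat.Agent.P4.TwistRoots

variable (K : Type) [Field K] [CharZero K] (K' : Type) [Field K'] [CharZero K'] (f : K →+* K')
  (N : ℕ) [NeZero N]
  (O : Subring K) [IsDiscreteValuationRing ↥O] [IsFractionRing ↥O K]
  (O' : Subring K') [IsDiscreteValuationRing ↥O'] [IsFractionRing ↥O' K']
  (hOO' : ∀ a ∈ O, f a ∈ O')
  {Q : Place K' (FF K' N)} {hQ : Function.Bijective (algebraMap K' Q.ResidueField)}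
  (h : IsSection (Rfin K' N O') Q hQ)
  (s₀ : Ideal ↥(Rfin K N O)) [s₀.IsPrime] (hs₀ : s₀ = (centre h).comap (finMap f N O O' hOO'))
  (L₀ : Type*) [CommRing L₀] [Algebra ↥(Rfin K N O) L₀] [IsLocalization.AtPrime L₀ s₀]
  [IsLocalRing L₀]

include hs₀ in
/-- ★ **(E) at two levels `(K, O) → (K', O')` of the modular tower** (`K` the small unramified level,
`ϖ ∼ p`): `ε₀ ∈ F_N(K)` a unit at `s₀` (`IsUnitAt`, the output shape of helper18's
`NormU.isUnitAt_normAlong_alpha/_beta`), `Q` a test place of `F_N(K')` through the closed point over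
`s₀` with `z₀(Q) ∈ p O'`: `(ffMap ε₀)(Q) = (ffMap ρ₀)(Q) ^ p * (1 + p d)`. -/
theorem exists_valT_ffMap_eq_pow_mul (p : ℕ)
    (hfrob : ∀ x : L₀, ∃ y : L₀, x - y ^ p ∈ maximalIdeal L₀)
    {ϖ : ↥O} (hϖp : oMap f O O' hOO' ϖ ∈ Ideal.span {(p : ↥O')})
    {z₀ : ↥(Rfin K N O)}
    (hmt₀ : maximalIdeal L₀ = Ideal.span {algebraMap ↥(Rfin K N O) L₀ z₀,
      algebraMap ↥(Rfin K N O) L₀ (algebraMap ↥O ↥(Rfin K N O) ϖ)})
    (hz : ev h (finMap f N O O' hOO' z₀) ∈ Ideal.span {(p : ↥O')})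
    {ε₀ : FF K N} (hε₀ : IsUnitAt s₀ ε₀) :
    ∃ ρ₀ : FF K N, IsUnitAt s₀ ρ₀ ∧
      ∃ d : ↥O', valT Q hQ (ffMap f N ε₀) =
        valT Q hQ (ffMap f N ρ₀) ^ p * (1 + (p : K') * algebraMap ↥O' K' d) := by
  have hπ : ev h (finMap f N O O' hOO' (algebraMap ↥O ↥(Rfin K N O) ϖ)) ∈
      Ideal.span {(p : ↥O')} := by
    have h1 : finMap f N O O' hOO' (algebraMap ↥O ↥(Rfin K N O) ϖ) =
        algebraMap ↥O' ↥(Rfin K' N O') (oMap f O O' hOO' ϖ) := by
      apply Subtype.ext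
      rw [coe_finMap]
      exact ffMap_algebraMap_base f N O O' hOO' ϖ
    rw [h1, AlgHom.commutes]
    exact hϖp
  exact exists_valT_eq_pow_mul h (finMap f N O O' hOO') (ffMap f N)
    (fun t => coe_finMap f N O O' hOO' t) s₀ hs₀ L₀ p hfrob hmt₀ hz hπ hε₀

include hs₀ in
/-- The same with the `IsPU` packaging. -/
theorem exists_valT_ffMap_eq_pow_mul_isPU (p : ℕ)
    (𝒜 : ValuationSubring K') (h𝒜 : ∀ a : ↥O', algebraMap ↥O' K' a ∈ 𝒜)
    (hfrob : ∀ x : L₀, ∃ y : L₀, x - y ^ p ∈ maximalIdeal L₀)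
    {ϖ : ↥O} (hϖp : oMap f O O' hOO' ϖ ∈ Ideal.span {(p : ↥O')})
    {z₀ : ↥(Rfin K N O)}
    (hmt₀ : maximalIdeal L₀ = Ideal.span {algebraMap ↥(Rfin K N O) L₀ z₀,
      algebraMap ↥(Rfin K N O) L₀ (algebraMap ↥O ↥(Rfin K N O) ϖ)})
    (hz : ev h (finMap f N O O' hOO' z₀) ∈ Ideal.span {(p : ↥O')})
    {ε₀ : FF K N} (hε₀ : IsUnitAt s₀ ε₀) :
    ∃ ρ₀ : FF K N, IsUnitAt s₀ ρ₀ ∧
      Q.toValuationSubring.valuation (ffMap f N ε₀) = 1 ∧
      Q.toValuationSubring.valuation (ffMap f N ρ₀) = 1 ∧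
      valT Q hQ (ffMap f N ρ₀) ≠ 0 ∧ valT Q hQ (ffMap f N ρ₀) ∈ 𝒜 ∧
      (valT Q hQ (ffMap f N ρ₀))⁻¹ ∈ 𝒜 ∧
      ∃ e : K', IsPU 𝒜 (p : K') e ∧
        valT Q hQ (ffMap f N ε₀) = valT Q hQ (ffMap f N ρ₀) ^ p * e := by
  have hπ : ev h (finMap f N O O' hOO' (algebraMap ↥O ↥(Rfin K N O) ϖ)) ∈
      Ideal.span {(p : ↥O')} := by
    have h1 : finMap f N O O' hOO' (algebraMap ↥O ↥(Rfin K N O) ϖ) =
        algebraMap ↥O' ↥(Rfin K' N O') (oMap f O O' hOO' ϖ) := by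
      apply Subtype.ext
      rw [coe_finMap]
      exact ffMap_algebraMap_base f N O O' hOO' ϖ
    rw [h1, AlgHom.commutes]
    exact hϖp
  exact exists_valT_eq_pow_mul_isPU h (finMap f N O O' hOO') (ffMap f N)
    (fun t => coe_finMap f N O O' hOO' t) s₀ hs₀ L₀ p 𝒜 h𝒜 hfrob hmt₀ hz hπ hε₀

/-- `hfrob` at the small level: `κ` algebraically closed of characteristic `p`, `s₀` a closed point
of the special fibre. -/
theorem frob_level [s₀.IsMaximal] (p : ℕ) [Fact p.Prime]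
    [IsAlgClosed (IsLocalRing.ResidueField ↥O)] [CharP (IsLocalRing.ResidueField ↥O) p]
    {ϖ : ↥O} (hϖ : Irreducible ϖ) (hϖs₀ : algebraMap ↥O ↥(Rfin K N O) ϖ ∈ s₀) (x : L₀) :
    ∃ y : L₀, x - y ^ p ∈ maximalIdeal L₀ := by
  refine frob_of_res s₀ L₀ (O₀ := ↥O) p (fun c hc => ?_)
    (fun t => Fermat.Agent.P3G.RbarFin.exists_sub_algebraMap_mem K N O hϖ s₀ hϖs₀ t) x
  rw [hϖ.maximalIdeal_eq, Ideal.mem_span_singleton] at hc
  obtain ⟨b, rfl⟩ := hc
  rw [map_mul]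
  exact s₀.mul_mem_right _ hϖs₀

end Level

end Fermat.Agent.S40.M1.NormUValCore
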