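/-
S40 / S44 (row 38), T6′ static route, block (R4a)-VALUES = piece (E), level wrapper, slice
"SECTION" of helper2's split #3289 (helper9): **a test section `h : IsSection T Q hQ` at the big level
makes `Q` an `𝒜`-section through the point of the small level under `centre h`** — the hypothesis
`NormUVal.IsSectionThrough Q hQ 𝒜 𝔰 ψ` of helper2's `NormUVal.exists_value_of_isUnitAt` /
`r4a_alpha` / `r4a_beta` — and the hypothesis `hz : ∃ a ∈ 𝒜, valT Q hQ (ψ z) = p * a`.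

* abstract (`G/Points` block + a ring map `φ : T₀ →+* T`, `ψ : T₀ →+* F` with `ψ t = ↑(φ t)`):
  `isSectionThrough_of_isSection`, `exists_valT_eq_mul_of_ev_mem`;
* two levels `(K, O) → (K', O')` of the modular tower (`finMap f N O O' hOO'`, `ffMap f N`; `finIncl`,
  `baseMapIncl` are `abbrev`s of these): `psiLevel` (`= ffMap ∘ coe`), ★ `isSectionThrough_finMap`,
  ★ `exists_valT_psiLevel_eq_mul` (from `ev h (finMap z₀) = oMap c₀`, `c₀ = p · c`, the output shape of
  helper21's `TestPointUp.exists_testPoint_finIncl`), `isUnitAt_psiLevel` (helper18's `IsUnitAt s̃₀ ε₀`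
  pushed through `ffMap` = the `hE` of `exists_value_of_isUnitAt`).

`G/Points` + `NormUVal` + `NormUValCore` (§2 lemmas) + `S19/Cech/LevelBasis` (`finMap`).
-/
import Mathlib
import Fermat.Agent.S40.M1.NormUVal
import Fermat.Agent.S40.M1.NormUValCore

set_option autoImplicit false
set_option linter.unusedSectionVars false
set_option linter.unusedVariables false
set_option linter.style.longLine false
set_option linter.style.haveILetI false

open AlgebraicCurve IsLocalRing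

noncomputable section

namespace Fermat.Agent.S40.M1.NormUValSection

open Fermat.Agent.N4F.E.PlaceValue Fermat.Agent.G.Points Fermat.Agent.S40.M1.NodeInv
  Fermat.Agent.S40.M1.NodeCore Fermat.Agent.S40.M1.NormUVal Fermat.Agent.S40.M1.NormUValCore

/-! ### Abstract -/

section Abstract

variable {O K F : Type*} [CommRing O] [IsDomain O] [IsDiscreteValuationRing O]
  [Field K] [Algebra O K] [IsFractionRing O K]
  [Field F] [Algebra K F] [Algebra O F] [IsScalarTower O K F]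
  {T : Subalgebra O F} {Q : Place K F} {hQ : Function.Bijective (algebraMap K Q.ResidueField)}
  (h : IsSection T Q hQ)
  (𝒜 : ValuationSubring K) (h𝒜 : ∀ a : O, algebraMap O K a ∈ 𝒜)
  {T₀ : Type*} [CommRing T₀] (φ : T₀ →+* ↥T) (ψ : T₀ →+* F)
  (hψ : ∀ t : T₀, ψ t = ((φ t : ↥T) : F))
  (s₀ : Ideal T₀) (hs₀ : s₀ = (centre h).comap φ)

include hψ in
theorem valT_psi (t : T₀) : valT Q hQ (ψ t) = algebraMap O K (ev h (φ t)) := by
  rw [hψ, valT_coe h]

include h𝒜 hψ hs₀ in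
/-- **A section at the big level is an `𝒜`-section through the point of the small level under its
centre.** -/
theorem isSectionThrough_of_isSection : IsSectionThrough Q hQ 𝒜 s₀ ψ := by
  have hunit : ∀ x : T₀, x ∉ s₀ → IsUnit (ev h (φ x)) := fun x hx =>
    (not_mem_centre_iff h _).1 (fun h1 => hx (by rw [hs₀, Ideal.mem_comap]; exact h1))
  refine ⟨fun x => ?_, fun x => ?_, fun x hx => ?_, fun x hx => ?_⟩
  · rw [hψ]; exact h.mem _
  · rw [valT_psi h φ ψ hψ]; exact h𝒜 _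
  · rw [valT_psi h φ ψ hψ]
    intro h0
    have h1 : ev h (φ x) = 0 := IsFractionRing.injective O K (by rw [h0, map_zero])
    have h2 := hunit x hx
    rw [h1] at h2
    exact not_isUnit_zero h2
  · rw [valT_psi h φ ψ hψ]
    obtain ⟨b, hb⟩ := (hunit x hx).exists_right_inv
    have hbb : algebraMap O K (ev h (φ x)) * algebraMap O K b = 1 := by
      rw [← map_mul, hb, map_one]
    rw [← eq_inv_of_mul_eq_one_right hbb]
    exact h𝒜 b

include h𝒜 hψ in
/-- `hz` of `NormUVal.exists_value_of_isUnitAt` from `z(Q) ∈ p O`. -/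
theorem exists_valT_eq_mul_of_ev_mem {p : ℕ} {z : T₀}
    (hz : ev h (φ z) ∈ Ideal.span {(p : O)}) :
    ∃ a ∈ 𝒜, valT Q hQ (ψ z) = (p : K) * a := by
  obtain ⟨c, hc⟩ := Ideal.mem_span_singleton'.1 hz
  refine ⟨algebraMap O K c, h𝒜 c, ?_⟩
  rw [valT_psi h φ ψ hψ, ← hc, map_mul, map_natCast, mul_comm]

end Abstract

/-! ### Two levels of the modular tower -/

section Level

open ModularCurve Fermat.Agent.N4.Setting Fermat.Agent.N4.FibreEmbedding
open Fermat.Agent.N4.Chart Fermat.Agent.P3G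
open Fermat.Agent.S19.Cech.LevelBasis Fermat.Agent.N4.BaseDescent
open Fermat.Agent.P4.TwistRoots

variable (K : Type) [Field K] [CharZero K] (K' : Type) [Field K'] [CharZero K'] (f : K →+* K')
  (N : ℕ) [NeZero N]
  (O : Subring K) [IsDiscreteValuationRing ↥O] [IsFractionRing ↥O K]
  (O' : Subring K') [IsDiscreteValuationRing ↥O'] [IsFractionRing ↥O' K']
  (hOO' : ∀ a ∈ O, f a ∈ O')

/-- `ψ := ffMap ∘ coe : Rfin K N O →+* F_N(K')`. -/
def psiLevel : ↥(Rfin K N O) →+* FF K' N :=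
  (ffMap f N).comp (algebraMap ↥(Rfin K N O) (FF K N))

@[simp]
theorem psiLevel_apply (t : ↥(Rfin K N O)) : psiLevel K K' f N O t = ffMap f N (t : FF K N) := rfl

theorem psiLevel_eq_coe_finMap (t : ↥(Rfin K N O)) :
    psiLevel K K' f N O t = ((finMap f N O O' hOO' t : ↥(Rfin K' N O')) : FF K' N) :=
  (coe_finMap f N O O' hOO' t).symm

variable {Q : Place K' (FF K' N)} {hQ : Function.Bijective (algebraMap K' Q.ResidueField)}
  (h : IsSection (Rfin K' N O') Q hQ)
  (𝒜 : ValuationSubring K') (h𝒜 : ∀ a : ↥O', algebraMap ↥O' K' a ∈ 𝒜)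
  (s₀ : Ideal ↥(Rfin K N O)) (hs₀ : s₀ = (centre h).comap (finMap f N O O' hOO'))

include h𝒜 hs₀ in
/-- ★ **`IsSectionThrough` for `ψ = ffMap ∘ coe`** from a test section of the big level. -/
theorem isSectionThrough_finMap :
    IsSectionThrough Q hQ 𝒜 s₀ (psiLevel K K' f N O) :=
  isSectionThrough_of_isSection h 𝒜 h𝒜 (finMap f N O O' hOO') (psiLevel K K' f N O)
    (psiLevel_eq_coe_finMap K K' f N O O' hOO') s₀ hs₀

include h𝒜 in
/-- ★ **`hz`**: from `ev h (finMap z₀) = oMap c₀` (output of `TestPointUp.exists_testPoint_finIncl`),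
`c₀ = p · c`. -/
theorem exists_valT_psiLevel_eq_mul {p : ℕ} {z₀ : ↥(Rfin K N O)} {c₀ c : ↥O}
    (hev : ev h (finMap f N O O' hOO' z₀) = oMap f O O' hOO' c₀) (hc : c₀ = (p : ↥O) * c) :
    ∃ a ∈ 𝒜, valT Q hQ (psiLevel K K' f N O z₀) = (p : K') * a := by
  refine exists_valT_eq_mul_of_ev_mem h 𝒜 h𝒜 (finMap f N O O' hOO') (psiLevel K K' f N O)
    (psiLevel_eq_coe_finMap K K' f N O O' hOO') ?_
  rw [hev, hc, map_mul, map_natCast]
  exact Ideal.mul_mem_right _ _ (Ideal.mem_span_singleton_self _)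

/-- `hE`: helper18's `IsUnitAt s̃₀ ε₀` pushed through `ffMap`. -/
theorem isUnitAt_psiLevel {ε₀ : FF K N} (hε₀ : IsUnitAt s₀ ε₀) :
    ∃ a r : ↥(Rfin K N O), a ∉ s₀ ∧ r ∉ s₀ ∧
      ffMap f N ε₀ * psiLevel K K' f N O a = psiLevel K K' f N O r := by
  obtain ⟨a, r, ha, hr, hε⟩ := hε₀
  refine ⟨a, r, ha, hr, ?_⟩
  rw [psiLevel_apply, psiLevel_apply, ← map_mul]
  exact congrArg (ffMap f N) hε

variable [s₀.IsPrime] (S : Type*) [CommRing S] [Algebra ↥(Rfin K N O) S]
  [IsLocalization.AtPrime S s₀] [IsLocalRing S]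

include h𝒜 hs₀ in
/-- ★ **(R4a), α-side, at two levels of the tower** = `NormUVal.r4a_alpha` with its three section
hypotheses discharged: `Nu = ffMap ε₀ · p ^ p` (helper18 `NormUBase`: `normAlphaK K' N p u`),
`ε₀` a unit at `s₀` over the small level, `Q` the test place with `z₀(Q) = c₀ = p c`. -/
theorem r4a_alpha_finMap {p : ℕ} {z₀ : ↥(Rfin K N O)} {c₀ c : ↥O}
    (hm : maximalIdeal S = Ideal.span {algebraMap ↥(Rfin K N O) S z₀, (p : S)})
    (hfrob : ∀ x : S, ∃ y : S, x - y ^ p ∈ maximalIdeal S)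
    (hev : ev h (finMap f N O O' hOO' z₀) = oMap f O O' hOO' c₀) (hc : c₀ = (p : ↥O) * c)
    (hp0 : (p : K') ≠ 0) {ε₀ : FF K N} (hε₀ : IsUnitAt s₀ ε₀) {Nu : FF K' N}
    (hNu : Nu = ffMap f N ε₀ * (p : FF K' N) ^ p) :
    Q.toValuationSubring.valuation Nu = 1 ∧
      ∃ tA eA : K', tA ≠ 0 ∧ IsPU 𝒜 (p : K') eA ∧
        valT Q hQ Nu = (p : K') ^ p * tA ^ p * eA ∧
        ∀ σ' : SemilinearAut K' (FF K' N), σ' • Q = Q →
          (∀ x : ↥(Rfin K N O), σ' • ffMap f N (x : FF K N) = ffMap f N (x : FF K N)) →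
          SemilinearAut.baseAut σ' tA = tA :=
  r4a_alpha S (isSectionThrough_finMap K K' f N O O' hOO' h 𝒜 h𝒜 s₀ hs₀) hm hfrob
    (exists_valT_psiLevel_eq_mul K K' f N O O' hOO' h 𝒜 h𝒜 hev hc) hp0
    (isUnitAt_psiLevel K K' f N O s₀ hε₀) hNu

include h𝒜 hs₀ in
/-- ★ **(R4a), β-side, at two levels of the tower**: `Nu = ffMap ε₀ · p`. -/
theorem r4a_beta_finMap {p : ℕ} {z₀ : ↥(Rfin K N O)} {c₀ c : ↥O}
    (hm : maximalIdeal S = Ideal.span {algebraMap ↥(Rfin K N O) S z₀, (p : S)})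
    (hfrob : ∀ x : S, ∃ y : S, x - y ^ p ∈ maximalIdeal S)
    (hev : ev h (finMap f N O O' hOO' z₀) = oMap f O O' hOO' c₀) (hc : c₀ = (p : ↥O) * c)
    (hp0 : (p : K') ≠ 0) {ε₀ : FF K N} (hε₀ : IsUnitAt s₀ ε₀) {Nu : FF K' N}
    (hNu : Nu = ffMap f N ε₀ * (p : FF K' N)) :
    Q.toValuationSubring.valuation Nu = 1 ∧
      ∃ tB eB : K', tB ≠ 0 ∧ IsPU 𝒜 (p : K') eB ∧
        valT Q hQ Nu = (p : K') * tB ^ p * eB ∧
        ∀ σ' : SemilinearAut K' (FF K' N), σ' • Q = Q →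
          (∀ x : ↥(Rfin K N O), σ' • ffMap f N (x : FF K N) = ffMap f N (x : FF K N)) →
          SemilinearAut.baseAut σ' tB = tB :=
  r4a_beta S (isSectionThrough_finMap K K' f N O O' hOO' h 𝒜 h𝒜 s₀ hs₀) hm hfrob
    (exists_valT_psiLevel_eq_mul K K' f N O O' hOO' h 𝒜 h𝒜 hev hc) hp0
    (isUnitAt_psiLevel K K' f N O s₀ hε₀) hNu

/-- `hm` in helper2's shape `(z₀, p)` from helper27's shape `(z₀, ϖ)` when `ϖ ∼ p` (unramified
small level). -/
theorem span_pair_natCast_of_associated {p : ℕ} {ϖ : ↥O} (hϖp : Associated ϖ (p : ↥O))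
    {z₀ : ↥(Rfin K N O)}
    (hmt : maximalIdeal S = Ideal.span {algebraMap ↥(Rfin K N O) S z₀,
      algebraMap ↥(Rfin K N O) S (algebraMap ↥O ↥(Rfin K N O) ϖ)}) :
    maximalIdeal S = Ideal.span {algebraMap ↥(Rfin K N O) S z₀, (p : S)} := by
  obtain ⟨w, hw⟩ := hϖp
  have e : (p : S) = algebraMap ↥(Rfin K N O) S (algebraMap ↥O ↥(Rfin K N O) ϖ) *
      algebraMap ↥(Rfin K N O) S (algebraMap ↥O ↥(Rfin K N O) (w : ↥O)) := by
    rw [← map_mul, ← map_mul, hw, map_natCast, map_natCast]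
  have hwu : IsUnit (algebraMap ↥(Rfin K N O) S (algebraMap ↥O ↥(Rfin K N O) (w : ↥O))) :=
    (w.isUnit.map _).map _
  rw [hmt]
  apply le_antisymm
  · rw [Ideal.span_le]
    rintro x (rfl | rfl)
    · exact Ideal.subset_span (Set.mem_insert _ _)
    · obtain ⟨w', hw'⟩ := hwu.exists_right_inv
      have : algebraMap ↥(Rfin K N O) S (algebraMap ↥O ↥(Rfin K N O) ϖ) = (p : S) * w' := by
        rw [e, mul_assoc, hw', mul_one]
      rw [this]
      exact Ideal.mul_mem_right _ _ (Ideal.subset_span (Set.mem_insert_of_mem _ rfl))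
  · rw [Ideal.span_le]
    rintro x (rfl | rfl)
    · exact Ideal.subset_span (Set.mem_insert _ _)
    · rw [e]
      exact Ideal.mul_mem_right _ _ (Ideal.subset_span (Set.mem_insert_of_mem _ rfl))

end Level

end Fermat.Agent.S40.M1.NormUValSection
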