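/-
S40 / T6′ static route, leaf (R4)(c) "TEST POINTS", (X1)(c) of helper8 #3216 (helper21):
**rationality and avoidance, UNIFORM in the big level.**

The number field `K₁` must be chosen BEFORE the good level `K ⊇ K₁`; the test datum `(z₀, c₀)` and the
functions to be avoided (`g₀`) live at small levels.  Everything is read off the divisors on the
geometric function field `Q̄ · F_N = modularFunctionFieldBar N`.

* `eq_of_ord_sub_pos` : a place is a zero of `Z - c` for at most one constant `c`;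
* `exists_const_avoid`, `exists_const_avoid_finset` (R2) : for `G ≠ 0` (finitely many) and an injective
  sequence of constants `cs`, some `Z - cs n` has no zero in the support of `div G` (independent of
  every level);
* `exists_level_rational` (R1) : for `Y ≠ 0` on `Q̄ · F_N` there is a number field `K₁` such that for every
  subfield `K ⊇ K₁` and every `y ∈ F_K` with `levK y = Y`, all zeros and poles `Q` of `y` are `K`-rational,
  are restrictions of zeros/poles `P` of `Y`, and `ord_P (levK g) = ord_Q g` for all `g ∈ F_K`;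
* ★ `exists_const_level` (R3) : levels `K₀`, `z₀ g₀ ∈ F_{K₀}`, `g₀ ≠ 0`, `cs : ℕ → K₀` injective:
  `∃ n K₁, ∀ K ⊇ K₀ ⊔ K₁, ∀ Q` zero of `ffMap (z₀ - cs n)` : `Q` is `K`-rational and `ord_Q (ffMap g₀) = 0`;
  `exists_const_level₂` : the same with `g₀` at another small level `L₀`;
  ★ `exists_const_level_finset` : the same for a finite set `Gs` of nonzero functions on `Q̄ · F_N`
  (`ord_Q g = 0` for every `g ∈ F_K` with `levK g ∈ Gs`).
-/
import Mathlib
import Fermat.Agent.P3G.Glue.LevelDict
import Fermat.Agent.S19.Cech.LevelBasis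
import Fermat.Agent.N4F.C.LocalMult

set_option autoImplicit false
set_option linter.unusedSectionVars false
set_option linter.style.haveILetI false
set_option linter.style.longLine false

open AlgebraicCurve ModularCurve IntermediateField

noncomputable section

namespace Fermat.Agent.S40.M1.TestPointRat

open Fermat.Agent.N4.Setting Fermat.Agent.S24 Fermat.Agent.N4F.C.Levels
open Fermat.Agent.S24.PlaceDeriv (ResidueTrivial)
open Fermat.Agent.S24.PlaceExtend (mem_iff_ord_nonneg ord_pos_of_mem_nonunits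
  mem_nonunits_of_ord_pos)
open Fermat.Agent.N4F.C.LocalMult (ord_algebraMap)
open Fermat.Agent.P3G.Glue.LevelDict Fermat.Agent.S19.Cech.LevelBasis
open Fermat.Agent.N4.BaseDescent

local notation "Qb" => AlgebraicClosure ℚ

section Generic

variable {K F : Type*} [Field K] [Field F] [Algebra K F]

/-- A place is a zero of `Z - c` for at most one constant `c`. -/
theorem eq_of_ord_sub_pos {v : Place K F} {Z : F} {c c' : K}
    (h : 0 < v.ord (Z - algebraMap K F c)) (h' : 0 < v.ord (Z - algebraMap K F c')) : c = c' := by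
  by_contra hne
  have h0 : Z - algebraMap K F c ≠ 0 := by
    intro h0; rw [h0, Place.ord_zero] at h; exact lt_irrefl _ h
  have h0' : Z - algebraMap K F c' ≠ 0 := by
    intro h0; rw [h0, Place.ord_zero] at h'; exact lt_irrefl _ h'
  have h1 := mem_nonunits_of_ord_pos v h0 h
  have h2 := mem_nonunits_of_ord_pos v h0' h'
  have h3 : (Z - algebraMap K F c) - (Z - algebraMap K F c') = algebraMap K F (c' - c) := by
    rw [map_sub]; ring
  have h4 : algebraMap K F (c' - c) ∈ v.toValuationSubring.nonunits := by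
    rw [← h3]; exact sub_mem h1 h2
  have h5 : c' - c ≠ 0 := fun h0 => hne (sub_eq_zero.1 h0).symm
  have h6 := ord_pos_of_mem_nonunits v ((map_ne_zero _).2 h5) h4
  rw [ord_algebraMap v] at h6
  exact lt_irrefl _ h6

/-- **(R2) Avoidance.**  For finitely many `G ≠ 0` and an injective sequence of constants, some
`Z - cs n` has no zero in the support of any `div G`. -/
theorem exists_const_avoid_finset [HasPrincipalDivisors K F] (Z : F) (Gs : Finset F)
    (hGs : ∀ G ∈ Gs, G ≠ 0) (cs : ℕ → K) (hinj : Function.Injective cs) :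
    ∃ n : ℕ, ∀ P : Place K F, 0 < P.ord (Z - algebraMap K F (cs n)) → ∀ G ∈ Gs, P.ord G = 0 := by
  classical
  have hex : ∀ G : F, ∃ S : Finset (Place K F), G ∈ Gs → ∀ P : Place K F, P.ord G ≠ 0 → P ∈ S := by
    intro G
    by_cases hG : G ∈ Gs
    · obtain ⟨D, hD, -⟩ := HasPrincipalDivisors.exists_divisor (K := K) G (hGs G hG)
      refine ⟨D.support, fun _ P hP => ?_⟩
      rw [Finsupp.mem_support_iff, hD P]
      exact hP
    · exact ⟨∅, fun h => absurd h hG⟩
  choose supp hsupp using hex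
  by_contra hcon
  push Not at hcon
  choose f hf using hcon
  have hfinj : Function.Injective f := fun a b hab =>
    hinj (eq_of_ord_sub_pos (hf a).1 (by rw [hab]; exact (hf b).1))
  obtain ⟨P, ⟨n, rfl⟩, hP⟩ :=
    (Set.infinite_range_of_injective hfinj).exists_notMem_finset (Gs.biUnion supp)
  obtain ⟨G, hG, hne⟩ := (hf n).2
  exact hP (Finset.mem_biUnion.2 ⟨G, hG, hsupp G hG _ hne⟩)

/-- **(R2) Avoidance**, one function. -/
theorem exists_const_avoid [HasPrincipalDivisors K F] (Z G : F) (hG : G ≠ 0) (cs : ℕ → K)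
    (hinj : Function.Injective cs) :
    ∃ n : ℕ, ∀ P : Place K F, 0 < P.ord (Z - algebraMap K F (cs n)) → P.ord G = 0 := by
  classical
  obtain ⟨n, hn⟩ := exists_const_avoid_finset Z {G} (fun G' hG' => by
    rw [Finset.mem_singleton] at hG'; rw [hG']; exact hG) cs hinj
  exact ⟨n, fun P hP => hn P hP G (Finset.mem_singleton_self G)⟩

end Generic

section Level

variable (N : ℕ) [NeZero N]

/-- **(R1) Uniform rationality.**  For `Y ≠ 0` on `Q̄ · F_N` there is a number field `K₁` such that for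
every `K ⊇ K₁` and every `y ∈ F_K` with `levK y = Y`, every zero or pole `Q` of `y` is `K`-rational, and is
the restriction of a zero or pole `P` of `Y` along which orders are preserved. -/
theorem exists_level_rational (Y : ↥(modularFunctionFieldBar N)) (hY : Y ≠ 0) :
    ∃ K₁ : IntermediateField ℚ Qb, FiniteDimensional ℚ K₁ ∧
      ∀ K : IntermediateField ℚ Qb, K₁ ≤ K → ∀ y : FF (Lvl K) N, levK N K y = Y →
        ∀ Q : Place (Lvl K) (FF (Lvl K) N), Q.ord y ≠ 0 →
          Function.Bijective (algebraMap (Lvl K) Q.ResidueField) ∧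
          ∃ P : Place Qb ↥(modularFunctionFieldBar N), P.ord Y ≠ 0 ∧ Q = restrictK N K P ∧
            ∀ g : FF (Lvl K) N, P.ord (levK N K g) = Q.ord g := by
  classical
  haveI := Fermat.Agent.N4F.A.LevelMaps.hasPrincipalDivisors_bar N
  obtain ⟨D, hD, -⟩ := HasPrincipalDivisors.exists_divisor (K := Qb) Y hY
  obtain ⟨K₁, hfin, hK₁⟩ := exists_finiteDimensional_level N ∅ D.support
  refine ⟨K₁, hfin, fun K hK y hy Q hQ => ?_⟩
  have hrat : ∀ P : Place Qb ↥(modularFunctionFieldBar N), P.ord (levK N K y) ≠ 0 →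
      ResidueTrivial (restrictK N K P) := fun P hP => by
    refine (hK₁ K hK).2 P ?_
    rw [Finsupp.mem_support_iff, hD P, ← hy]
    exact hP
  obtain ⟨hres, P, hP, hQP⟩ := residueTrivial_of_ord_ne_zeroK N K y hrat Q hQ
  refine ⟨bijective_of_residueTrivial hres, P, by rw [← hy]; exact hP, hQP, fun g => ?_⟩
  subst hQP
  exact ord_levK_restrictK N K P hres g

variable {K₀ : IntermediateField ℚ Qb}

/-- **(R3) Test constant and level, uniformly — general form.**  `z₀` a function at the small level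
`K₀`, `Gs` finitely many nonzero functions on `Q̄ · F_N`, `cs` an injective sequence of constants of
`K₀`.  There are `n` and a number field `K₁` such that at every level `K ⊇ K₀ ⊔ K₁` every zero `Q` of
`z₀ - cs n` is `K`-rational and `ord_Q g = 0` for every `g ∈ F_K` with `levK g ∈ Gs`. -/
theorem exists_const_level_finset (z₀ : FF (Lvl K₀) N)
    (Gs : Finset ↥(modularFunctionFieldBar N)) (hGs : ∀ G ∈ Gs, G ≠ 0) (cs : ℕ → Lvl K₀)
    (hinj : Function.Injective cs) :
    ∃ (n : ℕ) (K₁ : IntermediateField ℚ Qb), FiniteDimensional ℚ K₁ ∧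
      ∀ (K : IntermediateField ℚ Qb) (h : K₀ ≤ K), K₁ ≤ K →
        ∀ Q : Place (Lvl K) (FF (Lvl K) N),
          0 < Q.ord (ffMap (lvlIncl h) N z₀ -
            algebraMap (Lvl K) (FF (Lvl K) N) (lvlIncl h (cs n))) →
          Function.Bijective (algebraMap (Lvl K) Q.ResidueField) ∧
            ∀ g : FF (Lvl K) N, levK N K g ∈ Gs → Q.ord g = 0 := by
  classical
  haveI := Fermat.Agent.N4F.A.LevelMaps.hasPrincipalDivisors_bar N
  have hinj' : Function.Injective fun n => algebraMap (Lvl K₀) Qb (cs n) :=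
    (algebraMap (Lvl K₀) Qb).injective.comp hinj
  obtain ⟨n, hn⟩ := exists_const_avoid_finset (K := Qb) (levK N K₀ z₀) Gs hGs _ hinj'
  refine ⟨n, ?_⟩
  have hY : levK N K₀ (z₀ - algebraMap (Lvl K₀) (FF (Lvl K₀) N) (cs n)) =
      levK N K₀ z₀ - algebraMap Qb ↥(modularFunctionFieldBar N) (algebraMap (Lvl K₀) Qb (cs n)) := by
    rw [map_sub, AlgHom.commutes, ← IsScalarTower.algebraMap_apply]
  by_cases h0 : z₀ - algebraMap (Lvl K₀) (FF (Lvl K₀) N) (cs n) = 0
  · refine ⟨⊥, inferInstance, fun K h _ Q hQ => ?_⟩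
    exfalso
    have : ffMap (lvlIncl h) N z₀ - algebraMap (Lvl K) (FF (Lvl K) N) (lvlIncl h (cs n)) = 0 := by
      rw [← ffMap_algebraMap, ← map_sub, h0, map_zero]
    rw [this, Place.ord_zero] at hQ
    exact lt_irrefl _ hQ
  · have hY0 : levK N K₀ (z₀ - algebraMap (Lvl K₀) (FF (Lvl K₀) N) (cs n)) ≠ 0 :=
      (_root_.map_ne_zero _).2 h0
    obtain ⟨K₁, hfin, hK₁⟩ := exists_level_rational N _ hY0
    refine ⟨K₁, hfin, fun K h hK Q hQ => ?_⟩
    have hy : levK N K (ffMap (lvlIncl h) N z₀ -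
        algebraMap (Lvl K) (FF (Lvl K) N) (lvlIncl h (cs n))) =
        levK N K₀ (z₀ - algebraMap (Lvl K₀) (FF (Lvl K₀) N) (cs n)) := by
      rw [← ffMap_algebraMap, ← map_sub, levK_ffMap]
    obtain ⟨hbij, P, hP, -, hord⟩ := hK₁ K hK _ hy Q (ne_of_gt hQ)
    refine ⟨hbij, fun g hg => ?_⟩
    rw [← hord]
    apply hn P _ _ hg
    rw [← hY, ← hy, hord]
    exact hQ

/-- **(R3)**, one function `g₀` at a second small level `L₀`. -/
theorem exists_const_level₂ {L₀ : IntermediateField ℚ Qb} (z₀ : FF (Lvl K₀) N)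
    (g₀ : FF (Lvl L₀) N) (hg₀ : g₀ ≠ 0) (cs : ℕ → Lvl K₀) (hinj : Function.Injective cs) :
    ∃ (n : ℕ) (K₁ : IntermediateField ℚ Qb), FiniteDimensional ℚ K₁ ∧
      ∀ (K : IntermediateField ℚ Qb) (h : K₀ ≤ K) (h' : L₀ ≤ K), K₁ ≤ K →
        ∀ Q : Place (Lvl K) (FF (Lvl K) N),
          0 < Q.ord (ffMap (lvlIncl h) N z₀ -
            algebraMap (Lvl K) (FF (Lvl K) N) (lvlIncl h (cs n))) →
          Function.Bijective (algebraMap (Lvl K) Q.ResidueField) ∧
            Q.ord (ffMap (lvlIncl h') N g₀) = 0 := by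
  classical
  obtain ⟨n, K₁, hfin, hK₁⟩ := exists_const_level_finset N z₀ {levK N L₀ g₀} (fun G hG => by
    rw [Finset.mem_singleton] at hG; rw [hG]; exact (_root_.map_ne_zero _).2 hg₀) cs hinj
  refine ⟨n, K₁, hfin, fun K h h' hK Q hQ => ?_⟩
  obtain ⟨hbij, hg⟩ := hK₁ K h hK Q hQ
  exact ⟨hbij, hg _ (by rw [levK_ffMap]; exact Finset.mem_singleton_self _)⟩

/-- **(R3)**, one function `g₀` at the same small level. -/
theorem exists_const_level (z₀ g₀ : FF (Lvl K₀) N) (hg₀ : g₀ ≠ 0) (cs : ℕ → Lvl K₀)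
    (hinj : Function.Injective cs) :
    ∃ (n : ℕ) (K₁ : IntermediateField ℚ Qb), FiniteDimensional ℚ K₁ ∧
      ∀ (K : IntermediateField ℚ Qb) (h : K₀ ≤ K), K₁ ≤ K →
        ∀ Q : Place (Lvl K) (FF (Lvl K) N),
          0 < Q.ord (ffMap (lvlIncl h) N z₀ -
            algebraMap (Lvl K) (FF (Lvl K) N) (lvlIncl h (cs n))) →
          Function.Bijective (algebraMap (Lvl K) Q.ResidueField) ∧
            Q.ord (ffMap (lvlIncl h) N g₀) = 0 := by
  obtain ⟨n, K₁, hfin, hK₁⟩ := exists_const_level₂ N z₀ g₀ hg₀ cs hinj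
  exact ⟨n, K₁, hfin, fun K h hK Q hQ => hK₁ K h h hK Q hQ⟩

end Level

end Fermat.Agent.S40.M1.TestPointRat
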