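/-
S40 / T6′ static route, leaf (R4)(c)/(D7) "TEST POINTS", two levels `K₁ ≤ L` of `Q̄` (helper21):
**the test point at the big level `L` with local parameter `z₀` and constant `c₀` from the small level
`K₁`**, and its form UNIFORM in `L` ((X1)(c) of helper8 #3216).

S19 `LevelBasis` vocabulary (`finIncl A N hKL`, `baseMapIncl A hKL`, `LevelPack A N ·`) as in helper27's
`SmoothPoint` (whose `gen_finMap` gives (D2) at the big level).

* `thetaFin_finIncl_ne_zero` : a local parameter of the small level does not vanish on the special fibre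
  of the big level;
* ★ `exists_testPoint_finIncl` : `𝔪'` a closed point of the special fibre of the finite chart of level `N`
  over `O_L`, `z₀` a local parameter at `𝔪'.comap finIncl`, `c₀ ∈ π₁ O_{K₁}`, rational zeros ⇒ the test
  section `h` with `centre h = 𝔪'`, `ev h (finIncl z₀) = baseMapIncl c₀`, `ker (evLocAlg h) = (z - c)`,
  `ord = 1`, uniqueness;
* ★★ `exists_testPoint_uniform` : `∃ n K₁', ∀ L ⊇ K₁ ⊔ K₁'` (with a `LevelPack`), `∀ 𝔪'` over which `z₀` is a
  local parameter: the test section for `c₀ := cs n`, and `ord_Q g = 0` for all `g ∈ F_L` with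
  `levK g ∈ Gs` (a given finite set of nonzero functions on `Q̄ · F_N`).
-/
import Mathlib
import Fermat.Agent.S40.M1.TestPointLevel
import Fermat.Agent.S40.M1.TestPointRat
import Fermat.Agent.S40.M1.SmoothPoint

set_option autoImplicit false
set_option linter.unusedSectionVars false
set_option linter.style.haveILetI false
set_option linter.style.longLine false

open ModularCurve Fermat.Agent.N4.Setting Fermat.Agent.N4.FibreEmbedding
open Fermat.Agent.N4.Chart IsLocalRing Fermat.Agent.P3G.RbarFin Fermat.Agent.P3G AlgebraicCurve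
open Fermat.Agent.S40.M1.AlphaNodeLevel Fermat.Agent.S19.Cech.LevelBasis
open Fermat.Agent.N4.BaseDescent
open Fermat.Agent.N4F.C Fermat.Agent.N4F.C.Levels Fermat.Agent.N4F.C.LevelCharts
  Fermat.Agent.N4F.C.ChartFactsProof

noncomputable section

namespace Fermat.Agent.S40.M1.TestPointUp

open Fermat.Agent.G.Points Fermat.Agent.G.PointsLoc Fermat.Agent.P3G.UCrit
open Fermat.Agent.S40.M1.SmoothPoint Fermat.Agent.S40.M1.TestPointLevel
  Fermat.Agent.S40.M1.TestPointRat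

local notation "Qb" => AlgebraicClosure ℚ

variable (A : ValuationSubring Qb) (N : ℕ) [NeZero N]
  {K₁ L : IntermediateField ℚ Qb} (hKL : K₁ ≤ L)
  [IsDiscreteValuationRing ↥(baseRing A K₁)] [IsDiscreteValuationRing ↥(baseRing A L)]
  [IsFractionRing ↥(baseRing A K₁) (Lvl K₁)] [IsFractionRing ↥(baseRing A L) (Lvl L)]
  (P₁ : LevelPack A N K₁) (P₂ : LevelPack A N L)

include P₁ P₂ in
/-- An element of the small level which does not vanish on the special fibre does not vanish on the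
special fibre of the big level. -/
theorem thetaFin_finIncl_ne_zero {π₁ : ↥(baseRing A K₁)} (hπ₁ : Irreducible π₁)
    {π₂ : ↥(baseRing A L)} (hπ₂ : Irreducible π₂) {z₀ : ↥(Rfin (Lvl K₁) N (baseRing A K₁))}
    (hz₀ : thetaFin (Lvl K₁) N (baseRing A K₁) z₀ ≠ 0) :
    thetaFin (Lvl L) N (baseRing A L) (finIncl A N hKL z₀) ≠ 0 := by
  intro h0
  apply hz₀
  have h1 : finIncl A N hKL z₀ ∈ RingHom.ker (thetaFin (Lvl L) N (baseRing A L)) := h0
  rw [ker_thetaFin (Lvl L) N (baseRing A L) P₂.primeFin,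
    fibreIdeal_eq_span (Lvl L) N (baseRing A L) hπ₂] at h1
  obtain ⟨y, hy⟩ := Ideal.mem_span_singleton'.1 h1
  have h2 : thFin A N L P₂ (finIncl A N hKL z₀) = 0 := by
    rw [← hy, map_mul, thFin_algebraMap_irreducible A N L P₂ hπ₂, mul_zero]
  rw [thFin_finIncl A N hKL P₁ P₂] at h2
  have h3 := mem_span_of_thFin_eq_zero A N K₁ P₁ hπ₁ z₀ h2
  have h4 : z₀ ∈ RingHom.ker (thetaFin (Lvl K₁) N (baseRing A K₁)) := by
    rw [ker_thetaFin (Lvl K₁) N (baseRing A K₁) P₁.primeFin,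
      fibreIdeal_eq_span (Lvl K₁) N (baseRing A K₁) hπ₁]
    exact h3
  exact h4

include P₁ P₂ in
/-- **(D7), two levels.**  The test section at the big level `L` through a closed point `𝔪'` of the special
fibre, with local parameter `finIncl z₀` and constant `baseMapIncl c₀` coming from the small level. -/
theorem exists_testPoint_finIncl {π₁ : ↥(baseRing A K₁)} (hπ₁ : Irreducible π₁)
    {π₂ : ↥(baseRing A L)} (hπ₂ : Irreducible π₂)
    (𝔪' : Ideal ↥(Rfin (Lvl L) N (baseRing A L))) [𝔪'.IsMaximal]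
    (hπ𝔪 : algebraMap ↥(baseRing A L) ↥(Rfin (Lvl L) N (baseRing A L)) π₂ ∈ 𝔪')
    {z₀ : ↥(Rfin (Lvl K₁) N (baseRing A K₁))}
    (hz : th (Lvl K₁) N (baseRing A K₁) z₀ ∈
      (𝔪'.comap (finIncl A N hKL)).map (th (Lvl K₁) N (baseRing A K₁)))
    (hz2 : th (Lvl K₁) N (baseRing A K₁) z₀ ∉
      ((𝔪'.comap (finIncl A N hKL)).map (th (Lvl K₁) N (baseRing A K₁))) ^ 2)
    {c₀ : ↥(baseRing A K₁)} (hc₀ : π₁ ∣ c₀)
    (hrat : ∀ Q : Place (Lvl L) (FF (Lvl L) N),
      0 < Q.ord (ffMap (lvlIncl hKL) N (z₀ : FF (Lvl K₁) N) -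
        algebraMap (Lvl L) (FF (Lvl L) N) (lvlIncl hKL (c₀ : Lvl K₁))) →
      Function.Bijective (algebraMap (Lvl L) Q.ResidueField)) :
    ∃ (Q : Place (Lvl L) (FF (Lvl L) N))
      (hQ : Function.Bijective (algebraMap (Lvl L) Q.ResidueField))
      (h : IsSection (Rfin (Lvl L) N (baseRing A L)) Q hQ), Q ∈ centredSet (Lvl L) 𝔪' ∧
        centre h = 𝔪' ∧ ev h (finIncl A N hKL z₀) = baseMapIncl A hKL c₀ ∧
        Q.ord (ffMap (lvlIncl hKL) N (z₀ : FF (Lvl K₁) N) -
          algebraMap (Lvl L) (FF (Lvl L) N) (lvlIncl hKL (c₀ : Lvl K₁))) = 1 ∧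
        (∀ x : ↥(locAlg (Rfin (Lvl L) N (baseRing A L)) (centre h)), evLocAlg h x = 0 →
          ∃ q : ↥(locAlg (Rfin (Lvl L) N (baseRing A L)) (centre h)),
            x = q * (algebraMap ↥(Rfin (Lvl L) N (baseRing A L))
                ↥(locAlg (Rfin (Lvl L) N (baseRing A L)) (centre h)) (finIncl A N hKL z₀) -
              algebraMap ↥(baseRing A L) ↥(locAlg (Rfin (Lvl L) N (baseRing A L)) (centre h))
                (baseMapIncl A hKL c₀))) ∧
        ∀ Q' : Place (Lvl L) (FF (Lvl L) N), Q' ∈ centredSet (Lvl L) 𝔪' →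
          0 < Q'.ord (ffMap (lvlIncl hKL) N (z₀ : FF (Lvl K₁) N) -
            algebraMap (Lvl L) (FF (Lvl L) N) (lvlIncl hKL (c₀ : Lvl K₁))) → Q' = Q := by
  haveI : 𝔪'.IsPrime := Ideal.IsMaximal.isPrime ‹_›
  have hdvd : π₂ ∣ baseMapIncl A hKL π₁ := dvd_baseMapIncl_irreducible A hKL hπ₁ hπ₂
  have hgen := gen_finMap (Lvl K₁) (Lvl L) (lvlIncl hKL) N (baseRing A K₁) (baseRing A L)
    (lvlIncl_mem A hKL) P₁.primeFin P₁.dedFin hπ₁ hdvd
    (exists_finIncl_sub_mem_span A N hKL P₁ P₂ hπ₂) 𝔪' hπ𝔪 hz hz2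
  -- `z₀` does not vanish on the special fibre
  have hz₀ : thetaFin (Lvl K₁) N (baseRing A K₁) z₀ ≠ 0 := by
    intro h0
    apply hz2
    have : th (Lvl K₁) N (baseRing A K₁) z₀ = 0 := Subtype.ext h0
    rw [this]
    exact Ideal.zero_mem _
  have hz0 := thetaFin_finIncl_ne_zero A N hKL P₁ P₂ hπ₁ hπ₂ hz₀
  -- `finIncl z₀ ∈ 𝔪'`
  have hπ₀ : algebraMap ↥(baseRing A K₁) ↥(Rfin (Lvl K₁) N (baseRing A K₁)) π₁ ∈
      𝔪'.comap (finIncl A N hKL) := by
    rw [Ideal.mem_comap]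
    obtain ⟨e, he⟩ := hdvd
    have h1 : finIncl A N hKL (algebraMap ↥(baseRing A K₁) ↥(Rfin (Lvl K₁) N (baseRing A K₁)) π₁) =
        algebraMap ↥(baseRing A L) ↥(Rfin (Lvl L) N (baseRing A L)) (baseMapIncl A hKL π₁) := by
      apply Subtype.ext
      rw [coe_finMap]
      exact ffMap_algebraMap_base (lvlIncl hKL) N (baseRing A K₁) (baseRing A L)
        (lvlIncl_mem A hKL) π₁
    rw [h1, he, map_mul]
    exact 𝔪'.mul_mem_right _ hπ𝔪
  have hz𝔪 : finIncl A N hKL z₀ ∈ 𝔪' :=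
    Ideal.mem_comap.1 (mem_of_th_mem (Lvl K₁) N (baseRing A K₁) P₁.primeFin hπ₁ _ hπ₀ hz)
  have hc : π₂ ∣ baseMapIncl A hKL c₀ := by
    obtain ⟨e, rfl⟩ := hc₀
    rw [map_mul]
    exact Dvd.dvd.mul_right hdvd _
  exact exists_testPoint (Lvl L) N (baseRing A L) P₂.primeFin hπ₂ 𝔪' hπ𝔪 (finIncl A N hKL z₀) hz𝔪
    hz0 hgen hc hrat

omit [IsDiscreteValuationRing ↥(baseRing A L)] [IsFractionRing ↥(baseRing A L) (Lvl L)] in
include P₁ in
/-- **(D7), uniform in the big level ((X1)(c)).**  `z₀` a function of the finite chart at the small level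
`K₁`, `cs` an injective sequence in `π₁ O_{K₁}`, `Gs` finitely many nonzero functions on `Q̄ · F_N`.  There are
`n` and a number field `K₁'` such that for EVERY level `L ⊇ K₁ ⊔ K₁'` (with a `LevelPack`) and EVERY closed
point `𝔪'` of the special fibre at which `z₀` is a local parameter, the test section with constant `cs n`
exists, and its place is neither a zero nor a pole of any `g ∈ F_L` with `levK g ∈ Gs`. -/
theorem exists_testPoint_uniform {π₁ : ↥(baseRing A K₁)} (hπ₁ : Irreducible π₁)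
    (z₀ : ↥(Rfin (Lvl K₁) N (baseRing A K₁)))
    (Gs : Finset ↥(modularFunctionFieldBar N)) (hGs : ∀ G ∈ Gs, G ≠ 0)
    (cs : ℕ → ↥(baseRing A K₁)) (hcs : ∀ n, π₁ ∣ cs n) (hinj : Function.Injective cs) :
    ∃ (n : ℕ) (K₁' : IntermediateField ℚ Qb), FiniteDimensional ℚ K₁' ∧
      ∀ (L : IntermediateField ℚ Qb) (hKL : K₁ ≤ L), K₁' ≤ L →
        ∀ [IsDiscreteValuationRing ↥(baseRing A L)] [IsFractionRing ↥(baseRing A L) (Lvl L)]
          (_ : LevelPack A N L) {π₂ : ↥(baseRing A L)} (_ : Irreducible π₂)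
          (𝔪' : Ideal ↥(Rfin (Lvl L) N (baseRing A L))) [𝔪'.IsMaximal]
          (_ : algebraMap ↥(baseRing A L) ↥(Rfin (Lvl L) N (baseRing A L)) π₂ ∈ 𝔪')
          (_ : th (Lvl K₁) N (baseRing A K₁) z₀ ∈
            (𝔪'.comap (finIncl A N hKL)).map (th (Lvl K₁) N (baseRing A K₁)))
          (_ : th (Lvl K₁) N (baseRing A K₁) z₀ ∉
            ((𝔪'.comap (finIncl A N hKL)).map (th (Lvl K₁) N (baseRing A K₁))) ^ 2),
          ∃ (Q : Place (Lvl L) (FF (Lvl L) N))
            (hQ : Function.Bijective (algebraMap (Lvl L) Q.ResidueField))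
            (h : IsSection (Rfin (Lvl L) N (baseRing A L)) Q hQ), Q ∈ centredSet (Lvl L) 𝔪' ∧
              centre h = 𝔪' ∧ ev h (finIncl A N hKL z₀) = baseMapIncl A hKL (cs n) ∧
              Q.ord (ffMap (lvlIncl hKL) N (z₀ : FF (Lvl K₁) N) -
                algebraMap (Lvl L) (FF (Lvl L) N) (lvlIncl hKL (cs n : Lvl K₁))) = 1 ∧
              (∀ x : ↥(locAlg (Rfin (Lvl L) N (baseRing A L)) (centre h)), evLocAlg h x = 0 →
                ∃ q : ↥(locAlg (Rfin (Lvl L) N (baseRing A L)) (centre h)),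
                  x = q * (algebraMap ↥(Rfin (Lvl L) N (baseRing A L))
                      ↥(locAlg (Rfin (Lvl L) N (baseRing A L)) (centre h)) (finIncl A N hKL z₀) -
                    algebraMap ↥(baseRing A L)
                      ↥(locAlg (Rfin (Lvl L) N (baseRing A L)) (centre h))
                      (baseMapIncl A hKL (cs n)))) ∧
              (∀ Q' : Place (Lvl L) (FF (Lvl L) N), Q' ∈ centredSet (Lvl L) 𝔪' →
                0 < Q'.ord (ffMap (lvlIncl hKL) N (z₀ : FF (Lvl K₁) N) -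
                  algebraMap (Lvl L) (FF (Lvl L) N) (lvlIncl hKL (cs n : Lvl K₁))) → Q' = Q) ∧
              ∀ g : FF (Lvl L) N, levK N L g ∈ Gs → Q.ord g = 0 := by
  obtain ⟨n, K₁', hfin, hK⟩ := exists_const_level_finset N (z₀ : FF (Lvl K₁) N) Gs hGs
    (fun n => ((cs n : ↥(baseRing A K₁)) : Lvl K₁)) (Subtype.val_injective.comp hinj)
  refine ⟨n, K₁', hfin, fun L hKL hK₁' _ _ P₂ π₂ hπ₂ 𝔪' _ hπ𝔪 hz hz2 => ?_⟩
  obtain ⟨Q, hQ, h, h1, h2, h3, h4, h5, h6⟩ :=
    exists_testPoint_finIncl A N hKL P₁ P₂ hπ₁ hπ₂ 𝔪' hπ𝔪 hz hz2 (hcs n)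
      (fun Q hQ => (hK L hKL hK₁' Q hQ).1)
  exact ⟨Q, hQ, h, h1, h2, h3, h4, h5, h6,
    (hK L hKL hK₁' Q (by rw [h4]; exact one_pos)).2⟩

end Fermat.Agent.S40.M1.TestPointUp
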