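/-
S40 / T6′ static route, leaf (R4), referee flag (X1)(c) of dispatch #3216 / #3258 (e) (helper29):
**the test places, UNIFORMLY over all big levels and all crossing points.**

`K₀` a small level with a `LevelPack` (in the application the unramified level), `zα zβ` two
families of functions of the finite chart of level `N` over `O_{K₀}`, indexed by the ideals `𝔫₀` of the
finite chart of level `N p` over `O_{K₀}` (in the application: local parameters at `α(𝔫₀)`, `β(𝔫₀)`,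
`𝔫₀` a crossing point), `cs` an injective sequence in `π₁ O_{K₀}` (`cs n = p ^ (n + 1)`), `Gs` a
finite set of nonzero functions on `Q̄ · F_N`.

* `TestPlace A N hKL z₀ c₀ Gs 𝔪'` : the conclusion of helper21's `TestPointUp.exists_testPoint_uniform`
  (a rational place `Q`, section of the chart, `centre = 𝔪'`, `ev (finIncl z₀) = c₀`, `ord = 1`,
  kernel clause, uniqueness, `ord_Q g = 0` for `levK g ∈ Gs`);
* `SideData`, `sideData_mono`, `exists_sideData` : the per-function statement, monotone in the number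
  field;
* ★ `exists_level_testPlaces` : ONE number field `K₁` such that for every level `K ⊇ K₀, K₁`
  (discrete valuation ring, algebraically closed residue field) and every crossing point `𝔫` of the
  finite chart of level `N p` over `O_K`, with `𝔫₀ := 𝔫.comap finIncl`: constants `nα nβ` and, for every
  closed point `𝔪'` of the special fibre of the level-`N` chart at which `zα 𝔫₀` (resp. `zβ 𝔫₀`) is a
  local parameter, the test place;
* ★ `exists_level_testPlaces_crossing` : the same at `𝔪' := α(𝔫)`, `β(𝔫)`, with the local-parameter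
  hypotheses stated at the small level (`α₀(𝔫₀)`, `β₀(𝔫₀)`).
-/
import Mathlib
import Fermat.Agent.S40.M1.TestPointUp
import Fermat.Agent.S40.M1.SSFinite

set_option autoImplicit false
set_option linter.unusedSectionVars false
set_option linter.unusedVariables false
set_option linter.style.haveILetI false
set_option linter.style.longLine false
set_option synthInstance.maxHeartbeats 400000
set_option maxHeartbeats 800000

open ModularCurve Fermat.Agent.N4.Setting Fermat.Agent.N4.FibreEmbedding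
open Fermat.Agent.N4.Chart IsLocalRing Fermat.Agent.P3G.RbarFin Fermat.Agent.P3G AlgebraicCurve
open Fermat.Agent.S40.M1.AlphaNodeLevel Fermat.Agent.S19.Cech.LevelBasis
open Fermat.Agent.N4.BaseDescent Fermat.Agent.P3G.LevelIntegrality
open Fermat.Agent.N4F.C Fermat.Agent.N4F.C.Levels Fermat.Agent.N4F.C.LevelCharts
  Fermat.Agent.N4F.C.ChartFactsProof

noncomputable section

namespace Fermat.Agent.S40.M1.R4Uniform

open Fermat.Agent.G.Points Fermat.Agent.G.PointsLoc Fermat.Agent.P3G.UCrit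
open Fermat.Agent.S40.M1.SmoothPoint Fermat.Agent.S40.M1.TestPointUp
  Fermat.Agent.S40.M1.SSFinite Fermat.Agent.P3G.FibreTwo

local notation "Qb" => AlgebraicClosure ℚ

/-! ### The test place -/

section Def

variable (A : ValuationSubring Qb) (N : ℕ) [NeZero N]
  {K₁ L : IntermediateField ℚ Qb} (hKL : K₁ ≤ L)
  [IsDiscreteValuationRing ↥(baseRing A K₁)] [IsDiscreteValuationRing ↥(baseRing A L)]
  [IsFractionRing ↥(baseRing A K₁) (Lvl K₁)] [IsFractionRing ↥(baseRing A L) (Lvl L)]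

/-- **The test place** at the closed point `𝔪'` of the special fibre of the finite chart of level `N`
over `O_L`, with local parameter `finIncl z₀` and constant `baseMapIncl c₀` from the small level `K₁`:
the conclusion of `TestPointUp.exists_testPoint_uniform`. -/
def TestPlace (z₀ : ↥(Rfin (Lvl K₁) N (baseRing A K₁))) (c₀ : ↥(baseRing A K₁))
    (Gs : Finset ↥(modularFunctionFieldBar N))
    (𝔪' : Ideal ↥(Rfin (Lvl L) N (baseRing A L))) : Prop :=
  ∃ (Q : Place (Lvl L) (FF (Lvl L) N))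
    (hQ : Function.Bijective (algebraMap (Lvl L) Q.ResidueField))
    (h : IsSection (Rfin (Lvl L) N (baseRing A L)) Q hQ), Q ∈ centredSet (Lvl L) 𝔪' ∧
      centre h = 𝔪' ∧ ev h (finIncl A N hKL z₀) = baseMapIncl A hKL c₀ ∧
      Q.ord (ffMap (lvlIncl hKL) N (z₀ : FF (Lvl K₁) N) -
        algebraMap (Lvl L) (FF (Lvl L) N) (lvlIncl hKL (c₀ : Lvl K₁))) = 1 ∧
      (∀ x : ↥(locAlg (Rfin (Lvl L) N (baseRing A L)) (centre h)), evLocAlg h x = 0 →
        ∃ q : ↥(locAlg (Rfin (Lvl L) N (baseRing A L)) (centre h)),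
          x = q * (algebraMap ↥(Rfin (Lvl L) N (baseRing A L))
              ↥(locAlg (Rfin (Lvl L) N (baseRing A L)) (centre h)) (finIncl A N hKL z₀) -
            algebraMap ↥(baseRing A L)
              ↥(locAlg (Rfin (Lvl L) N (baseRing A L)) (centre h))
              (baseMapIncl A hKL c₀))) ∧
      (∀ Q' : Place (Lvl L) (FF (Lvl L) N), Q' ∈ centredSet (Lvl L) 𝔪' →
        0 < Q'.ord (ffMap (lvlIncl hKL) N (z₀ : FF (Lvl K₁) N) -
          algebraMap (Lvl L) (FF (Lvl L) N) (lvlIncl hKL (c₀ : Lvl K₁))) → Q' = Q) ∧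
      ∀ g : FF (Lvl L) N, levK N L g ∈ Gs → Q.ord g = 0

end Def

/-! ### One function of the small level -/

section Side

variable (A : ValuationSubring Qb) (N : ℕ) [NeZero N]
  {K₁ : IntermediateField ℚ Qb}
  [IsDiscreteValuationRing ↥(baseRing A K₁)] [IsFractionRing ↥(baseRing A K₁) (Lvl K₁)]

/-- The test places with local parameter `z₀` exist, with ONE constant `cs n`, at all levels
`L ⊇ K₁, K₁'` and all closed points at which `z₀` is a local parameter. -/
def SideData (z₀ : ↥(Rfin (Lvl K₁) N (baseRing A K₁)))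
    (Gs : Finset ↥(modularFunctionFieldBar N)) (cs : ℕ → ↥(baseRing A K₁))
    (K₁' : IntermediateField ℚ Qb) : Prop :=
  ∃ n : ℕ, ∀ (L : IntermediateField ℚ Qb) (hKL : K₁ ≤ L), K₁' ≤ L →
    ∀ [IsDiscreteValuationRing ↥(baseRing A L)] [IsFractionRing ↥(baseRing A L) (Lvl L)]
      (_ : LevelPack A N L) {π₂ : ↥(baseRing A L)} (_ : Irreducible π₂)
      (𝔪' : Ideal ↥(Rfin (Lvl L) N (baseRing A L))) [𝔪'.IsMaximal]
      (_ : algebraMap ↥(baseRing A L) ↥(Rfin (Lvl L) N (baseRing A L)) π₂ ∈ 𝔪')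
      (_ : th (Lvl K₁) N (baseRing A K₁) z₀ ∈
        (𝔪'.comap (finIncl A N hKL)).map (th (Lvl K₁) N (baseRing A K₁)))
      (_ : th (Lvl K₁) N (baseRing A K₁) z₀ ∉
        ((𝔪'.comap (finIncl A N hKL)).map (th (Lvl K₁) N (baseRing A K₁))) ^ 2),
      TestPlace A N hKL z₀ (cs n) Gs 𝔪'

variable {A N}

theorem sideData_mono {z₀ : ↥(Rfin (Lvl K₁) N (baseRing A K₁))}
    {Gs : Finset ↥(modularFunctionFieldBar N)} {cs : ℕ → ↥(baseRing A K₁)}
    {E₁ E₂ : IntermediateField ℚ Qb} (hE : E₁ ≤ E₂) (h : SideData A N z₀ Gs cs E₁) :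
    SideData A N z₀ Gs cs E₂ := by
  obtain ⟨n, hn⟩ := h
  exact ⟨n, fun L hKL hL => hn L hKL (hE.trans hL)⟩

variable (A N)

/-- helper21's `exists_testPoint_uniform`, repackaged. -/
theorem exists_sideData (P₁ : LevelPack A N K₁) {π₁ : ↥(baseRing A K₁)} (hπ₁ : Irreducible π₁)
    (z₀ : ↥(Rfin (Lvl K₁) N (baseRing A K₁)))
    (Gs : Finset ↥(modularFunctionFieldBar N)) (hGs : ∀ G ∈ Gs, G ≠ 0)
    (cs : ℕ → ↥(baseRing A K₁)) (hcs : ∀ n, π₁ ∣ cs n) (hinj : Function.Injective cs) :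
    ∃ K₁' : IntermediateField ℚ Qb, FiniteDimensional ℚ K₁' ∧ SideData A N z₀ Gs cs K₁' := by
  obtain ⟨n, K₁', hfin, h⟩ := exists_testPoint_uniform A N P₁ hπ₁ z₀ Gs hGs cs hcs hinj
  exact ⟨K₁', hfin, n, fun L hKL hL _ _ P₂ π₂ hπ₂ 𝔪' _ hπ𝔪 hz hz2 =>
    h L hKL hL P₂ hπ₂ 𝔪' hπ𝔪 hz hz2⟩

end Side

/-! ### The finite sup over the crossing points of the small level -/

section Uniform

variable (A : ValuationSubring Qb) (N : ℕ) [NeZero N] (p : ℕ) [hp : Fact p.Prime]
  {K₀ : IntermediateField ℚ Qb}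
  [IsDiscreteValuationRing ↥(baseRing A K₀)] [IsFractionRing ↥(baseRing A K₀) (Lvl K₀)]
  [CharP (IsLocalRing.ResidueField ↥(baseRing A K₀)) p]
  [PerfectRing (IsLocalRing.ResidueField ↥(baseRing A K₀)) p]

/-- ★ **The test places, uniformly.**  One number field `K₁` serves all levels `K ⊇ K₀, K₁` and all
crossing points `𝔫` of `K`; the constants `cs nα`, `cs nβ` depend on `𝔫₀ = 𝔫.comap finIncl` only. -/
theorem exists_level_testPlaces (S₀ : SecondVal (Lvl K₀) N p (baseRing A K₀))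
    (ι : Lvl K₀ →+* ℂ) (hpN : ¬ p ∣ N)
    (hA2 : ∀ x : ↥(gaussSubalgebra (Lvl K₀) N (baseRing A K₀)),
      theta (Lvl K₀) N (baseRing A K₀) x ∈
        modularFunctionFieldFullC (IsLocalRing.ResidueField ↥(baseRing A K₀)) N)
    (P₁ : LevelPack A N K₀) {π₁ : ↥(baseRing A K₀)} (hπ₁ : Irreducible π₁)
    (zα zβ : Ideal ↥(Rfin (Lvl K₀) (N * p) (baseRing A K₀)) → ↥(Rfin (Lvl K₀) N (baseRing A K₀)))
    (Gs : Finset ↥(modularFunctionFieldBar N)) (hGs : ∀ G ∈ Gs, G ≠ 0)
    (cs : ℕ → ↥(baseRing A K₀)) (hcs : ∀ n, π₁ ∣ cs n) (hinj : Function.Injective cs) :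
    ∃ K₁ : IntermediateField ℚ Qb, FiniteDimensional ℚ K₁ ∧
      ∀ (K : IntermediateField ℚ Qb) (hKK : K₀ ≤ K) [IsDiscreteValuationRing ↥(baseRing A K)]
        [IsFractionRing ↥(baseRing A K) (Lvl K)]
        [CharP (IsLocalRing.ResidueField ↥(baseRing A K)) p]
        [IsAlgClosed (IsLocalRing.ResidueField ↥(baseRing A K))]
        (S : SecondVal (Lvl K) N p (baseRing A K)), K₁ ≤ K →
        ∀ 𝔫 ∈ crossingSet (Lvl K) N p (baseRing A K) S,
          ∃ nα nβ : ℕ, ∀ (_ : LevelPack A N K) {π₂ : ↥(baseRing A K)} (_ : Irreducible π₂)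
            (𝔪' : Ideal ↥(Rfin (Lvl K) N (baseRing A K))) [𝔪'.IsMaximal]
            (_ : algebraMap ↥(baseRing A K) ↥(Rfin (Lvl K) N (baseRing A K)) π₂ ∈ 𝔪'),
            (th (Lvl K₀) N (baseRing A K₀) (zα (𝔫.comap (finIncl A (N * p) hKK))) ∈
                (𝔪'.comap (finIncl A N hKK)).map (th (Lvl K₀) N (baseRing A K₀)) →
              th (Lvl K₀) N (baseRing A K₀) (zα (𝔫.comap (finIncl A (N * p) hKK))) ∉
                ((𝔪'.comap (finIncl A N hKK)).map (th (Lvl K₀) N (baseRing A K₀))) ^ 2 →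
              TestPlace A N hKK (zα (𝔫.comap (finIncl A (N * p) hKK))) (cs nα) Gs 𝔪') ∧
            (th (Lvl K₀) N (baseRing A K₀) (zβ (𝔫.comap (finIncl A (N * p) hKK))) ∈
                (𝔪'.comap (finIncl A N hKK)).map (th (Lvl K₀) N (baseRing A K₀)) →
              th (Lvl K₀) N (baseRing A K₀) (zβ (𝔫.comap (finIncl A (N * p) hKK))) ∉
                ((𝔪'.comap (finIncl A N hKK)).map (th (Lvl K₀) N (baseRing A K₀))) ^ 2 →
              TestPlace A N hKK (zβ (𝔫.comap (finIncl A (N * p) hKK))) (cs nβ) Gs 𝔪') := by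
  have hb₀ : Function.Surjective (IsLocalRing.ResidueField.map (baseIncl A K₀)) := P₁.hbij.2
  obtain ⟨K₁, hK₁, hP⟩ := exists_level_forall_crossing_above (K₀ := K₀) A N p S₀ hb₀ P₁.hN ι hpN
    P₁.primeFin P₁.dedFin hA2
    (P := fun 𝔫₀ E => SideData A N (zα 𝔫₀) Gs cs E ∧ SideData A N (zβ 𝔫₀) Gs cs E)
    (fun 𝔫₀ E₁ E₂ hE h => ⟨sideData_mono hE h.1, sideData_mono hE h.2⟩)
    (fun 𝔫₀ _ => by
      obtain ⟨Eα, hEα, hα⟩ := exists_sideData A N P₁ hπ₁ (zα 𝔫₀) Gs hGs cs hcs hinj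
      obtain ⟨Eβ, hEβ, hβ⟩ := exists_sideData A N P₁ hπ₁ (zβ 𝔫₀) Gs hGs cs hcs hinj
      haveI := hEα
      haveI := hEβ
      exact ⟨Eα ⊔ Eβ, IntermediateField.finiteDimensional_sup Eα Eβ,
        sideData_mono le_sup_left hα, sideData_mono le_sup_right hβ⟩)
  refine ⟨K₁, hK₁, fun K hKK _ _ _ _ S hK₁K 𝔫 h𝔫 => ?_⟩
  obtain ⟨⟨nα, hα⟩, ⟨nβ, hβ⟩⟩ := hP K hKK S hK₁K 𝔫 h𝔫
  refine ⟨nα, nβ, fun P₂ π₂ hπ₂ 𝔪' _ hπ𝔪 => ⟨fun hz hz2 => ?_, fun hz hz2 => ?_⟩⟩
  · exact hα K hKK le_rfl P₂ hπ₂ 𝔪' hπ𝔪 hz hz2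
  · exact hβ K hKK le_rfl P₂ hπ₂ 𝔪' hπ𝔪 hz hz2

/-- ★ **The test places at `α(𝔫)`, `β(𝔫)`, uniformly.**  The local-parameter hypotheses are stated at the
small level: `zα 𝔫₀` is a local parameter at `α₀(𝔫₀)`, `zβ 𝔫₀` at `β₀(𝔫₀)`, `𝔫₀ = 𝔫.comap finIncl`. -/
theorem exists_level_testPlaces_crossing (S₀ : SecondVal (Lvl K₀) N p (baseRing A K₀))
    (ι : Lvl K₀ →+* ℂ) (hpN : ¬ p ∣ N)
    (hA2 : ∀ x : ↥(gaussSubalgebra (Lvl K₀) N (baseRing A K₀)),
      theta (Lvl K₀) N (baseRing A K₀) x ∈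
        modularFunctionFieldFullC (IsLocalRing.ResidueField ↥(baseRing A K₀)) N)
    (P₁ : LevelPack A N K₀) {π₁ : ↥(baseRing A K₀)} (hπ₁ : Irreducible π₁)
    (zα zβ : Ideal ↥(Rfin (Lvl K₀) (N * p) (baseRing A K₀)) → ↥(Rfin (Lvl K₀) N (baseRing A K₀)))
    (Gs : Finset ↥(modularFunctionFieldBar N)) (hGs : ∀ G ∈ Gs, G ≠ 0)
    (cs : ℕ → ↥(baseRing A K₀)) (hcs : ∀ n, π₁ ∣ cs n) (hinj : Function.Injective cs) :
    ∃ K₁ : IntermediateField ℚ Qb, FiniteDimensional ℚ K₁ ∧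
      ∀ (K : IntermediateField ℚ Qb) (hKK : K₀ ≤ K) [IsDiscreteValuationRing ↥(baseRing A K)]
        [IsFractionRing ↥(baseRing A K) (Lvl K)]
        [CharP (IsLocalRing.ResidueField ↥(baseRing A K)) p]
        [IsAlgClosed (IsLocalRing.ResidueField ↥(baseRing A K))]
        (S : SecondVal (Lvl K) N p (baseRing A K)), K₁ ≤ K →
        ∀ 𝔫 ∈ crossingSet (Lvl K) N p (baseRing A K) S,
          ∃ nα nβ : ℕ, ∀ (_ : LevelPack A N K),
            ((𝔫.comap (alphaR (Lvl K) N p (baseRing A K)).toRingHom).IsMaximal →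
              th (Lvl K₀) N (baseRing A K₀) (zα (𝔫.comap (finIncl A (N * p) hKK))) ∈
                ((𝔫.comap (finIncl A (N * p) hKK)).comap
                  (alphaR (Lvl K₀) N p (baseRing A K₀)).toRingHom).map
                  (th (Lvl K₀) N (baseRing A K₀)) →
              th (Lvl K₀) N (baseRing A K₀) (zα (𝔫.comap (finIncl A (N * p) hKK))) ∉
                (((𝔫.comap (finIncl A (N * p) hKK)).comap
                  (alphaR (Lvl K₀) N p (baseRing A K₀)).toRingHom).map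
                  (th (Lvl K₀) N (baseRing A K₀))) ^ 2 →
              TestPlace A N hKK (zα (𝔫.comap (finIncl A (N * p) hKK))) (cs nα) Gs
                (𝔫.comap (alphaR (Lvl K) N p (baseRing A K)).toRingHom)) ∧
            ((𝔫.comap (betaR (Lvl K) N p (baseRing A K)).toRingHom).IsMaximal →
              th (Lvl K₀) N (baseRing A K₀) (zβ (𝔫.comap (finIncl A (N * p) hKK))) ∈
                ((𝔫.comap (finIncl A (N * p) hKK)).comap
                  (betaR (Lvl K₀) N p (baseRing A K₀)).toRingHom).map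
                  (th (Lvl K₀) N (baseRing A K₀)) →
              th (Lvl K₀) N (baseRing A K₀) (zβ (𝔫.comap (finIncl A (N * p) hKK))) ∉
                (((𝔫.comap (finIncl A (N * p) hKK)).comap
                  (betaR (Lvl K₀) N p (baseRing A K₀)).toRingHom).map
                  (th (Lvl K₀) N (baseRing A K₀))) ^ 2 →
              TestPlace A N hKK (zβ (𝔫.comap (finIncl A (N * p) hKK))) (cs nβ) Gs
                (𝔫.comap (betaR (Lvl K) N p (baseRing A K)).toRingHom)) := by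
  obtain ⟨K₁, hK₁, h⟩ := exists_level_testPlaces A N p S₀ ι hpN hA2 P₁ hπ₁ zα zβ Gs hGs cs hcs hinj
  refine ⟨K₁, hK₁, fun K hKK _ _ _ _ S hK₁K 𝔫 h𝔫 => ?_⟩
  obtain ⟨nα, nβ, hn⟩ := h K hKK S hK₁K 𝔫 h𝔫
  obtain ⟨π₂, hπ₂⟩ := IsDiscreteValuationRing.exists_irreducible ↥(baseRing A K)
  have hπ𝔫 : algebraMap ↥(baseRing A K) ↥(Rfin (Lvl K) (N * p) (baseRing A K)) π₂ ∈ 𝔫 :=
    unif_mem_of_mem_crossingSet (Lvl K) N p (baseRing A K) S h𝔫 hπ₂
  have hcα := comap_alphaR_comap_finMap (Lvl K₀) (Lvl K) (lvlIncl hKK) N (baseRing A K₀)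
    (baseRing A K) (lvlIncl_mem A hKK) p 𝔫
  have hcβ := comap_betaR_comap_finMap (Lvl K₀) (Lvl K) (lvlIncl hKK) N (baseRing A K₀)
    (baseRing A K) (lvlIncl_mem A hKK) p 𝔫
  refine ⟨nα, nβ, fun P₂ => ⟨fun hmax hz hz2 => ?_, fun hmax hz hz2 => ?_⟩⟩
  · haveI := hmax
    refine (hn P₂ hπ₂ (𝔫.comap (alphaR (Lvl K) N p (baseRing A K)).toRingHom) ?_).1 ?_ ?_
    · rw [Ideal.mem_comap]
      have : (alphaR (Lvl K) N p (baseRing A K)).toRingHom
          (algebraMap ↥(baseRing A K) ↥(Rfin (Lvl K) N (baseRing A K)) π₂) =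
          algebraMap ↥(baseRing A K) ↥(Rfin (Lvl K) (N * p) (baseRing A K)) π₂ :=
        (alphaR (Lvl K) N p (baseRing A K)).commutes π₂
      rw [this]
      exact hπ𝔫
    · rw [show (𝔫.comap (alphaR (Lvl K) N p (baseRing A K)).toRingHom).comap (finIncl A N hKK) =
        (𝔫.comap (finIncl A (N * p) hKK)).comap
          (alphaR (Lvl K₀) N p (baseRing A K₀)).toRingHom from hcα]
      exact hz
    · rw [show (𝔫.comap (alphaR (Lvl K) N p (baseRing A K)).toRingHom).comap (finIncl A N hKK) =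
        (𝔫.comap (finIncl A (N * p) hKK)).comap
          (alphaR (Lvl K₀) N p (baseRing A K₀)).toRingHom from hcα]
      exact hz2
  · haveI := hmax
    refine (hn P₂ hπ₂ (𝔫.comap (betaR (Lvl K) N p (baseRing A K)).toRingHom) ?_).2 ?_ ?_
    · rw [Ideal.mem_comap]
      have : (betaR (Lvl K) N p (baseRing A K)).toRingHom
          (algebraMap ↥(baseRing A K) ↥(Rfin (Lvl K) N (baseRing A K)) π₂) =
          algebraMap ↥(baseRing A K) ↥(Rfin (Lvl K) (N * p) (baseRing A K)) π₂ :=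
        (betaR (Lvl K) N p (baseRing A K)).commutes π₂
      rw [this]
      exact hπ𝔫
    · rw [show (𝔫.comap (betaR (Lvl K) N p (baseRing A K)).toRingHom).comap (finIncl A N hKK) =
        (𝔫.comap (finIncl A (N * p) hKK)).comap
          (betaR (Lvl K₀) N p (baseRing A K₀)).toRingHom from hcβ]
      exact hz
    · rw [show (𝔫.comap (betaR (Lvl K) N p (baseRing A K)).toRingHom).comap (finIncl A N hKK) =
        (𝔫.comap (finIncl A (N * p) hKK)).comap
          (betaR (Lvl K₀) N p (baseRing A K₀)).toRingHom from hcβ]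
      exact hz2

end Uniform

end Fermat.Agent.S40.M1.R4Uniform
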