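/-
S40 / S44 (row 38), T6′ static route, block (R4), test places (helper6; pair of helper29's `R4Uniform`,
dispatch #3297): **the good-level adapter** — everything `R4Uniform`'s statement (block of
`SSFinite.exists_level_forall_crossing_above` / `TestPointUp.exists_testPoint_uniform`) needs at the call
site `K₀` unramified `≤ K` good (binder block of `NodeHonest.slope_levels` / `R4Final.dvd_ord_of_node`).

(i) level packs
* `levelPack_of_isUnramLevel`, `levelPack_of_isGoodLevel` : `LevelPack A N K` at an unramified / good level;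
* `residueMap_surjective_of_isUnramLevel` : `hb₀` of `SSFinite.comap_mem_crossingSet`;
* `isAlgClosed_of_isGoodLevel`, `perfectRing_of_isGoodLevel`, … : the instances.

(ii) crossing points (one level `(K, O)`, block of `F4Node`)
* `centreFin_mem_crossingSet` : the centre of a supersingular place is a crossing point;
* `comap_alphaR_isMaximal`, `comap_betaR_isMaximal` : the image points `α(𝔫)`, `β(𝔫)` of a closed point are
  closed (going-up along the finite maps `NodeFinite.alphaR_finite/betaR_finite`);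
* `algebraMap_mem_comap_alphaR/betaR`, `unif_mem_comap_alphaR/betaR_of_mem_crossingSet`,
  `unif_mem_comap_alphaR/betaR_centreFin` : the uniformiser lies in the image points.

(iii) the constants `cs n = p ^ (n + 1)`
* `csP A p K₀ n := (p : O_{K₀}) ^ (n + 1)`; `dvd_csP` (`hcs`), `csP_injective` (`hinj`),
  `baseMapIncl_csP : baseMapIncl A hKK (csP A p K₀ n) = (p : O_K) ^ (n + 1)`, `lvlIncl_csP`,
  `baseMapIncl_csP_mem_span`, ★ `ev_mem_span_of_eq_csP` : `ev h z = baseMapIncl (csP n) → ev h z ∈ (p)`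
  (= `hevα hevβ` of `NodeDLevelB.r4b_fin` / `NodeDLevel.r4d_fin`).
-/
import Mathlib
import Fermat.Agent.S40.M1.SSFinite
import Fermat.Agent.S40.M1.TestPointUp
import Fermat.Agent.S40.M1.NodeFinite
import Fermat.Agent.S40.M1.NodeHonest
import Fermat.Agent.S40.W.F4Node
import Fermat.Agent.S40.W.F4Good

set_option autoImplicit false
set_option linter.unusedSectionVars false
set_option linter.unusedVariables false
set_option linter.style.haveILetI false
set_option linter.style.longLine false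

open ModularCurve AlgebraicCurve
open Fermat.Agent.S28.Gauss Fermat.Agent.N4.Setting Fermat.Agent.N4.FibreEmbedding
open Fermat.Agent.N4.Chart
open Fermat.Agent.N4F.E.DegreeLevelRaise Fermat.Agent.N4F.E.GaussDVR
open Fermat.Agent.N4F.E IsLocalRing Fermat.Agent.P3G Fermat.Agent.P4
open Fermat.Agent.P3G.RbarFin
open Fermat.Agent.P4.TwistRoots Fermat.Agent.N4F.C.ChartFibre Fermat.Agent.S40.W.F4Level
open Fermat.Agent.S40.W.F4Place Fermat.Agent.S40.W.F4Node
open Fermat.Agent.N4.BaseDescent Fermat.Agent.S19.Cech.LevelBasis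
open Fermat.Agent.N4F.C Fermat.Agent.N4F.C.Levels Fermat.Agent.N4F.C.LevelCharts
  Fermat.Agent.N4F.C.ChartFactsProof

noncomputable section

namespace Fermat.Agent.S40.M1.R4UniformGood

/-! ### (ii) Crossing points at one level -/

section Level

variable (K : Type) [Field K] [CharZero K] (N : ℕ) [NeZero N] (ℓ : ℕ) [Fact ℓ.Prime]
  (O : Subring K) [IsDiscreteValuationRing ↥O] [IsFractionRing ↥O K]

set_option synthInstance.maxHeartbeats 400000

section GoingUp

variable (ι : K →+* ℂ) (hℓN : ¬ ℓ ∣ N)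

include ι hℓN in
/-- **Going-up along `α`**: the image `α(𝔫)` of a closed point of the chart of level `N ℓ` is a closed
point of the chart of level `N`. -/
theorem comap_alphaR_isMaximal (𝔫 : Ideal ↥(Rfin K (N * ℓ) O)) [h𝔫 : 𝔫.IsMaximal] :
    (𝔫.comap (LevelIntegrality.alphaR K N ℓ O).toRingHom).IsMaximal :=
  Ideal.isMaximal_comap_of_isIntegral_of_isMaximal' _
    (NodeFinite.alphaR_finite K N ℓ O ι hℓN).to_isIntegral 𝔫

include ι hℓN in
/-- **Going-up along `β`**. -/
theorem comap_betaR_isMaximal (𝔫 : Ideal ↥(Rfin K (N * ℓ) O)) [h𝔫 : 𝔫.IsMaximal] :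
    (𝔫.comap (LevelIntegrality.betaR K N ℓ O).toRingHom).IsMaximal :=
  Ideal.isMaximal_comap_of_isIntegral_of_isMaximal' _
    (NodeFinite.betaR_finite K N ℓ O ι hℓN).to_isIntegral 𝔫

end GoingUp

/-- A constant of `𝔫` is a constant of `α(𝔫)`. -/
theorem algebraMap_mem_comap_alphaR {𝔫 : Ideal ↥(Rfin K (N * ℓ) O)} {c : ↥O}
    (hc : algebraMap ↥O ↥(Rfin K (N * ℓ) O) c ∈ 𝔫) :
    algebraMap ↥O ↥(Rfin K N O) c ∈ 𝔫.comap (LevelIntegrality.alphaR K N ℓ O).toRingHom := by
  rw [Ideal.mem_comap]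
  have h : (LevelIntegrality.alphaR K N ℓ O).toRingHom (algebraMap ↥O ↥(Rfin K N O) c) =
      algebraMap ↥O ↥(Rfin K (N * ℓ) O) c := (LevelIntegrality.alphaR K N ℓ O).commutes c
  rw [h]
  exact hc

/-- A constant of `𝔫` is a constant of `β(𝔫)`. -/
theorem algebraMap_mem_comap_betaR {𝔫 : Ideal ↥(Rfin K (N * ℓ) O)} {c : ↥O}
    (hc : algebraMap ↥O ↥(Rfin K (N * ℓ) O) c ∈ 𝔫) :
    algebraMap ↥O ↥(Rfin K N O) c ∈ 𝔫.comap (LevelIntegrality.betaR K N ℓ O).toRingHom := by
  rw [Ideal.mem_comap]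
  have h : (LevelIntegrality.betaR K N ℓ O).toRingHom (algebraMap ↥O ↥(Rfin K N O) c) =
      algebraMap ↥O ↥(Rfin K (N * ℓ) O) c := (LevelIntegrality.betaR K N ℓ O).commutes c
  rw [h]
  exact hc

variable [CharP (IsLocalRing.ResidueField ↥O) ℓ] [PerfectRing (IsLocalRing.ResidueField ↥O) ℓ]
  (S₂ : FibreTwo.SecondVal K N ℓ O)

/-- The uniformiser lies in the image `α(𝔫)` of a crossing point. -/
theorem unif_mem_comap_alphaR_of_mem_crossingSet {𝔫 : Ideal ↥(Rfin K (N * ℓ) O)}
    (h : 𝔫 ∈ SSFinite.crossingSet K N ℓ O S₂) {ϖ : ↥O} (hϖ : Irreducible ϖ) :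
    algebraMap ↥O ↥(Rfin K N O) ϖ ∈ 𝔫.comap (LevelIntegrality.alphaR K N ℓ O).toRingHom :=
  algebraMap_mem_comap_alphaR K N ℓ O (SSFinite.unif_mem_of_mem_crossingSet K N ℓ O S₂ h hϖ)

/-- The uniformiser lies in the image `β(𝔫)` of a crossing point. -/
theorem unif_mem_comap_betaR_of_mem_crossingSet {𝔫 : Ideal ↥(Rfin K (N * ℓ) O)}
    (h : 𝔫 ∈ SSFinite.crossingSet K N ℓ O S₂) {ϖ : ↥O} (hϖ : Irreducible ϖ) :
    algebraMap ↥O ↥(Rfin K N O) ϖ ∈ 𝔫.comap (LevelIntegrality.betaR K N ℓ O).toRingHom :=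
  algebraMap_mem_comap_betaR K N ℓ O (SSFinite.unif_mem_of_mem_crossingSet K N ℓ O S₂ h hϖ)

variable (hN : IsUnit ((N : ℕ) : ↥O)) (ι : K →+* ℂ) (hℓN : ¬ ℓ ∣ N)
  (hprime : (fibreIdeal K N O (Rfin K N O)).IsPrime)
  (hsmooth : IsDedekindDomain (↥(Rfin K N O) ⧸ fibreIdeal K N O (Rfin K N O)))
  (hA2 : ∀ x : ↥(gaussSubalgebra K N O),
    theta K N O x ∈ modularFunctionFieldFullC (IsLocalRing.ResidueField ↥O) N)

include hN hprime hsmooth in
/-- ★ **The centre of a supersingular place of the finite chart is a crossing point.** -/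
theorem centreFin_mem_crossingSet
    (s : Place (IsLocalRing.ResidueField ↥O) (FF (IsLocalRing.ResidueField ↥O) N))
    (hj : jF (IsLocalRing.ResidueField ↥O) N ∈ s.toValuationSubring)
    (hss : IsSSFin K N ℓ O ι hℓN hA2 S₂ s) :
    centreFin K N ℓ O ι hℓN hA2 S₂ s hj ∈ SSFinite.crossingSet K N ℓ O S₂ :=
  ⟨centreFin_isMaximal K N ℓ O hN ι hℓN hprime hsmooth hA2 S₂ s hj,
    through_gauss_centreFin K N ℓ O ι hℓN hA2 S₂ s hj,
    (isSSFin_iff_through K N ℓ O ι hℓN hA2 S₂ s hj).1 hss⟩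

include hN hprime hsmooth in
/-- A crossing point is the centre of a supersingular place (converse, `F4Node` restated). -/
theorem exists_ss_place_of_mem_crossingSet {𝔫 : Ideal ↥(Rfin K (N * ℓ) O)}
    (h : 𝔫 ∈ SSFinite.crossingSet K N ℓ O S₂) :
    ∃ (s : Place (IsLocalRing.ResidueField ↥O) (FF (IsLocalRing.ResidueField ↥O) N))
      (hj : jF (IsLocalRing.ResidueField ↥O) N ∈ s.toValuationSubring),
      centreFin K N ℓ O ι hℓN hA2 S₂ s hj = 𝔫 ∧ IsSSFin K N ℓ O ι hℓN hA2 S₂ s := by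
  haveI := h.1
  exact exists_ss_place_of_crossing K N ℓ O hN ι hℓN hprime hsmooth hA2 S₂ 𝔫 h.2.1 h.2.2

include hN hprime hsmooth in
/-- The image point `α(𝔫)` of the centre of a place is closed. -/
theorem comap_alphaR_centreFin_isMaximal
    (s : Place (IsLocalRing.ResidueField ↥O) (FF (IsLocalRing.ResidueField ↥O) N))
    (hj : jF (IsLocalRing.ResidueField ↥O) N ∈ s.toValuationSubring) :
    ((centreFin K N ℓ O ι hℓN hA2 S₂ s hj).comap
      (LevelIntegrality.alphaR K N ℓ O).toRingHom).IsMaximal := by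
  haveI := centreFin_isMaximal K N ℓ O hN ι hℓN hprime hsmooth hA2 S₂ s hj
  exact comap_alphaR_isMaximal K N ℓ O ι hℓN _

include hN hprime hsmooth in
/-- The image point `β(𝔫)` of the centre of a place is closed. -/
theorem comap_betaR_centreFin_isMaximal
    (s : Place (IsLocalRing.ResidueField ↥O) (FF (IsLocalRing.ResidueField ↥O) N))
    (hj : jF (IsLocalRing.ResidueField ↥O) N ∈ s.toValuationSubring) :
    ((centreFin K N ℓ O ι hℓN hA2 S₂ s hj).comap
      (LevelIntegrality.betaR K N ℓ O).toRingHom).IsMaximal := by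
  haveI := centreFin_isMaximal K N ℓ O hN ι hℓN hprime hsmooth hA2 S₂ s hj
  exact comap_betaR_isMaximal K N ℓ O ι hℓN _

include hN hprime hsmooth in
/-- The uniformiser lies in the image point `α(𝔫)` of the centre of a place. -/
theorem unif_mem_comap_alphaR_centreFin {ϖ : ↥O} (hϖ : Irreducible ϖ)
    (s : Place (IsLocalRing.ResidueField ↥O) (FF (IsLocalRing.ResidueField ↥O) N))
    (hj : jF (IsLocalRing.ResidueField ↥O) N ∈ s.toValuationSubring) :
    algebraMap ↥O ↥(Rfin K N O) ϖ ∈ (centreFin K N ℓ O ι hℓN hA2 S₂ s hj).comap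
      (LevelIntegrality.alphaR K N ℓ O).toRingHom :=
  algebraMap_mem_comap_alphaR K N ℓ O
    (unif_mem_centreFin K N ℓ O hN ι hℓN hprime hsmooth hA2 S₂ hϖ s hj)

include hN hprime hsmooth in
/-- The uniformiser lies in the image point `β(𝔫)` of the centre of a place. -/
theorem unif_mem_comap_betaR_centreFin {ϖ : ↥O} (hϖ : Irreducible ϖ)
    (s : Place (IsLocalRing.ResidueField ↥O) (FF (IsLocalRing.ResidueField ↥O) N))
    (hj : jF (IsLocalRing.ResidueField ↥O) N ∈ s.toValuationSubring) :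
    algebraMap ↥O ↥(Rfin K N O) ϖ ∈ (centreFin K N ℓ O ι hℓN hA2 S₂ s hj).comap
      (LevelIntegrality.betaR K N ℓ O).toRingHom :=
  algebraMap_mem_comap_betaR K N ℓ O
    (unif_mem_centreFin K N ℓ O hN ι hℓN hprime hsmooth hA2 S₂ hϖ s hj)

end Level

/-! ### (i) Level packs at unramified and good levels -/

section Packs

open Fermat.Agent.P3G.Assembly.LevelStep Fermat.Agent.S36.Descent.UnramLevel

local notation "Qbar" => AlgebraicClosure ℚ

variable (N p : ℕ) [NeZero N] [Fact p.Prime] (hpN : ¬ p ∣ N)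
  (A : ValuationSubring Qbar) (hA : A.LiesOverPrime p)

set_option maxHeartbeats 1600000 in
set_option synthInstance.maxHeartbeats 400000 in
include hpN hA in
/-- ★ **The level pack of an unramified level.** -/
theorem levelPack_of_isUnramLevel (K : IntermediateField ℚ Qbar) (hK : IsUnramLevel A p K)
    [IsDiscreteValuationRing ↥(baseRing A K)] : LevelPack A N K := by
  have hq : p.Prime := Fact.out
  haveI : IsAlgClosed (IsLocalRing.ResidueField ↥(baseRing A K)) := hK.algClosed
  have hGB : GoodBase (Lvl K) N (baseRing A K) p :=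
    ⟨hq, hpN, inferInstance, hK.irred.not_isUnit⟩
  exact ChartFactsProof.levelPack hq hA hpN K hGB hK.bij hK.roots

set_option maxHeartbeats 1600000 in
set_option synthInstance.maxHeartbeats 400000 in
include hpN hA in
/-- ★ **The level pack of a good level.** -/
theorem levelPack_of_isGoodLevel (K : IntermediateField ℚ Qbar) (hK : IsGoodLevel A p K)
    [IsDiscreteValuationRing ↥(baseRing A K)] : LevelPack A N K := by
  have hq : p.Prime := Fact.out
  haveI : IsAlgClosed (IsLocalRing.ResidueField ↥(baseRing A K)) := hK.algClosed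
  have hGB : GoodBase (Lvl K) N (baseRing A K) p := ⟨hq, hpN, inferInstance, hK.not_unit⟩
  exact ChartFactsProof.levelPack hq hA hpN K hGB hK.bij hK.roots

/-- `hb₀` of `SSFinite.comap_mem_crossingSet` / `exists_level_forall_crossing_above` at an unramified
level. -/
theorem residueMap_surjective_of_isUnramLevel {K : IntermediateField ℚ Qbar}
    (hK : IsUnramLevel A p K) [IsDiscreteValuationRing ↥(baseRing A K)] :
    Function.Surjective (IsLocalRing.ResidueField.map (baseIncl A K)) := hK.bij.2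

/-- `hb₀` at a good level. -/
theorem residueMap_surjective_of_isGoodLevel {K : IntermediateField ℚ Qbar}
    (hK : IsGoodLevel A p K) [IsDiscreteValuationRing ↥(baseRing A K)] :
    Function.Surjective (IsLocalRing.ResidueField.map (baseIncl A K)) := hK.bij.2

/-- The residue field of a good level is algebraically closed. -/
theorem isAlgClosed_of_isGoodLevel {K : IntermediateField ℚ Qbar} (hK : IsGoodLevel A p K)
    [IsDiscreteValuationRing ↥(baseRing A K)] :
    IsAlgClosed (IsLocalRing.ResidueField ↥(baseRing A K)) := hK.algClosed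

/-- The residue field of an unramified level is algebraically closed. -/
theorem isAlgClosed_of_isUnramLevel {K : IntermediateField ℚ Qbar} (hK : IsUnramLevel A p K)
    [IsDiscreteValuationRing ↥(baseRing A K)] :
    IsAlgClosed (IsLocalRing.ResidueField ↥(baseRing A K)) := hK.algClosed

end Packs

/-! ### (ii′) The call site: `K₀` unramified `≤ K` good -/

section CallSite

open Fermat.Agent.P3G.Assembly.LevelStep Fermat.Agent.S36.Descent.UnramLevel

local notation "Qbar" => AlgebraicClosure ℚ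

variable (N p : ℕ) [NeZero N] [Fact p.Prime] (hpN : ¬ p ∣ N)
  (A : ValuationSubring Qbar) (hA : A.LiesOverPrime p)
  {K₀ K : IntermediateField ℚ Qbar} (hKL : K₀ ≤ K)
  (hK₀ : IsUnramLevel A p K₀) (hK : IsGoodLevel A p K)
  [IsDiscreteValuationRing ↥(baseRing A K₀)] [IsDiscreteValuationRing ↥(baseRing A K)]
  [CharP (IsLocalRing.ResidueField ↥(baseRing A K₀)) p]
  [PerfectRing (IsLocalRing.ResidueField ↥(baseRing A K₀)) p]
  [CharP (IsLocalRing.ResidueField ↥(baseRing A K)) p]
  [PerfectRing (IsLocalRing.ResidueField ↥(baseRing A K)) p]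
  (hA2 : ∀ x : ↥(gaussSubalgebra (Lvl K) N (baseRing A K)),
    theta (Lvl K) N (baseRing A K) x ∈
      modularFunctionFieldFullC (IsLocalRing.ResidueField ↥(baseRing A K)) N)
  (S₂ : Fermat.Agent.P3G.FibreTwo.SecondVal (Lvl K) N p (baseRing A K))
  (T₂ : Fermat.Agent.P3G.FibreTwo.SecondVal (Lvl K₀) N p (baseRing A K₀))

set_option maxHeartbeats 1600000 in
set_option synthInstance.maxHeartbeats 400000 in
include hpN hA hK in
/-- ★ The centre of a supersingular place of a good level is a crossing point (binder block of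
`R4Final.dvd_ord_of_node`). -/
theorem centreFin_mem_crossingSet_good
    (s : Place (IsLocalRing.ResidueField ↥(baseRing A K))
      (FF (IsLocalRing.ResidueField ↥(baseRing A K)) N))
    (hj : jF (IsLocalRing.ResidueField ↥(baseRing A K)) N ∈ s.toValuationSubring)
    (hss : IsSSFin (Lvl K) N p (baseRing A K) (Fermat.Agent.P3G.GammaV2.lvlToComplex K) hpN hA2
      S₂ s) :
    centreFin (Lvl K) N p (baseRing A K) (Fermat.Agent.P3G.GammaV2.lvlToComplex K) hpN hA2 S₂ s hj ∈
      SSFinite.crossingSet (Lvl K) N p (baseRing A K) S₂ := by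
  obtain ⟨hN, hprime, hsm, -, -, -⟩ := Fermat.Agent.S40.W.F4Good.levelFacts_good N p hpN A hA K hK
  exact centreFin_mem_crossingSet (Lvl K) N p (baseRing A K) S₂ hN _ hpN hprime hsm hA2 s hj hss

set_option maxHeartbeats 1600000 in
set_option synthInstance.maxHeartbeats 400000 in
include hpN hA hK₀ hK in
/-- ★ … and it lies over a crossing point of the unramified level `K₀` (for ANY second valuation `T₂` of
`K₀`): the index `𝔫₀` of helper29's `R4Uniform`. -/
theorem comap_centreFin_mem_crossingSet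
    (s : Place (IsLocalRing.ResidueField ↥(baseRing A K))
      (FF (IsLocalRing.ResidueField ↥(baseRing A K)) N))
    (hj : jF (IsLocalRing.ResidueField ↥(baseRing A K)) N ∈ s.toValuationSubring)
    (hss : IsSSFin (Lvl K) N p (baseRing A K) (Fermat.Agent.P3G.GammaV2.lvlToComplex K) hpN hA2
      S₂ s) :
    (centreFin (Lvl K) N p (baseRing A K) (Fermat.Agent.P3G.GammaV2.lvlToComplex K) hpN hA2 S₂ s
      hj).comap (finIncl A (N * p) hKL) ∈
      SSFinite.crossingSet (Lvl K₀) N p (baseRing A K₀) T₂ := by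
  haveI : IsAlgClosed (IsLocalRing.ResidueField ↥(baseRing A K)) := hK.algClosed
  exact SSFinite.comap_mem_crossingSet hKL A N p S₂ T₂ hK₀.bij.2
    (centreFin_mem_crossingSet_good N p hpN A hA hK hA2 S₂ s hj hss)

end CallSite

/-! ### (iii) The constants `p ^ (n + 1)` -/

section Consts

open Fermat.Agent.P3G.Assembly.LevelStep Fermat.Agent.S36.Descent.UnramLevel

local notation "Qbar" => AlgebraicClosure ℚ

variable (A : ValuationSubring Qbar) (p : ℕ)

/-- **The constants of the test points**: `cs n = p ^ (n + 1)` in `O_{K₀}`. -/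
def csP (K₀ : IntermediateField ℚ Qbar) (n : ℕ) : ↥(baseRing A K₀) :=
  ((p : ℕ) : ↥(baseRing A K₀)) ^ (n + 1)

theorem csP_def (K₀ : IntermediateField ℚ Qbar) (n : ℕ) :
    csP A p K₀ n = ((p : ℕ) : ↥(baseRing A K₀)) ^ (n + 1) := rfl

theorem coe_csP (K₀ : IntermediateField ℚ Qbar) (n : ℕ) :
    ((csP A p K₀ n : ↥(baseRing A K₀)) : Lvl K₀) = ((p : ℕ) : Lvl K₀) ^ (n + 1) := by
  rw [csP_def]
  push_cast
  rfl

variable {K₀ K : IntermediateField ℚ Qbar} (hKK : K₀ ≤ K)

/-- `O_{K₀} → O_K` sends `p ^ (n + 1)` to `p ^ (n + 1)`. -/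
theorem baseMapIncl_csP (n : ℕ) :
    baseMapIncl A hKK (csP A p K₀ n) = ((p : ℕ) : ↥(baseRing A K)) ^ (n + 1) := by
  rw [csP_def, map_pow, map_natCast]

theorem lvlIncl_csP (n : ℕ) :
    lvlIncl hKK ((csP A p K₀ n : ↥(baseRing A K₀)) : Lvl K₀) = ((p : ℕ) : Lvl K) ^ (n + 1) := by
  rw [coe_csP, map_pow, map_natCast]

/-- `p ^ (n + 1) ∈ (p)`. -/
theorem baseMapIncl_csP_mem_span (n : ℕ) :
    baseMapIncl A hKK (csP A p K₀ n) ∈ Ideal.span {((p : ℕ) : ↥(baseRing A K))} := by
  rw [baseMapIncl_csP, Ideal.mem_span_singleton]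
  exact dvd_pow_self _ (Nat.succ_ne_zero n)

/-- ★ **`hevα`, `hevβ` of `r4b_fin` / `r4d_fin`**: a test section whose value at the local parameter is
`p ^ (n + 1)` (image of the constant of the small level) has value in `(p)`. -/
theorem mem_span_of_eq_baseMapIncl_csP {x : ↥(baseRing A K)} {n : ℕ}
    (hx : x = baseMapIncl A hKK (csP A p K₀ n)) :
    x ∈ Ideal.span {((p : ℕ) : ↥(baseRing A K))} := by
  rw [hx]
  exact baseMapIncl_csP_mem_span A p hKK n

/-- `hcs` at any level where `p` is not a unit: `ϖ ∣ p ^ (n + 1)`. -/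
theorem dvd_csP_of_not_isUnit [IsDiscreteValuationRing ↥(baseRing A K₀)]
    (hp : ¬ IsUnit ((p : ℕ) : ↥(baseRing A K₀)))
    {π₁ : ↥(baseRing A K₀)} (hπ₁ : Irreducible π₁) (n : ℕ) : π₁ ∣ csP A p K₀ n := by
  have h1 : ((p : ℕ) : ↥(baseRing A K₀)) ∈ maximalIdeal ↥(baseRing A K₀) :=
    (mem_maximalIdeal _).2 hp
  rw [hπ₁.maximalIdeal_eq, Ideal.mem_span_singleton] at h1
  exact dvd_trans h1 (dvd_pow_self _ (Nat.succ_ne_zero n))

/-- `hinj` at any level where `p` is not a unit (characteristic zero). -/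
theorem csP_injective_of_not_isUnit (hp0 : p ≠ 0)
    (hp : ¬ IsUnit ((p : ℕ) : ↥(baseRing A K₀))) : Function.Injective (csP A p K₀) := by
  have hq0 : ((p : ℕ) : ↥(baseRing A K₀)) ≠ 0 := by
    intro h
    have h2 : (((p : ℕ) : ↥(baseRing A K₀)) : Lvl K₀) = 0 := by rw [h]; rfl
    rw [show (((p : ℕ) : ↥(baseRing A K₀)) : Lvl K₀) = ((p : ℕ) : Lvl K₀) by push_cast; rfl] at h2
    exact hp0 (Nat.cast_eq_zero.1 h2)
  intro a b hab
  simp only [csP_def] at hab
  by_contra hne
  rcases Nat.lt_or_gt_of_ne hne with hlt | hlt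
  · have h4 : ((p : ℕ) : ↥(baseRing A K₀)) ^ (a + 1) * 1 =
        ((p : ℕ) : ↥(baseRing A K₀)) ^ (a + 1) * ((p : ℕ) : ↥(baseRing A K₀)) ^ (b - a) := by
      rw [mul_one, ← pow_add, hab]; congr 1; omega
    have h5 := mul_left_cancel₀ (pow_ne_zero _ hq0) h4
    exact hp (IsUnit.of_pow_eq_one h5.symm (by omega))
  · have h4 : ((p : ℕ) : ↥(baseRing A K₀)) ^ (b + 1) * 1 =
        ((p : ℕ) : ↥(baseRing A K₀)) ^ (b + 1) * ((p : ℕ) : ↥(baseRing A K₀)) ^ (a - b) := by
      rw [mul_one, ← pow_add, ← hab]; congr 1; omega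
    have h5 := mul_left_cancel₀ (pow_ne_zero _ hq0) h4
    exact hp (IsUnit.of_pow_eq_one h5.symm (by omega))

variable [Fact p.Prime]

/-- `hcs` at an unramified level (where `π₁` may be taken `= p`, `hK₀.irred`). -/
theorem dvd_csP (hK₀ : IsUnramLevel A p K₀) [IsDiscreteValuationRing ↥(baseRing A K₀)]
    {π₁ : ↥(baseRing A K₀)} (hπ₁ : Irreducible π₁) (n : ℕ) : π₁ ∣ csP A p K₀ n :=
  dvd_csP_of_not_isUnit A p hK₀.irred.not_isUnit hπ₁ n

/-- `hinj` at an unramified level. -/
theorem csP_injective (hK₀ : IsUnramLevel A p K₀) : Function.Injective (csP A p K₀) :=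
  csP_injective_of_not_isUnit A p (Fact.out : p.Prime).ne_zero hK₀.irred.not_isUnit

/-- `hcs` at a good level. -/
theorem dvd_csP_good (hK₀ : IsGoodLevel A p K₀) [IsDiscreteValuationRing ↥(baseRing A K₀)]
    {π₁ : ↥(baseRing A K₀)} (hπ₁ : Irreducible π₁) (n : ℕ) : π₁ ∣ csP A p K₀ n :=
  dvd_csP_of_not_isUnit A p hK₀.not_unit hπ₁ n

/-- `hinj` at a good level. -/
theorem csP_injective_good (hK₀ : IsGoodLevel A p K₀) : Function.Injective (csP A p K₀) :=
  csP_injective_of_not_isUnit A p (Fact.out : p.Prime).ne_zero hK₀.not_unit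

end Consts

end Fermat.Agent.S40.M1.R4UniformGood
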