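/-
S40 / S44 (row 38), T6′ static route (`moonshots` row 67), block (R4): **the per-level half of the named
input `R4Aux.NodeData`** (helper17; pair of helper25 on `NodeDataAsm`, board #3323).

Binder block = `NodeHonest.slope_levels` (`N p hpN A hA hKL (hK₀ : IsUnramLevel A p K₀)
(hK : IsGoodLevel A p K)`, instances, `hA2₀ hA2 S₂`).  At a crossing point `𝔫` of the good level `K` with an
honest node `hn` defined over `K₀`, local parameters `zα₀ zβ₀` over `K₀` at `α₀(𝔫₀)`, `β₀(𝔫₀)`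
(`𝔫₀ = 𝔫 ∩ Rfin_{K₀}`) and the two test sections of helper21/helper29 (`R4Uniform.TestPlace`) with constants
`p ^ (n + 1)`:

* `p_mem` : `p ∈ 𝔫`; `natCast_mem_small_alpha/_beta` : `p ∈ α₀(𝔫₀)`, `β₀(𝔫₀)`;
* ★ `r4a_good` : the (R4a) block `hUα hUβ tA ≠ 0 tB ≠ 0 hUαv heA hUβv heB` of `R4Node.r4_node_abs` VERBATIM +
  the invariance clauses of `tA tB` (`NormUBase.norm_u_levels` ∘ `NormUValSection.r4a_alpha_finMap /
  r4a_beta_finMap`, `hm hfrob` from `NormUValFrob` at the unramified level);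
* ★★ `nodeData_of_testPlaces` : the body `∃ Qα Qβ hQα hQβ tA tB eA eB, …` of `R4Aux.NodeData` VERBATIM
  ((R4b) = `NodeDGoodB.r4b_good`, [INV] = `R4Inv.testPlace_fixed` + the clauses of `r4a_good`).
-/
import Mathlib
import Fermat.Agent.S40.M1.NodeDGoodB
import Fermat.Agent.S40.M1.NormUBase
import Fermat.Agent.S40.M1.NormUValSection
import Fermat.Agent.S40.M1.NormUValFrob
import Fermat.Agent.S40.M1.R4Uniform
import Fermat.Agent.S40.M1.R4UniformGood
import Fermat.Agent.S40.M1.R4Inv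
import Fermat.Agent.S40.M1.NodeQbar

set_option autoImplicit false
set_option linter.unusedSectionVars false
set_option linter.unusedVariables false
set_option linter.style.haveILetI false
set_option linter.style.longLine false

open ModularCurve Fermat.Agent.S28.Gauss Fermat.Agent.N4.Setting Fermat.Agent.N4.FibreEmbedding
open Fermat.Agent.N4.Chart
open Fermat.Agent.N4F.E.DegreeLevelRaise Fermat.Agent.N4F.E.GaussDVR AlgebraicCurve Polynomial
open Fermat.Agent.N4F.E IsLocalRing Fermat.Agent.P3G.RbarFin Fermat.Agent.P3G.TwoComponents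
open Fermat.Agent.P3G.TwoComponentsFinal Fermat.Agent.P3G Fermat.Agent.P4
open Fermat.Agent.P4.TwistRoots Fermat.Agent.P3G.UCrit
open Fermat.Agent.S40.W.F4Level
open Fermat.Agent.N4.BaseDescent Fermat.Agent.S19.Cech.LevelBasis

noncomputable section

namespace Fermat.Agent.S40.M1.NodeDataK

open Fermat.Agent.N4.S18Glue Fermat.Agent.N4.BigDVR
  Fermat.Agent.P3G.Assembly.StepOfLevel Fermat.Agent.P3G.Assembly.LevelStep
  Fermat.Agent.N4F.C Fermat.Agent.N4F.C.Levels Fermat.Agent.N4F.C.Galois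
  Fermat.Agent.S33.L.Contracts Fermat.Agent.N4F.C.ChartFibre
  Fermat.Agent.S36.Descent.UnramLevel Fermat.Agent.P3G.Gamma
  Fermat.Agent.S40.M1.NodeHonest Fermat.Agent.S40.M1.NodeInv Fermat.Agent.S40.M1.NodeCore
  Fermat.Agent.S40.M1.NodeQbar Fermat.Agent.P4.FrobLevelStep Fermat.Agent.P3G.GammaAut
  Fermat.Agent.G.Points Fermat.Agent.S40.M1.SmoothPoint Fermat.Agent.P3G.LevelIntegrality

local notation "Qbar" => AlgebraicClosure ℚ
local notation "Γ" => (AlgebraicClosure ℚ ≃ₐ[ℚ] AlgebraicClosure ℚ)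

variable (N p : ℕ) [NeZero N] [Fact p.Prime] (hpN : ¬ p ∣ N)
  (A : ValuationSubring Qbar) (hA : A.LiesOverPrime p)
  {K₀ K : IntermediateField ℚ Qbar} (hKL : K₀ ≤ K)
  (hK₀ : IsUnramLevel A p K₀) (hK : IsGoodLevel A p K)
  [IsDiscreteValuationRing ↥(baseRing A K₀)] [IsDiscreteValuationRing ↥(baseRing A K)]
  [CharP (IsLocalRing.ResidueField ↥(baseRing A K₀)) p]
  [PerfectRing (IsLocalRing.ResidueField ↥(baseRing A K₀)) p]
  [CharP (IsLocalRing.ResidueField ↥(baseRing A K)) p]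
  [PerfectRing (IsLocalRing.ResidueField ↥(baseRing A K)) p]
  (hA2₀ : ∀ x : ↥(gaussSubalgebra (Lvl K₀) N (baseRing A K₀)),
    theta (Lvl K₀) N (baseRing A K₀) x ∈
      modularFunctionFieldFullC (IsLocalRing.ResidueField ↥(baseRing A K₀)) N)
  (hA2 : ∀ x : ↥(gaussSubalgebra (Lvl K) N (baseRing A K)),
    theta (Lvl K) N (baseRing A K) x ∈
      modularFunctionFieldFullC (IsLocalRing.ResidueField ↥(baseRing A K)) N)
  (S₂ : Fermat.Agent.P3G.FibreTwo.SecondVal (Lvl K) N p (baseRing A K))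

set_option synthInstance.maxHeartbeats 400000

include hK in
/-- `p` lies in every ideal of the finite chart of level `N p` through the centre of `V₁`. -/
theorem p_mem {𝔫 : Ideal ↥(Rfin (Lvl K) (N * p) (baseRing A K))}
    (ht₁ : Through (gaussVS (Lvl K) (N * p) (baseRing A K)) 𝔫) :
    ((p : ℕ) : ↥(Rfin (Lvl K) (N * p) (baseRing A K))) ∈ 𝔫 := by
  obtain ⟨ϖ, hϖ⟩ := IsDiscreteValuationRing.exists_irreducible ↥(baseRing A K)
  have h1 := Fermat.Agent.S40.M1.SSFinite.unif_mem_of_through (Lvl K) N p (baseRing A K) ht₁ hϖ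
  have h2 : ((p : ℕ) : ↥(baseRing A K)) ∈ IsLocalRing.maximalIdeal ↥(baseRing A K) :=
    (IsLocalRing.mem_maximalIdeal _).2 hK.not_unit
  rw [hϖ.maximalIdeal_eq] at h2
  obtain ⟨d, hd⟩ := Ideal.mem_span_singleton'.1 h2
  have h3 : ((p : ℕ) : ↥(Rfin (Lvl K) (N * p) (baseRing A K))) =
      algebraMap ↥(baseRing A K) ↥(Rfin (Lvl K) (N * p) (baseRing A K)) d *
        algebraMap ↥(baseRing A K) ↥(Rfin (Lvl K) (N * p) (baseRing A K)) ϖ := by
    rw [← map_mul, hd, map_natCast]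
  rw [h3]
  exact 𝔫.mul_mem_left _ h1

include hK in
/-- `p ∈ α₀(𝔫₀)`. -/
theorem natCast_mem_small_alpha {𝔫 : Ideal ↥(Rfin (Lvl K) (N * p) (baseRing A K))}
    (ht₁ : Through (gaussVS (Lvl K) (N * p) (baseRing A K)) 𝔫) :
    ((p : ℕ) : ↥(Rfin (Lvl K₀) N (baseRing A K₀))) ∈
      (𝔫.comap (finIncl A (N * p) hKL)).comap
        (alphaR (Lvl K₀) N p (baseRing A K₀)).toRingHom := by
  rw [Ideal.mem_comap, Ideal.mem_comap, map_natCast, map_natCast]
  exact p_mem N p A hK ht₁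

include hK in
/-- `p ∈ β₀(𝔫₀)`. -/
theorem natCast_mem_small_beta {𝔫 : Ideal ↥(Rfin (Lvl K) (N * p) (baseRing A K))}
    (ht₁ : Through (gaussVS (Lvl K) (N * p) (baseRing A K)) 𝔫) :
    ((p : ℕ) : ↥(Rfin (Lvl K₀) N (baseRing A K₀))) ∈
      (𝔫.comap (finIncl A (N * p) hKL)).comap
        (betaR (Lvl K₀) N p (baseRing A K₀)).toRingHom := by
  rw [Ideal.mem_comap, Ideal.mem_comap, map_natCast, map_natCast]
  exact p_mem N p A hK ht₁

set_option maxHeartbeats 3200000 in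
include hpN hA hK₀ hK hA2₀ hA2 in
/-- ★ **(R4a) at a crossing point of a good level, from the two test sections**: the block
`hUα hUβ tA ≠ 0 tB ≠ 0 hUαv heA hUβv heB` of `R4Node.r4_node_abs` and the invariance clauses of `tA tB`. -/
theorem r4a_good
    {𝔫 : Ideal ↥(Rfin (Lvl K) (N * p) (baseRing A K))} [h𝔫 : 𝔫.IsMaximal]
    {u₀ v₀ G₀ : ↥(Rfin (Lvl K₀) (N * p) (baseRing A K₀))}
    (hn : HonestNode (Lvl K₀) (Lvl K) N p (baseRing A K₀) (baseRing A K) (lvlIncl hKL)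
      (lvlIncl_mem A hKL) S₂ 𝔫 u₀ v₀ G₀)
    (ht₁ : Through (gaussVS (Lvl K) (N * p) (baseRing A K)) 𝔫) (ht₂ : Through S₂.V 𝔫)
    {zα₀ zβ₀ : ↥(Rfin (Lvl K₀) N (baseRing A K₀))}
    (hzα : Fermat.Agent.S40.M1.AlphaNodeLevel.th (Lvl K₀) N (baseRing A K₀) zα₀ ∈
      ((𝔫.comap (finIncl A (N * p) hKL)).comap
        (alphaR (Lvl K₀) N p (baseRing A K₀)).toRingHom).map
          (Fermat.Agent.S40.M1.AlphaNodeLevel.th (Lvl K₀) N (baseRing A K₀)))
    (hzα2 : Fermat.Agent.S40.M1.AlphaNodeLevel.th (Lvl K₀) N (baseRing A K₀) zα₀ ∉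
      (((𝔫.comap (finIncl A (N * p) hKL)).comap
        (alphaR (Lvl K₀) N p (baseRing A K₀)).toRingHom).map
          (Fermat.Agent.S40.M1.AlphaNodeLevel.th (Lvl K₀) N (baseRing A K₀))) ^ 2)
    (hzβ : Fermat.Agent.S40.M1.AlphaNodeLevel.th (Lvl K₀) N (baseRing A K₀) zβ₀ ∈
      ((𝔫.comap (finIncl A (N * p) hKL)).comap
        (betaR (Lvl K₀) N p (baseRing A K₀)).toRingHom).map
          (Fermat.Agent.S40.M1.AlphaNodeLevel.th (Lvl K₀) N (baseRing A K₀)))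
    (hzβ2 : Fermat.Agent.S40.M1.AlphaNodeLevel.th (Lvl K₀) N (baseRing A K₀) zβ₀ ∉
      (((𝔫.comap (finIncl A (N * p) hKL)).comap
        (betaR (Lvl K₀) N p (baseRing A K₀)).toRingHom).map
          (Fermat.Agent.S40.M1.AlphaNodeLevel.th (Lvl K₀) N (baseRing A K₀))) ^ 2)
    {Qα Qβ : Place (Lvl K) (FF (Lvl K) N)}
    {hQα : Function.Bijective (algebraMap (Lvl K) Qα.ResidueField)}
    {hQβ : Function.Bijective (algebraMap (Lvl K) Qβ.ResidueField)}
    (hα : IsSection (Rfin (Lvl K) N (baseRing A K)) Qα hQα)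
    (hβ : IsSection (Rfin (Lvl K) N (baseRing A K)) Qβ hQβ)
    (hcα : centre hα = 𝔫.comap (alphaR (Lvl K) N p (baseRing A K)).toRingHom)
    (hcβ : centre hβ = 𝔫.comap (betaR (Lvl K) N p (baseRing A K)).toRingHom)
    {nα nβ : ℕ}
    (hevα : ev hα (finIncl A N hKL zα₀) =
      baseMapIncl A hKL (Fermat.Agent.S40.M1.R4UniformGood.csP A p K₀ nα))
    (hevβ : ev hβ (finIncl A N hKL zβ₀) =
      baseMapIncl A hKL (Fermat.Agent.S40.M1.R4UniformGood.csP A p K₀ nβ)) :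
    ∃ tA tB eA eB : Lvl K,
      Qα.toValuationSubring.valuation (normAlphaK K N p
        ((finIncl A (N * p) hKL u₀ : ↥(Rfin (Lvl K) (N * p) (baseRing A K))) :
          FF (Lvl K) (N * p))) = 1 ∧
      Qβ.toValuationSubring.valuation (normBetaK K N p
        ((finIncl A (N * p) hKL u₀ : ↥(Rfin (Lvl K) (N * p) (baseRing A K))) :
          FF (Lvl K) (N * p))) = 1 ∧
      tA ≠ 0 ∧ tB ≠ 0 ∧
      valT Qα hQα (normAlphaK K N p
        ((finIncl A (N * p) hKL u₀ : ↥(Rfin (Lvl K) (N * p) (baseRing A K))) :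
          FF (Lvl K) (N * p))) = (p : Lvl K) ^ p * tA ^ p * eA ∧
      IsPU (lvlVS A K) (p : Lvl K) eA ∧
      valT Qβ hQβ (normBetaK K N p
        ((finIncl A (N * p) hKL u₀ : ↥(Rfin (Lvl K) (N * p) (baseRing A K))) :
          FF (Lvl K) (N * p))) = (p : Lvl K) * tB ^ p * eB ∧
      IsPU (lvlVS A K) (p : Lvl K) eB ∧
      (∀ σ' : SemilinearAut (Lvl K) (FF (Lvl K) N), σ' • Qα = Qα →
        (∀ x : ↥(Rfin (Lvl K₀) N (baseRing A K₀)),
          σ' • ffMap (lvlIncl hKL) N (x : FF (Lvl K₀) N) =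
            ffMap (lvlIncl hKL) N (x : FF (Lvl K₀) N)) →
        SemilinearAut.baseAut σ' tA = tA) ∧
      (∀ σ' : SemilinearAut (Lvl K) (FF (Lvl K) N), σ' • Qβ = Qβ →
        (∀ x : ↥(Rfin (Lvl K₀) N (baseRing A K₀)),
          σ' • ffMap (lvlIncl hKL) N (x : FF (Lvl K₀) N) =
            ffMap (lvlIncl hKL) N (x : FF (Lvl K₀) N)) →
        SemilinearAut.baseAut σ' tB = tB) := by
  have hp : p.Prime := Fact.out
  obtain ⟨hN₀, hprime₀, hsm₀, -, -, -, -⟩ := levelFacts_unram N p hpN A hA K₀ hK₀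
  haveI : IsAlgClosed (IsLocalRing.ResidueField ↥(baseRing A K₀)) := hK₀.algClosed
  obtain ⟨T₂⟩ := Fermat.Agent.P3G.FibreTwo.nonempty_secondVal (Lvl K₀) N p (baseRing A K₀)
    (Fermat.Agent.P3G.GammaV2.lvlToComplex K₀) hpN hprime₀ hA2₀
  have H := levelRestrictHyp_levels N p hpN A hA hKL hK₀ hK hA2₀ hA2 T₂ S₂
  haveI h𝔫₀ : (𝔫.comap (finIncl A (N * p) hKL)).IsMaximal := H.isMaximal_comap ht₁
  obtain ⟨εα, εβ, hεα, hεβ, -, -, -, -, -, -, hNα, hNβ⟩ :=
    Fermat.Agent.S40.M1.NormUBase.norm_u_levels N p hpN A hA hKL hK₀ hK hA2₀ hA2 S₂ hn ht₁ ht₂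
  have hp0 : ((p : ℕ) : Lvl K) ≠ 0 := Nat.cast_ne_zero.mpr hp.ne_zero
  have hpirr : Irreducible ((p : ℕ) : ↥(baseRing A K₀)) := hK₀.irred
  -- α-side
  have hAside : Qα.toValuationSubring.valuation (normAlphaK K N p
        ((finIncl A (N * p) hKL u₀ : ↥(Rfin (Lvl K) (N * p) (baseRing A K))) :
          FF (Lvl K) (N * p))) = 1 ∧
      ∃ tA eA : Lvl K, tA ≠ 0 ∧ IsPU (lvlVS A K) (p : Lvl K) eA ∧
        valT Qα hQα (normAlphaK K N p
          ((finIncl A (N * p) hKL u₀ : ↥(Rfin (Lvl K) (N * p) (baseRing A K))) :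
            FF (Lvl K) (N * p))) = (p : Lvl K) ^ p * tA ^ p * eA ∧
        ∀ σ' : SemilinearAut (Lvl K) (FF (Lvl K) N), σ' • Qα = Qα →
          (∀ x : ↥(Rfin (Lvl K₀) N (baseRing A K₀)),
            σ' • ffMap (lvlIncl hKL) N (x : FF (Lvl K₀) N) =
              ffMap (lvlIncl hKL) N (x : FF (Lvl K₀) N)) →
          SemilinearAut.baseAut σ' tA = tA := by
    set sα : Ideal ↥(Rfin (Lvl K₀) N (baseRing A K₀)) :=
      (𝔫.comap (finIncl A (N * p) hKL)).comap (alphaR (Lvl K₀) N p (baseRing A K₀)).toRingHom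
      with hsα
    haveI hsαmax : sα.IsMaximal :=
      Fermat.Agent.S40.M1.R4UniformGood.comap_alphaR_isMaximal (Lvl K₀) N p (baseRing A K₀)
        (Fermat.Agent.P3G.GammaV2.lvlToComplex K₀) hpN _
    haveI : sα.IsPrime := hsαmax.isPrime
    have hsα' : sα = (centre hα).comap
        (finMap (lvlIncl hKL) N (baseRing A K₀) (baseRing A K) (lvlIncl_mem A hKL)) := by
      rw [hcα]
      exact (comap_alphaR_comap_finMap (Lvl K₀) (Lvl K) (lvlIncl hKL) N (baseRing A K₀)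
        (baseRing A K) (lvlIncl_mem A hKL) p 𝔫).symm
    have hpmem : ((p : ℕ) : ↥(Rfin (Lvl K₀) N (baseRing A K₀))) ∈ sα :=
      natCast_mem_small_alpha N p A hKL hK ht₁
    have hm := Fermat.Agent.S40.M1.NormUValFrob.maximalIdeal_eq_span_natCast (Lvl K₀) N
      (baseRing A K₀) hprime₀ hsm₀ hpirr sα hpmem (Localization.AtPrime sα) hzα hzα2
    have hfrob : ∀ x : Localization.AtPrime sα, ∃ y : Localization.AtPrime sα,
        x - y ^ p ∈ IsLocalRing.maximalIdeal (Localization.AtPrime sα) := fun x =>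
      Fermat.Agent.S40.M1.NormUValFrob.frob_fin (Lvl K₀) N (baseRing A K₀) hpirr sα
        (by rw [map_natCast]; exact hpmem) (Localization.AtPrime sα) p x
    exact Fermat.Agent.S40.M1.NormUValSection.r4a_alpha_finMap (Lvl K₀) (Lvl K) (lvlIncl hKL) N
      (baseRing A K₀) (baseRing A K) (lvlIncl_mem A hKL) hα (lvlVS A K) (fun a => a.2) sα hsα'
      (Localization.AtPrime sα) hm hfrob hevα
      (Fermat.Agent.S40.M1.R4UniformGood.csP_def A p K₀ nα ▸ pow_succ' _ _) hp0 hεα hNα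
  -- β-side
  have hBside : Qβ.toValuationSubring.valuation (normBetaK K N p
        ((finIncl A (N * p) hKL u₀ : ↥(Rfin (Lvl K) (N * p) (baseRing A K))) :
          FF (Lvl K) (N * p))) = 1 ∧
      ∃ tB eB : Lvl K, tB ≠ 0 ∧ IsPU (lvlVS A K) (p : Lvl K) eB ∧
        valT Qβ hQβ (normBetaK K N p
          ((finIncl A (N * p) hKL u₀ : ↥(Rfin (Lvl K) (N * p) (baseRing A K))) :
            FF (Lvl K) (N * p))) = (p : Lvl K) * tB ^ p * eB ∧
        ∀ σ' : SemilinearAut (Lvl K) (FF (Lvl K) N), σ' • Qβ = Qβ →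
          (∀ x : ↥(Rfin (Lvl K₀) N (baseRing A K₀)),
            σ' • ffMap (lvlIncl hKL) N (x : FF (Lvl K₀) N) =
              ffMap (lvlIncl hKL) N (x : FF (Lvl K₀) N)) →
          SemilinearAut.baseAut σ' tB = tB := by
    set sβ : Ideal ↥(Rfin (Lvl K₀) N (baseRing A K₀)) :=
      (𝔫.comap (finIncl A (N * p) hKL)).comap (betaR (Lvl K₀) N p (baseRing A K₀)).toRingHom
      with hsβ
    haveI hsβmax : sβ.IsMaximal :=
      Fermat.Agent.S40.M1.R4UniformGood.comap_betaR_isMaximal (Lvl K₀) N p (baseRing A K₀)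
        (Fermat.Agent.P3G.GammaV2.lvlToComplex K₀) hpN _
    haveI : sβ.IsPrime := hsβmax.isPrime
    have hsβ' : sβ = (centre hβ).comap
        (finMap (lvlIncl hKL) N (baseRing A K₀) (baseRing A K) (lvlIncl_mem A hKL)) := by
      rw [hcβ]
      exact (comap_betaR_comap_finMap (Lvl K₀) (Lvl K) (lvlIncl hKL) N (baseRing A K₀)
        (baseRing A K) (lvlIncl_mem A hKL) p 𝔫).symm
    have hpmem : ((p : ℕ) : ↥(Rfin (Lvl K₀) N (baseRing A K₀))) ∈ sβ :=
      natCast_mem_small_beta N p A hKL hK ht₁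
    have hm := Fermat.Agent.S40.M1.NormUValFrob.maximalIdeal_eq_span_natCast (Lvl K₀) N
      (baseRing A K₀) hprime₀ hsm₀ hpirr sβ hpmem (Localization.AtPrime sβ) hzβ hzβ2
    have hfrob : ∀ x : Localization.AtPrime sβ, ∃ y : Localization.AtPrime sβ,
        x - y ^ p ∈ IsLocalRing.maximalIdeal (Localization.AtPrime sβ) := fun x =>
      Fermat.Agent.S40.M1.NormUValFrob.frob_fin (Lvl K₀) N (baseRing A K₀) hpirr sβ
        (by rw [map_natCast]; exact hpmem) (Localization.AtPrime sβ) p x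
    exact Fermat.Agent.S40.M1.NormUValSection.r4a_beta_finMap (Lvl K₀) (Lvl K) (lvlIncl hKL) N
      (baseRing A K₀) (baseRing A K) (lvlIncl_mem A hKL) hβ (lvlVS A K) (fun a => a.2) sβ hsβ'
      (Localization.AtPrime sβ) hm hfrob hevβ
      (Fermat.Agent.S40.M1.R4UniformGood.csP_def A p K₀ nβ ▸ pow_succ' _ _) hp0 hεβ hNβ
  obtain ⟨hUα, tA, eA, htA, heA, hvA, hiA⟩ := hAside
  obtain ⟨hUβ, tB, eB, htB, heB, hvB, hiB⟩ := hBside
  exact ⟨tA, tB, eA, eB, hUα, hUβ, htA, htB, hvA, heA, hvB, heB, hiA, hiB⟩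

set_option maxHeartbeats 3200000 in
include hpN hA hK₀ hK hA2₀ hA2 in
/-- ★★ **The body of `R4Aux.NodeData` at a crossing point of a good level, from the two test places.** -/
theorem nodeData_of_testPlaces {ϖ : ↥(baseRing A K)} (hϖ : Irreducible ϖ)
    {𝔫 : Ideal ↥(Rfin (Lvl K) (N * p) (baseRing A K))} [h𝔫 : 𝔫.IsMaximal]
    {u₀ v₀ G₀ : ↥(Rfin (Lvl K₀) (N * p) (baseRing A K₀))}
    (hn : HonestNode (Lvl K₀) (Lvl K) N p (baseRing A K₀) (baseRing A K) (lvlIncl hKL)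
      (lvlIncl_mem A hKL) S₂ 𝔫 u₀ v₀ G₀)
    (ht₁ : Through (gaussVS (Lvl K) (N * p) (baseRing A K)) 𝔫) (ht₂ : Through S₂.V 𝔫)
    {zα₀ zβ₀ : ↥(Rfin (Lvl K₀) N (baseRing A K₀))}
    (hzα : Fermat.Agent.S40.M1.AlphaNodeLevel.th (Lvl K₀) N (baseRing A K₀) zα₀ ∈
      ((𝔫.comap (finIncl A (N * p) hKL)).comap
        (alphaR (Lvl K₀) N p (baseRing A K₀)).toRingHom).map
          (Fermat.Agent.S40.M1.AlphaNodeLevel.th (Lvl K₀) N (baseRing A K₀)))
    (hzα2 : Fermat.Agent.S40.M1.AlphaNodeLevel.th (Lvl K₀) N (baseRing A K₀) zα₀ ∉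
      (((𝔫.comap (finIncl A (N * p) hKL)).comap
        (alphaR (Lvl K₀) N p (baseRing A K₀)).toRingHom).map
          (Fermat.Agent.S40.M1.AlphaNodeLevel.th (Lvl K₀) N (baseRing A K₀))) ^ 2)
    (hzβ : Fermat.Agent.S40.M1.AlphaNodeLevel.th (Lvl K₀) N (baseRing A K₀) zβ₀ ∈
      ((𝔫.comap (finIncl A (N * p) hKL)).comap
        (betaR (Lvl K₀) N p (baseRing A K₀)).toRingHom).map
          (Fermat.Agent.S40.M1.AlphaNodeLevel.th (Lvl K₀) N (baseRing A K₀)))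
    (hzβ2 : Fermat.Agent.S40.M1.AlphaNodeLevel.th (Lvl K₀) N (baseRing A K₀) zβ₀ ∉
      (((𝔫.comap (finIncl A (N * p) hKL)).comap
        (betaR (Lvl K₀) N p (baseRing A K₀)).toRingHom).map
          (Fermat.Agent.S40.M1.AlphaNodeLevel.th (Lvl K₀) N (baseRing A K₀))) ^ 2)
    {nα nβ : ℕ} {Gs : Finset ↥(modularFunctionFieldBar N)}
    (hTα : Fermat.Agent.S40.M1.R4Uniform.TestPlace A N hKL zα₀
      (Fermat.Agent.S40.M1.R4UniformGood.csP A p K₀ nα) Gs
      (𝔫.comap (alphaR (Lvl K) N p (baseRing A K)).toRingHom))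
    (hTβ : Fermat.Agent.S40.M1.R4Uniform.TestPlace A N hKL zβ₀
      (Fermat.Agent.S40.M1.R4UniformGood.csP A p K₀ nβ) Gs
      (𝔫.comap (betaR (Lvl K) N p (baseRing A K)).toRingHom)) :
    ∃ (Qα Qβ : Place (Lvl K) (FF (Lvl K) N))
      (hQα : Function.Bijective (algebraMap (Lvl K) Qα.ResidueField))
      (hQβ : Function.Bijective (algebraMap (Lvl K) Qβ.ResidueField))
      (tA tB eA eB : Lvl K),
      Qα.toValuationSubring.valuation (normAlphaK K N p
        ((finIncl A (N * p) hKL u₀ : ↥(Rfin (Lvl K) (N * p) (baseRing A K))) :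
        FF (Lvl K) (N * p))) = 1 ∧
      Qβ.toValuationSubring.valuation (normBetaK K N p
        ((finIncl A (N * p) hKL u₀ : ↥(Rfin (Lvl K) (N * p) (baseRing A K))) :
        FF (Lvl K) (N * p))) = 1 ∧
      tA ≠ 0 ∧ tB ≠ 0 ∧
      valT Qα hQα (normAlphaK K N p
        ((finIncl A (N * p) hKL u₀ : ↥(Rfin (Lvl K) (N * p) (baseRing A K))) :
        FF (Lvl K) (N * p))) = (p : Lvl K) ^ p * tA ^ p * eA ∧
      IsPU (lvlVS A K) (p : Lvl K) eA ∧
      valT Qβ hQβ (normBetaK K N p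
        ((finIncl A (N * p) hKL u₀ : ↥(Rfin (Lvl K) (N * p) (baseRing A K))) :
        FF (Lvl K) (N * p))) = (p : Lvl K) * tB ^ p * eB ∧
      IsPU (lvlVS A K) (p : Lvl K) eB ∧
      (∀ W : FF (Lvl K) (N * p), IsUnitAt 𝔫 W →
        Qα.toValuationSubring.valuation (normAlphaK K N p W) = 1 ∧
        Qβ.toValuationSubring.valuation (normBetaK K N p W) = 1 ∧
        (valT Qβ hQβ (normBetaK K N p W))⁻¹ ∈ lvlVS A K ∧
        ∃ d ∈ lvlVS A K, valT Qα hQα (normAlphaK K N p W) =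
          valT Qβ hQβ (normBetaK K N p W) + (p : Lvl K) * d) ∧
      ∀ σ₀ ∈ A.inertiaSubgroupIn ℚ,
        levelFF K hK.stable N σ₀ • Qα = Qα ∧ levelFF K hK.stable N σ₀ • Qβ = Qβ ∧
        levelAut K hK.stable σ₀ tA = tA ∧ levelAut K hK.stable σ₀ tB = tB := by
  obtain ⟨Qα, hQα, hα, hQαc, hcα, hevα, hordα, -, -, -⟩ := hTα
  obtain ⟨Qβ, hQβ, hβ, hQβc, hcβ, hevβ, hordβ, -, -, -⟩ := hTβ
  obtain ⟨tA, tB, eA, eB, hUα, hUβ, htA, htB, hvA, heA, hvB, heB, hiA, hiB⟩ :=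
    r4a_good N p hpN A hA hKL hK₀ hK hA2₀ hA2 S₂ hn ht₁ ht₂ hzα hzα2 hzβ hzβ2 hα hβ hcα hcβ hevα
      hevβ
  have hW := Fermat.Agent.S40.M1.NodeDGoodB.r4b_good N p hpN A hA hKL hK₀ hK hA2₀ hA2 S₂ hϖ hn ht₁
    ht₂ hzα hzα2 hzβ hzβ2 Qα Qβ hQα hQβ hα hβ hcα hcβ
    (Fermat.Agent.S40.M1.R4UniformGood.mem_span_of_eq_baseMapIncl_csP A p hKL hevα)
    (Fermat.Agent.S40.M1.R4UniformGood.mem_span_of_eq_baseMapIncl_csP A p hKL hevβ)
    (lvlVS A K) (fun a => a.2)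
  refine ⟨Qα, Qβ, hQα, hQβ, tA, tB, eA, eB, hUα, hUβ, htA, htB, hvA, heA, hvB, heB, hW,
    fun σ₀ hσ₀ => ?_⟩
  -- the invariance block
  have hϖ𝔫 : algebraMap ↥(baseRing A K) ↥(Rfin (Lvl K) (N * p) (baseRing A K)) ϖ ∈ 𝔫 :=
    Fermat.Agent.S40.M1.SSFinite.unif_mem_of_through (Lvl K) N p (baseRing A K) ht₁ hϖ
  haveI hmα : (𝔫.comap (alphaR (Lvl K) N p (baseRing A K)).toRingHom).IsMaximal :=
    Fermat.Agent.S40.M1.R4UniformGood.comap_alphaR_isMaximal (Lvl K) N p (baseRing A K)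
      (Fermat.Agent.P3G.GammaV2.lvlToComplex K) hpN 𝔫
  haveI hmβ : (𝔫.comap (betaR (Lvl K) N p (baseRing A K)).toRingHom).IsMaximal :=
    Fermat.Agent.S40.M1.R4UniformGood.comap_betaR_isMaximal (Lvl K) N p (baseRing A K)
      (Fermat.Agent.P3G.GammaV2.lvlToComplex K) hpN 𝔫
  have hcomα := comap_alphaR_comap_finMap (Lvl K₀) (Lvl K) (lvlIncl hKL) N (baseRing A K₀)
    (baseRing A K) (lvlIncl_mem A hKL) p 𝔫
  have hcomβ := comap_betaR_comap_finMap (Lvl K₀) (Lvl K) (lvlIncl hKL) N (baseRing A K₀)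
    (baseRing A K) (lvlIncl_mem A hKL) p 𝔫
  have hpirr : Irreducible ((p : ℕ) : ↥(baseRing A K₀)) := hK₀.irred
  have hfixα : levelFF K hK.stable N σ₀ • Qα = Qα :=
    Fermat.Agent.S40.M1.R4Inv.testPlace_fixed N p hpN A hA hKL hK₀ hK hpirr hϖ
      (𝔫.comap (alphaR (Lvl K) N p (baseRing A K)).toRingHom)
      (Fermat.Agent.S40.M1.R4UniformGood.algebraMap_mem_comap_alphaR (Lvl K) N p (baseRing A K)
        hϖ𝔫)
      (by
        rw [show (𝔫.comap (alphaR (Lvl K) N p (baseRing A K)).toRingHom).comap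
          (finIncl A N hKL) = (𝔫.comap (finIncl A (N * p) hKL)).comap
            (alphaR (Lvl K₀) N p (baseRing A K₀)).toRingHom from hcomα]
        exact hzα)
      (by
        rw [show (𝔫.comap (alphaR (Lvl K) N p (baseRing A K)).toRingHom).comap
          (finIncl A N hKL) = (𝔫.comap (finIncl A (N * p) hKL)).comap
            (alphaR (Lvl K₀) N p (baseRing A K₀)).toRingHom from hcomα]
        exact hzα2)
      (Fermat.Agent.S40.M1.R4UniformGood.dvd_csP A p hK₀ hpirr nα) hQαc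
      (by rw [hordα]; exact one_pos) hσ₀
  have hfixβ : levelFF K hK.stable N σ₀ • Qβ = Qβ :=
    Fermat.Agent.S40.M1.R4Inv.testPlace_fixed N p hpN A hA hKL hK₀ hK hpirr hϖ
      (𝔫.comap (betaR (Lvl K) N p (baseRing A K)).toRingHom)
      (Fermat.Agent.S40.M1.R4UniformGood.algebraMap_mem_comap_betaR (Lvl K) N p (baseRing A K)
        hϖ𝔫)
      (by
        rw [show (𝔫.comap (betaR (Lvl K) N p (baseRing A K)).toRingHom).comap
          (finIncl A N hKL) = (𝔫.comap (finIncl A (N * p) hKL)).comap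
            (betaR (Lvl K₀) N p (baseRing A K₀)).toRingHom from hcomβ]
        exact hzβ)
      (by
        rw [show (𝔫.comap (betaR (Lvl K) N p (baseRing A K)).toRingHom).comap
          (finIncl A N hKL) = (𝔫.comap (finIncl A (N * p) hKL)).comap
            (betaR (Lvl K₀) N p (baseRing A K₀)).toRingHom from hcomβ]
        exact hzβ2)
      (Fermat.Agent.S40.M1.R4UniformGood.dvd_csP A p hK₀ hpirr nβ) hQβc
      (by rw [hordβ]; exact one_pos) hσ₀
  have hψ : ∀ x : ↥(Rfin (Lvl K₀) N (baseRing A K₀)),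
      levelFF K hK.stable N σ₀ • ffMap (lvlIncl hKL) N (x : FF (Lvl K₀) N) =
        ffMap (lvlIncl hKL) N (x : FF (Lvl K₀) N) := fun x =>
    Fermat.Agent.S40.M1.NodeGalois.levelFF_smul_ffMap hKL hK.stable N (hK₀.fixed σ₀ hσ₀) _
  refine ⟨hfixα, hfixβ, ?_, ?_⟩
  · have := hiA (levelFF K hK.stable N σ₀) hfixα hψ
    rwa [baseAut_levelFF] at this
  · have := hiB (levelFF K hK.stable N σ₀) hfixβ hψ
    rwa [baseAut_levelFF] at this

end Fermat.Agent.S40.M1.NodeDataK
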