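/-
S40 / S44 (row 38), T6′ static route, block (R4), test places (helper6; PACK of helper29 #3311): **the
test places at `α(𝔫)`, `β(𝔫)` for EVERY crossing point `𝔫` of EVERY good level `K ⊇ K₀, K₁`, with local
parameters and constants chosen at the unramified level `K₀` BEFORE `K`** — the named uniform input of
`R4Aux` for the test places (shared by [R4a], [R4b] and [INV]).

One level `(K, O)`:
* `IsLocParAlpha K N ℓ O 𝔫₀ z`, `IsLocParBeta` : `z` is a local parameter at `α(𝔫₀)` (resp. `β(𝔫₀)`) on the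
  special fibre (`hzα hzα2` / `hzβ hzβ2` of `NodeDGoodB.r4b_good`, the (F2)-shape of `NodeFieldsB`);
* `zAlpha K N ℓ O 𝔫₀`, `zBeta` : a choice of such parameters (`0` if none);
  `isLocParAlpha_zAlpha`, `isLocParBeta_zBeta` : they ARE local parameters when `𝔫₀` is a crossing point.

Levels `K₀` unramified, binder block of `R4Final.dvd_ord_of_node`:
* ★★ `exists_level_testPlaces_good` : `∃ K₁` f.d., `∀ K ⊇ K₀, K₁` good, `∀ 𝔫` maximal through both components: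
  with `𝔫₀ := 𝔫.comap finIncl`, `zα₀ := zAlpha … 𝔫₀`, `zβ₀ := zBeta … 𝔫₀`: `∃ nα nβ`, `hzα ∧ hzα2 ∧ hzβ ∧ hzβ2`
  (shapes of `r4b_good`) `∧ TestPlace A N hKL zα₀ (p ^ (nα + 1)) Gs (𝔫.comap alphaR) ∧
  TestPlace A N hKL zβ₀ (p ^ (nβ + 1)) Gs (𝔫.comap betaR)`;
* `TestPlace.ev_mem_span` … : reading off `hevα`/`hevβ` of `r4b_good` from a `TestPlace` at `csP`.
-/
import Mathlib
import Fermat.Agent.S40.M1.R4Uniform
import Fermat.Agent.S40.M1.R4UniformGood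

set_option autoImplicit false
set_option linter.unusedSectionVars false
set_option linter.unusedVariables false
set_option linter.style.haveILetI false
set_option linter.style.longLine false
set_option synthInstance.maxHeartbeats 400000
set_option maxHeartbeats 1600000

open ModularCurve AlgebraicCurve
open Fermat.Agent.S28.Gauss Fermat.Agent.N4.Setting Fermat.Agent.N4.FibreEmbedding
open Fermat.Agent.N4.Chart
open Fermat.Agent.N4F.E.DegreeLevelRaise Fermat.Agent.N4F.E.GaussDVR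
open Fermat.Agent.N4F.E IsLocalRing Fermat.Agent.P3G Fermat.Agent.P4
open Fermat.Agent.P3G.RbarFin Fermat.Agent.P3G.TwoComponentsFinal
open Fermat.Agent.P4.TwistRoots Fermat.Agent.N4F.C.ChartFibre Fermat.Agent.S40.W.F4Level
open Fermat.Agent.S40.W.F4Place Fermat.Agent.S40.W.F4Node
open Fermat.Agent.N4.BaseDescent Fermat.Agent.S19.Cech.LevelBasis
open Fermat.Agent.N4F.C Fermat.Agent.N4F.C.Levels Fermat.Agent.N4F.C.LevelCharts
  Fermat.Agent.N4F.C.ChartFactsProof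
open Fermat.Agent.S40.M1.AlphaNodeLevel Fermat.Agent.P3G.LevelIntegrality
open Fermat.Agent.G.Points Fermat.Agent.G.PointsLoc Fermat.Agent.P3G.UCrit

noncomputable section

namespace Fermat.Agent.S40.M1.R4UniformPack

/-! ### Local parameters at the image points, one level -/

section Level

variable (K : Type) [Field K] [CharZero K] (N : ℕ) [NeZero N] (ℓ : ℕ) [Fact ℓ.Prime]
  (O : Subring K) [IsDiscreteValuationRing ↥O] [IsFractionRing ↥O K]

/-- `z` is a local parameter of the special fibre at `α(𝔫₀)`. -/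
def IsLocParAlpha (𝔫₀ : Ideal ↥(Rfin K (N * ℓ) O)) (z : ↥(Rfin K N O)) : Prop :=
  th K N O z ∈ (𝔫₀.comap (alphaR K N ℓ O).toRingHom).map (th K N O) ∧
    th K N O z ∉ ((𝔫₀.comap (alphaR K N ℓ O).toRingHom).map (th K N O)) ^ 2

/-- `z` is a local parameter of the special fibre at `β(𝔫₀)`. -/
def IsLocParBeta (𝔫₀ : Ideal ↥(Rfin K (N * ℓ) O)) (z : ↥(Rfin K N O)) : Prop :=
  th K N O z ∈ (𝔫₀.comap (betaR K N ℓ O).toRingHom).map (th K N O) ∧
    th K N O z ∉ ((𝔫₀.comap (betaR K N ℓ O).toRingHom).map (th K N O)) ^ 2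

open Classical in
/-- **A chosen local parameter at `α(𝔫₀)`** (`0` if there is none). -/
def zAlpha (𝔫₀ : Ideal ↥(Rfin K (N * ℓ) O)) : ↥(Rfin K N O) :=
  if h : ∃ z, IsLocParAlpha K N ℓ O 𝔫₀ z then Classical.choose h else 0

open Classical in
/-- **A chosen local parameter at `β(𝔫₀)`** (`0` if there is none). -/
def zBeta (𝔫₀ : Ideal ↥(Rfin K (N * ℓ) O)) : ↥(Rfin K N O) :=
  if h : ∃ z, IsLocParBeta K N ℓ O 𝔫₀ z then Classical.choose h else 0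

theorem isLocParAlpha_zAlpha_of_exists {𝔫₀ : Ideal ↥(Rfin K (N * ℓ) O)}
    (h : ∃ z, IsLocParAlpha K N ℓ O 𝔫₀ z) : IsLocParAlpha K N ℓ O 𝔫₀ (zAlpha K N ℓ O 𝔫₀) := by
  unfold zAlpha
  rw [dif_pos h]
  exact Classical.choose_spec h

theorem isLocParBeta_zBeta_of_exists {𝔫₀ : Ideal ↥(Rfin K (N * ℓ) O)}
    (h : ∃ z, IsLocParBeta K N ℓ O 𝔫₀ z) : IsLocParBeta K N ℓ O 𝔫₀ (zBeta K N ℓ O 𝔫₀) := by
  unfold zBeta
  rw [dif_pos h]
  exact Classical.choose_spec h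

variable [CharP (IsLocalRing.ResidueField ↥O) ℓ] [PerfectRing (IsLocalRing.ResidueField ↥O) ℓ]
  (hN : IsUnit ((N : ℕ) : ↥O)) (ι : K →+* ℂ) (hℓN : ¬ ℓ ∣ N)
  (hprime : (fibreIdeal K N O (Rfin K N O)).IsPrime)
  (hsmooth : IsDedekindDomain (↥(Rfin K N O) ⧸ fibreIdeal K N O (Rfin K N O)))
  (hA2 : ∀ x : ↥(gaussSubalgebra K N O),
    theta K N O x ∈ modularFunctionFieldFullC (IsLocalRing.ResidueField ↥O) N)
  (S₂ : FibreTwo.SecondVal K N ℓ O)

include hN ι hℓN hprime hsmooth hA2 in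
/-- Local parameters at `α(𝔫₀)` exist for a crossing point `𝔫₀`. -/
theorem exists_isLocParAlpha {𝔫₀ : Ideal ↥(Rfin K (N * ℓ) O)}
    (h𝔫₀ : 𝔫₀ ∈ SSFinite.crossingSet K N ℓ O S₂) : ∃ z, IsLocParAlpha K N ℓ O 𝔫₀ z := by
  haveI := h𝔫₀.1
  have hk1 := ((SSFinite.mem_crossingSet_iff_ker_le K N ℓ O S₂).1 h𝔫₀).2.1
  obtain ⟨z, hz, hz2⟩ := exists_local_parameter_alpha K N ℓ O hN ι hℓN hprime hsmooth hA2 S₂ 𝔫₀ hk1
  have e := map_comap_alphaR K N ℓ O hN ι hℓN hprime hsmooth hA2 S₂ 𝔫₀ hk1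
  exact ⟨z, by rw [e]; exact hz, by rw [e]; exact hz2⟩

include hN ι hℓN hprime hsmooth hA2 in
/-- Local parameters at `β(𝔫₀)` exist for a crossing point `𝔫₀`. -/
theorem exists_isLocParBeta {𝔫₀ : Ideal ↥(Rfin K (N * ℓ) O)}
    (h𝔫₀ : 𝔫₀ ∈ SSFinite.crossingSet K N ℓ O S₂) : ∃ z, IsLocParBeta K N ℓ O 𝔫₀ z := by
  haveI := h𝔫₀.1
  have hk2 := ((SSFinite.mem_crossingSet_iff_ker_le K N ℓ O S₂).1 h𝔫₀).2.2
  obtain ⟨z, hz, hz2⟩ := exists_local_parameter_beta K N ℓ O hN ι hℓN hprime hsmooth hA2 S₂ 𝔫₀ hk2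
  have e := map_comap_betaR K N ℓ O hN ι hℓN hprime hsmooth hA2 S₂ 𝔫₀ hk2
  exact ⟨z, by rw [e]; exact hz, by rw [e]; exact hz2⟩

include hN ι hℓN hprime hsmooth hA2 in
/-- ★ The chosen `zAlpha 𝔫₀` IS a local parameter at `α(𝔫₀)` for a crossing point `𝔫₀`. -/
theorem isLocParAlpha_zAlpha {𝔫₀ : Ideal ↥(Rfin K (N * ℓ) O)}
    (h𝔫₀ : 𝔫₀ ∈ SSFinite.crossingSet K N ℓ O S₂) :
    IsLocParAlpha K N ℓ O 𝔫₀ (zAlpha K N ℓ O 𝔫₀) :=
  isLocParAlpha_zAlpha_of_exists K N ℓ O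
    (exists_isLocParAlpha K N ℓ O hN ι hℓN hprime hsmooth hA2 S₂ h𝔫₀)

include hN ι hℓN hprime hsmooth hA2 in
/-- ★ The chosen `zBeta 𝔫₀` IS a local parameter at `β(𝔫₀)` for a crossing point `𝔫₀`. -/
theorem isLocParBeta_zBeta {𝔫₀ : Ideal ↥(Rfin K (N * ℓ) O)}
    (h𝔫₀ : 𝔫₀ ∈ SSFinite.crossingSet K N ℓ O S₂) :
    IsLocParBeta K N ℓ O 𝔫₀ (zBeta K N ℓ O 𝔫₀) :=
  isLocParBeta_zBeta_of_exists K N ℓ O
    (exists_isLocParBeta K N ℓ O hN ι hℓN hprime hsmooth hA2 S₂ h𝔫₀)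

end Level

/-! ### Reading off a test place -/

section Read

open Fermat.Agent.S40.M1.R4Uniform Fermat.Agent.S40.M1.R4UniformGood

local notation "Qbar" => AlgebraicClosure ℚ

variable (A : ValuationSubring Qbar) (N : ℕ) [NeZero N] (p : ℕ)
  {K₀ K : IntermediateField ℚ Qbar} (hKL : K₀ ≤ K)
  [IsDiscreteValuationRing ↥(baseRing A K₀)] [IsDiscreteValuationRing ↥(baseRing A K)]

/-- **The D7 inputs of `NodeDGoodB.r4b_good` from a test place with constant `p ^ (n + 1)`.** -/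
theorem TestPlace.d7 {z₀ : ↥(Rfin (Lvl K₀) N (baseRing A K₀))} {n : ℕ}
    {Gs : Finset ↥(modularFunctionFieldBar N)}
    {𝔪' : Ideal ↥(Rfin (Lvl K) N (baseRing A K))}
    (h : TestPlace A N hKL z₀ (csP A p K₀ n) Gs 𝔪') :
    ∃ (Q : Place (Lvl K) (FF (Lvl K) N))
      (hQ : Function.Bijective (algebraMap (Lvl K) Q.ResidueField))
      (hs : IsSection (Rfin (Lvl K) N (baseRing A K)) Q hQ), Q ∈ centredSet (Lvl K) 𝔪' ∧
        centre hs = 𝔪' ∧
        ev hs (finIncl A N hKL z₀) ∈ Ideal.span {((p : ℕ) : ↥(baseRing A K))} ∧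
        ev hs (finIncl A N hKL z₀) = ((p : ℕ) : ↥(baseRing A K)) ^ (n + 1) ∧
        Q.ord (ffMap (lvlIncl hKL) N (z₀ : FF (Lvl K₀) N) -
          algebraMap (Lvl K) (FF (Lvl K) N) (lvlIncl hKL (csP A p K₀ n : Lvl K₀))) = 1 ∧
        (∀ Q' : Place (Lvl K) (FF (Lvl K) N), Q' ∈ centredSet (Lvl K) 𝔪' →
          0 < Q'.ord (ffMap (lvlIncl hKL) N (z₀ : FF (Lvl K₀) N) -
            algebraMap (Lvl K) (FF (Lvl K) N) (lvlIncl hKL (csP A p K₀ n : Lvl K₀))) → Q' = Q) ∧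
        ∀ g : FF (Lvl K) N, levK N K g ∈ Gs → Q.ord g = 0 := by
  obtain ⟨Q, hQ, hs, h1, h2, h3, h4, -, h6, h7⟩ := h
  exact ⟨Q, hQ, hs, h1, h2, mem_span_of_eq_baseMapIncl_csP A p hKL h3,
    h3.trans (baseMapIncl_csP A p hKL n), h4, h6, h7⟩

end Read

/-! ### The pack: `K₀` unramified, all good levels above -/

section Pack

open Fermat.Agent.P3G.Assembly.LevelStep Fermat.Agent.S36.Descent.UnramLevel
open Fermat.Agent.S40.M1.R4Uniform Fermat.Agent.S40.M1.R4UniformGood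
open Fermat.Agent.S40.M1.NodeHonest

local notation "Qbar" => AlgebraicClosure ℚ

variable (N p : ℕ) [NeZero N] [Fact p.Prime] (hpN : ¬ p ∣ N)
  (A : ValuationSubring Qbar) (hA : A.LiesOverPrime p)
  {K₀ : IntermediateField ℚ Qbar} (hK₀ : IsUnramLevel A p K₀)
  [IsDiscreteValuationRing ↥(baseRing A K₀)]
  [CharP (IsLocalRing.ResidueField ↥(baseRing A K₀)) p]
  [PerfectRing (IsLocalRing.ResidueField ↥(baseRing A K₀)) p]
  (hA2₀ : ∀ x : ↥(gaussSubalgebra (Lvl K₀) N (baseRing A K₀)),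
    theta (Lvl K₀) N (baseRing A K₀) x ∈
      modularFunctionFieldFullC (IsLocalRing.ResidueField ↥(baseRing A K₀)) N)

include hpN hA hK₀ hA2₀ in
/-- ★★ **The test places, uniformly over all good levels and all crossing points** (the named uniform
input of `R4Aux` for the test places).  The local parameters `zα₀ = zAlpha … 𝔫₀`, `zβ₀ = zBeta … 𝔫₀` and the
exponents `nα nβ` depend only on the crossing point `𝔫₀ = 𝔫.comap finIncl` of the unramified level. -/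
theorem exists_level_testPlaces_good
    (Gs : Finset ↥(modularFunctionFieldBar N)) (hGs : ∀ G ∈ Gs, G ≠ 0) :
    ∃ K₁ : IntermediateField ℚ Qbar, FiniteDimensional ℚ K₁ ∧
      ∀ (K : IntermediateField ℚ Qbar) (hKL : K₀ ≤ K) (hK : IsGoodLevel A p K)
        [IsDiscreteValuationRing ↥(baseRing A K)]
        [CharP (IsLocalRing.ResidueField ↥(baseRing A K)) p]
        [PerfectRing (IsLocalRing.ResidueField ↥(baseRing A K)) p]
        (S₂ : Fermat.Agent.P3G.FibreTwo.SecondVal (Lvl K) N p (baseRing A K)), K₁ ≤ K →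
        ∀ (𝔫 : Ideal ↥(Rfin (Lvl K) (N * p) (baseRing A K))) [𝔫.IsMaximal]
          (ht₁ : Through (gaussVS (Lvl K) (N * p) (baseRing A K)) 𝔫) (ht₂ : Through S₂.V 𝔫),
          ∃ nα nβ : ℕ,
            IsLocParAlpha (Lvl K₀) N p (baseRing A K₀) (𝔫.comap (finIncl A (N * p) hKL))
              (zAlpha (Lvl K₀) N p (baseRing A K₀) (𝔫.comap (finIncl A (N * p) hKL))) ∧
            IsLocParBeta (Lvl K₀) N p (baseRing A K₀) (𝔫.comap (finIncl A (N * p) hKL))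
              (zBeta (Lvl K₀) N p (baseRing A K₀) (𝔫.comap (finIncl A (N * p) hKL))) ∧
            TestPlace A N hKL
              (zAlpha (Lvl K₀) N p (baseRing A K₀) (𝔫.comap (finIncl A (N * p) hKL)))
              (csP A p K₀ nα) Gs (𝔫.comap (alphaR (Lvl K) N p (baseRing A K)).toRingHom) ∧
            TestPlace A N hKL
              (zBeta (Lvl K₀) N p (baseRing A K₀) (𝔫.comap (finIncl A (N * p) hKL)))
              (csP A p K₀ nβ) Gs (𝔫.comap (betaR (Lvl K) N p (baseRing A K)).toRingHom) := by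
  obtain ⟨hN₀, hprime₀, hsm₀, -, -, -, -⟩ := levelFacts_unram N p hpN A hA K₀ hK₀
  obtain ⟨T₂⟩ := Fermat.Agent.P3G.FibreTwo.nonempty_secondVal (Lvl K₀) N p (baseRing A K₀)
    (Fermat.Agent.P3G.GammaV2.lvlToComplex K₀) hpN hprime₀ hA2₀
  have P₁ := levelPack_of_isUnramLevel N p hpN A hA K₀ hK₀
  obtain ⟨π₁, hπ₁⟩ := IsDiscreteValuationRing.exists_irreducible ↥(baseRing A K₀)
  obtain ⟨K₁, hK₁, h⟩ := exists_level_testPlaces_crossing A N p T₂
    (Fermat.Agent.P3G.GammaV2.lvlToComplex K₀) hpN hA2₀ P₁ hπ₁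
    (zAlpha (Lvl K₀) N p (baseRing A K₀)) (zBeta (Lvl K₀) N p (baseRing A K₀)) Gs hGs
    (csP A p K₀) (dvd_csP A p hK₀ hπ₁) (csP_injective A p hK₀)
  refine ⟨K₁, hK₁, fun K hKL hK _ _ _ S₂ hK₁K 𝔫 h𝔫max ht₁ ht₂ => ?_⟩
  haveI : IsAlgClosed (IsLocalRing.ResidueField ↥(baseRing A K)) := hK.algClosed
  have h𝔫 : 𝔫 ∈ SSFinite.crossingSet (Lvl K) N p (baseRing A K) S₂ := ⟨h𝔫max, ht₁, ht₂⟩
  obtain ⟨nα, nβ, hn⟩ := h K hKL S₂ hK₁K 𝔫 h𝔫
  have h𝔫₀ : 𝔫.comap (finIncl A (N * p) hKL) ∈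
      SSFinite.crossingSet (Lvl K₀) N p (baseRing A K₀) T₂ :=
    SSFinite.comap_mem_crossingSet hKL A N p S₂ T₂ hK₀.bij.2 h𝔫
  have hzα := isLocParAlpha_zAlpha (Lvl K₀) N p (baseRing A K₀) hN₀
    (Fermat.Agent.P3G.GammaV2.lvlToComplex K₀) hpN hprime₀ hsm₀ hA2₀ T₂ h𝔫₀
  have hzβ := isLocParBeta_zBeta (Lvl K₀) N p (baseRing A K₀) hN₀
    (Fermat.Agent.P3G.GammaV2.lvlToComplex K₀) hpN hprime₀ hsm₀ hA2₀ T₂ h𝔫₀
  obtain ⟨hα, hβ⟩ := hn (levelPack_of_isGoodLevel N p hpN A hA K hK)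
  exact ⟨nα, nβ, hzα, hzβ,
    hα (comap_alphaR_isMaximal (Lvl K) N p (baseRing A K)
      (Fermat.Agent.P3G.GammaV2.lvlToComplex K) hpN 𝔫) hzα.1 hzα.2,
    hβ (comap_betaR_isMaximal (Lvl K) N p (baseRing A K)
      (Fermat.Agent.P3G.GammaV2.lvlToComplex K) hpN 𝔫) hzβ.1 hzβ.2⟩

end Pack

end Fermat.Agent.S40.M1.R4UniformPack
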