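/-
S40 / S44 (row 38), T6′ static route (`moonshots` row 67), block (R4), FINAL SEAM part C (helper25;
split #3328 (3)): **the named input `R4Aux.NodeData` of `R4Aux.r4Leaf` is a theorem for every unramified
level `K₀`.**

* ★ `nodeData N p hpN A hA hK₀ : R4Aux.NodeData N p A K₀` — uniform wrapper:
  `K₃ :=` the number field `K₁` of helper6's `R4UniformPack.exists_level_testPlaces_good` (helper29
  `R4Uniform`, `Gs := ∅`), chosen BEFORE the good level `K`; per `K ⊇ K₀, K₃` good, per crossing point `𝔫`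
  and honest node `hn` at `𝔫`: instance block (`levelFacts_unram`, `F4Good.levelFacts_good`,
  `F4Good.charP_good`, `IsAlgClosed ⇒ PerfectRing`), the two `R4Uniform.TestPlace`s at `α(𝔫)`, `β(𝔫)`, and
  ONE call of helper17's `NodeDataK.nodeData_of_testPlaces` ((R4a) helper2/helper9/helper18/helper4,
  (R4b) helper28/helper5 `NodeDGoodB.r4b_good`, [INV] helper17 `R4Inv.testPlace_fixed`).
* `r4Leaf_unram` : `SSLeafAsm.R4Leaf N p hpN A L₀` for every `L₀ ⊇ K₀` unramified, hypothesis-free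
  (`R4Aux.r4Leaf` ∘ `nodeData` ∘ helper9 `H3DataLevel.h3Data`).
-/
import Mathlib
import Fermat.Agent.S40.M1.R4Aux
import Fermat.Agent.S40.M1.NodeDataK
import Fermat.Agent.S40.M1.R4UniformPack
import Fermat.Agent.S40.M1.H3DataLevel

set_option autoImplicit false
set_option linter.unusedSectionVars false
set_option linter.unusedVariables false
set_option linter.style.haveILetI false
set_option linter.style.longLine false

open ModularCurve Fermat.Agent.S28.Gauss Fermat.Agent.N4.Setting Fermat.Agent.N4.FibreEmbedding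
open Fermat.Agent.N4.Chart
open Fermat.Agent.N4F.E.DegreeLevelRaise Fermat.Agent.N4F.E.GaussDVR AlgebraicCurve Polynomial
open Fermat.Agent.N4F.E IsLocalRing Fermat.Agent.P3G.RbarFin Fermat.Agent.P3G.TwoComponents
open Fermat.Agent.P3G.TwoComponentsFinal Fermat.Agent.P3G Fermat.Agent.P4
open Fermat.Agent.P4.TwistRoots Fermat.Agent.P3G.UCrit
open Fermat.Agent.S40.W.F4Level Fermat.Agent.S40.W.F4Place Fermat.Agent.S40.W.F4Node
open Fermat.Agent.N4.BaseDescent Fermat.Agent.S19.Cech.LevelBasis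
open Fermat.Agent.S40.M1.NodeHonest Fermat.Agent.S40.M1.NodeFactor
open Fermat.Agent.S40.M1.NodeFactorLevel Fermat.Agent.S40.M1.NodeInv Fermat.Agent.S40.M1.NodeCore
open Fermat.Agent.S40.M1.NodeGalois Fermat.Agent.S40.M1.NodeQbar
open Fermat.Agent.P4.FrobLevelStep Fermat.Agent.P3G.GammaAut

noncomputable section

namespace Fermat.Agent.S40.M1.NodeDataAsm

open Fermat.Agent.N4.S18Glue Fermat.Agent.N4.BigDVR
  Fermat.Agent.P3G.Assembly.StepOfLevel Fermat.Agent.P3G.Assembly.LevelStep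
  Fermat.Agent.N4F.C Fermat.Agent.N4F.C.Levels Fermat.Agent.N4F.C.Galois
  Fermat.Agent.S33.L.Contracts Fermat.Agent.N4F.C.ChartFibre
  Fermat.Agent.S36.Descent.UnramLevel Fermat.Agent.P3G.Gamma
  Fermat.Agent.S40.M1.R4Aux

local notation "Qbar" => AlgebraicClosure ℚ
local notation "Γ" => (AlgebraicClosure ℚ ≃ₐ[ℚ] AlgebraicClosure ℚ)

variable (N p : ℕ) [NeZero N] [Fact p.Prime] (hpN : ¬ p ∣ N)
  (A : ValuationSubring Qbar) (hA : A.LiesOverPrime p)
  {K₀ : IntermediateField ℚ Qbar} (hK₀ : IsUnramLevel A p K₀)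

set_option maxHeartbeats 3200000 in
set_option synthInstance.maxHeartbeats 400000 in
include hpN hA hK₀ in
/-- ★★ **The named input `R4Aux.NodeData` (test places, [R4a], [R4b], invariance; uniform `K₃`) is a
theorem for every unramified level `K₀`.** -/
theorem nodeData : NodeData N p A K₀ := by
  classical
  haveI : IsDiscreteValuationRing ↥(baseRing A K₀) := hK₀.dvr
  obtain ⟨hN₀, hprime₀, hsm₀, -, -, hA2₀, hchar₀⟩ := levelFacts_unram N p hpN A hA K₀ hK₀
  haveI := hchar₀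
  haveI : IsAlgClosed (IsLocalRing.ResidueField ↥(baseRing A K₀)) := hK₀.algClosed
  haveI : PerfectRing (IsLocalRing.ResidueField ↥(baseRing A K₀)) p := inferInstance
  obtain ⟨K₁, hK₁, hT⟩ := Fermat.Agent.S40.M1.R4UniformPack.exists_level_testPlaces_good N p hpN A hA
    hK₀ hA2₀ (∅ : Finset ↥(modularFunctionFieldBar N)) (by simp)
  refine ⟨K₁, hK₁, ?_⟩
  intro K hK _ hKL hK₁K S₂ 𝔫 _ ht₁ ht₂ u₀ v₀ G₀ hn
  obtain ⟨hN, hprime, hsm, -, -, hA2⟩ := Fermat.Agent.S40.W.F4Good.levelFacts_good N p hpN A hA K hK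
  haveI : CharP (IsLocalRing.ResidueField ↥(baseRing A K)) p :=
    Fermat.Agent.S40.W.F4Good.charP_good N p hpN A K hK
  haveI : IsAlgClosed (IsLocalRing.ResidueField ↥(baseRing A K)) := hK.algClosed
  haveI : PerfectRing (IsLocalRing.ResidueField ↥(baseRing A K)) p := inferInstance
  obtain ⟨ϖ, hϖ⟩ := IsDiscreteValuationRing.exists_irreducible ↥(baseRing A K)
  obtain ⟨nα, nβ, hzα, hzβ, hTα, hTβ⟩ := hT K hKL hK S₂ hK₁K 𝔫 ht₁ ht₂
  exact Fermat.Agent.S40.M1.NodeDataK.nodeData_of_testPlaces N p hpN A hA hKL hK₀ hK hA2₀ hA2 S₂ hϖ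
    hn ht₁ ht₂ hzα.1 hzα.2 hzβ.1 hzβ.2 hTα hTβ

set_option maxHeartbeats 3200000 in
set_option synthInstance.maxHeartbeats 400000 in
/-- ★ **`SSLeafAsm.R4Leaf` above an unramified level, hypothesis-free** (`5 ≤ p`, `4 ∣ N`). -/
theorem r4Leaf_unram {N p : ℕ} [NeZero N] [Fact p.Prime] {A : ValuationSubring Qbar}
    (hp5 : 5 ≤ p) (h4 : 4 ∣ N) (hpN : ¬ p ∣ N) (hA : A.LiesOverPrime p)
    {K₀ L₀ : IntermediateField ℚ Qbar} (hK₀ : IsUnramLevel A p K₀) (hK₀L : K₀ ≤ L₀) :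
    Fermat.Agent.S40.M1.SSLeafAsm.R4Leaf N p hpN A L₀ :=
  r4Leaf hp5 h4 hpN hA hK₀ hK₀L (nodeData N p hpN A hA hK₀)
    (Fermat.Agent.S40.M1.H3DataLevel.h3Data N p hpN A hA hK₀)

end Fermat.Agent.S40.M1.NodeDataAsm
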