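/-
S40 / S44 (row 38), T6′ static route (`moonshots` row 67), block R4-I, piece (G) (helper13; list of
helper5): **Galois invariance at a good level — everything defined over a small level is fixed by the
Galois elements fixing that level, and the node data are permuted compatibly.**

`K` a Galois-stable level, `σ_F = levelFF K hK N σ`.

* (G1) `levelAut_lvlIncl`, **`levelFF_smul_ffMap`** : `σ_F • ffMap f₀ = ffMap f₀` for `f₀` over a level
  `L₀ ≤ K` fixed pointwise by `σ`; `levelFF_smul_finMap`, `levelFF_smul_algebraMap_lvlIncl`;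
  **`levelFF_smul_ffMap_of_fixes`** / `levelAut_lvlIncl_of_fixes` : `σ ∈ I_A` fixing `V` pointwise and
  `L₀ = bigLevel A (smallField V)` (helper23's `SmallField`);
* (G2) `ord_smul_of_smul_eq` : `σ • f = f → (σ • P).ord f = P.ord f`; `ediv_ord_smul` (`D P = ord_P f / p`);
  `smul_mem_of_centred` (the support of an invariant function inside a stable set is stable) — the
  hypotheses `hS`, `hD` of `NodeInv.smul_prod_sub_zpow`;
* (G3) `smul_mem_of_inv`, **`smul_mem_centredSet`** : at a good level, `σ ∈ I_A` permutes the places centred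
  at a prime `𝔫′ ∋ ϖ` of the finite chart (`S33/L/InertiaTriv.vertLevel_centredSet_symm`);
* (G4) `cU u P` (the value `u(P)` at a rational place, `0` otherwise) and **`cU_smul`** :
  `σ • u = u → cU u (σ • P) = baseAut σ (cU u P)` — the hypothesis `hc` of `smul_prod_sub_zpow`;
* (G5) `baseAut_levelFF_eq`, `levelAut_natCast`;
* (G6) `levelFF_smul_ffMap_of_le_K0` : `σ ∈ I_A` fixes the functions defined over a level `L₀ ≤ K0 A`;
* (G7) `normAlphaK_smul`, `normBetaK_smul` : the hypotheses `hNα`, `hNβ` of `NodeInv.yNode_fixed`.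
-/
import Mathlib
import Fermat.Agent.P3G.GammaAut
import Fermat.Agent.P3G.UCrit
import Fermat.Agent.S19.Cech.LevelBasis
import Fermat.Agent.S33.L.InertiaTriv
import Fermat.Agent.S33.L.NewAtLevel
import Fermat.Agent.S33.L.PointsUniform
import Fermat.Agent.S40.M1.SmallField
import Fermat.Agent.S40.M1.NodeInv

set_option autoImplicit false
set_option linter.unusedSectionVars false
set_option linter.style.haveILetI false

open ModularCurve AlgebraicCurve IntermediateField

noncomputable section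

namespace Fermat.Agent.S40.M1.NodeGalois

open Fermat.Agent.N4.Setting Fermat.Agent.N4.Chart Fermat.Agent.N4.BigDVR
  Fermat.Agent.N4.BaseDescent
  Fermat.Agent.N4F.C.Levels Fermat.Agent.N4F.C.LevelCharts Fermat.Agent.N4F.C.CoeffAut
  Fermat.Agent.N4F.E.PlaceValue
  Fermat.Agent.P3G.Gamma Fermat.Agent.P3G.GammaAut Fermat.Agent.P3G.UCrit
  Fermat.Agent.P3G.Assembly.LevelGeomOfPoints Fermat.Agent.P3G.Assembly.LevelStep
  Fermat.Agent.S19.Cech.LevelBasis
  Fermat.Agent.S40.M1.NodeInv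

local notation "Qbar" => AlgebraicClosure ℚ
local notation "Γ" => (AlgebraicClosure ℚ ≃ₐ[ℚ] AlgebraicClosure ℚ)

/-! ### (G2), (G4) generic: places, orders and values under a semilinear automorphism -/

section Generic

variable {K F : Type*} [Field K] [Field F] [Algebra K F]

/-- **(G2)** The order of an invariant function at a conjugate place. -/
theorem ord_smul_of_smul_eq (σ : SemilinearAut K F) {f : F} (hf : σ • f = f) (P : Place K F) :
    (σ • P).ord f = P.ord f := by
  have h := SemilinearAut.ord_smul σ P f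
  rwa [hf] at h

/-- The multiplicities `D P = ord_P f / p` of an invariant function are invariant. -/
theorem ediv_ord_smul (σ : SemilinearAut K F) {f : F} (hf : σ • f = f) (p : ℤ) (P : Place K F) :
    (σ • P).ord f / p = P.ord f / p := by
  rw [ord_smul_of_smul_eq σ hf P]

/-- A `σ`-stable set of places meets the support of an invariant function in a `σ`-stable set. -/
theorem smul_mem_of_centred (σ : SemilinearAut K F) {f : F} (hf : σ • f = f)
    {C : Set (Place K F)} (hC : ∀ P ∈ C, σ • P ∈ C) (S : Finset (Place K F))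
    (hS : ∀ P, P ∈ S ↔ P ∈ C ∧ P.ord f ≠ 0) : ∀ P ∈ S, σ • P ∈ S := by
  intro P hP
  obtain ⟨h1, h2⟩ := (hS P).1 hP
  exact (hS _).2 ⟨hC P h1, by rwa [ord_smul_of_smul_eq σ hf P]⟩

/-- Stability under `σ` from stability under the inverses of an inverse-closed family (the first
clause of `LocPChart` is stated for `σ⁻¹`). -/
theorem smul_mem_of_inv {G : Type*} [Group G] (ρ : G →* SemilinearAut K F) {H : Set G}
    (hH : ∀ g ∈ H, g⁻¹ ∈ H) {C : Set (Place K F)}
    (hC : ∀ g ∈ H, ∀ P ∈ C, (ρ g)⁻¹ • P ∈ C) {g : G} (hg : g ∈ H) :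
    ∀ P ∈ C, ρ g • P ∈ C := by
  intro P hP
  have h := hC g⁻¹ (hH g hg) P hP
  rwa [map_inv, inv_inv] at h

/-- Rationality of a conjugate place. -/
theorem bijective_smul_iff (σ : SemilinearAut K F) (P : Place K F) :
    Function.Bijective (algebraMap K (σ • P).ResidueField) ↔
      Function.Bijective (algebraMap K P.ResidueField) := by
  refine ⟨fun h => ?_, fun h => bijective_smul σ h⟩
  have h1 := bijective_smul σ⁻¹ h
  rwa [inv_smul_smul] at h1

open Classical in
/-- **The value `u(P)`** at a rational place `P` (total: `0` at non-rational places and outside `O_P`). -/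
def cU (u : F) (P : Place K F) : K :=
  if h : Function.Bijective (algebraMap K P.ResidueField) then valT P h u else 0

theorem cU_of_bijective (u : F) {P : Place K F}
    (h : Function.Bijective (algebraMap K P.ResidueField)) : cU u P = valT P h u :=
  dif_pos h

/-- **(G4)** The values of an invariant function at conjugate places are conjugate. -/
theorem cU_smul (σ : SemilinearAut K F) {u : F} (hu : σ • u = u) (P : Place K F) :
    cU u (σ • P) = SemilinearAut.baseAut σ (cU u P) := by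
  by_cases h : Function.Bijective (algebraMap K P.ResidueField)
  · have h' := bijective_smul σ h
    rw [cU_of_bijective u h', cU_of_bijective u h]
    have hmem : u ∈ (σ • P).toValuationSubring ↔ u ∈ P.toValuationSubring := by
      have := smul_mem_smul_place_iff σ P u
      rwa [hu] at this
    by_cases hg : u ∈ P.toValuationSubring
    · rw [valT_of_mem (σ • P) h' (hmem.2 hg), valT_of_mem P h hg, valueAt_eq_iff]
      have h1 := sub_valueAt_mem P h u hg
      have h2 := (smul_mem_nonunits_smul_place_iff σ P _).mpr h1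
      rwa [smul_sub, SemilinearAut.smul_algebraMap, hu] at h2
    · have hg' : ¬ u ∈ (σ • P).toValuationSubring := fun h0 => hg (hmem.1 h0)
      rw [valT, valT, dif_neg hg, dif_neg hg', map_zero]
  · have h' : ¬ Function.Bijective (algebraMap K (σ • P).ResidueField) :=
      fun h0 => h ((bijective_smul_iff σ P).1 h0)
    rw [cU, cU, dif_neg h, dif_neg h', map_zero]

end Generic

/-! ### (G1), (G6) functions over a small level -/

section Small

variable {L₀ K : IntermediateField ℚ Qbar} (hLK : L₀ ≤ K)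
  (hK : ∀ (τ : Γ) (x : Qbar), x ∈ K → τ x ∈ K) (N : ℕ) [NeZero N]

/-- `σ` fixing `L₀` pointwise fixes the image of `L₀` in the level `K`. -/
theorem levelAut_lvlIncl {σ : Γ} (hσ : ∀ y ∈ L₀, σ y = y) (a : Lvl L₀) :
    levelAut K hK σ (lvlIncl hLK a) = lvlIncl hLK a := by
  apply (algebraMap (Lvl K) Qbar).injective
  rw [algebraMap_levelAut, algebraMap_lvlIncl]
  exact hσ _ (Lvl.algebraMap_mem L₀ a)

/-- **(G1)** A function defined over the small level `L₀` is fixed by every `σ` fixing `L₀`. -/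
theorem levelFF_smul_ffMap {σ : Γ} (hσ : ∀ y ∈ L₀, σ y = y) (f₀ : FF (Lvl L₀) N) :
    levelFF K hK N σ • ffMap (lvlIncl hLK) N f₀ = ffMap (lvlIncl hLK) N f₀ := by
  apply Subtype.ext
  rw [coe_levelFF_smul, coe_ffMap, coeffMap_coeffMap]
  exact coeffMap_congr (RingHom.ext fun a => levelAut_lvlIncl hLK hK hσ a) _

/-- Constants of the small level. -/
theorem levelFF_smul_algebraMap_lvlIncl {σ : Γ} (hσ : ∀ y ∈ L₀, σ y = y) (a : Lvl L₀) :
    levelFF K hK N σ • algebraMap (Lvl K) (FF (Lvl K) N) (lvlIncl hLK a) =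
      algebraMap (Lvl K) (FF (Lvl K) N) (lvlIncl hLK a) := by
  rw [levelFF_smul_algebraMap, levelAut_lvlIncl hLK hK hσ]

variable (A : ValuationSubring Qbar)

/-- Elements of the finite chart coming from the small level. -/
theorem levelFF_smul_finMap {σ : Γ} (hσ : ∀ y ∈ L₀, σ y = y)
    (r₀ : ↥(Rfin (Lvl L₀) N (baseRing A L₀))) :
    levelFF K hK N σ •
        ((finMap (lvlIncl hLK) N (baseRing A L₀) (baseRing A K) (lvlIncl_mem A hLK) r₀ :
          ↥(Rfin (Lvl K) N (baseRing A K))) : FF (Lvl K) N) =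
      ((finMap (lvlIncl hLK) N (baseRing A L₀) (baseRing A K) (lvlIncl_mem A hLK) r₀ :
          ↥(Rfin (Lvl K) N (baseRing A K))) : FF (Lvl K) N) := by
  rw [coe_finMap]
  exact levelFF_smul_ffMap hLK hK N hσ _

/-- **(G6)** `σ ∈ I_A` fixes every function defined over a level inside `K0 A`. -/
theorem levelFF_smul_ffMap_of_le_K0 {ℓ : ℕ} (hℓ : ℓ.Prime) (hA : A.LiesOverPrime ℓ)
    (hL₀ : L₀ ≤ K0 A) {σ : Γ} (hσ : σ ∈ A.inertiaSubgroupIn ℚ) (f₀ : FF (Lvl L₀) N) :
    levelFF K hK N σ • ffMap (lvlIncl hLK) N f₀ = ffMap (lvlIncl hLK) N f₀ :=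
  levelFF_smul_ffMap hLK hK N (fun _ hy => apply_eq_of_mem_K0 hℓ hA hσ (hL₀ hy)) f₀

/-- **(G6)** for the finite chart. -/
theorem levelFF_smul_finMap_of_le_K0 {ℓ : ℕ} (hℓ : ℓ.Prime) (hA : A.LiesOverPrime ℓ)
    (hL₀ : L₀ ≤ K0 A) {σ : Γ} (hσ : σ ∈ A.inertiaSubgroupIn ℚ)
    (r₀ : ↥(Rfin (Lvl L₀) N (baseRing A L₀))) :
    levelFF K hK N σ •
        ((finMap (lvlIncl hLK) N (baseRing A L₀) (baseRing A K) (lvlIncl_mem A hLK) r₀ :
          ↥(Rfin (Lvl K) N (baseRing A K))) : FF (Lvl K) N) =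
      ((finMap (lvlIncl hLK) N (baseRing A L₀) (baseRing A K) (lvlIncl_mem A hLK) r₀ :
          ↥(Rfin (Lvl K) N (baseRing A K))) : FF (Lvl K) N) :=
  levelFF_smul_finMap hLK hK N A (fun _ hy => apply_eq_of_mem_K0 hℓ hA hσ (hL₀ hy)) r₀

end Small

/-! ### (G1) for `I_x` and the small good level `bigLevel A (smallField V)` -/

section Ix

open Fermat.Agent.S40.M1.SmallField Fermat.Agent.N4F.Res

variable {p : ℕ} [Fact p.Prime] {L : ℕ} [NeZero L] {A : ValuationSubring Qbar} {q : ℕ}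
  {V : Submodule (ZMod p) (Jtors L p)} {K : IntermediateField ℚ Qbar}
  (hLK : bigLevel A (smallField V) ≤ K)
  (hK : ∀ (τ : Γ) (x : Qbar), x ∈ K → τ x ∈ K) (N : ℕ) [NeZero N]

/-- **(G1) for `I_x`**: an element of the inertia group of `A` fixing `V` pointwise fixes every
function defined over the small good level `L₀ = bigLevel A L_V`. -/
theorem levelFF_smul_ffMap_of_fixes (hq : q.Prime) (hA : A.LiesOverPrime q) {σ : Γ}
    (hσ : σ ∈ A.inertiaSubgroupIn ℚ) (hV : ∀ x ∈ V, galTors L p σ x = x)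
    (f₀ : FF (Lvl (bigLevel A (smallField V))) N) :
    levelFF K hK N σ • ffMap (lvlIncl hLK) N f₀ = ffMap (lvlIncl hLK) N f₀ :=
  levelFF_smul_ffMap hLK hK N
    (fun _ hy => apply_eq_of_mem_bigLevel_smallField hq hA hσ hV hy) f₀

/-- Constants of the small good level are fixed by `I_x`. -/
theorem levelAut_lvlIncl_of_fixes (hq : q.Prime) (hA : A.LiesOverPrime q) {σ : Γ}
    (hσ : σ ∈ A.inertiaSubgroupIn ℚ) (hV : ∀ x ∈ V, galTors L p σ x = x)
    (a : Lvl (bigLevel A (smallField V))) :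
    levelAut K hK σ (lvlIncl hLK a) = lvlIncl hLK a :=
  levelAut_lvlIncl hLK hK
    (fun _ hy => apply_eq_of_mem_bigLevel_smallField hq hA hσ hV hy) a

end Ix

/-! ### (G5), (G7) base automorphisms and norms -/

section Norms

variable (K : IntermediateField ℚ Qbar) (hK : ∀ (τ : Γ) (x : Qbar), x ∈ K → τ x ∈ K)
  (N : ℕ) [NeZero N] (q : ℕ) [NeZero q]

/-- **(G5)** The base automorphisms of `σ_F` (level `N q`) and `σ_F'` (level `N`) agree. -/
theorem baseAut_levelFF_eq (σ : Γ) :
    SemilinearAut.baseAut (levelFF K hK (N * q) σ) = SemilinearAut.baseAut (levelFF K hK N σ) := by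
  rw [baseAut_levelFF, baseAut_levelFF]

/-- **(G5)** `σ` fixes the rational integers of the level. -/
theorem levelAut_natCast (σ : Γ) (n : ℕ) : levelAut K hK σ (n : Lvl K) = (n : Lvl K) :=
  map_natCast (levelAut K hK σ) n

theorem levelAut_intCast (σ : Γ) (n : ℤ) : levelAut K hK σ (n : Lvl K) = (n : Lvl K) :=
  map_intCast (levelAut K hK σ) n

/-- **(G7)** `hNα` of `NodeInv.yNode_fixed`. -/
theorem normAlphaK_smul (σ : Γ) :
    ∀ g : FF (Lvl K) (N * q), Fermat.Agent.P4.FrobLevelStep.normAlphaK K N q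
        (levelFF K hK (N * q) σ • g) =
      levelFF K hK N σ • Fermat.Agent.P4.FrobLevelStep.normAlphaK K N q g :=
  fun g => Fermat.Agent.S33.L.NewAtLevel.normAlphaK_levelFF K hK N q σ g

/-- **(G7)** `hNβ` of `NodeInv.yNode_fixed`. -/
theorem normBetaK_smul (σ : Γ) :
    ∀ g : FF (Lvl K) (N * q), Fermat.Agent.P4.FrobLevelStep.normBetaK K N q
        (levelFF K hK (N * q) σ • g) =
      levelFF K hK N σ • Fermat.Agent.P4.FrobLevelStep.normBetaK K N q g :=
  fun g => Fermat.Agent.S33.L.NewAtLevel.normBetaK_levelFF K hK N q σ g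

end Norms

/-! ### (G3) the inertia group permutes the places centred at a point of the special fibre -/

section Centred

open Fermat.Agent.S33.L.InertiaTriv Fermat.Agent.S33.L.PointsUniform

variable (M q : ℕ) [NeZero M] [Fact q.Prime] (hqM : ¬ q ∣ M)
  (A : ValuationSubring Qbar) (hA : A.LiesOverPrime q)
  (K : IntermediateField ℚ Qbar) (hK : IsGoodLevel A q K)
  [IsDiscreteValuationRing ↥(baseRing A K)] [IsFractionRing ↥(baseRing A K) (Lvl K)]

include hqM hA in
/-- **(G3)**, finite chart: at a good level `σ ∈ I_A` maps the places centred at a prime `𝔫 ∋ ϖ` of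
`Rfin` to places centred at `𝔫`. -/
theorem smul_mem_centredSet {ϖ : ↥(baseRing A K)} (hϖ : Irreducible ϖ) {σ : Γ}
    (hσ : σ ∈ A.inertiaSubgroupIn ℚ)
    (𝔫 : Ideal ↥(Rfin (Lvl K) (M * q) (baseRing A K))) [𝔫.IsPrime]
    (hϖ𝔫 : algebraMap ↥(baseRing A K) ↥(Rfin (Lvl K) (M * q) (baseRing A K)) ϖ ∈ 𝔫) :
    ∀ Q ∈ centredSet (F := FF (Lvl K) (M * q)) (Lvl K) 𝔫,
      levelFF K hK.stable (M * q) σ • Q ∈ centredSet (F := FF (Lvl K) (M * q)) (Lvl K) 𝔫 := by
  obtain ⟨S₂⟩ := nonempty_secondVal_lvl M q hqM A hA K hK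
  obtain ⟨_, _, h⟩ := levelData_of_secondVal M q hqM A hA K hK S₂ ϖ hϖ
  have hσ' : σ⁻¹ ∈ A.inertiaSubgroupIn ℚ := inv_mem hσ
  obtain ⟨hV, _, _⟩ := h σ⁻¹ hσ'
  intro Q hQ
  have h1 := vertLevel_centredSet_symm hV (Fermat.Agent.N4F.C.Galois.mem_decompositionSubgroup_of_mem_inertia hσ')
    (jF (Lvl K) (M * q)) (levelFF_smul_jF K hK.stable (M * q) σ⁻¹) hV.semiP 𝔫 hϖ𝔫 Q hQ
  rwa [tauPerm_symm_apply, map_inv, inv_inv] at h1

include hqM hA in
/-- **(G3)**, chart at infinity. -/
theorem smul_mem_centredSet_inf {ϖ : ↥(baseRing A K)} (hϖ : Irreducible ϖ) {σ : Γ}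
    (hσ : σ ∈ A.inertiaSubgroupIn ℚ)
    (𝔫 : Ideal ↥(Rinf (Lvl K) (M * q) (baseRing A K))) [𝔫.IsPrime]
    (hϖ𝔫 : algebraMap ↥(baseRing A K) ↥(Rinf (Lvl K) (M * q) (baseRing A K)) ϖ ∈ 𝔫) :
    ∀ Q ∈ centredSet (F := FF (Lvl K) (M * q)) (Lvl K) 𝔫,
      levelFF K hK.stable (M * q) σ • Q ∈ centredSet (F := FF (Lvl K) (M * q)) (Lvl K) 𝔫 := by
  obtain ⟨S₂⟩ := nonempty_secondVal_lvl M q hqM A hA K hK
  obtain ⟨_, _, h⟩ := levelData_of_secondVal M q hqM A hA K hK S₂ ϖ hϖ
  have hσ' : σ⁻¹ ∈ A.inertiaSubgroupIn ℚ := inv_mem hσ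
  obtain ⟨hV, _, _⟩ := h σ⁻¹ hσ'
  intro Q hQ
  have h1 := vertLevel_centredSet_symm hV (Fermat.Agent.N4F.C.Galois.mem_decompositionSubgroup_of_mem_inertia hσ')
    (jF (Lvl K) (M * q))⁻¹ (levelFF_smul_jF_inv K hK.stable (M * q) σ⁻¹) hV.semiM 𝔫 hϖ𝔫 Q hQ
  rwa [tauPerm_symm_apply, map_inv, inv_inv] at h1

end Centred

end Fermat.Agent.S40.M1.NodeGalois
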