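/-
S40 / T6′ static route, leaf (R4)(c)/(D7) "TEST POINTS", INVARIANCE half (helper17; dispatch helper8
#3240 (3); abstract lemma `TestSection.smul_place_eq` of helper21).

* abstract: a semilinear automorphism `g` of `F / K` which stabilises the chart `R`, acts trivially on
  its special fibre (`G/PointsLoc.StableUnder`, `TrivialMod`) and fixes `t - c` fixes the test point
  (`smul_place_eq_of_trivialMod`);
* level (`K ⊆ ℚ̄` Galois-stable, `O_K` a DVR, ANY level `N`, `T := Rfin`, `V := gaussVS`):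
  `stableUnder_Rfin` (decomposition group), `trivialMod_Rfin` (inertia group; needs the special fibre
  of the chart to be integral, `hprime`), and
  ★ `levelFF_smul_testPlace_eq` : `σ ∈ I_A`, `σ_K • z = z`, `σ c = c` ⇒ `σ_K • Q = Q` for the place `Q`
  through `𝔪` killing `z - c` (the hypothesis `hσα`/`hσβ` of `NodeInv.yNode_fixed`), with the
  natural-number form `levelFF_smul_testPlace_eq_natCast` (`c = (m : O)`, e.g. `m = p ^ (n + 1)`);
  ★ `levelFF_algebraMap_ev_smul`, `levelFF_algebraMap_ev_fixed` : equivariance of the evaluation at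
  the (fixed) test section.
-/
import Mathlib
import Fermat.Agent.S40.M1.TestPointLevel
import Fermat.Agent.P3G.GammaGauss

set_option autoImplicit false
set_option linter.unusedSectionVars false
set_option linter.style.haveILetI false
set_option linter.style.longLine false

open ModularCurve Fermat.Agent.S28.Gauss Fermat.Agent.N4.Setting Fermat.Agent.N4.FibreEmbedding
open Fermat.Agent.N4.Chart
open Fermat.Agent.N4F.E.GaussDVR AlgebraicCurve
open Fermat.Agent.N4F.E IsLocalRing Fermat.Agent.P3G.RbarFin Fermat.Agent.P3G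

noncomputable section

namespace Fermat.Agent.S40.M1.TestPointInv

open Fermat.Agent.G.Points Fermat.Agent.G.PointsLoc Fermat.Agent.P3G.UCrit
open Fermat.Agent.S40.M1.TestPoint Fermat.Agent.S40.M1.TestSection Fermat.Agent.S40.M1.TestKer
open Fermat.Agent.S40.M1.TestPointLevel

/-! ### Abstract form -/

section Abstract

variable {O K F : Type*} [CommRing O] [IsDomain O] [IsDiscreteValuationRing O]
  [Field K] [Algebra O K] [IsFractionRing O K]
  [Field F] [Algebra K F] [Algebra O F] [IsScalarTower O K F]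

variable (R : Subalgebra O F) [IsNoetherianRing ↥R] [IsFractionRing ↥R F]

variable {ϖ : O} (hϖ : Irreducible ϖ)
variable (V : ValuationSubring F) (hV : ∀ s : ↥R, algebraMap ↥R F s ∈ V)
  (hϖV : algebraMap ↥R F (algebraMap O ↥R ϖ) ∈ V.nonunits)
  (hsat : ∀ r : ↥R, algebraMap ↥R F r ∈ V.nonunits → algebraMap O ↥R ϖ ∣ r)
variable (𝔪 : Ideal ↥R) [h𝔪 : 𝔪.IsMaximal]
  (hthr : ∀ r : ↥R, algebraMap ↥R F r ∈ V.nonunits → r ∈ 𝔪)
  (t : ↥R) (ht : t ∈ 𝔪) (htV : algebraMap ↥R F t ∉ V.nonunits)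
  (hreg : ∀ x ∈ 𝔪, ∃ s a b : ↥R, s ∉ 𝔪 ∧ s * x = a * t + b * algebraMap O ↥R ϖ)

include hϖ hV hϖV hsat hthr ht htV hreg in
/-- **Invariance of the test point, `StableUnder`/`TrivialMod` form.** -/
theorem smul_place_eq_of_trivialMod {c : O} (hc : ϖ ∣ c) (g : SemilinearAut K F)
    (hR : StableUnder g R) (htriv : TrivialMod g R ϖ) (hϖ𝔪 : algebraMap O ↥R ϖ ∈ 𝔪)
    (hgτ : g • ((t : F) - algebraMap O F c) = (t : F) - algebraMap O F c)
    {Q : Place K F} (hQ : Q ∈ centredSet K 𝔪)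
    (h : 0 < Q.ord ((t : F) - algebraMap O F c)) : g • Q = Q := by
  refine smul_place_eq R hϖ V hV hϖV hsat 𝔪 hthr t ht htV hreg hc g (fun s => ?_)
    (fun s s' hss' hs' => ?_) hgτ hQ h
  · exact ⟨⟨g⁻¹ • (s : F), hR.inv_smul_mem s.2⟩, rfl⟩
  · obtain ⟨r, hr, hsr⟩ := htriv.inv hR (s : F) s.2
    have h1 : s = s' + algebraMap O ↥R ϖ * ⟨r, hr⟩ := by
      apply Subtype.ext
      have h2 : ((s' + algebraMap O ↥R ϖ * ⟨r, hr⟩ : ↥R) : F) =
          (s' : F) + algebraMap O F ϖ * r := rfl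
      rw [h2, ← hss', ← hsr]
      ring
    rw [h1]
    exact 𝔪.add_mem hs' (𝔪.mul_mem_right _ hϖ𝔪)

end Abstract

/-! ### The level form -/

section Level

local notation "Qb" => AlgebraicClosure ℚ
local notation "Γ" => (AlgebraicClosure ℚ ≃ₐ[ℚ] AlgebraicClosure ℚ)

open Fermat.Agent.N4.BigDVR Fermat.Agent.P3G.GammaAut Fermat.Agent.P3G.GammaGauss
  Fermat.Agent.N4F.C.Levels Fermat.Agent.P3G.GammaTame Fermat.Agent.N4F.C.Galois

variable (K : IntermediateField ℚ Qb) (hK : ∀ (τ : Γ) (x : Qb), x ∈ K → τ x ∈ K)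
  (N : ℕ) [NeZero N] {A : ValuationSubring Qb} [IsDiscreteValuationRing ↥(baseRing A K)]
  [IsFractionRing ↥(baseRing A K) (Lvl K)]

/-- The finite chart of a Galois-stable level is stable under the decomposition group. -/
theorem stableUnder_Rfin {σ : Γ} (hσ : σ ∈ A.decompositionSubgroup ℚ) :
    StableUnder (levelFF K hK N σ) (Rfin (Lvl K) N (baseRing A K)) := fun _ =>
  (levelFF_smul_mem_Rfin_iff K hK N hσ).symm

variable (hprime : (fibreIdeal (Lvl K) N (baseRing A K) (Rfin (Lvl K) N (baseRing A K))).IsPrime)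
  {ϖ : ↥(baseRing A K)} (hϖ : Irreducible ϖ)

include hprime hϖ in
/-- **Inertia acts trivially on the special fibre of the finite chart** (integral special fibre). -/
theorem trivialMod_Rfin {σ : Γ} (hσ : σ ∈ A.inertiaSubgroupIn ℚ) :
    TrivialMod (levelFF K hK N σ) (Rfin (Lvl K) N (baseRing A K)) ϖ := by
  intro r hr
  have hdec := mem_decompositionSubgroup_of_mem_inertia hσ
  have hgr : levelFF K hK N σ • r ∈ Rfin (Lvl K) N (baseRing A K) :=
    (stableUnder_Rfin K hK N hdec).smul_mem hr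
  set y : ↥(Rfin (Lvl K) N (baseRing A K)) := ⟨levelFF K hK N σ • r, hgr⟩ - ⟨r, hr⟩ with hy
  have hynon : ((y : ↥(Rfin (Lvl K) N (baseRing A K))) : FF (Lvl K) N) ∈
      (gaussVS (Lvl K) N (baseRing A K)).nonunits := by
    have h1 := trivialOnResidue_gaussVS K hK N hσ r
      (coe_mem_gaussVS (Lvl K) N (baseRing A K) ⟨r, hr⟩)
    exact h1
  obtain ⟨s, hs⟩ := dvd_of_mem_nonunits_gaussVS (Lvl K) N (baseRing A K) hprime hϖ y hynon
  refine ⟨(s : FF (Lvl K) N), s.2, ?_⟩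
  have h2 := congrArg (fun w : ↥(Rfin (Lvl K) N (baseRing A K)) => (w : FF (Lvl K) N)) hs
  simpa [hy] using h2

variable (𝔪 : Ideal ↥(Rfin (Lvl K) N (baseRing A K))) [h𝔪 : 𝔪.IsMaximal]
  (hϖ𝔪 : algebraMap ↥(baseRing A K) ↥(Rfin (Lvl K) N (baseRing A K)) ϖ ∈ 𝔪)
  (z : ↥(Rfin (Lvl K) N (baseRing A K))) (hz𝔪 : z ∈ 𝔪)
  (hz0 : thetaFin (Lvl K) N (baseRing A K) z ≠ 0)
  (hgen : ∃ c : ↥(Rfin (Lvl K) N (baseRing A K)), c ∉ 𝔪 ∧ ∀ r ∈ 𝔪,
    ∃ a d : ↥(Rfin (Lvl K) N (baseRing A K)),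
      c * r = a * z + d * algebraMap ↥(baseRing A K) ↥(Rfin (Lvl K) N (baseRing A K)) ϖ)

include hprime hϖ hϖ𝔪 hz𝔪 hz0 hgen in
/-- ★ **The test point is fixed by inertia.**  `σ ∈ I_A`, `σ_K • z = z` (e.g. `z` comes from the
unramified sublevel: `LevelSitInertia.levelFF_smul_ffMap_K0`), `σ_K c = c`: the unique place `Q`
through `𝔪` at which `z - c` vanishes satisfies `σ_K • Q = Q`. -/
theorem levelFF_smul_testPlace_eq {c : ↥(baseRing A K)} (hc : ϖ ∣ c) {σ : Γ}
    (hσ : σ ∈ A.inertiaSubgroupIn ℚ)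
    (hσz : levelFF K hK N σ • (z : FF (Lvl K) N) = (z : FF (Lvl K) N))
    (hσc : levelFF K hK N σ • (algebraMap ↥(baseRing A K) (FF (Lvl K) N) c) =
      algebraMap ↥(baseRing A K) (FF (Lvl K) N) c)
    {Q : Place (Lvl K) (FF (Lvl K) N)} (hQ : Q ∈ centredSet (Lvl K) 𝔪)
    (h : 0 < Q.ord ((z : FF (Lvl K) N) - algebraMap ↥(baseRing A K) (FF (Lvl K) N) c)) :
    levelFF K hK N σ • Q = Q := by
  haveI := isNoetherianRing_Rfin (Lvl K) N (baseRing A K)
  haveI := isFractionRing_Rfin (Lvl K) N (baseRing A K)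
  obtain ⟨c₀, hc₀, hgen'⟩ := hgen
  have hdec := mem_decompositionSubgroup_of_mem_inertia hσ
  refine smul_place_eq_of_trivialMod (K := Lvl K) (Rfin (Lvl K) N (baseRing A K)) hϖ
    (gaussVS (Lvl K) N (baseRing A K)) (coe_mem_gaussVS (Lvl K) N (baseRing A K))
    (uniformiser_mem_nonunits_gaussVS (Lvl K) N (baseRing A K) hprime hϖ)
    (dvd_of_mem_nonunits_gaussVS (Lvl K) N (baseRing A K) hprime hϖ) 𝔪 (fun r hr => ?_) z hz𝔪
    (fun h => hz0 ((mem_nonunits_gaussVS_iff_thetaFin (Lvl K) N (baseRing A K) z).1 h))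
    (fun x hx => ?_) hc (levelFF K hK N σ) (stableUnder_Rfin K hK N hdec)
    (trivialMod_Rfin K hK N hprime hϖ hσ) hϖ𝔪 ?_ hQ h
  · obtain ⟨y, rfl⟩ := dvd_of_mem_nonunits_gaussVS (Lvl K) N (baseRing A K) hprime hϖ r hr
    exact Ideal.mul_mem_right _ _ hϖ𝔪
  · obtain ⟨a, d, had⟩ := hgen' x hx
    exact ⟨c₀, a, d, hc₀, had⟩
  · rw [smul_sub, hσz, hσc]

omit [IsDiscreteValuationRing ↥(baseRing A K)] [IsFractionRing ↥(baseRing A K) (Lvl K)] in
/-- A semilinear automorphism fixes the image of a natural number. -/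
theorem levelFF_smul_algebraMap_natCast (σ : Γ) (m : ℕ) :
    levelFF K hK N σ • (algebraMap ↥(baseRing A K) (FF (Lvl K) N) ((m : ℕ) : ↥(baseRing A K))) =
      algebraMap ↥(baseRing A K) (FF (Lvl K) N) ((m : ℕ) : ↥(baseRing A K)) := by
  rw [map_natCast, SemilinearAut.smul_def, map_natCast]

include hprime hϖ hϖ𝔪 hz𝔪 hz0 hgen in
/-- ★ **The test point with a natural-number constant** (`c = m`, e.g. `m = p ^ (n + 1)`): the only
invariance hypothesis left is `σ_K • z = z`. -/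
theorem levelFF_smul_testPlace_eq_natCast {m : ℕ} (hm : ϖ ∣ ((m : ℕ) : ↥(baseRing A K))) {σ : Γ}
    (hσ : σ ∈ A.inertiaSubgroupIn ℚ)
    (hσz : levelFF K hK N σ • (z : FF (Lvl K) N) = (z : FF (Lvl K) N))
    {Q : Place (Lvl K) (FF (Lvl K) N)} (hQ : Q ∈ centredSet (Lvl K) 𝔪)
    (h : 0 < Q.ord ((z : FF (Lvl K) N) -
      algebraMap ↥(baseRing A K) (FF (Lvl K) N) ((m : ℕ) : ↥(baseRing A K)))) :
    levelFF K hK N σ • Q = Q :=
  levelFF_smul_testPlace_eq K hK N hprime hϖ 𝔪 hϖ𝔪 z hz𝔪 hz0 hgen hm hσ hσz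
    (levelFF_smul_algebraMap_natCast K hK N σ m) hQ h

/-- ★ **Equivariance of the evaluation at a fixed test section** (level form of
`TestSection.algebraMap_ev_smul`): `r'(Q) = σ (r(Q))` whenever `σ_K • r = r'` in the chart. -/
theorem levelFF_algebraMap_ev_smul {σ : Γ} {Q : Place (Lvl K) (FF (Lvl K) N)}
    {hQ : Function.Bijective (algebraMap (Lvl K) Q.ResidueField)}
    (h : IsSection (Rfin (Lvl K) N (baseRing A K)) Q hQ) (hfix : levelFF K hK N σ • Q = Q)
    {r r' : ↥(Rfin (Lvl K) N (baseRing A K))}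
    (hr : levelFF K hK N σ • (r : FF (Lvl K) N) = (r' : FF (Lvl K) N)) :
    algebraMap ↥(baseRing A K) (Lvl K) (ev h r') =
      SemilinearAut.baseAut (levelFF K hK N σ) (algebraMap ↥(baseRing A K) (Lvl K) (ev h r)) :=
  algebraMap_ev_smul (levelFF K hK N σ) h hfix hr

/-- Evaluation at a fixed test section of a `σ`-fixed chart function is `σ`-fixed. -/
theorem levelFF_algebraMap_ev_fixed {σ : Γ} {Q : Place (Lvl K) (FF (Lvl K) N)}
    {hQ : Function.Bijective (algebraMap (Lvl K) Q.ResidueField)}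
    (h : IsSection (Rfin (Lvl K) N (baseRing A K)) Q hQ) (hfix : levelFF K hK N σ • Q = Q)
    {r : ↥(Rfin (Lvl K) N (baseRing A K))}
    (hr : levelFF K hK N σ • (r : FF (Lvl K) N) = (r : FF (Lvl K) N)) :
    SemilinearAut.baseAut (levelFF K hK N σ) (algebraMap ↥(baseRing A K) (Lvl K) (ev h r)) =
      algebraMap ↥(baseRing A K) (Lvl K) (ev h r) :=
  (levelFF_algebraMap_ev_smul K hK N h hfix hr).symm

end Level

end Fermat.Agent.S40.M1.TestPointInv
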