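/-
S40 / S44 (row 38), T6′ static route (`moonshots` row 67), block (R4), piece (E) (helper4, with
helper2 `NormUVal` / helper9 `NormUValCore` / helper18 `NormUBase`): **the `valT` bookkeeping
between "`N_α u = ε_α · p ^ p`, `N_β u = ε_β · p`" and the block [R4a] of `R4Node.r4_node_abs`, and
the invariance of the values `t_A`, `t_B`.**

Generic part (`K`, `F` fields, `Q` a rational place of `F / K`, `valT` of `NodeInv`):
* `valuation_eq_one_of_ord_eq_zero`, `valuation_algebraMap_eq_one`, `valuation_natCast_eq_one`,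
  `valuation_eq_one_of_isUnitAt` (a unit of the local ring at the centre of `Q`);
* `valuation_mul_const_pow`, `valT_mul_const_pow` (+ `zpow`, `natCast` spellings):
  `valT Q (g · c ^ k) = valT Q g · c ^ k` for a `Q`-unit `g` and a nonzero constant `c`;
* ★ `r4a_alpha`, `r4a_beta`, `r4a_block` : from `N_α u = ε_α · π ^ p`, `N_β u = ε_β · π`,
  `ε` a `Q`-unit with `valT Q ε = t ^ p · e`: the four clauses `hUα hUβ hUαv hUβv` of `r4_node_abs`
  verbatim.
Level part (`K` a Galois-stable level, `σ_F' = levelFF K hK N σ`):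
* ★ `baseAut_valT_ffMap` / `levelAut_valT_ffMap` : `σ` fixing `L₀ ≤ K` pointwise and the place `Q`
  fixes the value at `Q` of every function defined over `L₀`;
* ★ `baseAut_valT_ffMap_of_le_K0` : the same for `σ ∈ I_A` and `L₀ ≤ K0 A` (the shape
  `htA htB` of `NodeInv.yNode_fixed` for `t = valT Q̃ (ffMap ρ₀)`, `ρ₀` over the unramified level);
* `baseAut_valT_ffMap_of_fixes` : the same for `σ ∈ I_A` fixing `V` and `L₀ = bigLevel A L_V`.
Test places (split of helper2, board #3289: the two hypotheses of the invariance clause of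
`NormUVal.r4a_alpha / r4a_beta`):
* `smul_mem_centredSet_of_trivialMod`, `smul_place_eq_of_unique` (abstract);
  `levelFF_smul_mem_centredSet` : `σ ∈ I_A` permutes the places centred at a prime `𝔪 ∋ ϖ` of the
  finite chart of ANY level `N` with integral special fibre; `levelFF_smul_place_eq_of_unique`;
* `psiLvl hKL N A` (`= ffMap ∘ coe`, the `ψ` of `NormUVal` at two levels `K₁ ≤ K`), `psiLvl_apply`,
  `psiLvl_eq_coe_finIncl`, ★ `levelFF_smul_psiLvl(_of_le_K0)` : (ii) `σ' • ψ x = ψ x`;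
* ★ `levelFF_smul_testPlace_of_le_K0` : (i) `σ' • Q̃ = Q̃` from the output clauses of
  `TestPointUp.exists_testPoint_finIncl` (centred, `ord = 1`, uniqueness), `z₀ c₀` over `K₁ ≤ K0 A`;
* ★ `levelAut_eq_of_clause` : the clause applied: `levelAut K hK σ t = t`.
-/
import Mathlib
import Fermat.Agent.S40.M1.NodeGalois
import Fermat.Agent.S40.M1.NodeQbar
import Fermat.Agent.S40.M1.TestPointInv

set_option autoImplicit false
set_option linter.unusedSectionVars false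
set_option linter.unusedVariables false
set_option linter.style.haveILetI false

open AlgebraicCurve ModularCurve IntermediateField

noncomputable section

namespace Fermat.Agent.S40.M1.NormUValGlue

open Fermat.Agent.N4.Setting Fermat.Agent.N4.BaseDescent
  Fermat.Agent.N4F.C.Levels Fermat.Agent.N4F.C.CoeffAut Fermat.Agent.N4F.E.PlaceValue
  Fermat.Agent.P3G.Gamma Fermat.Agent.P3G.GammaAut Fermat.Agent.P3G.UCrit
  Fermat.Agent.P4.TwistRoots Fermat.Agent.S19.Cech.LevelBasis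
  Fermat.Agent.S40.M1.NodeInv Fermat.Agent.S40.M1.NodeCore Fermat.Agent.S40.M1.NodeGalois

local notation "Qbar" => AlgebraicClosure ℚ
local notation "Γ" => (AlgebraicClosure ℚ ≃ₐ[ℚ] AlgebraicClosure ℚ)

/-! ### Generic: units at a place and values -/

section Generic

variable {K F : Type*} [Field K] [Field F] [Algebra K F] (Q : Place K F)

/-- Order `0` means unit of `O_Q`. -/
theorem valuation_eq_one_of_ord_eq_zero {x : F} (hx0 : x ≠ 0) (h : Q.ord x = 0) :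
    Q.toValuationSubring.valuation x = 1 := by
  rw [valuation_eq_one_iff _ hx0]
  refine ⟨(Fermat.Agent.S24.PlaceExtend.mem_iff_ord_nonneg Q hx0).2 h.ge, ?_⟩
  rw [Fermat.Agent.S24.PlaceExtend.mem_iff_ord_nonneg Q (inv_ne_zero hx0), Q.ord_inv, h, neg_zero]

/-- A nonzero constant is a unit of `O_Q`. -/
theorem valuation_algebraMap_eq_one {c : K} (hc : c ≠ 0) :
    Q.toValuationSubring.valuation (algebraMap K F c) = 1 := by
  have h0 : algebraMap K F c ≠ 0 := (map_ne_zero _).mpr hc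
  rw [valuation_eq_one_iff _ h0]
  refine ⟨Q.algebraMap_mem' c, ?_⟩
  rw [← map_inv₀]
  exact Q.algebraMap_mem' c⁻¹

theorem valuation_natCast_eq_one [CharZero K] {n : ℕ} (hn : n ≠ 0) :
    Q.toValuationSubring.valuation ((n : ℕ) : F) = 1 := by
  have h := valuation_algebraMap_eq_one Q (c := ((n : ℕ) : K)) (Nat.cast_ne_zero.mpr hn)
  rwa [map_natCast] at h

/-- A unit of the local ring of a chart at the centre of `Q` is a unit of `O_Q`. -/
theorem valuation_eq_one_of_isUnitAt {R : Type*} [CommRing R] [IsDomain R] [Algebra R F]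
    [IsFractionRing R F] {𝔫 : Ideal R} (hQ : Q ∈ centredSet K 𝔫) {x : F} (hx : IsUnitAt 𝔫 x) :
    Q.toValuationSubring.valuation x = 1 :=
  hx.valuation_eq_one hQ.1 hQ.2

variable {Q}

theorem valuation_mul_const_pow {g : F} (hg : Q.toValuationSubring.valuation g = 1) {c : K}
    (hc : c ≠ 0) (k : ℕ) :
    Q.toValuationSubring.valuation (g * algebraMap K F c ^ k) = 1 := by
  rw [map_mul, map_pow, hg, valuation_algebraMap_eq_one Q hc, one_pow, one_mul]

theorem valuation_mul_const_zpow {g : F} (hg : Q.toValuationSubring.valuation g = 1) {c : K}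
    (hc : c ≠ 0) (k : ℤ) :
    Q.toValuationSubring.valuation (g * algebraMap K F c ^ k) = 1 := by
  rw [map_mul, map_zpow₀, hg, valuation_algebraMap_eq_one Q hc, one_zpow, one_mul]

variable (hQ : Function.Bijective (algebraMap K Q.ResidueField))

/-- `valT Q (g · c ^ k) = valT Q g · c ^ k`, `g` a unit at `Q`, `c` a constant. -/
theorem valT_mul_const_pow {g : F} (hg : Q.toValuationSubring.valuation g = 1) (c : K) (k : ℕ) :
    valT Q hQ (g * algebraMap K F c ^ k) = valT Q hQ g * c ^ k := by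
  rw [valT_mul Q hQ (mem_of_valuation_eq_one hg) (pow_mem (Q.algebraMap_mem' c) k),
    valT_pow Q hQ (Q.algebraMap_mem' c), valT_algebraMap]

theorem valT_mul_const {g : F} (hg : Q.toValuationSubring.valuation g = 1) (c : K) :
    valT Q hQ (g * algebraMap K F c) = valT Q hQ g * c := by
  rw [valT_mul Q hQ (mem_of_valuation_eq_one hg) (Q.algebraMap_mem' c), valT_algebraMap]

theorem valT_mul_const_zpow {g : F} (hg : Q.toValuationSubring.valuation g = 1) {c : K}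
    (hc : c ≠ 0) (k : ℤ) :
    valT Q hQ (g * algebraMap K F c ^ k) = valT Q hQ g * c ^ k := by
  have h1 := valuation_zpow_eq_one (valuation_algebraMap_eq_one Q hc) k
  rw [valT_mul Q hQ (mem_of_valuation_eq_one hg) (mem_of_valuation_eq_one h1),
    valT_zpow Q hQ (valuation_algebraMap_eq_one Q hc), valT_algebraMap]

theorem valT_mul_natCast_pow [CharZero K] {g : F} (hg : Q.toValuationSubring.valuation g = 1)
    (n k : ℕ) : valT Q hQ (g * ((n : ℕ) : F) ^ k) = valT Q hQ g * ((n : ℕ) : K) ^ k := by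
  have h := valT_mul_const_pow hQ hg ((n : ℕ) : K) k
  rwa [map_natCast] at h

/-- ★ **[R4a], `α`-side**: `N_α u = ε · π ^ p`, `ε` a unit at `Q` with value `t ^ p · e`. -/
theorem r4a_alpha {Nu ε : F} {π t e : K} {p : ℕ} (hπ0 : π ≠ 0)
    (hN : Nu = ε * algebraMap K F π ^ p) (hε : Q.toValuationSubring.valuation ε = 1)
    (hval : valT Q hQ ε = t ^ p * e) :
    Q.toValuationSubring.valuation Nu = 1 ∧ valT Q hQ Nu = π ^ p * t ^ p * e := by
  subst hN
  refine ⟨valuation_mul_const_pow hε hπ0 p, ?_⟩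
  rw [valT_mul_const_pow hQ hε, hval]
  ring

/-- ★ **[R4a], `β`-side**: `N_β u = ε · π`. -/
theorem r4a_beta {Nu ε : F} {π t e : K} {p : ℕ} (hπ0 : π ≠ 0)
    (hN : Nu = ε * algebraMap K F π) (hε : Q.toValuationSubring.valuation ε = 1)
    (hval : valT Q hQ ε = t ^ p * e) :
    Q.toValuationSubring.valuation Nu = 1 ∧ valT Q hQ Nu = π * t ^ p * e := by
  subst hN
  refine ⟨?_, ?_⟩
  · rw [map_mul, hε, valuation_algebraMap_eq_one Q hπ0, one_mul]
  · rw [valT_mul_const hQ hε, hval]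
    ring

end Generic

section Block

variable {K F' : Type*} [Field K] [Field F'] [Algebra K F'] {Qα Qβ : Place K F'}
  (hQα : Function.Bijective (algebraMap K Qα.ResidueField))
  (hQβ : Function.Bijective (algebraMap K Qβ.ResidueField))

/-- ★ **The block [R4a] of `R4Node.r4_node_abs`** (`hUα hUβ hUαv hUβv`, in this order) from
`N_α u = ε_α · π ^ p`, `N_β u = ε_β · π` and the values of `ε_α`, `ε_β` at the test places. -/
theorem r4a_block {Nαu Nβu εα εβ : F'} {π tA tB eA eB : K} {p : ℕ} (hπ0 : π ≠ 0)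
    (hNα : Nαu = εα * algebraMap K F' π ^ p) (hNβ : Nβu = εβ * algebraMap K F' π)
    (hεα : Qα.toValuationSubring.valuation εα = 1) (hεβ : Qβ.toValuationSubring.valuation εβ = 1)
    (hvα : valT Qα hQα εα = tA ^ p * eA) (hvβ : valT Qβ hQβ εβ = tB ^ p * eB) :
    Qα.toValuationSubring.valuation Nαu = 1 ∧ Qβ.toValuationSubring.valuation Nβu = 1 ∧
      valT Qα hQα Nαu = π ^ p * tA ^ p * eA ∧ valT Qβ hQβ Nβu = π * tB ^ p * eB :=
  ⟨(r4a_alpha hQα hπ0 hNα hεα hvα).1, (r4a_beta hQβ hπ0 hNβ hεβ hvβ).1,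
    (r4a_alpha hQα hπ0 hNα hεα hvα).2, (r4a_beta hQβ hπ0 hNβ hεβ hvβ).2⟩

end Block

/-! ### Levels: invariance of the values of functions defined over a small level -/

section Levels

variable {L₀ K : IntermediateField ℚ Qbar} (hLK : L₀ ≤ K)
  (hK : ∀ (τ : Γ) (x : Qbar), x ∈ K → τ x ∈ K) (N : ℕ) [NeZero N]
  (Q : Place (Lvl K) (FF (Lvl K) N))
  (hQ : Function.Bijective (algebraMap (Lvl K) Q.ResidueField))

/-- ★ `σ` fixing `L₀` pointwise and the place `Q`: the value at `Q` of a function defined over `L₀`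
is `σ`-fixed (`SemilinearAut.baseAut` form = `htA`, `htB` of `NodeInv.yNode_fixed`). -/
theorem baseAut_valT_ffMap {σ : Γ} (hσ : ∀ y ∈ L₀, σ y = y)
    (hσQ : levelFF K hK N σ • Q = Q) (ρ₀ : FF (Lvl L₀) N) :
    SemilinearAut.baseAut (levelFF K hK N σ) (valT Q hQ (ffMap (lvlIncl hLK) N ρ₀)) =
      valT Q hQ (ffMap (lvlIncl hLK) N ρ₀) := by
  have h := valT_smul_of_fixed Q hQ (levelFF K hK N σ) hσQ (ffMap (lvlIncl hLK) N ρ₀)
  rw [levelFF_smul_ffMap hLK hK N hσ] at h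
  exact h.symm

/-- The same with `levelAut`. -/
theorem levelAut_valT_ffMap {σ : Γ} (hσ : ∀ y ∈ L₀, σ y = y)
    (hσQ : levelFF K hK N σ • Q = Q) (ρ₀ : FF (Lvl L₀) N) :
    levelAut K hK σ (valT Q hQ (ffMap (lvlIncl hLK) N ρ₀)) =
      valT Q hQ (ffMap (lvlIncl hLK) N ρ₀) :=
  baseAut_valT_ffMap hLK hK N Q hQ hσ hσQ ρ₀

variable (A : ValuationSubring Qbar)

/-- ★ `σ ∈ I_A`, `L₀ ≤ K0 A` (unramified level): values of `L₀`-functions at an `σ`-fixed place are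
`σ`-fixed. -/
theorem baseAut_valT_ffMap_of_le_K0 {ℓ : ℕ} (hℓ : ℓ.Prime) (hA : A.LiesOverPrime ℓ)
    (hL₀ : L₀ ≤ K0 A) {σ : Γ} (hσ : σ ∈ A.inertiaSubgroupIn ℚ)
    (hσQ : levelFF K hK N σ • Q = Q) (ρ₀ : FF (Lvl L₀) N) :
    SemilinearAut.baseAut (levelFF K hK N σ) (valT Q hQ (ffMap (lvlIncl hLK) N ρ₀)) =
      valT Q hQ (ffMap (lvlIncl hLK) N ρ₀) :=
  baseAut_valT_ffMap hLK hK N Q hQ (fun _ hy => apply_eq_of_mem_K0 hℓ hA hσ (hL₀ hy)) hσQ ρ₀

theorem levelAut_valT_ffMap_of_le_K0 {ℓ : ℕ} (hℓ : ℓ.Prime) (hA : A.LiesOverPrime ℓ)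
    (hL₀ : L₀ ≤ K0 A) {σ : Γ} (hσ : σ ∈ A.inertiaSubgroupIn ℚ)
    (hσQ : levelFF K hK N σ • Q = Q) (ρ₀ : FF (Lvl L₀) N) :
    levelAut K hK σ (valT Q hQ (ffMap (lvlIncl hLK) N ρ₀)) =
      valT Q hQ (ffMap (lvlIncl hLK) N ρ₀) :=
  baseAut_valT_ffMap_of_le_K0 hLK hK N Q hQ A hℓ hA hL₀ hσ hσQ ρ₀

end Levels

section Ix

open Fermat.Agent.S40.M1.SmallField Fermat.Agent.N4F.Res

variable {p : ℕ} [Fact p.Prime] {L : ℕ} [NeZero L] {A : ValuationSubring Qbar} {q : ℕ}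
  {V : Submodule (ZMod p) (Jtors L p)} {K : IntermediateField ℚ Qbar}
  (hLK : bigLevel A (smallField V) ≤ K)
  (hK : ∀ (τ : Γ) (x : Qbar), x ∈ K → τ x ∈ K) (N : ℕ) [NeZero N]
  (Q : Place (Lvl K) (FF (Lvl K) N))
  (hQ : Function.Bijective (algebraMap (Lvl K) Q.ResidueField))

/-- `σ ∈ I_A` fixing `V` pointwise: values of functions defined over `bigLevel A L_V` at a
`σ`-fixed place are `σ`-fixed. -/
theorem baseAut_valT_ffMap_of_fixes (hq : q.Prime) (hA : A.LiesOverPrime q) {σ : Γ}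
    (hσ : σ ∈ A.inertiaSubgroupIn ℚ) (hV : ∀ x ∈ V, galTors L p σ x = x)
    (hσQ : levelFF K hK N σ • Q = Q) (ρ₀ : FF (Lvl (bigLevel A (smallField V))) N) :
    SemilinearAut.baseAut (levelFF K hK N σ) (valT Q hQ (ffMap (lvlIncl hLK) N ρ₀)) =
      valT Q hQ (ffMap (lvlIncl hLK) N ρ₀) :=
  baseAut_valT_ffMap hLK hK N Q hQ
    (fun _ hy => apply_eq_of_mem_bigLevel_smallField hq hA hσ hV hy) hσQ ρ₀

end Ix

/-! ### Inertia fixes the test place (from the uniqueness clause of the test point) -/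

section TestPlaceAbstract

open Fermat.Agent.G.Points Fermat.Agent.G.PointsLoc

variable {O K F : Type*} [CommRing O] [IsDomain O] [IsDiscreteValuationRing O]
  [Field K] [Algebra O K] [IsFractionRing O K]
  [Field F] [Algebra K F] [Algebra O F] [IsScalarTower O K F]

/-- A semilinear automorphism stabilising the chart `R` and acting trivially on its special fibre
permutes the places centred at a prime `𝔪 ∋ ϖ` (extracted from `TestSection.smul_place_eq`). -/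
theorem smul_mem_centredSet_of_trivialMod (R : Subalgebra O F) {ϖ : O} (𝔪 : Ideal ↥R)
    (g : SemilinearAut K F) (hR : StableUnder g R) (htriv : TrivialMod g R ϖ)
    (hϖ𝔪 : algebraMap O ↥R ϖ ∈ 𝔪) {Q : Place K F} (hQ : Q ∈ centredSet K 𝔪) :
    g • Q ∈ centredSet K 𝔪 := by
  have hQ' : (∀ r : ↥R, algebraMap ↥R F r ∈ Q.toValuationSubring) ∧
      ∀ r : ↥R, algebraMap ↥R F r ∈ Q.toValuationSubring.nonunits → r ∈ 𝔪 := hQ
  show (∀ r : ↥R, algebraMap ↥R F r ∈ (g • Q).toValuationSubring) ∧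
      ∀ r : ↥R, algebraMap ↥R F r ∈ (g • Q).toValuationSubring.nonunits → r ∈ 𝔪
  refine ⟨fun s => ?_, fun s hs => ?_⟩
  · rw [mem_smul_place_iff]
    exact hQ'.1 ⟨g⁻¹ • (s : F), hR.inv_smul_mem s.2⟩
  · rw [mem_nonunits_smul_place_iff] at hs
    have h1 : (⟨g⁻¹ • (s : F), hR.inv_smul_mem s.2⟩ : ↥R) ∈ 𝔪 :=
      hQ'.2 ⟨g⁻¹ • (s : F), hR.inv_smul_mem s.2⟩ hs
    obtain ⟨r, hr, hsr⟩ := htriv.inv hR (s : F) s.2
    have h2 : s = (⟨g⁻¹ • (s : F), hR.inv_smul_mem s.2⟩ : ↥R) + algebraMap O ↥R ϖ * ⟨r, hr⟩ := by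
      apply Subtype.ext
      have h3 : (((⟨g⁻¹ • (s : F), hR.inv_smul_mem s.2⟩ : ↥R) + algebraMap O ↥R ϖ * ⟨r, hr⟩ : ↥R) : F)
          = g⁻¹ • (s : F) + algebraMap O F ϖ * r := rfl
      rw [h3, ← hsr]
      ring
    rw [h2]
    exact 𝔪.add_mem h1 (𝔪.mul_mem_right _ hϖ𝔪)

/-- **Uniqueness ⇒ invariance**: if `Q` is the only place centred at `𝔪` at which the `g`-invariant
function `τ` vanishes, and `g` permutes the places centred at `𝔪`, then `g • Q = Q`. -/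
theorem smul_place_eq_of_unique {R : Type*} [CommRing R] [Algebra R F] (𝔪 : Ideal R)
    (g : SemilinearAut K F) {τ : F} (hgτ : g • τ = τ) {Q : Place K F}
    (hcen : g • Q ∈ centredSet K 𝔪) (hord : 0 < Q.ord τ)
    (huniq : ∀ Q' : Place K F, Q' ∈ centredSet K 𝔪 → 0 < Q'.ord τ → Q' = Q) : g • Q = Q := by
  apply huniq _ hcen
  rw [ord_smul_of_smul_eq g hgτ Q]
  exact hord

end TestPlaceAbstract

section TestPlaceLevel

open Fermat.Agent.S40.M1.TestPointInv Fermat.Agent.N4.Chart Fermat.Agent.N4F.C.Galois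

variable (K : IntermediateField ℚ Qbar) (hK : ∀ (τ : Γ) (x : Qbar), x ∈ K → τ x ∈ K)
  (N : ℕ) [NeZero N] {A : ValuationSubring Qbar} [IsDiscreteValuationRing ↥(baseRing A K)]
  [IsFractionRing ↥(baseRing A K) (Lvl K)]
  (hprime : (fibreIdeal (Lvl K) N (baseRing A K) (Rfin (Lvl K) N (baseRing A K))).IsPrime)
  {ϖ : ↥(baseRing A K)} (hϖ : Irreducible ϖ)

include hprime hϖ in
/-- **The inertia group permutes the places centred at a point of the special fibre**, finite chart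
of ANY level `N` with integral special fibre (for levels `M q` this is `NodeGalois.smul_mem_centredSet`). -/
theorem levelFF_smul_mem_centredSet {σ : Γ} (hσ : σ ∈ A.inertiaSubgroupIn ℚ)
    (𝔪 : Ideal ↥(Rfin (Lvl K) N (baseRing A K)))
    (hϖ𝔪 : algebraMap ↥(baseRing A K) ↥(Rfin (Lvl K) N (baseRing A K)) ϖ ∈ 𝔪)
    {Q : Place (Lvl K) (FF (Lvl K) N)} (hQ : Q ∈ centredSet (Lvl K) 𝔪) :
    levelFF K hK N σ • Q ∈ centredSet (Lvl K) 𝔪 :=
  smul_mem_centredSet_of_trivialMod (Rfin (Lvl K) N (baseRing A K)) 𝔪 (levelFF K hK N σ)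
    (stableUnder_Rfin K hK N (mem_decompositionSubgroup_of_mem_inertia hσ))
    (trivialMod_Rfin K hK N hprime hϖ hσ) hϖ𝔪 hQ

include hprime hϖ in
/-- ★ `σ ∈ I_A` fixes the test place: `Q` the unique place centred at `𝔪 ∋ ϖ` at which the
`σ`-invariant function `τ` vanishes. -/
theorem levelFF_smul_place_eq_of_unique {σ : Γ} (hσ : σ ∈ A.inertiaSubgroupIn ℚ)
    (𝔪 : Ideal ↥(Rfin (Lvl K) N (baseRing A K)))
    (hϖ𝔪 : algebraMap ↥(baseRing A K) ↥(Rfin (Lvl K) N (baseRing A K)) ϖ ∈ 𝔪)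
    {τ : FF (Lvl K) N} (hστ : levelFF K hK N σ • τ = τ)
    {Q : Place (Lvl K) (FF (Lvl K) N)} (hQ : Q ∈ centredSet (Lvl K) 𝔪) (hord : 0 < Q.ord τ)
    (huniq : ∀ Q' : Place (Lvl K) (FF (Lvl K) N), Q' ∈ centredSet (Lvl K) 𝔪 → 0 < Q'.ord τ →
      Q' = Q) : levelFF K hK N σ • Q = Q :=
  smul_place_eq_of_unique 𝔪 (levelFF K hK N σ) hστ
    (levelFF_smul_mem_centredSet K hK N hprime hϖ hσ 𝔪 hϖ𝔪 hQ) hord huniq

end TestPlaceLevel

/-! ### The two hypotheses of the invariance clause of `NormUVal.r4a_alpha / r4a_beta` -/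

section Psi

variable {K₁ K : IntermediateField ℚ Qbar} (hKL : K₁ ≤ K)
  (hK : ∀ (τ : Γ) (x : Qbar), x ∈ K → τ x ∈ K) (N : ℕ) [NeZero N] (A : ValuationSubring Qbar)

/-- The map `ψ` of `NormUVal` at the levels: the finite chart of the small level `K₁`, into the
function field of the big level `K`. -/
def psiLvl : ↥(Rfin (Lvl K₁) N (baseRing A K₁)) →+* FF (Lvl K) N :=
  (ffMap (lvlIncl hKL) N).comp (Rfin (Lvl K₁) N (baseRing A K₁)).val.toRingHom

@[simp] theorem psiLvl_apply (x : ↥(Rfin (Lvl K₁) N (baseRing A K₁))) :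
    psiLvl hKL N A x = ffMap (lvlIncl hKL) N (x : FF (Lvl K₁) N) := rfl

theorem psiLvl_eq_coe_finIncl (x : ↥(Rfin (Lvl K₁) N (baseRing A K₁))) :
    psiLvl hKL N A x = ((finIncl A N hKL x : ↥(Rfin (Lvl K) N (baseRing A K))) : FF (Lvl K) N) :=
  (coe_finMap (lvlIncl hKL) N (baseRing A K₁) (baseRing A K) (lvlIncl_mem A hKL) x).symm

/-- ★ (ii) of the invariance clause: `σ` fixing `K₁` pointwise fixes `ψ T₀`. -/
theorem levelFF_smul_psiLvl {σ : Γ} (hσ : ∀ y ∈ K₁, σ y = y)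
    (x : ↥(Rfin (Lvl K₁) N (baseRing A K₁))) :
    levelFF K hK N σ • psiLvl hKL N A x = psiLvl hKL N A x :=
  levelFF_smul_ffMap hKL hK N hσ _

/-- ★ (ii) for `σ ∈ I_A` and `K₁ ≤ K0 A`. -/
theorem levelFF_smul_psiLvl_of_le_K0 {ℓ : ℕ} (hℓ : ℓ.Prime) (hA : A.LiesOverPrime ℓ)
    (hK₁ : K₁ ≤ K0 A) {σ : Γ} (hσ : σ ∈ A.inertiaSubgroupIn ℚ)
    (x : ↥(Rfin (Lvl K₁) N (baseRing A K₁))) :
    levelFF K hK N σ • psiLvl hKL N A x = psiLvl hKL N A x :=
  levelFF_smul_ffMap_of_le_K0 hKL hK N A hℓ hA hK₁ hσ _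

/-- The function `ffMap z₀ - c₀` (whose zero is the test place) is fixed by `σ ∈ I_A` when `z₀`, `c₀`
come from `K₁ ≤ K0 A`. -/
theorem levelFF_smul_testFunction_of_le_K0 {ℓ : ℕ} (hℓ : ℓ.Prime) (hA : A.LiesOverPrime ℓ)
    (hK₁ : K₁ ≤ K0 A) {σ : Γ} (hσ : σ ∈ A.inertiaSubgroupIn ℚ) (z₀ : FF (Lvl K₁) N)
    (c₀ : Lvl K₁) :
    levelFF K hK N σ • (ffMap (lvlIncl hKL) N z₀ -
        algebraMap (Lvl K) (FF (Lvl K) N) (lvlIncl hKL c₀)) =
      ffMap (lvlIncl hKL) N z₀ - algebraMap (Lvl K) (FF (Lvl K) N) (lvlIncl hKL c₀) := by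
  rw [smul_sub, levelFF_smul_ffMap_of_le_K0 hKL hK N A hℓ hA hK₁ hσ,
    levelFF_smul_algebraMap_lvlIncl hKL hK N
      (fun _ hy => apply_eq_of_mem_K0 hℓ hA hσ (hK₁ hy))]

variable [IsDiscreteValuationRing ↥(baseRing A K)] [IsFractionRing ↥(baseRing A K) (Lvl K)]

/-- ★ (i) of the invariance clause, in the shape of the output of
`TestPointUp.exists_testPoint_finIncl` (clauses `Q ∈ centredSet`, `Q.ord (ffMap z₀ - c₀) = 1`,
uniqueness): `σ ∈ I_A` fixes the test place, for `z₀`, `c₀` over `K₁ ≤ K0 A`. -/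
theorem levelFF_smul_testPlace_of_le_K0
    (hprime : (fibreIdeal (Lvl K) N (baseRing A K) (Rfin (Lvl K) N (baseRing A K))).IsPrime)
    {ϖ : ↥(baseRing A K)} (hϖ : Irreducible ϖ)
    {ℓ : ℕ} (hℓ : ℓ.Prime) (hA : A.LiesOverPrime ℓ) (hK₁ : K₁ ≤ K0 A) {σ : Γ}
    (hσ : σ ∈ A.inertiaSubgroupIn ℚ)
    (𝔪 : Ideal ↥(Rfin (Lvl K) N (baseRing A K)))
    (hϖ𝔪 : algebraMap ↥(baseRing A K) ↥(Rfin (Lvl K) N (baseRing A K)) ϖ ∈ 𝔪)
    (z₀ : FF (Lvl K₁) N) (c₀ : Lvl K₁)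
    {Q : Place (Lvl K) (FF (Lvl K) N)} (hQ : Q ∈ centredSet (Lvl K) 𝔪)
    (hord : Q.ord (ffMap (lvlIncl hKL) N z₀ -
      algebraMap (Lvl K) (FF (Lvl K) N) (lvlIncl hKL c₀)) = 1)
    (huniq : ∀ Q' : Place (Lvl K) (FF (Lvl K) N), Q' ∈ centredSet (Lvl K) 𝔪 →
      0 < Q'.ord (ffMap (lvlIncl hKL) N z₀ -
        algebraMap (Lvl K) (FF (Lvl K) N) (lvlIncl hKL c₀)) → Q' = Q) :
    levelFF K hK N σ • Q = Q :=
  levelFF_smul_place_eq_of_unique K hK N hprime hϖ hσ 𝔪 hϖ𝔪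
    (levelFF_smul_testFunction_of_le_K0 hKL hK N A hℓ hA hK₁ hσ z₀ c₀) hQ
    (by rw [hord]; exact one_pos) huniq

/-- ★ **The invariance clause of `NormUVal.r4a_alpha / r4a_beta` discharged**: for `σ ∈ I_A`, a test
place as above and `t` satisfying the clause for `ψ = psiLvl`, `levelAut K hK σ t = t`. -/
theorem levelAut_eq_of_clause
    (hprime : (fibreIdeal (Lvl K) N (baseRing A K) (Rfin (Lvl K) N (baseRing A K))).IsPrime)
    {ϖ : ↥(baseRing A K)} (hϖ : Irreducible ϖ)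
    {ℓ : ℕ} (hℓ : ℓ.Prime) (hA : A.LiesOverPrime ℓ) (hK₁ : K₁ ≤ K0 A) {σ : Γ}
    (hσ : σ ∈ A.inertiaSubgroupIn ℚ)
    (𝔪 : Ideal ↥(Rfin (Lvl K) N (baseRing A K)))
    (hϖ𝔪 : algebraMap ↥(baseRing A K) ↥(Rfin (Lvl K) N (baseRing A K)) ϖ ∈ 𝔪)
    (z₀ : FF (Lvl K₁) N) (c₀ : Lvl K₁)
    {Q : Place (Lvl K) (FF (Lvl K) N)} (hQ : Q ∈ centredSet (Lvl K) 𝔪)
    (hord : Q.ord (ffMap (lvlIncl hKL) N z₀ -
      algebraMap (Lvl K) (FF (Lvl K) N) (lvlIncl hKL c₀)) = 1)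
    (huniq : ∀ Q' : Place (Lvl K) (FF (Lvl K) N), Q' ∈ centredSet (Lvl K) 𝔪 →
      0 < Q'.ord (ffMap (lvlIncl hKL) N z₀ -
        algebraMap (Lvl K) (FF (Lvl K) N) (lvlIncl hKL c₀)) → Q' = Q)
    {t : Lvl K}
    (hcl : ∀ σ' : SemilinearAut (Lvl K) (FF (Lvl K) N), σ' • Q = Q →
      (∀ x : ↥(Rfin (Lvl K₁) N (baseRing A K₁)), σ' • psiLvl hKL N A x = psiLvl hKL N A x) →
      SemilinearAut.baseAut σ' t = t) :
    levelAut K hK σ t = t :=
  hcl (levelFF K hK N σ)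
    (levelFF_smul_testPlace_of_le_K0 hKL hK N A hprime hϖ hℓ hA hK₁ hσ 𝔪 hϖ𝔪 z₀ c₀ hQ hord huniq)
    (levelFF_smul_psiLvl_of_le_K0 hKL hK N A hℓ hA hK₁ hσ)

end Psi

end Fermat.Agent.S40.M1.NormUValGlue
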