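/-
S40 / T6′ static route, leaf (R4), block [INV] of `R4Node.r4_node_abs` / `NodeInv.yNode_fixed` (helper17;
dispatch helper8 #3288 (2), pair of helper25 on `R4Final`): **the test places of helper21's two-level /
uniform (D7) (`TestPointUp.exists_testPoint_finIncl`, `exists_testPoint_uniform`) are fixed by the inertia
elements fixing the small level** — binder block of `TestPointUp` VERBATIM.

`K₁ ≤ L` levels of `Q̄`, `L` Galois-stable, `𝔪'` a closed point of the special fibre of the finite chart of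
level `N` over `O_L`, `z₀` a local parameter from `K₁` at `𝔪'.comap finIncl`, `c₀ ∈ π₁ O_{K₁}`.

* `chartData_finIncl` : the chart data (`finIncl z₀ ∈ 𝔪'`, `θ (finIncl z₀) ≠ 0`, (D2) `hgen`) of
  `TestPointLevel.exists_testPoint` / `TestPointInv.levelFF_smul_testPlace_eq` at the big level;
* ★ `levelFF_smul_testPlace_eq_finIncl` : `σ ∈ I_A`, `σ|K₁ = id` ⇒ `levelFF L hL N σ • Q = Q` for the
  place `Q` through `𝔪'` at which `ffMap z₀ - c₀` vanishes (`hσα`, `hσβ` of `NodeInv.yNode_fixed`);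
  `levelFF_smul_testPlace_eq_of_le_K0` : the same for `K₁ ≤ K0 A` (no condition on `σ ∈ I_A`);
* `baseAut_valT_of_fixed`, `levelAut_valT_ffMap` : values at a fixed place of fixed functions are fixed
  (`htA`, `htB` of `yNode_fixed` for values of functions from the small level).
-/
import Mathlib
import Fermat.Agent.S40.M1.TestPointUp
import Fermat.Agent.S40.M1.TestPointInv
import Fermat.Agent.S40.M1.NodeGalois

set_option autoImplicit false
set_option linter.unusedSectionVars false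
set_option linter.style.haveILetI false
set_option linter.style.longLine false

open ModularCurve Fermat.Agent.N4.Setting Fermat.Agent.N4.FibreEmbedding
open Fermat.Agent.N4.Chart IsLocalRing Fermat.Agent.P3G.RbarFin Fermat.Agent.P3G AlgebraicCurve
open Fermat.Agent.S40.M1.AlphaNodeLevel Fermat.Agent.S19.Cech.LevelBasis
open Fermat.Agent.N4.BaseDescent
open Fermat.Agent.N4F.C Fermat.Agent.N4F.C.Levels Fermat.Agent.N4F.C.LevelCharts
  Fermat.Agent.N4F.C.ChartFactsProof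

noncomputable section

namespace Fermat.Agent.S40.M1.TestPointInvUp

open Fermat.Agent.G.Points Fermat.Agent.G.PointsLoc Fermat.Agent.P3G.UCrit
open Fermat.Agent.S40.M1.SmoothPoint Fermat.Agent.S40.M1.TestPointLevel
  Fermat.Agent.S40.M1.TestPointRat Fermat.Agent.S40.M1.TestPointUp
  Fermat.Agent.S40.M1.TestPointInv Fermat.Agent.S40.M1.NodeGalois
  Fermat.Agent.P3G.GammaAut Fermat.Agent.N4.BigDVR Fermat.Agent.P3G.Gamma

local notation "Qb" => AlgebraicClosure ℚ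
local notation "Γ" => (AlgebraicClosure ℚ ≃ₐ[ℚ] AlgebraicClosure ℚ)

variable (A : ValuationSubring Qb) (N : ℕ) [NeZero N]
  {K₁ L : IntermediateField ℚ Qb} (hKL : K₁ ≤ L)
  [IsDiscreteValuationRing ↥(baseRing A K₁)] [IsDiscreteValuationRing ↥(baseRing A L)]
  [IsFractionRing ↥(baseRing A K₁) (Lvl K₁)] [IsFractionRing ↥(baseRing A L) (Lvl L)]
  (P₁ : LevelPack A N K₁) (P₂ : LevelPack A N L)

include P₁ P₂ in
/-- **The chart data of the test point at the big level** (the derivations inside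
`TestPointUp.exists_testPoint_finIncl`, as a lemma). -/
theorem chartData_finIncl {π₁ : ↥(baseRing A K₁)} (hπ₁ : Irreducible π₁)
    {π₂ : ↥(baseRing A L)} (hπ₂ : Irreducible π₂)
    (𝔪' : Ideal ↥(Rfin (Lvl L) N (baseRing A L))) [𝔪'.IsMaximal]
    (hπ𝔪 : algebraMap ↥(baseRing A L) ↥(Rfin (Lvl L) N (baseRing A L)) π₂ ∈ 𝔪')
    {z₀ : ↥(Rfin (Lvl K₁) N (baseRing A K₁))}
    (hz : th (Lvl K₁) N (baseRing A K₁) z₀ ∈
      (𝔪'.comap (finIncl A N hKL)).map (th (Lvl K₁) N (baseRing A K₁)))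
    (hz2 : th (Lvl K₁) N (baseRing A K₁) z₀ ∉
      ((𝔪'.comap (finIncl A N hKL)).map (th (Lvl K₁) N (baseRing A K₁))) ^ 2) :
    finIncl A N hKL z₀ ∈ 𝔪' ∧ thetaFin (Lvl L) N (baseRing A L) (finIncl A N hKL z₀) ≠ 0 ∧
      (∃ c : ↥(Rfin (Lvl L) N (baseRing A L)), c ∉ 𝔪' ∧ ∀ r ∈ 𝔪',
        ∃ a d : ↥(Rfin (Lvl L) N (baseRing A L)),
          c * r = a * finIncl A N hKL z₀ +
            d * algebraMap ↥(baseRing A L) ↥(Rfin (Lvl L) N (baseRing A L)) π₂) ∧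
      π₂ ∣ baseMapIncl A hKL π₁ := by
  haveI : 𝔪'.IsPrime := Ideal.IsMaximal.isPrime ‹_›
  have hdvd : π₂ ∣ baseMapIncl A hKL π₁ := dvd_baseMapIncl_irreducible A hKL hπ₁ hπ₂
  have hgen := gen_finMap (Lvl K₁) (Lvl L) (lvlIncl hKL) N (baseRing A K₁) (baseRing A L)
    (lvlIncl_mem A hKL) P₁.primeFin P₁.dedFin hπ₁ hdvd
    (exists_finIncl_sub_mem_span A N hKL P₁ P₂ hπ₂) 𝔪' hπ𝔪 hz hz2
  have hz₀ : thetaFin (Lvl K₁) N (baseRing A K₁) z₀ ≠ 0 := by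
    intro h0
    apply hz2
    have : th (Lvl K₁) N (baseRing A K₁) z₀ = 0 := Subtype.ext h0
    rw [this]
    exact Ideal.zero_mem _
  have hz0 := thetaFin_finIncl_ne_zero A N hKL P₁ P₂ hπ₁ hπ₂ hz₀
  have hπ₀ : algebraMap ↥(baseRing A K₁) ↥(Rfin (Lvl K₁) N (baseRing A K₁)) π₁ ∈
      𝔪'.comap (finIncl A N hKL) := by
    rw [Ideal.mem_comap]
    obtain ⟨e, he⟩ := hdvd
    have h1 : finIncl A N hKL (algebraMap ↥(baseRing A K₁) ↥(Rfin (Lvl K₁) N (baseRing A K₁)) π₁) =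
        algebraMap ↥(baseRing A L) ↥(Rfin (Lvl L) N (baseRing A L)) (baseMapIncl A hKL π₁) := by
      apply Subtype.ext
      rw [coe_finMap]
      exact ffMap_algebraMap_base (lvlIncl hKL) N (baseRing A K₁) (baseRing A L)
        (lvlIncl_mem A hKL) π₁
    rw [h1, he, map_mul]
    exact 𝔪'.mul_mem_right _ hπ𝔪
  have hz𝔪 : finIncl A N hKL z₀ ∈ 𝔪' :=
    Ideal.mem_comap.1 (mem_of_th_mem (Lvl K₁) N (baseRing A K₁) P₁.primeFin hπ₁ _ hπ₀ hz)
  exact ⟨hz𝔪, hz0, hgen, hdvd⟩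

variable (hL : ∀ (τ : Γ) (x : Qb), x ∈ L → τ x ∈ L)

include P₁ P₂ in
/-- ★ **The two-level test place is fixed by the inertia elements fixing the small level.** -/
theorem levelFF_smul_testPlace_eq_finIncl {π₁ : ↥(baseRing A K₁)} (hπ₁ : Irreducible π₁)
    {π₂ : ↥(baseRing A L)} (hπ₂ : Irreducible π₂)
    (𝔪' : Ideal ↥(Rfin (Lvl L) N (baseRing A L))) [𝔪'.IsMaximal]
    (hπ𝔪 : algebraMap ↥(baseRing A L) ↥(Rfin (Lvl L) N (baseRing A L)) π₂ ∈ 𝔪')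
    {z₀ : ↥(Rfin (Lvl K₁) N (baseRing A K₁))}
    (hz : th (Lvl K₁) N (baseRing A K₁) z₀ ∈
      (𝔪'.comap (finIncl A N hKL)).map (th (Lvl K₁) N (baseRing A K₁)))
    (hz2 : th (Lvl K₁) N (baseRing A K₁) z₀ ∉
      ((𝔪'.comap (finIncl A N hKL)).map (th (Lvl K₁) N (baseRing A K₁))) ^ 2)
    {c₀ : ↥(baseRing A K₁)} (hc₀ : π₁ ∣ c₀) {σ : Γ} (hσ : σ ∈ A.inertiaSubgroupIn ℚ)
    (hσK₁ : ∀ y ∈ K₁, σ y = y)
    {Q : Place (Lvl L) (FF (Lvl L) N)} (hQ : Q ∈ centredSet (Lvl L) 𝔪')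
    (h : 0 < Q.ord (ffMap (lvlIncl hKL) N (z₀ : FF (Lvl K₁) N) -
      algebraMap (Lvl L) (FF (Lvl L) N) (lvlIncl hKL (c₀ : Lvl K₁)))) :
    levelFF L hL N σ • Q = Q := by
  obtain ⟨hz𝔪, hz0, hgen, hdvd⟩ := chartData_finIncl A N hKL P₁ P₂ hπ₁ hπ₂ 𝔪' hπ𝔪 hz hz2
  have hc : π₂ ∣ baseMapIncl A hKL c₀ := by
    obtain ⟨e, rfl⟩ := hc₀
    rw [map_mul]
    exact Dvd.dvd.mul_right hdvd _
  refine levelFF_smul_testPlace_eq L hL N P₂.primeFin hπ₂ 𝔪' hπ𝔪 (finIncl A N hKL z₀) hz𝔪 hz0 hgen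
    hc hσ ?_ ?_ hQ h
  · exact levelFF_smul_finMap hKL hL N A hσK₁ z₀
  · exact levelFF_smul_algebraMap_lvlIncl hKL hL N hσK₁ (c₀ : Lvl K₁)

include P₁ P₂ in
/-- The same for a small level inside the maximal unramified level `K0 A`: every `σ ∈ I_A` fixes the test
place. -/
theorem levelFF_smul_testPlace_eq_of_le_K0 {ℓ : ℕ} (hℓ : ℓ.Prime) (hA : A.LiesOverPrime ℓ)
    (hK₁ : K₁ ≤ K0 A) {π₁ : ↥(baseRing A K₁)} (hπ₁ : Irreducible π₁)
    {π₂ : ↥(baseRing A L)} (hπ₂ : Irreducible π₂)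
    (𝔪' : Ideal ↥(Rfin (Lvl L) N (baseRing A L))) [𝔪'.IsMaximal]
    (hπ𝔪 : algebraMap ↥(baseRing A L) ↥(Rfin (Lvl L) N (baseRing A L)) π₂ ∈ 𝔪')
    {z₀ : ↥(Rfin (Lvl K₁) N (baseRing A K₁))}
    (hz : th (Lvl K₁) N (baseRing A K₁) z₀ ∈
      (𝔪'.comap (finIncl A N hKL)).map (th (Lvl K₁) N (baseRing A K₁)))
    (hz2 : th (Lvl K₁) N (baseRing A K₁) z₀ ∉
      ((𝔪'.comap (finIncl A N hKL)).map (th (Lvl K₁) N (baseRing A K₁))) ^ 2)
    {c₀ : ↥(baseRing A K₁)} (hc₀ : π₁ ∣ c₀) {σ : Γ} (hσ : σ ∈ A.inertiaSubgroupIn ℚ)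
    {Q : Place (Lvl L) (FF (Lvl L) N)} (hQ : Q ∈ centredSet (Lvl L) 𝔪')
    (h : 0 < Q.ord (ffMap (lvlIncl hKL) N (z₀ : FF (Lvl K₁) N) -
      algebraMap (Lvl L) (FF (Lvl L) N) (lvlIncl hKL (c₀ : Lvl K₁)))) :
    levelFF L hL N σ • Q = Q :=
  levelFF_smul_testPlace_eq_finIncl A N hKL P₁ P₂ hL hπ₁ hπ₂ 𝔪' hπ𝔪 hz hz2 hc₀ hσ
    (fun _ hy => apply_eq_of_mem_K0 hℓ hA hσ (hK₁ hy)) hQ h

/-! ### Values at a fixed place -/

omit [IsDiscreteValuationRing ↥(baseRing A K₁)] [IsDiscreteValuationRing ↥(baseRing A L)]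
  [IsFractionRing ↥(baseRing A K₁) (Lvl K₁)] [IsFractionRing ↥(baseRing A L) (Lvl L)] in
/-- The value at a fixed rational place of a fixed function is fixed. -/
theorem baseAut_valT_of_fixed {k F : Type*} [Field k] [Field F] [Algebra k F] (Q : Place k F)
    (hQ : Function.Bijective (algebraMap k Q.ResidueField)) (σ : SemilinearAut k F)
    (hσQ : σ • Q = Q) {g : F} (hg : σ • g = g) :
    SemilinearAut.baseAut σ (Fermat.Agent.S40.M1.NodeInv.valT Q hQ g) =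
      Fermat.Agent.S40.M1.NodeInv.valT Q hQ g := by
  rw [← Fermat.Agent.S40.M1.NodeInv.valT_smul_of_fixed Q hQ σ hσQ g, hg]

omit [IsDiscreteValuationRing ↥(baseRing A K₁)] [IsDiscreteValuationRing ↥(baseRing A L)]
  [IsFractionRing ↥(baseRing A K₁) (Lvl K₁)] [IsFractionRing ↥(baseRing A L) (Lvl L)] in
/-- **Values at a fixed place of functions from the small level are fixed** (`htA`, `htB` of
`NodeInv.yNode_fixed` for `tA`, `tB` values of functions defined over `K₁`). -/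
theorem levelAut_valT_ffMap {σ : Γ} (hσK₁ : ∀ y ∈ K₁, σ y = y)
    {Q : Place (Lvl L) (FF (Lvl L) N)}
    (hQ : Function.Bijective (algebraMap (Lvl L) Q.ResidueField))
    (hσQ : levelFF L hL N σ • Q = Q) (g₀ : FF (Lvl K₁) N) :
    levelAut L hL σ (Fermat.Agent.S40.M1.NodeInv.valT Q hQ (ffMap (lvlIncl hKL) N g₀)) =
      Fermat.Agent.S40.M1.NodeInv.valT Q hQ (ffMap (lvlIncl hKL) N g₀) :=
  baseAut_valT_of_fixed Q hQ (levelFF L hL N σ) hσQ (levelFF_smul_ffMap hKL hL N hσK₁ g₀)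

end Fermat.Agent.S40.M1.TestPointInvUp
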