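/-
S40 / S44 (row 38), T6′ static route (`moonshots` row 67), block (R4), the [INV] block of
`R4Final.dvd_ord_of_node` AS ONE LEMMA (helper17; dispatch helper8 #3288 (2), pair of helper25).

Binder block = `NodeHonest.slope_levels` / `R4Final` (`N p hpN A hA hKL (hK₀ : IsUnramLevel A p K₀)
(hK : IsGoodLevel A p K)` + the two DVR instances), plus a small level `L₀ ≤ K` and a predicate `Fix` on
`Γ` with `Fix σ → σ|L₀ = id` (in the application `Fix σ := ∀ c ∈ L₀, σ c = c`, or "σ fixes `V` pointwise"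
with `L₀ = bigLevel A (smallField V)`).

* `testPlace_fixed` : a test place at the good level `K` with local parameter and constant from the
  unramified level `K₀` (`TestPointUp.exists_testPoint_finIncl` / `R4Uniform.TestPlace` clauses
  `Q ∈ centredSet 𝔪'`, `ord = 1`) is fixed by every `σ₀ ∈ I_A` (no condition `Fix`);
* ★ `hinv_levels` : the conjunction `hinv` of `R4Final.dvd_ord_of_node` VERBATIM for
  `f = ffMap g₀`, `hA' = ffMap a'`, `hB' = ffMap b'` (`g₀ a' b'` over `L₀`), `Qα Qβ` test places as above,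
  `tA tB` with the invariance clause of `NormUVal.r4a_alpha / r4a_beta` for `ψ := NormUValGlue.psiLvl hKL N A`.
-/
import Mathlib
import Fermat.Agent.S40.M1.TestPointInvUp
import Fermat.Agent.S40.M1.NormUValGlue
import Fermat.Agent.S40.M1.LevelPackGood

set_option autoImplicit false
set_option linter.unusedSectionVars false
set_option linter.unusedVariables false
set_option linter.style.haveILetI false
set_option linter.style.longLine false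

open ModularCurve Fermat.Agent.N4.Setting Fermat.Agent.N4.FibreEmbedding
open Fermat.Agent.N4.Chart IsLocalRing Fermat.Agent.P3G.RbarFin Fermat.Agent.P3G AlgebraicCurve
open Fermat.Agent.S40.M1.AlphaNodeLevel Fermat.Agent.S19.Cech.LevelBasis
open Fermat.Agent.N4.BaseDescent
open Fermat.Agent.N4F.C Fermat.Agent.N4F.C.Levels Fermat.Agent.N4F.C.LevelCharts
  Fermat.Agent.N4F.C.ChartFactsProof

noncomputable section

namespace Fermat.Agent.S40.M1.R4Inv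

open Fermat.Agent.P3G.UCrit Fermat.Agent.P3G.GammaAut Fermat.Agent.N4.BigDVR
  Fermat.Agent.P3G.Assembly.LevelStep Fermat.Agent.S36.Descent.UnramLevel
  Fermat.Agent.S40.M1.SmoothPoint Fermat.Agent.S40.M1.TestPointInvUp Fermat.Agent.S40.M1.NodeGalois
  Fermat.Agent.S40.M1.NormUValGlue Fermat.Agent.S40.M1.LevelPackGood

local notation "Qbar" => AlgebraicClosure ℚ
local notation "Γ" => (AlgebraicClosure ℚ ≃ₐ[ℚ] AlgebraicClosure ℚ)

variable (N p : ℕ) [NeZero N] [Fact p.Prime] (hpN : ¬ p ∣ N)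
  (A : ValuationSubring Qbar) (hA : A.LiesOverPrime p)
  {K₀ K : IntermediateField ℚ Qbar} (hKL : K₀ ≤ K)
  (hK₀ : IsUnramLevel A p K₀) (hK : IsGoodLevel A p K)
  [IsDiscreteValuationRing ↥(baseRing A K₀)] [IsDiscreteValuationRing ↥(baseRing A K)]

include hpN hA hK₀ in
/-- **A test place with data from the unramified level is fixed by the inertia group.** -/
theorem testPlace_fixed {π₁ : ↥(baseRing A K₀)} (hπ₁ : Irreducible π₁)
    {π₂ : ↥(baseRing A K)} (hπ₂ : Irreducible π₂)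
    (𝔪' : Ideal ↥(Rfin (Lvl K) N (baseRing A K))) [𝔪'.IsMaximal]
    (hπ𝔪 : algebraMap ↥(baseRing A K) ↥(Rfin (Lvl K) N (baseRing A K)) π₂ ∈ 𝔪')
    {z₀ : ↥(Rfin (Lvl K₀) N (baseRing A K₀))}
    (hz : th (Lvl K₀) N (baseRing A K₀) z₀ ∈
      (𝔪'.comap (finIncl A N hKL)).map (th (Lvl K₀) N (baseRing A K₀)))
    (hz2 : th (Lvl K₀) N (baseRing A K₀) z₀ ∉
      ((𝔪'.comap (finIncl A N hKL)).map (th (Lvl K₀) N (baseRing A K₀))) ^ 2)
    {c₀ : ↥(baseRing A K₀)} (hc₀ : π₁ ∣ c₀)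
    {Q : Place (Lvl K) (FF (Lvl K) N)} (hQ : Q ∈ centredSet (Lvl K) 𝔪')
    (h : 0 < Q.ord (ffMap (lvlIncl hKL) N (z₀ : FF (Lvl K₀) N) -
      algebraMap (Lvl K) (FF (Lvl K) N) (lvlIncl hKL (c₀ : Lvl K₀))))
    {σ₀ : Γ} (hσ₀ : σ₀ ∈ A.inertiaSubgroupIn ℚ) :
    levelFF K hK.stable N σ₀ • Q = Q :=
  levelFF_smul_testPlace_eq_finIncl A N hKL (levelPack_of_isUnramLevel N p hpN A hA K₀ hK₀)
    (levelPack_of_isGoodLevel N p hpN A hA K hK) hK.stable hπ₁ hπ₂ 𝔪' hπ𝔪 hz hz2 hc₀ hσ₀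
    (hK₀.fixed σ₀ hσ₀) hQ h

include hpN hA hK₀ in
/-- ★ **[INV] of `R4Final.dvd_ord_of_node`, one lemma.** -/
theorem hinv_levels {L₀ : IntermediateField ℚ Qbar} (hLK : L₀ ≤ K)
    (Fix : Γ → Prop) (hFixL : ∀ σ : Γ, Fix σ → ∀ c ∈ L₀, σ c = c)
    (g₀ : FF (Lvl L₀) (N * p)) (a' b' : FF (Lvl L₀) N)
    {π₁ : ↥(baseRing A K₀)} (hπ₁ : Irreducible π₁)
    {π₂ : ↥(baseRing A K)} (hπ₂ : Irreducible π₂)
    -- the test place `Qα`
    (𝔪α : Ideal ↥(Rfin (Lvl K) N (baseRing A K))) [𝔪α.IsMaximal]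
    (hπα : algebraMap ↥(baseRing A K) ↥(Rfin (Lvl K) N (baseRing A K)) π₂ ∈ 𝔪α)
    {zα₀ : ↥(Rfin (Lvl K₀) N (baseRing A K₀))}
    (hzα : th (Lvl K₀) N (baseRing A K₀) zα₀ ∈
      (𝔪α.comap (finIncl A N hKL)).map (th (Lvl K₀) N (baseRing A K₀)))
    (hzα2 : th (Lvl K₀) N (baseRing A K₀) zα₀ ∉
      ((𝔪α.comap (finIncl A N hKL)).map (th (Lvl K₀) N (baseRing A K₀))) ^ 2)
    {cα₀ : ↥(baseRing A K₀)} (hcα₀ : π₁ ∣ cα₀)
    {Qα : Place (Lvl K) (FF (Lvl K) N)} (hQαc : Qα ∈ centredSet (Lvl K) 𝔪α)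
    (hQαo : 0 < Qα.ord (ffMap (lvlIncl hKL) N (zα₀ : FF (Lvl K₀) N) -
      algebraMap (Lvl K) (FF (Lvl K) N) (lvlIncl hKL (cα₀ : Lvl K₀))))
    -- the test place `Qβ`
    (𝔪β : Ideal ↥(Rfin (Lvl K) N (baseRing A K))) [𝔪β.IsMaximal]
    (hπβ : algebraMap ↥(baseRing A K) ↥(Rfin (Lvl K) N (baseRing A K)) π₂ ∈ 𝔪β)
    {zβ₀ : ↥(Rfin (Lvl K₀) N (baseRing A K₀))}
    (hzβ : th (Lvl K₀) N (baseRing A K₀) zβ₀ ∈
      (𝔪β.comap (finIncl A N hKL)).map (th (Lvl K₀) N (baseRing A K₀)))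
    (hzβ2 : th (Lvl K₀) N (baseRing A K₀) zβ₀ ∉
      ((𝔪β.comap (finIncl A N hKL)).map (th (Lvl K₀) N (baseRing A K₀))) ^ 2)
    {cβ₀ : ↥(baseRing A K₀)} (hcβ₀ : π₁ ∣ cβ₀)
    {Qβ : Place (Lvl K) (FF (Lvl K) N)} (hQβc : Qβ ∈ centredSet (Lvl K) 𝔪β)
    (hQβo : 0 < Qβ.ord (ffMap (lvlIncl hKL) N (zβ₀ : FF (Lvl K₀) N) -
      algebraMap (Lvl K) (FF (Lvl K) N) (lvlIncl hKL (cβ₀ : Lvl K₀))))
    -- the values `tA`, `tB` with the invariance clause of `NormUVal.r4a_alpha / r4a_beta`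
    {tA tB : Lvl K}
    (htA : ∀ σ' : SemilinearAut (Lvl K) (FF (Lvl K) N), σ' • Qα = Qα →
      (∀ x : ↥(Rfin (Lvl K₀) N (baseRing A K₀)), σ' • psiLvl hKL N A x = psiLvl hKL N A x) →
      SemilinearAut.baseAut σ' tA = tA)
    (htB : ∀ σ' : SemilinearAut (Lvl K) (FF (Lvl K) N), σ' • Qβ = Qβ →
      (∀ x : ↥(Rfin (Lvl K₀) N (baseRing A K₀)), σ' • psiLvl hKL N A x = psiLvl hKL N A x) →
      SemilinearAut.baseAut σ' tB = tB) :
    ∀ σ₀ ∈ A.inertiaSubgroupIn ℚ, Fix σ₀ →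
      levelFF K hK.stable (N * p) σ₀ • ffMap (lvlIncl hLK) (N * p) g₀ =
        ffMap (lvlIncl hLK) (N * p) g₀ ∧
      levelFF K hK.stable N σ₀ • ffMap (lvlIncl hLK) N a' = ffMap (lvlIncl hLK) N a' ∧
      levelFF K hK.stable N σ₀ • ffMap (lvlIncl hLK) N b' = ffMap (lvlIncl hLK) N b' ∧
      levelFF K hK.stable N σ₀ • Qα = Qα ∧ levelFF K hK.stable N σ₀ • Qβ = Qβ ∧
      levelAut K hK.stable σ₀ tA = tA ∧ levelAut K hK.stable σ₀ tB = tB := by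
  intro σ₀ hσ₀ hF
  have hL := hFixL σ₀ hF
  have hα := testPlace_fixed N p hpN A hA hKL hK₀ hK hπ₁ hπ₂ 𝔪α hπα hzα hzα2 hcα₀ hQαc hQαo hσ₀
  have hβ := testPlace_fixed N p hpN A hA hKL hK₀ hK hπ₁ hπ₂ 𝔪β hπβ hzβ hzβ2 hcβ₀ hQβc hQβo hσ₀
  have hψ : ∀ x : ↥(Rfin (Lvl K₀) N (baseRing A K₀)),
      levelFF K hK.stable N σ₀ • psiLvl hKL N A x = psiLvl hKL N A x :=
    fun x => levelFF_smul_psiLvl hKL hK.stable N A (hK₀.fixed σ₀ hσ₀) x
  refine ⟨levelFF_smul_ffMap hLK hK.stable (N * p) hL g₀, levelFF_smul_ffMap hLK hK.stable N hL a',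
    levelFF_smul_ffMap hLK hK.stable N hL b', hα, hβ, ?_, ?_⟩
  · have := htA (levelFF K hK.stable N σ₀) hα hψ
    rwa [baseAut_levelFF] at this
  · have := htB (levelFF K hK.stable N σ₀) hβ hψ
    rwa [baseAut_levelFF] at this

end Fermat.Agent.S40.M1.R4Inv
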