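/-
S40 / S44 (row 38), T6′ static route, block (R4), `R4Aux.NodeData` split (helper25 #3328 (1); helper6):
**PER-K, test places ⇒ (R4b) + invariance of the test places.**

Binder block of `NodeHonest.slope_levels` (`K₀` unramified `≤ K` good), `𝔫` a closed point through both
components, `hn` ANY honest node at `𝔫`, `zα₀ zβ₀` local parameters at `α(𝔫₀)`, `β(𝔫₀)` on the special fibre of
`K₀` (`R4UniformPack.IsLocParAlpha/Beta`), two test places (`R4Uniform.TestPlace`) at `α(𝔫)`, `β(𝔫)` with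
constants `p ^ (nα + 1)`, `p ^ (nβ + 1)` (`R4UniformGood.csP`).

* `IsLocParAlpha.up`, `IsLocParBeta.up` : the local-parameter hypotheses in the `TestPointUp` shape at
  `𝔪' := 𝔫.comap alphaR_K` (`hz hz2` of `exists_testPoint_finIncl`, `R4Inv.testPlace_fixed`,
  `NormUValLevel.r4a_levels`);
* `natCast_dvd_csP` : `(p : O₀) ∣ csP A p K₀ n` (`hcα₀` of `r4a_levels`);
* ★ `nodeDataB` : `∃ Qα Qβ hQα hQβ (hα hβ : IsSection …)`, `centre hα = 𝔫.comap alphaR`, `centre hβ = 𝔫.comap betaR`,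
  `ev hα (finIncl zα₀) = baseMapIncl (csP nα) = p ^ (nα + 1)` (both forms), same `β`, `Qα Qβ` centred,
  `ord = 1`, **`hW` = (R4b) of `R4Aux.NodeData` VERBATIM** (`NodeDGoodB.r4b_good`), and
  **`∀ σ₀ ∈ I_A, σ₀ • Qα = Qα ∧ σ₀ • Qβ = Qβ`** (`R4Inv.testPlace_fixed`).
-/
import Mathlib
import Fermat.Agent.S40.M1.R4UniformPack
import Fermat.Agent.S40.M1.NodeDGoodB
import Fermat.Agent.S40.M1.R4Inv
import Fermat.Agent.S40.M1.NodeQbar

set_option autoImplicit false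
set_option linter.unusedSectionVars false
set_option linter.unusedVariables false
set_option linter.style.haveILetI false
set_option linter.style.longLine false
set_option synthInstance.maxHeartbeats 400000
set_option maxHeartbeats 1600000

open ModularCurve AlgebraicCurve
open Fermat.Agent.S28.Gauss Fermat.Agent.N4.Setting Fermat.Agent.N4.FibreEmbedding
open Fermat.Agent.N4.Chart
open Fermat.Agent.N4F.E.DegreeLevelRaise Fermat.Agent.N4F.E.GaussDVR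
open Fermat.Agent.N4F.E IsLocalRing Fermat.Agent.P3G Fermat.Agent.P4
open Fermat.Agent.P3G.RbarFin Fermat.Agent.P3G.TwoComponentsFinal
open Fermat.Agent.P4.TwistRoots Fermat.Agent.S40.W.F4Level
open Fermat.Agent.N4.BaseDescent Fermat.Agent.S19.Cech.LevelBasis
open Fermat.Agent.N4F.C Fermat.Agent.N4F.C.Levels Fermat.Agent.N4F.C.LevelCharts
open Fermat.Agent.S40.M1.AlphaNodeLevel Fermat.Agent.P3G.LevelIntegrality
open Fermat.Agent.G.Points Fermat.Agent.G.PointsLoc Fermat.Agent.P3G.UCrit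
open Fermat.Agent.P3G.GammaAut Fermat.Agent.P4.FrobLevelStep

noncomputable section

namespace Fermat.Agent.S40.M1.NodeDataB

open Fermat.Agent.P3G.Assembly.LevelStep Fermat.Agent.S36.Descent.UnramLevel
open Fermat.Agent.S40.M1.R4Uniform Fermat.Agent.S40.M1.R4UniformGood
open Fermat.Agent.S40.M1.R4UniformPack Fermat.Agent.S40.M1.NodeHonest
open Fermat.Agent.S40.M1.NodeQbar Fermat.Agent.S40.M1.NodeGalois Fermat.Agent.S40.M1.NodeInv

local notation "Qbar" => AlgebraicClosure ℚ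
local notation "Γ" => (AlgebraicClosure ℚ ≃ₐ[ℚ] AlgebraicClosure ℚ)

/-! ### Shape adapters -/

section Shapes

variable (A : ValuationSubring Qbar) (N p : ℕ) [NeZero N] [Fact p.Prime]
  {K₀ K : IntermediateField ℚ Qbar} (hKL : K₀ ≤ K)
  [IsDiscreteValuationRing ↥(baseRing A K₀)] [IsDiscreteValuationRing ↥(baseRing A K)]

/-- The local-parameter hypothesis at `α(𝔫₀)` in the `TestPointUp` shape at `𝔪' := 𝔫.comap alphaR_K`. -/
theorem IsLocParAlpha.up {𝔫 : Ideal ↥(Rfin (Lvl K) (N * p) (baseRing A K))}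
    {z₀ : ↥(Rfin (Lvl K₀) N (baseRing A K₀))}
    (h : IsLocParAlpha (Lvl K₀) N p (baseRing A K₀) (𝔫.comap (finIncl A (N * p) hKL)) z₀) :
    th (Lvl K₀) N (baseRing A K₀) z₀ ∈
        ((𝔫.comap (alphaR (Lvl K) N p (baseRing A K)).toRingHom).comap (finIncl A N hKL)).map
          (th (Lvl K₀) N (baseRing A K₀)) ∧
      th (Lvl K₀) N (baseRing A K₀) z₀ ∉
        (((𝔫.comap (alphaR (Lvl K) N p (baseRing A K)).toRingHom).comap (finIncl A N hKL)).map
          (th (Lvl K₀) N (baseRing A K₀))) ^ 2 := by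
  have e := SmoothPoint.comap_alphaR_comap_finMap (Lvl K₀) (Lvl K) (lvlIncl hKL) N (baseRing A K₀)
    (baseRing A K) (lvlIncl_mem A hKL) p 𝔫
  have e' : (𝔫.comap (alphaR (Lvl K) N p (baseRing A K)).toRingHom).comap (finIncl A N hKL) =
      (𝔫.comap (finIncl A (N * p) hKL)).comap
        (alphaR (Lvl K₀) N p (baseRing A K₀)).toRingHom := e
  rw [e']
  exact h

/-- The local-parameter hypothesis at `β(𝔫₀)` in the `TestPointUp` shape at `𝔪' := 𝔫.comap betaR_K`. -/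
theorem IsLocParBeta.up {𝔫 : Ideal ↥(Rfin (Lvl K) (N * p) (baseRing A K))}
    {z₀ : ↥(Rfin (Lvl K₀) N (baseRing A K₀))}
    (h : IsLocParBeta (Lvl K₀) N p (baseRing A K₀) (𝔫.comap (finIncl A (N * p) hKL)) z₀) :
    th (Lvl K₀) N (baseRing A K₀) z₀ ∈
        ((𝔫.comap (betaR (Lvl K) N p (baseRing A K)).toRingHom).comap (finIncl A N hKL)).map
          (th (Lvl K₀) N (baseRing A K₀)) ∧
      th (Lvl K₀) N (baseRing A K₀) z₀ ∉
        (((𝔫.comap (betaR (Lvl K) N p (baseRing A K)).toRingHom).comap (finIncl A N hKL)).map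
          (th (Lvl K₀) N (baseRing A K₀))) ^ 2 := by
  have e := SmoothPoint.comap_betaR_comap_finMap (Lvl K₀) (Lvl K) (lvlIncl hKL) N (baseRing A K₀)
    (baseRing A K) (lvlIncl_mem A hKL) p 𝔫
  have e' : (𝔫.comap (betaR (Lvl K) N p (baseRing A K)).toRingHom).comap (finIncl A N hKL) =
      (𝔫.comap (finIncl A (N * p) hKL)).comap
        (betaR (Lvl K₀) N p (baseRing A K₀)).toRingHom := e
  rw [e']
  exact h

omit [NeZero N] [Fact p.Prime] [IsDiscreteValuationRing ↥(baseRing A K₀)] in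
/-- `p ∣ p ^ (n + 1)` in `O_{K₀}` (`hcα₀` of `NormUValLevel.r4a_levels`). -/
theorem natCast_dvd_csP (K₀ : IntermediateField ℚ Qbar) (n : ℕ) :
    ((p : ℕ) : ↥(baseRing A K₀)) ∣ csP A p K₀ n :=
  dvd_pow_self _ (Nat.succ_ne_zero n)

end Shapes

/-! ### The per-`K` theorem -/

section PerK

variable (N p : ℕ) [NeZero N] [Fact p.Prime] (hpN : ¬ p ∣ N)
  (A : ValuationSubring Qbar) (hA : A.LiesOverPrime p)
  {K₀ K : IntermediateField ℚ Qbar} (hKL : K₀ ≤ K)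
  (hK₀ : IsUnramLevel A p K₀) (hK : IsGoodLevel A p K)
  [IsDiscreteValuationRing ↥(baseRing A K₀)] [IsDiscreteValuationRing ↥(baseRing A K)]
  [CharP (IsLocalRing.ResidueField ↥(baseRing A K₀)) p]
  [PerfectRing (IsLocalRing.ResidueField ↥(baseRing A K₀)) p]
  [CharP (IsLocalRing.ResidueField ↥(baseRing A K)) p]
  [PerfectRing (IsLocalRing.ResidueField ↥(baseRing A K)) p]
  (hA2₀ : ∀ x : ↥(gaussSubalgebra (Lvl K₀) N (baseRing A K₀)),
    theta (Lvl K₀) N (baseRing A K₀) x ∈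
      modularFunctionFieldFullC (IsLocalRing.ResidueField ↥(baseRing A K₀)) N)
  (hA2 : ∀ x : ↥(gaussSubalgebra (Lvl K) N (baseRing A K)),
    theta (Lvl K) N (baseRing A K) x ∈
      modularFunctionFieldFullC (IsLocalRing.ResidueField ↥(baseRing A K)) N)
  (S₂ : Fermat.Agent.P3G.FibreTwo.SecondVal (Lvl K) N p (baseRing A K))

include hpN hA hK₀ hK hA2₀ hA2 in
/-- ★ **Test places ⇒ (R4b) + invariance of the test places, per level `K`** (`R4Aux.NodeData` without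
[R4a]). -/
theorem nodeDataB {ϖ : ↥(baseRing A K)} (hϖ : Irreducible ϖ)
    {𝔫 : Ideal ↥(Rfin (Lvl K) (N * p) (baseRing A K))} [h𝔫 : 𝔫.IsMaximal]
    (ht₁ : Through (gaussVS (Lvl K) (N * p) (baseRing A K)) 𝔫) (ht₂ : Through S₂.V 𝔫)
    {u₀ v₀ G₀ : ↥(Rfin (Lvl K₀) (N * p) (baseRing A K₀))}
    (hn : HonestNode (Lvl K₀) (Lvl K) N p (baseRing A K₀) (baseRing A K) (lvlIncl hKL)
      (lvlIncl_mem A hKL) S₂ 𝔫 u₀ v₀ G₀)
    {zα₀ zβ₀ : ↥(Rfin (Lvl K₀) N (baseRing A K₀))}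
    (hzα : IsLocParAlpha (Lvl K₀) N p (baseRing A K₀) (𝔫.comap (finIncl A (N * p) hKL)) zα₀)
    (hzβ : IsLocParBeta (Lvl K₀) N p (baseRing A K₀) (𝔫.comap (finIncl A (N * p) hKL)) zβ₀)
    {nα nβ : ℕ} {Gs : Finset ↥(modularFunctionFieldBar N)}
    (hTα : TestPlace A N hKL zα₀ (csP A p K₀ nα) Gs
      (𝔫.comap (alphaR (Lvl K) N p (baseRing A K)).toRingHom))
    (hTβ : TestPlace A N hKL zβ₀ (csP A p K₀ nβ) Gs
      (𝔫.comap (betaR (Lvl K) N p (baseRing A K)).toRingHom)) :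
    ∃ (Qα Qβ : Place (Lvl K) (FF (Lvl K) N))
      (hQα : Function.Bijective (algebraMap (Lvl K) Qα.ResidueField))
      (hQβ : Function.Bijective (algebraMap (Lvl K) Qβ.ResidueField))
      (hα : IsSection (Rfin (Lvl K) N (baseRing A K)) Qα hQα)
      (hβ : IsSection (Rfin (Lvl K) N (baseRing A K)) Qβ hQβ),
      centre hα = 𝔫.comap (alphaR (Lvl K) N p (baseRing A K)).toRingHom ∧
      centre hβ = 𝔫.comap (betaR (Lvl K) N p (baseRing A K)).toRingHom ∧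
      ev hα (finIncl A N hKL zα₀) = baseMapIncl A hKL (csP A p K₀ nα) ∧
      ev hβ (finIncl A N hKL zβ₀) = baseMapIncl A hKL (csP A p K₀ nβ) ∧
      ev hα (finIncl A N hKL zα₀) = ((p : ℕ) : ↥(baseRing A K)) ^ (nα + 1) ∧
      ev hβ (finIncl A N hKL zβ₀) = ((p : ℕ) : ↥(baseRing A K)) ^ (nβ + 1) ∧
      Qα ∈ centredSet (Lvl K) (𝔫.comap (alphaR (Lvl K) N p (baseRing A K)).toRingHom) ∧
      Qβ ∈ centredSet (Lvl K) (𝔫.comap (betaR (Lvl K) N p (baseRing A K)).toRingHom) ∧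
      Qα.ord (ffMap (lvlIncl hKL) N (zα₀ : FF (Lvl K₀) N) -
        algebraMap (Lvl K) (FF (Lvl K) N) (lvlIncl hKL (csP A p K₀ nα : Lvl K₀))) = 1 ∧
      Qβ.ord (ffMap (lvlIncl hKL) N (zβ₀ : FF (Lvl K₀) N) -
        algebraMap (Lvl K) (FF (Lvl K) N) (lvlIncl hKL (csP A p K₀ nβ : Lvl K₀))) = 1 ∧
      (∀ W : FF (Lvl K) (N * p), IsUnitAt 𝔫 W →
        Qα.toValuationSubring.valuation (normAlphaK K N p W) = 1 ∧
        Qβ.toValuationSubring.valuation (normBetaK K N p W) = 1 ∧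
        (valT Qβ hQβ (normBetaK K N p W))⁻¹ ∈ lvlVS A K ∧
        ∃ d ∈ lvlVS A K, valT Qα hQα (normAlphaK K N p W) =
          valT Qβ hQβ (normBetaK K N p W) + (p : Lvl K) * d) ∧
      ∀ σ₀ ∈ A.inertiaSubgroupIn ℚ,
        levelFF K hK.stable N σ₀ • Qα = Qα ∧ levelFF K hK.stable N σ₀ • Qβ = Qβ := by
  obtain ⟨Qα, hQα, hα, hcenα, hcα, hevα, hevα', hordα, -, -⟩ := TestPlace.d7 A N p hKL hTα
  obtain ⟨Qβ, hQβ, hβ, hcenβ, hcβ, hevβ, hevβ', hordβ, -, -⟩ := TestPlace.d7 A N p hKL hTβ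
  have hrawα : ev hα (finIncl A N hKL zα₀) = baseMapIncl A hKL (csP A p K₀ nα) :=
    hevα'.trans (baseMapIncl_csP A p hKL nα).symm
  have hrawβ : ev hβ (finIncl A N hKL zβ₀) = baseMapIncl A hKL (csP A p K₀ nβ) :=
    hevβ'.trans (baseMapIncl_csP A p hKL nβ).symm
  -- (R4b)
  have hW := Fermat.Agent.S40.M1.NodeDGoodB.r4b_good N p hpN A hA hKL hK₀ hK hA2₀ hA2 S₂ hϖ hn ht₁
    ht₂ hzα.1 hzα.2 hzβ.1 hzβ.2 Qα Qβ hQα hQβ hα hβ hcα hcβ hevα hevβ (lvlVS A K)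
    (fun a => coe_mem_lvlVS a)
  -- invariance of the test places
  obtain ⟨π₁, hπ₁⟩ := IsDiscreteValuationRing.exists_irreducible ↥(baseRing A K₀)
  have hϖ𝔫 : algebraMap ↥(baseRing A K) ↥(Rfin (Lvl K) (N * p) (baseRing A K)) ϖ ∈ 𝔫 :=
    SSFinite.unif_mem_of_through (Lvl K) N p (baseRing A K) ht₁ hϖ
  haveI hmα : (𝔫.comap (alphaR (Lvl K) N p (baseRing A K)).toRingHom).IsMaximal :=
    comap_alphaR_isMaximal (Lvl K) N p (baseRing A K)
      (Fermat.Agent.P3G.GammaV2.lvlToComplex K) hpN 𝔫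
  haveI hmβ : (𝔫.comap (betaR (Lvl K) N p (baseRing A K)).toRingHom).IsMaximal :=
    comap_betaR_isMaximal (Lvl K) N p (baseRing A K)
      (Fermat.Agent.P3G.GammaV2.lvlToComplex K) hpN 𝔫
  have hupα := IsLocParAlpha.up A N p hKL hzα
  have hupβ := IsLocParBeta.up A N p hKL hzβ
  refine ⟨Qα, Qβ, hQα, hQβ, hα, hβ, hcα, hcβ, hrawα, hrawβ, hevα', hevβ', hcenα, hcenβ, hordα,
    hordβ, hW, fun σ₀ hσ₀ => ⟨?_, ?_⟩⟩
  · exact Fermat.Agent.S40.M1.R4Inv.testPlace_fixed N p hpN A hA hKL hK₀ hK hπ₁ hϖ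
      (𝔫.comap (alphaR (Lvl K) N p (baseRing A K)).toRingHom)
      (algebraMap_mem_comap_alphaR (Lvl K) N p (baseRing A K) hϖ𝔫) hupα.1 hupα.2
      (dvd_csP A p hK₀ hπ₁ nα) hcenα (by rw [hordα]; exact one_pos) hσ₀
  · exact Fermat.Agent.S40.M1.R4Inv.testPlace_fixed N p hpN A hA hKL hK₀ hK hπ₁ hϖ
      (𝔫.comap (betaR (Lvl K) N p (baseRing A K)).toRingHom)
      (algebraMap_mem_comap_betaR (Lvl K) N p (baseRing A K) hϖ𝔫) hupβ.1 hupβ.2
      (dvd_csP A p hK₀ hπ₁ nβ) hcenβ (by rw [hordβ]; exact one_pos) hσ₀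

end PerK

end Fermat.Agent.S40.M1.NodeDataB
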