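/-
S40 / S44 (row 38), T6′ static route, block (R4), LAST NAMED INPUT (helper6; ruling #3343):
**`R4Aux.NodeData N p A K₀` is a theorem for every unramified level `K₀`.**

`nodeData` = the uniform test places `R4UniformPack.exists_level_testPlaces_good` (helper29 `R4Uniform` +
helper21 `TestPointUp` + `SSFinite`; the number field `K₃` and the local parameters / constants are chosen
at `K₀`, BEFORE the good level `K`) ∘ the per-level body `NodeDataK.nodeData_of_testPlaces` (helper17:
(R4a) helper2/helper9/helper18 `NormUVal…`, (R4b) helper28 `NodeDGoodB.r4b_good`, invariance `R4Inv`).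

With `H3DataLevel.h3Data` (helper9/helper5) and `R4Aux.r4Leaf` (helper25) this gives
`SSLeafAsm.R4Leaf`, hence the frozen S44 (`Top/OfR4.s44_of_r4`, `Top/OfNodeData.s44_of_data`).
-/
import Mathlib
import Fermat.Agent.S40.M1.R4Aux
import Fermat.Agent.S40.M1.R4UniformPack
import Fermat.Agent.S40.M1.NodeDataK

set_option autoImplicit false
set_option linter.unusedSectionVars false
set_option linter.unusedVariables false
set_option linter.style.haveILetI false
set_option linter.style.longLine false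

open ModularCurve AlgebraicCurve
open Fermat.Agent.S28.Gauss Fermat.Agent.N4.Setting Fermat.Agent.N4.FibreEmbedding
open Fermat.Agent.N4.Chart Fermat.Agent.N4F.E.GaussDVR IsLocalRing Fermat.Agent.P3G
open Fermat.Agent.P4.TwistRoots Fermat.Agent.N4.BaseDescent Fermat.Agent.S19.Cech.LevelBasis
open Fermat.Agent.N4F.C Fermat.Agent.N4F.C.Levels
open Fermat.Agent.P3G.Assembly.LevelStep Fermat.Agent.S36.Descent.UnramLevel
open Fermat.Agent.S40.M1.NodeHonest

noncomputable section

namespace Fermat.Agent.S40.M1.NodeDataU6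

local notation "Qbar" => AlgebraicClosure ℚ

set_option synthInstance.maxHeartbeats 400000 in
set_option maxHeartbeats 3200000 in
/-- ★★ **The named input `R4Aux.NodeData` of `R4Aux.r4Leaf` is a theorem** (test places, [R4a], [R4b]
and their invariance, uniformly over the good levels above a number field `K₃` and the crossing
points). -/
theorem nodeData (N p : ℕ) [NeZero N] [Fact p.Prime] (hpN : ¬ p ∣ N)
    (A : ValuationSubring Qbar) (hA : A.LiesOverPrime p)
    {K₀ : IntermediateField ℚ Qbar} (hK₀ : IsUnramLevel A p K₀) :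
    Fermat.Agent.S40.M1.R4Aux.NodeData N p A K₀ := by
  haveI := hK₀.dvr
  obtain ⟨hN₀, hprime₀, hsm₀, -, -, hA2₀, hchar₀⟩ := levelFacts_unram N p hpN A hA K₀ hK₀
  haveI := hchar₀
  haveI : IsAlgClosed (IsLocalRing.ResidueField ↥(baseRing A K₀)) := hK₀.algClosed
  haveI : PerfectRing (IsLocalRing.ResidueField ↥(baseRing A K₀)) p := inferInstance
  obtain ⟨K₁, hK₁, hT⟩ := Fermat.Agent.S40.M1.R4UniformPack.exists_level_testPlaces_good N p hpN A
    hA hK₀ hA2₀ ∅ (by simp)
  refine ⟨K₁, hK₁, fun K hK _ hKL hK₁K S₂ 𝔫 _ ht₁ ht₂ u₀ v₀ G₀ hn => ?_⟩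
  obtain ⟨hN, hprime, hsm, -, -, hA2⟩ := Fermat.Agent.S40.W.F4Good.levelFacts_good N p hpN A hA K hK
  haveI : CharP (IsLocalRing.ResidueField ↥(baseRing A K)) p :=
    Fermat.Agent.S40.W.F4Good.charP_good N p hpN A K hK
  haveI : IsAlgClosed (IsLocalRing.ResidueField ↥(baseRing A K)) := hK.algClosed
  haveI : PerfectRing (IsLocalRing.ResidueField ↥(baseRing A K)) p := inferInstance
  obtain ⟨ϖ, hϖ⟩ := IsDiscreteValuationRing.exists_irreducible ↥(baseRing A K)
  obtain ⟨nα, nβ, hzα, hzβ, hTα, hTβ⟩ := hT K hKL hK S₂ hK₁K 𝔫 ht₁ ht₂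
  exact Fermat.Agent.S40.M1.NodeDataK.nodeData_of_testPlaces N p hpN A hA hKL hK₀ hK hA2₀ hA2 S₂ hϖ
    hn ht₁ ht₂ hzα.1 hzα.2 hzβ.1 hzβ.2 hTα hTβ

end Fermat.Agent.S40.M1.NodeDataU6
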