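/-
S40 / S44 (row 38), T6′ static route (`moonshots` row 67), block R4-I, the [INV] PACKAGE (helper13;
dispatch of helper8: the antecedents of the invariance clause of `R4Node.r4_node_abs` except the two
test-place ones, which are `TestPointInv.levelFF_smul_testPlace_eq` of helper17).

**The canonical data `(S, D, c)` of the local generator at a point of the special fibre and their
Galois invariance.**

Generic (`F / K` a function field, `C` a set of places, `f` a function with finite divisor):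

* `DNode f p Q = ord_Q f / p`, `SNode C f hfin` = the places of `C` in the support of `f` (a `Finset`),
  `mem_SNode`, `DNode_eq_zero_of_notMem` (= `hS` of `r4_node_abs`), `ord_eq_mul_DNode` (= `hfD`, from
  `p ∣ ord_Q f`), `bijective_of_mem_SNode` (the places of `S` are rational, from `hrat`);
* `h3_of_rational` : the [H3] block `hc₁ hc1 hc2` for `c := NodeGalois.cU u` from its form at the
  rational places (`NodeLocPChart.locP_honest_chart` shape, `c P = valT P hP u`);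
* for `σ` with `σ • f = f` and `σ C ⊆ C`: `smul_mem_SNode`, `DNode_smul`, and for `σ • u = u`
  ★ `smul_betaS_node : σ • betaS u (SNode C f hfin) (DNode f p) (cU u) = betaS …`.

Level (`K₀ ≤ K`, `K₀` unramified, `K` good, `σ ∈ I_A`, `σ_F = levelFF K _ (N p) σ`,
`σ_F' = levelFF K _ N σ`, `𝔫 ∋ ϖ` a prime of the finite chart, `u = finIncl u₀`):

* `levelFF_smul_finIncl` : `σ_F • u = u`;
* `levelFF_smul_inclL_ffMap` : `σ_F • inclL (ffMap f₀) = inclL (ffMap f₀)` for `f₀` over a small level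
  fixed by `σ` (the function `f̃` of the auxiliary level);
* `levelFF_smul_inclF_ffMap` : `σ_F' • inclF (ffMap h₀) = inclF (ffMap h₀)` (the roots `hA`, `hB`);
  `baseAut_valT_of_fixed` (generic): `baseAut σ (g(Q)) = g(Q)` for invariant `g`, `Q` (`tA`, `tB`);
* ★ `inv_level` : ALL the antecedents — norm equivariance, `σ_F • u = u`, `σ_F S ⊆ S`, `D ∘ σ_F = D`,
  `c ∘ σ_F = baseAut σ_F ∘ c`, `baseAut σ_F' p = p` — in the order of `r4_node_abs`;
* ★ `smul_betaS_level` : `σ_F • betaS u S D c = betaS u S D c`;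
* ★ `levelAut_eq_of_inv` : the invariance clause of `r4_node_abs` at the canonical data, discharged:
  `σ y = y` from the invariance of `f̃`, `hA`, `hB`, `Qα`, `Qβ`, `tA`, `tB` alone.
-/
import Mathlib
import Fermat.Agent.S40.M1.NodeGalois
import Fermat.Agent.S40.M1.R4Node
import Fermat.Agent.S40.M1.AuxSS
import Fermat.Agent.S36.Descent.UnramLevel
import Fermat.Agent.S33.G.LevelInst

set_option autoImplicit false
set_option linter.unusedSectionVars false
set_option linter.unusedVariables false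
set_option linter.style.haveILetI false
set_option linter.style.longLine false

open ModularCurve AlgebraicCurve IntermediateField

noncomputable section

namespace Fermat.Agent.S40.M1.NodeGaloisBeta

open Fermat.Agent.N4.Setting Fermat.Agent.N4.Chart Fermat.Agent.N4.BigDVR
  Fermat.Agent.N4.BaseDescent
  Fermat.Agent.N4F.C.Levels Fermat.Agent.N4F.C.LevelCharts Fermat.Agent.N4F.C.CoeffAut
  Fermat.Agent.N4F.E.PlaceValue
  Fermat.Agent.P3G.Gamma Fermat.Agent.P3G.GammaAut Fermat.Agent.P3G.UCrit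
  Fermat.Agent.P3G.Assembly.LevelGeomOfPoints Fermat.Agent.P3G.Assembly.LevelStep
  Fermat.Agent.S19.Cech.LevelBasis
  Fermat.Agent.S36.Descent.UnramLevel
  Fermat.Agent.S40.M1.NodeInv Fermat.Agent.S40.M1.NodeGalois Fermat.Agent.S40.M1.R4Node
  Fermat.Agent.S40.M1.AuxLevel Fermat.Agent.N4F.E.DegreeLevelRaise

local notation "Qbar" => AlgebraicClosure ℚ
local notation "Γ" => (AlgebraicClosure ℚ ≃ₐ[ℚ] AlgebraicClosure ℚ)

/-! ### The canonical data `(S, D, c)` -/

section Generic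

variable {K F : Type*} [Field K] [Field F] [Algebra K F]

/-- **The multiplicities** `D Q = ord_Q f / p`. -/
def DNode (f : F) (p : ℕ) (Q : Place K F) : ℤ := Q.ord f / (p : ℤ)

/-- `hfD` of `r4_node_abs`: `ord_Q f = p · D Q` when `p` divides the divisor of `f`. -/
theorem ord_eq_mul_DNode {f : F} {p : ℕ} (hdiv : ∀ Q : Place K F, (p : ℤ) ∣ Q.ord f)
    (Q : Place K F) : Q.ord f = (p : ℤ) * DNode f p Q :=
  (Int.mul_ediv_cancel' (hdiv Q)).symm

theorem DNode_of_ord_eq_zero {f : F} (p : ℕ) {Q : Place K F} (h : Q.ord f = 0) :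
    DNode f p Q = 0 := by
  rw [DNode, h, Int.zero_ediv]

open Classical in
/-- **The support**: the places of `C` at which `f` has a zero or a pole. -/
def SNode (C : Set (Place K F)) (f : F) (hfin : {Q : Place K F | Q.ord f ≠ 0}.Finite) :
    Finset (Place K F) :=
  (hfin.subset (fun Q (hQ : Q ∈ {Q : Place K F | Q ∈ C ∧ Q.ord f ≠ 0}) => hQ.2)).toFinset

theorem mem_SNode {C : Set (Place K F)} {f : F} {hfin : {Q : Place K F | Q.ord f ≠ 0}.Finite}
    (P : Place K F) : P ∈ SNode C f hfin ↔ P ∈ C ∧ P.ord f ≠ 0 := by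
  rw [SNode, Set.Finite.mem_toFinset]
  exact Iff.rfl

/-- `hS` of `r4_node_abs`. -/
theorem DNode_eq_zero_of_notMem {C : Set (Place K F)} {f : F}
    {hfin : {Q : Place K F | Q.ord f ≠ 0}.Finite} (p : ℕ) :
    ∀ Q ∈ C, Q ∉ SNode C f hfin → DNode f p Q = 0 := by
  intro Q hQ hQS
  apply DNode_of_ord_eq_zero
  by_contra h
  exact hQS ((mem_SNode Q).2 ⟨hQ, h⟩)

theorem mem_of_mem_SNode {C : Set (Place K F)} {f : F}
    {hfin : {Q : Place K F | Q.ord f ≠ 0}.Finite} {P : Place K F} (hP : P ∈ SNode C f hfin) :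
    P ∈ C :=
  ((mem_SNode P).1 hP).1

/-- The places of the support are rational when the zeros and poles of `f` are. -/
theorem bijective_of_mem_SNode {C : Set (Place K F)} {f : F}
    {hfin : {Q : Place K F | Q.ord f ≠ 0}.Finite}
    (hrat : ∀ Q : Place K F, Q.ord f ≠ 0 → Function.Bijective (algebraMap K Q.ResidueField))
    {P : Place K F} (hP : P ∈ SNode C f hfin) :
    Function.Bijective (algebraMap K P.ResidueField) :=
  hrat P ((mem_SNode P).1 hP).2

/-- **The [H3] block for `c := cU u`** from its form at the rational places of `C`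
(`NodeLocPChart.locP_honest_chart`: `c P = valT P hP u`). -/
theorem h3_of_rational {C : Set (Place K F)} {f : F}
    {hfin : {Q : Place K F | Q.ord f ≠ 0}.Finite}
    (hrat : ∀ Q : Place K F, Q.ord f ≠ 0 → Function.Bijective (algebraMap K Q.ResidueField))
    (V₁ : ValuationSubring F) {u : F}
    (h3 : ∀ (P : Place K F) (hP : Function.Bijective (algebraMap K P.ResidueField)), P ∈ C →
      V₁.valuation (u - algebraMap K F (valT P hP u)) = 1 ∧
      P.ord (u - algebraMap K F (valT P hP u)) = 1 ∧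
      ∀ Q ∈ C, Q ≠ P → Q.ord (u - algebraMap K F (valT P hP u)) = 0) :
    (∀ P ∈ SNode C f hfin, V₁.valuation (u - algebraMap K F (cU u P)) = 1) ∧
    (∀ P ∈ SNode C f hfin, P.ord (u - algebraMap K F (cU u P)) = 1) ∧
    (∀ P ∈ SNode C f hfin, ∀ Q ∈ C, Q ≠ P → Q.ord (u - algebraMap K F (cU u P)) = 0) := by
  refine ⟨fun P hP => ?_, fun P hP => ?_, fun P hP => ?_⟩
  · rw [cU_of_bijective u (bijective_of_mem_SNode hrat hP)]
    exact (h3 P _ (mem_of_mem_SNode hP)).1
  · rw [cU_of_bijective u (bijective_of_mem_SNode hrat hP)]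
    exact (h3 P _ (mem_of_mem_SNode hP)).2.1
  · rw [cU_of_bijective u (bijective_of_mem_SNode hrat hP)]
    exact (h3 P _ (mem_of_mem_SNode hP)).2.2

/-! ### Invariance, generic -/

/-- `σ S ⊆ S`. -/
theorem smul_mem_SNode (σ : SemilinearAut K F) {f : F} (hf : σ • f = f)
    {C : Set (Place K F)} (hC : ∀ P ∈ C, σ • P ∈ C)
    {hfin : {Q : Place K F | Q.ord f ≠ 0}.Finite} :
    ∀ P ∈ SNode C f hfin, σ • P ∈ SNode C f hfin :=
  smul_mem_of_centred σ hf hC (SNode C f hfin) fun P => mem_SNode P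

/-- `D ∘ σ = D`. -/
theorem DNode_smul (σ : SemilinearAut K F) {f : F} (hf : σ • f = f) (p : ℕ) (P : Place K F) :
    DNode f p (σ • P) = DNode f p P :=
  ediv_ord_smul σ hf (p : ℤ) P

/-- ★ **The canonical local generator is invariant.** -/
theorem smul_betaS_node (σ : SemilinearAut K F) {u f : F} (hu : σ • u = u) (hf : σ • f = f)
    {C : Set (Place K F)} (hC : ∀ P ∈ C, σ • P ∈ C)
    (hfin : {Q : Place K F | Q.ord f ≠ 0}.Finite) (p : ℕ) :
    σ • betaS u (SNode C f hfin) (DNode f p) (cU u) =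
      betaS u (SNode C f hfin) (DNode f p) (cU u) :=
  smul_betaS σ hu _ (smul_mem_SNode σ hf hC) _ (fun P _ => DNode_smul σ hf p P) _
    (fun P _ => cU_smul σ hu P)

/-- **`baseAut σ t = t`** for the value `t = g(Q)` of an invariant function at an invariant rational
place (the antecedents `baseAut σ' tA = tA`, `baseAut σ' tB = tB` when `tA`, `tB` are values of
functions of a small level at the test places). -/
theorem baseAut_valT_of_fixed (σ : SemilinearAut K F) {Q : Place K F}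
    (hQ : Function.Bijective (algebraMap K Q.ResidueField)) (hσQ : σ • Q = Q) {g : F}
    (hg : σ • g = g) : SemilinearAut.baseAut σ (valT Q hQ g) = valT Q hQ g := by
  rw [← valT_smul_of_fixed Q hQ σ hσQ g, hg]

end Generic

/-! ### The level -/

section Level

variable (A : ValuationSubring Qbar) {K₀ K : IntermediateField ℚ Qbar} (hKL : K₀ ≤ K)
  (hK : ∀ (τ : Γ) (x : Qbar), x ∈ K → τ x ∈ K)

/-- **`σ_F • u = u`** for the node coordinate `u = finIncl u₀` coming from an unramified level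
(any modular level `N'`). -/
theorem levelFF_smul_finIncl {p : ℕ} (hK₀ : IsUnramLevel A p K₀) (N' : ℕ) [NeZero N'] {σ : Γ}
    (hσ : σ ∈ A.inertiaSubgroupIn ℚ) (u₀ : ↥(Rfin (Lvl K₀) N' (baseRing A K₀))) :
    levelFF K hK N' σ •
        ((finIncl A N' hKL u₀ : ↥(Rfin (Lvl K) N' (baseRing A K))) : FF (Lvl K) N') =
      ((finIncl A N' hKL u₀ : ↥(Rfin (Lvl K) N' (baseRing A K))) : FF (Lvl K) N') :=
  levelFF_smul_finMap hKL hK N' A (fun y hy => hK₀.fixed σ hσ y hy) u₀

/-- **`σ_F • f̃ = f̃`** for the function `f̃ = inclL (ffMap f₀)` of the auxiliary level `N'`, `M ∣ N'`,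
when `σ` fixes the small level `L₀` of `f₀` pointwise. -/
theorem levelFF_smul_inclL_ffMap {L₀ : IntermediateField ℚ Qbar} (hL₀K : L₀ ≤ K)
    {M N' : ℕ} [NeZero M] [NeZero N'] (h : M ∣ N') (p : ℕ) [Fact p.Prime] {σ : Γ}
    (hσ : ∀ y ∈ L₀, σ y = y) (f₀ : FF (Lvl L₀) (M * p)) :
    levelFF K hK (N' * p) σ • inclL (Lvl K) h p (ffMap (lvlIncl hL₀K) (M * p) f₀) =
      inclL (Lvl K) h p (ffMap (lvlIncl hL₀K) (M * p) f₀) := by
  rw [← Fermat.Agent.S40.M1.AuxSS.ffMap_inclL (lvlIncl hL₀K) h p f₀]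
  exact levelFF_smul_ffMap hL₀K hK (N' * p) hσ _

/-- **`σ_F' • h = h`** for `h = inclF (ffMap h₀)` (the `p`-th roots `hA`, `hB` of the norms of `f̃`,
which come from the small level `L₀` and the modular level `M ∣ N'`). -/
theorem levelFF_smul_inclF_ffMap {L₀ : IntermediateField ℚ Qbar} (hL₀K : L₀ ≤ K)
    {M N' : ℕ} [NeZero M] [NeZero N'] (h : M ∣ N') {σ : Γ} (hσ : ∀ y ∈ L₀, σ y = y)
    (h₀ : FF (Lvl L₀) M) :
    levelFF K hK N' σ • inclF (Lvl K) h (ffMap (lvlIncl hL₀K) M h₀) =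
      inclF (Lvl K) h (ffMap (lvlIncl hL₀K) M h₀) := by
  rw [← Fermat.Agent.S40.M1.AuxSS.ffMap_inclF (lvlIncl hL₀K) h h₀]
  exact levelFF_smul_ffMap hL₀K hK N' hσ _

/-- Finiteness of the divisor at a level (re-export of `S33/G/LevelInst.finite_ord_ne_zero_level`
in the shape of `hfin`). -/
theorem finite_ord_ne_zero (K : IntermediateField ℚ Qbar) (N' : ℕ) [NeZero N']
    {f : FF (Lvl K) N'} (hf0 : f ≠ 0) :
    {Q : Place (Lvl K) (FF (Lvl K) N') | Q.ord f ≠ 0}.Finite :=
  Fermat.Agent.S33.G.LevelInst.finite_ord_ne_zero_level N' K f hf0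

end Level

/-! ### The [INV] package at a good level -/

section Good

variable (N p : ℕ) [NeZero N] [Fact p.Prime] (hpN : ¬ p ∣ N)
  (A : ValuationSubring Qbar) (hA : A.LiesOverPrime p)
  {K₀ K : IntermediateField ℚ Qbar} (hKL : K₀ ≤ K)
  (hK₀ : IsUnramLevel A p K₀) (hK : IsGoodLevel A p K)
  [IsDiscreteValuationRing ↥(baseRing A K)] [IsFractionRing ↥(baseRing A K) (Lvl K)]

include hpN hA hK₀ in
/-- ★ **[INV] at a good level**: every antecedent of the invariance clause of `R4Node.r4_node_abs`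
except the test-place ones, for `σ ∈ I_A`, `σ_F = levelFF K _ (N p) σ`, `σ_F' = levelFF K _ N σ`,
`u = finIncl u₀`, `S = SNode (centredSet 𝔫) f̃`, `D = DNode f̃ p`, `c = cU u`. -/
theorem inv_level {ϖ : ↥(baseRing A K)} (hϖ : Irreducible ϖ) {σ : Γ}
    (hσ : σ ∈ A.inertiaSubgroupIn ℚ)
    (𝔫 : Ideal ↥(Rfin (Lvl K) (N * p) (baseRing A K))) [𝔫.IsPrime]
    (hϖ𝔫 : algebraMap ↥(baseRing A K) ↥(Rfin (Lvl K) (N * p) (baseRing A K)) ϖ ∈ 𝔫)
    (u₀ : ↥(Rfin (Lvl K₀) (N * p) (baseRing A K₀)))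
    {f : FF (Lvl K) (N * p)} (hf : levelFF K hK.stable (N * p) σ • f = f)
    (hfin : {Q : Place (Lvl K) (FF (Lvl K) (N * p)) | Q.ord f ≠ 0}.Finite) :
    (∀ g : FF (Lvl K) (N * p), Fermat.Agent.P4.FrobLevelStep.normAlphaK K N p
        (levelFF K hK.stable (N * p) σ • g) =
      levelFF K hK.stable N σ • Fermat.Agent.P4.FrobLevelStep.normAlphaK K N p g) ∧
    (∀ g : FF (Lvl K) (N * p), Fermat.Agent.P4.FrobLevelStep.normBetaK K N p
        (levelFF K hK.stable (N * p) σ • g) =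
      levelFF K hK.stable N σ • Fermat.Agent.P4.FrobLevelStep.normBetaK K N p g) ∧
    levelFF K hK.stable (N * p) σ •
        ((finIncl A (N * p) hKL u₀ : ↥(Rfin (Lvl K) (N * p) (baseRing A K))) :
          FF (Lvl K) (N * p)) =
      ((finIncl A (N * p) hKL u₀ : ↥(Rfin (Lvl K) (N * p) (baseRing A K))) :
          FF (Lvl K) (N * p)) ∧
    (∀ P ∈ SNode (centredSet (F := FF (Lvl K) (N * p)) (Lvl K) 𝔫) f hfin,
      levelFF K hK.stable (N * p) σ • P ∈
        SNode (centredSet (F := FF (Lvl K) (N * p)) (Lvl K) 𝔫) f hfin) ∧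
    (∀ P ∈ SNode (centredSet (F := FF (Lvl K) (N * p)) (Lvl K) 𝔫) f hfin,
      DNode f p (levelFF K hK.stable (N * p) σ • P) = DNode f p P) ∧
    (∀ P ∈ SNode (centredSet (F := FF (Lvl K) (N * p)) (Lvl K) 𝔫) f hfin,
      cU ((finIncl A (N * p) hKL u₀ : ↥(Rfin (Lvl K) (N * p) (baseRing A K))) :
          FF (Lvl K) (N * p)) (levelFF K hK.stable (N * p) σ • P) =
        SemilinearAut.baseAut (levelFF K hK.stable (N * p) σ)
          (cU ((finIncl A (N * p) hKL u₀ : ↥(Rfin (Lvl K) (N * p) (baseRing A K))) :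
            FF (Lvl K) (N * p)) P)) ∧
    SemilinearAut.baseAut (levelFF K hK.stable N σ) ((p : ℕ) : Lvl K) = ((p : ℕ) : Lvl K) := by
  have hu := levelFF_smul_finIncl A hKL hK.stable hK₀ (N * p) hσ u₀
  have hC := smul_mem_centredSet N p hpN A hA K hK hϖ hσ 𝔫 hϖ𝔫
  refine ⟨normAlphaK_smul K hK.stable N p σ, normBetaK_smul K hK.stable N p σ, hu,
    smul_mem_SNode _ hf hC, fun P _ => DNode_smul _ hf p P, fun P _ => cU_smul _ hu P, ?_⟩
  rw [baseAut_levelFF]
  exact levelAut_natCast K hK.stable σ p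

include hpN hA hK₀ in
/-- ★ **The canonical local generator at a crossing point of a good level is fixed by `I_A`.** -/
theorem smul_betaS_level {ϖ : ↥(baseRing A K)} (hϖ : Irreducible ϖ) {σ : Γ}
    (hσ : σ ∈ A.inertiaSubgroupIn ℚ)
    (𝔫 : Ideal ↥(Rfin (Lvl K) (N * p) (baseRing A K))) [𝔫.IsPrime]
    (hϖ𝔫 : algebraMap ↥(baseRing A K) ↥(Rfin (Lvl K) (N * p) (baseRing A K)) ϖ ∈ 𝔫)
    (u₀ : ↥(Rfin (Lvl K₀) (N * p) (baseRing A K₀)))
    {f : FF (Lvl K) (N * p)} (hf : levelFF K hK.stable (N * p) σ • f = f)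
    (hfin : {Q : Place (Lvl K) (FF (Lvl K) (N * p)) | Q.ord f ≠ 0}.Finite) :
    levelFF K hK.stable (N * p) σ •
        betaS ((finIncl A (N * p) hKL u₀ : ↥(Rfin (Lvl K) (N * p) (baseRing A K))) :
            FF (Lvl K) (N * p))
          (SNode (centredSet (F := FF (Lvl K) (N * p)) (Lvl K) 𝔫) f hfin) (DNode f p)
          (cU ((finIncl A (N * p) hKL u₀ : ↥(Rfin (Lvl K) (N * p) (baseRing A K))) :
            FF (Lvl K) (N * p))) =
      betaS ((finIncl A (N * p) hKL u₀ : ↥(Rfin (Lvl K) (N * p) (baseRing A K))) :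
            FF (Lvl K) (N * p))
          (SNode (centredSet (F := FF (Lvl K) (N * p)) (Lvl K) 𝔫) f hfin) (DNode f p)
          (cU ((finIncl A (N * p) hKL u₀ : ↥(Rfin (Lvl K) (N * p) (baseRing A K))) :
            FF (Lvl K) (N * p))) :=
  smul_betaS_node (levelFF K hK.stable (N * p) σ)
    (levelFF_smul_finIncl A hKL hK.stable hK₀ (N * p) hσ u₀) hf
    (smul_mem_centredSet N p hpN A hA K hK hϖ hσ 𝔫 hϖ𝔫) hfin p

include hpN hA hK₀ in
/-- ★ **The invariance clause of `R4Node.r4_node_abs`, discharged at a good level**: from the clause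
(at the canonical data `u = finIncl u₀`, `S = SNode`, `D = DNode`, `c = cU u`, `π = p`,
`N_α = normAlphaK`, `N_β = normBetaK`) and the invariance of the inputs `f̃`, `hA`, `hB`, `Qα`, `Qβ`,
`tA`, `tB` under `σ ∈ I_A`: `σ y = y`. -/
theorem levelAut_eq_of_inv {ϖ : ↥(baseRing A K)} (hϖ : Irreducible ϖ) {σ : Γ}
    (hσ : σ ∈ A.inertiaSubgroupIn ℚ)
    (𝔫 : Ideal ↥(Rfin (Lvl K) (N * p) (baseRing A K))) [𝔫.IsPrime]
    (hϖ𝔫 : algebraMap ↥(baseRing A K) ↥(Rfin (Lvl K) (N * p) (baseRing A K)) ϖ ∈ 𝔫)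
    (u₀ : ↥(Rfin (Lvl K₀) (N * p) (baseRing A K₀)))
    {f : FF (Lvl K) (N * p)} (hf : levelFF K hK.stable (N * p) σ • f = f)
    (hfin : {Q : Place (Lvl K) (FF (Lvl K) (N * p)) | Q.ord f ≠ 0}.Finite)
    {gA gB : FF (Lvl K) N} {Qα Qβ : Place (Lvl K) (FF (Lvl K) N)} {tA tB y : Lvl K}
    (hinv : ∀ (τ : SemilinearAut (Lvl K) (FF (Lvl K) (N * p)))
        (τ' : SemilinearAut (Lvl K) (FF (Lvl K) N)),
      (∀ g : FF (Lvl K) (N * p), Fermat.Agent.P4.FrobLevelStep.normAlphaK K N p (τ • g) =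
        τ' • Fermat.Agent.P4.FrobLevelStep.normAlphaK K N p g) →
      (∀ g : FF (Lvl K) (N * p), Fermat.Agent.P4.FrobLevelStep.normBetaK K N p (τ • g) =
        τ' • Fermat.Agent.P4.FrobLevelStep.normBetaK K N p g) →
      τ • ((finIncl A (N * p) hKL u₀ : ↥(Rfin (Lvl K) (N * p) (baseRing A K))) :
          FF (Lvl K) (N * p)) =
        ((finIncl A (N * p) hKL u₀ : ↥(Rfin (Lvl K) (N * p) (baseRing A K))) :
          FF (Lvl K) (N * p)) →
      (∀ P ∈ SNode (centredSet (F := FF (Lvl K) (N * p)) (Lvl K) 𝔫) f hfin,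
        τ • P ∈ SNode (centredSet (F := FF (Lvl K) (N * p)) (Lvl K) 𝔫) f hfin) →
      (∀ P ∈ SNode (centredSet (F := FF (Lvl K) (N * p)) (Lvl K) 𝔫) f hfin,
        DNode f p (τ • P) = DNode f p P) →
      (∀ P ∈ SNode (centredSet (F := FF (Lvl K) (N * p)) (Lvl K) 𝔫) f hfin,
        cU ((finIncl A (N * p) hKL u₀ : ↥(Rfin (Lvl K) (N * p) (baseRing A K))) :
            FF (Lvl K) (N * p)) (τ • P) =
          SemilinearAut.baseAut τ
            (cU ((finIncl A (N * p) hKL u₀ : ↥(Rfin (Lvl K) (N * p) (baseRing A K))) :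
              FF (Lvl K) (N * p)) P)) →
      τ' • gA = gA → τ' • gB = gB → τ' • Qα = Qα → τ' • Qβ = Qβ →
      SemilinearAut.baseAut τ' tA = tA → SemilinearAut.baseAut τ' tB = tB →
      SemilinearAut.baseAut τ' ((p : ℕ) : Lvl K) = ((p : ℕ) : Lvl K) →
      SemilinearAut.baseAut τ' y = y)
    (hgA : levelFF K hK.stable N σ • gA = gA) (hgB : levelFF K hK.stable N σ • gB = gB)
    (hQα : levelFF K hK.stable N σ • Qα = Qα) (hQβ : levelFF K hK.stable N σ • Qβ = Qβ)
    (htA : levelAut K hK.stable σ tA = tA) (htB : levelAut K hK.stable σ tB = tB) :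
    levelAut K hK.stable σ y = y := by
  obtain ⟨h1, h2, h3, h4, h5, h6, h7⟩ :=
    inv_level N p hpN A hA hKL hK₀ hK hϖ hσ 𝔫 hϖ𝔫 u₀ hf hfin
  have h := hinv (levelFF K hK.stable (N * p) σ) (levelFF K hK.stable N σ) h1 h2 h3 h4 h5 h6
    hgA hgB hQα hQβ (by rw [baseAut_levelFF]; exact htA) (by rw [baseAut_levelFF]; exact htB) h7
  rwa [baseAut_levelFF] at h

end Good

end Fermat.Agent.S40.M1.NodeGaloisBeta
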