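/-
S44 / S40 (row 38), T6′ / M1-THICK (helper3; dispatch #3192 (2)): **the adapter
`exists_uv (K₀)` + `NodeFacts (K)` ⟹ (GEN) at the big level `K`**, for `u = finMap u₀`, `v = finMap v₀`.

Two levels `(K, O) → (K', O')` (small → big) with bijective residue field map `ρ : κ → κ'`, finite
charts of level `N ℓ`, branch reductions `θ₁ = res thetaFin`, `θ₂ = res theta2S` onto the Dedekind
special fibres `RbarFin K N O`, `RbarFin K' N O'`.

* abstract: `map_map_comap_eq`, `map_mem_pow_iff` : for `σ ∘ θ₀ = θ ∘ φ`, `σ` bijective, `θ₀` onto and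
  `ker θ ≤ 𝔫`:  `θ (φ x₀) ∈ (θ 𝔫)^k ↔ θ₀ x₀ ∈ (θ₀ (φ⁻¹ 𝔫))^k`;
* `sigma : RbarFin K N O →+* RbarFin K' N O'` (coefficientwise `ρ`), `sigma_bijective`,
  `sigma_res_thetaFin` (`σ ∘ θ₁ = θ₁' ∘ finMap`), `theta2S_finMap`, `sigma_res_theta2S`
  (`σ ∘ θ₂ = θ₂' ∘ finMap`; the latter from ONE direction of helper25's `second` clause);
* `res_thetaFin_finMap_mem_pow_iff`, `res_theta2S_finMap_mem_pow_iff` : "`∈ 𝔫.map θᵢ`,
  `∉ (𝔫.map θᵢ)²`" go up and down;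
* ★ `exists_mul_eq_add_finMap` : (GEN) at `K'` from the `exists_uv` facts at `K` for
  `𝔫₀ = 𝔫'.comap finMap` (input of `NodeGen.map_eq_span`, `NodeGen.exists_const_of_pow`);
* ★ `exists_mul_eq_add_finIncl` : the same for two levels `K₁ ≤ L` of `Q̄` (`second` supplied by
  `LevelComap`).
-/
import Mathlib
import Fermat.Agent.S40.M1.FibreSecond
import Fermat.Agent.S40.M1.NodeGen

set_option autoImplicit false
set_option linter.unusedSectionVars false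
set_option linter.unusedVariables false
set_option linter.style.haveILetI false
set_option synthInstance.maxHeartbeats 400000
set_option maxHeartbeats 800000

open ModularCurve AlgebraicCurve

noncomputable section

namespace Fermat.Agent.S40.M1.NodeGenLevel

/-! ### Abstract transport of "local parameter" facts -/

section Abstract

variable {R₀ R Rb₀ Rb : Type*} [CommRing R₀] [CommRing R] [CommRing Rb₀] [CommRing Rb]
  (φ : R₀ →+* R) (θ₀ : R₀ →+* Rb₀) (θ : R →+* Rb) (σ : Rb₀ →+* Rb)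

theorem map_map_comap_eq (hσ : ∀ x, σ (θ₀ x) = θ (φ x)) (hθ₀ : Function.Surjective θ₀)
    (hσs : Function.Surjective σ) (𝔫 : Ideal R) (hk : RingHom.ker θ ≤ 𝔫) :
    ((𝔫.comap φ).map θ₀).map σ = 𝔫.map θ := by
  have hcomp : σ.comp θ₀ = θ.comp φ := RingHom.ext hσ
  have hθs : Function.Surjective θ := fun y => by
    obtain ⟨z, rfl⟩ := hσs y
    obtain ⟨x, rfl⟩ := hθ₀ z
    exact ⟨φ x, (hσ x).symm⟩
  apply le_antisymm
  · rw [Ideal.map_map, hcomp, ← Ideal.map_map]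
    exact Ideal.map_mono Ideal.map_comap_le
  · intro y hy
    obtain ⟨r, hr, rfl⟩ := (Ideal.mem_map_iff_of_surjective θ hθs).1 hy
    obtain ⟨z, hz⟩ := hσs (θ r)
    obtain ⟨r₀, rfl⟩ := hθ₀ z
    have h1 : φ r₀ - r ∈ RingHom.ker θ := by
      rw [RingHom.mem_ker, map_sub, ← hσ, hz, sub_self]
    have h2 : φ r₀ ∈ 𝔫 := by
      have := 𝔫.add_mem (hk h1) hr
      rwa [sub_add_cancel] at this
    rw [← hz]
    exact Ideal.mem_map_of_mem σ (Ideal.mem_map_of_mem θ₀ (Ideal.mem_comap.2 h2))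

theorem map_mem_pow_iff (hσ : ∀ x, σ (θ₀ x) = θ (φ x)) (hθ₀ : Function.Surjective θ₀)
    (hσb : Function.Bijective σ) (𝔫 : Ideal R) (hk : RingHom.ker θ ≤ 𝔫) (k : ℕ) (x₀ : R₀) :
    θ (φ x₀) ∈ (𝔫.map θ) ^ k ↔ θ₀ x₀ ∈ ((𝔫.comap φ).map θ₀) ^ k := by
  rw [← hσ, ← map_map_comap_eq φ θ₀ θ σ hσ hθ₀ hσb.2 𝔫 hk, ← Ideal.map_pow]
  constructor
  · intro h
    obtain ⟨z, hz, hzz⟩ := (Ideal.mem_map_iff_of_surjective σ hσb.2).1 h
    rwa [← hσb.1 hzz]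
  · exact Ideal.mem_map_of_mem σ

theorem map_mem_iff (hσ : ∀ x, σ (θ₀ x) = θ (φ x)) (hθ₀ : Function.Surjective θ₀)
    (hσb : Function.Bijective σ) (𝔫 : Ideal R) (hk : RingHom.ker θ ≤ 𝔫) (x₀ : R₀) :
    θ (φ x₀) ∈ 𝔫.map θ ↔ θ₀ x₀ ∈ (𝔫.comap φ).map θ₀ := by
  have h := map_mem_pow_iff φ θ₀ θ σ hσ hθ₀ hσb 𝔫 hk 1 x₀
  rwa [pow_one, pow_one] at h

end Abstract

open Fermat.Agent.N4.Chart Fermat.Agent.N4.Setting Fermat.Agent.N4.FibreEmbedding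
  Fermat.Agent.N4.BaseDescent Fermat.Agent.N4F.C Fermat.Agent.S28.Gauss
  Fermat.Agent.P3G Fermat.Agent.S19.Cech.LevelBasis
  Fermat.Agent.P3G.RbarFin Fermat.Agent.S40.M1.FibreLevel
  Fermat.Agent.N4F.E.GaussDVR Fermat.Agent.N4F.E.DegreeLevelRaise
  Fermat.Agent.P3G.LevelIntegrality Fermat.Agent.N4F.C.ChartFibre
  Fermat.Agent.P3G.TwoComponentsFinal Fermat.Agent.S40.M1.FibreSecond

/-! ### Two levels, generic form -/

section Generic

variable (K : Type) [Field K] [CharZero K] (K' : Type) [Field K'] [CharZero K'] (f : K →+* K')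
  (N : ℕ) [NeZero N] (ℓ : ℕ) [Fact ℓ.Prime]
  (O : Subring K) [IsDiscreteValuationRing ↥O] [IsFractionRing ↥O K]
  [CharP (IsLocalRing.ResidueField ↥O) ℓ] [PerfectRing (IsLocalRing.ResidueField ↥O) ℓ]
  (O' : Subring K') [IsDiscreteValuationRing ↥O'] [IsFractionRing ↥O' K']
  [CharP (IsLocalRing.ResidueField ↥O') ℓ] [PerfectRing (IsLocalRing.ResidueField ↥O') ℓ]
  (hOO' : ∀ a ∈ O, f a ∈ O') [IsLocalHom (oMap f O O' hOO')]

/-- Coefficientwise `ρ` maps the special fibre of the small level into that of the big level. -/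
theorem coeffMap_mem_rbarFin {y : LaurentSeries (IsLocalRing.ResidueField ↥O)}
    (hy : y ∈ RbarFin K N O) :
    coeffMap (IsLocalRing.ResidueField.map (oMap f O O' hOO')) y ∈ RbarFin K' N O' := by
  obtain ⟨x, rfl⟩ := hy
  rw [← thetaFin_finMap K K' f N O O' hOO' x]
  exact thetaFin_mem K' N O' _

/-- The comparison of the special fibres of the two levels. -/
def sigma : ↥(RbarFin K N O) →+* ↥(RbarFin K' N O') :=
  ((coeffMap (IsLocalRing.ResidueField.map (oMap f O O' hOO'))).comp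
    (RbarFin K N O).subtype).codRestrict (RbarFin K' N O')
    (fun y => coeffMap_mem_rbarFin K K' f N O O' hOO' y.2)

theorem coe_sigma (y : ↥(RbarFin K N O)) :
    ((sigma K K' f N O O' hOO' y : ↥(RbarFin K' N O')) :
        LaurentSeries (IsLocalRing.ResidueField ↥O')) =
      coeffMap (IsLocalRing.ResidueField.map (oMap f O O' hOO'))
        (y : LaurentSeries (IsLocalRing.ResidueField ↥O)) := rfl

theorem sigma_injective : Function.Injective (sigma K K' f N O O' hOO') := by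
  intro y z h
  apply Subtype.ext
  have h' := congrArg Subtype.val h
  rw [coe_sigma, coe_sigma] at h'
  exact GaussBar.coeffMap_injective_of_injective _
    (IsLocalRing.ResidueField.map (oMap f O O' hOO')).injective h'

variable (hρ : Function.Bijective (IsLocalRing.ResidueField.map (oMap f O O' hOO')))
  (hN : IsUnit ((N : ℕ) : ↥O)) (hprime : (fibreIdeal K N O (Rfin K N O)).IsPrime)
  (hsmooth : IsDedekindDomain (↥(Rfin K N O) ⧸ fibreIdeal K N O (Rfin K N O)))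
  (ι₀ : K →+* ℂ) (hℓN : ¬ ℓ ∣ N)
  (hA2₀ : ∀ x : ↥(gaussSubalgebra K N O),
    theta K N O x ∈ modularFunctionFieldFullC (IsLocalRing.ResidueField ↥O) N)
  (S₂₀ : FibreTwo.SecondVal K N ℓ O)
  (hN' : IsUnit ((N : ℕ) : ↥O'))

include hρ hN hprime hsmooth ι₀ hℓN hA2₀ S₂₀ hN' in
theorem sigma_surjective : Function.Surjective (sigma K K' f N O O' hOO') := by
  intro y'
  obtain ⟨x', hx', hxe⟩ := (SigmaFrob.mem_Rbar_iff (IsLocalRing.ResidueField ↥O') N _).1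
    (TwoComponentsB.rbarFin_le K' N O' hN' y'.2)
  obtain ⟨x₀, hx₀⟩ := exists_thetaFin_finMap_eq K K' f N ℓ O O' hOO' hρ hN hprime hsmooth ι₀ hℓN
    hA2₀ S₂₀ hx'
  refine ⟨⟨thetaFin K N O x₀, thetaFin_mem K N O x₀⟩, Subtype.ext ?_⟩
  rw [coe_sigma, ← hxe, ← hx₀]
  exact (thetaFin_finMap K K' f N O O' hOO' x₀).symm

include hρ hN hprime hsmooth ι₀ hℓN hA2₀ S₂₀ hN' in
theorem sigma_bijective : Function.Bijective (sigma K K' f N O O' hOO') :=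
  ⟨sigma_injective K K' f N O O' hOO',
    sigma_surjective K K' f N ℓ O O' hOO' hρ hN hprime hsmooth ι₀ hℓN hA2₀ S₂₀ hN'⟩

/-- `σ ∘ θ₁ = θ₁' ∘ finMap`. -/
theorem sigma_res_thetaFin (h₁ : ∀ r, thetaFin K (N * ℓ) O r ∈ RbarFin K N O)
    (h₁' : ∀ r, thetaFin K' (N * ℓ) O' r ∈ RbarFin K' N O') (r₀ : ↥(Rfin K (N * ℓ) O)) :
    sigma K K' f N O O' hOO' (CrossingLaurent.res (RbarFin K N O) (thetaFin K (N * ℓ) O) h₁ r₀) =
      CrossingLaurent.res (RbarFin K' N O') (thetaFin K' (N * ℓ) O') h₁'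
        (finMap f (N * ℓ) O O' hOO' r₀) := by
  apply Subtype.ext
  show coeffMap (IsLocalRing.ResidueField.map (oMap f O O' hOO')) (thetaFin K (N * ℓ) O r₀) =
    thetaFin K' (N * ℓ) O' (finMap f (N * ℓ) O O' hOO' r₀)
  exact (thetaFin_finMap K K' f (N * ℓ) O O' hOO' r₀).symm

/-- `θ₂ (β x) = θ x` on the finite charts. -/
theorem theta2S_betaR (S : FibreTwo.SecondVal K N ℓ O) (x : ↥(Rfin K N O)) :
    theta2S K N ℓ O S (betaR K N ℓ O x) = thetaFin K N O x := by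
  rw [theta2S_apply, thetaFin_apply]
  exact S.ev_beta (x : FF K N) (chartAlg_le_gaussSubalgebra K N O (sFin_le_gauss K N O) x.2)

/-- `r ∈ 𝔪(V₂) ↔ θ₂ r = 0` on the finite chart. -/
theorem mem_nonunits_iff_theta2S (S : FibreTwo.SecondVal K N ℓ O) (r : ↥(Rfin K (N * ℓ) O)) :
    (r : FF K (N * ℓ)) ∈ S.V.nonunits ↔ theta2S K N ℓ O S r = 0 := by
  rw [theta2S_apply, S.ev_eq_zero_iff]

variable (S₂' : FibreTwo.SecondVal K' N ℓ O')
  (hsecond : ∀ x : ↥(Rfin K (N * ℓ) O), (x : FF K (N * ℓ)) ∈ S₂₀.V.nonunits →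
    ((finMap f (N * ℓ) O O' hOO' x : ↥(Rfin K' (N * ℓ) O')) : FF K' (N * ℓ)) ∈ S₂'.V.nonunits)

include hN hprime hsmooth ι₀ hℓN hA2₀ hsecond in
/-- **The second reduction commutes with the change of level**, given that `𝔪(V₂)` of the small
level goes into `𝔪(V₂')` (one direction of the `second` clause). -/
theorem theta2S_finMap (r₀ : ↥(Rfin K (N * ℓ) O)) :
    theta2S K' N ℓ O' S₂' (finMap f (N * ℓ) O O' hOO' r₀) =
      coeffMap (IsLocalRing.ResidueField.map (oMap f O O' hOO')) (theta2S K N ℓ O S₂₀ r₀) := by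
  have hD := crossingData_fin K N ℓ O hN ι₀ hℓN hprime hsmooth hA2₀ S₂₀
  obtain ⟨x₀, hx₀⟩ := hD.surj (CrossingLaurent.res (RbarFin K N O) (theta2S K N ℓ O S₂₀)
    (theta2S_mem_rbar K N ℓ O hN hprime hsmooth hA2₀ S₂₀) r₀)
  have hx₀' : thetaFin K N O x₀ = theta2S K N ℓ O S₂₀ r₀ := congrArg Subtype.val hx₀
  have h0 : theta2S K N ℓ O S₂₀ (r₀ - betaR K N ℓ O x₀) = 0 := by
    rw [map_sub, theta2S_betaR, hx₀', sub_self]
  have hd := hsecond _ ((mem_nonunits_iff_theta2S K N ℓ O S₂₀ _).2 h0)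
  have h0' := (mem_nonunits_iff_theta2S K' N ℓ O' S₂' _).1 hd
  have e : finMap f (N * ℓ) O O' hOO' r₀ =
      finMap f (N * ℓ) O O' hOO' (betaR K N ℓ O x₀) +
        finMap f (N * ℓ) O O' hOO' (r₀ - betaR K N ℓ O x₀) := by
    rw [← map_add, add_sub_cancel]
  rw [e, map_add, h0', add_zero, finMap_betaR K K' f N ℓ O O' hOO' x₀, theta2S_betaR,
    thetaFin_finMap K K' f N O O' hOO' x₀, hx₀']

include hN hprime hsmooth ι₀ hℓN hA2₀ hsecond in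
/-- `σ ∘ θ₂ = θ₂' ∘ finMap`. -/
theorem sigma_res_theta2S (h₂ : ∀ r, theta2S K N ℓ O S₂₀ r ∈ RbarFin K N O)
    (h₂' : ∀ r, theta2S K' N ℓ O' S₂' r ∈ RbarFin K' N O') (r₀ : ↥(Rfin K (N * ℓ) O)) :
    sigma K K' f N O O' hOO' (CrossingLaurent.res (RbarFin K N O) (theta2S K N ℓ O S₂₀) h₂ r₀) =
      CrossingLaurent.res (RbarFin K' N O') (theta2S K' N ℓ O' S₂') h₂'
        (finMap f (N * ℓ) O O' hOO' r₀) := by
  apply Subtype.ext
  show coeffMap (IsLocalRing.ResidueField.map (oMap f O O' hOO')) (theta2S K N ℓ O S₂₀ r₀) =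
    theta2S K' N ℓ O' S₂' (finMap f (N * ℓ) O O' hOO' r₀)
  exact (theta2S_finMap K K' f N ℓ O O' hOO' hN hprime hsmooth ι₀ hℓN hA2₀ S₂₀ S₂' hsecond
    r₀).symm

variable (hprime' : (fibreIdeal K' N O' (Rfin K' N O')).IsPrime)
  (hsmooth' : IsDedekindDomain (↥(Rfin K' N O') ⧸ fibreIdeal K' N O' (Rfin K' N O')))
  (ι' : K' →+* ℂ)
  (hA2' : ∀ x : ↥(gaussSubalgebra K' N O'),
    theta K' N O' x ∈ modularFunctionFieldFullC (IsLocalRing.ResidueField ↥O') N)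

include hρ in
/-- **Transport of the first branch**: for `x₀` in the chart of the small level,
`θ₁' (finMap x₀) ∈ (θ₁' 𝔫')^k ↔ θ₁ x₀ ∈ (θ₁ 𝔫₀)^k`, `𝔫₀ = 𝔫'.comap finMap`. -/
theorem res_thetaFin_finMap_mem_pow_iff (𝔫' : Ideal ↥(Rfin K' (N * ℓ) O'))
    (hk : RingHom.ker (CrossingLaurent.res (RbarFin K' N O') (thetaFin K' (N * ℓ) O')
      (thetaFin_mem_rbar K' N ℓ O' hN' ι' hℓN hprime' hsmooth' hA2' S₂')) ≤ 𝔫')
    (k : ℕ) (x₀ : ↥(Rfin K (N * ℓ) O)) :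
    CrossingLaurent.res (RbarFin K' N O') (thetaFin K' (N * ℓ) O')
        (thetaFin_mem_rbar K' N ℓ O' hN' ι' hℓN hprime' hsmooth' hA2' S₂')
        (finMap f (N * ℓ) O O' hOO' x₀) ∈
      (𝔫'.map (CrossingLaurent.res (RbarFin K' N O') (thetaFin K' (N * ℓ) O')
        (thetaFin_mem_rbar K' N ℓ O' hN' ι' hℓN hprime' hsmooth' hA2' S₂'))) ^ k ↔
    CrossingLaurent.res (RbarFin K N O) (thetaFin K (N * ℓ) O)
        (thetaFin_mem_rbar K N ℓ O hN ι₀ hℓN hprime hsmooth hA2₀ S₂₀) x₀ ∈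
      ((𝔫'.comap (finMap f (N * ℓ) O O' hOO')).map
        (CrossingLaurent.res (RbarFin K N O) (thetaFin K (N * ℓ) O)
          (thetaFin_mem_rbar K N ℓ O hN ι₀ hℓN hprime hsmooth hA2₀ S₂₀))) ^ k :=
  map_mem_pow_iff (finMap f (N * ℓ) O O' hOO') _ _ (sigma K K' f N O O' hOO')
    (sigma_res_thetaFin K K' f N ℓ O O' hOO' _ _)
    (crossingData_fin K N ℓ O hN ι₀ hℓN hprime hsmooth hA2₀ S₂₀).surj₁
    (sigma_bijective K K' f N ℓ O O' hOO' hρ hN hprime hsmooth ι₀ hℓN hA2₀ S₂₀ hN') 𝔫' hk k x₀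

include hρ hsecond ι₀ ι' hℓN in
/-- **Transport of the second branch.** -/
theorem res_theta2S_finMap_mem_pow_iff (𝔫' : Ideal ↥(Rfin K' (N * ℓ) O'))
    (hk : RingHom.ker (CrossingLaurent.res (RbarFin K' N O') (theta2S K' N ℓ O' S₂')
      (theta2S_mem_rbar K' N ℓ O' hN' hprime' hsmooth' hA2' S₂')) ≤ 𝔫')
    (k : ℕ) (x₀ : ↥(Rfin K (N * ℓ) O)) :
    CrossingLaurent.res (RbarFin K' N O') (theta2S K' N ℓ O' S₂')
        (theta2S_mem_rbar K' N ℓ O' hN' hprime' hsmooth' hA2' S₂')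
        (finMap f (N * ℓ) O O' hOO' x₀) ∈
      (𝔫'.map (CrossingLaurent.res (RbarFin K' N O') (theta2S K' N ℓ O' S₂')
        (theta2S_mem_rbar K' N ℓ O' hN' hprime' hsmooth' hA2' S₂'))) ^ k ↔
    CrossingLaurent.res (RbarFin K N O) (theta2S K N ℓ O S₂₀)
        (theta2S_mem_rbar K N ℓ O hN hprime hsmooth hA2₀ S₂₀) x₀ ∈
      ((𝔫'.comap (finMap f (N * ℓ) O O' hOO')).map
        (CrossingLaurent.res (RbarFin K N O) (theta2S K N ℓ O S₂₀)
          (theta2S_mem_rbar K N ℓ O hN hprime hsmooth hA2₀ S₂₀))) ^ k :=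
  map_mem_pow_iff (finMap f (N * ℓ) O O' hOO') _ _ (sigma K K' f N O O' hOO')
    (sigma_res_theta2S K K' f N ℓ O O' hOO' hN hprime hsmooth ι₀ hℓN hA2₀ S₂₀ S₂' hsecond _ _)
    (crossingData_fin K N ℓ O hN ι₀ hℓN hprime hsmooth hA2₀ S₂₀).surj₂
    (sigma_bijective K K' f N ℓ O O' hOO' hρ hN hprime hsmooth ι₀ hℓN hA2₀ S₂₀ hN') 𝔫' hk k x₀

include hρ hsecond ι₀ ι' hℓN in
/-- ★ **(GEN) at the big level** for `u = finMap u₀`, `v = finMap v₀`, from the `exists_uv` facts at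
the small level for `𝔫₀ = 𝔫'.comap finMap`:
`∃ c ∉ 𝔫', ∀ r ∈ 𝔫', ∃ a b d, c r = a u + b v + d ϖ'`. -/
theorem exists_mul_eq_add_finMap {ϖ' : ↥O'} (hϖ' : Irreducible ϖ')
    (𝔫' : Ideal ↥(Rfin K' (N * ℓ) O')) [𝔫'.IsPrime]
    (hk₁ : RingHom.ker (CrossingLaurent.res (RbarFin K' N O') (thetaFin K' (N * ℓ) O')
      (thetaFin_mem_rbar K' N ℓ O' hN' ι' hℓN hprime' hsmooth' hA2' S₂')) ≤ 𝔫')
    (hk₂ : RingHom.ker (CrossingLaurent.res (RbarFin K' N O') (theta2S K' N ℓ O' S₂')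
      (theta2S_mem_rbar K' N ℓ O' hN' hprime' hsmooth' hA2' S₂')) ≤ 𝔫')
    (u₀ v₀ : ↥(Rfin K (N * ℓ) O))
    (hu𝔫 : u₀ ∈ 𝔫'.comap (finMap f (N * ℓ) O O' hOO'))
    (hv : v₀ ∈ RingHom.ker (CrossingLaurent.res (RbarFin K N O) (thetaFin K (N * ℓ) O)
      (thetaFin_mem_rbar K N ℓ O hN ι₀ hℓN hprime hsmooth hA2₀ S₂₀)))
    (hu₁ : CrossingLaurent.res (RbarFin K N O) (thetaFin K (N * ℓ) O)
        (thetaFin_mem_rbar K N ℓ O hN ι₀ hℓN hprime hsmooth hA2₀ S₂₀) u₀ ∈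
      (𝔫'.comap (finMap f (N * ℓ) O O' hOO')).map
        (CrossingLaurent.res (RbarFin K N O) (thetaFin K (N * ℓ) O)
          (thetaFin_mem_rbar K N ℓ O hN ι₀ hℓN hprime hsmooth hA2₀ S₂₀)))
    (hu₁' : CrossingLaurent.res (RbarFin K N O) (thetaFin K (N * ℓ) O)
        (thetaFin_mem_rbar K N ℓ O hN ι₀ hℓN hprime hsmooth hA2₀ S₂₀) u₀ ∉
      ((𝔫'.comap (finMap f (N * ℓ) O O' hOO')).map
        (CrossingLaurent.res (RbarFin K N O) (thetaFin K (N * ℓ) O)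
          (thetaFin_mem_rbar K N ℓ O hN ι₀ hℓN hprime hsmooth hA2₀ S₂₀))) ^ 2)
    (hv₂ : CrossingLaurent.res (RbarFin K N O) (theta2S K N ℓ O S₂₀)
        (theta2S_mem_rbar K N ℓ O hN hprime hsmooth hA2₀ S₂₀) v₀ ∈
      (𝔫'.comap (finMap f (N * ℓ) O O' hOO')).map
        (CrossingLaurent.res (RbarFin K N O) (theta2S K N ℓ O S₂₀)
          (theta2S_mem_rbar K N ℓ O hN hprime hsmooth hA2₀ S₂₀)))
    (hv₂' : CrossingLaurent.res (RbarFin K N O) (theta2S K N ℓ O S₂₀)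
        (theta2S_mem_rbar K N ℓ O hN hprime hsmooth hA2₀ S₂₀) v₀ ∉
      ((𝔫'.comap (finMap f (N * ℓ) O O' hOO')).map
        (CrossingLaurent.res (RbarFin K N O) (theta2S K N ℓ O S₂₀)
          (theta2S_mem_rbar K N ℓ O hN hprime hsmooth hA2₀ S₂₀))) ^ 2) :
    ∃ c, c ∉ 𝔫' ∧ ∀ r ∈ 𝔫', ∃ a b d,
      c * r = a * finMap f (N * ℓ) O O' hOO' u₀ + b * finMap f (N * ℓ) O O' hOO' v₀ +
        d * algebraMap ↥O' ↥(Rfin K' (N * ℓ) O') ϖ' := by
  haveI : IsDedekindDomain ↥(RbarFin K' N O') := isDedekindDomain_RbarFin K' N O' hprime' hsmooth'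
  have hD' := crossingData_fin K' N ℓ O' hN' ι' hℓN hprime' hsmooth' hA2' S₂'
  have hV' := ker_inf_ker_eq_fin K' N ℓ O' hN' ι' hℓN hprime' hsmooth' hA2' S₂' hϖ'
  have T₁ := res_thetaFin_finMap_mem_pow_iff K K' f N ℓ O O' hOO' hρ hN hprime hsmooth ι₀ hℓN hA2₀
    S₂₀ hN' S₂' hprime' hsmooth' ι' hA2' 𝔫' hk₁
  have T₂ := res_theta2S_finMap_mem_pow_iff K K' f N ℓ O O' hOO' hρ hN hprime hsmooth ι₀ hℓN hA2₀
    S₂₀ hN' S₂' hsecond hprime' hsmooth' ι' hA2' 𝔫' hk₂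
  refine NodeGen.exists_mul_eq_add_of_reductions 𝔫' (algebraMap ↥O' ↥(Rfin K' (N * ℓ) O') ϖ')
    (finMap f (N * ℓ) O O' hOO' u₀) (finMap f (N * ℓ) O O' hOO' v₀) _ _ hD'.surj₁ hD'.surj₂ hV'.le
    (Ideal.mem_comap.1 hu𝔫) ?_ ?_ ?_ ?_ ?_
  · rw [RingHom.mem_ker, ← sigma_res_thetaFin K K' f N ℓ O O' hOO'
      (thetaFin_mem_rbar K N ℓ O hN ι₀ hℓN hprime hsmooth hA2₀ S₂₀), (RingHom.mem_ker).1 hv,
      map_zero]
  · have := (T₁ 1 u₀).2 (by rwa [pow_one])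
    rwa [pow_one] at this
  · exact fun h => hu₁' ((T₁ 2 u₀).1 h)
  · have := (T₂ 1 v₀).2 (by rwa [pow_one])
    rwa [pow_one] at this
  · exact fun h => hv₂' ((T₂ 2 v₀).1 h)

end Generic

/-! ### Two levels `K₁ ≤ L` of `Q̄` -/

section Levels

open Fermat.Agent.N4F.C.Levels Fermat.Agent.N4F.C.LevelCharts Fermat.Agent.N4F.C.ChartFactsProof

variable (A : ValuationSubring Qb) {K₁ L : IntermediateField ℚ Qb} (hKL : K₁ ≤ L)
  [IsDiscreteValuationRing ↥(baseRing A K₁)] [IsDiscreteValuationRing ↥(baseRing A L)]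
  (N : ℕ) [NeZero N] (p : ℕ) [Fact p.Prime]
  [IsFractionRing ↥(baseRing A K₁) (Lvl K₁)] [IsFractionRing ↥(baseRing A L) (Lvl L)]
  [CharP (IsLocalRing.ResidueField ↥(baseRing A K₁)) p]
  [PerfectRing (IsLocalRing.ResidueField ↥(baseRing A K₁)) p]
  [CharP (IsLocalRing.ResidueField ↥(baseRing A L)) p]
  [PerfectRing (IsLocalRing.ResidueField ↥(baseRing A L)) p]

/-- The `second` clause (one direction) for two levels of `Q̄`, on the finite charts. -/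
theorem second_finIncl (S₁ : FibreTwo.SecondVal (Lvl K₁) N p (baseRing A K₁))
    (S₂ : FibreTwo.SecondVal (Lvl L) N p (baseRing A L))
    (x : ↥(Rfin (Lvl K₁) (N * p) (baseRing A K₁)))
    (hx : (x : FF (Lvl K₁) (N * p)) ∈ S₁.V.nonunits) :
    ((finIncl A (N * p) hKL x : ↥(Rfin (Lvl L) (N * p) (baseRing A L))) :
      FF (Lvl L) (N * p)) ∈ S₂.V.nonunits :=
  (LevelComap.ffMap_mem_nonunits_secondVal_iff hKL A N p S₂ S₁).2 hx

/-- ★ **(GEN) at the big level `L`** for `u = finIncl u₀`, `v = finIncl v₀`, from the `exists_uv`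
facts at the small level `K₁` for `𝔫₀ = 𝔫.comap finIncl`.  (`h₁`, `h₂` = `LevelPack.hbij`; the other
hypotheses are `LevelPack` fields and the level data of `KOutNode.nodeFacts_fin`.) -/
theorem exists_mul_eq_add_finIncl
    (h₁ : Function.Bijective (IsLocalRing.ResidueField.map (baseIncl A K₁)))
    (h₂ : Function.Bijective (IsLocalRing.ResidueField.map (baseIncl A L)))
    (hN₁ : IsUnit ((N : ℕ) : ↥(baseRing A K₁)))
    (hprime₁ : (fibreIdeal (Lvl K₁) N (baseRing A K₁) (Rfin (Lvl K₁) N (baseRing A K₁))).IsPrime)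
    (hsmooth₁ : IsDedekindDomain (↥(Rfin (Lvl K₁) N (baseRing A K₁)) ⧸
      fibreIdeal (Lvl K₁) N (baseRing A K₁) (Rfin (Lvl K₁) N (baseRing A K₁))))
    (ι₁ : Lvl K₁ →+* ℂ) (hpN : ¬ p ∣ N)
    (hA2₁ : ∀ x : ↥(gaussSubalgebra (Lvl K₁) N (baseRing A K₁)),
      theta (Lvl K₁) N (baseRing A K₁) x ∈
        modularFunctionFieldFullC (IsLocalRing.ResidueField ↥(baseRing A K₁)) N)
    (S₁ : FibreTwo.SecondVal (Lvl K₁) N p (baseRing A K₁))
    (hN₂ : IsUnit ((N : ℕ) : ↥(baseRing A L)))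
    (hprime₂ : (fibreIdeal (Lvl L) N (baseRing A L) (Rfin (Lvl L) N (baseRing A L))).IsPrime)
    (hsmooth₂ : IsDedekindDomain (↥(Rfin (Lvl L) N (baseRing A L)) ⧸
      fibreIdeal (Lvl L) N (baseRing A L) (Rfin (Lvl L) N (baseRing A L))))
    (ι₂ : Lvl L →+* ℂ)
    (hA2₂ : ∀ x : ↥(gaussSubalgebra (Lvl L) N (baseRing A L)),
      theta (Lvl L) N (baseRing A L) x ∈
        modularFunctionFieldFullC (IsLocalRing.ResidueField ↥(baseRing A L)) N)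
    (S₂ : FibreTwo.SecondVal (Lvl L) N p (baseRing A L))
    {ϖ : ↥(baseRing A L)} (hϖ : Irreducible ϖ)
    (𝔫 : Ideal ↥(Rfin (Lvl L) (N * p) (baseRing A L))) [𝔫.IsPrime]
    (hk₁ : RingHom.ker (CrossingLaurent.res (RbarFin (Lvl L) N (baseRing A L))
      (thetaFin (Lvl L) (N * p) (baseRing A L))
      (thetaFin_mem_rbar (Lvl L) N p (baseRing A L) hN₂ ι₂ hpN hprime₂ hsmooth₂ hA2₂ S₂)) ≤ 𝔫)
    (hk₂ : RingHom.ker (CrossingLaurent.res (RbarFin (Lvl L) N (baseRing A L))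
      (theta2S (Lvl L) N p (baseRing A L) S₂)
      (theta2S_mem_rbar (Lvl L) N p (baseRing A L) hN₂ hprime₂ hsmooth₂ hA2₂ S₂)) ≤ 𝔫)
    (u₀ v₀ : ↥(Rfin (Lvl K₁) (N * p) (baseRing A K₁)))
    (hu𝔫 : u₀ ∈ 𝔫.comap (finIncl A (N * p) hKL))
    (hv : v₀ ∈ RingHom.ker (CrossingLaurent.res (RbarFin (Lvl K₁) N (baseRing A K₁))
      (thetaFin (Lvl K₁) (N * p) (baseRing A K₁))
      (thetaFin_mem_rbar (Lvl K₁) N p (baseRing A K₁) hN₁ ι₁ hpN hprime₁ hsmooth₁ hA2₁ S₁)))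
    (hu₁ : CrossingLaurent.res (RbarFin (Lvl K₁) N (baseRing A K₁))
        (thetaFin (Lvl K₁) (N * p) (baseRing A K₁))
        (thetaFin_mem_rbar (Lvl K₁) N p (baseRing A K₁) hN₁ ι₁ hpN hprime₁ hsmooth₁ hA2₁ S₁) u₀ ∈
      (𝔫.comap (finIncl A (N * p) hKL)).map
        (CrossingLaurent.res (RbarFin (Lvl K₁) N (baseRing A K₁))
          (thetaFin (Lvl K₁) (N * p) (baseRing A K₁))
          (thetaFin_mem_rbar (Lvl K₁) N p (baseRing A K₁) hN₁ ι₁ hpN hprime₁ hsmooth₁ hA2₁ S₁)))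
    (hu₁' : CrossingLaurent.res (RbarFin (Lvl K₁) N (baseRing A K₁))
        (thetaFin (Lvl K₁) (N * p) (baseRing A K₁))
        (thetaFin_mem_rbar (Lvl K₁) N p (baseRing A K₁) hN₁ ι₁ hpN hprime₁ hsmooth₁ hA2₁ S₁) u₀ ∉
      ((𝔫.comap (finIncl A (N * p) hKL)).map
        (CrossingLaurent.res (RbarFin (Lvl K₁) N (baseRing A K₁))
          (thetaFin (Lvl K₁) (N * p) (baseRing A K₁))
          (thetaFin_mem_rbar (Lvl K₁) N p (baseRing A K₁) hN₁ ι₁ hpN hprime₁ hsmooth₁ hA2₁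
            S₁))) ^ 2)
    (hv₂ : CrossingLaurent.res (RbarFin (Lvl K₁) N (baseRing A K₁))
        (theta2S (Lvl K₁) N p (baseRing A K₁) S₁)
        (theta2S_mem_rbar (Lvl K₁) N p (baseRing A K₁) hN₁ hprime₁ hsmooth₁ hA2₁ S₁) v₀ ∈
      (𝔫.comap (finIncl A (N * p) hKL)).map
        (CrossingLaurent.res (RbarFin (Lvl K₁) N (baseRing A K₁))
          (theta2S (Lvl K₁) N p (baseRing A K₁) S₁)
          (theta2S_mem_rbar (Lvl K₁) N p (baseRing A K₁) hN₁ hprime₁ hsmooth₁ hA2₁ S₁)))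
    (hv₂' : CrossingLaurent.res (RbarFin (Lvl K₁) N (baseRing A K₁))
        (theta2S (Lvl K₁) N p (baseRing A K₁) S₁)
        (theta2S_mem_rbar (Lvl K₁) N p (baseRing A K₁) hN₁ hprime₁ hsmooth₁ hA2₁ S₁) v₀ ∉
      ((𝔫.comap (finIncl A (N * p) hKL)).map
        (CrossingLaurent.res (RbarFin (Lvl K₁) N (baseRing A K₁))
          (theta2S (Lvl K₁) N p (baseRing A K₁) S₁)
          (theta2S_mem_rbar (Lvl K₁) N p (baseRing A K₁) hN₁ hprime₁ hsmooth₁ hA2₁ S₁))) ^ 2) :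
    ∃ c, c ∉ 𝔫 ∧ ∀ r ∈ 𝔫, ∃ a b d,
      c * r = a * finIncl A (N * p) hKL u₀ + b * finIncl A (N * p) hKL v₀ +
        d * algebraMap ↥(baseRing A L) ↥(Rfin (Lvl L) (N * p) (baseRing A L)) ϖ := by
  haveI := isLocalHom_baseMapIncl A hKL
  exact exists_mul_eq_add_finMap (Lvl K₁) (Lvl L) (lvlIncl hKL) N p (baseRing A K₁)
    (baseRing A L) (lvlIncl_mem A hKL) (bijective_map_baseMapIncl A hKL h₁ h₂) hN₁ hprime₁
    hsmooth₁ ι₁ hpN hA2₁ S₁ hN₂ S₂ (second_finIncl A hKL N p S₁ S₂) hprime₂ hsmooth₂ ι₂ hA2₂ hϖ 𝔫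
    hk₁ hk₂ u₀ v₀ hu𝔫 hv hu₁ hu₁' hv₂ hv₂'

end Levels

end Fermat.Agent.S40.M1.NodeGenLevel
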