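/-
S40 / S44 (row 38), T6′ static route, R4-D support (helper25; helper27 #3268 FLAG 2): **the honest node
with its two principal branches kept.**

`NodeHonest.exists_honestNode` produces `u₀ v₀ G₀` at the unramified level but forgets the two clauses
`hp2`/`hp1` of `S36/R1/Unconditional.regular_fin_val` ("every element of `𝔪(V₂⁰) ∩ R₀` is locally a
multiple of `u₀`", resp. `𝔪(V₁⁰) ∩ R₀`, `v₀`), which `AlphaNodeLevel.alpha_eq_fin_val` /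
`beta_eq_fin_val` need FOR THE SAME `u₀ v₀`.  Here:

* `exists_node_unram_p` : `NodeHonest.exists_node_unram` + `hu2 hv1 hp2 hp1`;
* `honestNode_of_coords` : ANY `u₀ v₀ G₁` at the small level with `u₀ v₀ = G₁ ℓ`, `φ G₁ ∉ 𝔫`,
  `V₁⁰ u₀ = 1`, `V₂⁰ v₀ = 1`, `V₁⁰ v₀ < 1`, `V₂⁰ u₀ < 1`, generating `𝔫.comap φ` locally, is an honest
  node at `𝔫`;
* ★ `exists_honestNodeP` : `∃ u₀ v₀ G₀, HonestNode … 𝔫 u₀ v₀ G₀ ∧ hu2₀ ∧ hv1₀ ∧ hp2₀ ∧ hp1₀` (the four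
  clauses at `𝔫₀ = 𝔫.comap φ`, valuation language = the binders of `alpha_eq_fin_val`/`beta_eq_fin_val`);
* ★ `exists_honestNodeP_levels` : the same at levels `K₀ ≤ K` of `Q̄` (`K₀` unramified, `K` good,
  `5 ≤ p`, `4 ∣ N`).
-/
import Mathlib
import Fermat.Agent.S40.M1.NodeHonest

set_option autoImplicit false
set_option linter.unusedSectionVars false
set_option linter.unusedVariables false
set_option linter.style.haveILetI false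

open ModularCurve Fermat.Agent.S28.Gauss Fermat.Agent.N4.Setting Fermat.Agent.N4.FibreEmbedding
open Fermat.Agent.N4.Chart
open Fermat.Agent.N4F.E.DegreeLevelRaise Fermat.Agent.N4F.E.GaussDVR AlgebraicCurve Polynomial
open Fermat.Agent.N4F.E IsLocalRing Fermat.Agent.P3G.RbarFin Fermat.Agent.P3G.TwoComponents
open Fermat.Agent.P3G.TwoComponentsFinal Fermat.Agent.P3G Fermat.Agent.P4
open Fermat.Agent.P4.TwistRoots Fermat.Agent.P3G.UCrit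
open Fermat.Agent.S40.W.F4Level
open Fermat.Agent.N4.BaseDescent Fermat.Agent.S19.Cech.LevelBasis
open Fermat.Agent.S40.M1.NodeHonest

noncomputable section

namespace Fermat.Agent.S40.M1.NodeHonestP

section Unram

variable (K : Type) [Field K] [CharZero K] (N : ℕ) [NeZero N] (ℓ : ℕ) [Fact ℓ.Prime]
  (O : Subring K) [IsDiscreteValuationRing ↥O] [IsFractionRing ↥O K]
  [CharP (IsLocalRing.ResidueField ↥O) ℓ] [PerfectRing (IsLocalRing.ResidueField ↥O) ℓ]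

set_option quotPrecheck false in
local notation "κ" => IsLocalRing.ResidueField ↥O

set_option synthInstance.maxHeartbeats 400000

variable (hN : IsUnit ((N : ℕ) : ↥O)) (ι : K →+* ℂ) (hℓN : ¬ ℓ ∣ N)
  (hprime : (fibreIdeal K N O (Rfin K N O)).IsPrime)
  (hsmooth : IsDedekindDomain (↥(Rfin K N O) ⧸ fibreIdeal K N O (Rfin K N O)))
  (hA2 : ∀ x : ↥(gaussSubalgebra K N O),
    theta K N O x ∈ modularFunctionFieldFullC (IsLocalRing.ResidueField ↥O) N)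
  (S₂ : FibreTwo.SecondVal K N ℓ O)
  {ϖ : ↥O} (hϖ : Irreducible ϖ)

include hN ι hℓN hprime hsmooth hA2 hϖ in
/-- **The honest node at an unramified level, with its two principal branches**:
`NodeHonest.exists_node_unram` keeping the clauses `hu2 hv1 hp2 hp1` of `regular_fin_val`. -/
theorem exists_node_unram_p (hunr : Associated (((ℓ : ℕ) : ↥O)) ϖ)
    (hodd : ℓ ≠ 2 → 2 * 2 ∣ N) (heven : ℓ = 2 → 9 ∣ N)
    (𝔫 : Ideal ↥(Rfin K (N * ℓ) O)) [h𝔫 : 𝔫.IsMaximal]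
    (ht₁ : Through (gaussVS K (N * ℓ) O) 𝔫) (ht₂ : Through S₂.V 𝔫) :
    ∃ u v G : ↥(Rfin K (N * ℓ) O), u ∈ 𝔫 ∧ v ∈ 𝔫 ∧ G ∉ 𝔫 ∧
      u * v = G * algebraMap ↥O ↥(Rfin K (N * ℓ) O) ϖ ∧
      (gaussVS K (N * ℓ) O).valuation (u : FF K (N * ℓ)) = 1 ∧
      S₂.V.valuation (v : FF K (N * ℓ)) = 1 ∧
      (gaussVS K (N * ℓ) O).valuation (v : FF K (N * ℓ)) < 1 ∧
      S₂.V.valuation (u : FF K (N * ℓ)) < 1 ∧
      (∀ x ∈ 𝔫, ∃ s a b : ↥(Rfin K (N * ℓ) O), s ∉ 𝔫 ∧ s * x = a * u + b * v) ∧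
      (u : FF K (N * ℓ)) ∈ S₂.V.nonunits ∧
      (v : FF K (N * ℓ)) ∈ (gaussVS K (N * ℓ) O).nonunits ∧
      (∀ r : ↥(Rfin K (N * ℓ) O), (r : FF K (N * ℓ)) ∈ S₂.V.nonunits →
        ∃ s c' : ↥(Rfin K (N * ℓ) O), s ∉ 𝔫 ∧ s * r = c' * u) ∧
      (∀ r : ↥(Rfin K (N * ℓ) O), (r : FF K (N * ℓ)) ∈ (gaussVS K (N * ℓ) O).nonunits →
        ∃ s c' : ↥(Rfin K (N * ℓ) O), s ∉ 𝔫 ∧ s * r = c' * v) := by
  haveI := Fermat.Agent.N4.ModPolySetting.finiteDimensional_FF K (N * ℓ)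
  have hj := Fermat.Agent.N4.FFAlgebraic.transcendental_jF K (N * ℓ)
  haveI : IsFractionRing ↥(Rfin K (N * ℓ) O) (FF K (N * ℓ)) :=
    Fermat.Agent.N4.Cover.Main.isFractionRing_chartAlg (O := ↥O) (K₀ := K) (jF K (N * ℓ)) hj
  have hS := BranchNormalLevel.setup_fin K N ℓ O hN ι hℓN hprime hsmooth hA2 S₂ hϖ
  obtain ⟨u, v, hu𝔫, hv𝔫, hu2, hv1, hu1, hv2, hp2, hp1, hpair, G, hG⟩ :=
    Fermat.Agent.S36.R1.Unconditional.regular_fin_val K N ℓ O hN ι hℓN hprime hsmooth hA2 S₂ hϖ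
      hunr hodd heven 𝔫 ht₁ ht₂
  have hV₁u : (gaussVS K (N * ℓ) O).valuation (u : FF K (N * ℓ)) = 1 := by
    refine le_antisymm (((gaussVS K (N * ℓ) O).valuation_le_one_iff _).2 (hS.mem₁ u)) ?_
    exact not_lt.1 fun hlt => hu1 ((gaussVS K (N * ℓ) O).mem_nonunits_iff.2 hlt)
  have hV₂v : S₂.V.valuation (v : FF K (N * ℓ)) = 1 := by
    refine le_antisymm ((S₂.V.valuation_le_one_iff _).2 (hS.mem₂ v)) ?_
    exact not_lt.1 fun hlt => hv2 (S₂.V.mem_nonunits_iff.2 hlt)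
  have hV₁v : (gaussVS K (N * ℓ) O).valuation (v : FF K (N * ℓ)) < 1 :=
    (gaussVS K (N * ℓ) O).mem_nonunits_iff.1 hv1
  have hV₂u : S₂.V.valuation (u : FF K (N * ℓ)) < 1 := S₂.V.mem_nonunits_iff.1 hu2
  refine ⟨u, v, G, hu𝔫, hv𝔫, ?_, hG, hV₁u, hV₂v, hV₁v, hV₂u, hpair, hu2, hv1, hp2, hp1⟩
  -- `G ∉ 𝔫`: `ϖ ∈ 𝔪(V₁) ∩ R = v R_𝔫`, the cofactor lies in `𝔪(V₂) ∩ R = u R_𝔫`
  set π : ↥(Rfin K (N * ℓ) O) := algebraMap ↥O ↥(Rfin K (N * ℓ) O) ϖ with hπ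
  obtain ⟨s₁, c₁, hs₁, h1⟩ := hp1 π hS.pi₁
  have hc₁ : (c₁ : FF K (N * ℓ)) ∈ S₂.V.nonunits := by
    rw [S₂.V.mem_nonunits_iff]
    have h2 : S₂.V.valuation ((s₁ * π : ↥(Rfin K (N * ℓ) O)) : FF K (N * ℓ)) < 1 := by
      have : ((s₁ * π : ↥(Rfin K (N * ℓ) O)) : FF K (N * ℓ)) =
          (s₁ : FF K (N * ℓ)) * (π : FF K (N * ℓ)) := rfl
      rw [this, map_mul]
      have h3 : S₂.V.valuation (s₁ : FF K (N * ℓ)) ≤ 1 :=
        (S₂.V.valuation_le_one_iff _).2 (hS.mem₂ s₁)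
      have h4 : S₂.V.valuation (π : FF K (N * ℓ)) < 1 := S₂.V.mem_nonunits_iff.1 hS.pi₂
      calc S₂.V.valuation (s₁ : FF K (N * ℓ)) * S₂.V.valuation (π : FF K (N * ℓ))
          ≤ 1 * S₂.V.valuation (π : FF K (N * ℓ)) := mul_le_mul_left h3 _
        _ < 1 := by rw [one_mul]; exact h4
    rw [h1] at h2
    have : ((c₁ * v : ↥(Rfin K (N * ℓ) O)) : FF K (N * ℓ)) =
        (c₁ : FF K (N * ℓ)) * (v : FF K (N * ℓ)) := rfl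
    rwa [this, map_mul, hV₂v, mul_one] at h2
  obtain ⟨s₂, c₂, hs₂, h2⟩ := hp2 c₁ hc₁
  have hπ0 : π ≠ 0 := by
    intro h0
    have h5 := hS.unif₁ (v : FF K (N * ℓ)) hV₁v
    rw [← hπ, h0, map_zero, map_zero] at h5
    have h6 : (v : FF K (N * ℓ)) = 0 :=
      ((gaussVS K (N * ℓ) O).valuation.zero_iff).1 (le_antisymm h5 zero_le)
    rw [h6, map_zero] at hV₂v
    exact zero_ne_one hV₂v
  have hprod : s₂ * s₁ = c₂ * G := by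
    have : (s₂ * s₁) * π = (c₂ * G) * π := by
      calc (s₂ * s₁) * π = s₂ * (s₁ * π) := by ring
        _ = s₂ * (c₁ * v) := by rw [h1]
        _ = (s₂ * c₁) * v := by ring
        _ = (c₂ * u) * v := by rw [h2]
        _ = c₂ * (u * v) := by ring
        _ = c₂ * (G * π) := by rw [hG]
        _ = (c₂ * G) * π := by ring
    exact mul_right_cancel₀ hπ0 this
  intro hGn
  have : s₂ * s₁ ∈ 𝔫 := hprod ▸ 𝔫.mul_mem_left _ hGn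
  exact (h𝔫.isPrime.mem_or_mem this).elim hs₂ hs₁

end Unram

/-! ### Two levels -/

section TwoLevels

variable (K₀ K : Type) [Field K₀] [CharZero K₀] [Field K] [CharZero K]
  (N : ℕ) [NeZero N] (ℓ : ℕ) [Fact ℓ.Prime]
  (O₀ : Subring K₀) [IsDiscreteValuationRing ↥O₀] [IsFractionRing ↥O₀ K₀]
  [CharP (IsLocalRing.ResidueField ↥O₀) ℓ] [PerfectRing (IsLocalRing.ResidueField ↥O₀) ℓ]
  (O : Subring K) [IsDiscreteValuationRing ↥O] [IsFractionRing ↥O K]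
  [CharP (IsLocalRing.ResidueField ↥O) ℓ] [PerfectRing (IsLocalRing.ResidueField ↥O) ℓ]
  (f : K₀ →+* K) (hOO' : ∀ a ∈ O₀, f a ∈ O)

set_option quotPrecheck false in
local notation "κ" => IsLocalRing.ResidueField ↥O

set_option synthInstance.maxHeartbeats 400000

variable (hℓN : ¬ ℓ ∣ N)
  (hN₀ : IsUnit ((N : ℕ) : ↥O₀)) (ι₀ : K₀ →+* ℂ)
  (hprime₀ : (fibreIdeal K₀ N O₀ (Rfin K₀ N O₀)).IsPrime)
  (hsmooth₀ : IsDedekindDomain (↥(Rfin K₀ N O₀) ⧸ fibreIdeal K₀ N O₀ (Rfin K₀ N O₀)))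
  (hA2₀ : ∀ x : ↥(gaussSubalgebra K₀ N O₀),
    theta K₀ N O₀ x ∈ modularFunctionFieldFullC (IsLocalRing.ResidueField ↥O₀) N)
  (T₂ : FibreTwo.SecondVal K₀ N ℓ O₀)
  {ϖ₀ : ↥O₀} (hϖ₀ : Irreducible ϖ₀)
  (hN : IsUnit ((N : ℕ) : ↥O)) (ι : K →+* ℂ)
  (hprime : (fibreIdeal K N O (Rfin K N O)).IsPrime)
  (hsmooth : IsDedekindDomain (↥(Rfin K N O) ⧸ fibreIdeal K N O (Rfin K N O)))
  (hA2 : ∀ x : ↥(gaussSubalgebra K N O),
    theta K N O x ∈ modularFunctionFieldFullC (IsLocalRing.ResidueField ↥O) N)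
  (S₂ : FibreTwo.SecondVal K N ℓ O)
  {ϖ : ↥O} (hϖ : Irreducible ϖ)

set_option maxHeartbeats 800000 in
include hℓN hN ι hprime hsmooth hA2 hϖ in
/-- **Any node coordinates of the small level are an honest node at the big level.** -/
theorem honestNode_of_coords (H : LevelRestrictHyp K₀ K N ℓ O₀ O f hOO' T₂ S₂)
    (𝔫 : Ideal ↥(Rfin K (N * ℓ) O)) [h𝔫 : 𝔫.IsMaximal]
    (ht₁ : Through (gaussVS K (N * ℓ) O) 𝔫) (ht₂ : Through S₂.V 𝔫)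
    {u₀ v₀ G₁ : ↥(Rfin K₀ (N * ℓ) O₀)}
    (hu𝔫 : u₀ ∈ 𝔫.comap (finMap f (N * ℓ) O₀ O hOO'))
    (hv𝔫 : v₀ ∈ 𝔫.comap (finMap f (N * ℓ) O₀ O hOO'))
    (hG' : finMap f (N * ℓ) O₀ O hOO' G₁ ∉ 𝔫)
    (huv' : u₀ * v₀ = G₁ * ((ℓ : ℕ) : ↥(Rfin K₀ (N * ℓ) O₀)))
    (hV₁u : (gaussVS K₀ (N * ℓ) O₀).valuation (u₀ : FF K₀ (N * ℓ)) = 1)
    (hV₂v : T₂.V.valuation (v₀ : FF K₀ (N * ℓ)) = 1)
    (hV₁v : (gaussVS K₀ (N * ℓ) O₀).valuation (v₀ : FF K₀ (N * ℓ)) < 1)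
    (hV₂u : T₂.V.valuation (u₀ : FF K₀ (N * ℓ)) < 1)
    (hpair : ∀ x ∈ 𝔫.comap (finMap f (N * ℓ) O₀ O hOO'), ∃ s a b : ↥(Rfin K₀ (N * ℓ) O₀),
      s ∉ 𝔫.comap (finMap f (N * ℓ) O₀ O hOO') ∧ s * x = a * u₀ + b * v₀) :
    HonestNode K₀ K N ℓ O₀ O f hOO' S₂ 𝔫 u₀ v₀ G₁ := by
  haveI := Fermat.Agent.N4.ModPolySetting.finiteDimensional_FF K (N * ℓ)
  have hj := Fermat.Agent.N4.FFAlgebraic.transcendental_jF K (N * ℓ)
  haveI : IsFractionRing ↥(Rfin K (N * ℓ) O) (FF K (N * ℓ)) :=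
    Fermat.Agent.N4.Cover.Main.isFractionRing_chartAlg (O := ↥O) (K₀ := K) (jF K (N * ℓ)) hj
  have hS := BranchNormalLevel.setup_fin K N ℓ O hN ι hℓN hprime hsmooth hA2 S₂ hϖ
  set φ := finMap f (N * ℓ) O₀ O hOO' with hφ
  -- valuations at the big level
  have hnu₂ : ((φ u₀ : ↥(Rfin K (N * ℓ) O)) : FF K (N * ℓ)) ∈ S₂.V.nonunits :=
    (H.second u₀).2 (T₂.V.mem_nonunits_iff.2 hV₂u)
  have hnv₁ : ((φ v₀ : ↥(Rfin K (N * ℓ) O)) : FF K (N * ℓ)) ∈ (gaussVS K (N * ℓ) O).nonunits :=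
    (H.gauss v₀).2 ((gaussVS K₀ (N * ℓ) O₀).mem_nonunits_iff.2 hV₁v)
  have hu1 : (gaussVS K (N * ℓ) O).valuation ((φ u₀ : ↥(Rfin K (N * ℓ) O)) : FF K (N * ℓ)) = 1 := by
    refine le_antisymm (((gaussVS K (N * ℓ) O).valuation_le_one_iff _).2 (hS.mem₁ (φ u₀))) ?_
    refine not_lt.1 fun hlt => ?_
    have := (H.gauss u₀).1 ((gaussVS K (N * ℓ) O).mem_nonunits_iff.2 hlt)
    rw [(gaussVS K₀ (N * ℓ) O₀).mem_nonunits_iff, hV₁u] at this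
    exact lt_irrefl _ this
  have hv2 : S₂.V.valuation ((φ v₀ : ↥(Rfin K (N * ℓ) O)) : FF K (N * ℓ)) = 1 := by
    refine le_antisymm ((S₂.V.valuation_le_one_iff _).2 (hS.mem₂ (φ v₀))) ?_
    refine not_lt.1 fun hlt => ?_
    have := (H.second v₀).1 (S₂.V.mem_nonunits_iff.2 hlt)
    rw [T₂.V.mem_nonunits_iff, hV₂v] at this
    exact lt_irrefl _ this
  have hGv₁ := valuation_eq_one_of_notMem hS.mem₁ ht₁ hG'
  have hGv₂ := valuation_eq_one_of_notMem hS.mem₂ ht₂ hG'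
  have hprodF : ((φ u₀ : ↥(Rfin K (N * ℓ) O)) : FF K (N * ℓ)) *
      ((φ v₀ : ↥(Rfin K (N * ℓ) O)) : FF K (N * ℓ)) =
      ((φ G₁ : ↥(Rfin K (N * ℓ) O)) : FF K (N * ℓ)) * ((ℓ : ℕ) : FF K (N * ℓ)) := by
    have h1 : φ u₀ * φ v₀ = φ G₁ * ((ℓ : ℕ) : ↥(Rfin K (N * ℓ) O)) := by
      rw [← map_mul, huv', map_mul φ G₁, map_natCast]
    have h2 := congrArg (algebraMap ↥(Rfin K (N * ℓ) O) (FF K (N * ℓ))) h1
    rw [map_mul, map_mul, map_natCast] at h2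
    exact h2
  have hv1 : (gaussVS K (N * ℓ) O).valuation ((φ v₀ : ↥(Rfin K (N * ℓ) O)) : FF K (N * ℓ)) =
      (gaussVS K (N * ℓ) O).valuation (((ℓ : ℕ) : FF K (N * ℓ))) := by
    have := congrArg (gaussVS K (N * ℓ) O).valuation hprodF
    rw [map_mul, map_mul, hu1, one_mul] at this
    rw [this]
    have h2 : (gaussVS K (N * ℓ) O).valuation
        ((φ G₁ : ↥(Rfin K (N * ℓ) O)) : FF K (N * ℓ)) = 1 := hGv₁
    rw [h2, one_mul]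
  have hu2 : S₂.V.valuation ((φ u₀ : ↥(Rfin K (N * ℓ) O)) : FF K (N * ℓ)) =
      S₂.V.valuation (((ℓ : ℕ) : FF K (N * ℓ))) := by
    have := congrArg S₂.V.valuation hprodF
    rw [map_mul, map_mul, hv2, mul_one] at this
    rw [this]
    have h2 : S₂.V.valuation ((φ G₁ : ↥(Rfin K (N * ℓ) O)) : FF K (N * ℓ)) = 1 := hGv₂
    rw [h2, one_mul]
  -- no horizontal divisor through `𝔫`
  have hhor : ∀ Q ∈ centredSet (F := FF K (N * ℓ)) K 𝔫,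
      Q.ord ((φ u₀ : ↥(Rfin K (N * ℓ) O)) : FF K (N * ℓ)) = 0 ∧
      Q.ord ((φ v₀ : ↥(Rfin K (N * ℓ) O)) : FF K (N * ℓ)) = 0 := by
    intro Q hQ
    have hℓ0 : ((ℓ : ℕ) : K) ≠ 0 := Nat.cast_ne_zero.2 (Fact.out : ℓ.Prime).ne_zero
    have hℓF : Q.ord (((ℓ : ℕ) : FF K (N * ℓ))) = 0 := by
      have := Fermat.Agent.G.LocDataPlace.ord_algebraMap_eq_zero Q hℓ0
      rwa [map_natCast] at this
    have hℓF0 : (((ℓ : ℕ) : FF K (N * ℓ))) ≠ 0 :=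
      Nat.cast_ne_zero.2 (Fact.out : ℓ.Prime).ne_zero
    have hu0 : ((φ u₀ : ↥(Rfin K (N * ℓ) O)) : FF K (N * ℓ)) ≠ 0 := by
      intro h0; rw [h0, map_zero] at hu1; exact zero_ne_one hu1
    have hv0 : ((φ v₀ : ↥(Rfin K (N * ℓ) O)) : FF K (N * ℓ)) ≠ 0 := by
      intro h0; rw [h0, map_zero] at hv2; exact zero_ne_one hv2
    have hG0 : ((φ G₁ : ↥(Rfin K (N * ℓ) O)) : FF K (N * ℓ)) ≠ 0 := by
      intro h0
      have h2 : S₂.V.valuation ((φ G₁ : ↥(Rfin K (N * ℓ) O)) : FF K (N * ℓ)) = 1 := hGv₂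
      rw [h0, map_zero] at h2; exact zero_ne_one h2
    have hnn : ∀ r : ↥(Rfin K (N * ℓ) O), (r : FF K (N * ℓ)) ≠ 0 →
        0 ≤ Q.ord (r : FF K (N * ℓ)) :=
      fun r hr => (Fermat.Agent.S24.PlaceExtend.mem_iff_ord_nonneg Q hr).1 (hQ.1 r)
    have hGord : Q.ord ((φ G₁ : ↥(Rfin K (N * ℓ) O)) : FF K (N * ℓ)) = 0 := by
      refine le_antisymm (not_lt.1 fun hpos => hG' ?_) (hnn _ hG0)
      exact hQ.2 _ (Fermat.Agent.S24.PlaceExtend.mem_nonunits_of_ord_pos Q hG0 hpos)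
    have hsum := congrArg Q.ord hprodF
    rw [Q.ord_mul hu0 hv0, Q.ord_mul hG0 hℓF0, hGord, hℓF, add_zero] at hsum
    have h1 := hnn _ hu0
    have h2 := hnn _ hv0
    constructor <;> omega
  exact ⟨Ideal.mem_comap.1 hu𝔫, Ideal.mem_comap.1 hv𝔫, hG', huv', hu1, hv2,
    hv1, hu2, hnv₁, hnu₂, fun Q hQ => (hhor Q hQ).1, fun Q hQ => (hhor Q hQ).2, hpair⟩

set_option maxHeartbeats 800000 in
include hℓN hN₀ ι₀ hprime₀ hsmooth₀ hA2₀ hϖ₀ hN ι hprime hsmooth hA2 hϖ in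
/-- **(U) with the principal branches**: the honest node at the big level together with the clauses
`hu2 hv1 hp2 hp1` of `regular_fin_val` at the point `𝔫.comap φ` of the small level, for the SAME
`u₀ v₀` (the binders of `AlphaNodeLevel.alpha_eq_fin_val` / `beta_eq_fin_val`). -/
theorem exists_honestNodeP (H : LevelRestrictHyp K₀ K N ℓ O₀ O f hOO' T₂ S₂)
    (hunr : Associated (((ℓ : ℕ) : ↥O₀)) ϖ₀)
    (hodd : ℓ ≠ 2 → 2 * 2 ∣ N) (heven : ℓ = 2 → 9 ∣ N)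
    (𝔫 : Ideal ↥(Rfin K (N * ℓ) O)) [h𝔫 : 𝔫.IsMaximal]
    (ht₁ : Through (gaussVS K (N * ℓ) O) 𝔫) (ht₂ : Through S₂.V 𝔫) :
    ∃ u₀ v₀ G₀ : ↥(Rfin K₀ (N * ℓ) O₀), HonestNode K₀ K N ℓ O₀ O f hOO' S₂ 𝔫 u₀ v₀ G₀ ∧
      (u₀ : FF K₀ (N * ℓ)) ∈ T₂.V.nonunits ∧
      (v₀ : FF K₀ (N * ℓ)) ∈ (gaussVS K₀ (N * ℓ) O₀).nonunits ∧
      (∀ r : ↥(Rfin K₀ (N * ℓ) O₀), (r : FF K₀ (N * ℓ)) ∈ T₂.V.nonunits →
        ∃ s c' : ↥(Rfin K₀ (N * ℓ) O₀),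
          s ∉ 𝔫.comap (finMap f (N * ℓ) O₀ O hOO') ∧ s * r = c' * u₀) ∧
      (∀ r : ↥(Rfin K₀ (N * ℓ) O₀), (r : FF K₀ (N * ℓ)) ∈ (gaussVS K₀ (N * ℓ) O₀).nonunits →
        ∃ s c' : ↥(Rfin K₀ (N * ℓ) O₀),
          s ∉ 𝔫.comap (finMap f (N * ℓ) O₀ O hOO') ∧ s * r = c' * v₀) := by
  set φ := finMap f (N * ℓ) O₀ O hOO' with hφ
  haveI h𝔫₀ : (𝔫.comap φ).IsMaximal := H.isMaximal_comap ht₁
  obtain ⟨u₀, v₀, G₀, hu𝔫, hv𝔫, hG𝔫, huv, hV₁u, hV₂v, hV₁v, hV₂u, hpair, hu2, hv1, hp2, hp1⟩ :=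
    exists_node_unram_p K₀ N ℓ O₀ hN₀ ι₀ hℓN hprime₀ hsmooth₀ hA2₀ T₂ hϖ₀ hunr hodd heven
      (𝔫.comap φ) (H.through₁ ht₁) (H.through₂ ht₂)
  -- replace `ϖ₀` by `ℓ`
  obtain ⟨ε, hε⟩ := hunr
  set E : ↥(Rfin K₀ (N * ℓ) O₀) := algebraMap ↥O₀ ↥(Rfin K₀ (N * ℓ) O₀) (ε : ↥O₀) with hE
  have hEunit : IsUnit E := (ε.isUnit).map _
  have huv' : u₀ * v₀ = (G₀ * E) * ((ℓ : ℕ) : ↥(Rfin K₀ (N * ℓ) O₀)) := by
    rw [huv, ← hε, map_mul, map_natCast]; ring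
  have hGE : G₀ * E ∉ 𝔫.comap φ := by
    intro h
    rcases (Ideal.IsPrime.mem_or_mem h𝔫₀.isPrime h) with h1 | h1
    · exact hG𝔫 h1
    · exact h𝔫₀.ne_top (Ideal.eq_top_of_isUnit_mem _ h1 hEunit)
  exact ⟨u₀, v₀, G₀ * E,
    honestNode_of_coords K₀ K N ℓ O₀ O f hOO' hℓN T₂ hN ι hprime hsmooth hA2 S₂ hϖ H 𝔫 ht₁ ht₂
      hu𝔫 hv𝔫 (fun h => hGE (Ideal.mem_comap.2 h)) huv' hV₁u hV₂v hV₁v hV₂u hpair,
    hu2, hv1, hp2, hp1⟩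

end TwoLevels

/-! ### Levels `K₀ ≤ K` of `Q̄`: `K₀` unramified, `K` good -/

section Levels

open Fermat.Agent.N4.S18Glue Fermat.Agent.N4.BigDVR
  Fermat.Agent.P3G.Assembly.StepOfLevel Fermat.Agent.P3G.Assembly.LevelStep
  Fermat.Agent.N4F.C Fermat.Agent.N4F.C.Levels Fermat.Agent.N4F.C.Galois
  Fermat.Agent.S33.L.Contracts Fermat.Agent.N4F.C.ChartFibre
  Fermat.Agent.S36.Descent.UnramLevel Fermat.Agent.P3G.Gamma

local notation "Qbar" => AlgebraicClosure ℚ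

variable (N p : ℕ) [NeZero N] [Fact p.Prime] (hpN : ¬ p ∣ N)
  (A : ValuationSubring Qbar) (hA : A.LiesOverPrime p)
  {K₀ K : IntermediateField ℚ Qbar} (hKL : K₀ ≤ K)
  (hK₀ : IsUnramLevel A p K₀) (hK : IsGoodLevel A p K)
  [IsDiscreteValuationRing ↥(baseRing A K₀)] [IsDiscreteValuationRing ↥(baseRing A K)]
  [CharP (IsLocalRing.ResidueField ↥(baseRing A K₀)) p]
  [PerfectRing (IsLocalRing.ResidueField ↥(baseRing A K₀)) p]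
  [CharP (IsLocalRing.ResidueField ↥(baseRing A K)) p]
  [PerfectRing (IsLocalRing.ResidueField ↥(baseRing A K)) p]
  (hA2₀ : ∀ x : ↥(gaussSubalgebra (Lvl K₀) N (baseRing A K₀)),
    theta (Lvl K₀) N (baseRing A K₀) x ∈
      modularFunctionFieldFullC (IsLocalRing.ResidueField ↥(baseRing A K₀)) N)
  (hA2 : ∀ x : ↥(gaussSubalgebra (Lvl K) N (baseRing A K)),
    theta (Lvl K) N (baseRing A K) x ∈
      modularFunctionFieldFullC (IsLocalRing.ResidueField ↥(baseRing A K)) N)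
  (T₂ : Fermat.Agent.P3G.FibreTwo.SecondVal (Lvl K₀) N p (baseRing A K₀))
  (S₂ : Fermat.Agent.P3G.FibreTwo.SecondVal (Lvl K) N p (baseRing A K))

set_option maxHeartbeats 1600000 in
set_option synthInstance.maxHeartbeats 400000 in
include hpN hA hK₀ hK hA2₀ hA2 in
/-- **The honest node at a good level `K` above an unramified level `K₀`, with the principal branches
at `K₀`** (`5 ≤ p`, `4 ∣ N`, `p ∤ N`; `T₂` ANY second valuation of the small level): at every crossing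
point `𝔫` there are `u₀ v₀ G₀` over `O_{K₀}` with `HonestNode` and, at `𝔫₀ = 𝔫.comap finIncl`,
`u₀ ∈ 𝔪(V₂⁰)`, `v₀ ∈ 𝔪(V₁⁰)`, `(𝔪(V₂⁰) ∩ R₀)_{𝔫₀} = (u₀)`, `(𝔪(V₁⁰) ∩ R₀)_{𝔫₀} = (v₀)`. -/
theorem exists_honestNodeP_levels (hp5 : 5 ≤ p) (h4 : 4 ∣ N)
    {ϖ : ↥(baseRing A K)} (hϖ : Irreducible ϖ)
    (𝔫 : Ideal ↥(Rfin (Lvl K) (N * p) (baseRing A K))) [h𝔫 : 𝔫.IsMaximal]
    (ht₁ : Through (gaussVS (Lvl K) (N * p) (baseRing A K)) 𝔫) (ht₂ : Through S₂.V 𝔫) :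
    ∃ u₀ v₀ G₀ : ↥(Rfin (Lvl K₀) (N * p) (baseRing A K₀)),
      HonestNode (Lvl K₀) (Lvl K) N p (baseRing A K₀) (baseRing A K) (lvlIncl hKL)
        (lvlIncl_mem A hKL) S₂ 𝔫 u₀ v₀ G₀ ∧
      (u₀ : FF (Lvl K₀) (N * p)) ∈ T₂.V.nonunits ∧
      (v₀ : FF (Lvl K₀) (N * p)) ∈ (gaussVS (Lvl K₀) (N * p) (baseRing A K₀)).nonunits ∧
      (∀ r : ↥(Rfin (Lvl K₀) (N * p) (baseRing A K₀)),
        (r : FF (Lvl K₀) (N * p)) ∈ T₂.V.nonunits →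
        ∃ s c' : ↥(Rfin (Lvl K₀) (N * p) (baseRing A K₀)),
          s ∉ 𝔫.comap (finIncl A (N * p) hKL) ∧ s * r = c' * u₀) ∧
      (∀ r : ↥(Rfin (Lvl K₀) (N * p) (baseRing A K₀)),
        (r : FF (Lvl K₀) (N * p)) ∈ (gaussVS (Lvl K₀) (N * p) (baseRing A K₀)).nonunits →
        ∃ s c' : ↥(Rfin (Lvl K₀) (N * p) (baseRing A K₀)),
          s ∉ 𝔫.comap (finIncl A (N * p) hKL) ∧ s * r = c' * v₀) := by
  obtain ⟨hN₀, hprime₀, hsm₀, -, -, -, -⟩ := levelFacts_unram N p hpN A hA K₀ hK₀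
  obtain ⟨hN, hprime, hsm, -, -, -⟩ := Fermat.Agent.S40.W.F4Good.levelFacts_good N p hpN A hA K hK
  have H := levelRestrictHyp_levels N p hpN A hA hKL hK₀ hK hA2₀ hA2 T₂ S₂
  exact exists_honestNodeP (Lvl K₀) (Lvl K) N p (baseRing A K₀) (baseRing A K) (lvlIncl hKL)
    (lvlIncl_mem A hKL) hpN hN₀ (Fermat.Agent.P3G.GammaV2.lvlToComplex K₀) hprime₀ hsm₀ hA2₀ T₂
    hK₀.irred hN (Fermat.Agent.P3G.GammaV2.lvlToComplex K) hprime hsm hA2 S₂ hϖ H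
    (Associated.refl _) (fun _ => by simpa using h4) (fun h2 => by omega) 𝔫 ht₁ ht₂

end Levels

end Fermat.Agent.S40.M1.NodeHonestP
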