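/-
S40 / S44 (row 38), T6′ static route, block (R4), clause (d): **the localisation bridge** (helper22).

(Chart model on `G/PointsLoc.locAlg`; the abstract `IsLocalization.AtPrime` model is helper14's `S40/M1/NodeLocal`.)
`S40/M1/NodeD` (helper1) is stated for three abstract local rings `Rα, Rβ, R` (the local rings of the
level-`M` chart at the two image points and of the level-`Mℓ` chart at the node), with
`[Algebra Rα R] [Module.Finite Rα R]`, fraction fields and scalar towers.  This file produces all of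
these data from the *charts*.

**Part A (Mathlib only).**
* `isLocalization_of_le_of_exists_mul` : a localisation at `N` is a localisation at any `M ≤ N` such
  that every element of `N` divides an element of `M`.
* `exists_mul_eq_algebraMap` : `B` integral over `A`, `𝔫` the only prime of `B` over `𝔪 = 𝔫 ∩ A`; then
  every `b ∉ 𝔫` divides (the image of) some `m ∉ 𝔪`.
* `isLocalization_algebraMapSubmonoid` : hence `B_𝔫 = B ⊗_A A_𝔪`, and
  `finite_of_unique_prime` : `B_𝔫` is module-finite over `A_𝔪` when `B` is module-finite over `A`.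
* `isLocalization_nonZeroDivisors` : `Frac B = B ⊗_A Frac A` for an integral extension of domains,
  and `algebraMap_norm` : `N_{B/A}` is the restriction of `N_{Frac B/Frac A}` (`B` finite free).

**Part B** (on `G/PointsLoc.locAlg`): see the section comment below.
-/
import Mathlib
import Fermat.Agent.G.PointsLoc
import Fermat.Agent.S40.M1.NodeGen

set_option autoImplicit false
set_option linter.unusedSectionVars false
set_option linter.style.haveILetI false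

noncomputable section

namespace Fermat.Agent.S40.M1.NodeLocalChart

open IsLocalRing

/-! ## Part A: abstract commutative algebra -/

section Abstract

open scoped nonZeroDivisors

/-- A localisation at `N` is also a localisation at a smaller submonoid `M ≤ N`, provided every
element of `N` divides an element of `M`. -/
theorem isLocalization_of_le_of_exists_mul {B S : Type*} [CommRing B] [CommRing S] [Algebra B S]
    (N M : Submonoid B) [IsLocalization N S] (hMN : M ≤ N)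
    (h : ∀ n ∈ N, ∃ c : B, n * c ∈ M) : IsLocalization M S where
  map_units := fun y => IsLocalization.map_units S (⟨y.1, hMN y.2⟩ : N)
  surj := fun z => by
    obtain ⟨⟨x, n⟩, hz⟩ := IsLocalization.surj N z
    obtain ⟨c, hc⟩ := h n n.2
    refine ⟨(x * c, ⟨n * c, hc⟩), ?_⟩
    show z * algebraMap B S (n * c) = algebraMap B S (x * c)
    rw [map_mul, ← mul_assoc, hz, map_mul]
  exists_of_eq := fun {x y} hxy => by
    obtain ⟨n, hn⟩ := IsLocalization.exists_of_eq (M := N) hxy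
    obtain ⟨c, hc⟩ := h n n.2
    refine ⟨⟨n * c, hc⟩, ?_⟩
    show n * c * x = n * c * y
    calc (n : B) * c * x = c * (n * x) := by ring
      _ = c * (n * y) := by rw [hn]
      _ = n * c * y := by ring

variable {A B : Type*} [CommRing A] [CommRing B] [Algebra A B]

/-- `B` integral over `A`, `𝔫` the only prime of `B` over `𝔪 = 𝔫 ∩ A`: every `b ∉ 𝔫` divides the
image of some `m ∉ 𝔪`. -/
theorem exists_mul_eq_algebraMap [Algebra.IsIntegral A B] (𝔫 : Ideal B) [𝔫.IsPrime]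
    (huniq : ∀ 𝔮 : Ideal B, 𝔮.IsPrime →
      𝔮.comap (algebraMap A B) = 𝔫.comap (algebraMap A B) → 𝔮 = 𝔫)
    {b : B} (hb : b ∉ 𝔫) :
    ∃ c : B, ∃ m : A, m ∉ 𝔫.comap (algebraMap A B) ∧ b * c = algebraMap A B m := by
  by_contra hcon
  have hle : (Ideal.span {b}).comap (algebraMap A B) ≤ 𝔫.comap (algebraMap A B) := by
    intro m hm
    by_contra hm'
    obtain ⟨c, hc⟩ := Ideal.mem_span_singleton'.1 (Ideal.mem_comap.1 hm)
    exact hcon ⟨c, m, hm', by rw [← hc, mul_comm]⟩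
  obtain ⟨𝔮, hge, h𝔮, hover⟩ := Ideal.exists_ideal_over_prime_of_isIntegral
    (𝔫.comap (algebraMap A B)) (Ideal.span {b}) hle
  have := huniq 𝔮 h𝔮 hover
  exact hb (this ▸ hge (Ideal.subset_span rfl))

/-- `B_𝔫 = B ⊗_A A_𝔪` when `𝔫` is the only prime of the integral extension `B` over `𝔪 = 𝔫 ∩ A`. -/
theorem isLocalization_algebraMapSubmonoid [Algebra.IsIntegral A B] (𝔫 : Ideal B) [𝔫.IsPrime]
    (huniq : ∀ 𝔮 : Ideal B, 𝔮.IsPrime →
      𝔮.comap (algebraMap A B) = 𝔫.comap (algebraMap A B) → 𝔮 = 𝔫)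
    (S : Type*) [CommRing S] [Algebra B S] [IsLocalization.AtPrime S 𝔫] :
    IsLocalization
      (Algebra.algebraMapSubmonoid B (𝔫.comap (algebraMap A B)).primeCompl) S := by
  refine isLocalization_of_le_of_exists_mul 𝔫.primeCompl _ ?_ ?_
  · rintro _ ⟨m, hm, rfl⟩
    exact hm
  · intro n hn
    obtain ⟨c, m, hm, hc⟩ := exists_mul_eq_algebraMap 𝔫 huniq hn
    exact ⟨c, m, hm, hc.symm⟩

/-- `B_𝔫` is module-finite over `A_𝔪` (`B` module-finite over `A`, `𝔫` the only prime over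
`𝔪 = 𝔫 ∩ A`). -/
theorem finite_of_unique_prime [Module.Finite A B] (𝔫 : Ideal B) [𝔫.IsPrime]
    (huniq : ∀ 𝔮 : Ideal B, 𝔮.IsPrime →
      𝔮.comap (algebraMap A B) = 𝔫.comap (algebraMap A B) → 𝔮 = 𝔫)
    (At S : Type*) [CommRing At] [CommRing S] [Algebra A At]
    [IsLocalization.AtPrime At (𝔫.comap (algebraMap A B))]
    [Algebra B S] [IsLocalization.AtPrime S 𝔫] [Algebra At S] [Algebra A S]
    [IsScalarTower A B S] [IsScalarTower A At S] : Module.Finite At S := by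
  haveI := isLocalization_algebraMapSubmonoid (A := A) 𝔫 huniq S
  exact Module.Finite.of_isLocalization A B (𝔫.comap (algebraMap A B)).primeCompl

/-- `Frac B = B ⊗_A Frac A` for an integral extension of domains. -/
theorem isLocalization_nonZeroDivisors [IsDomain A] [IsDomain B] [Algebra.IsIntegral A B]
    (hinj : Function.Injective (algebraMap A B))
    (L : Type*) [CommRing L] [Algebra B L] [IsFractionRing B L] :
    IsLocalization (Algebra.algebraMapSubmonoid B A⁰) L := by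
  refine isLocalization_of_le_of_exists_mul B⁰ _ ?_ ?_
  · rintro _ ⟨m, hm, rfl⟩
    exact mem_nonZeroDivisors_of_ne_zero
      ((map_ne_zero_iff _ hinj).2 (nonZeroDivisors.ne_zero hm))
  · intro n hn
    have hn0 : n ≠ 0 := nonZeroDivisors.ne_zero hn
    have h1 := Ideal.comap_ne_bot_of_integral_mem (R := A) (I := Ideal.span {n}) hn0
      (Ideal.subset_span rfl) (Algebra.IsIntegral.isIntegral n)
    obtain ⟨m, hm, hm0⟩ := Submodule.exists_mem_ne_zero_of_ne_bot h1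
    obtain ⟨c, hc⟩ := Ideal.mem_span_singleton'.1 (Ideal.mem_comap.1 hm)
    exact ⟨c, m, mem_nonZeroDivisors_of_ne_zero hm0, by rw [← hc, mul_comm]⟩

/-- **Norm compatibility**: for `B` finite free over `A` (domains), `N_{B/A}` is the restriction of
the field norm `N_{Frac B / Frac A}`. -/
theorem algebraMap_norm [IsDomain A] [IsDomain B] [Module.Finite A B] [Module.Free A B]
    (hinj : Function.Injective (algebraMap A B))
    (K L : Type*) [Field K] [Field L] [Algebra A K] [IsFractionRing A K]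
    [Algebra B L] [IsFractionRing B L] [Algebra K L] [Algebra A L] [IsScalarTower A K L]
    [IsScalarTower A B L] (r : B) :
    algebraMap A K (Algebra.norm A r) = Algebra.norm K (algebraMap B L r) := by
  haveI := isLocalization_nonZeroDivisors (A := A) (B := B) hinj L
  exact (Algebra.norm_localization A A⁰ r).symm

end Abstract

/-! ## Part B: two charts and a level map

`R₁ ⊆ F₁`, `R₂ ⊆ F₂` two charts (`O`-subalgebras of function fields over `K = Frac O`),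
`φ : F₁ →ₐ[K] F₂` a field embedding restricting to `φR : R₁ →ₐ[O] R₂` (`α` or `β`), `𝔫` a prime of
`R₂` and `𝔪 := 𝔫.comap φR`.  `Rt := locAlg R₁ 𝔪`, `R := locAlg R₂ 𝔫` (`G/PointsLoc`).

Since `α` and `β` are two maps between the *same* rings, nothing here is a global instance: the
consumer installs `algLoc` (`Algebra Rt R`), `algLocField` (`Algebra Rt F₂`) and `algebraAlong φ`
(`Algebra F₁ F₂`) with `letI`, and the `IsScalarTower` / `IsFractionRing` / `Module.Finite`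
statements with `haveI`. -/

section Charts

open Fermat.Agent.G.PointsLoc AlgebraicCurve

variable {O K F₁ F₂ : Type*} [CommRing O] [IsDomain O] [IsDiscreteValuationRing O]
  [Field K] [Algebra O K] [IsFractionRing O K]
  [Field F₁] [Algebra K F₁] [Algebra O F₁] [IsScalarTower O K F₁]
  [Field F₂] [Algebra K F₂] [Algebra O F₂] [IsScalarTower O K F₂]

/-- The local ring of a chart at a prime has the same fraction field as the chart. -/
theorem isFractionRing_locAlg (R : Subalgebra O F₁) (𝔭 : Ideal ↥R) [𝔭.IsPrime]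
    [IsFractionRing ↥R F₁] : IsFractionRing ↥(locAlg R 𝔭) F₁ :=
  haveI : IsScalarTower ↥R ↥(locAlg R 𝔭) F₁ := IsScalarTower.of_algebraMap_eq fun _ => rfl
  IsFractionRing.isFractionRing_of_isDomain_of_isLocalization 𝔭.primeCompl ↥(locAlg R 𝔭) F₁

/-- Elements outside the prime become units of the local ring. -/
theorem isUnit_algebraMap_of_notMem (R : Subalgebra O F₁) (𝔭 : Ideal ↥R) [𝔭.IsPrime] {x : R}
    (hx : x ∉ 𝔭) : IsUnit (algebraMap ↥R ↥(locAlg R 𝔭) x) :=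
  IsLocalization.map_units ↥(locAlg R 𝔭) (⟨x, hx⟩ : 𝔭.primeCompl)

/-- Elements of the prime land in the maximal ideal of the local ring. -/
theorem algebraMap_mem_maximalIdeal_of_mem (R : Subalgebra O F₁) (𝔭 : Ideal ↥R) [𝔭.IsPrime] {x : R}
    (hx : x ∈ 𝔭) : algebraMap ↥R ↥(locAlg R 𝔭) x ∈ maximalIdeal ↥(locAlg R 𝔭) :=
  (algebraMap_mem_maximalIdeal_locAlg_iff R 𝔭 x).2 hx

/-- **(GEN) in the local ring**: `𝔪_R = (u, v, ϖ)` from the chart-level generation statement of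
`S40/M1/NodeGen` (`exists_mul_eq_add`) / `NodeGenLevel` (`exists_mul_eq_add_finMap`). -/
theorem maximalIdeal_eq_span_three (R : Subalgebra O F₁) (𝔭 : Ideal ↥R) [𝔭.IsPrime]
    {u v : R} {ϖ : O} (hu : u ∈ 𝔭) (hv : v ∈ 𝔭) (hϖ : algebraMap O ↥R ϖ ∈ 𝔭)
    (hgen : ∃ c, c ∉ 𝔭 ∧ ∀ r ∈ 𝔭, ∃ a b d, c * r = a * u + b * v + d * algebraMap O ↥R ϖ) :
    maximalIdeal ↥(locAlg R 𝔭) =
      Ideal.span {algebraMap ↥R ↥(locAlg R 𝔭) u, algebraMap ↥R ↥(locAlg R 𝔭) v,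
        algebraMap O ↥(locAlg R 𝔭) ϖ} := by
  rw [maximalIdeal_locAlg, NodeGen.map_eq_span 𝔭 (algebraMap O ↥R ϖ) u v ↥(locAlg R 𝔭) hu hv hϖ hgen,
    ← IsScalarTower.algebraMap_apply]

/-- **(GEN₂) in the local ring**: `𝔪 = (z, ϖ)` at a smooth point. -/
theorem maximalIdeal_eq_span_two (R : Subalgebra O F₁) (𝔭 : Ideal ↥R) [𝔭.IsPrime]
    {z : R} {ϖ : O} (hz : z ∈ 𝔭) (hϖ : algebraMap O ↥R ϖ ∈ 𝔭)
    (hgen : ∃ c, c ∉ 𝔭 ∧ ∀ r ∈ 𝔭, ∃ a d, c * r = a * z + d * algebraMap O ↥R ϖ) :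
    maximalIdeal ↥(locAlg R 𝔭) =
      Ideal.span {algebraMap ↥R ↥(locAlg R 𝔭) z, algebraMap O ↥(locAlg R 𝔭) ϖ} := by
  have h3 := maximalIdeal_eq_span_three R 𝔭 hz hz hϖ (by
    obtain ⟨c, hc, h⟩ := hgen
    refine ⟨c, hc, fun r hr => ?_⟩
    obtain ⟨a, d, had⟩ := h r hr
    exact ⟨a, 0, d, by rw [had]; ring⟩)
  rw [h3]
  congr 1
  ext x
  simp only [Set.mem_insert_iff, Set.mem_singleton_iff]
  tauto

/-- **Residues**: if every element of the chart is congruent to a constant modulo `𝔭`, so is every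
element of the local ring (modulo its maximal ideal), the constant being a fraction of constants. -/
theorem exists_sub_mem_maximalIdeal (R : Subalgebra O F₁) (𝔭 : Ideal ↥R) [𝔭.IsPrime]
    (hres : ∀ r : R, ∃ o : O, r - algebraMap O ↥R o ∈ 𝔭) (r : ↥(locAlg R 𝔭)) :
    ∃ a b : O, algebraMap O ↥R b ∉ 𝔭 ∧
      r * algebraMap O ↥(locAlg R 𝔭) b - algebraMap O ↥(locAlg R 𝔭) a ∈
        maximalIdeal ↥(locAlg R 𝔭) := by
  obtain ⟨⟨x, y⟩, hxy⟩ := IsLocalization.surj 𝔭.primeCompl r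
  have hxy' : r * algebraMap ↥R ↥(locAlg R 𝔭) (y : R) = algebraMap ↥R ↥(locAlg R 𝔭) x := hxy
  obtain ⟨a, ha⟩ := hres x
  obtain ⟨b, hb⟩ := hres (y : R)
  have hb' : algebraMap O ↥R b ∉ 𝔭 := by
    intro hmem
    apply y.2
    have : (y : R) = ((y : R) - algebraMap O ↥R b) + algebraMap O ↥R b := by ring
    rw [this]
    exact 𝔭.add_mem hb hmem
  refine ⟨a, b, hb', ?_⟩
  have e : r * algebraMap O ↥(locAlg R 𝔭) b - algebraMap O ↥(locAlg R 𝔭) a =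
      algebraMap ↥R ↥(locAlg R 𝔭) (x - algebraMap O ↥R a) -
        r * algebraMap ↥R ↥(locAlg R 𝔭) ((y : R) - algebraMap O ↥R b) := by
    rw [map_sub, map_sub, ← IsScalarTower.algebraMap_apply, ← IsScalarTower.algebraMap_apply,
      mul_sub, hxy']
    ring
  rw [e]
  exact Ideal.sub_mem _ (algebraMap_mem_maximalIdeal_of_mem R 𝔭 ha)
    (Ideal.mul_mem_left _ _ (algebraMap_mem_maximalIdeal_of_mem R 𝔭 hb))

variable (φ : F₁ →ₐ[K] F₂) (R₁ : Subalgebra O F₁) (R₂ : Subalgebra O F₂)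
  (φR : R₁ →ₐ[O] R₂) (hφR : ∀ x : R₁, ((φR x : R₂) : F₂) = φ (x : F₁))
  (𝔫 : Ideal ↥R₂) [𝔫.IsPrime]

include hφR in
/-- `φ` maps the local ring at `𝔪 = φR⁻¹ 𝔫` into the local ring at `𝔫`. -/
theorem map_mem_locAlg {x : F₁} (hx : x ∈ locAlg R₁ (𝔫.comap φR)) : φ x ∈ locAlg R₂ 𝔫 := by
  obtain ⟨a, b, hb, hab⟩ := hx
  refine ⟨φR a, φR b, hb, ?_⟩
  rw [hφR, hφR, ← map_mul, hab]

/-- The local homomorphism `(R₁)_𝔪 → (R₂)_𝔫` induced by `φ`. -/
def locMap : ↥(locAlg R₁ (𝔫.comap φR)) →ₐ[O] ↥(locAlg R₂ 𝔫) :=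
  (((φ.restrictScalars O).comp (locAlg R₁ (𝔫.comap φR)).val).codRestrict (locAlg R₂ 𝔫)
    fun x => map_mem_locAlg φ R₁ R₂ φR hφR 𝔫 x.2)

theorem coe_locMap (x : ↥(locAlg R₁ (𝔫.comap φR))) :
    ((locMap φ R₁ R₂ φR hφR 𝔫 x : ↥(locAlg R₂ 𝔫)) : F₂) = φ (x : F₁) := rfl

theorem locMap_injective : Function.Injective (locMap φ R₁ R₂ φR hφR 𝔫) := fun _ _ h =>
  Subtype.ext (φ.injective (congrArg Subtype.val h))

theorem locMap_algebraMap (r : R₁) :
    locMap φ R₁ R₂ φR hφR 𝔫 (algebraMap ↥R₁ ↥(locAlg R₁ (𝔫.comap φR)) r) =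
      algebraMap ↥R₂ ↥(locAlg R₂ 𝔫) (φR r) :=
  Subtype.ext (hφR r).symm

/-- `R = (R₂)_𝔫` as an algebra over `Rt = (R₁)_𝔪` along `φ`.  Install with `letI`. -/
@[reducible] def algLoc : Algebra ↥(locAlg R₁ (𝔫.comap φR)) ↥(locAlg R₂ 𝔫) :=
  (locMap φ R₁ R₂ φR hφR 𝔫).toRingHom.toAlgebra

/-- `F₂` as an algebra over `Rt = (R₁)_𝔪` along `φ`.  Install with `letI`. -/
@[reducible] def algLocField : Algebra ↥(locAlg R₁ (𝔫.comap φR)) F₂ :=
  (φ.toRingHom.comp (algebraMap ↥(locAlg R₁ (𝔫.comap φR)) F₁)).toAlgebra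

theorem algebraMap_algLoc (x : ↥(locAlg R₁ (𝔫.comap φR))) :
    letI := algLoc φ R₁ R₂ φR hφR 𝔫
    algebraMap ↥(locAlg R₁ (𝔫.comap φR)) ↥(locAlg R₂ 𝔫) x = locMap φ R₁ R₂ φR hφR 𝔫 x := rfl

theorem isScalarTower_algLoc :
    letI := algLoc φ R₁ R₂ φR hφR 𝔫
    IsScalarTower O ↥(locAlg R₁ (𝔫.comap φR)) ↥(locAlg R₂ 𝔫) :=
  letI := algLoc φ R₁ R₂ φR hφR 𝔫
  IsScalarTower.of_algebraMap_eq fun a => ((locMap φ R₁ R₂ φR hφR 𝔫).commutes a).symm

theorem isScalarTower_algLocField :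
    letI := algebraAlong φ
    letI := algLocField φ R₁ R₂ φR 𝔫
    IsScalarTower ↥(locAlg R₁ (𝔫.comap φR)) F₁ F₂ :=
  letI := algebraAlong φ
  letI := algLocField φ R₁ R₂ φR 𝔫
  IsScalarTower.of_algebraMap_eq fun _ => rfl

theorem isScalarTower_algLoc_field :
    letI := algLoc φ R₁ R₂ φR hφR 𝔫
    letI := algLocField φ R₁ R₂ φR 𝔫
    IsScalarTower ↥(locAlg R₁ (𝔫.comap φR)) ↥(locAlg R₂ 𝔫) F₂ :=
  letI := algLoc φ R₁ R₂ φR hφR 𝔫
  letI := algLocField φ R₁ R₂ φR 𝔫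
  IsScalarTower.of_algebraMap_eq fun _ => rfl

/-- **(FIN) ⇒ `Module.Finite Rt R`**: if `R₂` is module-finite over `R₁` along `φR` and `𝔫` is the
only prime of `R₂` over `𝔪 = φR⁻¹ 𝔫`, the local ring at `𝔫` is module-finite over the local ring at
`𝔪`. -/
theorem finite_algLoc (hfin : (φR : ↥R₁ →+* ↥R₂).Finite)
    (huniq : ∀ 𝔮 : Ideal ↥R₂, 𝔮.IsPrime → 𝔮.comap φR = 𝔫.comap φR → 𝔮 = 𝔫) :
    letI := algLoc φ R₁ R₂ φR hφR 𝔫
    Module.Finite ↥(locAlg R₁ (𝔫.comap φR)) ↥(locAlg R₂ 𝔫) := by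
  letI := algLoc φ R₁ R₂ φR hφR 𝔫
  letI a12 : Algebra ↥R₁ ↥R₂ := (φR : ↥R₁ →+* ↥R₂).toAlgebra
  haveI hf : Module.Finite ↥R₁ ↥R₂ := hfin
  letI a1 : Algebra ↥R₁ ↥(locAlg R₂ 𝔫) :=
    ((algebraMap ↥R₂ ↥(locAlg R₂ 𝔫)).comp (φR : ↥R₁ →+* ↥R₂)).toAlgebra
  haveI t1 : IsScalarTower ↥R₁ ↥R₂ ↥(locAlg R₂ 𝔫) := IsScalarTower.of_algebraMap_eq fun _ => rfl
  haveI t2 : IsScalarTower ↥R₁ ↥(locAlg R₁ (𝔫.comap φR)) ↥(locAlg R₂ 𝔫) :=
    IsScalarTower.of_algebraMap_eq fun r => (locMap_algebraMap φ R₁ R₂ φR hφR 𝔫 r).symm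
  haveI hloc : IsLocalization.AtPrime ↥(locAlg R₁ (𝔫.comap φR)) (𝔫.comap (algebraMap ↥R₁ ↥R₂)) :=
    isLocalization_locAlg R₁ (𝔫.comap φR)
  exact finite_of_unique_prime (A := ↥R₁) (B := ↥R₂) 𝔫
    (fun 𝔮 h𝔮 h => huniq 𝔮 h𝔮 h) ↥(locAlg R₁ (𝔫.comap φR)) ↥(locAlg R₂ 𝔫)

include hφR in
/-- **(ALPHA) in the local rings** (`hzα` / `hzβ` of `NodeD`): the chart-level identity
`s * φR z = u * A + v ^ n * E` with `s, A, E ∉ 𝔫` (`AlphaNodeLevel.alpha_eq_fin_val`) becomes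
`φ z = u A' + v ^ n E'` with `A', E'` units of the local ring at `𝔫`. -/
theorem exists_isUnit_algebraMap_eq {z : R₁} {s u v A E : R₂} {n : ℕ}
    (hs : s ∉ 𝔫) (hA : A ∉ 𝔫) (hE : E ∉ 𝔫) (h : s * φR z = u * A + v ^ n * E) :
    letI := algLoc φ R₁ R₂ φR hφR 𝔫
    ∃ A' E' : ↥(locAlg R₂ 𝔫), IsUnit A' ∧ IsUnit E' ∧
      algebraMap ↥(locAlg R₁ (𝔫.comap φR)) ↥(locAlg R₂ 𝔫)
          (algebraMap ↥R₁ ↥(locAlg R₁ (𝔫.comap φR)) z) =
        algebraMap ↥R₂ ↥(locAlg R₂ 𝔫) u * A' + algebraMap ↥R₂ ↥(locAlg R₂ 𝔫) v ^ n * E' := by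
  letI := algLoc φ R₁ R₂ φR hφR 𝔫
  have hsu := isUnit_algebraMap_of_notMem R₂ 𝔫 hs
  have hAu := isUnit_algebraMap_of_notMem R₂ 𝔫 hA
  have hEu := isUnit_algebraMap_of_notMem R₂ 𝔫 hE
  obtain ⟨s', hs'⟩ := hsu.exists_left_inv
  have hs'u : IsUnit s' := IsUnit.of_mul_eq_one _ hs'
  refine ⟨s' * algebraMap ↥R₂ ↥(locAlg R₂ 𝔫) A, s' * algebraMap ↥R₂ ↥(locAlg R₂ 𝔫) E,
    hs'u.mul hAu, hs'u.mul hEu, ?_⟩
  have h1 : algebraMap ↥(locAlg R₁ (𝔫.comap φR)) ↥(locAlg R₂ 𝔫)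
      (algebraMap ↥R₁ ↥(locAlg R₁ (𝔫.comap φR)) z) = algebraMap ↥R₂ ↥(locAlg R₂ 𝔫) (φR z) :=
    locMap_algebraMap φ R₁ R₂ φR hφR 𝔫 z
  have h2 := congrArg (algebraMap ↥R₂ ↥(locAlg R₂ 𝔫)) h
  rw [map_mul, map_add, map_mul, map_mul, map_pow] at h2
  rw [h1]
  calc algebraMap ↥R₂ ↥(locAlg R₂ 𝔫) (φR z)
      = s' * (algebraMap ↥R₂ ↥(locAlg R₂ 𝔫) s * algebraMap ↥R₂ ↥(locAlg R₂ 𝔫) (φR z)) := by
        rw [← mul_assoc, hs', one_mul]
    _ = _ := by rw [h2]; ring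

include hφR in
/-- **`hres` of `NodeD`**: equal residue fields.  If every element of the chart `R₂` is congruent to
a constant modulo `𝔫`, every element of the local ring at `𝔫` is congruent modulo the maximal ideal
to (the image of) an element of the local ring at `𝔪 = φR⁻¹ 𝔫`. -/
theorem exists_sub_algebraMap_mem_maximalIdeal
    (hres : ∀ r : R₂, ∃ o : O, r - algebraMap O ↥R₂ o ∈ 𝔫) (r : ↥(locAlg R₂ 𝔫)) :
    letI := algLoc φ R₁ R₂ φR hφR 𝔫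
    ∃ c : ↥(locAlg R₁ (𝔫.comap φR)),
      r - algebraMap ↥(locAlg R₁ (𝔫.comap φR)) ↥(locAlg R₂ 𝔫) c ∈ maximalIdeal ↥(locAlg R₂ 𝔫) := by
  letI := algLoc φ R₁ R₂ φR hφR 𝔫
  haveI := isScalarTower_algLoc φ R₁ R₂ φR hφR 𝔫
  obtain ⟨a, b, hb, hab⟩ := exists_sub_mem_maximalIdeal R₂ 𝔫 hres r
  -- `b` is a unit of the small local ring
  have hb1 : algebraMap O ↥R₁ b ∉ 𝔫.comap φR := by
    rw [Ideal.mem_comap, AlgHom.commutes]
    exact hb
  have hbu : IsUnit (algebraMap O ↥(locAlg R₁ (𝔫.comap φR)) b) := by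
    rw [IsScalarTower.algebraMap_apply O ↥R₁ ↥(locAlg R₁ (𝔫.comap φR))]
    exact isUnit_algebraMap_of_notMem R₁ (𝔫.comap φR) hb1
  obtain ⟨b', hb'⟩ := hbu.exists_left_inv
  refine ⟨algebraMap O ↥(locAlg R₁ (𝔫.comap φR)) a * b', ?_⟩
  have hb'' : algebraMap ↥(locAlg R₁ (𝔫.comap φR)) ↥(locAlg R₂ 𝔫) b' *
      algebraMap O ↥(locAlg R₂ 𝔫) b = 1 := by
    rw [IsScalarTower.algebraMap_apply O ↥(locAlg R₁ (𝔫.comap φR)) ↥(locAlg R₂ 𝔫), ← map_mul, hb',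
      map_one]
  have e : r - algebraMap ↥(locAlg R₁ (𝔫.comap φR)) ↥(locAlg R₂ 𝔫)
        (algebraMap O ↥(locAlg R₁ (𝔫.comap φR)) a * b') =
      algebraMap ↥(locAlg R₁ (𝔫.comap φR)) ↥(locAlg R₂ 𝔫) b' *
        (r * algebraMap O ↥(locAlg R₂ 𝔫) b - algebraMap O ↥(locAlg R₂ 𝔫) a) := by
    rw [map_mul, ← IsScalarTower.algebraMap_apply O ↥(locAlg R₁ (𝔫.comap φR)) ↥(locAlg R₂ 𝔫)]
    calc r - algebraMap O ↥(locAlg R₂ 𝔫) a *
          algebraMap ↥(locAlg R₁ (𝔫.comap φR)) ↥(locAlg R₂ 𝔫) b'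
        = r * (algebraMap ↥(locAlg R₁ (𝔫.comap φR)) ↥(locAlg R₂ 𝔫) b' *
            algebraMap O ↥(locAlg R₂ 𝔫) b) - algebraMap O ↥(locAlg R₂ 𝔫) a *
          algebraMap ↥(locAlg R₁ (𝔫.comap φR)) ↥(locAlg R₂ 𝔫) b' := by rw [hb'', mul_one]
      _ = _ := by ring
  rw [e]
  exact Ideal.mul_mem_left _ _ hab

/-- **Norm compatibility** (`(iv)`): when the local ring at `𝔫` is finite free over the local ring at
`𝔪` (`NodeAlg.basisPow`), its ring norm is the restriction of the field norm along `φ`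
(`= normAlong φ`, `P4/FrobStep`). -/
theorem coe_norm [IsFractionRing ↥R₁ F₁] [IsFractionRing ↥R₂ F₂]
    (hfin : letI := algLoc φ R₁ R₂ φR hφR 𝔫
      Module.Finite ↥(locAlg R₁ (𝔫.comap φR)) ↥(locAlg R₂ 𝔫))
    (hfree : letI := algLoc φ R₁ R₂ φR hφR 𝔫
      Module.Free ↥(locAlg R₁ (𝔫.comap φR)) ↥(locAlg R₂ 𝔫))
    (W : ↥(locAlg R₂ 𝔫)) :
    ((@Algebra.norm ↥(locAlg R₁ (𝔫.comap φR)) ↥(locAlg R₂ 𝔫) _ _ (algLoc φ R₁ R₂ φR hφR 𝔫) W :
        ↥(locAlg R₁ (𝔫.comap φR))) : F₁) =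
      @Algebra.norm F₁ F₂ _ _ (algebraAlong φ) (W : F₂) := by
  letI := algLoc φ R₁ R₂ φR hφR 𝔫
  letI := algebraAlong φ
  letI := algLocField φ R₁ R₂ φR 𝔫
  haveI i1 : IsScalarTower ↥(locAlg R₁ (𝔫.comap φR)) F₁ F₂ :=
    isScalarTower_algLocField φ R₁ R₂ φR 𝔫
  haveI i2 : IsScalarTower ↥(locAlg R₁ (𝔫.comap φR)) ↥(locAlg R₂ 𝔫) F₂ :=
    isScalarTower_algLoc_field φ R₁ R₂ φR hφR 𝔫
  haveI := isFractionRing_locAlg R₁ (𝔫.comap φR)
  haveI := isFractionRing_locAlg R₂ 𝔫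
  haveI : Module.Finite ↥(locAlg R₁ (𝔫.comap φR)) ↥(locAlg R₂ 𝔫) := hfin
  haveI : Module.Free ↥(locAlg R₁ (𝔫.comap φR)) ↥(locAlg R₂ 𝔫) := hfree
  exact @algebraMap_norm ↥(locAlg R₁ (𝔫.comap φR)) ↥(locAlg R₂ 𝔫) _ _ _ _ _ _ _
    (locMap_injective φ R₁ R₂ φR hφR 𝔫) F₁ F₂ _ _ _ _ _ _ _ _ i1 i2 W

end Charts

end Fermat.Agent.S40.M1.NodeLocalChart
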