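/-
S40 / S44 (row 38), T6′ static route (`moonshots` row 67): **the (R5′)-plug** (helper17; dispatch helper8
#3277 (a)).

The output of the node identity (R4) at a Galois-stable level `K` of `ℚ̄` (helper5 `NodeInv.exists_y_of_node` +
`yNode_fixed`; (Q) = helper4 `NodeQbar`) is an element `y : Lvl K`, `y ≠ 0`, with
`(y ^ p / p ^ ((p - 1) m) - 1) / p ∈ lvlVS A K`, fixed by the inertia elements at `A` which fix `V` pointwise.
The global pack of (R5′) (`P/PeuApproxFrey.dvd_of_copyOfE_p`, helper29 on helper19's `PeuApprox` and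
`PeuApproxInertia`) — for the Frey package `P`, `p = P.p ∣ abc`, `V` a copy of `W[p]` — turns this into `p ∣ m`.

* `hR5_fixV` : the pack in the `hR5` shape of `SSVanish.dvd_of_approxRoot_at` / `NodeQbar.dvd_of_node_at`,
  `Fix := PlaceTransport.fixV V`, hypothesis-free;
* ★ `dvd_of_approxRoot_frey` : `ApproxRoot P.p A (fixV V) n → p ∣ n` at ANY place `A ∣ p`;
* ★ `dvd_of_node_frey` : (R4) ∘ (Q) ∘ (R5′): the level statement gives `p ∣ m`, at any place `A ∣ p`;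
  `dvd_of_node_frey_padic` : the same at `A := padicPlace P.p` (the place of `Top/OfSS.SSStatement`).

The instance `Fact P.p.Prime` is an instance binder (`haveI : Fact P.p.Prime := ⟨P.pp⟩` at the call site).
-/
import Mathlib
import Fermat.Agent.S40.M1.NodeQbar
import Fermat.Agent.S40.P.PeuApproxFrey

set_option autoImplicit false
set_option linter.unusedSectionVars false
set_option linter.unusedVariables false
set_option linter.style.haveILetI false
set_option linter.style.longLine false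

noncomputable section

namespace Fermat.Agent.S40.M1.NodeR5

open Fermat.Agent.N4.BigDVR Fermat.Agent.N4F.C Fermat.Agent.N4F.C.Levels
  Fermat.Agent.P3G.GammaAut Fermat.Agent.N4F.Res Fermat.Agent.S40.Top.Eigen
  Fermat.Agent.S40.Top.CopyOfE
  Fermat.Agent.S40.M1.SSVanish Fermat.Agent.S40.M1.PlaceTransport Fermat.Agent.S40.M1.NodeQbar

local notation "Qbar" => AlgebraicClosure ℚ
local notation "Γ" => (AlgebraicClosure ℚ ≃ₐ[ℚ] AlgebraicClosure ℚ)

variable (P : FreyPackage) [Fact P.p.Prime]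

/-- **The (R5′) pack in the `hR5` shape**, `Fix := fixV V` ("fixes `V` pointwise"). -/
theorem hR5_fixV (habc : (P.p : ℤ) ∣ P.a * P.b * P.c)
    {W : WeierstrassCurve ℤ} (hW : W.IsIntegralModelOf P.freyCurve) (hΔ : W.Δ ≠ 0)
    {L : ℕ} [NeZero L] {V : Submodule (ZMod P.p) (Jtors L P.p)} (hC : CopyOfE W P.p V) :
    ∀ y : Qbar, y ≠ 0 → ∀ n : ℤ,
      (∀ σ ∈ (padicPlace P.p).inertiaSubgroupIn ℚ, fixV V σ → σ y = y) →
      ‖padicEmbedding P.p (y ^ P.p / (P.p : Qbar) ^ n - 1)‖ ≤ ‖(P.p : PadicAlgCl P.p)‖ →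
      (P.p : ℤ) ∣ n := by
  intro y hy n hinv h
  refine Fermat.Agent.S40.P.PeuApproxFrey.dvd_of_copyOfE_p P habc hW hΔ V hC hy n
    (fun σ hσ hσV => hinv σ hσ hσV) ?_
  rwa [map_sub, map_one] at h

/-- ★ **(R5′) for `ApproxRoot`, Frey form, at any place over `p`.** -/
theorem dvd_of_approxRoot_frey (habc : (P.p : ℤ) ∣ P.a * P.b * P.c)
    {W : WeierstrassCurve ℤ} (hW : W.IsIntegralModelOf P.freyCurve) (hΔ : W.Δ ≠ 0)
    {L : ℕ} [NeZero L] {V : Submodule (ZMod P.p) (Jtors L P.p)} (hC : CopyOfE W P.p V)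
    (A : ValuationSubring Qbar) (hA : A.LiesOverPrime P.p) (n : ℤ)
    (h : ApproxRoot P.p A (fixV V) n) : (P.p : ℤ) ∣ n :=
  dvd_of_approxRoot_at (fixV V) (fixV_conj hC.isGalStable) (hR5_fixV P habc hW hΔ hC) A hA n h

/-- ★ **(R4) ∘ (Q) ∘ (R5′), Frey form**: the output of the node identity at a Galois-stable level `K`
(`NodeInv.exists_y_of_node` + `yNode_fixed` verbatim, `π = p`, `𝒜 = lvlVS A K`) gives `p ∣ m`. -/
theorem dvd_of_node_frey (habc : (P.p : ℤ) ∣ P.a * P.b * P.c)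
    {W : WeierstrassCurve ℤ} (hW : W.IsIntegralModelOf P.freyCurve) (hΔ : W.Δ ≠ 0)
    {L : ℕ} [NeZero L] {V : Submodule (ZMod P.p) (Jtors L P.p)} (hC : CopyOfE W P.p V)
    {A : ValuationSubring Qbar} (hA : A.LiesOverPrime P.p)
    (K : IntermediateField ℚ Qbar) (hK : ∀ (τ : Γ) (x : Qbar), x ∈ K → τ x ∈ K)
    (m : ℤ) {y : Lvl K} (hy0 : y ≠ 0)
    (happ : (y ^ P.p / ((P.p : ℕ) : Lvl K) ^ (((P.p - 1 : ℕ) : ℤ) * m) - 1) / ((P.p : ℕ) : Lvl K) ∈
      lvlVS A K)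
    (hfix : ∀ σ ∈ A.inertiaSubgroupIn ℚ, (∀ z ∈ V, galTors L P.p σ z = z) →
      levelAut K hK σ y = y) : (P.p : ℤ) ∣ m :=
  dvd_of_node_at K hK (fixV V) (fixV_conj hC.isGalStable) (hR5_fixV P habc hW hΔ hC) hA m hy0 happ
    hfix

/-- The same at `A := padicPlace P.p`. -/
theorem dvd_of_node_frey_padic (habc : (P.p : ℤ) ∣ P.a * P.b * P.c)
    {W : WeierstrassCurve ℤ} (hW : W.IsIntegralModelOf P.freyCurve) (hΔ : W.Δ ≠ 0)
    {L : ℕ} [NeZero L] {V : Submodule (ZMod P.p) (Jtors L P.p)} (hC : CopyOfE W P.p V)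
    (K : IntermediateField ℚ Qbar) (hK : ∀ (τ : Γ) (x : Qbar), x ∈ K → τ x ∈ K)
    (m : ℤ) {y : Lvl K} (hy0 : y ≠ 0)
    (happ : (y ^ P.p / ((P.p : ℕ) : Lvl K) ^ (((P.p - 1 : ℕ) : ℤ) * m) - 1) / ((P.p : ℕ) : Lvl K) ∈
      lvlVS (padicPlace P.p) K)
    (hfix : ∀ σ ∈ (padicPlace P.p).inertiaSubgroupIn ℚ, (∀ z ∈ V, galTors L P.p σ z = z) →
      levelAut K hK σ y = y) : (P.p : ℤ) ∣ m :=
  dvd_of_node_frey P habc hW hΔ hC (Fermat.Agent.S56.Places.Dict.liesOverPrime_padicPlace P.p) K hK m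
    hy0 happ hfix

end Fermat.Agent.S40.M1.NodeR5
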