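/-
S40, row 65 (T6′ re-design, helper5 #3073 (R4)), abstract leaf (helper19): **the norm of an element of a
"power-basis" algebra whose top power is nilpotent modulo an ideal**.

`B` an `A`-algebra with an `A`-basis `b` (indexed by `Fin n`) consisting of the powers `1, v, …, v^(n-1)`
of one element `v`, and `I` an ideal of `A` such that all coordinates of `v ^ n` lie in `I`
(i.e. `v ^ n ∈ I B`).  Then multiplication by any `W : B` is, modulo `I`, lower triangular in the basis
`b` with constant diagonal `w₀ = b.repr W 0`, so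

  `Algebra.norm A W ≡ w₀ ^ n   (mod I)`.

Use in (R4): `A = 𝒪_{s̃}` (local ring of `X₀(M′)` at the supersingular point), `B = R_s` (the node of
`X₀(pM′)` above it, `n = p + 1`, `v` the branch coordinate), `I = (p, t - t₀)`: the norm of a unit `W`
of the node, evaluated at the section `t₀`, is `≡ W(s) ^ (p + 1)` modulo `p`, for `N_α` and for `N_β`.
Mathlib only.
-/
import Mathlib

set_option autoImplicit false

namespace Fermat.Agent.S40.M1.NormNilp

open Matrix

variable {A B : Type*} [CommRing A] [CommRing B] [Algebra A B]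

variable {n : ℕ} (b : Module.Basis (Fin n) A B) (I : Ideal A)

/-- If all coordinates of `x` lie in `I`, so do those of `x * y`. -/
theorem repr_mul_mem {x : B} (hx : ∀ i, b.repr x i ∈ I) (y : B) (i : Fin n) :
    b.repr (x * y) i ∈ I := by
  classical
  have hxs : x = ∑ j, b.repr x j • b j := (b.sum_repr x).symm
  have h1 : x * y = ∑ j, b.repr x j • (b j * y) := by
    conv_lhs => rw [hxs, Finset.sum_mul]
    exact Finset.sum_congr rfl fun j _ => smul_mul_assoc _ _ _
  rw [h1, map_sum, Finsupp.coe_finsetSum, Finset.sum_apply]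
  refine I.sum_mem fun j _ => ?_
  rw [map_smul, Finsupp.smul_apply, smul_eq_mul]
  exact I.mul_mem_right _ (hx j)

variable (v : B)

/-- Coordinates of `v ^ m`, `m ≥ n`, lie in `I`. -/
theorem repr_pow_mem (hv : ∀ i, b.repr (v ^ n) i ∈ I) {m : ℕ} (hm : n ≤ m) (i : Fin n) :
    b.repr (v ^ m) i ∈ I := by
  obtain ⟨k, rfl⟩ := Nat.exists_eq_add_of_le hm
  rw [pow_add]
  exact repr_mul_mem b I hv _ i

/-- Coordinates of `v ^ m`, `m < n`, in the power basis. -/
theorem repr_pow_lt (hb : ∀ i : Fin n, b i = v ^ (i : ℕ)) {m : ℕ} (hm : m < n) (i : Fin n) :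
    b.repr (v ^ m) i = if (i : ℕ) = m then 1 else 0 := by
  classical
  have : v ^ m = b ⟨m, hm⟩ := (hb ⟨m, hm⟩).symm
  rw [this, b.repr_self, Finsupp.single_apply]
  by_cases h : (i : ℕ) = m
  · have : (⟨m, hm⟩ : Fin n) = i := Fin.ext h.symm
    simp [h, this]
  · have : (⟨m, hm⟩ : Fin n) ≠ i := fun e => h (by rw [← e])
    simp [h, this]

/-- The entries of the matrix of multiplication by `W` in the power basis, modulo `I`:
above the diagonal they vanish, on the diagonal they are the constant coefficient of `W`. -/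
theorem leftMulMatrix_apply_mem (hb : ∀ i : Fin n, b i = v ^ (i : ℕ))
    (hv : ∀ i, b.repr (v ^ n) i ∈ I) (W : B) (i j : Fin n) :
    (i < j → Algebra.leftMulMatrix b W i j ∈ I) ∧
      (i = j → ∀ h0 : 0 < n, Algebra.leftMulMatrix b W i j - b.repr W ⟨0, h0⟩ ∈ I) := by
  classical
  rw [Algebra.leftMulMatrix_eq_repr_mul]
  have hW : W = ∑ k, b.repr W k • b k := (b.sum_repr W).symm
  have h1 : W * b j = ∑ k : Fin n, b.repr W k • v ^ ((k : ℕ) + (j : ℕ)) := by
    conv_lhs => rw [hW, Finset.sum_mul]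
    refine Finset.sum_congr rfl fun k _ => ?_
    rw [smul_mul_assoc, hb k, hb j, pow_add]
  have h2 : b.repr (W * b j) i = ∑ k : Fin n, b.repr W k * b.repr (v ^ ((k : ℕ) + (j : ℕ))) i := by
    rw [h1, map_sum, Finsupp.coe_finsetSum, Finset.sum_apply]
    refine Finset.sum_congr rfl fun k _ => ?_
    rw [map_smul, Finsupp.smul_apply, smul_eq_mul]
  -- each term: either `k + j ≥ n` (in `I`), or `k + j < n` and the coordinate is `δ_{i, k + j}`
  have hterm : ∀ k : Fin n, (i : ℕ) ≠ (k : ℕ) + (j : ℕ) →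
      b.repr W k * b.repr (v ^ ((k : ℕ) + (j : ℕ))) i ∈ I := by
    intro k hne
    by_cases hkj : (k : ℕ) + (j : ℕ) < n
    · rw [repr_pow_lt b v hb hkj, if_neg hne, mul_zero]
      exact I.zero_mem
    · exact I.mul_mem_left _ (repr_pow_mem b I v hv (not_lt.1 hkj) i)
  constructor
  · intro hij
    rw [h2]
    refine I.sum_mem fun k _ => hterm k ?_
    have : (i : ℕ) < (j : ℕ) := hij
    omega
  · rintro rfl h0
    rw [h2, ← Finset.sum_erase_add _ _ (Finset.mem_univ (⟨0, h0⟩ : Fin n))]
    have hz : b.repr W ⟨0, h0⟩ * b.repr (v ^ (((⟨0, h0⟩ : Fin n) : ℕ) + (i : ℕ))) i =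
        b.repr W ⟨0, h0⟩ := by
      have : ((⟨0, h0⟩ : Fin n) : ℕ) + (i : ℕ) = (i : ℕ) := by simp
      rw [this, repr_pow_lt b v hb i.2, if_pos rfl, mul_one]
    rw [hz, add_sub_cancel_right]
    refine I.sum_mem fun k hk => hterm k ?_
    have hk0 : k ≠ ⟨0, h0⟩ := Finset.ne_of_mem_erase hk
    have : (k : ℕ) ≠ 0 := fun e => hk0 (Fin.ext e)
    omega

/-- **Norm modulo `I` in a power basis with nilpotent top power.**  If `b i = v ^ i` is an
`A`-basis of `B` (`i < n`, `0 < n`) and the coordinates of `v ^ n` lie in the ideal `I`, then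
`Algebra.norm A W ≡ (b.repr W 0) ^ n` modulo `I`. -/
theorem norm_sub_pow_mem (hb : ∀ i : Fin n, b i = v ^ (i : ℕ))
    (hv : ∀ i, b.repr (v ^ n) i ∈ I) (h0 : 0 < n) (W : B) :
    Algebra.norm A W - b.repr W ⟨0, h0⟩ ^ n ∈ I := by
  classical
  rw [Algebra.norm_eq_matrix_det b W, ← Ideal.Quotient.eq, RingHom.map_det, map_pow]
  set M : Matrix (Fin n) (Fin n) (A ⧸ I) :=
    (Ideal.Quotient.mk I).mapMatrix (Algebra.leftMulMatrix b W) with hM
  have htri : M.BlockTriangular OrderDual.toDual := by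
    intro i j hij
    have hij' : i < j := hij
    rw [hM, RingHom.mapMatrix_apply, Matrix.map_apply, Ideal.Quotient.eq_zero_iff_mem]
    exact (leftMulMatrix_apply_mem b I v hb hv W i j).1 hij'
  rw [Matrix.det_of_isLowerTriangular M htri]
  have hdiag : ∀ i : Fin n, M i i = Ideal.Quotient.mk I (b.repr W ⟨0, h0⟩) := by
    intro i
    rw [hM, RingHom.mapMatrix_apply, Matrix.map_apply, Ideal.Quotient.eq]
    exact (leftMulMatrix_apply_mem b I v hb hv W i i).2 rfl h0
  rw [Finset.prod_congr rfl fun i _ => hdiag i, Finset.prod_const, Finset.card_univ,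
    Fintype.card_fin]

/-- Unit form: if moreover `W` is a unit of `B`, its norm is a unit of `A`, congruent to the `n`-th
power of the constant coefficient.  (Packaging for the consumer.) -/
theorem exists_norm_eq (hb : ∀ i : Fin n, b i = v ^ (i : ℕ))
    (hv : ∀ i, b.repr (v ^ n) i ∈ I) (h0 : 0 < n) (W : B) :
    ∃ c ∈ I, Algebra.norm A W = b.repr W ⟨0, h0⟩ ^ n + c :=
  ⟨_, norm_sub_pow_mem b I v hb hv h0 W, by ring⟩

end Fermat.Agent.S40.M1.NormNilp
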