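/-
S40 / S44 (row 38), T6′ static route (`moonshots` row 67), block (R4), leaf (E) = (R4a)-VALUES,
FINAL LEVEL WRAPPER (helper2; pieces: helper18 `NormUBase`, helper9 `NormUValSection`, helper4
`NormUValGlue`, helper27 `SmoothPoint`, helper21 `TestPointUp`):
**the block [R4a] of `R4Node.r4_node_abs` / `R4Final.dvd_ord_of_node` at a crossing point of a good
level, with the invariance of `t_A`, `t_B`, from the test sections.**

Binder block = `NormUBase.norm_u_levels` (`K₀` unramified, `K ⊇ K₀` good, `𝔫` a crossing point of the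
finite chart of level `N p` over `O_K` with an honest node `(u₀, v₀, G₀)` over `K₀`),
`u := finIncl u₀`.  Inputs per side (`γ = α` or `β`; shapes = outputs of
`TestPointUp.exists_testPoint_finIncl` at `𝔪' := 𝔫.comap γR`):
a local parameter `z₀` over `K₀` at the point below `𝔪'` (`hz hz2`), the test section `h` of the
level-`N` chart over `O_K` with `centre h = 𝔪'` and `ev h (finIncl z₀) = baseMapIncl c₀`, `p ∣ c₀`.

* `isMaximal_comap_alphaR`, `isMaximal_comap_betaR`, `natCast_mem_comap` : the point of the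
  level-`N` chart over `K₀` below `α(𝔫)`, `β(𝔫)` is closed and contains `p`;
* `r4a_alpha_core`, `r4a_beta_core` : one side, from the unit `ε` of `NormUBase`;
* ★ `r4a_levels` : `hUα hUβ`, `tA tB eA eB` with `htA htB hUαv heA hUβv heB` VERBATIM
  (`π := (p : Lvl K)`, `𝒜 := NodeQbar.lvlVS A K`), and for every `σ ∈ I_A`:
  `levelFF K _ N σ • Qα = Qα → levelAut K _ σ tA = tA` (same for `β`).
-/
import Mathlib
import Fermat.Agent.S40.M1.NormUBase
import Fermat.Agent.S40.M1.NormUValSection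
import Fermat.Agent.S40.M1.NormUValFrob
import Fermat.Agent.S40.M1.NodeGalois
import Fermat.Agent.S40.M1.NodeQbar
import Fermat.Agent.S40.M1.NodeFinite

set_option autoImplicit false
set_option linter.unusedSectionVars false
set_option linter.unusedVariables false
set_option linter.style.haveILetI false
set_option linter.style.longLine false

open ModularCurve Fermat.Agent.S28.Gauss Fermat.Agent.N4.Setting Fermat.Agent.N4.FibreEmbedding
open Fermat.Agent.N4.Chart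
open Fermat.Agent.N4F.E.DegreeLevelRaise Fermat.Agent.N4F.E.GaussDVR AlgebraicCurve Polynomial
open Fermat.Agent.N4F.E IsLocalRing Fermat.Agent.P3G.RbarFin Fermat.Agent.P3G.TwoComponents
open Fermat.Agent.P3G.TwoComponentsFinal Fermat.Agent.P3G Fermat.Agent.P4
open Fermat.Agent.P4.TwistRoots Fermat.Agent.P3G.UCrit
open Fermat.Agent.N4.BaseDescent Fermat.Agent.S19.Cech.LevelBasis
open Fermat.Agent.S40.M1.NodeHonest Fermat.Agent.S40.M1.NodeFactorLevel
open Fermat.Agent.P4.FrobStep Fermat.Agent.S36.R2.ChartMaps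

noncomputable section

namespace Fermat.Agent.S40.M1.NormUValLevel

open Fermat.Agent.N4.S18Glue Fermat.Agent.N4.BigDVR
  Fermat.Agent.P3G.Assembly.StepOfLevel Fermat.Agent.P3G.Assembly.LevelStep
  Fermat.Agent.N4F.C Fermat.Agent.N4F.C.Levels Fermat.Agent.N4F.C.Galois
  Fermat.Agent.S33.L.Contracts Fermat.Agent.N4F.C.ChartFibre
  Fermat.Agent.S36.Descent.UnramLevel Fermat.Agent.P3G.Gamma Fermat.Agent.P3G.GammaAut
  Fermat.Agent.P4.FrobLevelStep
  Fermat.Agent.G.Points Fermat.Agent.S40.M1.NodeInv Fermat.Agent.S40.M1.NodeCore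
  Fermat.Agent.S40.M1.NodeQbar Fermat.Agent.S40.M1.AlphaNodeLevel

local notation "Qbar" => AlgebraicClosure ℚ
local notation "Γ" => (AlgebraicClosure ℚ ≃ₐ[ℚ] AlgebraicClosure ℚ)

attribute [local instance] isNoetherianRing_Rfin isIntegrallyClosed_Rfin isFractionRing_Rfin

/-! ### The points of the level-`N` chart over `K₀` below `α(𝔫)`, `β(𝔫)` -/

section One

variable (K : Type) [Field K] [CharZero K] (N : ℕ) [NeZero N] (ℓ : ℕ) [Fact ℓ.Prime]
  (O : Subring K) [IsDiscreteValuationRing ↥O] [IsFractionRing ↥O K]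
  (ι : K →+* ℂ) (hℓN : ¬ ℓ ∣ N)

include ι hℓN in
theorem isMaximal_comap_alphaR (𝔫 : Ideal ↥(Rfin K (N * ℓ) O)) [𝔫.IsMaximal] :
    (𝔫.comap (LevelIntegrality.alphaR K N ℓ O).toRingHom).IsMaximal :=
  Ideal.isMaximal_comap_of_isIntegral_of_isMaximal' _
    (RingHom.IsIntegral.of_finite (NodeFinite.alphaR_finite K N ℓ O ι hℓN)) 𝔫

include ι hℓN in
theorem isMaximal_comap_betaR (𝔫 : Ideal ↥(Rfin K (N * ℓ) O)) [𝔫.IsMaximal] :
    (𝔫.comap (LevelIntegrality.betaR K N ℓ O).toRingHom).IsMaximal :=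
  Ideal.isMaximal_comap_of_isIntegral_of_isMaximal' _
    (RingHom.IsIntegral.of_finite (NodeFinite.betaR_finite K N ℓ O ι hℓN)) 𝔫

end One

/-! ### Levels `K₀ ≤ K` of `Q̄` -/

variable (N p : ℕ) [NeZero N] [Fact p.Prime] (hpN : ¬ p ∣ N)
  (A : ValuationSubring Qbar) (hA : A.LiesOverPrime p)
  {K₀ K : IntermediateField ℚ Qbar} (hKL : K₀ ≤ K)
  (hK₀ : IsUnramLevel A p K₀) (hK : IsGoodLevel A p K)
  [IsDiscreteValuationRing ↥(baseRing A K₀)] [IsDiscreteValuationRing ↥(baseRing A K)]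
  [CharP (IsLocalRing.ResidueField ↥(baseRing A K₀)) p]
  [PerfectRing (IsLocalRing.ResidueField ↥(baseRing A K₀)) p]
  [CharP (IsLocalRing.ResidueField ↥(baseRing A K)) p]
  [PerfectRing (IsLocalRing.ResidueField ↥(baseRing A K)) p]

section Core

set_option maxHeartbeats 1600000 in
set_option synthInstance.maxHeartbeats 400000 in
include hpN hA hK₀ hK in
/-- **One side of (R4a)**, generic in the chart map `γR = alphaR` or `betaR` (only its commutation
with the change of level is used), exponent `m = p` or `1`. -/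
theorem r4a_core
    (s₀ : Ideal ↥(Rfin (Lvl K₀) N (baseRing A K₀))) [hs₀max : s₀.IsMaximal]
    (hps₀ : ((p : ℕ) : ↥(Rfin (Lvl K₀) N (baseRing A K₀))) ∈ s₀)
    {z₀ : ↥(Rfin (Lvl K₀) N (baseRing A K₀))}
    (hz : th (Lvl K₀) N (baseRing A K₀) z₀ ∈ s₀.map (th (Lvl K₀) N (baseRing A K₀)))
    (hz2 : th (Lvl K₀) N (baseRing A K₀) z₀ ∉ (s₀.map (th (Lvl K₀) N (baseRing A K₀))) ^ 2)
    {Q : Place (Lvl K) (FF (Lvl K) N)}
    {hQ : Function.Bijective (algebraMap (Lvl K) Q.ResidueField)}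
    (h : IsSection (Rfin (Lvl K) N (baseRing A K)) Q hQ)
    (hs₀ : s₀ = (centre h).comap (finIncl A N hKL))
    {c₀ : ↥(baseRing A K₀)} (hev : ev h (finIncl A N hKL z₀) = baseMapIncl A hKL c₀)
    (hc₀ : ((p : ℕ) : ↥(baseRing A K₀)) ∣ c₀)
    {ε : FF (Lvl K₀) N} (hε : IsUnitAt s₀ ε) {c : Lvl K} (hc : c ≠ 0) {Nu : FF (Lvl K) N}
    (hNu : Nu = ffMap (lvlIncl hKL) N ε * algebraMap (Lvl K) (FF (Lvl K) N) c) :
    Q.toValuationSubring.valuation Nu = 1 ∧
      ∃ t e : Lvl K, t ≠ 0 ∧ IsPU (lvlVS A K) ((p : ℕ) : Lvl K) e ∧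
        valT Q hQ Nu = c * t ^ p * e ∧
        ∀ σ ∈ A.inertiaSubgroupIn ℚ, levelFF K hK.stable N σ • Q = Q →
          levelAut K hK.stable σ t = t := by
  have hp : p.Prime := Fact.out
  obtain ⟨hN₀, hprime₀, hsm₀, -, -, -, -⟩ := levelFacts_unram N p hpN A hA K₀ hK₀
  haveI : IsAlgClosed (IsLocalRing.ResidueField ↥(baseRing A K₀)) := hK₀.algClosed
  haveI : s₀.IsPrime := hs₀max.isPrime
  have hm := NormUValFrob.maximalIdeal_eq_span_natCast (Lvl K₀) N (baseRing A K₀) hprime₀ hsm₀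
    hK₀.irred s₀ hps₀ (Localization.AtPrime s₀) hz hz2
  have hfrob : ∀ x : Localization.AtPrime s₀, ∃ y : Localization.AtPrime s₀,
      x - y ^ p ∈ maximalIdeal (Localization.AtPrime s₀) :=
    NormUValFrob.frob_fin (Lvl K₀) N (baseRing A K₀) hK₀.irred s₀
      (by rw [map_natCast]; exact hps₀) (Localization.AtPrime s₀) p
  obtain ⟨c', rfl⟩ := hc₀
  have hψ := NormUValSection.isSectionThrough_finMap (Lvl K₀) (Lvl K) (lvlIncl hKL) N
    (baseRing A K₀) (baseRing A K) (lvlIncl_mem A hKL) h (lvlVS A K)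
    (fun a => algebraMap_baseRing_mem_lvlVS a) s₀ hs₀
  have hzv := NormUValSection.exists_valT_psiLevel_eq_mul (Lvl K₀) (Lvl K) (lvlIncl hKL) N
    (baseRing A K₀) (baseRing A K) (lvlIncl_mem A hKL) h (lvlVS A K)
    (fun a => algebraMap_baseRing_mem_lvlVS a) (p := p) (z₀ := z₀) (c := c') hev rfl
  obtain ⟨hv, t, e, ht, he, hval, hfix⟩ := NormUVal.exists_value_of_isUnitAt
    (Localization.AtPrime s₀) hψ hm hfrob hzv
    (NormUValSection.isUnitAt_psiLevel (Lvl K₀) (Lvl K) (lvlIncl hKL) N (baseRing A K₀) s₀ hε)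
    hc hNu
  refine ⟨hv, t, e, ht, he, hval, fun σ hσ hσQ => ?_⟩
  exact hfix (levelFF K hK.stable N σ) hσQ fun x =>
    Fermat.Agent.S40.M1.NodeGalois.levelFF_smul_ffMap hKL hK.stable N
      (fun y hy => hK₀.fixed σ hσ y hy) _

end Core

/-! ### The block [R4a] at a crossing point -/

section Main

variable (hA2₀ : ∀ x : ↥(gaussSubalgebra (Lvl K₀) N (baseRing A K₀)),
    theta (Lvl K₀) N (baseRing A K₀) x ∈
      modularFunctionFieldFullC (IsLocalRing.ResidueField ↥(baseRing A K₀)) N)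
  (hA2 : ∀ x : ↥(gaussSubalgebra (Lvl K) N (baseRing A K)),
    theta (Lvl K) N (baseRing A K) x ∈
      modularFunctionFieldFullC (IsLocalRing.ResidueField ↥(baseRing A K)) N)
  (S₂ : Fermat.Agent.P3G.FibreTwo.SecondVal (Lvl K) N p (baseRing A K))

set_option maxHeartbeats 1600000 in
set_option synthInstance.maxHeartbeats 400000 in
include hpN hA hK₀ hK hA2₀ hA2 in
/-- The point `𝔫₀ = 𝔫 ∩ Rfin_{K₀}` of the level-`N p` chart over `K₀` below a crossing point with an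
honest node is closed and contains `p`. -/
theorem isMaximal_and_natCast_mem
    {𝔫 : Ideal ↥(Rfin (Lvl K) (N * p) (baseRing A K))} [h𝔫 : 𝔫.IsMaximal]
    {u₀ v₀ G₀ : ↥(Rfin (Lvl K₀) (N * p) (baseRing A K₀))}
    (hn : HonestNode (Lvl K₀) (Lvl K) N p (baseRing A K₀) (baseRing A K) (lvlIncl hKL)
      (lvlIncl_mem A hKL) S₂ 𝔫 u₀ v₀ G₀)
    (ht₁ : Through (gaussVS (Lvl K) (N * p) (baseRing A K)) 𝔫) (ht₂ : Through S₂.V 𝔫) :
    (𝔫.comap (finIncl A (N * p) hKL)).IsMaximal ∧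
      ((p : ℕ) : ↥(Rfin (Lvl K₀) (N * p) (baseRing A K₀))) ∈ 𝔫.comap (finIncl A (N * p) hKL) := by
  obtain ⟨hN₀, hprime₀, hsm₀, -, -, -, -⟩ := levelFacts_unram N p hpN A hA K₀ hK₀
  obtain ⟨T₂⟩ := Fermat.Agent.P3G.FibreTwo.nonempty_secondVal (Lvl K₀) N p (baseRing A K₀)
    (Fermat.Agent.P3G.GammaV2.lvlToComplex K₀) hpN hprime₀ hA2₀
  have hb := base_levels N p hpN A hA hKL hK₀ hK hA2₀ hA2 T₂ S₂ hn ht₁ ht₂
  refine ⟨hb.isMaximal, ?_⟩
  haveI := hb.isMaximal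
  have h1 : G₀ * ((p : ℕ) : ↥(Rfin (Lvl K₀) (N * p) (baseRing A K₀))) ∈
      𝔫.comap (finIncl A (N * p) hKL) := by
    rw [← hb.mul_eq]
    exact Ideal.mul_mem_right _ _ hb.mem_u
  exact ((Ideal.IsMaximal.isPrime hb.isMaximal).mem_or_mem h1).resolve_left hb.unit_G

set_option maxHeartbeats 1600000 in
set_option synthInstance.maxHeartbeats 400000 in
include hpN hA hK₀ hK hA2₀ hA2 in
/-- ★ **The block [R4a] of `R4Node.r4_node_abs` at a crossing point of a good level, with the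
invariance of `t_A`, `t_B`.**  `K₀` unramified, `K ⊇ K₀` good, `𝔫` a crossing point with an honest
node `(u₀, v₀, G₀)` over `K₀`, `u = finIncl u₀`; `zα₀`, `zβ₀` local parameters over `K₀` at the points
below `α(𝔫)`, `β(𝔫)`; `hα`, `hβ` test sections of the level-`N` chart over `O_K` through `α(𝔫)`,
`β(𝔫)` with `zα₀(Qα), zβ₀(Qβ) ∈ p O_{K₀}` (shapes of `TestPointUp.exists_testPoint_finIncl`). -/
theorem r4a_levels
    {𝔫 : Ideal ↥(Rfin (Lvl K) (N * p) (baseRing A K))} [h𝔫 : 𝔫.IsMaximal]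
    {u₀ v₀ G₀ : ↥(Rfin (Lvl K₀) (N * p) (baseRing A K₀))}
    (hn : HonestNode (Lvl K₀) (Lvl K) N p (baseRing A K₀) (baseRing A K) (lvlIncl hKL)
      (lvlIncl_mem A hKL) S₂ 𝔫 u₀ v₀ G₀)
    (ht₁ : Through (gaussVS (Lvl K) (N * p) (baseRing A K)) 𝔫) (ht₂ : Through S₂.V 𝔫)
    -- the α-side
    {zα₀ : ↥(Rfin (Lvl K₀) N (baseRing A K₀))}
    (hzα : th (Lvl K₀) N (baseRing A K₀) zα₀ ∈
      ((𝔫.comap (LevelIntegrality.alphaR (Lvl K) N p (baseRing A K)).toRingHom).comap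
        (finIncl A N hKL)).map (th (Lvl K₀) N (baseRing A K₀)))
    (hzα2 : th (Lvl K₀) N (baseRing A K₀) zα₀ ∉
      (((𝔫.comap (LevelIntegrality.alphaR (Lvl K) N p (baseRing A K)).toRingHom).comap
        (finIncl A N hKL)).map (th (Lvl K₀) N (baseRing A K₀))) ^ 2)
    {Qα : Place (Lvl K) (FF (Lvl K) N)}
    {hQα : Function.Bijective (algebraMap (Lvl K) Qα.ResidueField)}
    (hα : IsSection (Rfin (Lvl K) N (baseRing A K)) Qα hQα)
    (hcα : centre hα = 𝔫.comap (LevelIntegrality.alphaR (Lvl K) N p (baseRing A K)).toRingHom)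
    {cα₀ : ↥(baseRing A K₀)} (hevα : ev hα (finIncl A N hKL zα₀) = baseMapIncl A hKL cα₀)
    (hcα₀ : ((p : ℕ) : ↥(baseRing A K₀)) ∣ cα₀)
    -- the β-side
    {zβ₀ : ↥(Rfin (Lvl K₀) N (baseRing A K₀))}
    (hzβ : th (Lvl K₀) N (baseRing A K₀) zβ₀ ∈
      ((𝔫.comap (LevelIntegrality.betaR (Lvl K) N p (baseRing A K)).toRingHom).comap
        (finIncl A N hKL)).map (th (Lvl K₀) N (baseRing A K₀)))
    (hzβ2 : th (Lvl K₀) N (baseRing A K₀) zβ₀ ∉
      (((𝔫.comap (LevelIntegrality.betaR (Lvl K) N p (baseRing A K)).toRingHom).comap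
        (finIncl A N hKL)).map (th (Lvl K₀) N (baseRing A K₀))) ^ 2)
    {Qβ : Place (Lvl K) (FF (Lvl K) N)}
    {hQβ : Function.Bijective (algebraMap (Lvl K) Qβ.ResidueField)}
    (hβ : IsSection (Rfin (Lvl K) N (baseRing A K)) Qβ hQβ)
    (hcβ : centre hβ = 𝔫.comap (LevelIntegrality.betaR (Lvl K) N p (baseRing A K)).toRingHom)
    {cβ₀ : ↥(baseRing A K₀)} (hevβ : ev hβ (finIncl A N hKL zβ₀) = baseMapIncl A hKL cβ₀)
    (hcβ₀ : ((p : ℕ) : ↥(baseRing A K₀)) ∣ cβ₀) :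
    Qα.toValuationSubring.valuation (normAlphaK K N p
      ((finIncl A (N * p) hKL u₀ : ↥(Rfin (Lvl K) (N * p) (baseRing A K))) :
        FF (Lvl K) (N * p))) = 1 ∧
    Qβ.toValuationSubring.valuation (normBetaK K N p
      ((finIncl A (N * p) hKL u₀ : ↥(Rfin (Lvl K) (N * p) (baseRing A K))) :
        FF (Lvl K) (N * p))) = 1 ∧
    ∃ tA tB eA eB : Lvl K, tA ≠ 0 ∧ tB ≠ 0 ∧
      valT Qα hQα (normAlphaK K N p
        ((finIncl A (N * p) hKL u₀ : ↥(Rfin (Lvl K) (N * p) (baseRing A K))) :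
          FF (Lvl K) (N * p))) = ((p : ℕ) : Lvl K) ^ p * tA ^ p * eA ∧
      IsPU (lvlVS A K) ((p : ℕ) : Lvl K) eA ∧
      valT Qβ hQβ (normBetaK K N p
        ((finIncl A (N * p) hKL u₀ : ↥(Rfin (Lvl K) (N * p) (baseRing A K))) :
          FF (Lvl K) (N * p))) = ((p : ℕ) : Lvl K) * tB ^ p * eB ∧
      IsPU (lvlVS A K) ((p : ℕ) : Lvl K) eB ∧
      (∀ σ ∈ A.inertiaSubgroupIn ℚ, levelFF K hK.stable N σ • Qα = Qα →
        levelAut K hK.stable σ tA = tA) ∧
      (∀ σ ∈ A.inertiaSubgroupIn ℚ, levelFF K hK.stable N σ • Qβ = Qβ →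
        levelAut K hK.stable σ tB = tB) := by
  have hp : p.Prime := Fact.out
  have hp0 : ((p : ℕ) : Lvl K) ≠ 0 := natCast_ne_zero_lvl hp.ne_zero
  obtain ⟨hmax₀, hp₀⟩ := isMaximal_and_natCast_mem N p hpN A hA hKL hK₀ hK hA2₀ hA2 S₂ hn ht₁ ht₂
  haveI := hmax₀
  obtain ⟨εα, εβ, hεα, hεβ, -, -, -, -, -, -, hNα, hNβ⟩ :=
    NormUBase.norm_u_levels N p hpN A hA hKL hK₀ hK hA2₀ hA2 S₂ hn ht₁ ht₂
  -- the two points of the level-`N` chart over `K₀`
  have hsα : (𝔫.comap (finIncl A (N * p) hKL)).comap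
      (LevelIntegrality.alphaR (Lvl K₀) N p (baseRing A K₀)).toRingHom =
      (𝔫.comap (LevelIntegrality.alphaR (Lvl K) N p (baseRing A K)).toRingHom).comap
        (finIncl A N hKL) :=
    (SmoothPoint.comap_alphaR_comap_finMap (Lvl K₀) (Lvl K) (lvlIncl hKL) N (baseRing A K₀)
      (baseRing A K) (lvlIncl_mem A hKL) p 𝔫).symm
  have hsβ : (𝔫.comap (finIncl A (N * p) hKL)).comap
      (LevelIntegrality.betaR (Lvl K₀) N p (baseRing A K₀)).toRingHom =
      (𝔫.comap (LevelIntegrality.betaR (Lvl K) N p (baseRing A K)).toRingHom).comap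
        (finIncl A N hKL) :=
    (SmoothPoint.comap_betaR_comap_finMap (Lvl K₀) (Lvl K) (lvlIncl hKL) N (baseRing A K₀)
      (baseRing A K) (lvlIncl_mem A hKL) p 𝔫).symm
  haveI hmα : ((𝔫.comap (finIncl A (N * p) hKL)).comap
      (LevelIntegrality.alphaR (Lvl K₀) N p (baseRing A K₀)).toRingHom).IsMaximal :=
    isMaximal_comap_alphaR (Lvl K₀) N p (baseRing A K₀)
      (Fermat.Agent.P3G.GammaV2.lvlToComplex K₀) hpN _
  haveI hmβ : ((𝔫.comap (finIncl A (N * p) hKL)).comap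
      (LevelIntegrality.betaR (Lvl K₀) N p (baseRing A K₀)).toRingHom).IsMaximal :=
    isMaximal_comap_betaR (Lvl K₀) N p (baseRing A K₀)
      (Fermat.Agent.P3G.GammaV2.lvlToComplex K₀) hpN _
  have hpα : ((p : ℕ) : ↥(Rfin (Lvl K₀) N (baseRing A K₀))) ∈
      (𝔫.comap (finIncl A (N * p) hKL)).comap
        (LevelIntegrality.alphaR (Lvl K₀) N p (baseRing A K₀)).toRingHom := by
    rw [Ideal.mem_comap, map_natCast]; exact hp₀
  have hpβ : ((p : ℕ) : ↥(Rfin (Lvl K₀) N (baseRing A K₀))) ∈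
      (𝔫.comap (finIncl A (N * p) hKL)).comap
        (LevelIntegrality.betaR (Lvl K₀) N p (baseRing A K₀)).toRingHom := by
    rw [Ideal.mem_comap, map_natCast]; exact hp₀
  obtain ⟨hUα, tA, eA, htA, heA, hvA, hfixA⟩ := r4a_core N p hpN A hA hKL hK₀ hK
    ((𝔫.comap (finIncl A (N * p) hKL)).comap
      (LevelIntegrality.alphaR (Lvl K₀) N p (baseRing A K₀)).toRingHom) hpα
    (by rw [hsα]; exact hzα) (by rw [hsα]; exact hzα2) hα (by rw [hcα]; exact hsα) hevα hcα₀ hεα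
    (pow_ne_zero p hp0) (by rw [map_pow, map_natCast])
  obtain ⟨hUβ, tB, eB, htB, heB, hvB, hfixB⟩ := r4a_core N p hpN A hA hKL hK₀ hK
    ((𝔫.comap (finIncl A (N * p) hKL)).comap
      (LevelIntegrality.betaR (Lvl K₀) N p (baseRing A K₀)).toRingHom) hpβ
    (by rw [hsβ]; exact hzβ) (by rw [hsβ]; exact hzβ2) hβ (by rw [hcβ]; exact hsβ) hevβ hcβ₀ hεβ
    hp0 (by rw [map_natCast])
  rw [← hNα] at hUα hvA
  rw [← hNβ] at hUβ hvB
  exact ⟨hUα, hUβ, tA, tB, eA, eB, htA, htB, hvA, heA, hvB, heB, hfixA, hfixB⟩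

end Main

end Fermat.Agent.S40.M1.NormUValLevel
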