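/-
S40 / T6′ (R4), M1-THICK support (helper22): **normal base change along a totally ramified
extension when the special fibre is only REDUCED (not integral)**.  Mathlib only.

Mathlib's `mem_adjoin_of_smul_prime_pow_smul_of_minpoly_isEisensteinAt` needs `Prime p` in the base
ring.  For the charts of `X₀(pM)` over an unramified base `O₀` the element `p` is not prime (two
components), but `(p)` is a RADICAL ideal.  That is enough:

* `R₀` a commutative ring, `F` a domain over `R₀`, `ϖ ∈ F`, `S := R₀[ϖ] ⊆ F`;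
* `(p)` radical in `R₀`, `p = η ϖ ^ e` in `S` with `η ∈ Sˣ`, `0 < e`, and `ϖ S ∩ R₀ ⊆ p R₀`
  (so `S / ϖ S = R₀ / p R₀` is reduced, i.e. `ϖ S` is a radical ideal of `S`);
then an element `z` integral over `S` with `p ^ k z ∈ S` for some `k` lies in `S`
(`mem_adjoin_of_isIntegral_of_pow_mul_mem`).  With the discriminant bound
(`Algebra.discr_mul_isIntegral_mem_adjoin`) this gives: `R₀[ϖ]` is the integral closure of `R₀` in
`F₀(ϖ)` as soon as the discriminant of `1, ϖ, …, ϖ ^ (e-1)` is a unit times a power of `p`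
(`mem_adjoin_of_isIntegral_of_discr`).

Intended use: `R₀ = chartAlg O₀ F_{K₀} {j}` at an UNRAMIFIED level `K₀`, `O = O₀[ϖ]` the base ring of a
level `K ⊇ K₀` totally ramified at the chosen place: then `chartAlg O F_K {j} = R₀[ϖ]`, so the local
rings of the normal model over `O` at the supersingular nodes are the honest base changes
`O ⊗ (O₀[u, v]/(u v - G p))`, free over the local ring of the `α`-image with basis `1, v, …, v ^ p`.
-/
import Mathlib

set_option autoImplicit false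
set_option linter.unusedSectionVars false

open Polynomial

namespace Fermat.Agent.S40.M1.NormalBaseChange

section Core

variable {R₀ : Type*} [CommRing R₀] {F : Type*} [CommRing F] [Algebra R₀ F]
variable (ϖ : F)

/-- Every element of `R₀[ϖ]` is `r + ϖ s'` with `r ∈ R₀`, `s' ∈ R₀[ϖ]`. -/
theorem exists_eq_algebraMap_add_mul {s : F} (hs : s ∈ Algebra.adjoin R₀ ({ϖ} : Set F)) :
    ∃ (r : R₀) (s' : F), s' ∈ Algebra.adjoin R₀ ({ϖ} : Set F) ∧
      s = algebraMap R₀ F r + ϖ * s' := by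
  rw [Algebra.adjoin_singleton_eq_range_aeval, AlgHom.mem_range] at hs
  obtain ⟨P, rfl⟩ := hs
  refine ⟨P.coeff 0, aeval ϖ P.divX, ?_, ?_⟩
  · rw [Algebra.adjoin_singleton_eq_range_aeval, AlgHom.mem_range]
    exact ⟨_, rfl⟩
  · conv_lhs => rw [← Polynomial.divX_mul_X_add P]
    rw [map_add, map_mul, aeval_X, aeval_C]
    ring

theorem self_mem_adjoin : ϖ ∈ Algebra.adjoin R₀ ({ϖ} : Set F) :=
  Algebra.subset_adjoin (Set.mem_singleton ϖ)

/-- `(r + ϖ s') ^ m = r ^ m + ϖ q` with `q ∈ R₀[ϖ]`. -/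
theorem exists_pow_eq_add_mul {a s' : F} (ha : a ∈ Algebra.adjoin R₀ ({ϖ} : Set F))
    (hs' : s' ∈ Algebra.adjoin R₀ ({ϖ} : Set F)) (m : ℕ) :
    ∃ q ∈ Algebra.adjoin R₀ ({ϖ} : Set F), (a + ϖ * s') ^ m = a ^ m + ϖ * q := by
  induction m with
  | zero => exact ⟨0, zero_mem _, by simp⟩
  | succ m ih =>
    obtain ⟨q, hq, hqm⟩ := ih
    refine ⟨a ^ m * s' + q * a + ϖ * (q * s'), ?_, ?_⟩
    · exact add_mem (add_mem (mul_mem (pow_mem ha m) hs') (mul_mem hq ha))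
        (mul_mem (self_mem_adjoin ϖ) (mul_mem hq hs'))
    · rw [pow_succ, hqm]
      ring

variable (p : R₀)

/-- **`ϖ S` is a radical ideal of `S = R₀[ϖ]`** when `(p)` is radical in `R₀`, `p ∈ ϖ S` and
`ϖ S ∩ R₀ ⊆ p R₀`. -/
theorem mem_mul_of_pow_mem (hrad : (Ideal.span ({p} : Set R₀)).IsRadical)
    (hp : ∃ c ∈ Algebra.adjoin R₀ ({ϖ} : Set F), algebraMap R₀ F p = ϖ * c)
    (hcontr : ∀ r : R₀, (∃ s ∈ Algebra.adjoin R₀ ({ϖ} : Set F), algebraMap R₀ F r = ϖ * s) →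
      p ∣ r)
    {s : F} (hs : s ∈ Algebra.adjoin R₀ ({ϖ} : Set F)) {m : ℕ}
    (hm : ∃ t ∈ Algebra.adjoin R₀ ({ϖ} : Set F), s ^ m = ϖ * t) :
    ∃ t ∈ Algebra.adjoin R₀ ({ϖ} : Set F), s = ϖ * t := by
  obtain ⟨r, s', hs', rfl⟩ := exists_eq_algebraMap_add_mul ϖ hs
  obtain ⟨t, ht, htm⟩ := hm
  obtain ⟨q, hq, hqm⟩ := exists_pow_eq_add_mul ϖ
    (Subalgebra.algebraMap_mem (Algebra.adjoin R₀ ({ϖ} : Set F)) r) hs' m
  -- `r ^ m ∈ ϖ S ∩ R₀`
  have h1 : algebraMap R₀ F (r ^ m) = ϖ * (t - q) := by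
    rw [map_pow, mul_sub, ← htm, hqm]
    ring
  have h2 : p ∣ r ^ m := hcontr _ ⟨t - q, sub_mem ht hq, h1⟩
  have h3 : r ∈ Ideal.span ({p} : Set R₀) :=
    hrad ⟨m, Ideal.mem_span_singleton.2 h2⟩
  obtain ⟨d, rfl⟩ := Ideal.mem_span_singleton.1 h3
  obtain ⟨c, hc, hpc⟩ := hp
  refine ⟨c * algebraMap R₀ F d + s', add_mem (mul_mem hc (Subalgebra.algebraMap_mem _ d)) hs', ?_⟩
  rw [map_mul, hpc]
  ring

variable [IsDomain F]

/-- **One step of the descent**: `z` integral over `S = R₀[ϖ]` and `ϖ z ∈ S` imply `z ∈ S`. -/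
theorem mem_of_mul_mem_of_isIntegral (hϖ : ϖ ≠ 0)
    (hrad : (Ideal.span ({p} : Set R₀)).IsRadical)
    (hp : ∃ c ∈ Algebra.adjoin R₀ ({ϖ} : Set F), algebraMap R₀ F p = ϖ * c)
    (hcontr : ∀ r : R₀, (∃ s ∈ Algebra.adjoin R₀ ({ϖ} : Set F), algebraMap R₀ F r = ϖ * s) →
      p ∣ r)
    {z : F} (hz : IsIntegral (Algebra.adjoin R₀ ({ϖ} : Set F)) z)
    (h : ϖ * z ∈ Algebra.adjoin R₀ ({ϖ} : Set F)) : z ∈ Algebra.adjoin R₀ ({ϖ} : Set F) := by
  classical
  set S := Algebra.adjoin R₀ ({ϖ} : Set F) with hS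
  obtain ⟨P, hPm, hP0⟩ := hz
  set ϖS : S := ⟨ϖ, self_mem_adjoin ϖ⟩ with hϖS
  set y : F := ϖ * z with hy
  -- the scaled polynomial has root `y`
  have hQ0 : eval₂ (algebraMap S F) y (P.scaleRoots ϖS) = 0 := by
    have := Polynomial.scaleRoots_eval₂_mul (p := P) (algebraMap S F) z ϖS
    rw [hP0, mul_zero] at this
    exact this
  have hQm : (P.scaleRoots ϖS).Monic := (Polynomial.monic_scaleRoots_iff ϖS).2 hPm
  have hdeg : (P.scaleRoots ϖS).natDegree = P.natDegree := Polynomial.natDegree_scaleRoots P ϖS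
  -- `y ^ m ∈ ϖ S`
  have hpos : 0 < P.natDegree := by
    rcases Nat.eq_zero_or_pos P.natDegree with h0 | h0
    · exfalso
      have hP1 : P = 1 := by
        have := Polynomial.eq_C_of_natDegree_eq_zero h0
        rw [this, ← h0, ← Polynomial.leadingCoeff, hPm.leadingCoeff, map_one]
      rw [hP1, eval₂_one] at hP0
      exact one_ne_zero hP0
    · exact h0
  have hsum : y ^ P.natDegree =
      ϖ * (-∑ i ∈ Finset.range P.natDegree,
        ((P.coeff i : S) : F) * ϖ ^ (P.natDegree - i - 1) * y ^ i) := by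
    have h1 := hQ0
    rw [hQm.as_sum, eval₂_add, eval₂_pow, eval₂_X, eval₂_finsetSum, hdeg] at h1
    have h2 : y ^ P.natDegree = -∑ i ∈ Finset.range P.natDegree,
        eval₂ (algebraMap S F) y (C ((P.scaleRoots ϖS).coeff i) * X ^ i) :=
      eq_neg_of_add_eq_zero_left h1
    rw [h2, mul_neg, Finset.mul_sum]
    congr 1
    refine Finset.sum_congr rfl fun i hi => ?_
    have hi' : i < P.natDegree := Finset.mem_range.1 hi
    rw [eval₂_mul, eval₂_C, eval₂_pow, eval₂_X, Polynomial.coeff_scaleRoots]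
    have e1 : ϖ ^ (P.natDegree - i) = ϖ ^ (P.natDegree - i - 1) * ϖ := by
      rw [← pow_succ]
      congr 1
      omega
    simp only [map_mul, map_pow]
    have e2 : algebraMap S F ϖS = ϖ := rfl
    have e3 : algebraMap S F (P.coeff i) = ((P.coeff i : S) : F) := rfl
    rw [e2, e3, e1]
    ring
  have hyS : y ∈ S := h
  have hmem : ∃ t ∈ S, y ^ P.natDegree = ϖ * t := by
    refine ⟨_, ?_, hsum⟩
    refine neg_mem (sum_mem fun i _ => ?_)
    exact mul_mem (mul_mem (P.coeff i).2 (pow_mem (self_mem_adjoin ϖ) _)) (pow_mem hyS i)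
  obtain ⟨t, ht, hyt⟩ := mem_mul_of_pow_mem ϖ p hrad hp hcontr hyS hmem
  have : z = t := mul_left_cancel₀ hϖ (hy.symm.trans hyt)
  rw [this]
  exact ht

/-- **Descent**: `z` integral over `S = R₀[ϖ]` and `ϖ ^ n z ∈ S` imply `z ∈ S`. -/
theorem mem_of_pow_mul_mem_of_isIntegral (hϖ : ϖ ≠ 0)
    (hrad : (Ideal.span ({p} : Set R₀)).IsRadical)
    (hp : ∃ c ∈ Algebra.adjoin R₀ ({ϖ} : Set F), algebraMap R₀ F p = ϖ * c)
    (hcontr : ∀ r : R₀, (∃ s ∈ Algebra.adjoin R₀ ({ϖ} : Set F), algebraMap R₀ F r = ϖ * s) →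
      p ∣ r)
    {z : F} (hz : IsIntegral (Algebra.adjoin R₀ ({ϖ} : Set F)) z) (n : ℕ)
    (h : ϖ ^ n * z ∈ Algebra.adjoin R₀ ({ϖ} : Set F)) : z ∈ Algebra.adjoin R₀ ({ϖ} : Set F) := by
  induction n with
  | zero => simpa using h
  | succ n ih =>
    apply ih
    have hϖint : IsIntegral (Algebra.adjoin R₀ ({ϖ} : Set F)) (ϖ ^ n) :=
      isIntegral_algebraMap (R := Algebra.adjoin R₀ ({ϖ} : Set F)) (A := F)
        (x := ⟨ϖ ^ n, pow_mem (self_mem_adjoin ϖ) n⟩)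
    refine mem_of_mul_mem_of_isIntegral ϖ p hϖ hrad hp hcontr (hϖint.mul hz) ?_
    rw [← mul_assoc, ← pow_succ']
    exact h

/-- **Normal base change, core form.**  `S = R₀[ϖ]`, `(p)` radical in `R₀`, `p = η ϖ ^ e` with
`η` a unit of `S`, `0 < e`, `ϖ S ∩ R₀ ⊆ p R₀`.  If `z` is integral over `S` and `p ^ k z ∈ S`, then
`z ∈ S`. -/
theorem mem_adjoin_of_isIntegral_of_pow_mul_mem (hϖ : ϖ ≠ 0)
    (hrad : (Ideal.span ({p} : Set R₀)).IsRadical) {e : ℕ} (he : 0 < e) {η η' : F}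
    (hη : η ∈ Algebra.adjoin R₀ ({ϖ} : Set F)) (hη' : η' ∈ Algebra.adjoin R₀ ({ϖ} : Set F))
    (hηη' : η * η' = 1) (hpe : algebraMap R₀ F p = η * ϖ ^ e)
    (hcontr : ∀ r : R₀, (∃ s ∈ Algebra.adjoin R₀ ({ϖ} : Set F), algebraMap R₀ F r = ϖ * s) →
      p ∣ r)
    {z : F} (hz : IsIntegral (Algebra.adjoin R₀ ({ϖ} : Set F)) z) (k : ℕ)
    (h : algebraMap R₀ F p ^ k * z ∈ Algebra.adjoin R₀ ({ϖ} : Set F)) :
    z ∈ Algebra.adjoin R₀ ({ϖ} : Set F) := by
  have hp : ∃ c ∈ Algebra.adjoin R₀ ({ϖ} : Set F), algebraMap R₀ F p = ϖ * c := by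
    refine ⟨η * ϖ ^ (e - 1), mul_mem hη (pow_mem (self_mem_adjoin ϖ) _), ?_⟩
    rw [hpe]
    obtain ⟨e', rfl⟩ : ∃ e', e = e' + 1 := ⟨e - 1, by omega⟩
    rw [Nat.add_sub_cancel, pow_succ]
    ring
  refine mem_of_pow_mul_mem_of_isIntegral ϖ p hϖ hrad hp hcontr hz (e * k) ?_
  have h1 : ϖ ^ (e * k) * z = η' ^ k * (algebraMap R₀ F p ^ k * z) := by
    rw [hpe, mul_pow, ← pow_mul, ← mul_assoc, ← mul_assoc, ← mul_pow, mul_comm η' η, hηη', one_pow,
      one_mul]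
  rw [h1]
  exact mul_mem (pow_mem hη' k) h

end Core

section Discr

variable {R₀ : Type*} [CommRing R₀] [IsDomain R₀] [IsIntegrallyClosed R₀]
variable {F₀ : Type*} [Field F₀] [Algebra R₀ F₀] [IsFractionRing R₀ F₀]
variable {F : Type*} [Field F] [Algebra F₀ F] [Algebra R₀ F] [IsScalarTower R₀ F₀ F]
variable [Algebra.IsSeparable F₀ F]

/-- **Normal base change, discriminant form.**  `F = F₀(ϖ)` with power basis `B`, `ϖ = B.gen`
integral over the integrally closed `R₀`, discriminant of `B` a unit times a power of `p`, `(p)`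
radical in `R₀`, `p = η ϖ ^ e` in `S = R₀[ϖ]` with `η ∈ Sˣ`, `ϖ S ∩ R₀ ⊆ p R₀`.  Then `S` is the
integral closure of `R₀` in `F`. -/
theorem mem_adjoin_of_isIntegral_of_discr (B : PowerBasis F₀ F) (hBint : IsIntegral R₀ B.gen)
    (hgen0 : B.gen ≠ 0)
    (p : R₀) (hrad : (Ideal.span ({p} : Set R₀)).IsRadical)
    {k : ℕ} {w : R₀} (hw : IsUnit w)
    (hdisc : Algebra.discr F₀ B.basis = algebraMap R₀ F₀ (w * p ^ k))
    {e : ℕ} (he : 0 < e) {η η' : F}
    (hη : η ∈ Algebra.adjoin R₀ ({B.gen} : Set F)) (hη' : η' ∈ Algebra.adjoin R₀ ({B.gen} : Set F))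
    (hηη' : η * η' = 1) (hpe : algebraMap R₀ F p = η * B.gen ^ e)
    (hcontr : ∀ r : R₀, (∃ s ∈ Algebra.adjoin R₀ ({B.gen} : Set F),
      algebraMap R₀ F r = B.gen * s) → p ∣ r)
    {z : F} (hz : IsIntegral R₀ z) : z ∈ Algebra.adjoin R₀ ({B.gen} : Set F) := by
  have : Module.Finite F₀ F := B.finite
  have hS : IsIntegral (Algebra.adjoin R₀ ({B.gen} : Set F)) z := hz.tower_top
  have h1 : Algebra.discr F₀ B.basis • z ∈ Algebra.adjoin R₀ ({B.gen} : Set F) :=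
    Algebra.discr_mul_isIntegral_mem_adjoin F₀ hBint hz
  obtain ⟨w', hw'⟩ := hw.exists_left_inv
  refine mem_adjoin_of_isIntegral_of_pow_mul_mem B.gen p hgen0 hrad he hη hη' hηη' hpe hcontr hS k ?_
  have h2 : algebraMap R₀ F p ^ k * z =
      algebraMap R₀ F w' * (Algebra.discr F₀ B.basis • z) := by
    rw [hdisc, Algebra.smul_def, ← IsScalarTower.algebraMap_apply R₀ F₀ F, ← mul_assoc, ← map_mul,
      ← mul_assoc, hw', one_mul, map_pow]
  rw [h2]
  exact mul_mem (Subalgebra.algebraMap_mem _ w') h1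

end Discr

end Fermat.Agent.S40.M1.NormalBaseChange
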