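/-
S40 / row 67, leaf (NRM), consumer form (helper12): **the named leaf `Main.NrmLeaf` of
`S40/M1/Main.t6Out_normT6`** (helper23), from `M1/Normalise.exists_normalise`.
-/
import Mathlib
import Fermat.Agent.S40.M1.Normalise
import Fermat.Agent.S40.M1.Main

set_option autoImplicit false
set_option linter.unusedSectionVars false
set_option linter.unusedVariables false
set_option linter.style.haveILetI false
set_option linter.style.longLine false
set_option synthInstance.maxHeartbeats 400000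
set_option maxHeartbeats 800000

open ModularCurve AlgebraicCurve IntermediateField

noncomputable section

namespace Fermat.Agent.S40.M1.NrmLeaf

open Fermat.Agent.N4.Setting Fermat.Agent.N4.BigDVR Fermat.Agent.P3G.Assembly.LevelStep
  Fermat.Agent.N4F.C Fermat.Agent.N4F.C.Levels Fermat.Agent.N4F.C.Galois
  Fermat.Agent.N4F.E.GaussDVR Fermat.Agent.P4.FrobLevelStep

local notation "Qbar" => AlgebraicClosure ℚ

/-- ★ **(NRM) = `Main.NrmLeaf`, verbatim.** -/
theorem nrmLeaf (M p : ℕ) [NeZero M] [NeZero p] [Fact p.Prime] (hpM : ¬ p ∣ M)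
    (A : ValuationSubring Qbar) : Fermat.Agent.S40.M1.Main.NrmLeaf M p A := by
  intro K hK _ S₂ f hf hα hβ
  haveI := Fermat.Agent.S40.M1.NormValLevel.charP_goodLevel M p hpM A K hK
  haveI : IsDiscreteValuationRing ↥(Fermat.Agent.P3G.SecondValBridge.ofTwo S₂).V :=
    Fermat.Agent.S36.V.CountAlong.isDiscreteValuationRing_secondVal
      (Fermat.Agent.P3G.GammaV2.lvlToComplex K) hpM (Fermat.Agent.P3G.SecondValBridge.ofTwo S₂)
  obtain ⟨ϖ, hϖ⟩ := IsDiscreteValuationRing.exists_irreducible ↥(baseRing A K)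
  obtain ⟨h, hh0, hv₁, hv₂, -, -⟩ :=
    Fermat.Agent.S40.M1.Normalise.exists_normalise (Lvl K) M p (baseRing A K)
      (Fermat.Agent.P3G.SecondValBridge.ofTwo S₂) (Fermat.Agent.P3G.GammaV2.lvlToComplex K) hpM hϖ
      hf hα hβ
  have e : f / h⁻¹ ^ p = f * h ^ p := by
    rw [div_eq_mul_inv, inv_pow, inv_inv]
  refine ⟨h⁻¹, inv_ne_zero hh0, ?_, ?_⟩
  · rw [e]
    exact hv₁
  · rw [e]
    exact hv₂

end Fermat.Agent.S40.M1.NrmLeaf
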