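/-
S40 / S44 (row 38), block [M1]/T6′, leaf **AUX3 / R4-F (F4)** (helper9; dispatch #3178 (c),
#3207 (2), #3222 (3)): **the residue order at a supersingular place; places above along a change
of level.**

Level `(K, O)` (binder block of `S40/W/F4Level`, `F4Place`, `F4Node`), `s` a place of `FF κ N` on
the finite chart (`jF κ N ∈ s`), `centreFin s hj` its centre on the chart of level `N ℓ`
(helper26, `S40/W/F4Node`):
* `muS s` : the residue order `x ↦ ord_s (redG x)` along the Gauss valuation; `muS_eq`,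
  `muS_eq_acInfF`, `intCast_muS_eq_mInf` (`m^∞_s(f) = muS s f mod ℓ`), `muS_algebraMap`;
* ★ the three hypotheses of `S40/M1/NodeFactor`/`NodeNormStep` as NAMED lemmas: `muMul_muS`
  (`hμmul`), `muS_pos` (`hμpos`), `muS_unit` (`hμunit`) for `𝔫 = centreFin s hj`
  (`muS_pos_of_eq`, `muS_unit_of_eq` for `centreFin s hj = 𝔫`); `muS_of_isUnitAt`;
* ★ **(F4)** `muS_eq_of_factor` : `f = u ^ n · β ^ e · W`, `W` a unit at the centre of `s` ⇒
  `muS s f = n · muS s u + e · muS s β`; `intCast_eq_mInf_of_factor` : with `muS s u = 1`, `e = ℓ`: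
  `(n : ZMod ℓ) = m^∞_s(f)`; `dvd_ord_redG_of_factor` : `ℓ ∣ n ⇒ ℓ ∣ ord_s (redG f)`.

Generic (`F ⊆ F'` function fields over `K`, prelude `Place.restrict`, `Place.ramificationIndex`)
— spare library, not needed on the route of record (helper6 `AuxOrd` descends by coprimality to
the degree):
* `ramificationIndex_le_finrank`, `ramificationIndexAlong_le_finrankAlong` : `e(w | v) ≤ [F' : F]`
  (`1, π, …, π ^ (e - 1)` are linearly independent over `F`; no separability);
* `restrictAlong_comp`, `ramificationIndexAlong_comp` : transitivity in towers;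
  `not_dvd_ramificationIndexAlong_comp`, `not_dvd_ramificationIndexAlong`;
* `exists_restrict_eq`, `exists_restrictAlong_eq` : every place has a place above it in a finite
  separable extension.

Modular function fields over a perfect field `k`, `M ∣ N`:
* `inclF_algebraMap_ratFunc`, `finiteAlong_inclF`, `separableAlong_inclF`, `isIntegral_inclF`;
* `exists_place_above` : every place `s` of `FF k M` has a place `s'` of `FF k N` above it;
  `jF_mem_restrictAlong_iff`, `ord_inclF` (`ord_s' (incl g) = e · ord_s g`),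
  `dvd_ord_of_dvd_ord_inclF`.
-/
import Mathlib
import Fermat.Agent.S40.W.F4Node
import Fermat.Agent.S40.W.Sep
import Fermat.Agent.S40.M1.NodeFactor
import Fermat.Agent.N4F.A.PlaceFiber
import Fermat.Agent.N4F.A.FundIdentity

set_option autoImplicit false
set_option linter.unusedSectionVars false
set_option linter.style.haveILetI false
set_option linter.style.longLine false

open AlgebraicCurve

noncomputable section

namespace Fermat.Agent.S40.M1.SSNode

/-! ### Generic: ramification index and degree -/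

section Generic

variable {K F F' : Type*} [Field K] [Field F] [Field F'] [Algebra K F] [Algebra K F']

section Tower

variable [Algebra F F'] [IsScalarTower K F F'] [Algebra.IsIntegral F F']

/-- The order of a term `a π ^ i`, `a ∈ F`. -/
theorem ord_algebraMap_mul_pow (w : Place K F') {π : F'} (hπ : w.ord π = 1) (hπ0 : π ≠ 0)
    {a : F} (ha : a ≠ 0) (i : ℕ) :
    w.ord (algebraMap F F' a * π ^ i) =
      (w.ramificationIndex F : ℤ) * (w.restrict F).ord a + i := by
  have ha' : algebraMap F F' a ≠ 0 := (map_ne_zero _).2 ha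
  rw [w.ord_mul ha' (pow_ne_zero _ hπ0), w.ord_restrict, ← zpow_natCast, w.ord_zpow, hπ, mul_one]

/-- **`e(w | v) ≤ [F' : F]`.** -/
theorem ramificationIndex_le_finrank [FiniteDimensional F F'] (w : Place K F') :
    w.ramificationIndex F ≤ Module.finrank F F' := by
  classical
  have hepos : 0 < w.ramificationIndex F := w.ramificationIndex_pos (F := F)
  obtain ⟨π, hπirr⟩ := IsDiscreteValuationRing.exists_irreducible w.toValuationSubring
  have hπ : w.ord (π : F') = 1 := w.ord_coe_irreducible hπirr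
  have hπ0 : (π : F') ≠ 0 := by
    intro h0
    rw [h0, w.ord_zero] at hπ
    exact zero_ne_one hπ
  set vW := w.toValuationSubring.valuation with hvW
  have hlin : LinearIndependent F (fun i : Fin (w.ramificationIndex F) => (π : F') ^ (i : ℕ)) := by
    rw [Fintype.linearIndependent_iff]
    intro g hg
    by_contra hne
    push Not at hne
    obtain ⟨j, hj⟩ := hne
    -- the non-zero terms
    set S : Finset (Fin (w.ramificationIndex F)) := Finset.univ.filter (fun i => g i ≠ 0) with hS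
    have hSne : S.Nonempty := ⟨j, by rw [hS, Finset.mem_filter]; exact ⟨Finset.mem_univ _, hj⟩⟩
    obtain ⟨i₀, hi₀S, hmin⟩ := Finset.exists_min_image S
      (fun i => w.ord (algebraMap F F' (g i) * (π : F') ^ (i : ℕ))) hSne
    have hgi₀ : g i₀ ≠ 0 := by
      rw [hS, Finset.mem_filter] at hi₀S
      exact hi₀S.2
    set t : F' := algebraMap F F' (g i₀) * (π : F') ^ (i₀ : ℕ) with ht
    have ht0 : t ≠ 0 := mul_ne_zero ((map_ne_zero _).2 hgi₀) (pow_ne_zero _ hπ0)
    have hvt0 : vW t ≠ 0 := (Valuation.ne_zero_iff _).2 ht0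
    have hlt : ∀ i ∈ (Finset.univ : Finset (Fin (w.ramificationIndex F))) \ {i₀},
        vW (g i • (π : F') ^ (i : ℕ)) < vW (g i₀ • (π : F') ^ (i₀ : ℕ)) := by
      intro i hi
      rw [Finset.mem_sdiff, Finset.mem_singleton] at hi
      rw [Algebra.smul_def, Algebra.smul_def]
      by_cases hgi : g i = 0
      · rw [hgi, map_zero, zero_mul, map_zero]
        exact zero_lt_iff.2 hvt0
      · have hiS : i ∈ S := by
          rw [hS, Finset.mem_filter]; exact ⟨Finset.mem_univ _, hgi⟩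
        have hle := hmin i hiS
        rw [ord_algebraMap_mul_pow w hπ hπ0 hgi₀, ord_algebraMap_mul_pow w hπ hπ0 hgi] at hle
        have hne' : (w.ramificationIndex F : ℤ) * (w.restrict F).ord (g i₀) + (i₀ : ℕ) ≠
            (w.ramificationIndex F : ℤ) * (w.restrict F).ord (g i) + (i : ℕ) := by
          intro heq
          have h1 : ((w.ramificationIndex F : ℤ) * (w.restrict F).ord (g i₀) + (i₀ : ℕ)) %
              (w.ramificationIndex F : ℤ) = ((w.ramificationIndex F : ℤ) * (w.restrict F).ord (g i) +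
                (i : ℕ)) % (w.ramificationIndex F : ℤ) := by rw [heq]
          rw [add_comm, Int.add_mul_emod_self_left, add_comm, Int.add_mul_emod_self_left,
            Int.emod_eq_of_lt (by positivity) (by exact_mod_cast i₀.2),
            Int.emod_eq_of_lt (by positivity) (by exact_mod_cast i.2)] at h1
          exact hi.2 (Fin.ext (by exact_mod_cast h1.symm))
        have hlt' : (w.ramificationIndex F : ℤ) * (w.restrict F).ord (g i₀) + (i₀ : ℕ) <
            (w.ramificationIndex F : ℤ) * (w.restrict F).ord (g i) + (i : ℕ) := lt_of_le_of_ne hle hne'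
        set x : F' := algebraMap F F' (g i) * (π : F') ^ (i : ℕ) with hx
        have hx0 : x ≠ 0 := mul_ne_zero ((map_ne_zero _).2 hgi) (pow_ne_zero _ hπ0)
        have hxt : 0 < w.ord (x / t) := by
          rw [div_eq_mul_inv, w.ord_mul hx0 (inv_ne_zero ht0), w.ord_inv, hx, ht,
            ord_algebraMap_mul_pow w hπ hπ0 hgi₀, ord_algebraMap_mul_pow w hπ hπ0 hgi]
          omega
        have hmem := Fermat.Agent.S24.PlaceExtend.mem_nonunits_of_ord_pos w
          (div_ne_zero hx0 ht0) hxt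
        rw [ValuationSubring.mem_nonunits_iff, map_div₀] at hmem
        exact (div_lt_one₀ (zero_lt_iff.2 hvt0)).1 hmem
    have hsum := Valuation.map_sum_eq_of_lt vW (Finset.mem_univ i₀) hlt
    rw [hg, map_zero, Algebra.smul_def] at hsum
    exact hvt0 hsum.symm
  have := hlin.fintype_card_le_finrank
  rwa [Fintype.card_fin] at this

end Tower

/-- **`e ≤ degree`**, `Along`-form. -/
theorem ramificationIndexAlong_le_finrankAlong (φ : F →ₐ[K] F') (hfin : FiniteAlong K φ)
    (w : Place K F') : w.ramificationIndexAlong φ ≤ finrankAlong K φ := by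
  letI := algebraAlong φ
  haveI := isScalarTower_along φ
  haveI : Module.Finite F F' := hfin
  haveI : Algebra.IsIntegral F F' := Algebra.IsIntegral.of_finite F F'
  exact ramificationIndex_le_finrank (F := F) w

theorem ramificationIndexAlong_pos (φ : F →ₐ[K] F') (hφ : φ.toRingHom.IsIntegral)
    (w : Place K F') : 0 < w.ramificationIndexAlong φ := by
  letI := algebraAlong φ
  haveI := isScalarTower_along φ
  haveI := isIntegral_along φ hφ
  exact w.ramificationIndex_pos (F := F)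

/-! ### Towers -/

section Comp

variable {F₁ F₂ : Type*} [Field F₁] [Field F₂] [Algebra K F₁] [Algebra K F₂]

theorem isIntegral_comp (φ₁ : F →ₐ[K] F₁) (φ₂ : F₁ →ₐ[K] F₂) (hφ₁ : φ₁.toRingHom.IsIntegral)
    (hφ₂ : φ₂.toRingHom.IsIntegral) : (φ₂.comp φ₁).toRingHom.IsIntegral :=
  RingHom.IsIntegral.trans _ _ hφ₁ hφ₂

/-- Restriction of places is transitive. -/
theorem restrictAlong_comp (φ₁ : F →ₐ[K] F₁) (φ₂ : F₁ →ₐ[K] F₂) (hφ₁ : φ₁.toRingHom.IsIntegral)
    (hφ₂ : φ₂.toRingHom.IsIntegral) (w : Place K F₂) :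
    w.restrictAlong (φ₂.comp φ₁) (isIntegral_comp φ₁ φ₂ hφ₁ hφ₂) =
      (w.restrictAlong φ₂ hφ₂).restrictAlong φ₁ hφ₁ := by
  apply Place.ext
  ext x
  rfl

/-- A function of order `1` at a place. -/
theorem exists_ord_eq_one (v : Place K F) : ∃ f : F, v.ord f = 1 := by
  obtain ⟨π, hπ⟩ := IsDiscreteValuationRing.exists_irreducible v.toValuationSubring
  exact ⟨π, v.ord_coe_irreducible hπ⟩

/-- **The ramification index is multiplicative in towers.** -/
theorem ramificationIndexAlong_comp (φ₁ : F →ₐ[K] F₁) (φ₂ : F₁ →ₐ[K] F₂)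
    (hφ₁ : φ₁.toRingHom.IsIntegral) (hφ₂ : φ₂.toRingHom.IsIntegral) (w : Place K F₂) :
    w.ramificationIndexAlong (φ₂.comp φ₁) =
      w.ramificationIndexAlong φ₂ * (w.restrictAlong φ₂ hφ₂).ramificationIndexAlong φ₁ := by
  obtain ⟨f, hf⟩ := exists_ord_eq_one ((w.restrictAlong φ₂ hφ₂).restrictAlong φ₁ hφ₁)
  have h1 := Place.ord_restrictAlong (φ₂.comp φ₁) (isIntegral_comp φ₁ φ₂ hφ₁ hφ₂) w f
  rw [restrictAlong_comp φ₁ φ₂ hφ₁ hφ₂ w, hf, mul_one] at h1
  have h2 := Place.ord_restrictAlong φ₂ hφ₂ w (φ₁ f)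
  rw [Place.ord_restrictAlong φ₁ hφ₁ (w.restrictAlong φ₂ hφ₂) f, hf, mul_one] at h2
  have h3 : (φ₂.comp φ₁) f = φ₂ (φ₁ f) := rfl
  rw [h3, h2] at h1
  exact_mod_cast h1.symm

/-- **In a tower of two steps of degrees `< p` the prime `p` does not divide a ramification
index** (degrees `≤ 3`, `≤ 2` and `p ≥ 5` in the application). -/
theorem not_dvd_ramificationIndexAlong_comp {p : ℕ} (hp : p.Prime)
    (φ₁ : F →ₐ[K] F₁) (φ₂ : F₁ →ₐ[K] F₂) (hfin₁ : FiniteAlong K φ₁) (hfin₂ : FiniteAlong K φ₂)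
    {d₁ d₂ : ℕ} (hd₁ : finrankAlong K φ₁ ≤ d₁) (hd₂ : finrankAlong K φ₂ ≤ d₂)
    (hd₁p : d₁ < p) (hd₂p : d₂ < p)
    (hφ₁ : φ₁.toRingHom.IsIntegral) (hφ₂ : φ₂.toRingHom.IsIntegral) (w : Place K F₂) :
    ¬ p ∣ w.ramificationIndexAlong (φ₂.comp φ₁) := by
  rw [ramificationIndexAlong_comp φ₁ φ₂ hφ₁ hφ₂ w, hp.dvd_mul]
  rintro (h | h)
  · have h1 := Nat.le_of_dvd (ramificationIndexAlong_pos φ₂ hφ₂ w) h
    have h2 := ramificationIndexAlong_le_finrankAlong φ₂ hfin₂ w
    omega
  · have h1 := Nat.le_of_dvd (ramificationIndexAlong_pos φ₁ hφ₁ (w.restrictAlong φ₂ hφ₂)) h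
    have h2 := ramificationIndexAlong_le_finrankAlong φ₁ hfin₁ (w.restrictAlong φ₂ hφ₂)
    omega

/-- One step: a prime bigger than the degree does not divide the ramification index. -/
theorem not_dvd_ramificationIndexAlong {p : ℕ} (φ : F →ₐ[K] F')
    (hfin : FiniteAlong K φ) (hd : finrankAlong K φ < p) (hφ : φ.toRingHom.IsIntegral)
    (w : Place K F') : ¬ p ∣ w.ramificationIndexAlong φ := by
  intro h
  have h1 := Nat.le_of_dvd (ramificationIndexAlong_pos φ hφ w) h
  have h2 := ramificationIndexAlong_le_finrankAlong φ hfin w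
  omega

end Comp

/-! ### Places above a place -/

section Above

open IsDedekindDomain Fermat.Agent.N4F.A.PlaceFiber

/-- **Every place has a place above it** in a finite separable extension. -/
theorem exists_restrict_eq [Algebra F F'] [IsScalarTower K F F'] [FiniteDimensional F F']
    [Algebra.IsSeparable F F'] (v : Place K F) : ∃ w : Place K F', w.restrict F = v := by
  haveI : Algebra.IsIntegral v.toValuationSubring (Bv F' v) := inferInstance
  have hinj : Function.Injective (algebraMap v.toValuationSubring (Bv F' v)) := by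
    intro x y hxy
    have h1 := congrArg (fun z : Bv F' v => (z : F')) hxy
    have h2 : ∀ z : v.toValuationSubring,
        ((algebraMap v.toValuationSubring (Bv F' v) z : Bv F' v) : F') =
          algebraMap F F' (z : F) := fun z => rfl
    simp only [h2] at h1
    exact Subtype.ext ((algebraMap F F').injective h1)
  have hker : RingHom.ker (algebraMap v.toValuationSubring (Bv F' v)) ≤
      IsLocalRing.maximalIdeal v.toValuationSubring := by
    intro x hx
    rw [RingHom.mem_ker] at hx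
    have : x = 0 := hinj (by rw [hx, map_zero])
    rw [this]
    exact Ideal.zero_mem _
  obtain ⟨Q, hQmax, hQ⟩ := Ideal.exists_ideal_over_maximal_of_isIntegral (S := Bv F' v)
    (IsLocalRing.maximalIdeal v.toValuationSubring) hker
  have hQ0 : Q ≠ ⊥ := by
    rintro rfl
    apply maximalIdeal_ne_bot v
    rw [← hQ, eq_bot_iff]
    intro x hx
    rw [Ideal.mem_comap, Ideal.mem_bot] at hx
    rw [Ideal.mem_bot]
    exact hinj (by rw [hx, map_zero])
  exact ⟨placeOfPrime v ⟨Q, hQmax.isPrime, hQ0⟩, restrict_placeOfPrime v _⟩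

/-- `Along`-form. -/
theorem exists_restrictAlong_eq (φ : F →ₐ[K] F') (hfin : FiniteAlong K φ)
    (hsep : SeparableAlong K φ) (hφ : φ.toRingHom.IsIntegral) (v : Place K F) :
    ∃ w : Place K F', w.restrictAlong φ hφ = v := by
  letI := algebraAlong φ
  haveI := isScalarTower_along φ
  haveI : FiniteDimensional F F' := hfin
  haveI : Algebra.IsSeparable F F' := hsep
  exact exists_restrict_eq v

end Above

end Generic

/-! ### Change of level over a perfect field -/

section Levels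

open ModularCurve Polynomial Fermat.Agent.N4.Setting Fermat.Agent.N4F.E.DegreeLevelRaise
open scoped Fermat.Agent.S40.W.FFSetting

variable (k : Type) [Field k] {M N : ℕ} [NeZero M] [NeZero N] (h : M ∣ N)

/-- The inclusion `FF k M → FF k N` is compatible with `k(X) → FF k _`, `X ↦ j`. -/
theorem inclF_algebraMap_ratFunc (r : RatFunc k) :
    inclF k h (algebraMap (RatFunc k) (FF k M) r) = algebraMap (RatFunc k) (FF k N) r := by
  have hpoly : ∀ P : k[X], inclF k h (algebraMap k[X] (FF k M) P) = algebraMap k[X] (FF k N) P := by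
    intro P
    rw [Fermat.Agent.S40.W.FFSetting.algebraMap_poly_apply,
      Fermat.Agent.S40.W.FFSetting.algebraMap_poly_apply, ← Polynomial.aeval_algHom_apply,
      inclF_jF]
  induction r using RatFunc.induction_on with
  | f P Q hQ =>
    rw [map_div₀, map_div₀, map_div₀,
      ← IsScalarTower.algebraMap_apply k[X] (RatFunc k) (FF k M),
      ← IsScalarTower.algebraMap_apply k[X] (RatFunc k) (FF k M),
      ← IsScalarTower.algebraMap_apply k[X] (RatFunc k) (FF k N),
      ← IsScalarTower.algebraMap_apply k[X] (RatFunc k) (FF k N), hpoly, hpoly]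

theorem isScalarTower_ratFunc_inclF :
    letI := algebraAlong (inclF k h)
    IsScalarTower (RatFunc k) (FF k M) (FF k N) :=
  letI := algebraAlong (inclF k h)
  IsScalarTower.of_algebraMap_eq fun r => (inclF_algebraMap_ratFunc k h r).symm

/-- `FF k N` is finite over `FF k M`. -/
theorem finiteAlong_inclF : FiniteAlong k (inclF k h) := by
  letI := algebraAlong (inclF k h)
  haveI := isScalarTower_ratFunc_inclF k h
  haveI := Fermat.Agent.S40.W.Sep.finiteDimensional_ratFunc k N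
  exact Module.Finite.of_restrictScalars_finite (RatFunc k) (FF k M) (FF k N)

theorem isIntegral_inclF : (inclF k h).toRingHom.IsIntegral := by
  letI := algebraAlong (inclF k h)
  haveI : Module.Finite (FF k M) (FF k N) := finiteAlong_inclF k h
  exact (Algebra.IsIntegral.of_finite (FF k M) (FF k N)).isIntegral

/-- `FF k N` is separable over `FF k M`, `k` perfect. -/
theorem separableAlong_inclF [PerfectField k] : SeparableAlong k (inclF k h) := by
  letI := algebraAlong (inclF k h)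
  haveI := isScalarTower_ratFunc_inclF k h
  haveI := Fermat.Agent.S40.W.Sep.isSeparable_ratFunc k N
  exact Algebra.isSeparable_tower_top_of_isSeparable (RatFunc k) (FF k M) (FF k N)

/-- **Every place of `FF k M` has a place of `FF k N` above it** (`k` perfect, `M ∣ N`). -/
theorem exists_place_above [PerfectField k] (s : Place k (FF k M)) :
    ∃ s' : Place k (FF k N), s'.restrictAlong (inclF k h) (isIntegral_inclF k h) = s :=
  exists_restrictAlong_eq (inclF k h) (finiteAlong_inclF k h) (separableAlong_inclF k h)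
    (isIntegral_inclF k h) s

variable {k}

theorem mem_restrictAlong_iff {F F' : Type*} [Field F] [Field F'] [Algebra k F] [Algebra k F']
    (φ : F →ₐ[k] F') (hφ : φ.toRingHom.IsIntegral) (w : Place k F') (x : F) :
    x ∈ (w.restrictAlong φ hφ).toValuationSubring ↔ φ x ∈ w.toValuationSubring := Iff.rfl

/-- The finite charts correspond. -/
theorem jF_mem_restrictAlong_iff (s' : Place k (FF k N)) :
    jF k M ∈ (s'.restrictAlong (inclF k h) (isIntegral_inclF k h)).toValuationSubring ↔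
      jF k N ∈ s'.toValuationSubring := by
  rw [mem_restrictAlong_iff, inclF_jF]

/-- **`ord_s' (incl g) = e · ord_s g`** (`s = s'|_{FF k M}`). -/
theorem ord_inclF (s' : Place k (FF k N)) (g : FF k M) :
    s'.ord (inclF k h g) = (s'.ramificationIndexAlong (inclF k h) : ℤ) *
      (s'.restrictAlong (inclF k h) (isIntegral_inclF k h)).ord g :=
  Place.ord_restrictAlong (inclF k h) (isIntegral_inclF k h) s' g

/-- Divisibility descends when `p` does not divide the ramification index. -/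
theorem dvd_ord_of_dvd_ord_inclF {p : ℕ} (hp : p.Prime) (s' : Place k (FF k N))
    (he : ¬ p ∣ s'.ramificationIndexAlong (inclF k h)) {g : FF k M}
    (hdvd : (p : ℤ) ∣ s'.ord (inclF k h g)) :
    (p : ℤ) ∣ (s'.restrictAlong (inclF k h) (isIntegral_inclF k h)).ord g := by
  rw [ord_inclF] at hdvd
  have hp' : Prime (p : ℤ) := Nat.prime_iff_prime_int.1 hp
  rcases hp'.dvd_or_dvd hdvd with h1 | h1
  · exact absurd (Int.natCast_dvd_natCast.1 h1) he
  · exact h1

end Levels

/-! ### The residue order at a place of the special fibre, level `(K, O)` -/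

section Level

open ModularCurve Fermat.Agent.S28.Gauss Fermat.Agent.N4.Setting Fermat.Agent.N4.FibreEmbedding
open Fermat.Agent.N4.Chart
open Fermat.Agent.N4F.E.DegreeLevelRaise Fermat.Agent.N4F.E.GaussDVR
open Fermat.Agent.N4F.E IsLocalRing Fermat.Agent.P3G Fermat.Agent.P4
open Fermat.Agent.P3G.RbarFin Fermat.Agent.P3G.RbarInf
open Fermat.Agent.P4.TwistRoots Fermat.Agent.N4F.C.ChartFibre Fermat.Agent.S40.W.F4Level
open Fermat.Agent.S40.W.F4Cusp Fermat.Agent.S40.W.F4Place Fermat.Agent.S24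
open Fermat.Agent.S40.W.F4Node Fermat.Agent.S40.M1.NodeFactor

variable (K : Type) [Field K] [CharZero K] (N : ℕ) [NeZero N] (ℓ : ℕ) [Fact ℓ.Prime]
  (O : Subring K) [IsDiscreteValuationRing ↥O] [IsFractionRing ↥O K]
  [CharP (IsLocalRing.ResidueField ↥O) ℓ] [PerfectRing (IsLocalRing.ResidueField ↥O) ℓ]

set_option quotPrecheck false in
local notation "κ" => IsLocalRing.ResidueField ↥O

set_option synthInstance.maxHeartbeats 400000

variable (hN : IsUnit ((N : ℕ) : ↥O)) (ι : K →+* ℂ) (hℓN : ¬ ℓ ∣ N)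
  (hprime : (fibreIdeal K N O (Rfin K N O)).IsPrime)
  (hsmooth : IsDedekindDomain (↥(Rfin K N O) ⧸ fibreIdeal K N O (Rfin K N O)))
  (hA2 : ∀ x : ↥(gaussSubalgebra K N O),
    theta K N O x ∈ modularFunctionFieldFullC (IsLocalRing.ResidueField ↥O) N)
  (S₂ : FibreTwo.SecondVal K N ℓ O)
  {ϖ : ↥O} (hϖ : Irreducible ϖ)

open Classical in
/-- **The residue order along the Gauss valuation at the place `s`**: `x ↦ ord_s (redG x)` on the
Gauss valuation ring (and `0` outside). -/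
def muS (s : Place κ (FF κ N)) : FF K (N * ℓ) → ℤ := fun x =>
  if h : x ∈ gaussSubalgebra K (N * ℓ) O then s.ord (redG K N ℓ O ι hℓN hA2 S₂ ⟨x, h⟩) else 0

theorem muS_of_mem (s : Place κ (FF κ N)) {x : FF K (N * ℓ)}
    (h : x ∈ gaussSubalgebra K (N * ℓ) O) :
    muS K N ℓ O ι hℓN hA2 S₂ s x = s.ord (redG K N ℓ O ι hℓN hA2 S₂ ⟨x, h⟩) := by
  unfold muS
  rw [dif_pos h]

theorem muS_eq (s : Place κ (FF κ N)) {f : FF K (N * ℓ)}
    (hf₁ : (gaussVS K (N * ℓ) O).valuation f = 1) :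
    muS K N ℓ O ι hℓN hA2 S₂ s f = s.ord (redG K N ℓ O ι hℓN hA2 S₂
      ⟨f, mem_gauss_of_valuation_eq_one K N ℓ O hf₁⟩) :=
  muS_of_mem K N ℓ O ι hℓN hA2 S₂ s _

include hϖ in
/-- In the vocabulary of `S40/W/Lambda`. -/
theorem muS_eq_acInfF (s : Place κ (FF κ N)) {f : FF K (N * ℓ)}
    (hf₁ : (gaussVS K (N * ℓ) O).valuation f = 1) :
    muS K N ℓ O ι hℓN hA2 S₂ s f =
      s.ord (Fermat.Agent.S40.W.Lambda.acInfF K N ℓ O (SecondValBridge.ofTwo S₂) ι hℓN hA2 hϖ f) := by
  rw [acInfF_eq_redG K N ℓ O ι hℓN hA2 S₂ hϖ hf₁, muS_eq K N ℓ O ι hℓN hA2 S₂ s hf₁]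

include hϖ in
/-- `m^∞_s(f)` is the residue order modulo `ℓ`. -/
theorem intCast_muS_eq_mInf (s : Place κ (FF κ N)) {f : FF K (N * ℓ)}
    (hf₁ : (gaussVS K (N * ℓ) O).valuation f = 1) :
    ((muS K N ℓ O ι hℓN hA2 S₂ s f : ℤ) : ZMod ℓ) =
      Fermat.Agent.S40.W.Lambda.mInf K N ℓ O (SecondValBridge.ofTwo S₂) ι hℓN hA2 hϖ s f := by
  rw [muS_eq_acInfF K N ℓ O ι hℓN hA2 S₂ hϖ s hf₁]
  rfl

theorem muS_algebraMap (s : Place κ (FF κ N)) (r : ↥(Rfin K (N * ℓ) O)) :
    muS K N ℓ O ι hℓN hA2 S₂ s (algebraMap ↥(Rfin K (N * ℓ) O) (FF K (N * ℓ)) r) =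
      s.ord (redFinL K N ℓ O ι hℓN hA2 S₂ r) :=
  muS_of_mem K N ℓ O ι hℓN hA2 S₂ s
    (chartAlg_le_gaussSubalgebra K (N * ℓ) O (sFin_le_gauss K (N * ℓ) O) r.2)

/-- (`hμmul`) `muS` is additive on the units of the Gauss valuation. -/
theorem muMul_muS (s : Place κ (FF κ N)) :
    MuMul (gaussVS K (N * ℓ) O) (muS K N ℓ O ι hℓN hA2 S₂ s) := by
  intro x y hx hy
  have hxy : (gaussVS K (N * ℓ) O).valuation (x * y) = 1 := by rw [map_mul, hx, hy, one_mul]
  rw [muS_eq K N ℓ O ι hℓN hA2 S₂ s hx, muS_eq K N ℓ O ι hℓN hA2 S₂ s hy,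
    muS_eq K N ℓ O ι hℓN hA2 S₂ s hxy]
  have hmul : (⟨x * y, mem_gauss_of_valuation_eq_one K N ℓ O hxy⟩ :
      ↥(gaussSubalgebra K (N * ℓ) O)) =
      ⟨x, mem_gauss_of_valuation_eq_one K N ℓ O hx⟩ *
        ⟨y, mem_gauss_of_valuation_eq_one K N ℓ O hy⟩ := Subtype.ext rfl
  rw [hmul, map_mul, s.ord_mul (redG_ne_zero K N ℓ O ι hℓN hA2 S₂ hx)
    (redG_ne_zero K N ℓ O ι hℓN hA2 S₂ hy)]

/-- (`hμpos`) `muS` is positive on the Gauss units of the centre of `s`. -/
theorem muS_pos (s : Place κ (FF κ N)) (hj : jF κ N ∈ s.toValuationSubring)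
    (r : ↥(Rfin K (N * ℓ) O)) (hr : r ∈ centreFin K N ℓ O ι hℓN hA2 S₂ s hj)
    (hr₁ : (gaussVS K (N * ℓ) O).valuation
      (algebraMap ↥(Rfin K (N * ℓ) O) (FF K (N * ℓ)) r) = 1) :
    0 < muS K N ℓ O ι hℓN hA2 S₂ s (algebraMap ↥(Rfin K (N * ℓ) O) (FF K (N * ℓ)) r) := by
  rw [muS_algebraMap]
  have h0 : redFinL K N ℓ O ι hℓN hA2 S₂ r ≠ 0 := redG_ne_zero K N ℓ O ι hℓN hA2 S₂ hr₁
  exact Fermat.Agent.S24.PlaceExtend.ord_pos_of_mem_nonunits s h0
    ((mem_centreFin_iff K N ℓ O ι hℓN hA2 S₂ s hj r).1 hr)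

/-- (`hμunit`) `muS` vanishes off the centre of `s`. -/
theorem muS_unit (s : Place κ (FF κ N)) (hj : jF κ N ∈ s.toValuationSubring)
    (r : ↥(Rfin K (N * ℓ) O)) (hr : r ∉ centreFin K N ℓ O ι hℓN hA2 S₂ s hj) :
    muS K N ℓ O ι hℓN hA2 S₂ s (algebraMap ↥(Rfin K (N * ℓ) O) (FF K (N * ℓ)) r) = 0 := by
  rw [muS_algebraMap]
  rw [mem_centreFin_iff] at hr
  exact ord_eq_zero_of_not_mem_nonunits s (redFinL_mem_place K N ℓ O ι hℓN hA2 S₂ s hj r) hr

/-- The three facts for an ideal `𝔫` which is the centre of `s`. -/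
theorem muS_pos_of_eq (s : Place κ (FF κ N)) (hj : jF κ N ∈ s.toValuationSubring)
    {𝔫 : Ideal ↥(Rfin K (N * ℓ) O)} (hc : centreFin K N ℓ O ι hℓN hA2 S₂ s hj = 𝔫) :
    ∀ r : ↥(Rfin K (N * ℓ) O), r ∈ 𝔫 →
      (gaussVS K (N * ℓ) O).valuation (algebraMap ↥(Rfin K (N * ℓ) O) (FF K (N * ℓ)) r) = 1 →
      0 < muS K N ℓ O ι hℓN hA2 S₂ s (algebraMap ↥(Rfin K (N * ℓ) O) (FF K (N * ℓ)) r) := by
  subst hc
  exact muS_pos K N ℓ O ι hℓN hA2 S₂ s hj

theorem muS_unit_of_eq (s : Place κ (FF κ N)) (hj : jF κ N ∈ s.toValuationSubring)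
    {𝔫 : Ideal ↥(Rfin K (N * ℓ) O)} (hc : centreFin K N ℓ O ι hℓN hA2 S₂ s hj = 𝔫) :
    ∀ r : ↥(Rfin K (N * ℓ) O), r ∉ 𝔫 →
      muS K N ℓ O ι hℓN hA2 S₂ s (algebraMap ↥(Rfin K (N * ℓ) O) (FF K (N * ℓ)) r) = 0 := by
  subst hc
  exact muS_unit K N ℓ O ι hℓN hA2 S₂ s hj

include hN hprime hsmooth hϖ in
/-- A unit of the local ring at the centre of `s` has residue order `0`. -/
theorem muS_of_isUnitAt (s : Place κ (FF κ N)) (hj : jF κ N ∈ s.toValuationSubring)
    {W : FF K (N * ℓ)} (hW : IsUnitAt (centreFin K N ℓ O ι hℓN hA2 S₂ s hj) W) :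
    (gaussVS K (N * ℓ) O).valuation W = 1 ∧ muS K N ℓ O ι hℓN hA2 S₂ s W = 0 := by
  have hS := BranchNormalLevel.setup_fin K N ℓ O hN ι hℓN hprime hsmooth hA2 S₂ hϖ
  haveI := Fermat.Agent.N4.ModPolySetting.finiteDimensional_FF K (N * ℓ)
  have hjt := Fermat.Agent.N4.FFAlgebraic.transcendental_jF K (N * ℓ)
  haveI : IsFractionRing ↥(Rfin K (N * ℓ) O) (FF K (N * ℓ)) :=
    Fermat.Agent.N4.Cover.Main.isFractionRing_chartAlg (O := ↥O) (K₀ := K) (jF K (N * ℓ)) hjt
  have hW₁ : (gaussVS K (N * ℓ) O).valuation W = 1 :=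
    valuation_eq_one_of_isUnitAt hS.mem₁ (through_gauss_centreFin K N ℓ O ι hℓN hA2 S₂ s hj) hW
  refine ⟨hW₁, ?_⟩
  rw [muS_eq K N ℓ O ι hℓN hA2 S₂ s hW₁]
  exact ord_redG_eq_zero_of_isUnitAt K N ℓ O hN ι hℓN hprime hsmooth hA2 S₂ hϖ s hj hW hW₁

/-! ### (F4) of R4-F: the exponent of the node coordinate is the residue order modulo `ℓ` -/

include hN hprime hsmooth hϖ in
/-- **The residue order of a factorisation** `f = u ^ n · β ^ e · W`, `u β` units of the Gauss
valuation, `W` a unit of the local ring at the centre of `s`. -/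
theorem muS_eq_of_factor (s : Place κ (FF κ N)) (hj : jF κ N ∈ s.toValuationSubring)
    {u β W f : FF K (N * ℓ)} {n : ℤ} {e : ℕ}
    (hu₁ : (gaussVS K (N * ℓ) O).valuation u = 1) (hβ₁ : (gaussVS K (N * ℓ) O).valuation β = 1)
    (hW : IsUnitAt (centreFin K N ℓ O ι hℓN hA2 S₂ s hj) W) (hf : f = u ^ n * β ^ e * W) :
    (gaussVS K (N * ℓ) O).valuation f = 1 ∧
      muS K N ℓ O ι hℓN hA2 S₂ s f =
        n * muS K N ℓ O ι hℓN hA2 S₂ s u + e * muS K N ℓ O ι hℓN hA2 S₂ s β := by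
  have hmul := muMul_muS K N ℓ O ι hℓN hA2 S₂ s
  obtain ⟨hW₁, hWμ⟩ := muS_of_isUnitAt K N ℓ O hN ι hℓN hprime hsmooth hA2 S₂ hϖ s hj hW
  have hun : (gaussVS K (N * ℓ) O).valuation (u ^ n) = 1 := by rw [map_zpow₀, hu₁, one_zpow]
  have hβe : (gaussVS K (N * ℓ) O).valuation (β ^ e) = 1 := by rw [map_pow, hβ₁, one_pow]
  have h12 : (gaussVS K (N * ℓ) O).valuation (u ^ n * β ^ e) = 1 := by
    rw [map_mul, hun, hβe, one_mul]
  refine ⟨by rw [hf, map_mul, h12, hW₁, one_mul], ?_⟩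
  rw [hf, hmul _ _ h12 hW₁, hmul _ _ hun hβe, hmul.mu_zpow hu₁, hmul.mu_pow hβ₁, hWμ, add_zero]

include hN hprime hsmooth hϖ in
/-- **(F4)**: in a factorisation `f = u ^ n · β ^ ℓ · W` at the centre of `s`, with `u` a node
coordinate (`ord_s ū = 1`), the exponent `n` is `m^∞_s(f)` modulo `ℓ`. -/
theorem intCast_eq_mInf_of_factor (s : Place κ (FF κ N)) (hj : jF κ N ∈ s.toValuationSubring)
    {u β W f : FF K (N * ℓ)} {n : ℤ}
    (hu₁ : (gaussVS K (N * ℓ) O).valuation u = 1)
    (huμ : muS K N ℓ O ι hℓN hA2 S₂ s u = 1)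
    (hβ₁ : (gaussVS K (N * ℓ) O).valuation β = 1)
    (hW : IsUnitAt (centreFin K N ℓ O ι hℓN hA2 S₂ s hj) W) (hf : f = u ^ n * β ^ ℓ * W) :
    ((n : ℤ) : ZMod ℓ) =
      Fermat.Agent.S40.W.Lambda.mInf K N ℓ O (SecondValBridge.ofTwo S₂) ι hℓN hA2 hϖ s f := by
  obtain ⟨hf₁, hμ⟩ := muS_eq_of_factor K N ℓ O hN ι hℓN hprime hsmooth hA2 S₂ hϖ s hj hu₁ hβ₁ hW hf
  rw [← intCast_muS_eq_mInf K N ℓ O ι hℓN hA2 S₂ hϖ s hf₁, hμ, huμ, mul_one]
  push_cast
  rw [ZMod.natCast_self, zero_mul, add_zero]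

include hN hprime hsmooth hϖ in
/-- **(F4), divisibility form**: `ℓ ∣ n ⇒ ℓ ∣ ord_s (redG f)`. -/
theorem dvd_ord_redG_of_factor (s : Place κ (FF κ N)) (hj : jF κ N ∈ s.toValuationSubring)
    {u β W f : FF K (N * ℓ)} {n : ℤ}
    (hu₁ : (gaussVS K (N * ℓ) O).valuation u = 1)
    (huμ : muS K N ℓ O ι hℓN hA2 S₂ s u = 1)
    (hβ₁ : (gaussVS K (N * ℓ) O).valuation β = 1)
    (hW : IsUnitAt (centreFin K N ℓ O ι hℓN hA2 S₂ s hj) W) (hf : f = u ^ n * β ^ ℓ * W)
    (hf₁ : (gaussVS K (N * ℓ) O).valuation f = 1) (hn : (ℓ : ℤ) ∣ n) :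
    (ℓ : ℤ) ∣ s.ord (redG K N ℓ O ι hℓN hA2 S₂ ⟨f, mem_gauss_of_valuation_eq_one K N ℓ O hf₁⟩) := by
  obtain ⟨-, hμ⟩ := muS_eq_of_factor K N ℓ O hN ι hℓN hprime hsmooth hA2 S₂ hϖ s hj hu₁ hβ₁ hW hf
  rw [← muS_eq K N ℓ O ι hℓN hA2 S₂ s hf₁, hμ, huμ, mul_one]
  exact dvd_add hn (dvd_mul_right _ _)

end Level

end Fermat.Agent.S40.M1.SSNode
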