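/-
S44 / S40 (row 38), T6′ static route (`moonshots` row 67), block (R4), LEVEL ASSEMBLY
(helper3, pairing with helper5; dispatch #3240 (3)): **the node identity at a crossing point of a good
level, from NAMED level facts.**

Binder block = `NodeHonest.slope_levels` (an unramified level `K₀ ≤ K` good, `𝔫` a crossing point of the
finite chart of level `N p` over `O_K`, `hn : HonestNode … 𝔫 u₀ v₀ G₀`, `s` the place of the special
fibre with centre `𝔫`), `u := finIncl u₀`, `F := FF (Lvl K) (N p)`, `F' := FF (Lvl K) N`,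
`N_α := normAlphaK K N p`, `N_β := normBetaK K N p`, `π := p`, `𝒜` ANY valuation subring of `Lvl K` with
`p ∈ 𝔪(𝒜)` (e.g. `A ∩ K`).

* `mS` := helper9's `SSNode.muS` at the level (`mS_eq : mS f = ord_s (redG f)` for `V₁`-units,
  `mS_uK : mS u = 1`);
* (L1) `factor_levels` : `f = u ^ (m − p k) · β ^ p · W`, `W` a unit at `𝔫`, `m = mS f`, `k = mS β`, for a
  `V₁`-unit `f` with `ord_Q f = p · D Q` on `centredSet 𝔫` and ANY `V₁`-unit `β` with `ord_Q β = D Q`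
  there (`slope_levels` on `f / β ^ p`);
* (L2) `step_levels` : the two norm equations `(h_A / N_α β) ^ p = (N_α u) ^ n · N_α W`, same for `β`;
* (L3) ★ `r4_level` : with test places `Q_α Q_β`, NAMED (R4a) (values of `N_α u`, `N_β u`) and NAMED
  (R4b) (`def R4b`: values of `N_α W`, `N_β W` for units `W` at `𝔫`):
  `∃ y : Lvl K, y = yNode … · p ^ ((p − 1) k) ∧ y ≠ 0 ∧ (y ^ p / p ^ ((p − 1) m) − 1) / p ∈ 𝒜`;
* (L4) `r4_level_fixed` : the `y` of (L3) is fixed by every pair of semilinear automorphisms with the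
  NAMED (G) facts;
* (L5) ★★ `r4_node_level` : the level form of helper5's `R4Node.r4_node_abs` — `β := R4Node.betaS u S D c`
  from NAMED [H3] (`S hS c hc₁ hc1 hc2`), NAMED [R4a], NAMED [R4b]; conclusion
  `∃ y ≠ 0, (y ^ p / p ^ ((p − 1) · ord_s (redG f)) − 1) / p ∈ 𝒜 ∧ [INV] → baseAut σ' y = y`
  (no [NF], [U] hypotheses: `NodeHonest.slope_levels`); `natCast_pred_eq`.
-/
import Mathlib
import Fermat.Agent.S40.M1.NodeHonest
import Fermat.Agent.S40.M1.NodeNormStep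
import Fermat.Agent.S40.M1.NodeInv
import Fermat.Agent.S40.M1.SSNode
import Fermat.Agent.S40.M1.R4Node

set_option autoImplicit false
set_option linter.unusedSectionVars false
set_option linter.unusedVariables false
set_option linter.style.haveILetI false
set_option linter.style.longLine false
set_option synthInstance.maxHeartbeats 400000
set_option maxHeartbeats 1600000

open ModularCurve AlgebraicCurve

noncomputable section

namespace Fermat.Agent.S40.M1.R4Level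

open Fermat.Agent.S28.Gauss Fermat.Agent.N4.Setting Fermat.Agent.N4.FibreEmbedding
  Fermat.Agent.N4.Chart Fermat.Agent.N4F.E.GaussDVR
  Fermat.Agent.P3G Fermat.Agent.P4 Fermat.Agent.P4.TwistRoots Fermat.Agent.P3G.UCrit
  Fermat.Agent.S40.W.F4Level Fermat.Agent.N4.BaseDescent Fermat.Agent.S19.Cech.LevelBasis
  Fermat.Agent.P3G.Assembly.StepOfLevel Fermat.Agent.P3G.Assembly.LevelStep
  Fermat.Agent.N4F.C Fermat.Agent.N4F.C.Levels
  Fermat.Agent.S36.Descent.UnramLevel Fermat.Agent.P3G.Gamma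
  Fermat.Agent.S40.M1.NodeHonest Fermat.Agent.S40.M1.NodeInv Fermat.Agent.S40.M1.NodeCore
  Fermat.Agent.N4F.E.PlaceValue Fermat.Agent.N4F.C.CoeffAut Fermat.Agent.P4.FrobLevelStep

local notation "Qbar" => AlgebraicClosure ℚ

/-! ### Two levels: the factorisation, the norm step, the node identity -/

section Levels

variable (N p : ℕ) [NeZero N] [Fact p.Prime] (hpN : ¬ p ∣ N)
  (A : ValuationSubring Qbar) (hA : A.LiesOverPrime p)
  {K₀ K : IntermediateField ℚ Qbar} (hKL : K₀ ≤ K)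
  (hK₀ : IsUnramLevel A p K₀) (hK : IsGoodLevel A p K)
  [IsDiscreteValuationRing ↥(baseRing A K₀)] [IsDiscreteValuationRing ↥(baseRing A K)]
  [CharP (IsLocalRing.ResidueField ↥(baseRing A K₀)) p]
  [PerfectRing (IsLocalRing.ResidueField ↥(baseRing A K₀)) p]
  [CharP (IsLocalRing.ResidueField ↥(baseRing A K)) p]
  [PerfectRing (IsLocalRing.ResidueField ↥(baseRing A K)) p]
  (hA2₀ : ∀ x : ↥(gaussSubalgebra (Lvl K₀) N (baseRing A K₀)),
    theta (Lvl K₀) N (baseRing A K₀) x ∈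
      modularFunctionFieldFullC (IsLocalRing.ResidueField ↥(baseRing A K₀)) N)
  (hA2 : ∀ x : ↥(gaussSubalgebra (Lvl K) N (baseRing A K)),
    theta (Lvl K) N (baseRing A K) x ∈
      modularFunctionFieldFullC (IsLocalRing.ResidueField ↥(baseRing A K)) N)
  (S₂ : Fermat.Agent.P3G.FibreTwo.SecondVal (Lvl K) N p (baseRing A K))
  {ϖ : ↥(baseRing A K)} (hϖ : Irreducible ϖ)
  {𝔫 : Ideal ↥(Rfin (Lvl K) (N * p) (baseRing A K))} [h𝔫 : 𝔫.IsMaximal]
  {u₀ v₀ G₀ : ↥(Rfin (Lvl K₀) (N * p) (baseRing A K₀))}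
  (hn : HonestNode (Lvl K₀) (Lvl K) N p (baseRing A K₀) (baseRing A K) (lvlIncl hKL)
    (lvlIncl_mem A hKL) S₂ 𝔫 u₀ v₀ G₀)
  (ht₁ : Through (gaussVS (Lvl K) (N * p) (baseRing A K)) 𝔫) (ht₂ : Through S₂.V 𝔫)
  (s : Place (IsLocalRing.ResidueField ↥(baseRing A K))
    (FF (IsLocalRing.ResidueField ↥(baseRing A K)) N))
  (hj : jF (IsLocalRing.ResidueField ↥(baseRing A K)) N ∈ s.toValuationSubring)
  (hs𝔫 : ∀ r ∈ 𝔫, redFinL (Lvl K) N p (baseRing A K)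
    (Fermat.Agent.P3G.GammaV2.lvlToComplex K) hpN hA2 S₂ r ∈ s.toValuationSubring.nonunits)

/-- The node coordinate `u = finIncl u₀` as a function. -/
abbrev uK (u₀ : ↥(Rfin (Lvl K₀) (N * p) (baseRing A K₀))) : FF (Lvl K) (N * p) :=
  ((finIncl A (N * p) hKL u₀ : ↥(Rfin (Lvl K) (N * p) (baseRing A K))) : FF (Lvl K) (N * p))

/-- `m = ord_s (redG f)` (helper9's `SSNode.muS` at the level). -/
abbrev mS (x : FF (Lvl K) (N * p)) : ℤ :=
  Fermat.Agent.S40.M1.SSNode.muS (Lvl K) N p (baseRing A K)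
    (Fermat.Agent.P3G.GammaV2.lvlToComplex K) hpN hA2 S₂ s x

theorem mS_eq {f : FF (Lvl K) (N * p)}
    (hf₁ : (gaussVS (Lvl K) (N * p) (baseRing A K)).valuation f = 1) :
    mS N p hpN A hA2 S₂ s f =
      s.ord (redG (Lvl K) N p (baseRing A K) (Fermat.Agent.P3G.GammaV2.lvlToComplex K) hpN hA2 S₂
        ⟨f, mem_gauss_of_valuation_eq_one (Lvl K) N p (baseRing A K) hf₁⟩) :=
  Fermat.Agent.S40.M1.SSNode.muS_eq (Lvl K) N p (baseRing A K)
    (Fermat.Agent.P3G.GammaV2.lvlToComplex K) hpN hA2 S₂ s hf₁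

include hA hK₀ hK hA2₀ hn hj hs𝔫 in
/-- `ord_s (redG u) = 1`. -/
theorem mS_uK : mS N p hpN A hA2 S₂ s (uK N p A hKL u₀) = 1 := by
  exact (Fermat.Agent.S40.M1.SSNode.muS_algebraMap (Lvl K) N p (baseRing A K)
    (Fermat.Agent.P3G.GammaV2.lvlToComplex K) hpN hA2 S₂ s (finIncl A (N * p) hKL u₀)).trans
    (ord_redFinL_eq_one_levels N p hpN A hA hKL hK₀ hK hA2₀ hA2 S₂ hn s hj hs𝔫)

include hA hK₀ hK hA2₀ hϖ hn ht₁ ht₂ hj hs𝔫 in
/-- **(L1) The factorisation at a crossing point of a good level**: `f = u ^ (m − p k) β ^ p W`. -/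
theorem factor_levels {f : FF (Lvl K) (N * p)} (hf0 : f ≠ 0)
    (hf₁ : (gaussVS (Lvl K) (N * p) (baseRing A K)).valuation f = 1)
    (D : Place (Lvl K) (FF (Lvl K) (N * p)) → ℤ)
    (hfD : ∀ Q ∈ centredSet (F := FF (Lvl K) (N * p)) (Lvl K) 𝔫, Q.ord f = p * D Q)
    {β : FF (Lvl K) (N * p)} (hβ0 : β ≠ 0)
    (hβ₁ : (gaussVS (Lvl K) (N * p) (baseRing A K)).valuation β = 1)
    (hβQ : ∀ Q ∈ centredSet (F := FF (Lvl K) (N * p)) (Lvl K) 𝔫, Q.ord β = D Q) :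
    ∃ W : FF (Lvl K) (N * p), IsUnitAt 𝔫 W ∧
      f = uK N p A hKL u₀ ^ (mS N p hpN A hA2 S₂ s f - p * mS N p hpN A hA2 S₂ s β) *
        β ^ p * W := by
  have hmul := Fermat.Agent.S40.M1.SSNode.muMul_muS (Lvl K) N p (baseRing A K)
    (Fermat.Agent.P3G.GammaV2.lvlToComplex K) hpN hA2 S₂ s
  have hβp0 : β ^ p ≠ 0 := pow_ne_zero _ hβ0
  have hβp₁ : (gaussVS (Lvl K) (N * p) (baseRing A K)).valuation (β ^ p) = 1 := by
    rw [map_pow, hβ₁, one_pow]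
  have hg0 : f / β ^ p ≠ 0 := div_ne_zero hf0 hβp0
  have hg₁ : (gaussVS (Lvl K) (N * p) (baseRing A K)).valuation (f / β ^ p) = 1 := by
    rw [map_div₀, hf₁, hβp₁, div_one]
  have hμ : mS N p hpN A hA2 S₂ s (f / β ^ p) =
      mS N p hpN A hA2 S₂ s f - p * mS N p hpN A hA2 S₂ s β := by
    unfold mS
    rw [hmul.mu_div hf₁ hβp₁, hmul.mu_pow hβ₁]
  have hgQ : ∀ Q ∈ centredSet (F := FF (Lvl K) (N * p)) (Lvl K) 𝔫, Q.ord (f / β ^ p) = 0 := by
    intro Q hQ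
    rw [div_eq_mul_inv, Q.ord_mul hf0 (inv_ne_zero hβp0), Q.ord_inv, hfD Q hQ, ← zpow_natCast,
      Q.ord_zpow, hβQ Q hQ]
    ring
  obtain ⟨W, hW, hgW, -⟩ := slope_levels N p hpN A hA hKL hK₀ hK hA2₀ hA2 S₂ hϖ hn ht₁ ht₂ s hj
    hs𝔫 hg0 hg₁ hgQ
  rw [← mS_eq N p hpN A hA2 S₂ s hg₁, hμ] at hgW
  refine ⟨W, hW, ?_⟩
  have h1 : f = β ^ p * (f / β ^ p) := by field_simp
  calc f = β ^ p * (f / β ^ p) := h1
    _ = β ^ p * (uK N p A hKL u₀ ^ (mS N p hpN A hA2 S₂ s f -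
          p * mS N p hpN A hA2 S₂ s β) * W) := congrArg (fun t => β ^ p * t) hgW
    _ = uK N p A hKL u₀ ^ (mS N p hpN A hA2 S₂ s f - p * mS N p hpN A hA2 S₂ s β) *
          β ^ p * W := by ring

include hn in
theorem uK_ne_zero : uK N p A hKL u₀ ≠ 0 :=
  Fermat.Agent.S40.M1.NodeFactor.ne_zero_of_valuation_eq_one hn.val₁_u

include hA hK₀ hK hA2₀ hϖ hn ht₁ ht₂ hj hs𝔫 in
/-- **(L2) The two norm equations at a crossing point of a good level.** -/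
theorem step_levels {f : FF (Lvl K) (N * p)} (hf0 : f ≠ 0)
    (hf₁ : (gaussVS (Lvl K) (N * p) (baseRing A K)).valuation f = 1)
    (D : Place (Lvl K) (FF (Lvl K) (N * p)) → ℤ)
    (hfD : ∀ Q ∈ centredSet (F := FF (Lvl K) (N * p)) (Lvl K) 𝔫, Q.ord f = p * D Q)
    {β : FF (Lvl K) (N * p)} (hβ0 : β ≠ 0)
    (hβ₁ : (gaussVS (Lvl K) (N * p) (baseRing A K)).valuation β = 1)
    (hβQ : ∀ Q ∈ centredSet (F := FF (Lvl K) (N * p)) (Lvl K) 𝔫, Q.ord β = D Q)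
    {hA' hB' : FF (Lvl K) N} (hNα : normAlphaK K N p f = hA' ^ p)
    (hNβ : normBetaK K N p f = hB' ^ p) :
    ∃ W : FF (Lvl K) (N * p), IsUnitAt 𝔫 W ∧
      f = uK N p A hKL u₀ ^ (mS N p hpN A hA2 S₂ s f - p * mS N p hpN A hA2 S₂ s β) *
        β ^ p * W ∧
      (hA' / normAlphaK K N p β) ^ p =
        normAlphaK K N p (uK N p A hKL u₀) ^
          (mS N p hpN A hA2 S₂ s f - p * mS N p hpN A hA2 S₂ s β) * normAlphaK K N p W ∧
      (hB' / normBetaK K N p β) ^ p =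
        normBetaK K N p (uK N p A hKL u₀) ^
          (mS N p hpN A hA2 S₂ s f - p * mS N p hpN A hA2 S₂ s β) * normBetaK K N p W := by
  obtain ⟨W, hW, hfac⟩ := factor_levels N p hpN A hA hKL hK₀ hK hA2₀ hA2 S₂ hϖ hn ht₁ ht₂ s hj hs𝔫
    hf0 hf₁ D hfD hβ0 hβ₁ hβQ
  have hu0 := uK_ne_zero N p A hKL S₂ hn
  exact ⟨W, hW, hfac,
    Fermat.Agent.S40.M1.NodeNormStep.pow_div_norm_eq (normAlphaK K N p) hu0 hβ0 hfac hNα,
    Fermat.Agent.S40.M1.NodeNormStep.pow_div_norm_eq (normBetaK K N p) hu0 hβ0 hfac hNβ⟩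

/-- The shape of **(R4b)** at the test places `Q_α`, `Q_β` (helper5 #3224 (1), target of `NodeDLevel`):
for every unit `W` at `𝔫` the two norms are units at the test places and their values differ by a
multiple of `p`. -/
def R4b (𝒜 : ValuationSubring (Lvl K)) (𝔫 : Ideal ↥(Rfin (Lvl K) (N * p) (baseRing A K)))
    (Qα Qβ : Place (Lvl K) (FF (Lvl K) N))
    (hQα : Function.Bijective (algebraMap (Lvl K) Qα.ResidueField))
    (hQβ : Function.Bijective (algebraMap (Lvl K) Qβ.ResidueField)) : Prop :=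
  ∀ W : FF (Lvl K) (N * p), IsUnitAt 𝔫 W →
    Qα.toValuationSubring.valuation (normAlphaK K N p W) = 1 ∧
    Qβ.toValuationSubring.valuation (normBetaK K N p W) = 1 ∧
    (valT Qβ hQβ (normBetaK K N p W))⁻¹ ∈ 𝒜 ∧
    ∃ d ∈ 𝒜, valT Qα hQα (normAlphaK K N p W) =
      valT Qβ hQβ (normBetaK K N p W) + ((p : ℕ) : Lvl K) * d

include hA hK₀ hK hA2₀ hϖ hn ht₁ ht₂ hj hs𝔫 in
/-- ★ **(L3) The node identity at a crossing point of a good level**, from the NAMED level facts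
(R4a) (`hUα hUβ hUαv heA hUβv heB`) and (R4b). -/
theorem r4_level (𝒜 : ValuationSubring (Lvl K)) (hπ : ((p : ℕ) : Lvl K) ∈ 𝒜.nonunits)
    {f : FF (Lvl K) (N * p)} (hf0 : f ≠ 0)
    (hf₁ : (gaussVS (Lvl K) (N * p) (baseRing A K)).valuation f = 1)
    (D : Place (Lvl K) (FF (Lvl K) (N * p)) → ℤ)
    (hfD : ∀ Q ∈ centredSet (F := FF (Lvl K) (N * p)) (Lvl K) 𝔫, Q.ord f = p * D Q)
    {β : FF (Lvl K) (N * p)} (hβ0 : β ≠ 0)
    (hβ₁ : (gaussVS (Lvl K) (N * p) (baseRing A K)).valuation β = 1)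
    (hβQ : ∀ Q ∈ centredSet (F := FF (Lvl K) (N * p)) (Lvl K) 𝔫, Q.ord β = D Q)
    {hA' hB' : FF (Lvl K) N} (hNα : normAlphaK K N p f = hA' ^ p)
    (hNβ : normBetaK K N p f = hB' ^ p)
    (Qα Qβ : Place (Lvl K) (FF (Lvl K) N))
    (hQα : Function.Bijective (algebraMap (Lvl K) Qα.ResidueField))
    (hQβ : Function.Bijective (algebraMap (Lvl K) Qβ.ResidueField))
    (hUα : Qα.toValuationSubring.valuation (normAlphaK K N p (uK N p A hKL u₀)) = 1)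
    (hUβ : Qβ.toValuationSubring.valuation (normBetaK K N p (uK N p A hKL u₀)) = 1)
    {tA tB eA eB : Lvl K} (htA : tA ≠ 0) (htB : tB ≠ 0)
    (hUαv : valT Qα hQα (normAlphaK K N p (uK N p A hKL u₀)) =
      ((p : ℕ) : Lvl K) ^ p * tA ^ p * eA) (heA : IsPU 𝒜 ((p : ℕ) : Lvl K) eA)
    (hUβv : valT Qβ hQβ (normBetaK K N p (uK N p A hKL u₀)) =
      ((p : ℕ) : Lvl K) * tB ^ p * eB) (heB : IsPU 𝒜 ((p : ℕ) : Lvl K) eB)
    (hR4b : R4b N p A 𝒜 𝔫 Qα Qβ hQα hQβ) :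
    ∃ y : Lvl K,
      y = yNode (normAlphaK K N p) (normBetaK K N p) Qα Qβ hQα hQβ hA' hB' β tA tB
            (mS N p hpN A hA2 S₂ s f - p * mS N p hpN A hA2 S₂ s β) *
          ((p : ℕ) : Lvl K) ^ (((p - 1 : ℕ) : ℤ) * mS N p hpN A hA2 S₂ s β) ∧
      y ≠ 0 ∧
      (y ^ p / ((p : ℕ) : Lvl K) ^ (((p - 1 : ℕ) : ℤ) * mS N p hpN A hA2 S₂ s f) - 1) /
        ((p : ℕ) : Lvl K) ∈ 𝒜 := by
  have hp : p.Prime := Fact.out
  have hπ0 : ((p : ℕ) : Lvl K) ≠ 0 := Nat.cast_ne_zero.2 hp.ne_zero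
  obtain ⟨W, hW, -, hstepA, hstepB⟩ := step_levels N p hpN A hA hKL hK₀ hK hA2₀ hA2 S₂ hϖ hn ht₁
    ht₂ s hj hs𝔫 hf0 hf₁ D hfD hβ0 hβ₁ hβQ hNα hNβ
  obtain ⟨hWα, hWβ, hinv, d, hd, hdiff⟩ := hR4b W hW
  have hWq : IsPU 𝒜 ((p : ℕ) : Lvl K)
      (valT Qα hQα (normAlphaK K N p W) / valT Qβ hQβ (normBetaK K N p W)) :=
    isPU_div_of_eq_add hinv (valT_ne_zero Qβ hQβ hWβ) hd hdiff
  exact exists_y_of_node (hQα := hQα) (hQβ := hQβ) hπ hπ0 hp.pos rfl hstepA hstepB hUα hUβ hWα hWβ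
    htA htB hUαv heA hUβv heB hWq

/-- **(L4) Galois invariance of the node invariant**: the `y` of `r4_level` is fixed by every pair
`(σ, σ')` of semilinear automorphisms of `F`, `F'` (over the same automorphism of `Lvl K`) commuting
with the two norms and fixing `β`, `h_A`, `h_B`, the test places and `t_A`, `t_B`. -/
theorem r4_level_fixed
    (σ : SemilinearAut (Lvl K) (FF (Lvl K) (N * p))) (σ' : SemilinearAut (Lvl K) (FF (Lvl K) N))
    (hNα : ∀ g : FF (Lvl K) (N * p), normAlphaK K N p (σ • g) = σ' • normAlphaK K N p g)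
    (hNβ : ∀ g : FF (Lvl K) (N * p), normBetaK K N p (σ • g) = σ' • normBetaK K N p g)
    {β : FF (Lvl K) (N * p)} (hβ : σ • β = β) {hA' hB' : FF (Lvl K) N}
    (hhA : σ' • hA' = hA') (hhB : σ' • hB' = hB')
    (Qα Qβ : Place (Lvl K) (FF (Lvl K) N))
    (hQα : Function.Bijective (algebraMap (Lvl K) Qα.ResidueField))
    (hQβ : Function.Bijective (algebraMap (Lvl K) Qβ.ResidueField))
    (hσα : σ' • Qα = Qα) (hσβ : σ' • Qβ = Qβ) {tA tB : Lvl K}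
    (htA : SemilinearAut.baseAut σ' tA = tA) (htB : SemilinearAut.baseAut σ' tB = tB)
    (n k : ℤ) :
    SemilinearAut.baseAut σ'
        (yNode (normAlphaK K N p) (normBetaK K N p) Qα Qβ hQα hQβ hA' hB' β tA tB n *
          ((p : ℕ) : Lvl K) ^ k) =
      yNode (normAlphaK K N p) (normBetaK K N p) Qα Qβ hQα hQβ hA' hB' β tA tB n *
        ((p : ℕ) : Lvl K) ^ k := by
  rw [map_mul, map_zpow₀, map_natCast,
    yNode_fixed (hQα := hQα) (hQβ := hQβ) σ σ' hNα hNβ hβ hhA hhB hσα hσβ htA htB n]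


/-! ### The assembled level theorem, `β` the canonical local generator -/

include hA hK₀ hK hA2₀ hϖ hn ht₁ ht₂ hj hs𝔫 in
/-- ★★ **(R4) at a crossing point of a good level, from the NAMED level facts [H3], [R4a], [R4b]**
(the level form of helper5's `R4Node.r4_node_abs`; the blocks [NF], [U] are discharged by
`NodeHonest.slope_levels`).  `β := betaS u S D c`, `y := yNode … · p ^ ((p − 1) · ord_s (redG β))`. -/
theorem r4_node_level (𝒜 : ValuationSubring (Lvl K)) (hπ : ((p : ℕ) : Lvl K) ∈ 𝒜.nonunits)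
    {f : FF (Lvl K) (N * p)} (hf0 : f ≠ 0)
    (hf₁ : (gaussVS (Lvl K) (N * p) (baseRing A K)).valuation f = 1)
    (D : Place (Lvl K) (FF (Lvl K) (N * p)) → ℤ)
    (hfD : ∀ Q ∈ centredSet (F := FF (Lvl K) (N * p)) (Lvl K) 𝔫, Q.ord f = p * D Q)
    {hA' hB' : FF (Lvl K) N} (hNα : normAlphaK K N p f = hA' ^ p)
    (hNβ : normBetaK K N p f = hB' ^ p)
    -- [H3]
    (S : Finset (Place (Lvl K) (FF (Lvl K) (N * p))))
    (hS : ∀ Q ∈ centredSet (F := FF (Lvl K) (N * p)) (Lvl K) 𝔫, Q ∉ S → D Q = 0)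
    (c : Place (Lvl K) (FF (Lvl K) (N * p)) → Lvl K)
    (hc₁ : ∀ P ∈ S, (gaussVS (Lvl K) (N * p) (baseRing A K)).valuation
      (uK N p A hKL u₀ - algebraMap (Lvl K) (FF (Lvl K) (N * p)) (c P)) = 1)
    (hc1 : ∀ P ∈ S, P.ord (uK N p A hKL u₀ - algebraMap (Lvl K) (FF (Lvl K) (N * p)) (c P)) = 1)
    (hc2 : ∀ P ∈ S, ∀ Q ∈ centredSet (F := FF (Lvl K) (N * p)) (Lvl K) 𝔫, Q ≠ P →
      Q.ord (uK N p A hKL u₀ - algebraMap (Lvl K) (FF (Lvl K) (N * p)) (c P)) = 0)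
    -- [R4a]
    (Qα Qβ : Place (Lvl K) (FF (Lvl K) N))
    (hQα : Function.Bijective (algebraMap (Lvl K) Qα.ResidueField))
    (hQβ : Function.Bijective (algebraMap (Lvl K) Qβ.ResidueField))
    (hUα : Qα.toValuationSubring.valuation (normAlphaK K N p (uK N p A hKL u₀)) = 1)
    (hUβ : Qβ.toValuationSubring.valuation (normBetaK K N p (uK N p A hKL u₀)) = 1)
    {tA tB eA eB : Lvl K} (htA : tA ≠ 0) (htB : tB ≠ 0)
    (hUαv : valT Qα hQα (normAlphaK K N p (uK N p A hKL u₀)) =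
      ((p : ℕ) : Lvl K) ^ p * tA ^ p * eA) (heA : IsPU 𝒜 ((p : ℕ) : Lvl K) eA)
    (hUβv : valT Qβ hQβ (normBetaK K N p (uK N p A hKL u₀)) =
      ((p : ℕ) : Lvl K) * tB ^ p * eB) (heB : IsPU 𝒜 ((p : ℕ) : Lvl K) eB)
    -- [R4b]
    (hR4b : R4b N p A 𝒜 𝔫 Qα Qβ hQα hQβ) :
    ∃ y : Lvl K, y ≠ 0 ∧
      (y ^ p / ((p : ℕ) : Lvl K) ^ (((p - 1 : ℕ) : ℤ) *
        s.ord (redG (Lvl K) N p (baseRing A K) (Fermat.Agent.P3G.GammaV2.lvlToComplex K) hpN hA2 S₂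
          ⟨f, mem_gauss_of_valuation_eq_one (Lvl K) N p (baseRing A K) hf₁⟩)) - 1) /
        ((p : ℕ) : Lvl K) ∈ 𝒜 ∧
      ∀ (σ : SemilinearAut (Lvl K) (FF (Lvl K) (N * p)))
        (σ' : SemilinearAut (Lvl K) (FF (Lvl K) N)),
        (∀ g : FF (Lvl K) (N * p), normAlphaK K N p (σ • g) = σ' • normAlphaK K N p g) →
        (∀ g : FF (Lvl K) (N * p), normBetaK K N p (σ • g) = σ' • normBetaK K N p g) →
        σ • uK N p A hKL u₀ = uK N p A hKL u₀ → (∀ P ∈ S, σ • P ∈ S) →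
        (∀ P ∈ S, D (σ • P) = D P) → (∀ P ∈ S, c (σ • P) = SemilinearAut.baseAut σ (c P)) →
        σ' • hA' = hA' → σ' • hB' = hB' → σ' • Qα = Qα → σ' • Qβ = Qβ →
        SemilinearAut.baseAut σ' tA = tA → SemilinearAut.baseAut σ' tB = tB →
        SemilinearAut.baseAut σ' y = y := by
  haveI : IsFractionRing ↥(Rfin (Lvl K) (N * p) (baseRing A K)) (FF (Lvl K) (N * p)) :=
    Fermat.Agent.N4F.C.ChartDataLevel.isFractionRing_Rfin (Lvl K) (N * p) (baseRing A K)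
  have h0 : ∀ P ∈ S, uK N p A hKL u₀ - algebraMap (Lvl K) (FF (Lvl K) (N * p)) (c P) ≠ 0 :=
    fun P hP => Fermat.Agent.S40.M1.NodeFactor.ne_zero_of_valuation_eq_one (hc₁ P hP)
  have hβ0 : Fermat.Agent.S40.M1.R4Node.betaS (uK N p A hKL u₀) S D c ≠ 0 :=
    Fermat.Agent.S40.M1.R4Node.betaS_ne_zero h0
  have hβ₁ : (gaussVS (Lvl K) (N * p) (baseRing A K)).valuation
      (Fermat.Agent.S40.M1.R4Node.betaS (uK N p A hKL u₀) S D c) = 1 :=
    Fermat.Agent.S40.M1.R4Node.valuation_betaS _ hc₁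
  have hβQ : ∀ Q ∈ centredSet (F := FF (Lvl K) (N * p)) (Lvl K) 𝔫,
      Q.ord (Fermat.Agent.S40.M1.R4Node.betaS (uK N p A hKL u₀) S D c) = D Q := fun Q hQ =>
    Fermat.Agent.S40.M1.R4Node.ord_betaS 𝔫 S D hS c h0 hc1 hc2 hQ
  obtain ⟨y, hy, hy0, hymem⟩ := r4_level N p hpN A hA hKL hK₀ hK hA2₀ hA2 S₂ hϖ hn ht₁ ht₂ s hj
    hs𝔫 𝒜 hπ hf0 hf₁ D hfD hβ0 hβ₁ hβQ hNα hNβ Qα Qβ hQα hQβ hUα hUβ htA htB hUαv heA hUβv heB
    hR4b
  refine ⟨y, hy0, ?_, ?_⟩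
  · rw [← mS_eq N p hpN A hA2 S₂ s hf₁]
    exact hymem
  · intro σ σ' hσα hσβ hσu hσS hσD hσc hσhA hσhB hσQα hσQβ hσtA hσtB
    have hβσ : σ • Fermat.Agent.S40.M1.R4Node.betaS (uK N p A hKL u₀) S D c =
        Fermat.Agent.S40.M1.R4Node.betaS (uK N p A hKL u₀) S D c :=
      Fermat.Agent.S40.M1.R4Node.smul_betaS σ hσu S hσS D hσD c hσc
    rw [hy]
    exact r4_level_fixed N p σ σ' hσα hσβ hβσ hσhA hσhB Qα Qβ hQα hQβ hσQα hσQβ hσtA hσtB _ _

/-- `((p − 1 : ℕ) : ℤ) = (p : ℤ) − 1` (the exponent shape of `SSLeafAsm.R4Leaf`). -/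
theorem natCast_pred_eq : (((p - 1 : ℕ)) : ℤ) = (p : ℤ) - 1 := by
  have hp : p.Prime := Fact.out
  have h1 : 1 ≤ p := hp.one_lt.le
  push_cast [Nat.cast_sub h1]
  ring

end Levels

end Fermat.Agent.S40.M1.R4Level
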