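/-
S40/S44 (row 38, `moonshots` row 67), R4-I piece (I9) (dispatch helper8 #3210 (b)):
**the SEAM `r4_node` → (R5′) pack.**

(R4) produces, at a level `K` (an intermediate field of `ℚ̄/ℚ`, `Lvl K` its carrier,
`baseRing A K = A ∩ K`), an element `Y ≠ 0` of `Lvl K` with

  `Y ^ p = p ^ n * (1 + p * c)`,  `c ∈ baseRing A K`,

fixed by the inertia elements `σ ∈ I_A` with `Fix σ` ("fixes `ζ_p` and `V` pointwise").

* `approxRoot_of_level` / `approxRoot_of_level_nat` / `approxRoot_of_levelAut` : this is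
  `SSVanish.ApproxRoot p A Fix n` (helper20's arithmetic output shape of (R4)), `y := (Y : ℚ̄)`;
* `norm_natCast_le_norm_sub_one` : `‖p‖ ≤ ‖ζ − 1‖` in `Ω = PadicAlgCl p`;
* `norm_sub_one_le_of_level` : at `A = padicPlace p` the norm form
  `‖ι (y ^ p / p ^ n) − 1‖ ≤ ‖p‖ ≤ ‖ι ζ − 1‖` consumed by helper17's `dvd_of_inertia_fixed` /
  helper29's global pack;
* `hR5_of_pack` : the pack shape (`‖ι (y ^ p / p ^ n) − 1‖ ≤ ‖ι ζ − 1‖ → p ∣ n`) gives the `hR5`
  hypothesis of `SSVanish.dvd_of_approxRoot_padic` / `dvd_of_approxRoot_at`;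
* ★ `dvd_of_level` : pack + level data ⇒ `p ∣ n`.
-/
import Mathlib
import Fermat.Agent.S40.M1.SSVanish
import Fermat.Agent.S40.P.PeuVal
import Fermat.Agent.P3G.GammaAut

set_option autoImplicit false
set_option linter.unusedSectionVars false
set_option linter.style.haveILetI false

noncomputable section

namespace Fermat.Agent.S40.M1.R4Padic

open Fermat.Agent.N4F.C.Levels Fermat.Agent.N4.BigDVR Fermat.Agent.S40.M1.SSVanish
  Fermat.Agent.S40.M1.PlaceTransport Fermat.Agent.S40.P.PeuVal Fermat.Agent.P3G.GammaAut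
  Fermat.Agent.S55.LocalInt

local notation "Qbar" => AlgebraicClosure ℚ
local notation "Γ" => (AlgebraicClosure ℚ ≃ₐ[ℚ] AlgebraicClosure ℚ)

/-! ### From the level form to `ApproxRoot` (any place `A`) -/

section Level

variable {p : ℕ} (A : ValuationSubring Qbar) (K : IntermediateField ℚ Qbar)

/-- Membership in the base ring of a level is membership of the image in `A`. -/
theorem algebraMap_mem_of_mem_baseRing {c : Lvl K} (hc : c ∈ baseRing A K) :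
    algebraMap (Lvl K) Qbar c ∈ A :=
  (mem_tr_iff A (Lvl K)).mp hc

/-- **(I9), integer exponent.**  The level output of (R4) is an `ApproxRoot`. -/
theorem approxRoot_of_level (hp0 : p ≠ 0) (Fix : Γ → Prop) {Y : Lvl K} (hY : Y ≠ 0)
    {c : Lvl K} (hc : c ∈ baseRing A K) (n : ℤ)
    (hrel : Y ^ p = (p : Lvl K) ^ n * (1 + (p : Lvl K) * c))
    (hinv : ∀ σ ∈ A.inertiaSubgroupIn ℚ, Fix σ →
      σ (algebraMap (Lvl K) Qbar Y) = algebraMap (Lvl K) Qbar Y) :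
    ApproxRoot p A Fix n := by
  refine ⟨algebraMap (Lvl K) Qbar Y, (map_ne_zero _).mpr hY, hinv, ?_⟩
  have hpQ : (p : Qbar) ≠ 0 := by exact_mod_cast hp0
  have h1 : (algebraMap (Lvl K) Qbar Y) ^ p =
      (p : Qbar) ^ n * (1 + (p : Qbar) * algebraMap (Lvl K) Qbar c) := by
    rw [← map_pow, hrel, map_mul, map_zpow₀, map_add, map_one, map_mul, map_natCast]
  have h2 : ((algebraMap (Lvl K) Qbar Y) ^ p / (p : Qbar) ^ n - 1) / (p : Qbar) =
      algebraMap (Lvl K) Qbar c := by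
    rw [h1, mul_div_assoc, mul_comm, div_mul_cancel₀ _ (zpow_ne_zero n hpQ), add_sub_cancel_left,
      mul_div_assoc, mul_comm, div_mul_cancel₀ _ hpQ]
  rw [h2]
  exact algebraMap_mem_of_mem_baseRing A K hc

/-- **(I9), natural exponent.** -/
theorem approxRoot_of_level_nat (hp0 : p ≠ 0) (Fix : Γ → Prop) {Y : Lvl K} (hY : Y ≠ 0)
    {c : Lvl K} (hc : c ∈ baseRing A K) (n : ℕ)
    (hrel : Y ^ p = (p : Lvl K) ^ n * (1 + (p : Lvl K) * c))
    (hinv : ∀ σ ∈ A.inertiaSubgroupIn ℚ, Fix σ →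
      σ (algebraMap (Lvl K) Qbar Y) = algebraMap (Lvl K) Qbar Y) :
    ApproxRoot p A Fix (n : ℤ) :=
  approxRoot_of_level A K hp0 Fix hY hc (n : ℤ) (by rw [zpow_natCast]; exact hrel) hinv

/-- **(I9) for a `Γ`-stable level**, invariance stated with the level action `levelAut`. -/
theorem approxRoot_of_levelAut (hp0 : p ≠ 0) (Fix : Γ → Prop)
    (hK : ∀ (τ : Γ) (x : Qbar), x ∈ K → τ x ∈ K) {Y : Lvl K} (hY : Y ≠ 0)
    {c : Lvl K} (hc : c ∈ baseRing A K) (n : ℤ)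
    (hrel : Y ^ p = (p : Lvl K) ^ n * (1 + (p : Lvl K) * c))
    (hinv : ∀ σ ∈ A.inertiaSubgroupIn ℚ, Fix σ → levelAut K hK σ Y = Y) :
    ApproxRoot p A Fix n :=
  approxRoot_of_level A K hp0 Fix hY hc n hrel (fun σ hσ hF => by
    rw [← algebraMap_levelAut K hK σ Y, hinv σ hσ hF])

end Level

/-! ### The norm form at `padicPlace p` -/

section Padic

variable {p : ℕ} [Fact p.Prime]

local notation "Ω" => PadicAlgCl p

/-- `‖p‖ ≤ ‖ζ − 1‖` for a primitive `p`-th root of unity of `Ω`. -/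
theorem norm_natCast_le_norm_sub_one {ζ : Ω} (hζ : IsPrimitiveRoot ζ p) :
    ‖(p : Ω)‖ ≤ ‖ζ - 1‖ := by
  have hp : p.Prime := Fact.out
  rw [norm_natCast_self, ← norm_sub_one_pow hζ]
  have h1 : ‖ζ - 1‖ ≤ 1 := (norm_sub_one_lt_one hζ).le
  calc ‖ζ - 1‖ ^ (p - 1) ≤ ‖ζ - 1‖ ^ 1 :=
        pow_le_pow_of_le_one (norm_nonneg _) h1 (by have := hp.two_le; omega)
    _ = ‖ζ - 1‖ := pow_one _

/-- The image of a primitive root of unity under `padicEmbedding` is primitive. -/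
theorem isPrimitiveRoot_padicEmbedding {ζ : Qbar} (hζ : IsPrimitiveRoot ζ p) :
    IsPrimitiveRoot (padicEmbedding p ζ) p :=
  hζ.map_of_injective (padicEmbedding p).toRingHom.injective

/-- `ApproxRoot` at `padicPlace p` in norm form: `‖ι (y ^ p / p ^ n) − 1‖ ≤ ‖p‖`. -/
theorem norm_le_of_mem {y : Qbar} {n : ℤ}
    (happ : (y ^ p / (p : Qbar) ^ n - 1) / (p : Qbar) ∈ padicPlace p) :
    ‖padicEmbedding p (y ^ p / (p : Qbar) ^ n) - 1‖ ≤ ‖(p : Ω)‖ := by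
  have hp0 : ((p : ℕ) : ℚ) ≠ 0 := by exact_mod_cast (Fact.out : p.Prime).ne_zero
  have h1 : (y ^ p / (p : Qbar) ^ n - 1) / (((p : ℕ) : ℚ) : Qbar) ∈ padicPlace p := by
    simpa using happ
  have h2 := (mem_padicPlace_div_iff hp0 _).mp h1
  rw [map_sub, map_one] at h2
  simpa using h2

/-- The two norm inequalities consumed by the (R5′) pack, from the level output of (R4) at
`padicPlace p`. -/
theorem norm_sub_one_le_of_level (K : IntermediateField ℚ Qbar) {Y : Lvl K}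
    {c : Lvl K} (hc : c ∈ baseRing (padicPlace p) K) (n : ℤ)
    (hrel : Y ^ p = (p : Lvl K) ^ n * (1 + (p : Lvl K) * c))
    {ζ : Qbar} (hζ : IsPrimitiveRoot ζ p) :
    ‖padicEmbedding p ((algebraMap (Lvl K) Qbar Y) ^ p / (p : Qbar) ^ n) - 1‖ ≤
      ‖padicEmbedding p ζ - 1‖ := by
  have hp : p.Prime := Fact.out
  have hpQ : (p : Qbar) ≠ 0 := by exact_mod_cast hp.ne_zero
  have h1 : (algebraMap (Lvl K) Qbar Y) ^ p =
      (p : Qbar) ^ n * (1 + (p : Qbar) * algebraMap (Lvl K) Qbar c) := by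
    rw [← map_pow, hrel, map_mul, map_zpow₀, map_add, map_one, map_mul, map_natCast]
  have h2 : ((algebraMap (Lvl K) Qbar Y) ^ p / (p : Qbar) ^ n - 1) / (p : Qbar) =
      algebraMap (Lvl K) Qbar c := by
    rw [h1, mul_div_assoc, mul_comm, div_mul_cancel₀ _ (zpow_ne_zero n hpQ), add_sub_cancel_left,
      mul_div_assoc, mul_comm, div_mul_cancel₀ _ hpQ]
  refine (norm_le_of_mem (p := p) ?_).trans
    (norm_natCast_le_norm_sub_one (isPrimitiveRoot_padicEmbedding hζ))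
  rw [h2]
  exact algebraMap_mem_of_mem_baseRing (padicPlace p) K hc

/-- **The pack shape gives the `hR5` shape** of `SSVanish.dvd_of_approxRoot_padic` /
`dvd_of_approxRoot_at`. -/
theorem hR5_of_pack (Fix : Γ → Prop) {ζ : Qbar} (hζ : IsPrimitiveRoot ζ p)
    (hpack : ∀ y : Qbar, y ≠ 0 → ∀ n : ℤ,
      (∀ σ ∈ (padicPlace p).inertiaSubgroupIn ℚ, Fix σ → σ y = y) →
      ‖padicEmbedding p (y ^ p / (p : Qbar) ^ n) - 1‖ ≤ ‖padicEmbedding p ζ - 1‖ → (p : ℤ) ∣ n) :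
    ∀ y : Qbar, y ≠ 0 → ∀ n : ℤ,
      (∀ σ ∈ (padicPlace p).inertiaSubgroupIn ℚ, Fix σ → σ y = y) →
      ‖padicEmbedding p (y ^ p / (p : Qbar) ^ n - 1)‖ ≤ ‖(p : Ω)‖ → (p : ℤ) ∣ n := by
  intro y hy n hinv h
  refine hpack y hy n hinv ?_
  rw [map_sub, map_one] at h
  exact h.trans (norm_natCast_le_norm_sub_one (isPrimitiveRoot_padicEmbedding hζ))

/-- ★ **(I9) complete at `padicPlace p`:** the (R5′) pack and the level output of (R4) give
`p ∣ n`. -/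
theorem dvd_of_level (Fix : Γ → Prop) {ζ : Qbar} (hζ : IsPrimitiveRoot ζ p)
    (hpack : ∀ y : Qbar, y ≠ 0 → ∀ n : ℤ,
      (∀ σ ∈ (padicPlace p).inertiaSubgroupIn ℚ, Fix σ → σ y = y) →
      ‖padicEmbedding p (y ^ p / (p : Qbar) ^ n) - 1‖ ≤ ‖padicEmbedding p ζ - 1‖ → (p : ℤ) ∣ n)
    (K : IntermediateField ℚ Qbar) {Y : Lvl K} (hY : Y ≠ 0)
    {c : Lvl K} (hc : c ∈ baseRing (padicPlace p) K) (n : ℤ)
    (hrel : Y ^ p = (p : Lvl K) ^ n * (1 + (p : Lvl K) * c))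
    (hinv : ∀ σ ∈ (padicPlace p).inertiaSubgroupIn ℚ, Fix σ →
      σ (algebraMap (Lvl K) Qbar Y) = algebraMap (Lvl K) Qbar Y) : (p : ℤ) ∣ n :=
  hpack _ ((map_ne_zero _).mpr hY) n hinv (norm_sub_one_le_of_level K hc n hrel hζ)

/-- The same from an `ApproxRoot` at `padicPlace p`. -/
theorem dvd_of_approxRoot (Fix : Γ → Prop) {ζ : Qbar} (hζ : IsPrimitiveRoot ζ p)
    (hpack : ∀ y : Qbar, y ≠ 0 → ∀ n : ℤ,
      (∀ σ ∈ (padicPlace p).inertiaSubgroupIn ℚ, Fix σ → σ y = y) →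
      ‖padicEmbedding p (y ^ p / (p : Qbar) ^ n) - 1‖ ≤ ‖padicEmbedding p ζ - 1‖ → (p : ℤ) ∣ n)
    (n : ℤ) (h : ApproxRoot p (padicPlace p) Fix n) : (p : ℤ) ∣ n :=
  dvd_of_approxRoot_padic Fix (hR5_of_pack Fix hζ hpack) n h

end Padic

end Fermat.Agent.S40.M1.R4Padic
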