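/-
S40/S44 (row 38, `moonshots` row 67), R4-I piece (I9), LAST INCH (dispatch helper8 #3226 (1),
#3229 (b), #3258 (d)): **the arithmetic output of (R4) ⇒ `p ∣ n`, for the Frey package,
hypothesis-free** (helper29's unconditional global pack `PeuApproxFrey.dvd_of_copyOfE_p` plugged
into the seam `R4Padic`).

Context of the consumer (`Top/OfSS.SSStatement`, `M1/SS`): `P : FreyPackage`, `p = P.p ∣ abc`,
`W` an integral model of the Frey curve, `V` a copy of `W[p]` in `J₀(N)[p]`.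

The (R4)/(Q) output shape (helper20 #3175 (2), helper5 #3224 (Q), VERBATIM):

  `∃ y : ℚ̄, y ≠ 0 ∧ (∀ σ ∈ I_A, [σ ζ = ζ →] (∀ z ∈ V, σ z = z) → σ y = y) ∧
      (y ^ p / p ^ n − 1) / p ∈ A`.

* ★ `dvd_of_r4` : at `A = padicPlace p`, invariance under the `σ ∈ I_A` fixing `V`;
* ★ `dvd_of_r4_zeta` : the same with the extra hypothesis `σ ζ = ζ` in the invariance clause
  (it follows from "σ fixes `V`": `det = χ_p`, `CopyOfE.fixes_zeta_of_fixes`);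
* ★ `dvd_of_r4_at`, `dvd_of_r4_zeta_at` : at ANY place `A` over `p`
  (`PlaceTransport.dvd_of_approx_at_V`);
* `dvd_of_approxRoot_fixV`, `dvd_of_approxRoot_fixZetaV` (+ `_at`) : the same in helper20's
  vocabulary `SSVanish.ApproxRoot p A (fixV V) n`, `… (fixZetaV ζ V) n` — this is the hypothesis
  `hR5` of `SSVanish.ssVanishes_of_r4Out(_aux)` with `E := ApproxRoot p A Fix`;
* `dvd_of_dvd_pred_mul` : `p ∣ (p − 1) m → p ∣ m`; ★ `dvd_of_r4_pred(_zeta)(_at)` : the exponent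
  `n = (p − 1) · m` of `NodeInv.exists_y_of_node` ⇒ `p ∣ m`.
-/
import Mathlib
import Fermat.Agent.S40.M1.R4Padic
import Fermat.Agent.S40.P.PeuApproxFrey

set_option autoImplicit false
set_option linter.unusedSectionVars false
set_option linter.unusedVariables false
set_option linter.style.haveILetI false

noncomputable section

namespace Fermat.Agent.S40.M1.R4PadicFrey

open Fermat.Agent.N4F.Res Fermat.Agent.S40.Top.Eigen Fermat.Agent.S40.Top.CopyOfE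
  Fermat.Agent.S40.M1.SSVanish Fermat.Agent.S40.M1.PlaceTransport Fermat.Agent.S40.M1.R4Padic
  Fermat.Agent.S40.P.PeuApproxFrey

local notation "Qbar" => AlgebraicClosure ℚ
local notation "Γ" => (AlgebraicClosure ℚ ≃ₐ[ℚ] AlgebraicClosure ℚ)

/-! ### Arithmetic: `p ∣ (p − 1) m → p ∣ m` -/

/-- `p ∣ (p − 1) · m → p ∣ m` (the exponent of `NodeInv.exists_y_of_node`). -/
theorem dvd_of_dvd_pred_mul {p : ℕ} (hp : p.Prime) {m : ℤ}
    (h : (p : ℤ) ∣ (((p - 1 : ℕ) : ℤ)) * m) : (p : ℤ) ∣ m := by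
  have hcop : IsCoprime (p : ℤ) (((p - 1 : ℕ) : ℤ)) := by
    rw [Int.isCoprime_iff_gcd_eq_one, Int.gcd_natCast_natCast]
    refine (Nat.Prime.coprime_iff_not_dvd hp).mpr fun hd => ?_
    have h2 := hp.two_le
    have h3 := Nat.le_of_dvd (by omega) hd
    omega
  exact hcop.dvd_of_dvd_mul_left h

/-! ### The Frey package -/

variable (P : FreyPackage)

/-- ★ **(I9), last inch, at `padicPlace p`, invariance under the inertia elements fixing `V`.** -/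
theorem dvd_of_r4 (habc : (P.p : ℤ) ∣ P.a * P.b * P.c)
    {W : WeierstrassCurve ℤ} (hW : W.IsIntegralModelOf P.freyCurve)
    (hΔ : W.Δ ≠ 0) {N : ℕ} [NeZero N] :
    haveI : Fact P.p.Prime := ⟨P.pp⟩
    ∀ (V : Submodule (ZMod P.p) (Jtors N P.p)), CopyOfE W P.p V → ∀ n : ℤ,
      (∃ y : Qbar, y ≠ 0 ∧
        (∀ σ ∈ (padicPlace P.p).inertiaSubgroupIn ℚ,
          (∀ z : Jtors N P.p, z ∈ V → galTors N P.p σ z = z) → σ y = y) ∧
        (y ^ P.p / (P.p : Qbar) ^ n - 1) / (P.p : Qbar) ∈ padicPlace P.p) →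
      (P.p : ℤ) ∣ n := by
  haveI : Fact P.p.Prime := ⟨P.pp⟩
  rintro V hC n ⟨y, hy, hinv, happ⟩
  exact dvd_of_copyOfE_p P habc hW hΔ V hC hy n hinv (norm_le_of_mem happ)

/-- ★ **(I9), last inch, at `padicPlace p`, helper20's shape #3175 (2) VERBATIM** (invariance under
the inertia elements fixing `ζ_p` and `V`). -/
theorem dvd_of_r4_zeta (habc : (P.p : ℤ) ∣ P.a * P.b * P.c)
    {W : WeierstrassCurve ℤ} (hW : W.IsIntegralModelOf P.freyCurve)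
    (hΔ : W.Δ ≠ 0) {N : ℕ} [NeZero N] :
    haveI : Fact P.p.Prime := ⟨P.pp⟩
    ∀ (V : Submodule (ZMod P.p) (Jtors N P.p)), CopyOfE W P.p V →
    ∀ {ζ : Qbar}, IsPrimitiveRoot ζ P.p → ∀ n : ℤ,
      (∃ y : Qbar, y ≠ 0 ∧
        (∀ σ ∈ (padicPlace P.p).inertiaSubgroupIn ℚ, σ ζ = ζ →
          (∀ z : Jtors N P.p, z ∈ V → galTors N P.p σ z = z) → σ y = y) ∧
        (y ^ P.p / (P.p : Qbar) ^ n - 1) / (P.p : Qbar) ∈ padicPlace P.p) →
      (P.p : ℤ) ∣ n := by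
  haveI : Fact P.p.Prime := ⟨P.pp⟩
  rintro V hC ζ hζ n ⟨y, hy, hinv, happ⟩
  have hp2 : P.p ≠ 2 := by
    have := P.hp5
    omega
  refine dvd_of_r4 P habc hW hΔ V hC n ⟨y, hy, fun σ hσ hV => hinv σ hσ ?_ hV, happ⟩
  exact fixes_zeta_of_fixes hΔ hp2 σ (hC.fixes_of_fixes' σ hV) hζ

/-- ★ **(I9), last inch, at ANY place over `p`**, invariance under the inertia elements fixing
`V`. -/
theorem dvd_of_r4_at (habc : (P.p : ℤ) ∣ P.a * P.b * P.c)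
    {W : WeierstrassCurve ℤ} (hW : W.IsIntegralModelOf P.freyCurve)
    (hΔ : W.Δ ≠ 0) {N : ℕ} [NeZero N] :
    haveI : Fact P.p.Prime := ⟨P.pp⟩
    ∀ (V : Submodule (ZMod P.p) (Jtors N P.p)), CopyOfE W P.p V →
    ∀ (A : ValuationSubring Qbar), A.LiesOverPrime P.p → ∀ n : ℤ,
      (∃ y : Qbar, y ≠ 0 ∧
        (∀ σ ∈ A.inertiaSubgroupIn ℚ,
          (∀ z : Jtors N P.p, z ∈ V → galTors N P.p σ z = z) → σ y = y) ∧
        (y ^ P.p / (P.p : Qbar) ^ n - 1) / (P.p : Qbar) ∈ A) →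
      (P.p : ℤ) ∣ n := by
  haveI : Fact P.p.Prime := ⟨P.pp⟩
  rintro V hC A hA n ⟨y, hy, hinv, happ⟩
  have hp0 : ((P.p : ℕ) : ℚ) ≠ 0 := by exact_mod_cast P.pp.ne_zero
  have hst : IsGalStable V := by
    obtain ⟨h, -⟩ := hC
    exact h
  refine dvd_of_approx_at_V (p := P.p) hst hp0 (fun y hy n hinv h => ?_) A hA hy n hinv ?_
  · refine dvd_of_copyOfE_p P habc hW hΔ V hC hy n hinv ?_
    rw [map_sub, map_one] at h
    simpa using h
  · simpa using happ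

/-- ★ **(I9), last inch, at ANY place over `p`, helper20's shape #3175 (2) VERBATIM.** -/
theorem dvd_of_r4_zeta_at (habc : (P.p : ℤ) ∣ P.a * P.b * P.c)
    {W : WeierstrassCurve ℤ} (hW : W.IsIntegralModelOf P.freyCurve)
    (hΔ : W.Δ ≠ 0) {N : ℕ} [NeZero N] :
    haveI : Fact P.p.Prime := ⟨P.pp⟩
    ∀ (V : Submodule (ZMod P.p) (Jtors N P.p)), CopyOfE W P.p V →
    ∀ {ζ : Qbar}, IsPrimitiveRoot ζ P.p →
    ∀ (A : ValuationSubring Qbar), A.LiesOverPrime P.p → ∀ n : ℤ,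
      (∃ y : Qbar, y ≠ 0 ∧
        (∀ σ ∈ A.inertiaSubgroupIn ℚ, σ ζ = ζ →
          (∀ z : Jtors N P.p, z ∈ V → galTors N P.p σ z = z) → σ y = y) ∧
        (y ^ P.p / (P.p : Qbar) ^ n - 1) / (P.p : Qbar) ∈ A) →
      (P.p : ℤ) ∣ n := by
  haveI : Fact P.p.Prime := ⟨P.pp⟩
  rintro V hC ζ hζ A hA n ⟨y, hy, hinv, happ⟩
  have hp2 : P.p ≠ 2 := by
    have := P.hp5
    omega
  refine dvd_of_r4_at P habc hW hΔ V hC A hA n ⟨y, hy, fun σ hσ hV => hinv σ hσ ?_ hV, happ⟩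
  exact fixes_zeta_of_fixes hΔ hp2 σ (hC.fixes_of_fixes' σ hV) hζ

/-! ### In the vocabulary `SSVanish.ApproxRoot` -/

/-- (R5) for `ApproxRoot p (padicPlace p) (fixV V)` — the hypothesis `hR5` of
`SSVanish.ssVanishes_of_r4Out` with `E := ApproxRoot p (padicPlace p) (fixV V)`. -/
theorem dvd_of_approxRoot_fixV (habc : (P.p : ℤ) ∣ P.a * P.b * P.c)
    {W : WeierstrassCurve ℤ} (hW : W.IsIntegralModelOf P.freyCurve)
    (hΔ : W.Δ ≠ 0) {N : ℕ} [NeZero N] :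
    haveI : Fact P.p.Prime := ⟨P.pp⟩
    ∀ (V : Submodule (ZMod P.p) (Jtors N P.p)), CopyOfE W P.p V → ∀ n : ℤ,
      ApproxRoot P.p (padicPlace P.p) (fixV V) n → (P.p : ℤ) ∣ n := by
  haveI : Fact P.p.Prime := ⟨P.pp⟩
  rintro V hC n ⟨y, hy, hinv, happ⟩
  exact dvd_of_r4 P habc hW hΔ V hC n ⟨y, hy, hinv, happ⟩

/-- (R5) for `ApproxRoot p A (fixV V)` at any place over `p`. -/
theorem dvd_of_approxRoot_fixV_at (habc : (P.p : ℤ) ∣ P.a * P.b * P.c)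
    {W : WeierstrassCurve ℤ} (hW : W.IsIntegralModelOf P.freyCurve)
    (hΔ : W.Δ ≠ 0) {N : ℕ} [NeZero N] :
    haveI : Fact P.p.Prime := ⟨P.pp⟩
    ∀ (V : Submodule (ZMod P.p) (Jtors N P.p)), CopyOfE W P.p V →
    ∀ (A : ValuationSubring Qbar), A.LiesOverPrime P.p → ∀ n : ℤ,
      ApproxRoot P.p A (fixV V) n → (P.p : ℤ) ∣ n := by
  haveI : Fact P.p.Prime := ⟨P.pp⟩
  rintro V hC A hA n ⟨y, hy, hinv, happ⟩
  exact dvd_of_r4_at P habc hW hΔ V hC A hA n ⟨y, hy, hinv, happ⟩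

/-- (R5) for `ApproxRoot p (padicPlace p) (fixZetaV ζ V)`. -/
theorem dvd_of_approxRoot_fixZetaV (habc : (P.p : ℤ) ∣ P.a * P.b * P.c)
    {W : WeierstrassCurve ℤ} (hW : W.IsIntegralModelOf P.freyCurve)
    (hΔ : W.Δ ≠ 0) {N : ℕ} [NeZero N] :
    haveI : Fact P.p.Prime := ⟨P.pp⟩
    ∀ (V : Submodule (ZMod P.p) (Jtors N P.p)), CopyOfE W P.p V →
    ∀ {ζ : Qbar}, IsPrimitiveRoot ζ P.p → ∀ n : ℤ,
      ApproxRoot P.p (padicPlace P.p) (fixZetaV ζ V) n → (P.p : ℤ) ∣ n := by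
  haveI : Fact P.p.Prime := ⟨P.pp⟩
  rintro V hC ζ hζ n ⟨y, hy, hinv, happ⟩
  exact dvd_of_r4_zeta P habc hW hΔ V hC hζ n
    ⟨y, hy, fun σ hσ h1 h2 => hinv σ hσ ⟨h1, h2⟩, happ⟩

/-- (R5) for `ApproxRoot p A (fixZetaV ζ V)` at any place over `p`. -/
theorem dvd_of_approxRoot_fixZetaV_at (habc : (P.p : ℤ) ∣ P.a * P.b * P.c)
    {W : WeierstrassCurve ℤ} (hW : W.IsIntegralModelOf P.freyCurve)
    (hΔ : W.Δ ≠ 0) {N : ℕ} [NeZero N] :
    haveI : Fact P.p.Prime := ⟨P.pp⟩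
    ∀ (V : Submodule (ZMod P.p) (Jtors N P.p)), CopyOfE W P.p V →
    ∀ {ζ : Qbar}, IsPrimitiveRoot ζ P.p →
    ∀ (A : ValuationSubring Qbar), A.LiesOverPrime P.p → ∀ n : ℤ,
      ApproxRoot P.p A (fixZetaV ζ V) n → (P.p : ℤ) ∣ n := by
  haveI : Fact P.p.Prime := ⟨P.pp⟩
  rintro V hC ζ hζ A hA n ⟨y, hy, hinv, happ⟩
  exact dvd_of_r4_zeta_at P habc hW hΔ V hC hζ A hA n
    ⟨y, hy, fun σ hσ h1 h2 => hinv σ hσ ⟨h1, h2⟩, happ⟩

/-! ### The exponent `(p − 1) · m` of `NodeInv.exists_y_of_node` -/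

/-- ★ **(R4) ∘ (R5′) with the exponent of record** `n = (p − 1) · m`
(`m = ord_{s′}(red f̃)`): `p ∣ m`.  At `padicPlace p`, invariance under the inertia elements
fixing `V`. -/
theorem dvd_of_r4_pred (habc : (P.p : ℤ) ∣ P.a * P.b * P.c)
    {W : WeierstrassCurve ℤ} (hW : W.IsIntegralModelOf P.freyCurve)
    (hΔ : W.Δ ≠ 0) {N : ℕ} [NeZero N] :
    haveI : Fact P.p.Prime := ⟨P.pp⟩
    ∀ (V : Submodule (ZMod P.p) (Jtors N P.p)), CopyOfE W P.p V → ∀ m : ℤ,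
      (∃ y : Qbar, y ≠ 0 ∧
        (∀ σ ∈ (padicPlace P.p).inertiaSubgroupIn ℚ,
          (∀ z : Jtors N P.p, z ∈ V → galTors N P.p σ z = z) → σ y = y) ∧
        (y ^ P.p / (P.p : Qbar) ^ (((P.p - 1 : ℕ) : ℤ) * m) - 1) / (P.p : Qbar) ∈
          padicPlace P.p) →
      (P.p : ℤ) ∣ m := by
  haveI : Fact P.p.Prime := ⟨P.pp⟩
  intro V hC m h
  exact dvd_of_dvd_pred_mul P.pp (dvd_of_r4 P habc hW hΔ V hC _ h)

/-- The same, helper20's shape (invariance under the inertia elements fixing `ζ_p` and `V`). -/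
theorem dvd_of_r4_pred_zeta (habc : (P.p : ℤ) ∣ P.a * P.b * P.c)
    {W : WeierstrassCurve ℤ} (hW : W.IsIntegralModelOf P.freyCurve)
    (hΔ : W.Δ ≠ 0) {N : ℕ} [NeZero N] :
    haveI : Fact P.p.Prime := ⟨P.pp⟩
    ∀ (V : Submodule (ZMod P.p) (Jtors N P.p)), CopyOfE W P.p V →
    ∀ {ζ : Qbar}, IsPrimitiveRoot ζ P.p → ∀ m : ℤ,
      (∃ y : Qbar, y ≠ 0 ∧
        (∀ σ ∈ (padicPlace P.p).inertiaSubgroupIn ℚ, σ ζ = ζ →
          (∀ z : Jtors N P.p, z ∈ V → galTors N P.p σ z = z) → σ y = y) ∧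
        (y ^ P.p / (P.p : Qbar) ^ (((P.p - 1 : ℕ) : ℤ) * m) - 1) / (P.p : Qbar) ∈
          padicPlace P.p) →
      (P.p : ℤ) ∣ m := by
  haveI : Fact P.p.Prime := ⟨P.pp⟩
  intro V hC ζ hζ m h
  exact dvd_of_dvd_pred_mul P.pp (dvd_of_r4_zeta P habc hW hΔ V hC hζ _ h)

/-- The same at any place over `p`, invariance under the inertia elements fixing `V`. -/
theorem dvd_of_r4_pred_at (habc : (P.p : ℤ) ∣ P.a * P.b * P.c)
    {W : WeierstrassCurve ℤ} (hW : W.IsIntegralModelOf P.freyCurve)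
    (hΔ : W.Δ ≠ 0) {N : ℕ} [NeZero N] :
    haveI : Fact P.p.Prime := ⟨P.pp⟩
    ∀ (V : Submodule (ZMod P.p) (Jtors N P.p)), CopyOfE W P.p V →
    ∀ (A : ValuationSubring Qbar), A.LiesOverPrime P.p → ∀ m : ℤ,
      (∃ y : Qbar, y ≠ 0 ∧
        (∀ σ ∈ A.inertiaSubgroupIn ℚ,
          (∀ z : Jtors N P.p, z ∈ V → galTors N P.p σ z = z) → σ y = y) ∧
        (y ^ P.p / (P.p : Qbar) ^ (((P.p - 1 : ℕ) : ℤ) * m) - 1) / (P.p : Qbar) ∈ A) →
      (P.p : ℤ) ∣ m := by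
  haveI : Fact P.p.Prime := ⟨P.pp⟩
  intro V hC A hA m h
  exact dvd_of_dvd_pred_mul P.pp (dvd_of_r4_at P habc hW hΔ V hC A hA _ h)

/-- The same at any place over `p`, helper20's shape. -/
theorem dvd_of_r4_pred_zeta_at (habc : (P.p : ℤ) ∣ P.a * P.b * P.c)
    {W : WeierstrassCurve ℤ} (hW : W.IsIntegralModelOf P.freyCurve)
    (hΔ : W.Δ ≠ 0) {N : ℕ} [NeZero N] :
    haveI : Fact P.p.Prime := ⟨P.pp⟩
    ∀ (V : Submodule (ZMod P.p) (Jtors N P.p)), CopyOfE W P.p V →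
    ∀ {ζ : Qbar}, IsPrimitiveRoot ζ P.p →
    ∀ (A : ValuationSubring Qbar), A.LiesOverPrime P.p → ∀ m : ℤ,
      (∃ y : Qbar, y ≠ 0 ∧
        (∀ σ ∈ A.inertiaSubgroupIn ℚ, σ ζ = ζ →
          (∀ z : Jtors N P.p, z ∈ V → galTors N P.p σ z = z) → σ y = y) ∧
        (y ^ P.p / (P.p : Qbar) ^ (((P.p - 1 : ℕ) : ℤ) * m) - 1) / (P.p : Qbar) ∈ A) →
      (P.p : ℤ) ∣ m := by
  haveI : Fact P.p.Prime := ⟨P.pp⟩
  intro V hC ζ hζ A hA m h
  exact dvd_of_dvd_pred_mul P.pp (dvd_of_r4_zeta_at P habc hW hΔ V hC hζ A hA _ h)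

end Fermat.Agent.S40.M1.R4PadicFrey
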