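/-
S40 / T6′ static route (helper4): **THE NODE-FREE HEAD OF THE CHAIN AS ONE LEMMA, AND THE BOOKKEEPING OF
RESCALING.**

* ★ `exists_isRep_exact_norms` (= (R-DESC) ∘ (R3)): for `x` in the `θ`-eigenspace and the `p`-new part
  of `J₀(Mp)[p]`, fixed by `Gal(Q̄/K)` (`K ⊆ Q̄` ANY subfield), there is a representative
  `f_K ∈ FF (Lvl K) (M p)` of `x` BOTH of whose level norms are exact `p`-th powers over `K`;
  `exists_isRep_exact_norms_of_copyOfE` : the same for the elements of a copy `V` of `W[p]` and any `K`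
  over which `W[p]` is rational.
* rescaling bookkeeping for (NRM)/(T6-ASM): `IsRep`, exact norms and orders under multiplication by
  a constant of `K` and by a `p`-th power (`isRep_mul_pow`, `exists_pow_normAlphaK_mul_pow`,
  `exists_pow_normBetaK_mul_pow`, `ord_const_mul`, `ord_mul_pow`).
-/
import Mathlib
import Fermat.Agent.S40.M1.ThetaInvIrr
import Fermat.Agent.S40.M1.DescentSmall

set_option autoImplicit false
set_option linter.unusedSectionVars false
set_option linter.unusedVariables false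
set_option linter.style.haveILetI false

open ModularCurve AlgebraicCurve
open Fermat.Agent.N4.Setting Fermat.Agent.N4F.C Fermat.Agent.N4F.C.Levels
  Fermat.Agent.N4F.A.LevelMaps
open Fermat.Agent.N4F.Res
open Fermat.Agent.P3G.GammaDict
open Fermat.Agent.P4.Push Fermat.Agent.P4.FrobLevelStep
open Fermat.Agent.S40.New.Pack (IsRep)
open Fermat.Agent.S40.Top.Eigen Fermat.Agent.S40.Top.CopyOfE
open Fermat.Agent.S58.Form.Hres (Tp)

noncomputable section

namespace Fermat.Agent.S40.M1.Rescale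

local notation "Qbar" => AlgebraicClosure ℚ

/-! ### `IsRep` under `p`-th powers -/

section Rep

variable {N : ℕ} [NeZero N]

/-- Over `Q̄`: multiplying a representative by a `p`-th power keeps the class. -/
theorem isRep_mul_pow_bar {p : ℕ} {x : JZero N} {f g : Fb N} (hrep : IsRep p x f) (hg : g ≠ 0) :
    IsRep p x (f * g ^ p) := by
  obtain ⟨D, hD, hf⟩ := hrep
  haveI := hasPrincipalDivisors_bar N
  obtain ⟨E, hE, hE0⟩ := HasPrincipalDivisors.exists_divisor (K := Qb) g hg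
  have hgE : IsDivOf g E := ⟨hg, hE⟩
  set E₀ : Divisor.degZero (K := Qb) (F := Fb N) := ⟨E, hE0⟩ with hE₀def
  have hE₀mk : (Pic0.mk E₀ : JZero N) = 0 := (mk_eq_zero_iff E₀).mpr ⟨g, hgE⟩
  refine ⟨D + E₀, ?_, ?_⟩
  · rw [Pic0.mk_add, hE₀mk, add_zero, hD]
  · have h1 := hf.mul (hgE.pow p)
    have h2 : (p • ((D + E₀ : Divisor.degZero (K := Qb) (F := Fb N)) : Divisor Qb (Fb N))) =
        p • (D : Divisor Qb (Fb N)) + p • E := by
      rw [AddSubgroup.coe_add, smul_add]
    rw [h2]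
    exact h1

variable (K : IntermediateField ℚ Qbar)

/-- At a level: multiplying a representative by a `p`-th power keeps the class. -/
theorem isRep_mul_pow {p : ℕ} {x : JZero N} {fK g : FF (Lvl K) N}
    (hrep : IsRep p x (levK N K fK)) (hg : g ≠ 0) :
    IsRep p x (levK N K (fK * g ^ p)) := by
  rw [map_mul, map_pow]
  refine isRep_mul_pow_bar hrep ?_
  exact fun h => hg (Fermat.Agent.S40.M1.RootDescent.levK_injective K (by rw [h, map_zero]))

/-- Places are trivial on the constants. -/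
theorem ord_algebraMap (Q : Place (Lvl K) (FF (Lvl K) N)) {a : Lvl K} (ha : a ≠ 0) :
    Q.ord (algebraMap (Lvl K) (FF (Lvl K) N) a) = 0 := by
  have hu : IsUnit (⟨algebraMap (Lvl K) (FF (Lvl K) N) a, Q.algebraMap_mem' a⟩ :
      Q.toValuationSubring) := by
    refine isUnit_iff_exists_inv.mpr
      ⟨⟨algebraMap (Lvl K) (FF (Lvl K) N) a⁻¹, Q.algebraMap_mem' a⁻¹⟩, ?_⟩
    apply Subtype.ext
    show algebraMap (Lvl K) (FF (Lvl K) N) a * algebraMap (Lvl K) (FF (Lvl K) N) a⁻¹ = 1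
    rw [← map_mul, mul_inv_cancel₀ ha, map_one]
  exact Q.ord_coe_unit hu.unit

/-- Multiplying by a non-zero constant does not change the orders. -/
theorem ord_const_mul (Q : Place (Lvl K) (FF (Lvl K) N)) {a : Lvl K} (ha : a ≠ 0)
    {f : FF (Lvl K) N} (hf : f ≠ 0) :
    Q.ord (algebraMap (Lvl K) (FF (Lvl K) N) a * f) = Q.ord f := by
  rw [Q.ord_mul ((map_ne_zero _).mpr ha) hf, ord_algebraMap K Q ha, zero_add]

/-- Orders of `f · g^p`. -/
theorem ord_mul_pow (Q : Place (Lvl K) (FF (Lvl K) N)) {f g : FF (Lvl K) N} (hf : f ≠ 0)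
    (hg : g ≠ 0) (p : ℕ) : Q.ord (f * g ^ p) = Q.ord f + (p : ℤ) * Q.ord g := by
  rw [Q.ord_mul hf (pow_ne_zero _ hg), ← zpow_natCast, Q.ord_zpow]

end Rep

/-! ### Exact norms under `e`-th powers -/

section Norms

variable (K : IntermediateField ℚ Qbar) (M q : ℕ) [NeZero M] [NeZero q]

theorem exists_pow_normAlphaK_mul_pow {e : ℕ} {f : FF (Lvl K) (M * q)}
    (h : ∃ a' : FF (Lvl K) M, normAlphaK K M q f = a' ^ e) (g : FF (Lvl K) (M * q)) :
    ∃ a'' : FF (Lvl K) M, normAlphaK K M q (f * g ^ e) = a'' ^ e := by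
  obtain ⟨a', ha'⟩ := h
  exact ⟨a' * normAlphaK K M q g, by rw [map_mul, map_pow, ha', mul_pow]⟩

theorem exists_pow_normBetaK_mul_pow {e : ℕ} {f : FF (Lvl K) (M * q)}
    (h : ∃ b' : FF (Lvl K) M, normBetaK K M q f = b' ^ e) (g : FF (Lvl K) (M * q)) :
    ∃ b'' : FF (Lvl K) M, normBetaK K M q (f * g ^ e) = b'' ^ e := by
  obtain ⟨b', hb'⟩ := h
  exact ⟨b' * normBetaK K M q g, by rw [map_mul, map_pow, hb', mul_pow]⟩

end Norms

/-! ### (R-DESC) ∘ (R3) -/

section Head

variable {W : WeierstrassCurve ℤ} {p M : ℕ} [NeZero M] [Fact p.Prime]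

/-- ★ **The node-free head of the static route**: a `Gal(Q̄/K)`-fixed class `x` of the `θ`-eigenspace
and of the `p`-new part of `J₀(Mp)[p]` has a representative defined over `K` with BOTH level norms
exact `p`-th powers over `K`. -/
theorem exists_isRep_exact_norms (hΔ : W.Δ ≠ 0) (hp2 : p ≠ 2) (hirr : W.ModRepIsIrreducible p)
    (hpM : ¬ p ∣ M) (K : IntermediateField ℚ Qbar) (x : Jtors (M * p) p)
    (hx : x ∈ Wtheta W p (M * p)) (hnew : (x : JZero (M * p)) ∈ newPart M p)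
    (hfix : ∀ σ ∈ K.fixingSubgroup, σ • (x : JZero (M * p)) = (x : JZero (M * p))) :
    ∃ fK : FF (Lvl K) (M * p), IsRep p (x : JZero (M * p)) (levK (M * p) K fK) ∧
      (∃ a' : FF (Lvl K) M, normAlphaK K M p fK = a' ^ p) ∧
      (∃ b' : FF (Lvl K) M, normBetaK K M p fK = b' ^ p) := by
  have hp : p.Prime := Fact.out
  obtain ⟨f₀, hf₀⟩ := Fermat.Agent.S40.M1.DescentSmall.exists_isRep_level hp.ne_zero K
    (x : JZero (M * p)) (Fermat.Agent.S40.M1.DescentSmall.nsmul_coe_eq_zero x) hfix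
  obtain ⟨a, ha, hA, hB, hnA, hnB⟩ :=
    Fermat.Agent.S40.M1.ThetaInvIrr.exists_rescale_norms_pow_of_irr hΔ hp2 hirr hpM K x hx hnew
      f₀ hf₀
  exact ⟨algebraMap (Lvl K) (FF (Lvl K) (M * p)) a * f₀,
    Fermat.Agent.S40.M1.ThetaInvIrr.isRep_const_mul K hf₀ ha, ⟨hA, hnA⟩, ⟨hB, hnB⟩⟩

/-- ★ **The same for a copy `V` of `W[p]`** inside the `θ`-eigenspace and the `p`-new part, and any
field `K` over which the points of `W[p]` are rational. -/
theorem exists_isRep_exact_norms_of_copyOfE (hΔ : W.Δ ≠ 0) (hp2 : p ≠ 2)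
    (hirr : W.ModRepIsIrreducible p) (hpM : ¬ p ∣ M)
    {V : Submodule (ZMod p) (Jtors (M * p) p)} (hC : CopyOfE W p V)
    (hle : V ≤ Wtheta W p (M * p))
    (hnewV : ∀ x ∈ V, ((x : Jtors (M * p) p) : JZero (M * p)) ∈ newPart M p)
    (K : IntermediateField ℚ Qbar)
    (hK : ∀ σ ∈ K.fixingSubgroup, ∀ e : Tp p W, σ • e = e) (x : Jtors (M * p) p) (hx : x ∈ V) :
    ∃ fK : FF (Lvl K) (M * p), IsRep p (x : JZero (M * p)) (levK (M * p) K fK) ∧
      (∃ a' : FF (Lvl K) M, normAlphaK K M p fK = a' ^ p) ∧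
      (∃ b' : FF (Lvl K) M, normBetaK K M p fK = b' ^ p) :=
  exists_isRep_exact_norms hΔ hp2 hirr hpM K x (hle hx) (hnewV x hx)
    (Fermat.Agent.S40.M1.DescentSmall.smul_eq_of_copyOfE hC K hK x hx)

end Head

end Fermat.Agent.S40.M1.Rescale
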