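/-
S40 / S44 (row 38), T6′ static route, (R4) final step, leaf (EPS), helper1's shapes (#3198 (e)):
specialisations of `UnitPow.exists_pow_mul` to a local ring `O` with `𝔪_O = (p)` and perfect
residue field of characteristic `p` (the unramified base ring `O₀`):

* `exists_pow_mul_self` : every unit `ε` of `O` is `c ^ p * (1 + p d)`, `c` a unit;
* `exists_pow_mul_ratio` : for units `ε₁, ε₂`: `ε₁ ^ n = ε₂ ^ n * (c ^ p * (1 + p d))`;
* `exists_pow_mul_div` : the same for a local subring `O` of a field `L`, with division.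

Mathlib + `UnitPow` only.
-/
import Mathlib
import Fermat.Agent.S40.M1.UnitPow

set_option autoImplicit false
set_option linter.style.haveILetI false

namespace Fermat.Agent.S40.M1.UnitPowLocal

open IsLocalRing Fermat.Agent.S40.M1.UnitPow

section Local

variable {O : Type*} [CommRing O] [IsLocalRing O]

/-- `𝔪_O = (p)`, perfect residue field: every unit is `c ^ p * (1 + p d)`. -/
theorem exists_pow_mul_self (p : ℕ) [Fact p.Prime] [CharP (ResidueField O) p]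
    [PerfectRing (ResidueField O) p] (hm : maximalIdeal O = Ideal.span {(p : O)})
    {ε : O} (hε : IsUnit ε) : ∃ c d : O, IsUnit c ∧ ε = c ^ p * (1 + (p : O) * d) := by
  have hm' : maximalIdeal O = Ideal.span {(p : O), (p : O)} := by
    rw [hm, Set.pair_eq_singleton]
  obtain ⟨r, hr, d, hd⟩ := exists_pow_mul p hm' (RingHom.id O)
    (Ideal.subset_span (Set.mem_singleton _)) hε
  exact ⟨r, d, hr, hd⟩

/-- Two-sided form: `ε₁ ^ n = ε₂ ^ n * (c ^ p * (1 + p d))`. -/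
theorem exists_pow_mul_ratio (p : ℕ) [Fact p.Prime] [CharP (ResidueField O) p]
    [PerfectRing (ResidueField O) p] (hm : maximalIdeal O = Ideal.span {(p : O)})
    {ε₁ ε₂ : O} (h₁ : IsUnit ε₁) (h₂ : IsUnit ε₂) (n : ℕ) :
    ∃ c d : O, IsUnit c ∧ ε₁ ^ n = ε₂ ^ n * (c ^ p * (1 + (p : O) * d)) := by
  obtain ⟨c₁, d₁, hc₁, he₁⟩ := exists_pow_mul_self p hm h₁
  obtain ⟨c₂, d₂, hc₂, he₂⟩ := exists_pow_mul_self p hm h₂
  obtain ⟨ε₂', hε₂'⟩ := h₂.exists_right_inv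
  obtain ⟨c₂', hc₂'⟩ := hc₂.exists_right_inv
  have hx₁ : IsOneAddP p ((1 + (p : O) * d₁) ^ n) := (IsOneAddP.pow ⟨d₁, rfl⟩ n)
  have hy₁ : IsOneAddP p ((1 + (p : O) * d₂) ^ n) := (IsOneAddP.pow ⟨d₂, rfl⟩ n)
  obtain ⟨z, ⟨d, rfl⟩, hz⟩ := exists_ratio (p := p) (x := ε₁ ^ n) (y := ε₂ ^ n)
    (y' := ε₂' ^ n) (a := c₁ ^ n) (b := c₂ ^ n) (b' := c₂' ^ n)
    (x₁ := (1 + (p : O) * d₁) ^ n) (y₁ := (1 + (p : O) * d₂) ^ n)
    (by rw [he₁, mul_pow, ← pow_mul, ← pow_mul, mul_comm p n])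
    (by rw [he₂, mul_pow, ← pow_mul, ← pow_mul, mul_comm p n]) hx₁ hy₁
    (by rw [← mul_pow, hε₂', one_pow]) (by rw [← mul_pow, hc₂', one_pow])
  refine ⟨c₁ ^ n * c₂' ^ n, d, ?_, ?_⟩
  · refine IsUnit.mul (hc₁.pow n) (IsUnit.pow n ?_)
    exact IsUnit.of_mul_eq_one c₂ (by rw [mul_comm]; exact hc₂')
  · have h3 : ε₂ ^ n * ε₂' ^ n = 1 := by rw [← mul_pow, hε₂', one_pow]
    calc ε₁ ^ n = ε₁ ^ n * (ε₂ ^ n * ε₂' ^ n) := by rw [h3, mul_one]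
      _ = ε₂ ^ n * (ε₁ ^ n * ε₂' ^ n) := by ring
      _ = ε₂ ^ n * ((c₁ ^ n * c₂' ^ n) ^ p * (1 + (p : O) * d)) := by rw [hz]

end Local

section Sub

variable {L : Type*} [Field L] (O : Subring L) [IsLocalRing O]

/-- Field form: `O` a local subring of a field `L` with `𝔪_O = (p)` and perfect residue field;
for `ε₁, ε₂ ∈ Oˣ`: `(ε₁ / ε₂) ^ n = c ^ p * (1 + p d)` with `c ∈ Oˣ`, `d ∈ O`. -/
theorem exists_pow_mul_div (p : ℕ) [Fact p.Prime] [CharP (ResidueField O) p]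
    [PerfectRing (ResidueField O) p] (hm : maximalIdeal O = Ideal.span {(p : O)})
    {ε₁ ε₂ : L} (h₁ : ε₁ ∈ O) (h₁' : ε₁⁻¹ ∈ O) (h₂ : ε₂ ∈ O) (h₂' : ε₂⁻¹ ∈ O) (h₁0 : ε₁ ≠ 0)
    (h₂0 : ε₂ ≠ 0) (n : ℕ) :
    ∃ c d : L, c ∈ O ∧ c⁻¹ ∈ O ∧ c ≠ 0 ∧ d ∈ O ∧ (ε₁ / ε₂) ^ n = c ^ p * (1 + (p : L) * d) := by
  have hu₁ : IsUnit (⟨ε₁, h₁⟩ : O) :=
    IsUnit.of_mul_eq_one (⟨ε₁⁻¹, h₁'⟩ : O) (Subtype.ext (mul_inv_cancel₀ h₁0))
  have hu₂ : IsUnit (⟨ε₂, h₂⟩ : O) :=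
    IsUnit.of_mul_eq_one (⟨ε₂⁻¹, h₂'⟩ : O) (Subtype.ext (mul_inv_cancel₀ h₂0))
  obtain ⟨c, d, hc, hcd⟩ := exists_pow_mul_ratio p hm hu₁ hu₂ n
  obtain ⟨c', hc'⟩ := hc.exists_right_inv
  have hc'L : (c : L) * (c' : L) = 1 := by
    have := congrArg (fun x : O => (x : L)) hc'
    simpa using this
  have hc0 : (c : L) ≠ 0 := left_ne_zero_of_mul_eq_one hc'L
  have hcinv : (c : L)⁻¹ = (c' : L) := by
    rw [← mul_one (c : L)⁻¹, ← hc'L, ← mul_assoc, inv_mul_cancel₀ hc0, one_mul]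
  refine ⟨c, d, c.2, by rw [hcinv]; exact c'.2, hc0, d.2, ?_⟩
  have h := congrArg (fun x : O => (x : L)) hcd
  simp only [Subring.coe_pow, Subring.coe_mul, Subring.coe_add, Subring.coe_one,
    Subring.coe_natCast] at h
  rw [div_pow, h, mul_div_assoc, mul_comm, div_mul_cancel₀]
  · exact pow_ne_zero n h₂0

end Sub

end Fermat.Agent.S40.M1.UnitPowLocal
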