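/-
S40 / T6′ static route, (R4) plumbing (helper21): **the base unramified level `K₀ := bigLevel A ⊥`**
(the level above `ℚ`), which lies below every `bigLevel A E` — the choice of `K₀` in
`R4Aux.r4Leaf … (hK₀ : IsUnramLevel A p K₀) (hK₀L : K₀ ≤ L₀)` for `L₀ := bigLevel A (smallField V)`.

* `isUnramLevel_bigLevel_bot`, `bigLevel_bot_le`.
-/
import Mathlib
import Fermat.Agent.S36.Descent.UnramLevel

set_option autoImplicit false
set_option linter.unusedSectionVars false

open Fermat.Agent.N4.BigDVR Fermat.Agent.P3G.Gamma Fermat.Agent.N4F.C.Levels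
open Fermat.Agent.S36.Descent.UnramLevel

namespace Fermat.Agent.S40.M1.UnramBase

local notation "Qbar" => AlgebraicClosure ℚ

variable (A : ValuationSubring Qbar)

/-- The level above `ℚ` is unramified. -/
theorem isUnramLevel_bigLevel_bot {q : ℕ} (hq : q.Prime) (hA : A.LiesOverPrime q) :
    IsUnramLevel A q (bigLevel A (⊥ : IntermediateField ℚ Qbar)) := by
  refine isUnramLevel_bigLevel hq hA ⊥ (fun σ _ x hx => ?_)
  obtain ⟨r, rfl⟩ := IntermediateField.mem_bot.1 hx
  exact σ.commutes r

/-- The level above `ℚ` lies below every level `bigLevel A E`. -/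
theorem bigLevel_bot_le (E : IntermediateField ℚ Qbar) :
    bigLevel A (⊥ : IntermediateField ℚ Qbar) ≤ bigLevel A E :=
  bigLevel_mono A bot_le

end Fermat.Agent.S40.M1.UnramBase
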